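/-
S27-B, piece RR0-LOC (helper24): **the local count for Weil's repartitions**

  `D ≤ D'  ⟹  dim_K A(D') / A(D) = deg D' − deg D`

for the prelude's `repartitionsOf` (`A(D)`), places of any finite degree, no hypothesis on `K`.

* `S27rlRel N₁ N₂ d`   : `N₁ ≤ N₂` are submodules of a `K`-module and `N₂ / N₁` is finite of
  dimension `d`; `s27rl_rel_refl`, `s27rl_rel_trans` (tower), `s27rl_rel_of_surjective`;
* `s27rlRes`            : the residue map `A(D + v) → κ(v)`, `α ↦ (α_v π ^ (D v + 1)) mod 𝔪_v`;
* `s27rl_rel_single`    : `A(D + v) / A(D) ≅ κ(v)`;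
* `s27rl_rel`           : `S27rlRel A(D) A(D') (deg D' − deg D).toNat` for `D ≤ D'`;
* `s27rl_exists_le`     : every repartition lies in `A(D'')` for some `D'' ≥ D₀`
  (`HasPrincipalDivisors`).
-/
import Fermat.Prelude.Def_AlgebraicCurve_Repartitions
import Fermat.Agent.S26.ERR1

set_option autoImplicit false
set_option linter.style.haveILetI false
set_option linter.unusedSectionVars false
set_option linter.unusedVariables false

noncomputable section

namespace Fermat.Agent.S27

open AlgebraicCurve Module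
open Fermat.Agent.S24 Fermat.Agent.ES.R Fermat.Agent.S26

/-! ### Relative dimension of a pair of submodules -/

section Rel

variable {K M : Type*} [Field K] [AddCommGroup M] [Module K M]

/-- `N₁ ≤ N₂` and `N₂ / N₁` is finite of dimension `d` -/
def S27rlRel (N₁ N₂ : Submodule K M) (d : ℕ) : Prop :=
  N₁ ≤ N₂ ∧ Module.Finite K (↥N₂ ⧸ N₁.comap N₂.subtype) ∧
    Module.finrank K (↥N₂ ⧸ N₁.comap N₂.subtype) = d

/-- a surjection `N₂ → V` with kernel `N₁` computes `N₂ / N₁` -/
theorem s27rl_rel_of_surjective {N₁ N₂ : Submodule K M} (h : N₁ ≤ N₂)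
    {V : Type*} [AddCommGroup V] [Module K V] [Module.Finite K V] (f : ↥N₂ →ₗ[K] V)
    (hf : Function.Surjective f) (hker : ∀ x : ↥N₂, f x = 0 ↔ (x : M) ∈ N₁) :
    S27rlRel N₁ N₂ (Module.finrank K V) := by
  have hk : LinearMap.ker f = N₁.comap N₂.subtype := by
    ext x
    rw [LinearMap.mem_ker, hker, Submodule.mem_comap, Submodule.subtype_apply]
  have e : (↥N₂ ⧸ N₁.comap N₂.subtype) ≃ₗ[K] V :=
    (Submodule.quotEquivOfEq _ _ hk.symm).trans (f.quotKerEquivOfSurjective hf)
  exact ⟨h, Module.Finite.equiv e.symm, e.finrank_eq⟩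

theorem s27rl_rel_refl (N : Submodule K M) : S27rlRel N N 0 := by
  have h : N.comap N.subtype = ⊤ := by
    ext x
    simp
  refine ⟨le_rfl, ?_, ?_⟩
  · rw [h]
    infer_instance
  · rw [h]
    exact finrank_zero_of_subsingleton

/-- **tower**: `dim N₃ / N₁ = dim N₂ / N₁ + dim N₃ / N₂` -/
theorem s27rl_rel_trans {N₁ N₂ N₃ : Submodule K M} {d e : ℕ} (h12 : S27rlRel N₁ N₂ d)
    (h23 : S27rlRel N₂ N₃ e) : S27rlRel N₁ N₃ (d + e) := by
  obtain ⟨l12, f12, r12⟩ := h12
  obtain ⟨l23, f23, r23⟩ := h23
  set q₁ : Submodule K ↥N₃ := N₁.comap N₃.subtype with hq₁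
  set q₂ : Submodule K ↥N₃ := N₂.comap N₃.subtype with hq₂
  have hq : q₁ ≤ q₂ := Submodule.comap_mono l12
  -- the projection `N₃ / N₁ → N₃ / N₂`
  let π : (↥N₃ ⧸ q₁) →ₗ[K] (↥N₃ ⧸ q₂) := Submodule.mapQ q₁ q₂ LinearMap.id
    (by rw [Submodule.comap_id]; exact hq)
  have hπ : Function.Surjective π := by
    intro y
    obtain ⟨z, rfl⟩ := Submodule.Quotient.mk_surjective _ y
    exact ⟨Submodule.Quotient.mk z, rfl⟩
  -- the inclusion `N₂ → N₃ / N₁`
  let g : ↥N₂ →ₗ[K] (↥N₃ ⧸ q₁) := q₁.mkQ ∘ₗ Submodule.inclusion l23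
  have hg : LinearMap.ker g = N₁.comap N₂.subtype := by
    ext x
    rw [LinearMap.mem_ker, LinearMap.comp_apply, Submodule.mkQ_apply,
      Submodule.Quotient.mk_eq_zero, Submodule.mem_comap, Submodule.mem_comap]
    rfl
  have hrange : LinearMap.range g = LinearMap.ker π := by
    ext y
    obtain ⟨z, rfl⟩ := Submodule.Quotient.mk_surjective _ y
    rw [LinearMap.mem_ker, LinearMap.mem_range]
    have hπz : π (Submodule.Quotient.mk z) = Submodule.Quotient.mk z := rfl
    rw [hπz, Submodule.Quotient.mk_eq_zero]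
    constructor
    · rintro ⟨x, hx⟩
      have hx' : Submodule.Quotient.mk (Submodule.inclusion l23 x) =
          (Submodule.Quotient.mk z : ↥N₃ ⧸ q₁) := hx
      rw [Submodule.Quotient.eq] at hx'
      have h1 : Submodule.inclusion l23 x ∈ q₂ := by
        rw [hq₂, Submodule.mem_comap]
        exact x.2
      have h2 := q₂.sub_mem h1 (hq hx')
      rwa [sub_sub_cancel] at h2
    · intro hz
      rw [hq₂, Submodule.mem_comap] at hz
      refine ⟨⟨(z : M), hz⟩, ?_⟩
      show Submodule.Quotient.mk (Submodule.inclusion l23 ⟨(z : M), hz⟩) = _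
      congr 1
  -- dimensions
  have e₁ : (↥N₂ ⧸ N₁.comap N₂.subtype) ≃ₗ[K] ↥(LinearMap.ker π) :=
    ((Submodule.quotEquivOfEq _ _ hg.symm).trans g.quotKerEquivRange).trans
      (LinearEquiv.ofEq _ _ hrange)
  have e₂ : ((↥N₃ ⧸ q₁) ⧸ LinearMap.ker π) ≃ₗ[K] (↥N₃ ⧸ q₂) := π.quotKerEquivOfSurjective hπ
  haveI : Module.Finite K ↥(LinearMap.ker π) := Module.Finite.equiv e₁
  haveI : Module.Finite K ((↥N₃ ⧸ q₁) ⧸ LinearMap.ker π) := Module.Finite.equiv e₂.symm
  haveI : Module.Finite K (↥N₃ ⧸ q₁) := Module.Finite.of_submodule_quotient (LinearMap.ker π)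
  refine ⟨l12.trans l23, inferInstance, ?_⟩
  have h := (LinearMap.ker π).finrank_quotient_add_finrank
  have h1 : Module.finrank K ↥(LinearMap.ker π) = d := by
    rw [← e₁.finrank_eq]
    exact r12
  have h2 : Module.finrank K ((↥N₃ ⧸ q₁) ⧸ LinearMap.ker π) = e := by
    rw [e₂.finrank_eq]
    exact r23
  rw [h1, h2] at h
  show Module.finrank K (↥N₃ ⧸ q₁) = d + e
  omega

end Rel

variable {K F : Type*} [Field K] [Field F] [Algebra K F]

/-! ### The residue map `A(D + v) → κ(v)` -/

/-- the value of a repartition at a place -/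
abbrev s27rlVal (α : ↥(repartitions K F)) (v : Place K F) : F := (α : Place K F → F) v

/-- `α_v π ^ (D v + 1)` is integral at `v` for `α ∈ A(D + v)` -/
theorem s27rl_mul_mem (D : Divisor K F) (v : Place K F) {π : F} (hπ0 : π ≠ 0)
    (hπ : v.ord π = 1) {α : ↥(repartitions K F)}
    (hα : α ∈ repartitionsOf (D + Finsupp.single v 1)) :
    s27rlVal α v * π ^ (D v + 1) ∈ v.toValuationSubring := by
  rcases eq_or_ne (s27rlVal α v) 0 with h0 | h0
  · rw [h0, zero_mul]; exact zero_mem _
  apply PlaceAux.mem_of_ord_nonneg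
  rw [mem_repartitionsOf_iff] at hα
  have h := (hα v).resolve_left h0
  simp only [Finsupp.coe_add, Pi.add_apply, Finsupp.single_eq_same] at h
  rw [v.ord_mul h0 (zpow_ne_zero _ hπ0), v.ord_zpow, hπ]
  linarith

/-- **the residue map** `A(D + v) → κ(v)` -/
noncomputable def s27rlRes (D : Divisor K F) (v : Place K F) {π : F} (hπ0 : π ≠ 0)
    (hπ : v.ord π = 1) : ↥(repartitionsOf (D + Finsupp.single v 1)) →ₗ[K] v.ResidueField where
  toFun α := IsLocalRing.residue v.toValuationSubring
    ⟨s27rlVal (α : ↥(repartitions K F)) v * π ^ (D v + 1), s27rl_mul_mem D v hπ0 hπ α.2⟩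
  map_add' α β := by
    rw [← map_add]
    congr 1
    apply Subtype.ext
    show (s27rlVal (α : ↥(repartitions K F)) v + s27rlVal (β : ↥(repartitions K F)) v) *
        π ^ (D v + 1) =
      s27rlVal (α : ↥(repartitions K F)) v * π ^ (D v + 1) +
        s27rlVal (β : ↥(repartitions K F)) v * π ^ (D v + 1)
    rw [add_mul]
  map_smul' c α := by
    rw [RingHom.id_apply, Algebra.smul_def, ← IsLocalRing.ResidueField.algebraMap_eq,
      IsScalarTower.algebraMap_apply K v.toValuationSubring v.ResidueField,
      IsLocalRing.ResidueField.algebraMap_eq, ← map_mul]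
    congr 1
    apply Subtype.ext
    show (c • (((α : ↥(repartitions K F)) : Place K F → F))) v * π ^ (D v + 1) =
      algebraMap K F c * (s27rlVal (α : ↥(repartitions K F)) v * π ^ (D v + 1))
    rw [Pi.smul_apply, Algebra.smul_def, mul_assoc]

/-- the kernel of the residue map is `A(D)` -/
theorem s27rlRes_eq_zero_iff (D : Divisor K F) (v : Place K F) {π : F} (hπ0 : π ≠ 0)
    (hπ : v.ord π = 1) (α : ↥(repartitionsOf (D + Finsupp.single v 1))) :
    s27rlRes D v hπ0 hπ α = 0 ↔ (α : ↥(repartitions K F)) ∈ repartitionsOf D := by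
  have hα := α.2
  rw [mem_repartitionsOf_iff] at hα
  show IsLocalRing.residue v.toValuationSubring
    ⟨s27rlVal (α : ↥(repartitions K F)) v * π ^ (D v + 1), s27rl_mul_mem D v hπ0 hπ α.2⟩ = 0 ↔ _
  rw [IsLocalRing.residue_eq_zero_iff, mem_repartitionsOf_iff]
  have hother : ∀ w : Place K F, w ≠ v →
      (((α : ↥(repartitions K F)) : Place K F → F) w = 0 ∨
        -D w ≤ w.ord (((α : ↥(repartitions K F)) : Place K F → F) w)) := by
    intro w hw
    rcases hα w with h | h
    · exact Or.inl h
    · right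
      simp only [Finsupp.coe_add, Pi.add_apply] at h
      rwa [Finsupp.single_eq_of_ne (Ne.symm (Ne.symm hw)), add_zero] at h
  rcases eq_or_ne (s27rlVal (α : ↥(repartitions K F)) v) 0 with h0 | h0
  · constructor
    · intro _ w
      by_cases hw : w = v
      · subst hw
        exact Or.inl h0
      · exact hother w hw
    · intro _
      have e : (⟨s27rlVal (α : ↥(repartitions K F)) v * π ^ (D v + 1),
          s27rl_mul_mem D v hπ0 hπ α.2⟩ : v.toValuationSubring) = 0 := by
        apply Subtype.ext
        show s27rlVal (α : ↥(repartitions K F)) v * π ^ (D v + 1) = 0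
        rw [h0, zero_mul]
      rw [e]
      exact zero_mem _
  have hx0 : s27rlVal (α : ↥(repartitions K F)) v * π ^ (D v + 1) ≠ 0 :=
    mul_ne_zero h0 (zpow_ne_zero _ hπ0)
  have hord : v.ord (s27rlVal (α : ↥(repartitions K F)) v * π ^ (D v + 1)) =
      v.ord (s27rlVal (α : ↥(repartitions K F)) v) + (D v + 1) := by
    rw [v.ord_mul h0 (zpow_ne_zero _ hπ0), v.ord_zpow, hπ, mul_one]
  have key : (⟨s27rlVal (α : ↥(repartitions K F)) v * π ^ (D v + 1),
      s27rl_mul_mem D v hπ0 hπ α.2⟩ : v.toValuationSubring) ∈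
      IsLocalRing.maximalIdeal v.toValuationSubring ↔
        0 < v.ord (s27rlVal (α : ↥(repartitions K F)) v * π ^ (D v + 1)) := by
    rw [PlaceAux.ord_pos_iff_mem_nonunits v hx0,
      ValuationSubring.mem_nonunits_iff_exists_mem_maximalIdeal]
    exact ⟨fun h => ⟨_, h⟩, fun ⟨_, h⟩ => h⟩
  rw [key, hord]
  constructor
  · intro h w
    by_cases hw : w = v
    · subst hw
      right
      show -D w ≤ w.ord (s27rlVal (α : ↥(repartitions K F)) w)
      omega
    · exact hother w hw
  · intro h
    have := (h v).resolve_left h0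
    have h' : -D v ≤ v.ord (s27rlVal (α : ↥(repartitions K F)) v) := this
    omega

/-- the repartition with the single component `x` at `v` -/
def s27rlSingle (v : Place K F) (x : F) : ↥(repartitions K F) :=
  ⟨fun w => by classical exact if w = v then x else 0, by
    classical
    apply mem_repartitions_of_finite_ord
    refine (Set.finite_singleton v).subset ?_
    intro w hw
    by_contra hne
    rw [Set.mem_singleton_iff] at hne
    have hw' : w.ord (if w = v then x else 0) < 0 := hw
    rw [if_neg hne, Place.ord_zero] at hw'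
    exact lt_irrefl _ hw'⟩

theorem s27rlSingle_same (v : Place K F) (x : F) : s27rlVal (s27rlSingle v x) v = x := by
  classical
  show (if v = v then x else 0) = x
  rw [if_pos rfl]

theorem s27rlSingle_of_ne (v : Place K F) (x : F) {w : Place K F} (hw : w ≠ v) :
    s27rlVal (s27rlSingle v x) w = 0 := by
  classical
  show (if w = v then x else 0) = 0
  rw [if_neg hw]

/-- the residue map is surjective -/
theorem s27rlRes_surjective (D : Divisor K F) (v : Place K F) {π : F} (hπ0 : π ≠ 0)
    (hπ : v.ord π = 1) : Function.Surjective (s27rlRes D v hπ0 hπ) := by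
  intro c
  obtain ⟨u, rfl⟩ := IsLocalRing.residue_surjective c
  have hmem : s27rlSingle v ((u : F) * π ^ (-(D v + 1))) ∈
      repartitionsOf (D + Finsupp.single v 1) := by
    rw [mem_repartitionsOf_iff]
    intro w
    by_cases hw : w = v
    · subst hw
      rcases eq_or_ne (u : F) 0 with hu | hu
      · left
        show s27rlVal (s27rlSingle w ((u : F) * π ^ (-(D w + 1)))) w = 0
        rw [s27rlSingle_same, hu, zero_mul]
      · right
        show -((D + Finsupp.single w 1 : Divisor K F) w) ≤
          w.ord (s27rlVal (s27rlSingle w ((u : F) * π ^ (-(D w + 1)))) w)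
        rw [s27rlSingle_same, w.ord_mul hu (zpow_ne_zero _ hπ0), w.ord_zpow, hπ]
        have h1 : 0 ≤ w.ord (u : F) := (PlaceAux.ord_nonneg_iff w hu).2 u.2
        simp only [Finsupp.coe_add, Pi.add_apply, Finsupp.single_eq_same]
        linarith
    · left
      exact s27rlSingle_of_ne v _ hw
  refine ⟨⟨_, hmem⟩, ?_⟩
  show IsLocalRing.residue v.toValuationSubring
    ⟨s27rlVal (s27rlSingle v ((u : F) * π ^ (-(D v + 1)))) v * π ^ (D v + 1), _⟩ = _
  congr 1
  apply Subtype.ext
  show s27rlVal (s27rlSingle v ((u : F) * π ^ (-(D v + 1)))) v * π ^ (D v + 1) = (u : F)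
  rw [s27rlSingle_same, mul_assoc, ← zpow_add₀ hπ0, neg_add_cancel, zpow_zero, mul_one]

/-- **one place**: `A(D + v) / A(D) ≅ κ(v)` -/
theorem s27rl_rel_single (D : Divisor K F) (v : Place K F)
    (hfin : Module.Finite K v.ResidueField) :
    S27rlRel (repartitionsOf D) (repartitionsOf (D + Finsupp.single v 1)) v.deg := by
  obtain ⟨π, hπ0, hπ⟩ := s26err_exists_unif v
  haveI := hfin
  have hle : D ≤ D + Finsupp.single v 1 := by
    apply le_add_of_nonneg_right
    intro w
    by_cases hw : w = v
    · subst hw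
      simp
    · rw [Finsupp.single_eq_of_ne (Ne.symm (Ne.symm hw))]
      simp
  exact s27rl_rel_of_surjective (repartitionsOf_mono hle) (s27rlRes D v hπ0 hπ)
    (s27rlRes_surjective D v hπ0 hπ) (s27rlRes_eq_zero_iff D v hπ0 hπ)

/-! ### From one place to `D ≤ D'` -/

/-- `A(D + n v) / A(D)` has dimension `n deg v` -/
theorem s27rl_rel_single_nat (hfin : ∀ v : Place K F, Module.Finite K v.ResidueField)
    (D : Divisor K F) (v : Place K F) (n : ℕ) :
    S27rlRel (repartitionsOf D) (repartitionsOf (D + Finsupp.single v (n : ℤ))) (n * v.deg) := by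
  induction n with
  | zero =>
    have h : D + Finsupp.single v ((0 : ℕ) : ℤ) = D := by
      rw [Nat.cast_zero, Finsupp.single_zero, add_zero]
    rw [h, zero_mul]
    exact s27rl_rel_refl _
  | succ n ih =>
    have h : D + Finsupp.single v ((n + 1 : ℕ) : ℤ) =
        (D + Finsupp.single v (n : ℤ)) + Finsupp.single v 1 := by
      rw [Nat.cast_add, Nat.cast_one, Finsupp.single_add, add_assoc]
    rw [h, Nat.add_mul, one_mul]
    exact s27rl_rel_trans ih (s27rl_rel_single _ v (hfin v))

/-- the degree of an effective divisor is `≥ 0` -/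
theorem s27rl_degree_nonneg {E : Divisor K F} (hE : 0 ≤ E) : 0 ≤ Divisor.degree E := by
  classical
  induction E using Finsupp.induction with
  | zero => simp
  | single_add a b f ha hb ih =>
    have hb0 : 0 ≤ b := by
      have h := hE a
      simp only [Finsupp.coe_zero, Pi.zero_apply, Finsupp.coe_add, Pi.add_apply,
        Finsupp.single_eq_same] at h
      rw [Finsupp.notMem_support_iff.mp ha, add_zero] at h
      exact h
    have hf0 : 0 ≤ f := by
      intro w
      by_cases hw : w = a
      · subst hw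
        rw [Finsupp.notMem_support_iff.mp ha]
        simp
      · have h := hE w
        simp only [Finsupp.coe_zero, Pi.zero_apply, Finsupp.coe_add, Pi.add_apply] at h
        rw [Finsupp.single_eq_of_ne (Ne.symm (Ne.symm hw)), zero_add] at h
        simpa using h
    rw [map_add, Divisor.degree_single]
    have := ih hf0
    positivity

/-- `A(D + E) / A(D)` has dimension `deg E` for `E ≥ 0` -/
theorem s27rl_rel_add (hfin : ∀ v : Place K F, Module.Finite K v.ResidueField)
    (E : Divisor K F) (hE : 0 ≤ E) (D : Divisor K F) :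
    ∃ d : ℕ, (d : ℤ) = Divisor.degree E ∧
      S27rlRel (repartitionsOf D) (repartitionsOf (D + E)) d := by
  classical
  induction E using Finsupp.induction generalizing D with
  | zero =>
    refine ⟨0, by simp, ?_⟩
    rw [add_zero]
    exact s27rl_rel_refl _
  | single_add a b f ha hb ih =>
    have hb0 : 0 ≤ b := by
      have h := hE a
      simp only [Finsupp.coe_zero, Pi.zero_apply, Finsupp.coe_add, Pi.add_apply,
        Finsupp.single_eq_same] at h
      rw [Finsupp.notMem_support_iff.mp ha, add_zero] at h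
      exact h
    have hf0 : 0 ≤ f := by
      intro w
      by_cases hw : w = a
      · subst hw
        rw [Finsupp.notMem_support_iff.mp ha]
        simp
      · have h := hE w
        simp only [Finsupp.coe_zero, Pi.zero_apply, Finsupp.coe_add, Pi.add_apply] at h
        rw [Finsupp.single_eq_of_ne (Ne.symm (Ne.symm hw)), zero_add] at h
        simpa using h
    obtain ⟨d, hd, hrel⟩ := ih hf0 D
    obtain ⟨n, hn⟩ := Int.eq_ofNat_of_zero_le hb0
    have h1 := s27rl_rel_single_nat hfin (D + f) a n
    have h2 : D + (Finsupp.single a b + f) = (D + f) + Finsupp.single a (n : ℤ) := by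
      rw [hn]
      abel
    refine ⟨d + n * a.deg, ?_, ?_⟩
    · rw [map_add, Divisor.degree_single, hn, ← hd]
      push_cast
      ring
    · rw [h2]
      exact s27rl_rel_trans hrel h1

/-- **RR0-LOC**: `S27rlRel A(D) A(D') d` with `d = deg D' − deg D`, for `D ≤ D'`. -/
theorem s27rl_rel (hfin : ∀ v : Place K F, Module.Finite K v.ResidueField)
    {D D' : Divisor K F} (h : D ≤ D') :
    ∃ d : ℕ, (d : ℤ) = Divisor.degree D' - Divisor.degree D ∧
      S27rlRel (repartitionsOf D) (repartitionsOf D') d := by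
  obtain ⟨d, hd, hrel⟩ := s27rl_rel_add hfin (D' - D) (sub_nonneg.mpr h) D
  refine ⟨d, ?_, ?_⟩
  · rw [hd, map_sub]
  · rwa [add_sub_cancel] at hrel

/-- unfolding `S27rlRel`: finiteness -/
theorem S27rlRel.finite {K M : Type*} [Field K] [AddCommGroup M] [Module K M]
    {N₁ N₂ : Submodule K M} {d : ℕ} (h : S27rlRel N₁ N₂ d) :
    Module.Finite K (↥N₂ ⧸ N₁.comap N₂.subtype) := h.2.1

/-- unfolding `S27rlRel`: dimension -/
theorem S27rlRel.finrank_eq {K M : Type*} [Field K] [AddCommGroup M] [Module K M]
    {N₁ N₂ : Submodule K M} {d : ℕ} (h : S27rlRel N₁ N₂ d) :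
    Module.finrank K (↥N₂ ⧸ N₁.comap N₂.subtype) = d := h.2.2

theorem S27rlRel.le {K M : Type*} [Field K] [AddCommGroup M] [Module K M]
    {N₁ N₂ : Submodule K M} {d : ℕ} (h : S27rlRel N₁ N₂ d) : N₁ ≤ N₂ := h.1

/-! ### Every repartition is bounded by a divisor -/

/-- the functions `Place K F → F` with finitely many poles form an `F`-subalgebra (given that
principal divisors have finite support) -/
def s27rlFin (K F : Type*) [Field K] [Field F] [Algebra K F] [HasPrincipalDivisors K F] :
    Subalgebra F (Place K F → F) where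
  carrier := {β | {v : Place K F | v.ord (β v) < 0}.Finite}
  mul_mem' := by
    intro β γ hβ hγ
    refine (Set.Finite.union hβ hγ).subset ?_
    intro v hv
    have hv' : v.ord (β v * γ v) < 0 := hv
    by_contra hcon
    rw [Set.mem_union, not_or] at hcon
    have h1 : 0 ≤ v.ord (β v) := not_lt.mp hcon.1
    have h2 : 0 ≤ v.ord (γ v) := not_lt.mp hcon.2
    rcases eq_or_ne (β v) 0 with hb | hb
    · rw [hb, zero_mul, Place.ord_zero] at hv'
      exact lt_irrefl _ hv'
    rcases eq_or_ne (γ v) 0 with hc | hc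
    · rw [hc, mul_zero, Place.ord_zero] at hv'
      exact lt_irrefl _ hv'
    rw [v.ord_mul hb hc] at hv'
    omega
  add_mem' := by
    intro β γ hβ hγ
    refine (Set.Finite.union hβ hγ).subset ?_
    intro v hv
    have hv' : v.ord (β v + γ v) < 0 := hv
    by_contra hcon
    rw [Set.mem_union, not_or] at hcon
    have h1 : 0 ≤ v.ord (β v) := not_lt.mp hcon.1
    have h2 : 0 ≤ v.ord (γ v) := not_lt.mp hcon.2
    have h3 := v.toValuationSubring.add_mem _ _ (PlaceAux.mem_of_ord_nonneg v h1)
      (PlaceAux.mem_of_ord_nonneg v h2)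
    rcases eq_or_ne (β v + γ v) 0 with h0 | h0
    · rw [h0, Place.ord_zero] at hv'
      exact lt_irrefl _ hv'
    · have := (PlaceAux.ord_nonneg_iff v h0).2 h3
      omega
  algebraMap_mem' := by
    intro f
    show {v : Place K F | v.ord f < 0}.Finite
    rcases eq_or_ne f 0 with rfl | hf
    · have e : {v : Place K F | v.ord (0 : F) < 0} = ∅ := by
        ext v
        simp
      rw [e]
      exact Set.finite_empty
    · obtain ⟨D, hD, -⟩ := HasPrincipalDivisors.exists_divisor (K := K) f hf
      refine D.support.finite_toSet.subset ?_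
      intro v hv
      rw [Finset.mem_coe, Finsupp.mem_support_iff, hD v]
      have hv' : v.ord f < 0 := hv
      omega

/-- every repartition has finitely many poles -/
theorem s27rl_finite_poles [HasPrincipalDivisors K F] (α : ↥(repartitions K F)) :
    {v : Place K F | v.ord (s27rlVal α v) < 0}.Finite := by
  have h : repartitions K F ≤ s27rlFin K F := by
    apply Algebra.adjoin_le
    intro β hβ
    have e : {v : Place K F | v.ord (β v) < 0} =
        {v : Place K F | ¬v.adicValuation (β v) ≤ 1} :=
      Set.ext fun v => (v.not_adicValuation_le_one_iff).symm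
    show {v : Place K F | v.ord (β v) < 0}.Finite
    rw [e]
    exact hβ
  exact h α.2

/-- every repartition lies in `A(D'')` for some `D'' ≥ D₀` -/
theorem s27rl_exists_le [HasPrincipalDivisors K F] (α : ↥(repartitions K F))
    (D₀ : Divisor K F) : ∃ D'' : Divisor K F, D₀ ≤ D'' ∧ α ∈ repartitionsOf D'' := by
  classical
  have hfin := s27rl_finite_poles α
  set S : Finset (Place K F) := hfin.toFinset with hS
  set E : Divisor K F := Finsupp.onFinset S (fun v => if v ∈ S then -v.ord (s27rlVal α v) else 0)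
    (fun v hv => by
      by_contra hne
      rw [if_neg hne] at hv
      exact hv rfl) with hE
  have hE0 : 0 ≤ E := by
    intro v
    rw [hE, Finsupp.onFinset_apply]
    by_cases hv : v ∈ S
    · rw [if_pos hv]
      have : v.ord (s27rlVal α v) < 0 := by
        rw [hS, Set.Finite.mem_toFinset] at hv
        exact hv
      simp only [Finsupp.coe_zero, Pi.zero_apply]
      omega
    · rw [if_neg hv]
      simp
  refine ⟨D₀ ⊔ E, le_sup_left, ?_⟩
  rw [mem_repartitionsOf_iff]
  intro v
  right
  have h1 : E v ≤ (D₀ ⊔ E) v := Finsupp.le_def.mp le_sup_right v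
  have h2 : -E v ≤ v.ord (s27rlVal α v) := by
    rw [hE, Finsupp.onFinset_apply]
    by_cases hv : v ∈ S
    · rw [if_pos hv, neg_neg]
    · rw [if_neg hv, neg_zero]
      rw [hS, Set.Finite.mem_toFinset] at hv
      exact not_lt.mp hv
  show -(D₀ ⊔ E) v ≤ v.ord (s27rlVal α v)
  omega

end Fermat.Agent.S27

end
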