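/-
S27-B, piece RR0-LOC (helper24), second file: the local count in the shape of helper51's
RR0-GLOB — the IMAGE of `A(D')` in `A ⧸ A(D)`:

  `D ≤ D'  ⟹  Submodule.map (repartitionsOf D).mkQ (repartitionsOf D')` is finite of dimension
  `deg D' − deg D`.
-/
import Fermat.Agent.S27.RR0Loc

set_option autoImplicit false
set_option linter.style.haveILetI false
set_option linter.unusedSectionVars false
set_option linter.unusedVariables false

noncomputable section

namespace Fermat.Agent.S27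

open AlgebraicCurve Module

section Rel

variable {K M : Type*} [Field K] [AddCommGroup M] [Module K M]

/-- `N₂ / N₁` as the image of `N₂` in `M ⧸ N₁` -/
def s27rlMapEquiv (N₁ N₂ : Submodule K M) :
    (↥N₂ ⧸ N₁.comap N₂.subtype) ≃ₗ[K] ↥(N₂.map N₁.mkQ) :=
  have hk : LinearMap.ker (N₁.mkQ ∘ₗ N₂.subtype) = N₁.comap N₂.subtype := by
    rw [LinearMap.ker_comp, Submodule.ker_mkQ]
  have hr : LinearMap.range (N₁.mkQ ∘ₗ N₂.subtype) = N₂.map N₁.mkQ := by
    rw [LinearMap.range_comp, Submodule.range_subtype]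
  ((Submodule.quotEquivOfEq _ _ hk.symm).trans
    (N₁.mkQ ∘ₗ N₂.subtype).quotKerEquivRange).trans (LinearEquiv.ofEq _ _ hr)

theorem s27rl_rel_map {N₁ N₂ : Submodule K M} {d : ℕ} (h : S27rlRel N₁ N₂ d) :
    Module.Finite K ↥(N₂.map N₁.mkQ) ∧ Module.finrank K ↥(N₂.map N₁.mkQ) = d := by
  haveI := h.2.1
  exact ⟨Module.Finite.equiv (s27rlMapEquiv N₁ N₂),
    by rw [← (s27rlMapEquiv N₁ N₂).finrank_eq]; exact h.2.2⟩

end Rel

variable {K F : Type*} [Field K] [Field F] [Algebra K F]

/-- **RR0-LOC**, image form: `dim_K (A(D') + A(D)) / A(D) = deg D' − deg D` for `D ≤ D'`. -/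
theorem s27rl_finrank_map (hfin : ∀ v : Place K F, Module.Finite K v.ResidueField)
    {D D' : Divisor K F} (h : D ≤ D') :
    Module.Finite K ↥(Submodule.map (repartitionsOf D).mkQ (repartitionsOf D')) ∧
      (Module.finrank K ↥(Submodule.map (repartitionsOf D).mkQ (repartitionsOf D')) : ℤ) =
        Divisor.degree D' - Divisor.degree D := by
  obtain ⟨d, hd, hrel⟩ := s27rl_rel hfin h
  obtain ⟨h1, h2⟩ := s27rl_rel_map hrel
  exact ⟨h1, by rw [h2, hd]⟩

/-- every repartition lies in some `A(D)` -/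
theorem s27rl_exists_mem [HasPrincipalDivisors K F] (α : ↥(repartitions K F)) :
    ∃ D : Divisor K F, α ∈ repartitionsOf D := by
  obtain ⟨D, -, hD⟩ := s27rl_exists_le α 0
  exact ⟨D, hD⟩

end Fermat.Agent.S27

end
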