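/-
S27-B, piece RR0 (helper51), FINAL: **Riemann's theorem with the prelude's `genusFF`**,
unconditional for a function field of one variable over an algebraically closed field.

On `S27/RR0Glob.lean` (helper51, global part), `S27/RR0LocQ.lean` (helper24, local count) and the
genus package of S26 (`S26/ERRGFinal.lean`, helper42/helper79).

`K` algebraically closed (any characteristic), `x ∈ F` transcendental, `[F : K(x)] < ∞`:

* `s27rr_loc`, `s27rr_existsLe` : the two inputs of `RR0Glob`, discharged;
* `s27rr_genus`      : `S26errfGenus K F (genusFF K F)`: `genusFF` IS the genus (least constant of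
                       Riemann's inequality);
* `s27rr_h1_final`   : `H1 D` is finite-dimensional, `l(D) − dim H1 D = deg D + 1 − genusFF`;
* `s27rr_riemann_final` : `deg D + 1 − genusFF ≤ l(D)`;
* `s27rr_large`      : `∃ c, ∀ D, c ≤ deg D → l(D) = deg D + 1 − genusFF`;
* `s27rr_exists_E0`  : `∃ E₀ ≥ 0, deg E₀ = genusFF, l(E₀) = 1`;
* `s27rr_genus_zero` : `genusFF = 0`, `deg D = 0` ⇒ `∃ f ≠ 0, f ∈ L(D)`   (the input `hR` of G0);
* `s27rr_package`    : everything in one statement.
-/
import Fermat.Agent.S27.RR0Glob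
import Fermat.Agent.S27.RR0LocQ
import Fermat.Agent.S26.ERRGFinal

set_option autoImplicit false
set_option linter.style.haveILetI false

open AlgebraicCurve Module IntermediateField

namespace Fermat.Agent.S27

open Fermat.Agent.S26

variable {K : Type*} {F : Type*} [Field K] [Field F] [Algebra K F]

/-- RR0-LOC, discharged (helper24's `s27rl_finrank_map`). -/
theorem s27rr_loc (hfin : ∀ v : Place K F, Module.Finite K v.ResidueField) : S27rrLoc K F :=
  fun _ _ h => s27rl_finrank_map hfin h

/-- RR0-LOC, discharged (helper24's `s27rl_exists_mem`). -/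
theorem s27rr_existsLe [HasPrincipalDivisors K F] : S27rrExistsLe K F :=
  fun α => s27rl_exists_mem α

section AlgClosed

variable [IsAlgClosed K] (x : F) (hx : Transcendental K x) [FiniteDimensional K⟮x⟯ F]

include hx

/-- **`genusFF` is the genus**: Riemann's inequality holds with `genusFF K F`, with equality for
some divisor. -/
theorem s27rr_genus : S26errfGenus K F (genusFF K F) := by
  haveI := s26err_hasPrincipalDivisors (K := K) x hx
  obtain ⟨γ, hγ, -⟩ := s26errg_main (K := K) x hx
  exact (s27rr_main (s27rr_loc (fun v => s26err_residue_finite x hx v)) s27rr_existsLe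
    (fun D => s26err_rr_finite' x hx D) (s26errg_rr_zero_finrank x hx) hγ).2.1

/-- `H1 D` is finite-dimensional and `l(D) − dim H1 D = deg D + 1 − genusFF`. -/
theorem s27rr_h1_final (D : Divisor K F) :
    Module.Finite K (H1 D) ∧
      (finrank K ↥(riemannRochSpace D) : ℤ) - finrank K (H1 D)
        = Divisor.degree D + 1 - genusFF K F := by
  haveI := s26err_hasPrincipalDivisors (K := K) x hx
  exact s27rr_h1 (s27rr_loc (fun v => s26err_residue_finite x hx v)) s27rr_existsLe
    (fun D => s26err_rr_finite' x hx D) (s27rr_genus x hx) D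

/-- Riemann's inequality with `genusFF`. -/
theorem s27rr_riemann_final (D : Divisor K F) :
    Divisor.degree D + 1 - genusFF K F ≤ (finrank K ↥(riemannRochSpace D) : ℤ) :=
  (s27rr_genus x hx).2.1 D

/-- Riemann's equality for divisors of large degree. -/
theorem s27rr_large :
    ∃ c : ℤ, ∀ A : Divisor K F, c ≤ Divisor.degree A →
      (finrank K ↥(riemannRochSpace A) : ℤ) = Divisor.degree A + 1 - genusFF K F :=
  s26errg_riemann_of_const x hx (s27rr_genus x hx)

/-- a non-special effective divisor of degree `genusFF`. -/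
theorem s27rr_exists_E0 :
    ∃ E₀ : Divisor K F, 0 ≤ E₀ ∧ Divisor.degree E₀ = genusFF K F ∧
      finrank K ↥(riemannRochSpace E₀) = 1 := by
  obtain ⟨γ, hγ, -, hE, -⟩ := s26errg_main (K := K) x hx
  have hg : (genusFF K F : ℤ) = γ := s26errf_genus_unique (s27rr_genus x hx) hγ
  rw [hg]
  exact hE

/-- the input `hR` of G0: genus `0` ⇒ every divisor of degree `0` has `L(D) ≠ 0`. -/
theorem s27rr_genus_zero (hg : genusFF K F = 0) :
    ∀ D : Divisor K F, Divisor.degree D = 0 → ∃ f : F, f ≠ 0 ∧ f ∈ riemannRochSpace D := by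
  haveI := s26err_hasPrincipalDivisors (K := K) x hx
  exact s27rr_exists_of_genus_zero (s27rr_loc (fun v => s26err_residue_finite x hx v))
    s27rr_existsLe (fun D => s26err_rr_finite' x hx D) (s26errg_rr_zero_finrank x hx)
    (s27rr_genus x hx) hg

/-- **RR0, the package.** -/
theorem s27rr_package :
    S26errfGenus K F (genusFF K F) ∧
    (∀ D : Divisor K F, Module.Finite K ↥(riemannRochSpace D)) ∧
    (∀ D : Divisor K F, Module.Finite K (H1 D) ∧
      (finrank K ↥(riemannRochSpace D) : ℤ) - finrank K (H1 D)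
        = Divisor.degree D + 1 - genusFF K F) ∧
    (∃ c : ℤ, ∀ A : Divisor K F, c ≤ Divisor.degree A →
      (finrank K ↥(riemannRochSpace A) : ℤ) = Divisor.degree A + 1 - genusFF K F) ∧
    (∃ E₀ : Divisor K F, 0 ≤ E₀ ∧ Divisor.degree E₀ = genusFF K F ∧
      finrank K ↥(riemannRochSpace E₀) = 1) ∧
    (∀ v : Place K F, v.deg = 1) ∧
    ∀ Q : Place K F, ∃ u : F, Q.ord u < 0 ∧ ∀ v : Place K F, v ≠ Q → 0 ≤ v.ord u := by
  obtain ⟨γ, -, -, -, hpole⟩ := s26errg_main (K := K) x hx
  exact ⟨s27rr_genus x hx, fun D => s26err_rr_finite' x hx D, fun D => s27rr_h1_final x hx D,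
    s27rr_large x hx, s27rr_exists_E0 x hx, fun v => s26errg_deg_eq_one x hx v, hpole⟩

end AlgClosed

end Fermat.Agent.S27
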