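/-
S27-B, §0 CONSTANTS of the geometry plan (NOTES/S27-geom.md), helper51 — duality-free.

`G₀ ≥ 0` of degree `g` with `l(G₀) = 1` (a non-special effective divisor), `O` a place of degree one
outside the support of `G₀`, `A := 2 G₀ − O` (degree `2g − 1`).  Then

* `s27rc_sub_eq_bot`  : `L(G₀ − O) = 0`;
* `s27rc_finrank_A`   : `l(A) = g`;
* `s27rc_finrank_add` : `l(A + M) = g + deg M` for every `M ≥ 0`;
* `s27rc_h1`          : `H1 (A + M) = 0` (dimension `0`), from RR0;
* `s27rc_main`        : the package over an algebraically closed field with `g = genusFF K F`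
                        (`G₀` from `s27rr_exists_E0`).

Inputs: Riemann's inequality with constant `g` and the one-point step (`S26/ERR1.lean`).
-/
import Fermat.Agent.S27.RR0Final

set_option autoImplicit false
set_option linter.style.haveILetI false

open AlgebraicCurve Module IntermediateField

namespace Fermat.Agent.S27

open Fermat.Agent.S24 Fermat.Agent.ES.R Fermat.Agent.S26

variable {K : Type*} {F : Type*} [Field K] [Field F] [Algebra K F]

/-- the divisor `A + M = 2 G₀ − O + M` -/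
noncomputable def s27rcA (G₀ : Divisor K F) (O : Place K F) (M : Divisor K F) : Divisor K F :=
  G₀ + G₀ - Finsupp.single O 1 + M

theorem s27rc_degree_A (G₀ : Divisor K F) (O : Place K F) (hO : O.deg = 1) (M : Divisor K F) :
    Divisor.degree (s27rcA G₀ O M) = 2 * Divisor.degree G₀ - 1 + Divisor.degree M := by
  rw [s27rcA, map_add, map_sub, map_add, Divisor.degree_single, hO]
  push_cast
  ring

/-- `L(G₀ − O) = 0` -/
theorem s27rc_sub_eq_bot {G₀ : Divisor K F} (hG0 : 0 ≤ G₀)
    (h1 : finrank K ↥(riemannRochSpace G₀) = 1) {O : Place K F} (hO : G₀ O = 0) :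
    riemannRochSpace (G₀ - Finsupp.single O 1) = ⊥ := by
  rw [eq_bot_iff]
  intro f hf
  rw [Submodule.mem_bot]
  have hle : G₀ - Finsupp.single O 1 ≤ G₀ := by
    rw [sub_le_self_iff]
    intro v
    by_cases hv : v = O
    · subst hv; simp
    · rw [Finsupp.single_eq_of_ne hv]; simp
  have hfG : f ∈ riemannRochSpace G₀ := rr_mono hle hf
  have h1G : (1 : F) ∈ riemannRochSpace G₀ := by
    rw [mem_riemannRochSpace_iff]
    intro v
    right
    rw [Place.ord_one]
    have := hG0 v
    simp only [Finsupp.coe_zero, Pi.zero_apply] at this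
    linarith
  have hne : (⟨1, h1G⟩ : ↥(riemannRochSpace G₀)) ≠ 0 := by
    intro h
    have := congrArg Subtype.val h
    simp at this
  obtain ⟨c, hc⟩ := exists_smul_eq_of_finrank_eq_one h1 hne ⟨f, hfG⟩
  have hfc : f = algebraMap K F c := by
    have := congrArg Subtype.val hc
    simp only [Submodule.coe_smul] at this
    rw [← this, Algebra.smul_def, mul_one]
  rw [mem_riemannRochSpace_iff] at hf
  rcases hf O with h0 | h0
  · exact h0
  · exfalso
    rw [hfc, PlaceAux.ord_algebraMap] at h0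
    have h2 : (G₀ - Finsupp.single O 1 : Divisor K F) O = -1 := by
      rw [Finsupp.sub_apply, hO, Finsupp.single_eq_same]; ring
    rw [h2] at h0
    norm_num at h0

section Count

variable [HasPrincipalDivisors K F]
  (hfin : ∀ v : Place K F, Module.Finite K v.ResidueField) {g : ℤ}
  (hR : ∀ A : Divisor K F, Divisor.degree A + 1 - g ≤ (finrank K ↥(riemannRochSpace A) : ℤ))
  {G₀ : Divisor K F} (hG0 : 0 ≤ G₀) (hdeg : Divisor.degree G₀ = g)
  (h1 : finrank K ↥(riemannRochSpace G₀) = 1) {O : Place K F} (hOdeg : O.deg = 1)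
  (hO : G₀ O = 0)

include hfin hR hG0 hdeg h1 hOdeg hO

/-- `l(2 G₀ − O + M) = g + deg M` for `M ≥ 0` -/
theorem s27rc_finrank_add {M : Divisor K F} (hM : 0 ≤ M) :
    (finrank K ↥(riemannRochSpace (s27rcA G₀ O M)) : ℤ) = g + Divisor.degree M := by
  have hdA := s27rc_degree_A G₀ O hOdeg M
  have hlow := hR (s27rcA G₀ O M)
  have hle : G₀ - Finsupp.single O 1 ≤ s27rcA G₀ O M := by
    have : s27rcA G₀ O M = (G₀ - Finsupp.single O 1) + (G₀ + M) := by
      rw [s27rcA]; abel
    rw [this]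
    exact le_add_of_nonneg_right (add_nonneg hG0 hM)
  have hup := s26err_finrank_le hfin hle
  rw [s27rc_sub_eq_bot hG0 h1 hO, finrank_bot] at hup
  have hd2 : Divisor.degree (G₀ - Finsupp.single O 1) = g - 1 := by
    rw [map_sub, Divisor.degree_single, hOdeg, hdeg]; push_cast; ring
  rw [hd2, hdA, hdeg] at hup
  rw [hdA, hdeg] at hlow
  push_cast at hup
  linarith

/-- `l(2 G₀ − O) = g` -/
theorem s27rc_finrank_A :
    (finrank K ↥(riemannRochSpace (s27rcA G₀ O 0)) : ℤ) = g := by
  have := s27rc_finrank_add hfin hR hG0 hdeg h1 hOdeg hO (M := 0) le_rfl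
  rwa [map_zero, add_zero] at this

end Count

section AlgClosed

variable [IsAlgClosed K] (x : F) (hx : Transcendental K x) [FiniteDimensional K⟮x⟯ F]

include hx

/-- `H1 (2 G₀ − O + M) = 0` -/
theorem s27rc_h1 {G₀ : Divisor K F} (hG0 : 0 ≤ G₀) (hdeg : Divisor.degree G₀ = genusFF K F)
    (h1 : finrank K ↥(riemannRochSpace G₀) = 1) {O : Place K F} (hO : G₀ O = 0)
    {M : Divisor K F} (hM : 0 ≤ M) :
    (finrank K ↥(riemannRochSpace (s27rcA G₀ O M)) : ℤ) = genusFF K F + Divisor.degree M ∧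
      Module.Finite K (H1 (s27rcA G₀ O M)) ∧ finrank K (H1 (s27rcA G₀ O M)) = 0 := by
  haveI := s26err_hasPrincipalDivisors (K := K) x hx
  have hOdeg : O.deg = 1 := s26errg_deg_eq_one x hx O
  have hl := s27rc_finrank_add (fun v => s26err_residue_finite x hx v)
    (s27rr_riemann_final x hx) hG0 hdeg h1 hOdeg hO hM
  obtain ⟨hf, hr⟩ := s27rr_h1_final x hx (s27rcA G₀ O M)
  refine ⟨hl, hf, ?_⟩
  rw [hl, s27rc_degree_A G₀ O hOdeg M, hdeg] at hr
  have : (finrank K (H1 (s27rcA G₀ O M)) : ℤ) = 0 := by linarith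
  exact_mod_cast this

/-- **§0, the package**: a non-special `G₀ ≥ 0` of degree `genusFF` exists, and for every place
`O` outside its support and every `M ≥ 0`: `L(G₀ − O) = 0`, `l(2G₀ − O + M) = genusFF + deg M`,
`H1 (2G₀ − O + M) = 0`. -/
theorem s27rc_main :
    ∃ G₀ : Divisor K F, 0 ≤ G₀ ∧ Divisor.degree G₀ = genusFF K F ∧
      finrank K ↥(riemannRochSpace G₀) = 1 ∧
      ∀ O : Place K F, G₀ O = 0 →
        riemannRochSpace (G₀ - Finsupp.single O 1) = ⊥ ∧
        ∀ M : Divisor K F, 0 ≤ M →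
          (finrank K ↥(riemannRochSpace (s27rcA G₀ O M)) : ℤ)
            = genusFF K F + Divisor.degree M ∧
          Module.Finite K (H1 (s27rcA G₀ O M)) ∧ finrank K (H1 (s27rcA G₀ O M)) = 0 := by
  obtain ⟨G₀, hG0, hdeg, h1⟩ := s27rr_exists_E0 x hx
  exact ⟨G₀, hG0, hdeg, h1, fun O hO =>
    ⟨s27rc_sub_eq_bot hG0 h1 hO, fun M hM => s27rc_h1 x hx hG0 hdeg h1 hO hM⟩⟩

end AlgClosed

end Fermat.Agent.S27
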