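/-
S27-B, base piece TD1 (helper39): **transcendence degree one from the Kähler hypothesis**.

`K` a field of characteristic `0`, `F / K` a field, essentially of finite type, with
`Ω[F⁄K]` free of rank one over `F` (the hypotheses of `IsCurveOver` + the frozen S27).  Then there
is `x ∈ F`, transcendental over `K`, with `F / K(x)` finite (and separable).

* `s27td_exists_D_ne_zero`   : some `x` has `dx ≠ 0`;
* `s27td_transcendental`     : `dx ≠ 0 ⇒ x` transcendental over `K` (characteristic `0`);
* `s27td_formallyUnramified` : `dx ≠ 0 ⇒ Ω[F⁄K(x)] = 0`;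
* `s27td_finite`             : `dx ≠ 0 ⇒ F / K(x)` finite;
* `s27td_exists`             : the statement above;
* `s27td_exists_of_isCurveOver` : the same from `[IsCurveOver K F]`.

Mathlib + prelude definitions only.
-/
import Mathlib
import Fermat.Prelude.Def_AlgebraicCurve_IsCurveOver

set_option autoImplicit false

noncomputable section

namespace Fermat.Agent.S27

open AlgebraicCurve KaehlerDifferential IntermediateField Module

universe u v

variable {K : Type u} {F : Type v} [Field K] [Field F] [Algebra K F]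

/-- If `Ω[F⁄K]` is not trivial, some `dx` is not zero. -/
theorem s27td_exists_D_ne_zero [Nontrivial Ω[F⁄K]] : ∃ x : F, D K F x ≠ 0 := by
  by_contra hcon
  push Not at hcon
  have hspan := KaehlerDifferential.span_range_derivation K F
  have hbot : Submodule.span F (Set.range (D K F)) = ⊥ := by
    rw [Submodule.span_eq_bot]
    rintro _ ⟨x, rfl⟩
    exact hcon x
  rw [hbot] at hspan
  have : Subsingleton Ω[F⁄K] := by
    refine ⟨fun a b => ?_⟩
    have ha : a ∈ (⊥ : Submodule F Ω[F⁄K]) := hspan ▸ Submodule.mem_top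
    have hb : b ∈ (⊥ : Submodule F Ω[F⁄K]) := hspan ▸ Submodule.mem_top
    rw [Submodule.mem_bot] at ha hb
    rw [ha, hb]
  exact not_nontrivial _ ‹Nontrivial Ω[F⁄K]›

/-- In characteristic `0`, `dx ≠ 0` forces `x` to be transcendental over `K`. -/
theorem s27td_transcendental [CharZero K] {x : F} (hx : D K F x ≠ 0) : Transcendental K x := by
  intro halg
  apply hx
  have hint : IsIntegral K x := halg.isIntegral
  have hsep : (minpoly K x).Separable := (minpoly.irreducible hint).separable
  have h0 : D K F (Polynomial.aeval x (minpoly K x)) = 0 := by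
    rw [minpoly.aeval]; exact map_zero _
  rw [Derivation.map_aeval] at h0
  have hne : Polynomial.aeval x (Polynomial.derivative (minpoly K x)) ≠ 0 :=
    hsep.aeval_derivative_ne_zero (minpoly.aeval K x)
  exact (smul_eq_zero.mp h0).resolve_left hne

/-- If `Ω[F⁄K]` has rank one and `dx ≠ 0`, then `Ω[F⁄K(x)] = 0`. -/
theorem s27td_formallyUnramified [Module.Free F Ω[F⁄K]] (hrank : finrank F Ω[F⁄K] = 1)
    {x : F} (hx : D K F x ≠ 0) : Algebra.FormallyUnramified K⟮x⟯ F := by
  haveI : Module.Finite F Ω[F⁄K] := Module.finite_of_finrank_pos (by rw [hrank]; exact one_pos)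
  -- the kernel of `Ω[F⁄K] → Ω[F⁄K(x)]` contains `dx`
  have hker : D K F x ∈ LinearMap.ker (KaehlerDifferential.map K K⟮x⟯ F F) := by
    rw [← KaehlerDifferential.range_mapBaseChange]
    refine ⟨(1 : F) ⊗ₜ[K⟮x⟯] D K K⟮x⟯ ⟨x, mem_adjoin_simple_self K x⟩, ?_⟩
    rw [KaehlerDifferential.mapBaseChange_tmul, one_smul, KaehlerDifferential.map_D]
    rfl
  -- so the kernel is everything
  have htop : LinearMap.ker (KaehlerDifferential.map K K⟮x⟯ F F) = ⊤ := by
    apply Submodule.eq_top_of_finrank_eq
    rw [hrank]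
    have hle : finrank F ↥(LinearMap.ker (KaehlerDifferential.map K K⟮x⟯ F F)) ≤ 1 :=
      hrank ▸ Submodule.finrank_le _
    have hpos : 0 < finrank F ↥(LinearMap.ker (KaehlerDifferential.map K K⟮x⟯ F F)) := by
      rw [Module.finrank_pos_iff_exists_ne_zero]
      exact ⟨⟨D K F x, hker⟩, fun h => hx (congrArg Subtype.val h)⟩
    omega
  refine ⟨⟨fun a b => ?_⟩⟩
  obtain ⟨a', rfl⟩ := KaehlerDifferential.map_surjective K K⟮x⟯ F a
  obtain ⟨b', rfl⟩ := KaehlerDifferential.map_surjective K K⟮x⟯ F b
  have ha : a' ∈ LinearMap.ker (KaehlerDifferential.map K K⟮x⟯ F F) := htop ▸ Submodule.mem_top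
  have hb : b' ∈ LinearMap.ker (KaehlerDifferential.map K K⟮x⟯ F F) := htop ▸ Submodule.mem_top
  rw [LinearMap.mem_ker] at ha hb
  rw [ha, hb]

/-- If `Ω[F⁄K]` has rank one, `F / K` is essentially of finite type and `dx ≠ 0`, then
`F / K(x)` is finite. -/
theorem s27td_finite [Algebra.EssFiniteType K F] [Module.Free F Ω[F⁄K]]
    (hrank : finrank F Ω[F⁄K] = 1) {x : F} (hx : D K F x ≠ 0) :
    FiniteDimensional K⟮x⟯ F := by
  haveI := s27td_formallyUnramified hrank hx
  haveI : Algebra.EssFiniteType K⟮x⟯ F := Algebra.EssFiniteType.of_comp K K⟮x⟯ F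
  exact Algebra.FormallyUnramified.finite_of_free (R := K⟮x⟯) (S := F)

/-- **TD1.**  `K` of characteristic `0`, `F / K` essentially of finite type with `Ω[F⁄K]` free of
rank one: there is a transcendental `x` with `F / K(x)` finite. -/
theorem s27td_exists [CharZero K] [Algebra.EssFiniteType K F] [Module.Free F Ω[F⁄K]]
    (hrank : finrank F Ω[F⁄K] = 1) :
    ∃ x : F, Transcendental K x ∧ FiniteDimensional K⟮x⟯ F := by
  haveI : Nontrivial Ω[F⁄K] := Module.nontrivial_of_finrank_eq_succ (n := 0) hrank
  obtain ⟨x, hx⟩ := s27td_exists_D_ne_zero (K := K) (F := F)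
  exact ⟨x, s27td_transcendental hx, s27td_finite hrank hx⟩

/-- **TD1 for curves.** -/
theorem s27td_exists_of_isCurveOver [CharZero K] [IsCurveOver K F] [Algebra.EssFiniteType K F] :
    ∃ x : F, Transcendental K x ∧ FiniteDimensional K⟮x⟯ F :=
  s27td_exists IsCurveOver.finrank_kaehler

end Fermat.Agent.S27

end
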