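/-
S27-B, base piece TD1, part 2 (helper39): **the Riemann package for the ABSTRACT curve of S27**.

`K` algebraically closed of characteristic `0`, `[IsCurveOver K F]`, `[Algebra.EssFiniteType K F]`
(exactly the hypotheses of the frozen S27).  By `s27td_exists_of_isCurveOver` there is a
transcendental `x` with `F / K(x)` finite, so the whole E-RR toolkit of S26 (`S26/ERR*.lean`,
helper79 / helper42) applies to `F`:

* `s27td_genus_package`  : the Riemann genus `γ` (`S26errfGenus K F γ`), Riemann's equality for
  large degree, `E₀ ≥ 0` with `deg E₀ = γ`, `dim L(E₀) = 1`, single poles;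
* `s27td_hasZeros`       : every transcendental function has a zero;
* `s27td_infinite_place` : infinitely many places;
* `s27td_rr_zero_finrank`: `dim L(0) = 1`.
-/
import Fermat.Agent.S27.TD
import Fermat.Agent.S26.ERRGFinal

set_option autoImplicit false

noncomputable section

namespace Fermat.Agent.S27

open AlgebraicCurve IntermediateField Module Fermat.Agent.S26

universe u v

variable (K : Type u) (F : Type v) [Field K] [Field F] [Algebra K F]
  [CharZero K] [IsCurveOver K F] [Algebra.EssFiniteType K F]

/-- every transcendental function of the abstract curve has a zero -/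
theorem s27td_hasZeros : S26errgHasZeros K F := by
  obtain ⟨x, hx, hfin⟩ := s27td_exists_of_isCurveOver (K := K) (F := F)
  haveI := hfin
  exact s26errg_hasZeros x hx

variable [IsAlgClosed K]

/-- **the Riemann package of the abstract curve** -/
theorem s27td_genus_package :
    ∃ γ : ℤ, S26errfGenus K F γ ∧
      (∃ c : ℤ, ∀ A : Divisor K F, c ≤ Divisor.degree A →
        (finrank K ↥(riemannRochSpace A) : ℤ) = Divisor.degree A + 1 - γ) ∧
      (∃ E₀ : Divisor K F, 0 ≤ E₀ ∧ Divisor.degree E₀ = γ ∧
        finrank K ↥(riemannRochSpace E₀) = 1) ∧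
      ∀ Q : Place K F, ∃ u : F, Q.ord u < 0 ∧ ∀ v : Place K F, v ≠ Q → 0 ≤ v.ord u := by
  obtain ⟨x, hx, hfin⟩ := s27td_exists_of_isCurveOver (K := K) (F := F)
  haveI := hfin
  exact s26errg_main x hx

/-- infinitely many places -/
theorem s27td_infinite_place : Infinite (Place K F) := by
  obtain ⟨x, hx, hfin⟩ := s27td_exists_of_isCurveOver (K := K) (F := F)
  haveI := hfin
  exact s26errg_infinite_place x hx

/-- `dim L(0) = 1` -/
theorem s27td_rr_zero_finrank : finrank K ↥(riemannRochSpace (0 : Divisor K F)) = 1 := by
  obtain ⟨x, hx, hfin⟩ := s27td_exists_of_isCurveOver (K := K) (F := F)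
  haveI := hfin
  exact s26errg_rr_zero_finrank x hx

end Fermat.Agent.S27

end
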