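/-
S27-B — CONST (helper11): THE constants `(x, G₀, O″, Ao, B₁)` of the stage, chosen ONCE.

For a curve `F / K` (`K` algebraically closed of characteristic `0`, `g = genusFF K F`):

* `x`   : transcendental, `F / K(x)` finite and separable            (`s27td_exists_of_isCurveOver`);
* `G₀`  : `0 ≤ G₀`, `deg G₀ = g`, `ℓ(G₀) = 1`                         (`s27rr_exists_E0`);
* `O″`  : a place outside the support of `G₀` (`G₀ O″ = 0`), `deg O″ = 1`;
* `Ao := G₀ − O″`  (`s27cstAo`) : `deg Ao = g − 1`, `L_K(Ao) = ⊥`;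
* `A' := G₀ + Ao = 2 G₀ − O″`    : `deg A' = 2g − 1`, `ℓ(A') = g`, and for every constant `M ≥ 0`
                                   `ℓ(A' + M) = g + deg M`, `H¹(A' + M) = 0`  (non-special);
* `B₁ := G₀ + G₀`  (`s27cstB`)  : `A' ≤ B₁`, `0 ≤ B₁`.

`S27cstIsConst x G₀ O″` collects the facts; `s27cst_exists` is the existence; the projections
`s27cst_*` give the literal CONST clause of `s27ft_Stmt` (S27/FinalTop.lean).  The file is LIGHT
(RR0Const + TDGenus only), so that every leaf can import it.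
-/
import Fermat.Agent.S27.RR0Const
import Fermat.Agent.S27.TDGenus

set_option autoImplicit false
set_option linter.unusedVariables false
set_option linter.unusedSectionVars false
set_option linter.style.haveILetI false

noncomputable section

namespace Fermat.Agent.S27

open AlgebraicCurve Module IntermediateField Fermat.Agent.S26

universe u v

section Defs

variable {K : Type u} {F : Type v} [Field K] [Field F] [Algebra K F]

/-- `Ao = G₀ − O″`. -/
def s27cstAo (G₀ : Divisor K F) (O : Place K F) : Divisor K F := G₀ - Finsupp.single O 1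

/-- `B₁ = 2 G₀`. -/
def s27cstB (G₀ : Divisor K F) : Divisor K F := G₀ + G₀

theorem s27cst_A_eq (G₀ : Divisor K F) (O : Place K F) (M : Divisor K F) :
    G₀ + s27cstAo G₀ O + M = s27rcA G₀ O M := by
  unfold s27cstAo s27rcA
  abel

theorem s27cst_A_eq_zero (G₀ : Divisor K F) (O : Place K F) :
    G₀ + s27cstAo G₀ O = s27rcA G₀ O 0 := by
  unfold s27cstAo s27rcA
  abel

theorem s27cst_single_nonneg (O : Place K F) : (0 : Divisor K F) ≤ Finsupp.single O 1 := by
  intro v
  by_cases hv : v = O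
  · subst hv
    simp
  · rw [Finsupp.single_eq_of_ne hv]
    simp

/-- `A' = G₀ + Ao ≤ B₁ = 2 G₀`. -/
theorem s27cst_le (G₀ : Divisor K F) (O : Place K F) : G₀ + s27cstAo G₀ O ≤ s27cstB G₀ := by
  unfold s27cstAo s27cstB
  have h : G₀ - Finsupp.single O 1 ≤ G₀ := by
    rw [sub_le_self_iff]
    exact s27cst_single_nonneg O
  exact add_le_add le_rfl h

/-- `0 ≤ B₁`. -/
theorem s27cst_B_nonneg {G₀ : Divisor K F} (hG0 : 0 ≤ G₀) : 0 ≤ s27cstB G₀ :=
  add_nonneg hG0 hG0

/-- **the facts about the constants.** -/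
structure S27cstIsConst (x : F) (G₀ : Divisor K F) (O : Place K F) : Prop where
  /-- `x` is transcendental -/
  trans : Transcendental K x
  /-- `F / K(x)` is finite -/
  fin : FiniteDimensional ↥(IntermediateField.adjoin K {x}) F
  /-- `F / K(x)` is separable -/
  sep : Algebra.IsSeparable ↥(IntermediateField.adjoin K {x}) F
  /-- `G₀ ≥ 0` -/
  nonneg : 0 ≤ G₀
  /-- `deg G₀ = g` -/
  deg : Divisor.degree G₀ = (genusFF K F : ℤ)
  /-- `ℓ(G₀) = 1` -/
  l_one : finrank K ↥(riemannRochSpace G₀) = 1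
  /-- `O″` is a point -/
  deg_O : O.deg = 1
  /-- `O″ ∉ supp G₀` -/
  off : G₀ O = 0
  /-- `L_K(Ao) = 0` -/
  bot : riemannRochSpace (s27cstAo G₀ O) = ⊥
  /-- `deg Ao = g − 1` -/
  deg_Ao : Divisor.degree (s27cstAo G₀ O) = (genusFF K F : ℤ) - 1
  /-- `ℓ(G₀ + Ao) = g` -/
  l_A : finrank K ↥(riemannRochSpace (G₀ + s27cstAo G₀ O)) = genusFF K F
  /-- `ℓ(G₀ + Ao + M) = g + deg M`, `H¹ = 0` for `M ≥ 0` -/
  nonspecial : ∀ M : Divisor K F, 0 ≤ M →
    (finrank K ↥(riemannRochSpace (G₀ + s27cstAo G₀ O + M)) : ℤ)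
        = genusFF K F + Divisor.degree M ∧
      Module.Finite K (H1 (G₀ + s27cstAo G₀ O + M)) ∧
      finrank K (H1 (G₀ + s27cstAo G₀ O + M)) = 0

end Defs

section Exists

variable (K : Type u) (F : Type v) [Field K] [Field F] [Algebra K F]
  [IsAlgClosed K] [CharZero K] [IsCurveOver K F] [Algebra.EssFiniteType K F]

/-- `F / K(x)` is separable (characteristic `0`). -/
theorem s27cst_isSeparable (x : F) [FiniteDimensional ↥(IntermediateField.adjoin K {x}) F] :
    Algebra.IsSeparable ↥(IntermediateField.adjoin K {x}) F := by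
  haveI : CharZero ↥(IntermediateField.adjoin K {x}) :=
    charZero_of_injective_algebraMap (algebraMap K ↥(IntermediateField.adjoin K {x})).injective
  exact Algebra.IsAlgebraic.isSeparable_of_perfectField

/-- a place outside the support of a divisor. -/
theorem s27cst_exists_off (G : Divisor K F) : ∃ O : Place K F, G O = 0 := by
  haveI : Infinite (Place K F) := s27td_infinite_place K F
  obtain ⟨O, hO⟩ := Infinite.exists_notMem_finset G.support
  exact ⟨O, Finsupp.notMem_support_iff.1 hO⟩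

variable {K F}

/-- the facts for EVERY admissible choice `(x, G₀, O″)`. -/
theorem s27cst_of {x : F} (hx : Transcendental K x)
    [hfin : FiniteDimensional ↥(IntermediateField.adjoin K {x}) F]
    {G₀ : Divisor K F} (hG0 : 0 ≤ G₀) (hdeg : Divisor.degree G₀ = (genusFF K F : ℤ))
    (h1 : finrank K ↥(riemannRochSpace G₀) = 1) {O : Place K F} (hO : G₀ O = 0) :
    S27cstIsConst x G₀ O := by
  have hOdeg : O.deg = 1 := s26errg_deg_eq_one x hx O
  have hns : ∀ M : Divisor K F, 0 ≤ M →
      (finrank K ↥(riemannRochSpace (G₀ + s27cstAo G₀ O + M)) : ℤ)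
          = genusFF K F + Divisor.degree M ∧
        Module.Finite K (H1 (G₀ + s27cstAo G₀ O + M)) ∧
        finrank K (H1 (G₀ + s27cstAo G₀ O + M)) = 0 := by
    intro M hM
    rw [s27cst_A_eq]
    exact s27rc_h1 x hx hG0 hdeg h1 hO hM
  refine ⟨hx, hfin, s27cst_isSeparable K F x, hG0, hdeg, h1, hOdeg, hO,
    s27rc_sub_eq_bot hG0 h1 hO, ?_, ?_, hns⟩
  · unfold s27cstAo
    rw [map_sub, Divisor.degree_single, hOdeg, hdeg]
    push_cast
    ring
  · have h := (hns 0 le_rfl).1
    rw [add_zero, map_zero, add_zero] at h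
    exact_mod_cast h

variable (K F)

/-- **CONST: the constants exist.** -/
theorem s27cst_exists : ∃ (x : F) (G₀ : Divisor K F) (O : Place K F), S27cstIsConst x G₀ O := by
  obtain ⟨x, hx, hfin⟩ := s27td_exists_of_isCurveOver (K := K) (F := F)
  haveI := hfin
  obtain ⟨G₀, hG0, hdeg, h1⟩ := s27rr_exists_E0 x hx
  obtain ⟨O, hO⟩ := s27cst_exists_off K F G₀
  exact ⟨x, G₀, O, s27cst_of hx hG0 hdeg h1 hO⟩

/-- **CONST, with a prescribed `x`.** -/
theorem s27cst_exists_of (x : F) (hx : Transcendental K x)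
    [FiniteDimensional ↥(IntermediateField.adjoin K {x}) F] :
    ∃ (G₀ : Divisor K F) (O : Place K F), S27cstIsConst x G₀ O := by
  obtain ⟨G₀, hG0, hdeg, h1⟩ := s27rr_exists_E0 x hx
  obtain ⟨O, hO⟩ := s27cst_exists_off K F G₀
  exact ⟨G₀, O, s27cst_of hx hG0 hdeg h1 hO⟩

end Exists

end Fermat.Agent.S27

end
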