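/-
S27-B — CONST, derived facts (helper11): the pointwise values of the constants of S27/Consts.lean,
in the shapes the leaves consume (POLE-DIV `s27pda_main`: `A O = −1`, `0 ≤ A Q` for `Q ≠ O`,
`K → κ(O)` surjective; LE / CP: `Ao`, `A' = 2 • G₀ − O″`).
-/
import Fermat.Agent.S27.Consts

set_option autoImplicit false
set_option linter.unusedVariables false
set_option linter.unusedSectionVars false
set_option linter.style.haveILetI false

noncomputable section

namespace Fermat.Agent.S27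

open AlgebraicCurve Module IntermediateField Fermat.Agent.S26

universe u v

variable {K : Type u} {F : Type v} [Field K] [Field F] [Algebra K F]

theorem s27cstf_Ao_apply_self (G₀ : Divisor K F) (O : Place K F) :
    s27cstAo G₀ O O = G₀ O - 1 := by
  unfold s27cstAo
  rw [Finsupp.sub_apply, Finsupp.single_eq_same]

theorem s27cstf_Ao_apply_O {G₀ : Divisor K F} {O : Place K F} (hO : G₀ O = 0) :
    s27cstAo G₀ O O = -1 := by
  rw [s27cstf_Ao_apply_self, hO]
  ring

theorem s27cstf_Ao_apply_ne (G₀ : Divisor K F) {O Q : Place K F} (hQ : Q ≠ O) :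
    s27cstAo G₀ O Q = G₀ Q := by
  unfold s27cstAo
  rw [Finsupp.sub_apply, Finsupp.single_eq_of_ne hQ, sub_zero]

/-- `A' = G₀ + Ao = 2 • G₀ − O″`. -/
theorem s27cstf_A_eq_two (G₀ : Divisor K F) (O : Place K F) :
    G₀ + s27cstAo G₀ O = (2 : ℕ) • G₀ - Finsupp.single O 1 := by
  unfold s27cstAo
  rw [two_nsmul]
  abel

/-- `A' = G₀ + Ao = 2 • G₀ − O″` (integer multiple). -/
theorem s27cstf_A_eq_two_int (G₀ : Divisor K F) (O : Place K F) :
    G₀ + s27cstAo G₀ O = (2 : ℤ) • G₀ - Finsupp.single O 1 := by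
  unfold s27cstAo
  rw [two_zsmul]
  abel

/-- `A' O″ = −1`. -/
theorem s27cstf_A_apply_O {G₀ : Divisor K F} {O : Place K F} (hO : G₀ O = 0) :
    (G₀ + s27cstAo G₀ O) O = -1 := by
  rw [Finsupp.add_apply, s27cstf_Ao_apply_O hO, hO]
  ring

/-- `A' Q = 2 G₀ Q` for `Q ≠ O″`. -/
theorem s27cstf_A_apply_ne (G₀ : Divisor K F) {O Q : Place K F} (hQ : Q ≠ O) :
    (G₀ + s27cstAo G₀ O) Q = 2 * G₀ Q := by
  rw [Finsupp.add_apply, s27cstf_Ao_apply_ne G₀ hQ]
  ring

/-- `0 ≤ A' Q` for `Q ≠ O″`. -/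
theorem s27cstf_A_nonneg {G₀ : Divisor K F} (hG0 : 0 ≤ G₀) {O Q : Place K F} (hQ : Q ≠ O) :
    0 ≤ (G₀ + s27cstAo G₀ O) Q := by
  rw [s27cstf_A_apply_ne G₀ hQ]
  have := hG0 Q
  simp only [Finsupp.coe_zero, Pi.zero_apply] at this
  linarith

/-- `deg A' = 2g − 1`. -/
theorem s27cstf_A_degree {x : F} {G₀ : Divisor K F} {O : Place K F}
    (hc : S27cstIsConst x G₀ O) :
    Divisor.degree (G₀ + s27cstAo G₀ O) = 2 * (genusFF K F : ℤ) - 1 := by
  rw [map_add, hc.deg, hc.deg_Ao]
  ring

/-- `deg B₁ = 2g`. -/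
theorem s27cstf_B_degree {x : F} {G₀ : Divisor K F} {O : Place K F}
    (hc : S27cstIsConst x G₀ O) :
    Divisor.degree (s27cstB G₀) = 2 * (genusFF K F : ℤ) := by
  unfold s27cstB
  rw [map_add, hc.deg]
  ring

section Res

variable [IsAlgClosed K]

/-- the residue field of every place is `K` (`K` algebraically closed). -/
theorem s27cstf_res_surj {x : F} {G₀ : Divisor K F} {O : Place K F}
    (hc : S27cstIsConst x G₀ O) (Q : Place K F) :
    Function.Surjective (algebraMap K Q.ResidueField) := by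
  haveI := hc.fin
  haveI : Module.Finite K Q.ResidueField := s26err_residue_finite x hc.trans Q
  haveI : Algebra.IsIntegral K Q.ResidueField := Algebra.IsIntegral.of_finite K Q.ResidueField
  exact (IsAlgClosed.algebraMap_bijective_of_isIntegral (k := K) (K := Q.ResidueField)).2

/-- every place is a point. -/
theorem s27cstf_deg_one {x : F} {G₀ : Divisor K F} {O : Place K F}
    (hc : S27cstIsConst x G₀ O) (Q : Place K F) : Q.deg = 1 := by
  haveI := hc.fin
  exact s26errg_deg_eq_one x hc.trans Q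

end Res

end Fermat.Agent.S27

end
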