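/-
S27 (#Pic0(F)[ℓ^k] = ℓ^(2gk), row 26) — INTERFACE of the captain (helper77).  Piece table: NOTES/S27-pieces.md.

Route B (function fields only): a VALUATIVE FRAME `S27IsFrame` for the function field `𝔉 = K(J)` of the
Jacobian (`𝔉 = K(C^g)^{S_g}`), `φ = [n]^*`, local equations `b k V` of `[n^k]^*(Θ + Θ⁻)` at every
valuation subring `V ⊇ K` of `𝔉`, and the explicit functions `H k` (jet determinants) with
`div (H k) = [n^k]^*(Θ+Θ⁻) − n^(2k) (Θ+Θ⁻)`.  A frame gives a growth datum `S26Growth` (formal), and the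
growth trick `s26c_stmtCore` (S26, proved) gives `d = n^(2g)`.

This file: definitions and statements only (plus the one-line glue).
-/
import Fermat.Agent.S26.CFinal
import Fermat.Prelude.Def_AlgebraicCurve_DivisorClassGroup
import Fermat.Prelude.Def_AlgebraicCurve_IsCurveOver
import Fermat.Prelude.Def_AlgebraicCurve_Repartitions

set_option autoImplicit false

noncomputable section

namespace Fermat.Agent.S27

open AlgebraicCurve Fermat.Agent.S26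

universe u v w

/-- The frozen statement S27, as a `Prop` (universes `u`, `v` as in the template's `Type*`). -/
def s27_Stmt : Prop :=
  ∀ (K : Type u) (F : Type v) [Field K] [Field F] [Algebra K F] [IsAlgClosed K] [CharZero K]
    [IsCurveOver K F] [Algebra.EssFiniteType K F] (ℓ : ℕ) [Fact ℓ.Prime] (k : ℕ),
    Nat.card (Pic0.torsion K F (ℓ ^ k)) = ℓ ^ (2 * genusFF K F * k)

section Frame

variable (K : Type w) [Field K] {𝔉 : Type w} [Field 𝔉] [Algebra K 𝔉]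

/-- `V` is a valuation subring of `𝔉` over `K`. -/
def S27IsKVal (V : ValuationSubring 𝔉) : Prop := ∀ a : K, algebraMap K 𝔉 a ∈ V

/-- `L(m D)` for the divisor `D` with local equations `b V`:
`x ∈ L(mD) ↔ x · b(V)^m ∈ V` for every valuation subring `V ⊇ K`. -/
def s27L (b : ValuationSubring 𝔉 → 𝔉) (m : ℕ) : Submodule K 𝔉 where
  carrier := {x | ∀ V : ValuationSubring 𝔉, S27IsKVal K V → x * b V ^ m ∈ V}
  zero_mem' := fun V _ => by simp [V.zero_mem]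
  add_mem' := fun {x y} hx hy V hV => by
    have := V.add_mem _ _ (hx V hV) (hy V hV)
    rwa [← add_mul] at this
  smul_mem' := fun c x hx V hV => by
    have := V.mul_mem _ _ (hV c) (hx V hV)
    rwa [← mul_assoc, ← Algebra.smul_def] at this

theorem s27L_mem {b : ValuationSubring 𝔉 → 𝔉} {m : ℕ} {x : 𝔉} :
    x ∈ s27L K b m ↔ ∀ V : ValuationSubring 𝔉, S27IsKVal K V → x * b V ^ m ∈ V := Iff.rfl

/-- `u` is a unit of `V`. -/
def S27IsUnitIn (V : ValuationSubring 𝔉) (u : 𝔉) : Prop := u ≠ 0 ∧ u ∈ V ∧ u⁻¹ ∈ V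

/-- **The valuative frame.**  `b k V` = local equation of `D_k = [n^k]^* D` at `V` (`D = D_0`),
`H k` = the function with `div (H k) = D_k − n^(2k) D`. -/
structure S27IsFrame (φ : 𝔉 →ₐ[K] 𝔉) (b : ℕ → ValuationSubring 𝔉 → 𝔉) (H : ℕ → 𝔉)
    (g n d : ℕ) : Prop where
  /-- local equations are nonzero -/
  b_ne : ∀ k V, S27IsKVal K V → b k V ≠ 0
  /-- (EFF) the divisors are effective -/
  b_mem : ∀ k V, S27IsKVal K V → b k V ∈ V
  /-- (FUN) functoriality: the local equation of `D` at `V ∘ φ^k`, pushed by `φ^k`, is the local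
  equation of `D_k` at `V` -/
  funct : ∀ k V, S27IsKVal K V → ∃ u : 𝔉, S27IsUnitIn V u ∧
    (φ ^ k) (b 0 (V.comap ((φ ^ k : 𝔉 →ₐ[K] 𝔉) : 𝔉 →+* 𝔉))) = u * b k V
  /-- (CUBE) `div (H k) = D_k − n^(2k) D` -/
  cube : ∀ k, H k ≠ 0 ∧ ∀ V, S27IsKVal K V → ∃ u : 𝔉, S27IsUnitIn V u ∧
    b k V = u * H k * b 0 V ^ (n ^ (2 * k))
  /-- (FIN) -/
  fin : ∀ m, Module.Finite K (s27L K (b 0) m)
  /-- (G1) growth of exact order `g` -/
  growth : ∃ c₁ c₂ : ℕ, ∀ m, 1 ≤ m →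
    m ^ g ≤ c₁ * Module.finrank K (s27L K (b 0) m) ∧
    Module.finrank K (s27L K (b 0) m) ≤ c₂ * m ^ g
  /-- (GEN) `𝔉` is the fraction field of `⋃_c L(cD)` -/
  gen : ∀ x : 𝔉, ∃ c, ∃ a ∈ s27L K (b 0) c, ∃ e ∈ s27L K (b 0) c, e ≠ 0 ∧ x * e = a
  /-- (DEG) -/
  deg_fin : Module.Finite φ.fieldRange 𝔉
  deg : Module.finrank φ.fieldRange 𝔉 = d

/-! ### The formal leaves: frame ⇒ growth datum -/

/-- **F-E**: multiplication by `(H k)^m` is a bijection `L'(k, m) → L(n^(2k) m)`: finiteness and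
equality of dimensions. -/
def s27f_StmtE : Prop :=
  ∀ (K : Type w) [Field K] [CharZero K] (𝔉 : Type w) [Field 𝔉] [Algebra K 𝔉] (φ : 𝔉 →ₐ[K] 𝔉)
    (b : ℕ → ValuationSubring 𝔉 → 𝔉) (H : ℕ → 𝔉) (g n d : ℕ), S27IsFrame K φ b H g n d →
    ∀ k m, Module.Finite K (s27L K (b k) m) ∧
      Module.finrank K (s27L K (b k) m) = Module.finrank K (s27L K (b 0) (n ^ (2 * k) * m))

/-- **F-b1**: `φ^k (L(m)) ⊆ L'(k, m)`. -/
def s27f_StmtB1 : Prop :=
  ∀ (K : Type w) [Field K] [CharZero K] (𝔉 : Type w) [Field 𝔉] [Algebra K 𝔉] (φ : 𝔉 →ₐ[K] 𝔉)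
    (b : ℕ → ValuationSubring 𝔉 → 𝔉) (H : ℕ → 𝔉) (g n d : ℕ), S27IsFrame K φ b H g n d →
    ∀ k m, ∀ x ∈ s27L K (b 0) m, (φ ^ k) x ∈ s27L K (b k) m

/-- **F-tower**: `𝔉 / φ^k 𝔉` is finite separable for every `k`. -/
def s27f_StmtSep : Prop :=
  ∀ (K : Type w) [Field K] [CharZero K] (𝔉 : Type w) [Field 𝔉] [Algebra K 𝔉] (φ : 𝔉 →ₐ[K] 𝔉)
    (b : ℕ → ValuationSubring 𝔉 → 𝔉) (H : ℕ → 𝔉) (g n d : ℕ), S27IsFrame K φ b H g n d →
    ∀ k, Module.Finite (φ ^ k).fieldRange 𝔉 ∧ Algebra.IsSeparable (φ ^ k).fieldRange 𝔉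

/-- **F-b3**: `⋃_c L'(k, c)` spans `𝔉` over `φ^k 𝔉` (integral closure argument). -/
def s27f_StmtB3 : Prop :=
  ∀ (K : Type w) [Field K] [CharZero K] (𝔉 : Type w) [Field 𝔉] [Algebra K 𝔉] (φ : 𝔉 →ₐ[K] 𝔉)
    (b : ℕ → ValuationSubring 𝔉 → 𝔉) (H : ℕ → 𝔉) (g n d : ℕ), S27IsFrame K φ b H g n d →
    ∀ k, ∀ x : 𝔉, ∃ c, x ∈ Submodule.span (φ ^ k).fieldRange
      ((s27L K (b k) c : Submodule K 𝔉) : Set 𝔉)

/-- **F-c2**: the trace of `L'(k, m)` lies in `φ^k (L(m))` (Chevalley + sum of embeddings). -/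
def s27f_StmtC2 : Prop :=
  ∀ (K : Type w) [Field K] [CharZero K] (𝔉 : Type w) [Field 𝔉] [Algebra K 𝔉] (φ : 𝔉 →ₐ[K] 𝔉)
    (b : ℕ → ValuationSubring 𝔉 → 𝔉) (H : ℕ → 𝔉) (g n d : ℕ), S27IsFrame K φ b H g n d →
    ∀ k m, ∀ x ∈ s27L K (b k) m, ∃ y ∈ s27L K (b 0) m,
      ((Algebra.trace (φ ^ k).fieldRange 𝔉 x : (φ ^ k).fieldRange) : 𝔉) = (φ ^ k) y

end Frame

/-! ### The geometric top: a frame for the Jacobian of `F` -/

/-- **GEOM**: for every curve `F / K` (`K` algebraically closed of characteristic `0`) and every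
`n ≥ 1` there is a frame with `g = genusFF K F` and `d = #Pic0(F)[n]`.  The base field `K'` of the
frame is any field of characteristic `0` in the universe of `𝔉` (in practice `ULift K`). -/
def s27_StmtFrame : Prop :=
  ∀ (K : Type u) (F : Type v) [Field K] [Field F] [Algebra K F] [IsAlgClosed K] [CharZero K]
    [IsCurveOver K F] [Algebra.EssFiniteType K F] (n : ℕ), 0 < n →
    ∃ (K' : Type (max u v)) (_ : Field K') (_ : CharZero K') (𝔉 : Type (max u v)) (_ : Field 𝔉)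
      (_ : Algebra K' 𝔉) (φ : 𝔉 →ₐ[K'] 𝔉) (b : ℕ → ValuationSubring 𝔉 → 𝔉) (H : ℕ → 𝔉),
      S27IsFrame K' φ b H (genusFF K F) n (Nat.card (Pic0.torsion K F n))

end Fermat.Agent.S27

end
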