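/-
S27-B, leaf **G0** (helper45): the case of genus `0`.

* `s27g0_frame_trivial` : the TRIVIAL frame `𝔉 = K`, `φ = id`, `b = 1`, `H = 1`, `g = 0`, `d = 1`
  (`S27IsFrame K (AlgHom.id K K) (fun _ _ => 1) (fun _ => 1) 0 n 1`, any field `K`, any `n`).
* `s27g0_isPrincipal` : over an algebraically closed constant field, a divisor `D` of degree `0`
  with `L(D) ≠ 0` is principal (an effective divisor of degree `0` is `0`).
* `s27g0_pic0_eq_zero`, `s27g0_card_torsion` : if `L(D) ≠ 0` for every `D` of degree `0`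
  (= Riemann's inequality for genus `0`, input `hR`, to be supplied by RR0), then `Pic0 K F = 0`
  and `Nat.card (Pic0.torsion K F n) = 1`.
* `s27g0_frame` : under `genusFF K F = 0` and `hR`, the conclusion of `s27_StmtFrame` for `F / K`.
-/
import Fermat.Agent.S27.Plan

set_option autoImplicit false

noncomputable section

namespace Fermat.Agent.S27

open AlgebraicCurve

universe u v w

/-! ## 1. The trivial frame -/

section Trivial

variable (K : Type w) [Field K]

theorem s27g0_L_eq_top (m : ℕ) :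
    s27L K (𝔉 := K) (fun _ => (1 : K)) m = ⊤ := by
  ext x
  simp only [s27L_mem, Submodule.mem_top, iff_true, one_pow, mul_one]
  intro V hV
  exact hV x

theorem s27g0_unit_one (V : ValuationSubring K) : S27IsUnitIn V (1 : K) :=
  ⟨one_ne_zero, V.one_mem, by rw [inv_one]; exact V.one_mem⟩

theorem s27g0_fieldRange_id_mem (x : K) : x ∈ (AlgHom.id K K).fieldRange :=
  ⟨x, rfl⟩

theorem s27g0_finite_id : Module.Finite (AlgHom.id K K).fieldRange K := by
  refine ⟨⟨{1}, ?_⟩⟩
  rw [eq_top_iff]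
  intro x _
  have hx : x = (⟨x, s27g0_fieldRange_id_mem K x⟩ : (AlgHom.id K K).fieldRange) • (1 : K) := by
    show x = x * 1
    rw [mul_one]
  rw [hx]
  exact Submodule.smul_mem _ _ (Submodule.subset_span (by simp))

theorem s27g0_finrank_id : Module.finrank (AlgHom.id K K).fieldRange K = 1 := by
  rw [finrank_eq_one_iff']
  refine ⟨1, one_ne_zero, fun w => ⟨⟨w, s27g0_fieldRange_id_mem K w⟩, ?_⟩⟩
  show w * 1 = w
  rw [mul_one]

/-- **The trivial frame** (genus `0`, degree `1`). -/
theorem s27g0_frame_trivial (n : ℕ) :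
    S27IsFrame K (AlgHom.id K K) (fun _ _ => (1 : K)) (fun _ => (1 : K)) 0 n 1 where
  b_ne := fun _ _ _ => one_ne_zero
  b_mem := fun _ V _ => V.one_mem
  funct := fun k V _ => ⟨1, s27g0_unit_one K V, by rw [map_one, mul_one]⟩
  cube := fun k => ⟨one_ne_zero, fun V _ => ⟨1, s27g0_unit_one K V, by rw [one_pow, mul_one, mul_one]⟩⟩
  fin := fun m => by
    rw [s27g0_L_eq_top]
    infer_instance
  growth := ⟨1, 1, fun m _ => by
    rw [s27g0_L_eq_top, finrank_top, Module.finrank_self, pow_zero]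
    exact ⟨le_refl _, le_refl _⟩⟩
  gen := fun x => ⟨0, x, by rw [s27g0_L_eq_top]; trivial, 1, by rw [s27g0_L_eq_top]; trivial,
    one_ne_zero, mul_one x⟩
  deg_fin := s27g0_finite_id K
  deg := s27g0_finrank_id K

end Trivial

/-! ## 2. Genus `0`: `Pic0` is trivial -/

section Pic

variable {K : Type u} {F : Type v} [Field K] [Field F] [Algebra K F]

/-- The degree of a divisor all of whose places have degree `1` is the sum of its values. -/
theorem s27g0_degree_eq_sum (hdeg : ∀ v : Place K F, v.deg = 1) (E : Divisor K F) :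
    Divisor.degree E = E.sum fun _ n => n := by
  induction E using Finsupp.induction with
  | zero => simp
  | single_add v n E hv hn ih =>
      rw [map_add, ih, Divisor.degree_single, hdeg v, Nat.cast_one, mul_one,
        Finsupp.sum_add_index' (fun _ => rfl) (fun _ _ _ => rfl), Finsupp.sum_single_index rfl]

/-- An effective divisor of degree `0` is `0` (all places of degree `1`). -/
theorem s27g0_eq_zero_of_nonneg (hdeg : ∀ v : Place K F, v.deg = 1) (E : Divisor K F)
    (hE : ∀ v, 0 ≤ E v) (h0 : Divisor.degree E = 0) (v : Place K F) : E v = 0 := by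
  rw [s27g0_degree_eq_sum hdeg E, Finsupp.sum] at h0
  by_cases hv : v ∈ E.support
  · exact (Finset.sum_eq_zero_iff_of_nonneg (fun w _ => hE w)).mp h0 v hv
  · exact Finsupp.notMem_support_iff.mp hv

/-- A divisor of degree `0` with a nonzero function in `L(D)` is principal. -/
theorem s27g0_isPrincipal [HasPrincipalDivisors K F] (hdeg : ∀ v : Place K F, v.deg = 1)
    (D : Divisor K F) (hD : Divisor.degree D = 0) (f : F) (hf : f ≠ 0)
    (hfD : f ∈ riemannRochSpace D) : Divisor.IsPrincipal D := by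
  obtain ⟨Df, hDf, hDf0⟩ := HasPrincipalDivisors.exists_divisor (K := K) f hf
  have hE : ∀ v, 0 ≤ (Df + D) v := fun v => by
    rw [Finsupp.add_apply, hDf v]
    rcases (mem_riemannRochSpace_iff.mp hfD) v with h | h
    · exact absurd h hf
    · linarith
  have hE0 : Divisor.degree (Df + D) = 0 := by rw [map_add, hDf0, hD, add_zero]
  refine ⟨f⁻¹, inv_ne_zero hf, fun v => ?_⟩
  have h := s27g0_eq_zero_of_nonneg hdeg (Df + D) hE hE0 v
  rw [Finsupp.add_apply, hDf v] at h
  rw [Place.ord_inv]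
  linarith

/-- **Genus `0`**: if `L(D) ≠ 0` for every divisor of degree `0`, then `Pic0 K F` is trivial. -/
theorem s27g0_pic0_eq_zero [HasPrincipalDivisors K F] (hdeg : ∀ v : Place K F, v.deg = 1)
    (hR : ∀ D : Divisor K F, Divisor.degree D = 0 → ∃ f : F, f ≠ 0 ∧ f ∈ riemannRochSpace D)
    (x : Pic0 K F) : x = 0 := by
  obtain ⟨D, rfl⟩ := Pic0.mk_surjective x
  obtain ⟨f, hf, hfD⟩ := hR D.1 (Divisor.mem_degZero.mp D.2)
  have hp : Divisor.IsPrincipal (D : Divisor K F) :=
    s27g0_isPrincipal hdeg D.1 (Divisor.mem_degZero.mp D.2) f hf hfD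
  exact (QuotientAddGroup.eq_zero_iff D).mpr (AddSubgroup.mem_addSubgroupOf.mpr hp)

theorem s27g0_card_torsion [HasPrincipalDivisors K F] (hdeg : ∀ v : Place K F, v.deg = 1)
    (hR : ∀ D : Divisor K F, Divisor.degree D = 0 → ∃ f : F, f ≠ 0 ∧ f ∈ riemannRochSpace D)
    (n : ℕ) : Nat.card (Pic0.torsion K F n) = 1 := by
  have : Subsingleton (Pic0 K F) :=
    ⟨fun x y => by rw [s27g0_pic0_eq_zero hdeg hR x, s27g0_pic0_eq_zero hdeg hR y]⟩
  have : Unique (Pic0.torsion K F n) := ⟨⟨0⟩, fun a => Subsingleton.elim _ _⟩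
  exact Nat.card_unique

end Pic

/-! ## 3. The frame of `s27_StmtFrame` in genus `0` -/

theorem s27g0_charZero_ulift : CharZero (ULift.{w} ℚ) :=
  charZero_of_injective_ringHom (R := ℚ) (f := (ULift.ringEquiv.symm : ℚ ≃+* ULift.{w} ℚ).toRingHom)
    (ULift.ringEquiv.symm : ℚ ≃+* ULift.{w} ℚ).injective

/-- **G0.**  The conclusion of `s27_StmtFrame` for a curve `F / K` of genus `genusFF K F = 0`,
given Riemann's inequality in genus `0` in the form `hR` (`L(D) ≠ 0` when `deg D = 0`). -/
theorem s27g0_frame (K : Type u) (F : Type v) [Field K] [Field F] [Algebra K F] [IsAlgClosed K]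
    [IsCurveOver K F] (h0 : genusFF K F = 0)
    (hR : ∀ D : Divisor K F, Divisor.degree D = 0 → ∃ f : F, f ≠ 0 ∧ f ∈ riemannRochSpace D)
    (n : ℕ) :
    ∃ (K' : Type (max u v)) (_ : Field K') (_ : CharZero K') (𝔉 : Type (max u v)) (_ : Field 𝔉)
      (_ : Algebra K' 𝔉) (φ : 𝔉 →ₐ[K'] 𝔉) (b : ℕ → ValuationSubring 𝔉 → 𝔉) (H : ℕ → 𝔉),
      S27IsFrame K' φ b H (genusFF K F) n (Nat.card (Pic0.torsion K F n)) := by
  have hdeg : ∀ v : Place K F, v.deg = 1 := IsCurveOver.forall_deg_eq_one_of_isAlgClosed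
  rw [h0, s27g0_card_torsion hdeg hR n]
  exact ⟨ULift.{max u v} ℚ, inferInstance, s27g0_charZero_ulift.{max u v}, ULift.{max u v} ℚ,
    inferInstance, Algebra.id _, AlgHom.id _ _, fun _ _ => 1, fun _ => 1,
    s27g0_frame_trivial (ULift.{max u v} ℚ) n⟩

end Fermat.Agent.S27

end
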