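/-
S27-B formal leaf **F-b1** (helper36): `φ^k (L(m)) ⊆ L'(k, m)`.

For a `K`-valuation subring `V` of `𝔉` put `W = V.comap (φ^k)` (again a `K`-valuation subring).
`x ∈ L(m)` gives `x · (b 0 W)^m ∈ W`, i.e. `φ^k x · (φ^k (b 0 W))^m ∈ V`; by (FUN)
`φ^k (b 0 W) = u · b k V` with `u` a unit of `V`, so `φ^k x · (b k V)^m ∈ V`.

* `s27fb1_isKVal_comap` : the comap of a `K`-valuation subring under a `K`-algebra endomorphism
  is a `K`-valuation subring.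
* `s27fb1_map_mem`      : the pointwise statement (only (FUN) of the frame is used).
* `s27fb1_main`         : `s27f_StmtB1`.
-/
import Fermat.Agent.S27.Plan

set_option autoImplicit false

namespace Fermat.Agent.S27

universe w

/-- The comap of a `K`-valuation subring under a `K`-algebra endomorphism is a `K`-valuation
subring. -/
theorem s27fb1_isKVal_comap {K : Type w} [Field K] {𝔉 : Type w} [Field 𝔉] [Algebra K 𝔉]
    (ψ : 𝔉 →ₐ[K] 𝔉) (V : ValuationSubring 𝔉) (hV : S27IsKVal K V) :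
    S27IsKVal K (V.comap (ψ : 𝔉 →+* 𝔉)) := by
  intro a
  have h : (ψ : 𝔉 →+* 𝔉) (algebraMap K 𝔉 a) = algebraMap K 𝔉 a := ψ.commutes a
  show (ψ : 𝔉 →+* 𝔉) (algebraMap K 𝔉 a) ∈ V
  rw [h]
  exact hV a

/-- Pointwise form of F-b1, from (FUN) alone: if `ψ (b₀ (V.comap ψ)) = u · b₁ V` with `u` a unit
of `V`, then `x · (b₀ (V.comap ψ))^m ∈ V.comap ψ` implies `ψ x · (b₁ V)^m ∈ V`. -/
theorem s27fb1_map_mem {K : Type w} [Field K] {𝔉 : Type w} [Field 𝔉] [Algebra K 𝔉]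
    (ψ : 𝔉 →ₐ[K] 𝔉) (V : ValuationSubring 𝔉) (β₀ β₁ u : 𝔉) (hu : S27IsUnitIn V u)
    (h : ψ β₀ = u * β₁) (m : ℕ) (x : 𝔉) (hx : x * β₀ ^ m ∈ V.comap (ψ : 𝔉 →+* 𝔉)) :
    ψ x * β₁ ^ m ∈ V := by
  obtain ⟨hu0, -, huinv⟩ := hu
  have h2 : ψ (x * β₀ ^ m) ∈ V := hx
  rw [map_mul, map_pow, h] at h2
  have h3 := V.mul_mem _ _ h2 (V.pow_mem huinv m)
  have h4 : ψ x * (u * β₁) ^ m * u⁻¹ ^ m = ψ x * β₁ ^ m := by
    rw [mul_pow, inv_pow]
    have hum : u ^ m ≠ 0 := pow_ne_zero m hu0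
    field_simp
  rwa [h4] at h3

/-- **F-b1**: `φ^k (L(m)) ⊆ L'(k, m)`. -/
theorem s27fb1_main : s27f_StmtB1.{w} := by
  intro K _ _ 𝔉 _ _ φ b H g n d hF k m x hx V hV
  obtain ⟨u, hu, h⟩ := hF.funct k V hV
  exact s27fb1_map_mem (φ ^ k) V _ _ u hu h m x (hx _ (s27fb1_isKVal_comap (φ ^ k) V hV))

end Fermat.Agent.S27
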