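/-
S27 route B, formal leaf F-b3 (helper40): `s27fb3_stmtB3 : s27f_StmtB3`.

For a valuative frame, `⋃_c L'(k, c)` spans `𝔉` over `φ^k 𝔉`:
`x` is integral over `φ^k 𝔉` (finite tower); clearing denominators of the coefficients of its
minimal polynomial by `e ∈ L(C)` (`gen`), the element `φ^k(e) · x · (b k V)^C` is a root of a monic
polynomial with coefficients in `V` (F-b1), hence lies in `V` (valuation rings are integrally
closed).  So `φ^k(e) · x ∈ L'(k, C)`.
-/
import Fermat.Agent.S27.Reduce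
import Mathlib.RingTheory.Valuation.LocalSubring
import Mathlib.RingTheory.Polynomial.ScaleRoots

set_option autoImplicit false

noncomputable section

namespace Fermat.Agent.S27

open Polynomial Fermat.Agent.S26

universe w

section

variable {𝔉 : Type w} [Field 𝔉]

/-- A root of a monic polynomial over `𝔉`, scaled by `s`, lies in the valuation subring `V` as soon
as the scaled coefficients lie in `V`. -/
theorem s27fb3_mem_of_root (V : ValuationSubring 𝔉) (p : 𝔉[X]) (hp : p.Monic) (x s : 𝔉)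
    (hx : p.eval x = 0)
    (hc : ∀ i, i < p.natDegree → p.coeff i * s ^ (p.natDegree - i) ∈ V) : s * x ∈ V := by
  classical
  set q : 𝔉[X] := scaleRoots p s with hq
  have hqm : q.Monic := (monic_scaleRoots_iff s).mpr hp
  have hqc : ∀ i, q.coeff i ∈ V.toSubring := by
    intro i
    rw [hq, coeff_scaleRoots]
    rcases lt_trichotomy i p.natDegree with h | h | h
    · exact hc i h
    · subst h
      rw [Nat.sub_self, pow_zero, mul_one, hp.coeff_natDegree]
      exact V.one_mem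
    · rw [coeff_eq_zero_of_natDegree_lt h, zero_mul]
      exact V.zero_mem
  have hq0 : q.eval (s * x) = 0 := by
    have := scaleRoots_eval₂_eq_zero (RingHom.id 𝔉) (r := x) (s := s) (p := p)
      (by rwa [eval₂_id])
    rwa [eval₂_id, RingHom.id_apply] at this
  have hsub : (↑q.coeffs : Set 𝔉) ⊆ ↑V.toSubring := by
    intro c hcq
    obtain ⟨i, -, rfl⟩ := (Polynomial.mem_coeffs_iff).mp (Finset.mem_coe.mp hcq)
    exact hqc i
  have hint : IsIntegral V (s * x) := by
    refine ⟨q.toSubring V.toSubring hsub, ?_, ?_⟩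
    · exact (monic_toSubring q V.toSubring hsub).mpr hqm
    · have h2 : eval₂ (algebraMap V 𝔉) (s * x) (q.toSubring V.toSubring hsub) =
          eval₂ (V.toSubring.subtype) (s * x) (q.toSubring V.toSubring hsub) := rfl
      rw [h2, ← eval_map, map_toSubring]
      exact hq0
  obtain ⟨y, hy⟩ := IsIntegrallyClosed.isIntegral_iff.mp hint
  rw [← hy]
  exact y.2

end


section Frame

variable {K : Type w} [Field K] {𝔉 : Type w} [Field 𝔉] [Algebra K 𝔉]
  {φ : 𝔉 →ₐ[K] 𝔉} {b : ℕ → ValuationSubring 𝔉 → 𝔉} {H : ℕ → 𝔉} {g n d : ℕ}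

/-- The pull-back of a valuation subring over `K` along a `K`-algebra endomorphism is over `K`. -/
theorem s27fb3_isKVal_comap (ψ : 𝔉 →ₐ[K] 𝔉) (V : ValuationSubring 𝔉) (hV : S27IsKVal K V) :
    S27IsKVal K (V.comap (ψ : 𝔉 →+* 𝔉)) := by
  intro a
  rw [ValuationSubring.mem_comap]
  have h : (ψ : 𝔉 →+* 𝔉) (algebraMap K 𝔉 a) = algebraMap K 𝔉 a := ψ.commutes a
  rw [h]
  exact hV a

/-- (F-b1, inline copy for this leaf) `φ^k (L(m)) ⊆ L'(k, m)`. -/
theorem s27fb3_b1 (hF : S27IsFrame K φ b H g n d) (k m : ℕ) (x : 𝔉) (hx : x ∈ s27L K (b 0) m) :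
    (φ ^ k) x ∈ s27L K (b k) m := by
  intro V hV
  obtain ⟨u, ⟨hu0, -, hui⟩, hu⟩ := hF.funct k V hV
  have hW := s27fb3_isKVal_comap (φ ^ k) V hV
  have h1 := hx _ hW
  rw [ValuationSubring.mem_comap] at h1
  have h2 : ((φ ^ k : 𝔉 →ₐ[K] 𝔉) : 𝔉 →+* 𝔉)
      (x * b 0 (V.comap ((φ ^ k : 𝔉 →ₐ[K] 𝔉) : 𝔉 →+* 𝔉)) ^ m) =
      (φ ^ k) x * (u * b k V) ^ m := by
    rw [map_mul, map_pow]
    congr 2
  rw [h2] at h1
  have h3 := V.mul_mem _ _ h1 (V.pow_mem hui m)
  have h4 : (φ ^ k) x * (u * b k V) ^ m * u⁻¹ ^ m = (φ ^ k) x * b k V ^ m := by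
    rw [mul_pow, inv_pow]
    field_simp
  rwa [h4] at h3

theorem s27fb3_one_mem (b₀ : ValuationSubring 𝔉 → 𝔉) : (1 : 𝔉) ∈ s27L K b₀ 0 := by
  intro V _
  rw [pow_zero, mul_one]
  exact V.one_mem

theorem s27fb3_pow_mem (b₀ : ValuationSubring 𝔉 → 𝔉) (C : ℕ) (e : 𝔉) (he : e ∈ s27L K b₀ C)
    (j : ℕ) : e ^ j ∈ s27L K b₀ (C * j) := by
  induction j with
  | zero =>
    rw [pow_zero, Nat.mul_zero]
    exact s27fb3_one_mem b₀
  | succ j ih =>
    rw [pow_succ, Nat.mul_succ]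
    exact s27L_mul b₀ _ _ _ _ ih he

/-- Common denominators: finitely many elements of `𝔉` have a common denominator in `L(C)`. -/
theorem s27fb3_denoms (hF : S27IsFrame K φ b H g n d) (f : ℕ → 𝔉) (r : ℕ) :
    ∃ C : ℕ, ∃ e ∈ s27L K (b 0) C, e ≠ 0 ∧ ∀ i, i < r → f i * e ∈ s27L K (b 0) C := by
  induction r with
  | zero => exact ⟨0, 1, s27fb3_one_mem (b 0), one_ne_zero, fun i hi => absurd hi (Nat.not_lt_zero i)⟩
  | succ r ih =>
    obtain ⟨C, e, he, he0, hC⟩ := ih
    obtain ⟨c, a, ha, e', he', he'0, hae⟩ := hF.gen (f r)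
    refine ⟨C + c, e * e', s27L_mul (b 0) _ _ _ _ he he', mul_ne_zero he0 he'0, fun i hi => ?_⟩
    rcases Nat.lt_succ_iff_lt_or_eq.mp hi with h | h
    · have := s27L_mul (b 0) _ _ _ _ (hC i h) he'
      rwa [mul_assoc] at this
    · subst h
      have h1 := s27L_mul (b 0) _ _ _ _ he ha
      have h2 : f i * (e * e') = e * a := by rw [← hae]; ring
      rw [h2]
      exact h1

/-- The iterates of `φ` have finite degree. -/
theorem s27fb3_finite_pow (hF : S27IsFrame K φ b H g n d) (k : ℕ) :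
    Module.Finite (φ ^ k).fieldRange 𝔉 := by
  have := hF.deg_fin
  have h1 : 0 < Module.finrank φ.fieldRange 𝔉 := Module.finrank_pos
  have h2 : 0 < Module.finrank (φ ^ k).fieldRange 𝔉 := by
    rw [s26c_finrank_pow]
    exact pow_pos h1 k
  exact Module.finite_of_finrank_pos h2

/-- **F-b3**, for one frame. -/
theorem s27fb3_span (hF : S27IsFrame K φ b H g n d) (k : ℕ) (x : 𝔉) :
    ∃ c, x ∈ Submodule.span (φ ^ k).fieldRange ((s27L K (b k) c : Submodule K 𝔉) : Set 𝔉) := by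
  classical
  have := s27fb3_finite_pow hF k
  have hint : IsIntegral (φ ^ k).fieldRange x := Algebra.IsIntegral.isIntegral x
  set p0 : (φ ^ k).fieldRange[X] := minpoly (φ ^ k).fieldRange x with hp0
  set p : 𝔉[X] := p0.map (algebraMap (φ ^ k).fieldRange 𝔉) with hp
  have hpm : p.Monic := (minpoly.monic hint).map _
  have hpx : p.eval x = 0 := by
    rw [hp, eval_map, ← aeval_def]
    exact minpoly.aeval _ x
  -- preimages of the coefficients
  have hcoef : ∀ i, ∃ y : 𝔉, (φ ^ k) y = p.coeff i := by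
    intro i
    rw [hp, coeff_map]
    obtain ⟨y, hy⟩ := (p0.coeff i).2
    exact ⟨y, hy⟩
  choose f hf using hcoef
  obtain ⟨C, e, he, he0, hC⟩ := s27fb3_denoms hF f p.natDegree
  have hφe0 : (φ ^ k) e ≠ 0 := (map_ne_zero (φ ^ k)).mpr he0
  have hmem : (φ ^ k) e * x ∈ s27L K (b k) C := by
    intro V hV
    have h1 : (φ ^ k) e * x * b k V ^ C = ((φ ^ k) e * b k V ^ C) * x := by ring
    rw [h1]
    refine s27fb3_mem_of_root V p hpm x _ hpx (fun i hi => ?_)
    obtain ⟨j, hj⟩ := Nat.exists_eq_add_of_lt hi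
    have hj' : p.natDegree - i = j + 1 := by omega
    rw [hj']
    have h2 : f i * e ^ (j + 1) ∈ s27L K (b 0) (C + C * j) := by
      have := s27L_mul (b 0) _ _ _ _ (hC i hi) (s27fb3_pow_mem (b 0) C e he j)
      rwa [mul_assoc, ← pow_succ'] at this
    have h3 := s27fb3_b1 hF k _ _ h2 V hV
    have h4 : (φ ^ k) (f i * e ^ (j + 1)) * b k V ^ (C + C * j) =
        p.coeff i * ((φ ^ k) e * b k V ^ C) ^ (j + 1) := by
      rw [map_mul, map_pow, hf i, mul_pow, ← pow_mul]
      have : C * (j + 1) = C + C * j := by ring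
      rw [this]
      ring
    rwa [h4] at h3
  refine ⟨C, ?_⟩
  have hin : ((φ ^ k) e)⁻¹ ∈ (φ ^ k).fieldRange := inv_mem ⟨e, rfl⟩
  have h5 : x = (⟨((φ ^ k) e)⁻¹, hin⟩ : (φ ^ k).fieldRange) • ((φ ^ k) e * x) := by
    rw [IntermediateField.smul_def]
    show x = ((φ ^ k) e)⁻¹ * ((φ ^ k) e * x)
    field_simp
  rw [h5]
  exact Submodule.smul_mem _ _ (Submodule.subset_span hmem)

end Frame

/-- **F-b3** (formal leaf of the S27 frame reduction). -/
theorem s27fb3_stmtB3 : s27f_StmtB3.{w} := by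
  intro K _ _ 𝔉 _ _ φ b H g n d hF k x
  exact s27fb3_span hF k x

end Fermat.Agent.S27

end
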