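/-
S27, ROUTE B, formal leaf **F-E** (helper55): `s27f_StmtE`.

For a valuative frame `S27IsFrame K φ b H g n d` the relation (CUBE)
`b k V = u · H k · (b 0 V)^(n^(2k))` (`u` a unit of `V`, for every valuation subring `V ⊇ K`) gives

  `x ∈ L'(k, m) = s27L K (b k) m   ↔   x · (H k)^m ∈ L(n^(2k) m) = s27L K (b 0) (n^(2k) m)`,

so multiplication by `(H k)^m` is a `K`-linear bijection `L'(k, m) ≃ L(n^(2k) m)`; finiteness comes from
(FIN) and the dimensions agree.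

* `s27fe_mem_iff`   : the membership criterion;
* `s27feEquiv`      : the `K`-linear equivalence `x ↦ x · (H k)^m`;
* `s27fe_stmtE`     : `s27f_StmtE`.

Imports: Mathlib + `S27/Plan.lean` only.
-/
import Fermat.Agent.S27.Plan

set_option autoImplicit false

noncomputable section

namespace Fermat.Agent.S27

universe w

section FE

variable {K : Type w} [Field K] {𝔉 : Type w} [Field 𝔉] [Algebra K 𝔉]

/-- Multiplying by a unit of `V` does not change membership in `V`. -/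
theorem s27fe_unit_mul_mem_iff {V : ValuationSubring 𝔉} {u : 𝔉} (hu : S27IsUnitIn V u) (x : 𝔉) :
    u * x ∈ V ↔ x ∈ V := by
  obtain ⟨hu0, huV, huiV⟩ := hu
  constructor
  · intro h
    have h2 := V.mul_mem _ _ huiV h
    rwa [← mul_assoc, inv_mul_cancel₀ hu0, one_mul] at h2
  · intro h
    exact V.mul_mem _ _ huV h

/-- Powers of a unit of `V` are units of `V`. -/
theorem s27fe_unit_pow {V : ValuationSubring 𝔉} {u : 𝔉} (hu : S27IsUnitIn V u) (m : ℕ) :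
    S27IsUnitIn V (u ^ m) := by
  obtain ⟨hu0, huV, huiV⟩ := hu
  refine ⟨pow_ne_zero m hu0, pow_mem huV m, ?_⟩
  rw [← inv_pow]
  exact pow_mem huiV m

/-- **The membership criterion of F-E**: `x ∈ L'(k, m) ↔ x · (H k)^m ∈ L(n^(2k) m)`. -/
theorem s27fe_mem_iff {φ : 𝔉 →ₐ[K] 𝔉} {b : ℕ → ValuationSubring 𝔉 → 𝔉} {H : ℕ → 𝔉} {g n d : ℕ}
    (hF : S27IsFrame K φ b H g n d) (k m : ℕ) (x : 𝔉) :
    x ∈ s27L K (b k) m ↔ x * H k ^ m ∈ s27L K (b 0) (n ^ (2 * k) * m) := by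
  simp only [s27L_mem]
  refine forall_congr' fun V => forall_congr' fun hV => ?_
  obtain ⟨u, hu, hb⟩ := (hF.cube k).2 V hV
  have key : x * b k V ^ m = u ^ m * (x * H k ^ m * b 0 V ^ (n ^ (2 * k) * m)) := by
    rw [hb, pow_mul]
    ring
  rw [key, s27fe_unit_mul_mem_iff (s27fe_unit_pow hu m)]

/-- **The `K`-linear equivalence of F-E**: `x ↦ x · (H k)^m`, `L'(k, m) ≃ L(n^(2k) m)`. -/
def s27feEquiv {φ : 𝔉 →ₐ[K] 𝔉} {b : ℕ → ValuationSubring 𝔉 → 𝔉} {H : ℕ → 𝔉} {g n d : ℕ}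
    (hF : S27IsFrame K φ b H g n d) (k m : ℕ) :
    s27L K (b k) m ≃ₗ[K] s27L K (b 0) (n ^ (2 * k) * m) where
  toFun x := ⟨(x : 𝔉) * H k ^ m, (s27fe_mem_iff hF k m x).1 x.2⟩
  invFun y := ⟨(y : 𝔉) * (H k ^ m)⁻¹, (s27fe_mem_iff hF k m _).2 (by
    rw [mul_assoc, inv_mul_cancel₀ (pow_ne_zero m (hF.cube k).1), mul_one]
    exact y.2)⟩
  map_add' x y := by
    apply Subtype.ext
    simp only [Submodule.coe_add]
    ring
  map_smul' c x := by
    apply Subtype.ext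
    simp only [Submodule.coe_smul, RingHom.id_apply, smul_mul_assoc]
  left_inv x := by
    apply Subtype.ext
    simp only
    rw [mul_assoc, mul_inv_cancel₀ (pow_ne_zero m (hF.cube k).1), mul_one]
  right_inv y := by
    apply Subtype.ext
    simp only
    rw [mul_assoc, inv_mul_cancel₀ (pow_ne_zero m (hF.cube k).1), mul_one]

@[simp] theorem s27feEquiv_apply {φ : 𝔉 →ₐ[K] 𝔉} {b : ℕ → ValuationSubring 𝔉 → 𝔉} {H : ℕ → 𝔉}
    {g n d : ℕ} (hF : S27IsFrame K φ b H g n d) (k m : ℕ) (x : s27L K (b k) m) :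
    ((s27feEquiv hF k m x : s27L K (b 0) (n ^ (2 * k) * m)) : 𝔉) = (x : 𝔉) * H k ^ m := rfl

/-- (FIN) for every `L'(k, m)`. -/
theorem s27fe_finite {φ : 𝔉 →ₐ[K] 𝔉} {b : ℕ → ValuationSubring 𝔉 → 𝔉} {H : ℕ → 𝔉} {g n d : ℕ}
    (hF : S27IsFrame K φ b H g n d) (k m : ℕ) : Module.Finite K (s27L K (b k) m) := by
  have := hF.fin (n ^ (2 * k) * m)
  exact Module.Finite.equiv (s27feEquiv hF k m).symm

/-- `dim L'(k, m) = dim L(n^(2k) m)`. -/
theorem s27fe_finrank {φ : 𝔉 →ₐ[K] 𝔉} {b : ℕ → ValuationSubring 𝔉 → 𝔉} {H : ℕ → 𝔉} {g n d : ℕ}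
    (hF : S27IsFrame K φ b H g n d) (k m : ℕ) :
    Module.finrank K (s27L K (b k) m) = Module.finrank K (s27L K (b 0) (n ^ (2 * k) * m)) :=
  (s27feEquiv hF k m).finrank_eq

end FE

/-- **F-E** = `s27f_StmtE`. -/
theorem s27fe_stmtE : s27f_StmtE.{w} := by
  intro K _ _ 𝔉 _ _ φ b H g n d hF k m
  exact ⟨s27fe_finite hF k m, s27fe_finrank hF k m⟩

end Fermat.Agent.S27

end
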