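/-
S27 — GLUE of the captain (helper77): formal leaves + frame ⇒ growth datum ⇒ frozen S27.
`s27f_growth`  : (F-E) (F-b1) (F-tower) (F-b3) (F-c2) → frame → `S26Growth`.
`s27_of_frame` : the same leaves → `s27_StmtFrame` → `s27_Stmt`.
-/
import Fermat.Agent.S27.Plan

set_option autoImplicit false

noncomputable section

namespace Fermat.Agent.S27

open AlgebraicCurve Fermat.Agent.S26

universe u v w

theorem s27L_mono {K : Type w} [Field K] {𝔉 : Type w} [Field 𝔉] [Algebra K 𝔉]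
    (b : ValuationSubring 𝔉 → 𝔉) (hb : ∀ V, S27IsKVal K V → b V ∈ V) : Monotone (s27L K b) := by
  intro m m' hmm x hx V hV
  obtain ⟨r, rfl⟩ := Nat.exists_eq_add_of_le hmm
  have h1 := V.mul_mem _ _ (hx V hV) (V.pow_mem (hb V hV) r)
  rwa [mul_assoc, ← pow_add] at h1

theorem s27L_mul {K : Type w} [Field K] {𝔉 : Type w} [Field 𝔉] [Algebra K 𝔉]
    (b : ValuationSubring 𝔉 → 𝔉) (a c : ℕ) (x y : 𝔉) (hx : x ∈ s27L K b a) (hy : y ∈ s27L K b c) :
    x * y ∈ s27L K b (a + c) := by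
  intro V hV
  have h1 := V.mul_mem _ _ (hx V hV) (hy V hV)
  have h2 : x * y * b V ^ (a + c) = x * b V ^ a * (y * b V ^ c) := by rw [pow_add]; ring
  rwa [h2]

/-- frame ⇒ growth datum, from the formal leaves. -/
theorem s27f_growth (hE : s27f_StmtE.{w}) (hB1 : s27f_StmtB1.{w}) (hSep : s27f_StmtSep.{w})
    (hB3 : s27f_StmtB3.{w}) (hC2 : s27f_StmtC2.{w})
    (K : Type w) [Field K] [CharZero K] (𝔉 : Type w) [Field 𝔉] [Algebra K 𝔉] (φ : 𝔉 →ₐ[K] 𝔉)
    (b : ℕ → ValuationSubring 𝔉 → 𝔉) (H : ℕ → 𝔉) (g n d : ℕ) (hF : S27IsFrame K φ b H g n d) :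
    S26Growth K g n d := by
  refine ⟨𝔉, inferInstance, inferInstance, φ, fun m => s27L K (b 0) m,
    fun k m => s27L K (b k) m, hF.fin, fun k m => (hE K 𝔉 φ b H g n d hF k m).1, hF.growth,
    s27L_mono (b 0) (hF.b_mem 0), fun k => s27L_mono (b k) (hF.b_mem k), ?_,
    fun k m x hx => hB1 K 𝔉 φ b H g n d hF k m x hx,
    fun k a c x hx y hy => s27L_mul (b k) a c x y hx hy,
    fun k x => hB3 K 𝔉 φ b H g n d hF k x,
    fun k => hSep K 𝔉 φ b H g n d hF k,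
    fun k m x hx => hC2 K 𝔉 φ b H g n d hF k m x hx, hF.deg⟩
  intro k
  refine ⟨1, 0, Nat.one_pos, fun m => ?_⟩
  have h := (hE K 𝔉 φ b H g n d hF k m).2
  show Module.finrank K (s27L K (b k) (1 * m)) ≤
      Module.finrank K (s27L K (b 0) (n ^ (2 * k) * (1 * m) + 0)) ∧
    Module.finrank K (s27L K (b 0) (n ^ (2 * k) * (1 * m))) ≤
      Module.finrank K (s27L K (b k) (1 * m + 0))
  rw [one_mul, add_zero, add_zero]
  exact ⟨h.le, h.ge⟩

/-- **Top glue**: formal leaves + the geometric frame ⇒ the frozen statement S27. -/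
theorem s27_of_frame (hE : s27f_StmtE.{max u v}) (hB1 : s27f_StmtB1.{max u v})
    (hSep : s27f_StmtSep.{max u v}) (hB3 : s27f_StmtB3.{max u v}) (hC2 : s27f_StmtC2.{max u v})
    (hG : s27_StmtFrame.{u, v}) : s27_Stmt.{u, v} := by
  intro K F _ _ _ _ _ _ _ ℓ hℓ k
  have hn : 0 < ℓ ^ k := pow_pos hℓ.out.pos k
  obtain ⟨K', iK', iC, 𝔉, i𝔉, iA, φ, b, H, hF⟩ := hG K F (ℓ ^ k) hn
  have h := s26c_stmtCore K' (genusFF K F) (ℓ ^ k) _ hn
    (s27f_growth hE hB1 hSep hB3 hC2 K' 𝔉 φ b H _ _ _ hF)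
  rw [h, ← pow_mul]
  congr 1
  ring

end Fermat.Agent.S27

end
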