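/-
S27-B — BASE FRAME of the captain (helper77): what the GEOMETRY has to deliver (only `k = 1`):
a field `𝔉 / K`, `φ = [n]^*`, ONE family of local equations `b₀ V ∈ 𝔉` (of `D = Θ + Θ⁻` at every valuation
subring `V ⊇ K`), ONE function `H` with `φ (b₀ (V ∘ φ)) = unit · H · (b₀ V)^(n²)` (CUBE + functoriality at
once), growth, generation, degree.  The frame of Plan.lean follows formally (leaf F-tele) with
`b k V := φ^k (b₀ (V.comap φ^k))` and the telescoped `H k`.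
Definitions and statements only (plus the glue).
-/
import Fermat.Agent.S27.Reduce

set_option autoImplicit false

noncomputable section

namespace Fermat.Agent.S27

open AlgebraicCurve Fermat.Agent.S26

universe u v w

section Base

variable (K : Type w) [Field K] {𝔉 : Type w} [Field 𝔉] [Algebra K 𝔉]

/-- **The base frame** (geometry's target). -/
structure S27IsBase (φ : 𝔉 →ₐ[K] 𝔉) (b₀ : ValuationSubring 𝔉 → 𝔉) (H : 𝔉) (g n d : ℕ) : Prop where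
  b_ne : ∀ V, S27IsKVal K V → b₀ V ≠ 0
  /-- (EFF) -/
  b_mem : ∀ V, S27IsKVal K V → b₀ V ∈ V
  H_ne : H ≠ 0
  /-- (CUBE₁) `[n]^* D − n² D = div H`, valuation by valuation -/
  cube1 : ∀ V, S27IsKVal K V → ∃ u : 𝔉, S27IsUnitIn V u ∧
    φ (b₀ (V.comap (φ : 𝔉 →+* 𝔉))) = u * H * b₀ V ^ (n ^ 2)
  fin : ∀ m, Module.Finite K (s27L K b₀ m)
  growth : ∃ c₁ c₂ : ℕ, ∀ m, 1 ≤ m →
    m ^ g ≤ c₁ * Module.finrank K (s27L K b₀ m) ∧
    Module.finrank K (s27L K b₀ m) ≤ c₂ * m ^ g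
  gen : ∀ x : 𝔉, ∃ c, ∃ a ∈ s27L K b₀ c, ∃ e ∈ s27L K b₀ c, e ≠ 0 ∧ x * e = a
  deg_fin : Module.Finite φ.fieldRange 𝔉
  deg : Module.finrank φ.fieldRange 𝔉 = d

/-- the local equations of `D_k = [n^k]^* D`. -/
def s27bk (φ : 𝔉 →ₐ[K] 𝔉) (b₀ : ValuationSubring 𝔉 → 𝔉) (k : ℕ) (V : ValuationSubring 𝔉) : 𝔉 :=
  (φ ^ k) (b₀ (V.comap ((φ ^ k : 𝔉 →ₐ[K] 𝔉) : 𝔉 →+* 𝔉)))

/-- the telescoped functions: `H_0 = 1`, `H_{k+1} = φ^k (H) · H_k^(n²)`. -/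
def s27Hk (φ : 𝔉 →ₐ[K] 𝔉) (H : 𝔉) (n : ℕ) : ℕ → 𝔉
  | 0 => 1
  | k + 1 => (φ ^ k) H * s27Hk φ H n k ^ (n ^ 2)

/-- **F-tele**: a base frame gives a frame. -/
def s27f_StmtTele : Prop :=
  ∀ (K : Type w) [Field K] [CharZero K] (𝔉 : Type w) [Field 𝔉] [Algebra K 𝔉] (φ : 𝔉 →ₐ[K] 𝔉)
    (b₀ : ValuationSubring 𝔉 → 𝔉) (H : 𝔉) (g n d : ℕ), S27IsBase K φ b₀ H g n d →
    S27IsFrame K φ (s27bk K φ b₀) (s27Hk K φ H n) g n d

end Base

/-- **GEOM (base form)**: for every curve `F / K` and `n ≥ 1` there is a base frame with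
`g = genusFF K F` and `d = #Pic0(F)[n]`. -/
def s27_StmtBase : Prop :=
  ∀ (K : Type u) (F : Type v) [Field K] [Field F] [Algebra K F] [IsAlgClosed K] [CharZero K]
    [IsCurveOver K F] [Algebra.EssFiniteType K F] (n : ℕ), 0 < n →
    ∃ (K' : Type (max u v)) (_ : Field K') (_ : CharZero K') (𝔉 : Type (max u v)) (_ : Field 𝔉)
      (_ : Algebra K' 𝔉) (φ : 𝔉 →ₐ[K'] 𝔉) (b₀ : ValuationSubring 𝔉 → 𝔉) (H : 𝔉),
      S27IsBase K' φ b₀ H (genusFF K F) n (Nat.card (Pic0.torsion K F n))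

theorem s27_frame_of_base (hT : s27f_StmtTele.{max u v}) (hB : s27_StmtBase.{u, v}) :
    s27_StmtFrame.{u, v} := by
  intro K F _ _ _ _ _ _ _ n hn
  obtain ⟨K', iK', iC, 𝔉, i𝔉, iA, φ, b₀, H, hb⟩ := hB K F n hn
  exact ⟨K', iK', iC, 𝔉, i𝔉, iA, φ, _, _, hT K' 𝔉 φ b₀ H _ _ _ hb⟩

/-- **Top glue (base form)**. -/
theorem s27_of_base (hE : s27f_StmtE.{max u v}) (hB1 : s27f_StmtB1.{max u v})
    (hSep : s27f_StmtSep.{max u v}) (hB3 : s27f_StmtB3.{max u v}) (hC2 : s27f_StmtC2.{max u v})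
    (hT : s27f_StmtTele.{max u v}) (hB : s27_StmtBase.{u, v}) : s27_Stmt.{u, v} :=
  s27_of_frame hE hB1 hSep hB3 hC2 (s27_frame_of_base hT hB)

end Fermat.Agent.S27

end
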