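/-
S27-B — formal leaf F-tele (helper77): a BASE frame (Plan2, `k = 1` only) gives a frame (Plan), by telescoping:
`b k V := φ^k (b₀ (V ∘ φ^k))`, `H_0 = 1`, `H_{k+1} = φ^k(H) · H_k^(n²)`.
`s27tele_main : s27f_StmtTele`.
-/
import Fermat.Agent.S27.Plan2

set_option autoImplicit false

noncomputable section

namespace Fermat.Agent.S27

open AlgebraicCurve Fermat.Agent.S26

universe w

section

variable {K : Type w} [Field K] {𝔉 : Type w} [Field 𝔉] [Algebra K 𝔉]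

theorem s27tele_comap_one (V : ValuationSubring 𝔉) :
    V.comap (((1 : 𝔉 →ₐ[K] 𝔉) : 𝔉 →ₐ[K] 𝔉) : 𝔉 →+* 𝔉) = V := by
  ext x
  simp [ValuationSubring.mem_comap]

theorem s27tele_bk_zero (φ : 𝔉 →ₐ[K] 𝔉) (b₀ : ValuationSubring 𝔉 → 𝔉) :
    s27bk K φ b₀ 0 = b₀ := by
  funext V
  unfold s27bk
  rw [pow_zero, s27tele_comap_one]
  rfl

theorem s27tele_isKVal_comap (ψ : 𝔉 →ₐ[K] 𝔉) (V : ValuationSubring 𝔉) (hV : S27IsKVal K V) :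
    S27IsKVal K (V.comap (ψ : 𝔉 →+* 𝔉)) := by
  intro a
  rw [ValuationSubring.mem_comap]
  have : (ψ : 𝔉 →+* 𝔉) (algebraMap K 𝔉 a) = algebraMap K 𝔉 a := ψ.commutes a
  rw [this]
  exact hV a

theorem s27tele_unit_map (ψ : 𝔉 →ₐ[K] 𝔉) (V : ValuationSubring 𝔉) (u : 𝔉)
    (hu : S27IsUnitIn (V.comap (ψ : 𝔉 →+* 𝔉)) u) : S27IsUnitIn V (ψ u) := by
  obtain ⟨h0, h1, h2⟩ := hu
  refine ⟨fun h => h0 ((map_eq_zero_iff ψ ψ.toRingHom.injective).1 h), h1, ?_⟩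
  rw [ValuationSubring.mem_comap] at h2
  have h3 : ψ u⁻¹ = (ψ u)⁻¹ := map_inv₀ ψ u
  rw [← h3]
  exact h2

theorem s27tele_unit_mul (V : ValuationSubring 𝔉) (u v : 𝔉) (hu : S27IsUnitIn V u)
    (hv : S27IsUnitIn V v) : S27IsUnitIn V (u * v) := by
  obtain ⟨h0, h1, h2⟩ := hu
  obtain ⟨k0, k1, k2⟩ := hv
  refine ⟨mul_ne_zero h0 k0, V.mul_mem _ _ h1 k1, ?_⟩
  rw [mul_inv]
  exact V.mul_mem _ _ h2 k2

theorem s27tele_unit_pow (V : ValuationSubring 𝔉) (u : 𝔉) (hu : S27IsUnitIn V u) (r : ℕ) :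
    S27IsUnitIn V (u ^ r) := by
  obtain ⟨h0, h1, h2⟩ := hu
  refine ⟨pow_ne_zero _ h0, V.pow_mem h1 r, ?_⟩
  rw [← inv_pow]
  exact V.pow_mem h2 r

theorem s27tele_unit_one (V : ValuationSubring 𝔉) : S27IsUnitIn V (1 : 𝔉) :=
  ⟨one_ne_zero, V.one_mem, by simp [V.one_mem]⟩

theorem s27tele_comap_succ (φ : 𝔉 →ₐ[K] 𝔉) (k : ℕ) (V : ValuationSubring 𝔉) :
    V.comap ((φ ^ (k + 1) : 𝔉 →ₐ[K] 𝔉) : 𝔉 →+* 𝔉) =
      (V.comap ((φ ^ k : 𝔉 →ₐ[K] 𝔉) : 𝔉 →+* 𝔉)).comap (φ : 𝔉 →+* 𝔉) := by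
  ext x
  simp only [ValuationSubring.mem_comap]
  rw [pow_succ]
  rfl

theorem s27tele_pow_succ_apply (φ : 𝔉 →ₐ[K] 𝔉) (k : ℕ) (x : 𝔉) :
    (φ ^ (k + 1)) x = (φ ^ k) (φ x) := by
  rw [pow_succ]
  rfl

theorem s27tele_Hk_ne (φ : 𝔉 →ₐ[K] 𝔉) (H : 𝔉) (hH : H ≠ 0) (n : ℕ) :
    ∀ k, s27Hk K φ H n k ≠ 0
  | 0 => one_ne_zero
  | k + 1 => by
    show (φ ^ k) H * s27Hk K φ H n k ^ (n ^ 2) ≠ 0
    exact mul_ne_zero (fun h => hH ((map_eq_zero_iff (φ ^ k) (φ ^ k).toRingHom.injective).1 h))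
      (pow_ne_zero _ (s27tele_Hk_ne φ H hH n k))

theorem s27tele_cube {φ : 𝔉 →ₐ[K] 𝔉} {b₀ : ValuationSubring 𝔉 → 𝔉} {H : 𝔉} {g n d : ℕ}
    (hB : S27IsBase K φ b₀ H g n d) :
    ∀ (k : ℕ) (V : ValuationSubring 𝔉), S27IsKVal K V → ∃ u : 𝔉, S27IsUnitIn V u ∧
      s27bk K φ b₀ k V = u * s27Hk K φ H n k * s27bk K φ b₀ 0 V ^ (n ^ (2 * k))
  | 0, V, _ => ⟨1, s27tele_unit_one V, by
      show s27bk K φ b₀ 0 V = 1 * 1 * s27bk K φ b₀ 0 V ^ (n ^ (2 * 0))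
      simp⟩
  | k + 1, V, hV => by
    obtain ⟨u, hu, hk⟩ := s27tele_cube hB k V hV
    set V' := V.comap ((φ ^ k : 𝔉 →ₐ[K] 𝔉) : 𝔉 →+* 𝔉) with hV'
    have hKV' : S27IsKVal K V' := s27tele_isKVal_comap (φ ^ k) V hV
    obtain ⟨u', hu', hc⟩ := hB.cube1 V' hKV'
    refine ⟨(φ ^ k) u' * u ^ (n ^ 2),
      s27tele_unit_mul V _ _ (s27tele_unit_map (φ ^ k) V u' hu') (s27tele_unit_pow V u hu _), ?_⟩
    have h1 : s27bk K φ b₀ (k + 1) V = (φ ^ k) (φ (b₀ (V'.comap (φ : 𝔉 →+* 𝔉)))) := by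
      unfold s27bk
      rw [s27tele_comap_succ, s27tele_pow_succ_apply]
    have h2 : s27bk K φ b₀ k V = (φ ^ k) (b₀ V') := rfl
    rw [h1, hc, map_mul, map_mul, map_pow, ← h2, hk]
    show _ = (φ ^ k) u' * u ^ (n ^ 2) * ((φ ^ k) H * s27Hk K φ H n k ^ (n ^ 2)) *
      s27bk K φ b₀ 0 V ^ (n ^ (2 * (k + 1)))
    have h3 : n ^ (2 * (k + 1)) = n ^ (2 * k) * n ^ 2 := by
      rw [← pow_add, Nat.mul_succ]
    rw [h3, pow_mul]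
    ring

theorem s27tele_main : s27f_StmtTele.{w} := by
  intro K _ _ 𝔉 _ _ φ b₀ H g n d hB
  have h0 : s27bk K φ b₀ 0 = b₀ := s27tele_bk_zero φ b₀
  refine
    { b_ne := ?_, b_mem := ?_, funct := ?_, cube := ?_, fin := ?_, growth := ?_, gen := ?_,
      deg_fin := hB.deg_fin, deg := hB.deg }
  · intro k V hV
    have := hB.b_ne _ (s27tele_isKVal_comap (φ ^ k) V hV)
    show (φ ^ k) (b₀ (V.comap ((φ ^ k : 𝔉 →ₐ[K] 𝔉) : 𝔉 →+* 𝔉))) ≠ 0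
    exact fun h => this ((map_eq_zero_iff (φ ^ k) (φ ^ k).toRingHom.injective).1 h)
  · intro k V hV
    have := hB.b_mem _ (s27tele_isKVal_comap (φ ^ k) V hV)
    exact this
  · intro k V hV
    refine ⟨1, s27tele_unit_one V, ?_⟩
    rw [h0, one_mul]
    rfl
  · intro k
    exact ⟨s27tele_Hk_ne φ H hB.H_ne n k, s27tele_cube hB k⟩
  · rw [h0]; exact hB.fin
  · rw [h0]; exact hB.growth
  · rw [h0]; exact hB.gen

end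

end Fermat.Agent.S27

end
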