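/-
S27-B, formal leaf **F-tower** (helper38): `s27ft_sep : s27f_StmtSep`.

For a valuative frame `S27IsFrame K φ b H g n d` over a field `K` of characteristic `0`, the
extension `𝔉 / φ^k 𝔉` is finite (tower law `s26c_finrank_pow`, S26/CTower) and separable
(characteristic `0`).
-/
import Fermat.Agent.S27.Plan
import Fermat.Agent.S26.CTower

set_option autoImplicit false
set_option linter.style.haveILetI false

noncomputable section

namespace Fermat.Agent.S27

open Fermat.Agent.S26

universe w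

/-- `𝔉 / φ^k 𝔉` is finite as soon as `𝔉 / φ 𝔉` is. -/
theorem s27ft_finite {K : Type*} [Field K] {𝔉 : Type*} [Field 𝔉] [Algebra K 𝔉]
    (φ : 𝔉 →ₐ[K] 𝔉) (h : Module.Finite φ.fieldRange 𝔉) (k : ℕ) :
    Module.Finite (φ ^ k).fieldRange 𝔉 := by
  haveI := h
  apply Module.finite_of_finrank_pos
  rw [s26c_finrank_pow]
  exact pow_pos Module.finrank_pos k

/-- `𝔉 / φ^k 𝔉` is separable in characteristic `0`. -/
theorem s27ft_separable {K : Type*} [Field K] [CharZero K] {𝔉 : Type*} [Field 𝔉] [Algebra K 𝔉]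
    (φ : 𝔉 →ₐ[K] 𝔉) (h : Module.Finite φ.fieldRange 𝔉) (k : ℕ) :
    Algebra.IsSeparable (φ ^ k).fieldRange 𝔉 := by
  haveI : CharZero 𝔉 := charZero_of_injective_algebraMap (algebraMap K 𝔉).injective
  haveI := s27ft_finite φ h k
  haveI : CharZero (φ ^ k).fieldRange :=
    charZero_of_injective_algebraMap (algebraMap K (φ ^ k).fieldRange).injective
  haveI : Algebra.IsAlgebraic (φ ^ k).fieldRange 𝔉 := Algebra.IsAlgebraic.of_finite _ _
  exact Algebra.IsAlgebraic.isSeparable_of_perfectField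

/-- **F-tower.** -/
theorem s27ft_sep : s27f_StmtSep.{w} := by
  intro K _ _ 𝔉 _ _ φ b H g n d hfr k
  exact ⟨s27ft_finite φ hfr.deg_fin k, s27ft_separable φ hfr.deg_fin k⟩

end Fermat.Agent.S27

end
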