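/-
S27-B, formal leaf F-c2 / F3 (helper48): TRACES AND VALUATION SUBRINGS.

* `s27tv_trace_mem` : **interface-free core**.  `Ω'/Ω` a field extension, `V` a valuation subring of
  `Ω`, `x ∈ Ω'` lying in EVERY valuation subring of `Ω'` over `V`  ⇒  `Tr_{Ω'/Ω} x ∈ V`
  (`x` is integral over `V`, so is its trace, and `V` is integrally closed; no finiteness and no
  separability hypothesis: the trace is `0` if `Ω'/Ω` is not finite).
* `s27tv_c2` : `s27f_StmtC2` of `S27/Plan.lean` (the frame form of (c2)): the trace of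
  `L'(k, m)` lies in `φ^k (L(m))`.
-/
import Fermat.Agent.S27.Plan
import Fermat.Agent.S26.ERAbs

set_option autoImplicit false
set_option linter.style.haveILetI false

noncomputable section

namespace Fermat.Agent.S27

open Fermat.Agent.S26

section Core

variable {Ω Ω' : Type*} [Field Ω] [Field Ω'] [Algebra Ω Ω']

/-- **core**: an element of `Ω'` lying in every valuation subring over `V` has its trace in `V`. -/
theorem s27tv_trace_mem (V : ValuationSubring Ω) (x : Ω')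
    (h : ∀ V' : ValuationSubring Ω', V'.comap (algebraMap Ω Ω') = V → x ∈ V') :
    Algebra.trace Ω Ω' x ∈ V := by
  by_cases hfin : FiniteDimensional Ω Ω'
  · letI : Algebra V Ω' := (s26erMap (Ω' := Ω') V).toAlgebra
    haveI : IsScalarTower V Ω Ω' := IsScalarTower.of_algebraMap_eq (fun _ => rfl)
    have h1 : IsIntegral V x := s26er_isIntegralElem_of_forall_mem V x h
    have h2 : IsIntegral V (Algebra.trace Ω Ω' x) := Algebra.isIntegral_trace h1
    exact s26er_mem_of_isIntegralElem V h2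
  · have h0 : Algebra.trace Ω Ω' = 0 := by
      apply Algebra.trace_eq_zero_of_not_exists_basis
      rintro ⟨s, ⟨bs⟩⟩
      exact hfin (Module.Finite.of_basis bs)
    rw [h0]
    exact V.zero_mem

end Core

section C2

universe w

variable (K : Type w) [Field K] {𝔉 : Type w} [Field 𝔉] [Algebra K 𝔉]

/-- the valuation subring of `ψ 𝔉` corresponding to `W` under `ψ : 𝔉 ≃ ψ 𝔉`. -/
def s27tvDown (ψ : 𝔉 →ₐ[K] 𝔉) (W : ValuationSubring 𝔉) : ValuationSubring ψ.fieldRange :=
  W.comap ((ψ.equivFieldRange.symm : ψ.fieldRange ≃ₐ[K] 𝔉) : ψ.fieldRange →+* 𝔉)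

theorem s27tvDown_mem (ψ : 𝔉 →ₐ[K] 𝔉) (W : ValuationSubring 𝔉) (a : ψ.fieldRange) :
    a ∈ s27tvDown K ψ W ↔ ψ.equivFieldRange.symm a ∈ W := Iff.rfl

theorem s27tv_algebraMap_equiv (ψ : 𝔉 →ₐ[K] 𝔉) (a : 𝔉) :
    algebraMap ψ.fieldRange 𝔉 (ψ.equivFieldRange a) = ψ a := rfl

/-- a valuation subring of `𝔉` over `s27tvDown ψ W` has `comap ψ = W`. -/
theorem s27tv_comap_eq (ψ : 𝔉 →ₐ[K] 𝔉) (W V : ValuationSubring 𝔉)
    (hV : V.comap (algebraMap ψ.fieldRange 𝔉) = s27tvDown K ψ W) :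
    V.comap (ψ : 𝔉 →+* 𝔉) = W := by
  ext a
  rw [ValuationSubring.mem_comap]
  have h1 : ψ.equivFieldRange a ∈ V.comap (algebraMap ψ.fieldRange 𝔉) ↔ a ∈ W := by
    rw [hV, s27tvDown_mem, AlgEquiv.symm_apply_apply]
  rw [← h1, ValuationSubring.mem_comap]
  rfl

/-- a valuation subring of `𝔉` over `s27tvDown ψ W`, `W ⊇ K`, contains `K`. -/
theorem s27tv_isKVal (ψ : 𝔉 →ₐ[K] 𝔉) (W V : ValuationSubring 𝔉) (hW : S27IsKVal K W)
    (hV : V.comap (algebraMap ψ.fieldRange 𝔉) = s27tvDown K ψ W) : S27IsKVal K V := by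
  intro a
  have h1 : V.comap (ψ : 𝔉 →+* 𝔉) = W := s27tv_comap_eq K ψ W V hV
  have h2 : algebraMap K 𝔉 a ∈ V.comap (ψ : 𝔉 →+* 𝔉) := by rw [h1]; exact hW a
  rw [ValuationSubring.mem_comap] at h2
  have h3 : (ψ : 𝔉 →+* 𝔉) (algebraMap K 𝔉 a) = algebraMap K 𝔉 a := ψ.commutes a
  rwa [h3] at h2

/-- **F-c2** (frame form): the trace of `L'(k, m)` lies in `φ^k (L(m))`. -/
theorem s27tv_c2 : s27f_StmtC2.{w} := by
  intro K _ _ 𝔉 _ _ φ b H g n d hF k m x hx
  set ψ : 𝔉 →ₐ[K] 𝔉 := φ ^ k with hψ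
  set tr : ψ.fieldRange := Algebra.trace ψ.fieldRange 𝔉 x with htr
  refine ⟨ψ.equivFieldRange.symm tr, ?_, ?_⟩
  · intro W hW
    -- the element `z = x * ψ (b 0 W) ^ m` lies in every valuation subring over `W`
    set c : ψ.fieldRange := ψ.equivFieldRange (b 0 W) ^ m with hc
    have hz : ∀ V : ValuationSubring 𝔉,
        V.comap (algebraMap ψ.fieldRange 𝔉) = s27tvDown K ψ W → c • x ∈ V := by
      intro V hV
      have hVK : S27IsKVal K V := s27tv_isKVal K ψ W V hW hV
      have hcomap : V.comap (ψ : 𝔉 →+* 𝔉) = W := s27tv_comap_eq K ψ W V hV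
      obtain ⟨u, ⟨hu0, huV, -⟩, hu⟩ := hF.funct k V hVK
      have hu' : ψ (b 0 W) = u * b k V := by
        have := hu
        rw [← hψ, hcomap] at this
        exact this
      have hxV : x * b k V ^ m ∈ V := hx V hVK
      have e1 : c • x = u ^ m * (x * b k V ^ m) := by
        rw [Algebra.smul_def, hc, map_pow, s27tv_algebraMap_equiv, hu', mul_pow]
        ring
      rw [e1]
      exact V.mul_mem _ _ (V.pow_mem huV m) hxV
    have h1 : Algebra.trace ψ.fieldRange 𝔉 (c • x) ∈ s27tvDown K ψ W :=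
      s27tv_trace_mem (s27tvDown K ψ W) (c • x) hz
    rw [map_smul, smul_eq_mul, s27tvDown_mem, map_mul, hc, map_pow,
      AlgEquiv.symm_apply_apply] at h1
    rw [mul_comm]
    exact h1
  · have := s27tv_algebraMap_equiv K ψ (ψ.equivFieldRange.symm tr)
    rw [AlgEquiv.apply_symm_apply] at this
    exact this

end C2

end Fermat.Agent.S27

end
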