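/-
S27-B — FORMAL HALF CLOSED (captain helper77): all six formal leaves are proved, so

  `s27fm_of_base  : s27_StmtBase  → s27_Stmt`     (geometry delivers the BASE frame of Plan2.lean)
  `s27fm_of_frame : s27_StmtFrame → s27_Stmt`     (or directly a frame of Plan.lean)
  `s27fm_growth   : S27IsBase K φ b₀ H g n d → S26Growth K g n d`, `s27fm_card : … → d = n^(2g)`.

Leaves: F-E `s27fe_stmtE` (FE.lean), F-b1 `s27fb1_main` (FB1.lean), F-tower `s27ft_sep` (FTower.lean),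
F-b3 `s27fb3_stmtB3` (FB3.lean), F-c2 `s27tv_c2` (TraceVal.lean), F-tele `s27tele_main` (FTele.lean).
-/
import Fermat.Agent.S27.FE
import Fermat.Agent.S27.FB1
import Fermat.Agent.S27.FTower
import Fermat.Agent.S27.FB3
import Fermat.Agent.S27.TraceVal
import Fermat.Agent.S27.FTele

set_option autoImplicit false

noncomputable section

namespace Fermat.Agent.S27

open AlgebraicCurve Fermat.Agent.S26

universe u v w

/-- a frame gives a growth datum (all formal leaves proved). -/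
theorem s27fm_growth_of_frame (K : Type w) [Field K] [CharZero K] (𝔉 : Type w) [Field 𝔉]
    [Algebra K 𝔉] (φ : 𝔉 →ₐ[K] 𝔉) (b : ℕ → ValuationSubring 𝔉 → 𝔉) (H : ℕ → 𝔉) (g n d : ℕ)
    (hF : S27IsFrame K φ b H g n d) : S26Growth K g n d :=
  s27f_growth s27fe_stmtE s27fb1_main s27ft_sep s27fb3_stmtB3 s27tv_c2 K 𝔉 φ b H g n d hF

/-- a base frame gives a growth datum. -/
theorem s27fm_growth (K : Type w) [Field K] [CharZero K] (𝔉 : Type w) [Field 𝔉]
    [Algebra K 𝔉] (φ : 𝔉 →ₐ[K] 𝔉) (b₀ : ValuationSubring 𝔉 → 𝔉) (H : 𝔉) (g n d : ℕ)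
    (hB : S27IsBase K φ b₀ H g n d) : S26Growth K g n d :=
  s27fm_growth_of_frame K 𝔉 φ _ _ g n d (s27tele_main K 𝔉 φ b₀ H g n d hB)

/-- **the degree of a base frame is `n^(2g)`**. -/
theorem s27fm_card (K : Type w) [Field K] [CharZero K] (𝔉 : Type w) [Field 𝔉]
    [Algebra K 𝔉] (φ : 𝔉 →ₐ[K] 𝔉) (b₀ : ValuationSubring 𝔉 → 𝔉) (H : 𝔉) (g n d : ℕ) (hn : 0 < n)
    (hB : S27IsBase K φ b₀ H g n d) : d = n ^ (2 * g) :=
  s26c_stmtCore K g n d hn (s27fm_growth K 𝔉 φ b₀ H g n d hB)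

/-- frames for all curves ⇒ the frozen S27. -/
theorem s27fm_of_frame (hG : s27_StmtFrame.{u, v}) : s27_Stmt.{u, v} :=
  s27_of_frame s27fe_stmtE s27fb1_main s27ft_sep s27fb3_stmtB3 s27tv_c2 hG

/-- **base frames for all curves ⇒ the frozen S27.** -/
theorem s27fm_of_base (hB : s27_StmtBase.{u, v}) : s27_Stmt.{u, v} :=
  s27_of_base s27fe_stmtE s27fb1_main s27ft_sep s27fb3_stmtB3 s27tv_c2 s27tele_main hB

end Fermat.Agent.S27

end
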