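/-
S27-B — UNIVERSE BRIDGE of the captain (helper77).  The frames of Plan.lean / Plan2.lean want the base field
`K` and `𝔉` in ONE universe, but the model `𝔉 = s27gfSym K F g` lives in `Type (max u v)` and `K : Type u`.
Here: the HETERO-universe base frame `S27IsBaseU K φ b₀ H g n d` (same fields, `K : Type u`, `𝔉 : Type w`)
and the transfer to the prime copy `K₀ := (⊥ : IntermediateField K 𝔉)` of `K` inside `𝔉`:

  `s27lift_base : S27IsBaseU K φ b₀ H g n d → S27IsBase ↥(⊥ : IntermediateField K 𝔉) (s27liftPhi φ) b₀ H g n d`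
  `s27lift_card : 0 < n → S27IsBaseU K φ b₀ H g n d → d = n ^ (2 * g)`.

GEOMETRY TARGET = `S27IsBaseU` (no `ULift`, no universe constraint).
-/
import Fermat.Agent.S27.Formal

set_option autoImplicit false

noncomputable section

namespace Fermat.Agent.S27

open AlgebraicCurve Fermat.Agent.S26

universe u w

section

variable (K : Type u) [Field K] {𝔉 : Type w} [Field 𝔉] [Algebra K 𝔉]

/-- `V` is a valuation subring of `𝔉` over `K` (hetero-universe form). -/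
def S27IsKValU (V : ValuationSubring 𝔉) : Prop := ∀ a : K, algebraMap K 𝔉 a ∈ V

/-- `L(m D)` for the divisor with local equations `b V` (hetero-universe form). -/
def s27LU (b : ValuationSubring 𝔉 → 𝔉) (m : ℕ) : Submodule K 𝔉 where
  carrier := {x | ∀ V : ValuationSubring 𝔉, S27IsKValU K V → x * b V ^ m ∈ V}
  zero_mem' := fun V _ => by simp [V.zero_mem]
  add_mem' := fun {x y} hx hy V hV => by
    have := V.add_mem _ _ (hx V hV) (hy V hV)
    rwa [← add_mul] at this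
  smul_mem' := fun c x hx V hV => by
    have := V.mul_mem _ _ (hV c) (hx V hV)
    rwa [← mul_assoc, ← Algebra.smul_def] at this

theorem s27LU_mem {b : ValuationSubring 𝔉 → 𝔉} {m : ℕ} {x : 𝔉} :
    x ∈ s27LU K b m ↔ ∀ V : ValuationSubring 𝔉, S27IsKValU K V → x * b V ^ m ∈ V := Iff.rfl

/-- **The base frame, hetero-universe form** (= geometry's target). -/
structure S27IsBaseU (φ : 𝔉 →ₐ[K] 𝔉) (b₀ : ValuationSubring 𝔉 → 𝔉) (H : 𝔉) (g n d : ℕ) : Prop where
  b_ne : ∀ V, S27IsKValU K V → b₀ V ≠ 0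
  /-- (EFF) -/
  b_mem : ∀ V, S27IsKValU K V → b₀ V ∈ V
  H_ne : H ≠ 0
  /-- (CUBE₁) `[n]^* D − n² D = div H`, valuation by valuation -/
  cube1 : ∀ V, S27IsKValU K V → ∃ u : 𝔉, S27IsUnitIn V u ∧
    φ (b₀ (V.comap (φ : 𝔉 →+* 𝔉))) = u * H * b₀ V ^ (n ^ 2)
  fin : ∀ m, Module.Finite K (s27LU K b₀ m)
  growth : ∃ c₁ c₂ : ℕ, ∀ m, 1 ≤ m →
    m ^ g ≤ c₁ * Module.finrank K (s27LU K b₀ m) ∧
    Module.finrank K (s27LU K b₀ m) ≤ c₂ * m ^ g
  gen : ∀ x : 𝔉, ∃ c, ∃ a ∈ s27LU K b₀ c, ∃ e ∈ s27LU K b₀ c, e ≠ 0 ∧ x * e = a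
  deg_fin : Module.Finite φ.fieldRange 𝔉
  deg : Module.finrank φ.fieldRange 𝔉 = d

variable {K}

/-- `φ` as an algebra map over the prime copy `⊥` of `K`. -/
def s27liftPhi (φ : 𝔉 →ₐ[K] 𝔉) : 𝔉 →ₐ[(⊥ : IntermediateField K 𝔉)] 𝔉 :=
  { (φ : 𝔉 →+* 𝔉) with
    commutes' := by
      rintro ⟨a, ha⟩
      obtain ⟨c, rfl⟩ := IntermediateField.mem_bot.1 ha
      exact φ.commutes c }

@[simp] theorem s27liftPhi_apply (φ : 𝔉 →ₐ[K] 𝔉) (x : 𝔉) : s27liftPhi φ x = φ x := rfl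

theorem s27lift_coe (φ : 𝔉 →ₐ[K] 𝔉) : ((s27liftPhi φ : 𝔉 →ₐ[(⊥ : IntermediateField K 𝔉)] 𝔉) : 𝔉 →+* 𝔉) =
    (φ : 𝔉 →+* 𝔉) := rfl

theorem s27lift_isKVal_iff (V : ValuationSubring 𝔉) :
    S27IsKVal (⊥ : IntermediateField K 𝔉) V ↔ S27IsKValU K V := by
  constructor
  · intro h a
    exact h ⟨algebraMap K 𝔉 a, IntermediateField.algebraMap_mem _ a⟩
  · rintro h ⟨a, ha⟩
    obtain ⟨c, rfl⟩ := IntermediateField.mem_bot.1 ha
    exact h c

theorem s27lift_mem_iff (b : ValuationSubring 𝔉 → 𝔉) (m : ℕ) (x : 𝔉) :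
    x ∈ s27L (⊥ : IntermediateField K 𝔉) b m ↔ x ∈ s27LU K b m := by
  rw [s27L_mem, s27LU_mem]
  exact forall_congr' fun V => by rw [s27lift_isKVal_iff]

theorem s27lift_restrict (b : ValuationSubring 𝔉 → 𝔉) (m : ℕ) :
    (s27L (⊥ : IntermediateField K 𝔉) b m).restrictScalars K = s27LU K b m := by
  ext x
  rw [Submodule.restrictScalars_mem]
  exact s27lift_mem_iff b m x

theorem s27lift_finrank (b : ValuationSubring 𝔉 → 𝔉) (m : ℕ) :
    Module.finrank (⊥ : IntermediateField K 𝔉) (s27L (⊥ : IntermediateField K 𝔉) b m) =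
      Module.finrank K (s27LU K b m) := by
  have h1 := Module.finrank_mul_finrank K (⊥ : IntermediateField K 𝔉)
    (s27L (⊥ : IntermediateField K 𝔉) b m)
  rw [IntermediateField.finrank_bot, one_mul] at h1
  rw [h1, ← s27lift_restrict]
  rfl

theorem s27lift_finite (b : ValuationSubring 𝔉 → 𝔉) (m : ℕ)
    (h : Module.Finite K (s27LU K b m)) :
    Module.Finite (⊥ : IntermediateField K 𝔉) (s27L (⊥ : IntermediateField K 𝔉) b m) := by
  have h2 : Module.Finite K ((s27L (⊥ : IntermediateField K 𝔉) b m).restrictScalars K) := by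
    rw [s27lift_restrict]; exact h
  have h3 : Module.Finite K (s27L (⊥ : IntermediateField K 𝔉) b m) := h2
  exact Module.Finite.of_restrictScalars_finite K _ _

theorem s27lift_finrank_range (φ : 𝔉 →ₐ[K] 𝔉) :
    Module.finrank (s27liftPhi φ).fieldRange 𝔉 = Module.finrank φ.fieldRange 𝔉 := by
  rfl

theorem s27lift_finite_range (φ : 𝔉 →ₐ[K] 𝔉) (h : Module.Finite φ.fieldRange 𝔉) :
    Module.Finite (s27liftPhi φ).fieldRange 𝔉 := h

/-- **the bridge**: a hetero-universe base frame over `K` is a base frame over `⊥ ≅ K`. -/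
theorem s27lift_base {φ : 𝔉 →ₐ[K] 𝔉} {b₀ : ValuationSubring 𝔉 → 𝔉} {H : 𝔉} {g n d : ℕ}
    (hB : S27IsBaseU K φ b₀ H g n d) :
    S27IsBase (⊥ : IntermediateField K 𝔉) (s27liftPhi φ) b₀ H g n d where
  b_ne := fun V hV => hB.b_ne V ((s27lift_isKVal_iff V).1 hV)
  b_mem := fun V hV => hB.b_mem V ((s27lift_isKVal_iff V).1 hV)
  H_ne := hB.H_ne
  cube1 := fun V hV => hB.cube1 V ((s27lift_isKVal_iff V).1 hV)
  fin := fun m => s27lift_finite b₀ m (hB.fin m)
  growth := by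
    obtain ⟨c₁, c₂, h⟩ := hB.growth
    refine ⟨c₁, c₂, fun m hm => ?_⟩
    rw [s27lift_finrank]
    exact h m hm
  gen := fun x => by
    obtain ⟨c, a, ha, e, he, hne, hxe⟩ := hB.gen x
    exact ⟨c, a, (s27lift_mem_iff b₀ c a).2 ha, e, (s27lift_mem_iff b₀ c e).2 he, hne, hxe⟩
  deg_fin := s27lift_finite_range φ hB.deg_fin
  deg := (s27lift_finrank_range φ).trans hB.deg

/-- **the degree of a hetero-universe base frame is `n^(2g)`.** -/
theorem s27lift_card [CharZero K] {φ : 𝔉 →ₐ[K] 𝔉} {b₀ : ValuationSubring 𝔉 → 𝔉} {H : 𝔉}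
    {g n d : ℕ} (hn : 0 < n) (hB : S27IsBaseU K φ b₀ H g n d) : d = n ^ (2 * g) := by
  have : CharZero (⊥ : IntermediateField K 𝔉) :=
    charZero_of_injective_algebraMap (algebraMap K (⊥ : IntermediateField K 𝔉)).injective
  exact s27fm_card (⊥ : IntermediateField K 𝔉) 𝔉 (s27liftPhi φ) b₀ H g n d hn (s27lift_base hB)

end

end Fermat.Agent.S27

end
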