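/-
S27-B — TOP of the captain (helper77): the frozen S27 from exactly TWO geometric inputs.

  `s27top_StmtR0`    (RR0 at genus 0)   : `genusFF K F = 0 → deg D = 0 → L(D) ≠ 0`
  `s27top_StmtBaseU` (GEOMETRY, g ≥ 1)  : `∀ n > 0, ∃ 𝔉 φ b₀ H, S27IsBaseU K φ b₀ H (genusFF K F) n #Pic0(F)[n]`
  `s27top_main : s27top_StmtR0 → s27top_StmtBaseU → s27_Stmt`.

`s27top_StmtBaseU` is split in three independent certificates over a COMMON `(𝔉, φ, b₀)`: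
`S27IsCrux` (b_ne, b_mem, H, cube1), `S27IsGrow` (fin, growth, gen), `S27IsDeg` (deg_fin, deg);
`s27top_baseU_of` glues them.
-/
import Fermat.Agent.S27.Lift
import Fermat.Agent.S27.G0

set_option autoImplicit false

noncomputable section

namespace Fermat.Agent.S27

open AlgebraicCurve Fermat.Agent.S26

universe u v w

section Split

variable (K : Type u) [Field K] {𝔉 : Type w} [Field 𝔉] [Algebra K 𝔉]

/-- **CRUX certificate**: local equations `b₀ V` of `D = Θ + Θ⁻`, effective, and `[n]^* D − n² D = div H`. -/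
structure S27IsCrux (φ : 𝔉 →ₐ[K] 𝔉) (b₀ : ValuationSubring 𝔉 → 𝔉) (H : 𝔉) (n : ℕ) : Prop where
  b_ne : ∀ V, S27IsKValU K V → b₀ V ≠ 0
  b_mem : ∀ V, S27IsKValU K V → b₀ V ∈ V
  H_ne : H ≠ 0
  cube1 : ∀ V, S27IsKValU K V → ∃ u : 𝔉, S27IsUnitIn V u ∧
    φ (b₀ (V.comap (φ : 𝔉 →+* 𝔉))) = u * H * b₀ V ^ (n ^ 2)

/-- **GROWTH certificate**: `dim L(mD) ≍ m^g` and `𝔉 = Frac(⋃ L(cD))`. -/
structure S27IsGrow (b₀ : ValuationSubring 𝔉 → 𝔉) (g : ℕ) : Prop where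
  fin : ∀ m, Module.Finite K (s27LU K b₀ m)
  growth : ∃ c₁ c₂ : ℕ, ∀ m, 1 ≤ m →
    m ^ g ≤ c₁ * Module.finrank K (s27LU K b₀ m) ∧
    Module.finrank K (s27LU K b₀ m) ≤ c₂ * m ^ g
  gen : ∀ x : 𝔉, ∃ c, ∃ a ∈ s27LU K b₀ c, ∃ e ∈ s27LU K b₀ c, e ≠ 0 ∧ x * e = a

/-- **DEGREE certificate**: `[𝔉 : φ 𝔉] = d`. -/
structure S27IsDeg (φ : 𝔉 →ₐ[K] 𝔉) (d : ℕ) : Prop where
  deg_fin : Module.Finite φ.fieldRange 𝔉
  deg : Module.finrank φ.fieldRange 𝔉 = d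

variable {K}

theorem s27top_baseU_of {φ : 𝔉 →ₐ[K] 𝔉} {b₀ : ValuationSubring 𝔉 → 𝔉} {H : 𝔉} {g n d : ℕ}
    (hC : S27IsCrux K φ b₀ H n) (hG : S27IsGrow K b₀ g) (hD : S27IsDeg K φ d) :
    S27IsBaseU K φ b₀ H g n d :=
  { b_ne := hC.b_ne, b_mem := hC.b_mem, H_ne := hC.H_ne, cube1 := hC.cube1
    fin := hG.fin, growth := hG.growth, gen := hG.gen
    deg_fin := hD.deg_fin, deg := hD.deg }

end Split

/-- **RR0 at genus 0**: Riemann's inequality `l(D) ≥ deg D + 1 − g` for `g = 0`, `deg D = 0`. -/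
def s27top_StmtR0 : Prop :=
  ∀ (K : Type u) (F : Type v) [Field K] [Field F] [Algebra K F] [IsAlgClosed K] [CharZero K]
    [IsCurveOver K F] [Algebra.EssFiniteType K F], genusFF K F = 0 →
    ∀ D : Divisor K F, Divisor.degree D = 0 → ∃ f : F, f ≠ 0 ∧ f ∈ riemannRochSpace D

/-- **GEOMETRY (genus ≥ 1)**: a hetero-universe base frame with `g = genusFF K F`, `d = #Pic0(F)[n]`. -/
def s27top_StmtBaseU : Prop :=
  ∀ (K : Type u) (F : Type v) [Field K] [Field F] [Algebra K F] [IsAlgClosed K] [CharZero K]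
    [IsCurveOver K F] [Algebra.EssFiniteType K F] (n : ℕ), 0 < n → 0 < genusFF K F →
    ∃ (𝔉 : Type w) (_ : Field 𝔉) (_ : Algebra K 𝔉) (φ : 𝔉 →ₐ[K] 𝔉)
      (b₀ : ValuationSubring 𝔉 → 𝔉) (H : 𝔉),
      S27IsBaseU K φ b₀ H (genusFF K F) n (Nat.card (Pic0.torsion K F n))

/-- **TOP**: RR0 at genus 0 + the geometric base frame in genus ≥ 1 ⇒ the frozen S27. -/
theorem s27top_main (hR0 : s27top_StmtR0.{u, v}) (hB : s27top_StmtBaseU.{u, v, w}) :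
    s27_Stmt.{u, v} := by
  intro K F _ _ _ _ _ _ _ ℓ hℓ k
  have hn : 0 < ℓ ^ k := pow_pos hℓ.out.pos k
  have key : Nat.card (Pic0.torsion K F (ℓ ^ k)) = (ℓ ^ k) ^ (2 * genusFF K F) := by
    by_cases h0 : genusFF K F = 0
    · obtain ⟨K', iK', iC, 𝔉, i𝔉, iA, φ, b, H, hF⟩ := s27g0_frame K F h0 (hR0 K F h0) (ℓ ^ k)
      exact s26c_stmtCore K' (genusFF K F) (ℓ ^ k) _ hn
        (s27fm_growth_of_frame K' 𝔉 φ b H _ _ _ hF)
    · obtain ⟨𝔉, i𝔉, iA, φ, b₀, H, hb⟩ := hB K F (ℓ ^ k) hn (Nat.pos_of_ne_zero h0)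
      exact s27lift_card hn hb
  rw [key, ← pow_mul]
  congr 1
  ring

end Fermat.Agent.S27

end
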