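/-
S27-B — formal leaf IND (formal hub helper11): the POINTWISE CUBE, for all `k ∈ ℤ`, gives the
CRUX certificate `S27IsCrux` of the captain's Top.lean (NOTES/S27-geom.md §1).

Data: `ψ : ℤ → (𝔉 →ₐ[K] 𝔉)` (`ψ k = [k]^*`), `β : ValuationSubring 𝔉 → 𝔉` (local equation of `Θ`
at the generic point), `c : ℕ`, `Φ : ℤ → 𝔉`;
  `s27indB ψ β k V := if k = 0 then 1 else ψ k (β (V.comap (ψ k)))`  (local equation of `Θ` at `k·η`),
  `s27indb ψ β c V := (B 1 V * B (-1) V) ^ c`.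
Hypotheses (plain arguments): `comp₁ : ψ n ∘ ψ 1 = ψ n`, `comp₋ : ψ n ∘ ψ (-1) = ψ (-n)`, `β V ∈ V ∖ {0}`,
`cube_k : (B (k+1) V * B (k-1) V)^c ≐_V Φ k * (B k V ^ 2 * B 1 V * B (-1) V)^c` (only `k ≠ 0` is used).
Output: `s27ind_crux : S27IsCrux K (ψ n) (s27indb ψ β c) (s27indH Φ n) n` with
`s27indH Φ n = Ψ⁺_n * Ψ⁻_n`, `Ψ_0 = Ψ_1 = 1`, `Ψ_{k+2} = Φ_{k+1} Ψ_{k+1}² / Ψ_k`
(telescoping: `T_k ≐ Ψ_k T_1^{k(k+1)/2} T_{-1}^{k(k-1)/2}`, exponents add up to `k²`).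
-/
import Fermat.Agent.S27.Top

set_option autoImplicit false

noncomputable section

namespace Fermat.Agent.S27

universe u w

/-! ### exponents -/

/-- `k (k + 1) / 2`. -/
def s27indTri : ℕ → ℕ
  | 0 => 0
  | k + 1 => s27indTri k + (k + 1)

/-- `k (k - 1) / 2`. -/
def s27indTriM : ℕ → ℕ
  | 0 => 0
  | k + 1 => s27indTri k

theorem s27indTri_step (k : ℕ) : s27indTri (k + 2) + s27indTri k = 2 * s27indTri (k + 1) + 1 := by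
  simp only [s27indTri]
  ring

theorem s27indTriM_step (k : ℕ) :
    s27indTriM (k + 2) + s27indTriM k = 2 * s27indTriM (k + 1) + 1 := by
  cases k with
  | zero => simp [s27indTriM, s27indTri]
  | succ j =>
    simp only [s27indTriM]
    exact s27indTri_step j

theorem s27indTri_add (k : ℕ) : s27indTri k + s27indTriM k = k ^ 2 := by
  induction k with
  | zero => simp [s27indTri, s27indTriM]
  | succ j ih =>
    cases j with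
    | zero => simp [s27indTri, s27indTriM]
    | succ i =>
      simp only [s27indTri, s27indTriM] at ih ⊢
      nlinarith [ih]

/-! ### units of a valuation subring -/

section Units

variable {𝔉 : Type w} [Field 𝔉]

theorem s27ind_unit_one (V : ValuationSubring 𝔉) : S27IsUnitIn V (1 : 𝔉) :=
  ⟨one_ne_zero, V.one_mem, by simp [V.one_mem]⟩

theorem s27ind_unit_mul {V : ValuationSubring 𝔉} {u v : 𝔉} (hu : S27IsUnitIn V u)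
    (hv : S27IsUnitIn V v) : S27IsUnitIn V (u * v) := by
  obtain ⟨h0, h1, h2⟩ := hu
  obtain ⟨k0, k1, k2⟩ := hv
  refine ⟨mul_ne_zero h0 k0, V.mul_mem _ _ h1 k1, ?_⟩
  rw [mul_inv]
  exact V.mul_mem _ _ h2 k2

theorem s27ind_unit_inv {V : ValuationSubring 𝔉} {u : 𝔉} (hu : S27IsUnitIn V u) :
    S27IsUnitIn V u⁻¹ := by
  obtain ⟨h0, h1, h2⟩ := hu
  exact ⟨inv_ne_zero h0, h2, by rwa [inv_inv]⟩

theorem s27ind_unit_pow {V : ValuationSubring 𝔉} {u : 𝔉} (hu : S27IsUnitIn V u) (r : ℕ) :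
    S27IsUnitIn V (u ^ r) := by
  obtain ⟨h0, h1, h2⟩ := hu
  refine ⟨pow_ne_zero _ h0, V.pow_mem h1 r, ?_⟩
  rw [← inv_pow]
  exact V.pow_mem h2 r

/-! ### the telescoped functions -/

/-- `Ψ_0 = Ψ_1 = 1`, `Ψ_{k+2} = Φ_{k+1} Ψ_{k+1}² / Ψ_k`. -/
def s27indPsi (Φ : ℕ → 𝔉) : ℕ → 𝔉
  | 0 => 1
  | 1 => 1
  | k + 2 => Φ (k + 1) * s27indPsi Φ (k + 1) ^ 2 / s27indPsi Φ k

theorem s27indPsi_ne (Φ : ℕ → 𝔉) (hΦ : ∀ k, Φ (k + 1) ≠ 0) : ∀ k, s27indPsi Φ k ≠ 0 := by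
  intro k
  induction k using Nat.strong_induction_on with
  | _ k ih =>
    match k with
    | 0 => simp [s27indPsi]
    | 1 => simp [s27indPsi]
    | j + 2 =>
      simp only [s27indPsi]
      exact div_ne_zero (mul_ne_zero (hΦ j) (pow_ne_zero _ (ih (j + 1) (by omega))))
        (ih j (by omega))

/-- **abstract telescoping**: `a_{k+2} a_k ≐ Φ_{k+1} a_{k+1}² P Q`, `a_0 = 1`, `a_1 = P` give
`a_k ≐ Ψ_k P^{k(k+1)/2} Q^{k(k-1)/2}`. -/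
theorem s27ind_tele (V : ValuationSubring 𝔉) (a Φ : ℕ → 𝔉) (P Q : 𝔉)
    (ha0 : a 0 = 1) (ha1 : a 1 = P) (hane : ∀ k, a k ≠ 0) (hΦ : ∀ k, Φ (k + 1) ≠ 0)
    (hrec : ∀ k, ∃ u, S27IsUnitIn V u ∧
      a (k + 2) * a k = u * Φ (k + 1) * (a (k + 1) ^ 2 * P * Q)) :
    ∀ k, ∃ u, S27IsUnitIn V u ∧
      a k = u * s27indPsi Φ k * (P ^ s27indTri k * Q ^ s27indTriM k) := by
  intro k
  induction k using Nat.strong_induction_on with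
  | _ k ih =>
    match k with
    | 0 => exact ⟨1, s27ind_unit_one V, by simp [ha0, s27indPsi, s27indTri, s27indTriM]⟩
    | 1 => exact ⟨1, s27ind_unit_one V, by simp [ha1, s27indPsi, s27indTri, s27indTriM]⟩
    | j + 2 =>
      obtain ⟨u₀, hu₀, h₀⟩ := ih j (by omega)
      obtain ⟨u₁, hu₁, h₁⟩ := ih (j + 1) (by omega)
      obtain ⟨u, hu, h⟩ := hrec j
      have hΨ₀ : s27indPsi Φ j ≠ 0 := s27indPsi_ne Φ hΦ j
      have hu₀0 : u₀ ≠ 0 := hu₀.1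
      refine ⟨u * u₁ ^ 2 * u₀⁻¹,
        s27ind_unit_mul (s27ind_unit_mul hu (s27ind_unit_pow hu₁ 2)) (s27ind_unit_inv hu₀), ?_⟩
      have haj : a j ≠ 0 := hane j
      apply mul_right_cancel₀ haj
      rw [h]
      have e1 := s27indTri_step j
      have e2 := s27indTriM_step j
      have key : u * u₁ ^ 2 * u₀⁻¹ * s27indPsi Φ (j + 2) *
            (P ^ s27indTri (j + 2) * Q ^ s27indTriM (j + 2)) * a j =
          u * Φ (j + 1) * (u₁ ^ 2 * s27indPsi Φ (j + 1) ^ 2) *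
            (P ^ (s27indTri (j + 2) + s27indTri j) * Q ^ (s27indTriM (j + 2) + s27indTriM j)) := by
        conv_lhs => rw [h₀]
        simp only [s27indPsi, pow_add]
        field_simp
      rw [key, e1, e2, h₁]
      ring

end Units

/-! ### the local equations `B k V` and the crux -/

section Crux

variable {K : Type u} [Field K] {𝔉 : Type w} [Field 𝔉] [Algebra K 𝔉]

/-- local equation of `Θ` at `k·η` along `V`. -/
def s27indB (ψ : ℤ → (𝔉 →ₐ[K] 𝔉)) (β : ValuationSubring 𝔉 → 𝔉) (k : ℤ)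
    (V : ValuationSubring 𝔉) : 𝔉 :=
  if k = 0 then 1 else ψ k (β (V.comap ((ψ k : 𝔉 →ₐ[K] 𝔉) : 𝔉 →+* 𝔉)))

/-- local equation of `c (Θ + Θ⁻)` at `η` along `V`. -/
def s27indb (ψ : ℤ → (𝔉 →ₐ[K] 𝔉)) (β : ValuationSubring 𝔉 → 𝔉) (c : ℕ)
    (V : ValuationSubring 𝔉) : 𝔉 :=
  (s27indB ψ β 1 V * s27indB ψ β (-1) V) ^ c

/-- `H = Ψ⁺_n Ψ⁻_n`. -/
def s27indH (Φ : ℤ → 𝔉) (n : ℕ) : 𝔉 :=
  s27indPsi (fun k => Φ (k : ℤ)) n * s27indPsi (fun k => Φ (-(k : ℤ))) n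

theorem s27ind_isKVal_comap (ψ : 𝔉 →ₐ[K] 𝔉) {V : ValuationSubring 𝔉} (hV : S27IsKValU K V) :
    S27IsKValU K (V.comap (ψ : 𝔉 →+* 𝔉)) := by
  intro a
  rw [ValuationSubring.mem_comap]
  have : (ψ : 𝔉 →+* 𝔉) (algebraMap K 𝔉 a) = algebraMap K 𝔉 a := ψ.commutes a
  rw [this]
  exact hV a

theorem s27indB_ne (ψ : ℤ → (𝔉 →ₐ[K] 𝔉)) (β : ValuationSubring 𝔉 → 𝔉)
    (β_ne : ∀ V, S27IsKValU K V → β V ≠ 0) (k : ℤ) {V : ValuationSubring 𝔉}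
    (hV : S27IsKValU K V) : s27indB ψ β k V ≠ 0 := by
  unfold s27indB
  split_ifs with h
  · exact one_ne_zero
  · intro h0
    exact β_ne _ (s27ind_isKVal_comap (ψ k) hV)
      ((map_eq_zero_iff (ψ k) (ψ k).toRingHom.injective).1 h0)

theorem s27indB_mem (ψ : ℤ → (𝔉 →ₐ[K] 𝔉)) (β : ValuationSubring 𝔉 → 𝔉)
    (β_mem : ∀ V, S27IsKValU K V → β V ∈ V) (k : ℤ) {V : ValuationSubring 𝔉}
    (hV : S27IsKValU K V) : s27indB ψ β k V ∈ V := by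
  unfold s27indB
  split_ifs with h
  · exact V.one_mem
  · have := β_mem _ (s27ind_isKVal_comap (ψ k) hV)
    rwa [ValuationSubring.mem_comap] at this

/-- `ψ n (B j (V ∘ ψ n)) = B m V` when `ψ n ∘ ψ j = ψ m`, `j, m ≠ 0`. -/
theorem s27indB_map (ψ : ℤ → (𝔉 →ₐ[K] 𝔉)) (β : ValuationSubring 𝔉 → 𝔉) (n j m : ℤ)
    (hj : j ≠ 0) (hm : m ≠ 0) (hcomp : ∀ x, ψ n (ψ j x) = ψ m x) (V : ValuationSubring 𝔉) :
    ψ n (s27indB ψ β j (V.comap ((ψ n : 𝔉 →ₐ[K] 𝔉) : 𝔉 →+* 𝔉))) = s27indB ψ β m V := by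
  unfold s27indB
  rw [if_neg hj, if_neg hm, hcomp]
  congr 2
  ext x
  simp only [ValuationSubring.mem_comap]
  have : ((ψ n : 𝔉 →ₐ[K] 𝔉) : 𝔉 →+* 𝔉) (((ψ j : 𝔉 →ₐ[K] 𝔉) : 𝔉 →+* 𝔉) x) =
      ((ψ m : 𝔉 →ₐ[K] 𝔉) : 𝔉 →+* 𝔉) x := hcomp x
  rw [this]

/-- **IND**: the pointwise cube for all `k` gives the CRUX certificate for `φ = ψ n`,
`b₀ = (B 1 · B (-1))^c`, `H = Ψ⁺_n Ψ⁻_n`. -/
theorem s27ind_crux (ψ : ℤ → (𝔉 →ₐ[K] 𝔉)) (β : ValuationSubring 𝔉 → 𝔉) (c : ℕ) (Φ : ℤ → 𝔉)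
    (n : ℕ) (hn : 0 < n)
    (comp₁ : ∀ x, ψ n (ψ 1 x) = ψ n x) (compm : ∀ x, ψ n (ψ (-1) x) = ψ (-(n : ℤ)) x)
    (β_ne : ∀ V, S27IsKValU K V → β V ≠ 0) (β_mem : ∀ V, S27IsKValU K V → β V ∈ V)
    (hΦ : ∀ k : ℤ, k ≠ 0 → Φ k ≠ 0)
    (cube : ∀ k : ℤ, k ≠ 0 → ∀ V, S27IsKValU K V → ∃ u : 𝔉, S27IsUnitIn V u ∧
      (s27indB ψ β (k + 1) V * s27indB ψ β (k - 1) V) ^ c =
        u * Φ k * (s27indB ψ β k V ^ 2 * s27indB ψ β 1 V * s27indB ψ β (-1) V) ^ c) :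
    S27IsCrux K (ψ n) (s27indb ψ β c) (s27indH Φ n) n := by
  have hBne := fun (k : ℤ) {V : ValuationSubring 𝔉} (hV : S27IsKValU K V) =>
    s27indB_ne ψ β β_ne k hV
  have hBmem := fun (k : ℤ) {V : ValuationSubring 𝔉} (hV : S27IsKValU K V) =>
    s27indB_mem ψ β β_mem k hV
  have hΦp : ∀ k : ℕ, (fun k : ℕ => Φ (k : ℤ)) (k + 1) ≠ 0 := fun k =>
    hΦ _ (by push_cast; omega)
  have hΦm : ∀ k : ℕ, (fun k : ℕ => Φ (-(k : ℤ))) (k + 1) ≠ 0 := fun k =>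
    hΦ _ (by push_cast; omega)
  refine ⟨fun V hV => pow_ne_zero _ (mul_ne_zero (hBne 1 hV) (hBne (-1) hV)),
    fun V hV => V.pow_mem (V.mul_mem _ _ (hBmem 1 hV) (hBmem (-1) hV)) c,
    mul_ne_zero (s27indPsi_ne _ hΦp n) (s27indPsi_ne _ hΦm n), fun V hV => ?_⟩
  -- the two telescopes
  set P : 𝔉 := s27indB ψ β 1 V ^ c with hP
  set Q : 𝔉 := s27indB ψ β (-1) V ^ c with hQ
  have hB0 : s27indB ψ β 0 V = 1 := by simp [s27indB]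
  have hplus : ∀ k : ℕ, ∃ u, S27IsUnitIn V u ∧ s27indB ψ β (k : ℤ) V ^ c =
      u * s27indPsi (fun k : ℕ => Φ (k : ℤ)) k * (P ^ s27indTri k * Q ^ s27indTriM k) :=
    s27ind_tele V (fun k : ℕ => s27indB ψ β (k : ℤ) V ^ c)
      (fun k : ℕ => Φ (k : ℤ)) P Q
      (by simp [hB0]) (by simp [hP])
      (fun k => pow_ne_zero _ (hBne _ hV)) hΦp
      (fun k => by
        obtain ⟨m, hm⟩ : ∃ m : ℤ, m = (k : ℤ) + 1 := ⟨_, rfl⟩
        have e1 : ((k + 2 : ℕ) : ℤ) = m + 1 := by push_cast; omega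
        have e3 : ((k + 1 : ℕ) : ℤ) = m := by push_cast; omega
        have e2 : ((k : ℕ) : ℤ) = m - 1 := by omega
        have hm0 : m ≠ 0 := by omega
        obtain ⟨u, hu, h⟩ := cube m hm0 V hV
        refine ⟨u, hu, ?_⟩
        show s27indB ψ β ((k + 2 : ℕ) : ℤ) V ^ c * s27indB ψ β ((k : ℕ) : ℤ) V ^ c =
          u * Φ ((k + 1 : ℕ) : ℤ) * ((s27indB ψ β ((k + 1 : ℕ) : ℤ) V ^ c) ^ 2 * P * Q)
        rw [e1, e3, e2, ← mul_pow, h, hP, hQ]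
        ring)
  have hminus : ∀ k : ℕ, ∃ u, S27IsUnitIn V u ∧ s27indB ψ β (-(k : ℤ)) V ^ c =
      u * s27indPsi (fun k : ℕ => Φ (-(k : ℤ))) k * (Q ^ s27indTri k * P ^ s27indTriM k) :=
    s27ind_tele V (fun k : ℕ => s27indB ψ β (-(k : ℤ)) V ^ c)
      (fun k : ℕ => Φ (-(k : ℤ))) Q P
      (by simp [hB0]) (by simp [hQ])
      (fun k => pow_ne_zero _ (hBne _ hV)) hΦm
      (fun k => by
        obtain ⟨m, hm⟩ : ∃ m : ℤ, m = -((k : ℤ) + 1) := ⟨_, rfl⟩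
        have e1 : -((k + 2 : ℕ) : ℤ) = m - 1 := by push_cast; omega
        have e3 : -((k + 1 : ℕ) : ℤ) = m := by push_cast; omega
        have e2 : -((k : ℕ) : ℤ) = m + 1 := by omega
        have hm0 : m ≠ 0 := by omega
        obtain ⟨u, hu, h⟩ := cube m hm0 V hV
        refine ⟨u, hu, ?_⟩
        show s27indB ψ β (-((k + 2 : ℕ) : ℤ)) V ^ c * s27indB ψ β (-((k : ℕ) : ℤ)) V ^ c =
          u * Φ (-((k + 1 : ℕ) : ℤ)) * ((s27indB ψ β (-((k + 1 : ℕ) : ℤ)) V ^ c) ^ 2 * Q * P)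
        rw [e1, e3, e2, ← mul_pow, mul_comm (s27indB ψ β (m - 1) V), h, hP, hQ]
        ring)
  obtain ⟨u₁, hu₁, h₁⟩ := hplus n
  obtain ⟨u₂, hu₂, h₂⟩ := hminus n
  refine ⟨u₁ * u₂, s27ind_unit_mul hu₁ hu₂, ?_⟩
  have hn0 : (n : ℤ) ≠ 0 := by exact_mod_cast hn.ne'
  have hL : ψ n (s27indb ψ β c (V.comap ((ψ n : 𝔉 →ₐ[K] 𝔉) : 𝔉 →+* 𝔉))) =
      s27indB ψ β (n : ℤ) V ^ c * s27indB ψ β (-(n : ℤ)) V ^ c := by
    unfold s27indb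
    rw [map_pow, map_mul, s27indB_map ψ β n 1 n one_ne_zero hn0 comp₁ V,
      s27indB_map ψ β n (-1) (-(n : ℤ)) (by omega) (by omega) compm V, mul_pow]
  rw [hL, h₁, h₂]
  have hR : s27indb ψ β c V = P * Q := by
    unfold s27indb
    rw [mul_pow]
  rw [hR, ← s27indTri_add n]
  unfold s27indH
  rw [mul_pow, pow_add, pow_add]
  ring

end Crux

end Fermat.Agent.S27

end
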