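/-
S27-B — formal leaf IND, BOUNDED form (formal hub helper11).

The pointwise cube `cube_k` is obtained by a NORM from a finite extension `𝔉′_k / 𝔉` over which the
representatives `D₁ ∈ |kη + o_N|, …` are defined, so it comes with an exponent `c_k = [𝔉′_k : 𝔉]`
depending on `k`.  For the CRUX certificate of `φ = ψ n` only the finitely many `k` with
`0 < |k| < n` are needed:

  `s27indb_crux` : `cube_k` with exponents `e k > 0` for `0 < |k| < n` ⇒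
     `S27IsCrux K (ψ n) (s27indb ψ β c) (s27indH Φ' n) n`,  `c = ∏_{0 < |k| < n} e k`  (`s27indbC e n`),
     `Φ' k = Φ k ^ (c / e k)` in the range, `1` outside (`s27indbPhi`).
-/
import Fermat.Agent.S27.Ind

set_option autoImplicit false

noncomputable section

namespace Fermat.Agent.S27

universe u w

section Tele

variable {𝔉 : Type w} [Field 𝔉]

/-- **abstract telescoping, bounded**: the recursion for `k + 2 ≤ n` gives the formula for `k ≤ n`. -/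
theorem s27indb_tele (V : ValuationSubring 𝔉) (a Φ : ℕ → 𝔉) (P Q : 𝔉) (n : ℕ)
    (ha0 : a 0 = 1) (ha1 : a 1 = P) (hane : ∀ k, a k ≠ 0) (hΦ : ∀ k, Φ (k + 1) ≠ 0)
    (hrec : ∀ k, k + 2 ≤ n → ∃ u, S27IsUnitIn V u ∧
      a (k + 2) * a k = u * Φ (k + 1) * (a (k + 1) ^ 2 * P * Q)) :
    ∀ k, k ≤ n → ∃ u, S27IsUnitIn V u ∧
      a k = u * s27indPsi Φ k * (P ^ s27indTri k * Q ^ s27indTriM k) := by
  intro k
  induction k using Nat.strong_induction_on with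
  | _ k ih =>
    intro hk
    match k, hk, ih with
    | 0, _, _ => exact ⟨1, s27ind_unit_one V, by simp [ha0, s27indPsi, s27indTri, s27indTriM]⟩
    | 1, _, _ => exact ⟨1, s27ind_unit_one V, by simp [ha1, s27indPsi, s27indTri, s27indTriM]⟩
    | j + 2, hk, ih =>
      obtain ⟨u₀, hu₀, h₀⟩ := ih j (by omega) (by omega)
      obtain ⟨u₁, hu₁, h₁⟩ := ih (j + 1) (by omega) (by omega)
      obtain ⟨u, hu, h⟩ := hrec j hk
      have hΨ₀ : s27indPsi Φ j ≠ 0 := s27indPsi_ne Φ hΦ j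
      have hu₀0 : u₀ ≠ 0 := hu₀.1
      refine ⟨u * u₁ ^ 2 * u₀⁻¹,
        s27ind_unit_mul (s27ind_unit_mul hu (s27ind_unit_pow hu₁ 2)) (s27ind_unit_inv hu₀), ?_⟩
      have haj : a j ≠ 0 := hane j
      apply mul_right_cancel₀ haj
      rw [h]
      have e1 := s27indTri_step j
      have e2 := s27indTriM_step j
      have key : u * u₁ ^ 2 * u₀⁻¹ * s27indPsi Φ (j + 2) *
            (P ^ s27indTri (j + 2) * Q ^ s27indTriM (j + 2)) * a j =
          u * Φ (j + 1) * (u₁ ^ 2 * s27indPsi Φ (j + 1) ^ 2) *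
            (P ^ (s27indTri (j + 2) + s27indTri j) * Q ^ (s27indTriM (j + 2) + s27indTriM j)) := by
        conv_lhs => rw [h₀]
        simp only [s27indPsi, pow_add]
        field_simp
      rw [key, e1, e2, h₁]
      ring

end Tele

section Crux

variable {K : Type u} [Field K] {𝔉 : Type w} [Field 𝔉] [Algebra K 𝔉]

/-- the range `0 < |k| < n` as a finset. -/
def s27indbRange (n : ℕ) : Finset ℤ :=
  (Finset.Ioo (-(n : ℤ)) (n : ℤ)).erase 0

theorem s27indb_mem_range {n : ℕ} {k : ℤ} :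
    k ∈ s27indbRange n ↔ k ≠ 0 ∧ -(n : ℤ) < k ∧ k < n := by
  simp [s27indbRange]

/-- the uniform exponent `c = ∏_{0 < |k| < n} e k`. -/
def s27indbC (e : ℤ → ℕ) (n : ℕ) : ℕ := ∏ k ∈ s27indbRange n, e k

/-- the uniform functions `Φ' k = Φ k ^ (c / e k)` in the range, `1` outside. -/
def s27indbPhi (e : ℤ → ℕ) (Φ : ℤ → 𝔉) (n : ℕ) (k : ℤ) : 𝔉 :=
  if k ∈ s27indbRange n then Φ k ^ (∏ j ∈ (s27indbRange n).erase k, e j) else 1

theorem s27indbC_eq (e : ℤ → ℕ) (n : ℕ) {k : ℤ} (hk : k ∈ s27indbRange n) :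
    s27indbC e n = e k * ∏ j ∈ (s27indbRange n).erase k, e j := by
  unfold s27indbC
  rw [Finset.mul_prod_erase _ _ hk]

/-- **IND, bounded form with exponents depending on `k`.** -/
theorem s27indb_crux (ψ : ℤ → (𝔉 →ₐ[K] 𝔉)) (β : ValuationSubring 𝔉 → 𝔉) (e : ℤ → ℕ)
    (Φ : ℤ → 𝔉) (n : ℕ) (hn : 0 < n)
    (comp₁ : ∀ x, ψ n (ψ 1 x) = ψ n x) (compm : ∀ x, ψ n (ψ (-1) x) = ψ (-(n : ℤ)) x)
    (β_ne : ∀ V, S27IsKValU K V → β V ≠ 0) (β_mem : ∀ V, S27IsKValU K V → β V ∈ V)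
    (hΦ : ∀ k : ℤ, k ∈ s27indbRange n → Φ k ≠ 0)
    (cube : ∀ k : ℤ, k ∈ s27indbRange n → ∀ V, S27IsKValU K V → ∃ u : 𝔉, S27IsUnitIn V u ∧
      (s27indB ψ β (k + 1) V * s27indB ψ β (k - 1) V) ^ e k =
        u * Φ k * (s27indB ψ β k V ^ 2 * s27indB ψ β 1 V * s27indB ψ β (-1) V) ^ e k) :
    S27IsCrux K (ψ n) (s27indb ψ β (s27indbC e n)) (s27indH (s27indbPhi e Φ n) n) n := by
  set c := s27indbC e n with hc
  set Φ' := s27indbPhi e Φ n with hΦ'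
  have hBne := fun (k : ℤ) {V : ValuationSubring 𝔉} (hV : S27IsKValU K V) =>
    s27indB_ne ψ β β_ne k hV
  have hBmem := fun (k : ℤ) {V : ValuationSubring 𝔉} (hV : S27IsKValU K V) =>
    s27indB_mem ψ β β_mem k hV
  have hΦ'ne : ∀ k : ℤ, Φ' k ≠ 0 := by
    intro k
    rw [hΦ']
    unfold s27indbPhi
    split_ifs with hk
    · exact pow_ne_zero _ (hΦ k hk)
    · exact one_ne_zero
  -- the uniform cube in the range
  have cube' : ∀ k : ℤ, k ∈ s27indbRange n → ∀ V, S27IsKValU K V → ∃ u : 𝔉, S27IsUnitIn V u ∧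
      (s27indB ψ β (k + 1) V * s27indB ψ β (k - 1) V) ^ c =
        u * Φ' k * (s27indB ψ β k V ^ 2 * s27indB ψ β 1 V * s27indB ψ β (-1) V) ^ c := by
    intro k hk V hV
    obtain ⟨u, hu, h⟩ := cube k hk V hV
    refine ⟨u ^ (∏ j ∈ (s27indbRange n).erase k, e j), s27ind_unit_pow hu _, ?_⟩
    have hΦk : Φ' k = Φ k ^ (∏ j ∈ (s27indbRange n).erase k, e j) := by
      rw [hΦ']
      unfold s27indbPhi
      rw [if_pos hk]
    rw [hΦk, hc, s27indbC_eq e n hk, pow_mul, h, pow_mul]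
    ring
  have hΦp : ∀ k : ℕ, (fun k : ℕ => Φ' (k : ℤ)) (k + 1) ≠ 0 := fun k => hΦ'ne _
  have hΦm : ∀ k : ℕ, (fun k : ℕ => Φ' (-(k : ℤ))) (k + 1) ≠ 0 := fun k => hΦ'ne _
  refine ⟨fun V hV => pow_ne_zero _ (mul_ne_zero (hBne 1 hV) (hBne (-1) hV)),
    fun V hV => V.pow_mem (V.mul_mem _ _ (hBmem 1 hV) (hBmem (-1) hV)) c,
    mul_ne_zero (s27indPsi_ne _ hΦp n) (s27indPsi_ne _ hΦm n), fun V hV => ?_⟩
  set P : 𝔉 := s27indB ψ β 1 V ^ c with hP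
  set Q : 𝔉 := s27indB ψ β (-1) V ^ c with hQ
  have hB0 : s27indB ψ β 0 V = 1 := by simp [s27indB]
  have hplus : ∀ k : ℕ, k ≤ n → ∃ u, S27IsUnitIn V u ∧ s27indB ψ β (k : ℤ) V ^ c =
      u * s27indPsi (fun k : ℕ => Φ' (k : ℤ)) k * (P ^ s27indTri k * Q ^ s27indTriM k) :=
    s27indb_tele V (fun k : ℕ => s27indB ψ β (k : ℤ) V ^ c)
      (fun k : ℕ => Φ' (k : ℤ)) P Q n
      (by simp [hB0]) (by simp [hP])
      (fun k => pow_ne_zero _ (hBne _ hV)) hΦp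
      (fun k hk => by
        obtain ⟨m, hm⟩ : ∃ m : ℤ, m = (k : ℤ) + 1 := ⟨_, rfl⟩
        have e1 : ((k + 2 : ℕ) : ℤ) = m + 1 := by push_cast; omega
        have e3 : ((k + 1 : ℕ) : ℤ) = m := by push_cast; omega
        have e2 : ((k : ℕ) : ℤ) = m - 1 := by omega
        have hmr : m ∈ s27indbRange n := s27indb_mem_range.2 ⟨by omega, by omega, by omega⟩
        obtain ⟨u, hu, h⟩ := cube' m hmr V hV
        refine ⟨u, hu, ?_⟩
        show s27indB ψ β ((k + 2 : ℕ) : ℤ) V ^ c * s27indB ψ β ((k : ℕ) : ℤ) V ^ c =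
          u * Φ' ((k + 1 : ℕ) : ℤ) * ((s27indB ψ β ((k + 1 : ℕ) : ℤ) V ^ c) ^ 2 * P * Q)
        rw [e1, e3, e2, ← mul_pow, h, hP, hQ]
        ring)
  have hminus : ∀ k : ℕ, k ≤ n → ∃ u, S27IsUnitIn V u ∧ s27indB ψ β (-(k : ℤ)) V ^ c =
      u * s27indPsi (fun k : ℕ => Φ' (-(k : ℤ))) k * (Q ^ s27indTri k * P ^ s27indTriM k) :=
    s27indb_tele V (fun k : ℕ => s27indB ψ β (-(k : ℤ)) V ^ c)
      (fun k : ℕ => Φ' (-(k : ℤ))) Q P n
      (by simp [hB0]) (by simp [hQ])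
      (fun k => pow_ne_zero _ (hBne _ hV)) hΦm
      (fun k hk => by
        obtain ⟨m, hm⟩ : ∃ m : ℤ, m = -((k : ℤ) + 1) := ⟨_, rfl⟩
        have e1 : -((k + 2 : ℕ) : ℤ) = m - 1 := by push_cast; omega
        have e3 : -((k + 1 : ℕ) : ℤ) = m := by push_cast; omega
        have e2 : -((k : ℕ) : ℤ) = m + 1 := by omega
        have hmr : m ∈ s27indbRange n := s27indb_mem_range.2 ⟨by omega, by omega, by omega⟩
        obtain ⟨u, hu, h⟩ := cube' m hmr V hV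
        refine ⟨u, hu, ?_⟩
        show s27indB ψ β (-((k + 2 : ℕ) : ℤ)) V ^ c * s27indB ψ β (-((k : ℕ) : ℤ)) V ^ c =
          u * Φ' (-((k + 1 : ℕ) : ℤ)) * ((s27indB ψ β (-((k + 1 : ℕ) : ℤ)) V ^ c) ^ 2 * Q * P)
        rw [e1, e3, e2, ← mul_pow, mul_comm (s27indB ψ β (m - 1) V), h, hP, hQ]
        ring)
  obtain ⟨u₁, hu₁, h₁⟩ := hplus n le_rfl
  obtain ⟨u₂, hu₂, h₂⟩ := hminus n le_rfl
  refine ⟨u₁ * u₂, s27ind_unit_mul hu₁ hu₂, ?_⟩
  have hn0 : (n : ℤ) ≠ 0 := by exact_mod_cast hn.ne'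
  have hL : ψ n (s27indb ψ β c (V.comap ((ψ n : 𝔉 →ₐ[K] 𝔉) : 𝔉 →+* 𝔉))) =
      s27indB ψ β (n : ℤ) V ^ c * s27indB ψ β (-(n : ℤ)) V ^ c := by
    unfold s27indb
    rw [map_pow, map_mul, s27indB_map ψ β n 1 n one_ne_zero hn0 comp₁ V,
      s27indB_map ψ β n (-1) (-(n : ℤ)) (by omega) (by omega) compm V, mul_pow]
  rw [hL, h₁, h₂]
  have hR : s27indb ψ β c V = P * Q := by
    unfold s27indb
    rw [mul_pow]
  rw [hR, ← s27indTri_add n]
  unfold s27indH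
  rw [mul_pow, pow_add, pow_add]
  ring

end Crux

end Fermat.Agent.S27

end
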