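/-
S27-B — leaf NORM (helper89; NOTES/S27-geom.md §4, last line): descent of the cube constant from `𝔏` to `𝔉`.

Setting: `𝔉 ⊆ 𝔏` a NORMAL algebraic extension (e.g. `𝔏 = AlgebraicClosure 𝔉`, or the splitting field of the
auxiliary divisors), `K ⊆ 𝔉` the constants.  The pointwise cube (CUBE-PT + LE + NAT) is proved UPSTAIRS:
for every valuation subring `W ⊇ K` of `𝔏`, with `V := W ∩ 𝔉`,

    `X V ≐_W Φ' · Y V`        (`X V, Y V ∈ 𝔉`, `Φ' ∈ 𝔏ˣ` independent of `W`).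

Then DOWNSTAIRS, with `e := deg minpoly_𝔉 Φ'` and `Φ := (−1)^e · (minpoly_𝔉 Φ')(0) = ∏ (conjugates of Φ')`:

    `(X V)^e ≐_V Φ · (Y V)^e`   for every valuation subring `V ⊇ K` of `𝔉`.

Proof: extend `V` to `W` (`s27nm_exists_ext`), apply the hypothesis to the conjugates `W ∘ σ` (all lie over
`V`), multiply over the roots of the minimal polynomial.

  `s27nm_exists_ext`  : every valuation subring of `𝔉` is `W ∩ 𝔉`
  `s27nm_unit_comap`  : `u ∈ 𝔉` is a unit of `W ∩ 𝔉` iff it is a unit of `W`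
  `s27nm_norm`        : the descent (explicit `e`, `Φ`: `s27nmE`, `s27nmPhi`)
  `s27nm_norm_exists` : existential form
Mathlib + the two definitions `S27IsKValU`, `S27IsUnitIn` only.
-/
import Fermat.Agent.S27.Lift

set_option autoImplicit false

noncomputable section

namespace Fermat.Agent.S27

open Polynomial

universe u w w'

section Ext

variable {𝔉 : Type w} [Field 𝔉] {𝔏 : Type w'} [Field 𝔏] [Algebra 𝔉 𝔏]

/-- **Extension of valuation subrings**: every valuation subring of `𝔉` is the trace `W ∩ 𝔉` of a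
valuation subring `W` of `𝔏` (any field extension). -/
theorem s27nm_exists_ext (V : ValuationSubring 𝔉) :
    ∃ W : ValuationSubring 𝔏, W.comap (algebraMap 𝔉 𝔏) = V := by
  obtain ⟨W, h, hloc⟩ := IsLocalRing.exists_factor_valuationRing
    ((algebraMap 𝔉 𝔏).comp V.subtype)
  refine ⟨W, ?_⟩
  ext x
  rw [ValuationSubring.mem_comap]
  constructor
  · intro hx
    by_contra hxV
    have hx0 : x ≠ 0 := fun h0 => hxV (h0 ▸ V.zero_mem)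
    have hinv : x⁻¹ ∈ V := (V.mem_or_inv_mem x).resolve_left hxV
    have hu : IsUnit (((algebraMap 𝔉 𝔏).comp V.subtype).codRestrict W.toSubring h
        ⟨x⁻¹, hinv⟩) := by
      refine isUnit_iff_exists_inv.2 ⟨⟨algebraMap 𝔉 𝔏 x, hx⟩, ?_⟩
      apply Subtype.ext
      show algebraMap 𝔉 𝔏 x⁻¹ * algebraMap 𝔉 𝔏 x = 1
      rw [← map_mul, inv_mul_cancel₀ hx0, map_one]
    have hV : IsUnit (⟨x⁻¹, hinv⟩ : V) := hloc.map_nonunit _ hu
    obtain ⟨y, hy⟩ := isUnit_iff_exists_inv.1 hV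
    have hy' : x⁻¹ * (y : 𝔉) = 1 := congrArg Subtype.val hy
    have hxy : (y : 𝔉) = x := by
      have := congrArg (fun t => x * t) hy'
      simpa [← mul_assoc, mul_inv_cancel₀ hx0] using this
    exact hxV (hxy ▸ y.2)
  · intro hx
    exact h ⟨x, hx⟩

/-- units of `W ∩ 𝔉` are the elements of `𝔉` which are units of `W`. -/
theorem s27nm_unit_comap (W : ValuationSubring 𝔏) (u : 𝔉) :
    S27IsUnitIn (W.comap (algebraMap 𝔉 𝔏)) u ↔ S27IsUnitIn W (algebraMap 𝔉 𝔏 u) := by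
  unfold S27IsUnitIn
  rw [ValuationSubring.mem_comap, ValuationSubring.mem_comap, map_inv₀]
  constructor
  · rintro ⟨h0, h1, h2⟩
    exact ⟨fun h => h0 ((map_eq_zero _).1 h), h1, h2⟩
  · rintro ⟨h0, h1, h2⟩
    exact ⟨fun h => h0 (by rw [h, map_zero]), h1, h2⟩

theorem s27nm_unit_one (W : ValuationSubring 𝔏) : S27IsUnitIn W (1 : 𝔏) :=
  ⟨one_ne_zero, W.one_mem, by rw [inv_one]; exact W.one_mem⟩

theorem s27nm_unit_mul (W : ValuationSubring 𝔏) {a b : 𝔏} (ha : S27IsUnitIn W a)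
    (hb : S27IsUnitIn W b) : S27IsUnitIn W (a * b) :=
  ⟨mul_ne_zero ha.1 hb.1, W.mul_mem _ _ ha.2.1 hb.2.1, by
    rw [mul_inv]; exact W.mul_mem _ _ ha.2.2 hb.2.2⟩

/-- a relation `x ≐_W r · y` for every member `r` of a multiset multiplies up. -/
theorem s27nm_multiset (W : ValuationSubring 𝔏) (x y : 𝔏) (s : Multiset 𝔏)
    (h : ∀ r ∈ s, ∃ u : 𝔏, S27IsUnitIn W u ∧ x = u * r * y) :
    ∃ u : 𝔏, S27IsUnitIn W u ∧ x ^ Multiset.card s = u * s.prod * y ^ Multiset.card s := by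
  induction s using Multiset.induction_on with
  | empty => exact ⟨1, s27nm_unit_one W, by simp⟩
  | cons a s ih =>
    obtain ⟨u, hu, hux⟩ := ih (fun r hr => h r (Multiset.mem_cons_of_mem hr))
    obtain ⟨u', hu', hux'⟩ := h a (Multiset.mem_cons_self a s)
    refine ⟨u' * u, s27nm_unit_mul W hu' hu, ?_⟩
    rw [Multiset.card_cons, Multiset.prod_cons, pow_succ, pow_succ, hux]
    conv_lhs => rw [hux']
    ring

end Ext

section Norm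

variable (K : Type u) [Field K] {𝔉 : Type w} [Field 𝔉] [Algebra K 𝔉]
  {𝔏 : Type w'} [Field 𝔏] [Algebra 𝔉 𝔏] [Algebra K 𝔏] [IsScalarTower K 𝔉 𝔏]

/-- the exponent of NORM: the degree of the minimal polynomial. -/
def s27nmE (𝔉 : Type w) [Field 𝔉] {𝔏 : Type w'} [Field 𝔏] [Algebra 𝔉 𝔏] (Φ' : 𝔏) : ℕ :=
  (minpoly 𝔉 Φ').natDegree

/-- the constant of NORM: the product of the conjugates, `(−1)^e · minpoly(0)`. -/
def s27nmPhi (𝔉 : Type w) [Field 𝔉] {𝔏 : Type w'} [Field 𝔏] [Algebra 𝔉 𝔏] (Φ' : 𝔏) : 𝔉 :=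
  (-1) ^ (minpoly 𝔉 Φ').natDegree * (minpoly 𝔉 Φ').coeff 0

variable {K}

theorem s27nmE_pos [Normal 𝔉 𝔏] (Φ' : 𝔏) : 0 < s27nmE 𝔉 Φ' :=
  minpoly.natDegree_pos (Normal.isIntegral inferInstance Φ')

theorem s27nmPhi_ne [Normal 𝔉 𝔏] {Φ' : 𝔏} (hΦ' : Φ' ≠ 0) : s27nmPhi 𝔉 Φ' ≠ 0 :=
  mul_ne_zero (pow_ne_zero _ (neg_ne_zero.2 one_ne_zero))
    (minpoly.coeff_zero_ne_zero (Normal.isIntegral inferInstance Φ') hΦ')

/-- the conjugates of `Φ'` (roots of the minimal polynomial, with multiplicity): their number is `e`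
and their product is `Φ`. -/
theorem s27nm_roots [Normal 𝔉 𝔏] (Φ' : 𝔏) :
    Multiset.card ((minpoly 𝔉 Φ').map (algebraMap 𝔉 𝔏)).roots = s27nmE 𝔉 Φ' ∧
      ((minpoly 𝔉 Φ').map (algebraMap 𝔉 𝔏)).roots.prod = algebraMap 𝔉 𝔏 (s27nmPhi 𝔉 Φ') := by
  have hint : IsIntegral 𝔉 Φ' := Normal.isIntegral inferInstance Φ'
  have hs : Splits ((minpoly 𝔉 Φ').map (algebraMap 𝔉 𝔏)) := Normal.splits inferInstance Φ'
  have hm : ((minpoly 𝔉 Φ').map (algebraMap 𝔉 𝔏)).Monic := (minpoly.monic hint).map _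
  have hdeg : ((minpoly 𝔉 Φ').map (algebraMap 𝔉 𝔏)).natDegree = (minpoly 𝔉 Φ').natDegree :=
    natDegree_map _
  refine ⟨by rw [← hs.natDegree_eq_card_roots, hdeg]; rfl, ?_⟩
  have h0 := hs.coeff_zero_eq_prod_roots_of_monic hm
  rw [hdeg, coeff_map] at h0
  unfold s27nmPhi
  rw [map_mul, map_pow, map_neg, map_one, h0, ← mul_assoc, ← pow_add, ← two_mul,
    pow_mul, neg_one_sq, one_pow, one_mul]

/-- conjugating a valuation subring of `𝔏` by `σ ∈ Aut(𝔏/𝔉)` does not change its trace on `𝔉`. -/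
theorem s27nm_comap_conj (W : ValuationSubring 𝔏) (σ : 𝔏 ≃ₐ[𝔉] 𝔏) :
    (W.comap ((σ : 𝔏 →ₐ[𝔉] 𝔏) : 𝔏 →+* 𝔏)).comap (algebraMap 𝔉 𝔏) =
      W.comap (algebraMap 𝔉 𝔏) := by
  ext x
  simp only [ValuationSubring.mem_comap]
  have : ((σ : 𝔏 →ₐ[𝔉] 𝔏) : 𝔏 →+* 𝔏) (algebraMap 𝔉 𝔏 x) = algebraMap 𝔉 𝔏 x := σ.commutes x
  rw [this]

theorem s27nm_kval_conj {W : ValuationSubring 𝔏} (hW : S27IsKValU K W) (σ : 𝔏 ≃ₐ[𝔉] 𝔏) :
    S27IsKValU K (W.comap ((σ : 𝔏 →ₐ[𝔉] 𝔏) : 𝔏 →+* 𝔏)) := by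
  intro a
  rw [ValuationSubring.mem_comap]
  have : ((σ : 𝔏 →ₐ[𝔉] 𝔏) : 𝔏 →+* 𝔏) (algebraMap K 𝔏 a) = algebraMap K 𝔏 a := by
    rw [IsScalarTower.algebraMap_apply K 𝔉 𝔏]
    exact σ.commutes _
  rw [this]
  exact hW a

theorem s27nm_kval_ext {W : ValuationSubring 𝔏}
    (hV : S27IsKValU K (W.comap (algebraMap 𝔉 𝔏))) : S27IsKValU K W := by
  intro a
  have := hV a
  rw [ValuationSubring.mem_comap, ← IsScalarTower.algebraMap_apply K 𝔉 𝔏] at this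
  exact this

theorem s27nm_kval_comap {W : ValuationSubring 𝔏} (hW : S27IsKValU K W) :
    S27IsKValU K (W.comap (algebraMap 𝔉 𝔏)) := by
  intro a
  rw [ValuationSubring.mem_comap, ← IsScalarTower.algebraMap_apply K 𝔉 𝔏]
  exact hW a

/-- the upstairs relation holds with every conjugate of `Φ'` in place of `Φ'`. -/
theorem s27nm_conj [Normal 𝔉 𝔏] (X Y : ValuationSubring 𝔉 → 𝔉) (Φ' : 𝔏)
    (h : ∀ W : ValuationSubring 𝔏, S27IsKValU K W → ∃ u : 𝔏, S27IsUnitIn W u ∧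
      algebraMap 𝔉 𝔏 (X (W.comap (algebraMap 𝔉 𝔏))) =
        u * Φ' * algebraMap 𝔉 𝔏 (Y (W.comap (algebraMap 𝔉 𝔏))))
    (W : ValuationSubring 𝔏) (hW : S27IsKValU K W) (r : 𝔏)
    (hr : r ∈ ((minpoly 𝔉 Φ').map (algebraMap 𝔉 𝔏)).roots) :
    ∃ u : 𝔏, S27IsUnitIn W u ∧
      algebraMap 𝔉 𝔏 (X (W.comap (algebraMap 𝔉 𝔏))) =
        u * r * algebraMap 𝔉 𝔏 (Y (W.comap (algebraMap 𝔉 𝔏))) := by
  have hint : IsIntegral 𝔉 Φ' := Normal.isIntegral inferInstance Φ'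
  have hev : aeval r (minpoly 𝔉 Φ') = 0 := by
    have := (mem_roots'.1 hr).2
    rwa [IsRoot.def, eval_map_algebraMap] at this
  obtain ⟨σ, hσ⟩ := minpoly.exists_algEquiv_of_root' hint.isAlgebraic hev
  obtain ⟨u, hu, hux⟩ := h _ (s27nm_kval_conj hW σ)
  rw [s27nm_comap_conj W σ] at hux
  refine ⟨σ u, ⟨?_, ?_, ?_⟩, ?_⟩
  · exact fun h0 => hu.1 ((map_eq_zero _).1 h0)
  · exact hu.2.1
  · have := hu.2.2
    rw [ValuationSubring.mem_comap] at this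
    have e : ((σ : 𝔏 →ₐ[𝔉] 𝔏) : 𝔏 →+* 𝔏) u⁻¹ = (σ u)⁻¹ := map_inv₀ σ u
    rwa [e] at this
  · have := congrArg σ hux
    rw [σ.commutes, map_mul, map_mul, σ.commutes, hσ] at this
    exact this

/-- **NORM** (explicit form): the relation upstairs for all `W ⊇ K` gives the relation downstairs with
exponent `e = s27nmE 𝔉 Φ'` and constant `Φ = s27nmPhi 𝔉 Φ'`. -/
theorem s27nm_norm [Normal 𝔉 𝔏] (X Y : ValuationSubring 𝔉 → 𝔉) (Φ' : 𝔏) (hΦ' : Φ' ≠ 0)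
    (h : ∀ W : ValuationSubring 𝔏, S27IsKValU K W → ∃ u : 𝔏, S27IsUnitIn W u ∧
      algebraMap 𝔉 𝔏 (X (W.comap (algebraMap 𝔉 𝔏))) =
        u * Φ' * algebraMap 𝔉 𝔏 (Y (W.comap (algebraMap 𝔉 𝔏))))
    (V : ValuationSubring 𝔉) (hV : S27IsKValU K V) :
    ∃ u : 𝔉, S27IsUnitIn V u ∧ X V ^ s27nmE 𝔉 Φ' = u * s27nmPhi 𝔉 Φ' * Y V ^ s27nmE 𝔉 Φ' := by
  obtain ⟨W, rfl⟩ := s27nm_exists_ext (𝔏 := 𝔏) V
  have hW : S27IsKValU K W := s27nm_kval_ext hV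
  obtain ⟨hcard, hprod⟩ := s27nm_roots (𝔉 := 𝔉) Φ'
  obtain ⟨u, hu, hux⟩ := s27nm_multiset W _ _ _ (s27nm_conj X Y Φ' h W hW)
  rw [hcard, hprod] at hux
  set x := X (W.comap (algebraMap 𝔉 𝔏)) with hx
  set y := Y (W.comap (algebraMap 𝔉 𝔏)) with hy
  set e := s27nmE 𝔉 Φ' with he
  set Φ := s27nmPhi 𝔉 Φ' with hΦ
  have hΦ0 : Φ ≠ 0 := s27nmPhi_ne hΦ'
  have hinj : Function.Injective (algebraMap 𝔉 𝔏) := (algebraMap 𝔉 𝔏).injective
  by_cases hy0 : y = 0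
  · refine ⟨1, (s27nm_unit_comap W 1).2 (by rw [map_one]; exact s27nm_unit_one W), ?_⟩
    have he0 : e ≠ 0 := (s27nmE_pos (𝔉 := 𝔉) Φ').ne'
    rw [hy0, map_zero, zero_pow he0, mul_zero] at hux
    have hx0 : x = 0 := by
      have := pow_eq_zero_iff he0 |>.1 hux
      exact (map_eq_zero _).1 this
    rw [hx0, hy0, zero_pow he0, mul_zero]
  · have hye : Φ * y ^ e ≠ 0 := mul_ne_zero hΦ0 (pow_ne_zero _ hy0)
    refine ⟨x ^ e / (Φ * y ^ e), (s27nm_unit_comap W _).2 ?_, ?_⟩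
    · have : algebraMap 𝔉 𝔏 (x ^ e / (Φ * y ^ e)) = u := by
        rw [map_div₀, map_pow, hux, map_mul, map_pow]
        have hne : algebraMap 𝔉 𝔏 Φ * algebraMap 𝔉 𝔏 y ^ e ≠ 0 := by
          rw [← map_pow, ← map_mul]
          exact fun h0 => hye ((map_eq_zero _).1 h0)
        rw [mul_assoc, mul_div_assoc, div_self hne, mul_one]
      rw [this]
      exact hu
    · field_simp

/-- **NORM** (existential form). -/
theorem s27nm_norm_exists [Normal 𝔉 𝔏] (X Y : ValuationSubring 𝔉 → 𝔉) (Φ' : 𝔏) (hΦ' : Φ' ≠ 0)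
    (h : ∀ W : ValuationSubring 𝔏, S27IsKValU K W → ∃ u : 𝔏, S27IsUnitIn W u ∧
      algebraMap 𝔉 𝔏 (X (W.comap (algebraMap 𝔉 𝔏))) =
        u * Φ' * algebraMap 𝔉 𝔏 (Y (W.comap (algebraMap 𝔉 𝔏)))) :
    ∃ (e : ℕ) (Φ : 𝔉), 0 < e ∧ Φ ≠ 0 ∧ ∀ V : ValuationSubring 𝔉, S27IsKValU K V →
      ∃ u : 𝔉, S27IsUnitIn V u ∧ X V ^ e = u * Φ * Y V ^ e :=
  ⟨s27nmE 𝔉 Φ', s27nmPhi 𝔉 Φ', s27nmE_pos Φ', s27nmPhi_ne hΦ',
    fun V hV => s27nm_norm X Y Φ' hΦ' h V hV⟩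

end Norm

end Fermat.Agent.S27

end
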