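/-
S27-B — leaf NORM, glue (helper89): the pointwise cube UPSTAIRS (over a normal extension `𝔏 ⊇ 𝔉`, for the
`k` with `0 < |k| < n`) gives the CRUX certificate `S27IsCrux` of the captain (Top.lean), through
`s27nm_norm` (Norm.lean) and the bounded induction `s27indb_crux` of helper11 (IndB.lean).

  `s27nmc_crux_of_exists` : per `k` in the range SOME exponent `e` and SOME `Φ ∈ 𝔉ˣ` with cube_k  ⇒  `∃ e Φ, S27IsCrux …`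
  `s27nmc_cube`           : cube_k upstairs ⇒ cube_k downstairs (`e = s27nmE`, `Φ = s27nmPhi`)
  `s27nmc_crux`           : cube_k upstairs for all `k` in the range (ONE field `𝔏`) ⇒ `S27IsCrux …` (explicit)
  `s27nmc_crux_exists`    : the field `𝔏` may depend on `k`.
-/
import Fermat.Agent.S27.Norm
import Fermat.Agent.S27.IndB

set_option autoImplicit false

noncomputable section

namespace Fermat.Agent.S27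

universe u w w'

variable {K : Type u} [Field K] {𝔉 : Type w} [Field 𝔉] [Algebra K 𝔉]

/-- the pointwise cube at `k` DOWNSTAIRS with exponent `e` and constant `Φ`. -/
def S27nmcCube (K : Type u) [Field K] {𝔉 : Type w} [Field 𝔉] [Algebra K 𝔉]
    (ψ : ℤ → (𝔉 →ₐ[K] 𝔉)) (β : ValuationSubring 𝔉 → 𝔉) (k : ℤ) (e : ℕ) (Φ : 𝔉) : Prop :=
  ∀ V : ValuationSubring 𝔉, S27IsKValU K V → ∃ u : 𝔉, S27IsUnitIn V u ∧
    (s27indB ψ β (k + 1) V * s27indB ψ β (k - 1) V) ^ e =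
      u * Φ * (s27indB ψ β k V ^ 2 * s27indB ψ β 1 V * s27indB ψ β (-1) V) ^ e

/-- the pointwise cube at `k` UPSTAIRS (over `𝔏`) with constant `Φ' ∈ 𝔏`. -/
def S27nmcCubeUp (K : Type u) [Field K] {𝔉 : Type w} [Field 𝔉] [Algebra K 𝔉]
    (𝔏 : Type w') [Field 𝔏] [Algebra 𝔉 𝔏] [Algebra K 𝔏]
    (ψ : ℤ → (𝔉 →ₐ[K] 𝔉)) (β : ValuationSubring 𝔉 → 𝔉) (k : ℤ) (Φ' : 𝔏) : Prop :=
  ∀ W : ValuationSubring 𝔏, S27IsKValU K W → ∃ u : 𝔏, S27IsUnitIn W u ∧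
    algebraMap 𝔉 𝔏 (s27indB ψ β (k + 1) (W.comap (algebraMap 𝔉 𝔏)) *
        s27indB ψ β (k - 1) (W.comap (algebraMap 𝔉 𝔏))) =
      u * Φ' * algebraMap 𝔉 𝔏 (s27indB ψ β k (W.comap (algebraMap 𝔉 𝔏)) ^ 2 *
        s27indB ψ β 1 (W.comap (algebraMap 𝔉 𝔏)) * s27indB ψ β (-1) (W.comap (algebraMap 𝔉 𝔏)))

/-- **NORM for the cube**: cube_k upstairs ⇒ cube_k downstairs. -/
theorem s27nmc_cube {𝔏 : Type w'} [Field 𝔏] [Algebra 𝔉 𝔏] [Algebra K 𝔏] [IsScalarTower K 𝔉 𝔏]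
    [Normal 𝔉 𝔏] (ψ : ℤ → (𝔉 →ₐ[K] 𝔉)) (β : ValuationSubring 𝔉 → 𝔉) (k : ℤ) (Φ' : 𝔏)
    (hΦ' : Φ' ≠ 0) (h : S27nmcCubeUp K 𝔏 ψ β k Φ') :
    S27nmcCube K ψ β k (s27nmE 𝔉 Φ') (s27nmPhi 𝔉 Φ') :=
  fun V hV => s27nm_norm
    (fun V => s27indB ψ β (k + 1) V * s27indB ψ β (k - 1) V)
    (fun V => s27indB ψ β k V ^ 2 * s27indB ψ β 1 V * s27indB ψ β (-1) V) Φ' hΦ' h V hV

/-- **IND from per-`k` existence**: for every `k` with `0 < |k| < n` SOME exponent and SOME nonzero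
constant with cube_k  ⇒  the CRUX certificate. -/
theorem s27nmc_crux_of_exists (ψ : ℤ → (𝔉 →ₐ[K] 𝔉)) (β : ValuationSubring 𝔉 → 𝔉)
    (n : ℕ) (hn : 0 < n)
    (comp₁ : ∀ x, ψ n (ψ 1 x) = ψ n x) (compm : ∀ x, ψ n (ψ (-1) x) = ψ (-(n : ℤ)) x)
    (β_ne : ∀ V, S27IsKValU K V → β V ≠ 0) (β_mem : ∀ V, S27IsKValU K V → β V ∈ V)
    (h : ∀ k : ℤ, k ∈ s27indbRange n → ∃ (e : ℕ) (Φ : 𝔉), Φ ≠ 0 ∧ S27nmcCube K ψ β k e Φ) :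
    ∃ (e : ℤ → ℕ) (Φ : ℤ → 𝔉),
      S27IsCrux K (ψ n) (s27indb ψ β (s27indbC e n)) (s27indH (s27indbPhi e Φ n) n) n := by
  classical
  choose! e Φ hΦ hcube using h
  exact ⟨e, Φ, s27indb_crux ψ β e Φ n hn comp₁ compm β_ne β_mem hΦ hcube⟩

/-- **CRUX from the cube upstairs** (one normal extension `𝔏` for all `k`), explicit form. -/
theorem s27nmc_crux {𝔏 : Type w'} [Field 𝔏] [Algebra 𝔉 𝔏] [Algebra K 𝔏] [IsScalarTower K 𝔉 𝔏]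
    [Normal 𝔉 𝔏] (ψ : ℤ → (𝔉 →ₐ[K] 𝔉)) (β : ValuationSubring 𝔉 → 𝔉)
    (n : ℕ) (hn : 0 < n)
    (comp₁ : ∀ x, ψ n (ψ 1 x) = ψ n x) (compm : ∀ x, ψ n (ψ (-1) x) = ψ (-(n : ℤ)) x)
    (β_ne : ∀ V, S27IsKValU K V → β V ≠ 0) (β_mem : ∀ V, S27IsKValU K V → β V ∈ V)
    (Φ' : ℤ → 𝔏) (hΦ' : ∀ k : ℤ, k ∈ s27indbRange n → Φ' k ≠ 0)
    (cube' : ∀ k : ℤ, k ∈ s27indbRange n → S27nmcCubeUp K 𝔏 ψ β k (Φ' k)) :
    S27IsCrux K (ψ n) (s27indb ψ β (s27indbC (fun k => s27nmE 𝔉 (Φ' k)) n))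
      (s27indH (s27indbPhi (fun k => s27nmE 𝔉 (Φ' k)) (fun k => s27nmPhi 𝔉 (Φ' k)) n) n) n :=
  s27indb_crux ψ β (fun k => s27nmE 𝔉 (Φ' k)) (fun k => s27nmPhi 𝔉 (Φ' k)) n hn comp₁ compm
    β_ne β_mem (fun k hk => s27nmPhi_ne (hΦ' k hk))
    (fun k hk => s27nmc_cube ψ β k (Φ' k) (hΦ' k hk) (cube' k hk))

/-- **CRUX from the cube upstairs**, the normal extension may depend on `k`. -/
theorem s27nmc_crux_exists (ψ : ℤ → (𝔉 →ₐ[K] 𝔉)) (β : ValuationSubring 𝔉 → 𝔉)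
    (n : ℕ) (hn : 0 < n)
    (comp₁ : ∀ x, ψ n (ψ 1 x) = ψ n x) (compm : ∀ x, ψ n (ψ (-1) x) = ψ (-(n : ℤ)) x)
    (β_ne : ∀ V, S27IsKValU K V → β V ≠ 0) (β_mem : ∀ V, S27IsKValU K V → β V ∈ V)
    (h : ∀ k : ℤ, k ∈ s27indbRange n →
      ∃ (𝔏 : Type w') (_ : Field 𝔏) (_ : Algebra 𝔉 𝔏) (_ : Algebra K 𝔏)
        (_ : IsScalarTower K 𝔉 𝔏) (_ : Normal 𝔉 𝔏) (Φ' : 𝔏),
        Φ' ≠ 0 ∧ S27nmcCubeUp K 𝔏 ψ β k Φ') :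
    ∃ (e : ℤ → ℕ) (Φ : ℤ → 𝔉),
      S27IsCrux K (ψ n) (s27indb ψ β (s27indbC e n)) (s27indH (s27indbPhi e Φ n) n) n := by
  refine s27nmc_crux_of_exists ψ β n hn comp₁ compm β_ne β_mem (fun k hk => ?_)
  obtain ⟨𝔏, i1, i2, i3, i4, i5, Φ', hΦ', hc⟩ := h k hk
  exact ⟨s27nmE 𝔉 Φ', s27nmPhi 𝔉 Φ', s27nmPhi_ne hΦ', s27nmc_cube ψ β k Φ' hΦ' hc⟩

end Fermat.Agent.S27

end
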