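/-
S27-B — GEOMETRY HUB (helper95), leaf CUBE-K: the assembly of the pointwise cube UPSTAIRS
(`S27nmcCubeUp`, the input of helper89's NORM `s27nmc_crux`) from the three geometric inputs, in
ABSTRACT class form.  Blueprint NOTES/S27-geom.md §3–§4, NOTES/S27-LE.md.

`C` = the group of divisor classes (e.g. `Pic⁰` of `F_𝔏`), `η ∈ C` the class of `D_gen − G₀`,
`Idx W c y` = "`y` is a local equation along `W` of the theta divisor at the class `c`"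
(concretely: `∃ N R A', cls (Σ R i) − org A' = c ∧ S27ptIsIdx W R A' y`).

  (LE)      `huniq` : two local equations at the same class differ by a unit of `W`;  `h0` : `1` at `0`;
  (PSI-NAT) `hnat`  : `algebraMap (s27indB ψ β j (W ∩ 𝔉)) ≐_W` a local equation at `j • η`   (`j ≠ 0`);
  (CP + PF) `hcp`   : for every `W` SOME local equations `y_S` of the seven classes
                      `kη, η, −η, (k+1)η, (k−1)η, 0, kη` with `y₁₂₃ y₁ y₂ y₃ ≐_W Φ · y₁₂ y₁₃ y₂₃`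
                      (`Φ ∈ 𝔏ˣ` independent of `W`; this is `s27cpt_cube_unit`).

  `s27ck_abs`    : (LE) + (CP) ⇒ `x_{k+1} x_{k−1} ≐_W Φ⁻¹ · x_k² x₁ x₋₁` for ALL local equations `x_j`;
  `s27ck_cubeUp` : (LE) + (PSI-NAT) + (CP) ⇒ `S27nmcCubeUp K 𝔏 ψ β k Φ⁻¹`;
  `s27ck_crux`   : the same for all `k` with `0 < |k| < n` ⇒ the CRUX certificate `S27IsCrux` (via NORM).
-/
import Fermat.Agent.S27.NormCrux
import Fermat.Agent.S27.CubePtU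

set_option autoImplicit false

noncomputable section

namespace Fermat.Agent.S27

universe u w w' x

section Abs

variable {𝔏 : Type w'} [Field 𝔏]

theorem s27ck_eq_ne_zero {W : ValuationSubring 𝔏} {a b : 𝔏} (h : s27cptEq W a b) (hb : b ≠ 0) :
    a ≠ 0 := by
  obtain ⟨u, hu, rfl⟩ := h
  exact mul_ne_zero hu.1 hb

/-- **CUBE-K, abstract**: class invariance (LE) and ONE pointwise cube (CP) at the classes
`c₁, c₂, −c₂` give the recursion shape for ALL local equations. -/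
theorem s27ck_abs {C : Type x} [AddCommGroup C] (W : ValuationSubring 𝔏) (Idx : C → 𝔏 → Prop)
    (huniq : ∀ c y y', Idx c y → Idx c y' → s27cptEq W y y') (h0 : Idx 0 1)
    (c₁ c₂ : C) (Φ : 𝔏) (hΦ : Φ ≠ 0)
    (hcp : ∃ y₁ y₂ y₃ y₁₂ y₁₃ y₂₃ y₁₂₃ : 𝔏, Idx c₁ y₁ ∧ Idx c₂ y₂ ∧ Idx (-c₂) y₃ ∧
      Idx (c₁ + c₂) y₁₂ ∧ Idx (c₁ - c₂) y₁₃ ∧ Idx 0 y₂₃ ∧ Idx c₁ y₁₂₃ ∧
      s27cptEq W (y₁₂₃ * y₁ * y₂ * y₃) (Φ * (y₁₂ * y₁₃ * y₂₃)))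
    {xp xm x0 x1 xm1 : 𝔏} (hp : Idx (c₁ + c₂) xp) (hm : Idx (c₁ - c₂) xm) (h : Idx c₁ x0)
    (h1 : Idx c₂ x1) (hm1 : Idx (-c₂) xm1) :
    ∃ u : 𝔏, S27IsUnitIn W u ∧ xp * xm = u * Φ⁻¹ * (x0 ^ 2 * x1 * xm1) := by
  obtain ⟨y₁, y₂, y₃, y₁₂, y₁₃, y₂₃, y₁₂₃, i1, i2, i3, i12, i13, i23, i123, hcube⟩ := hcp
  -- left side
  have eL : s27cptEq W (x0 * x0 * x1 * xm1) (y₁₂₃ * y₁ * y₂ * y₃) :=
    s27cptEq_mul (s27cptEq_mul (s27cptEq_mul (huniq _ _ _ h i123) (huniq _ _ _ h i1))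
      (huniq _ _ _ h1 i2)) (huniq _ _ _ hm1 i3)
  -- right side
  have eR : s27cptEq W (y₁₂ * y₁₃ * y₂₃) (xp * xm * 1) :=
    s27cptEq_mul (s27cptEq_mul (huniq _ _ _ i12 hp) (huniq _ _ _ i13 hm)) (huniq _ _ _ i23 h0)
  have e := s27cptEq_trans (s27cptEq_trans eL hcube) (s27cptEq_mul_left Φ eR)
  obtain ⟨u, hu, hue⟩ := s27cptEq_symm e
  refine ⟨u, hu, ?_⟩
  have h2 : Φ * (xp * xm) = u * (x0 ^ 2 * x1 * xm1) := by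
    have : Φ * (xp * xm * 1) = u * (x0 * x0 * x1 * xm1) := hue
    rw [mul_one] at this
    rw [this]
    ring
  have h3 : xp * xm = Φ⁻¹ * (Φ * (xp * xm)) := by
    rw [← mul_assoc, inv_mul_cancel₀ hΦ, one_mul]
  rw [h3, h2]
  ring

end Abs

section Up

variable {K : Type u} [Field K] {𝔉 : Type w} [Field 𝔉] [Algebra K 𝔉]
variable {𝔏 : Type w'} [Field 𝔏] [Algebra 𝔉 𝔏] [Algebra K 𝔏]

/-- (PSI-NAT) in class form: `algebraMap (s27indB ψ β j (W ∩ 𝔉))` is, up to a unit of `W`, a local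
equation at the class `j • η`. -/
def S27ckNat (K : Type u) [Field K] {𝔉 : Type w} [Field 𝔉] [Algebra K 𝔉]
    {𝔏 : Type w'} [Field 𝔏] [Algebra 𝔉 𝔏] [Algebra K 𝔏] {C : Type x} [AddCommGroup C]
    (ψ : ℤ → (𝔉 →ₐ[K] 𝔉)) (β : ValuationSubring 𝔉 → 𝔉)
    (Idx : ValuationSubring 𝔏 → C → 𝔏 → Prop) (η : C) (j : ℤ) : Prop :=
  ∀ W : ValuationSubring 𝔏, S27IsKValU K W → ∃ x : 𝔏, Idx W (j • η) x ∧
    s27cptEq W (algebraMap 𝔉 𝔏 (s27indB ψ β j (W.comap (algebraMap 𝔉 𝔏)))) x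

/-- (CP + PF) in class form at the classes `c₁, c₂, −c₂`. -/
def S27ckCP (K : Type u) [Field K] {𝔏 : Type w'} [Field 𝔏] [Algebra K 𝔏]
    {C : Type x} [AddCommGroup C]
    (Idx : ValuationSubring 𝔏 → C → 𝔏 → Prop) (c₁ c₂ : C) (Φ : 𝔏) : Prop :=
  ∀ W : ValuationSubring 𝔏, S27IsKValU K W →
    ∃ y₁ y₂ y₃ y₁₂ y₁₃ y₂₃ y₁₂₃ : 𝔏, Idx W c₁ y₁ ∧ Idx W c₂ y₂ ∧ Idx W (-c₂) y₃ ∧
      Idx W (c₁ + c₂) y₁₂ ∧ Idx W (c₁ - c₂) y₁₃ ∧ Idx W 0 y₂₃ ∧ Idx W c₁ y₁₂₃ ∧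
      s27cptEq W (y₁₂₃ * y₁ * y₂ * y₃) (Φ * (y₁₂ * y₁₃ * y₂₃))

/-- (LE) in class form: local equations at the same class agree up to a unit; `1` at the class `0`. -/
def S27ckLE (K : Type u) [Field K] {𝔏 : Type w'} [Field 𝔏] [Algebra K 𝔏]
    {C : Type x} [AddCommGroup C] (Idx : ValuationSubring 𝔏 → C → 𝔏 → Prop) : Prop :=
  ∀ W : ValuationSubring 𝔏, S27IsKValU K W →
    Idx W 0 1 ∧ ∀ c y y', Idx W c y → Idx W c y' → s27cptEq W y y'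

variable {C : Type x} [AddCommGroup C]

/-- (PSI-NAT) at `j = 0` is free. -/
theorem s27ck_nat_zero (ψ : ℤ → (𝔉 →ₐ[K] 𝔉)) (β : ValuationSubring 𝔉 → 𝔉)
    (Idx : ValuationSubring 𝔏 → C → 𝔏 → Prop) (η : C) (hLE : S27ckLE K Idx) :
    S27ckNat K ψ β Idx η 0 := by
  intro W hW
  refine ⟨1, ?_, ?_⟩
  · rw [zero_smul]
    exact (hLE W hW).1
  · have : s27indB ψ β 0 (W.comap (algebraMap 𝔉 𝔏)) = 1 := by simp [s27indB]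
    rw [this, map_one]
    exact s27cptEq_refl W 1

theorem s27ck_nat_all (ψ : ℤ → (𝔉 →ₐ[K] 𝔉)) (β : ValuationSubring 𝔉 → 𝔉)
    (Idx : ValuationSubring 𝔏 → C → 𝔏 → Prop) (η : C) (hLE : S27ckLE K Idx)
    (hnat : ∀ j : ℤ, j ≠ 0 → S27ckNat K ψ β Idx η j) (j : ℤ) : S27ckNat K ψ β Idx η j := by
  by_cases hj : j = 0
  · subst hj
    exact s27ck_nat_zero ψ β Idx η hLE
  · exact hnat j hj

/-- **CUBE-K**: (LE) + (PSI-NAT) + (CP at `kη, η, −η`) ⇒ the pointwise cube UPSTAIRS at `k`, with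
constant `Φ⁻¹`. -/
theorem s27ck_cubeUp (ψ : ℤ → (𝔉 →ₐ[K] 𝔉)) (β : ValuationSubring 𝔉 → 𝔉)
    (Idx : ValuationSubring 𝔏 → C → 𝔏 → Prop) (η : C) (hLE : S27ckLE K Idx)
    (hnat : ∀ j : ℤ, j ≠ 0 → S27ckNat K ψ β Idx η j)
    (k : ℤ) (Φ : 𝔏) (hΦ : Φ ≠ 0) (hcp : S27ckCP K Idx (k • η) η Φ) :
    S27nmcCubeUp K 𝔏 ψ β k Φ⁻¹ := by
  intro W hW
  have hn := s27ck_nat_all ψ β Idx η hLE hnat
  obtain ⟨xp, ip, ep⟩ := hn (k + 1) W hW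
  obtain ⟨xm, im, em⟩ := hn (k - 1) W hW
  obtain ⟨x0, i0, e0⟩ := hn k W hW
  obtain ⟨x1, i1, e1⟩ := hn 1 W hW
  obtain ⟨xm1, im1, em1⟩ := hn (-1) W hW
  rw [add_smul, one_smul] at ip
  rw [sub_smul, one_smul] at im
  rw [one_smul] at i1
  rw [neg_smul, one_smul] at im1
  obtain ⟨u, hu, hue⟩ := s27ck_abs W (Idx W) (hLE W hW).2 (hLE W hW).1 (k • η) η Φ hΦ (hcp W hW)
    ip im i0 i1 im1
  set V := W.comap (algebraMap 𝔉 𝔏) with hV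
  -- the two sides
  have eL : s27cptEq W (algebraMap 𝔉 𝔏 (s27indB ψ β (k + 1) V * s27indB ψ β (k - 1) V))
      (xp * xm) := by
    rw [map_mul]
    exact s27cptEq_mul ep em
  have eR : s27cptEq W (algebraMap 𝔉 𝔏 (s27indB ψ β k V ^ 2 * s27indB ψ β 1 V *
      s27indB ψ β (-1) V)) (x0 ^ 2 * x1 * xm1) := by
    rw [map_mul, map_mul, map_pow]
    exact s27cptEq_mul (s27cptEq_mul (s27cptEq_pow e0 2) e1) em1
  have e2 : s27cptEq W (xp * xm) (Φ⁻¹ * (x0 ^ 2 * x1 * xm1)) := ⟨u, hu, by rw [hue]; ring⟩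
  have e3 := s27cptEq_trans (s27cptEq_trans eL e2) (s27cptEq_mul_left Φ⁻¹ (s27cptEq_symm eR))
  obtain ⟨v, hv, hve⟩ := e3
  exact ⟨v, hv, by rw [hve]; ring⟩

variable [IsScalarTower K 𝔉 𝔏] [Normal 𝔉 𝔏]

/-- **CRUX from (LE) + (PSI-NAT) + (CP)** (through NORM `s27nmc_crux` and IND `s27indb_crux`). -/
theorem s27ck_crux (ψ : ℤ → (𝔉 →ₐ[K] 𝔉)) (β : ValuationSubring 𝔉 → 𝔉)
    (n : ℕ) (hn : 0 < n)
    (comp₁ : ∀ x, ψ n (ψ 1 x) = ψ n x) (compm : ∀ x, ψ n (ψ (-1) x) = ψ (-(n : ℤ)) x)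
    (β_ne : ∀ V, S27IsKValU K V → β V ≠ 0) (β_mem : ∀ V, S27IsKValU K V → β V ∈ V)
    (Idx : ValuationSubring 𝔏 → C → 𝔏 → Prop) (η : C) (hLE : S27ckLE K Idx)
    (hnat : ∀ j : ℤ, j ≠ 0 → S27ckNat K ψ β Idx η j)
    (Φ : ℤ → 𝔏) (hΦ : ∀ k : ℤ, k ∈ s27indbRange n → Φ k ≠ 0)
    (hcp : ∀ k : ℤ, k ∈ s27indbRange n → S27ckCP K Idx (k • η) η (Φ k)) :
    S27IsCrux K (ψ n) (s27indb ψ β (s27indbC (fun k => s27nmE 𝔉 (Φ k)⁻¹) n))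
      (s27indH (s27indbPhi (fun k => s27nmE 𝔉 (Φ k)⁻¹) (fun k => s27nmPhi 𝔉 (Φ k)⁻¹) n) n) n :=
  s27nmc_crux ψ β n hn comp₁ compm β_ne β_mem (fun k => (Φ k)⁻¹)
    (fun k hk => inv_ne_zero (hΦ k hk))
    (fun k hk => s27ck_cubeUp ψ β Idx η hLE hnat k (Φ k) (hΦ k hk) (hcp k hk))

end Up

end Fermat.Agent.S27

end
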