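/-
S27-B — GEOMETRY HUB (helper95): the CONCRETE point side.  THE definition of the local equation
of the theta divisor, in the intrinsic lattice form (helper60's MIN-MINOR form), for a tuple of
points `R i : F →ₐ[K] 𝔏` and a valuation subring `W ⊇ K` of `𝔏`.  Blueprint NOTES/S27-LE.md §0.

* `S27ptIsCentre W R Q` : the place `Q` of `F / K` is the centre of the point `R` along `W`;
* `s27ptF W R A'`       : `𝓕 = {f ∈ F | div f ≥ −A'` at every closed centre of the `R i`};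
* `s27ptVal R φ`        : the matrix of values `[R i (φ j)]`;
* `S27ptIsLatBasis W R A' φ` : `(R i (φ j))_i`, `j < N`, is a `W`-basis of the lattice of values
                          `M_W(R, A') = W`-span of `{(R i ψ)_i | ψ ∈ 𝓕}`;
* `S27ptIsIdx W R A' x` : `x = det [R i (f l)] / det [R i (φ j)]`, `f` a `K`-basis of `L_K(A')`,
                          `φ` a lattice basis: **`x` is a local equation** (`x = m_W(R, A')`).

Formal facts (this file): `s27pt_idx_mem` (EFF: `x ∈ W`), `s27pt_idx_unique` (two local equations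
differ by a unit of `W`), `s27pt_idx_nat` (NAT: naturality in `(𝔏, W)`), `s27pt_idx_ne_zero`.
-/
import Mathlib
import Fermat.Prelude.Def_AlgebraicCurve_DivisorClassGroup
import Fermat.Prelude.Def_AlgebraicCurve_Repartitions

set_option autoImplicit false

noncomputable section

namespace Fermat.Agent.S27

open AlgebraicCurve

universe u v w w'

variable {K : Type u} {F : Type v} [Field K] [Field F] [Algebra K F]
variable {𝔏 : Type w} [Field 𝔏] [Algebra K 𝔏]

/-- the place `Q` is the centre of the point `R` along `W`. -/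
def S27ptIsCentre (W : ValuationSubring 𝔏) (R : F →ₐ[K] 𝔏) (Q : Place K F) : Prop :=
  W.comap (R : F →+* 𝔏) = Q.toValuationSubring

/-- `𝓕`: the functions with `div f ≥ −A'` at every closed centre of the points `R i`. -/
def s27ptF {N : ℕ} (W : ValuationSubring 𝔏) (R : Fin N → F →ₐ[K] 𝔏) (A' : Divisor K F) :
    Submodule K F where
  carrier := {f | ∀ (Q : Place K F) (i : Fin N), S27ptIsCentre W (R i) Q →
    Q.adicValuation f ≤ WithZero.exp (A' Q)}
  zero_mem' := by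
    intro Q i _
    simp
  add_mem' := by
    intro f g hf hg Q i hQ
    exact (Valuation.map_add _ _ _).trans (max_le (hf Q i hQ) (hg Q i hQ))
  smul_mem' := by
    intro c f hf Q i hQ
    rw [Algebra.smul_def, map_mul]
    have h1 : Q.adicValuation (algebraMap K F c) ≤ 1 := by
      have : algebraMap K F c ∈ Q.toValuationSubring := Q.algebraMap_mem' c
      have h2 := Q.adicValuation_coe ⟨algebraMap K F c, this⟩
      have h3 : Q.heightOneSpectrum.valuation F
          (algebraMap Q.toValuationSubring F ⟨algebraMap K F c, this⟩) ≤ 1 :=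
        Q.heightOneSpectrum.valuation_le_one _
      exact h3
    calc Q.adicValuation (algebraMap K F c) * Q.adicValuation f
        ≤ 1 * WithZero.exp (A' Q) := mul_le_mul' h1 (hf Q i hQ)
      _ = WithZero.exp (A' Q) := one_mul _

theorem s27pt_mem_F {N : ℕ} {W : ValuationSubring 𝔏} {R : Fin N → F →ₐ[K] 𝔏}
    {A' : Divisor K F} {f : F} :
    f ∈ s27ptF W R A' ↔ ∀ (Q : Place K F) (i : Fin N), S27ptIsCentre W (R i) Q →
      Q.adicValuation f ≤ WithZero.exp (A' Q) := Iff.rfl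

/-- `L_K(A') ⊆ 𝓕`. -/
theorem s27pt_rr_le {N : ℕ} (W : ValuationSubring 𝔏) (R : Fin N → F →ₐ[K] 𝔏)
    (A' : Divisor K F) : riemannRochSpace A' ≤ s27ptF W R A' := by
  intro f hf Q i _
  exact hf Q

/-- the matrix of values `[R i (φ j)]`. -/
def s27ptVal {N : ℕ} (R : Fin N → F →ₐ[K] 𝔏) (φ : Fin N → F) : Matrix (Fin N) (Fin N) 𝔏 :=
  Matrix.of fun i j => R i (φ j)

@[simp] theorem s27ptVal_apply {N : ℕ} (R : Fin N → F →ₐ[K] 𝔏) (φ : Fin N → F) (i j : Fin N) :
    s27ptVal R φ i j = R i (φ j) := rfl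

/-- `φ` gives a `W`-basis of the lattice of values `M_W(R, A')`. -/
structure S27ptIsLatBasis {N : ℕ} (W : ValuationSubring 𝔏) (R : Fin N → F →ₐ[K] 𝔏)
    (A' : Divisor K F) (φ : Fin N → F) : Prop where
  mem : ∀ j, φ j ∈ s27ptF W R A'
  det_ne : (s27ptVal R φ).det ≠ 0
  span : ∀ ψ ∈ s27ptF W R A', ∃ c : Fin N → 𝔏, (∀ j, c j ∈ W) ∧
    ∀ i, R i ψ = ∑ j, R i (φ j) * c j

/-- the matrix of values of a `K`-basis of `L_K(A')`. -/
def s27ptValB {N : ℕ} (R : Fin N → F →ₐ[K] 𝔏) {A' : Divisor K F}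
    (f : Module.Basis (Fin N) K ↥(riemannRochSpace A')) : Matrix (Fin N) (Fin N) 𝔏 :=
  s27ptVal R (fun l => ((f l : ↥(riemannRochSpace A')) : F))

/-- **`x` is a local equation** of the theta divisor of `A'` at the divisor `Σ R i` along `W`:
`x = det [R i (f l)] / det [R i (φ j)]`, `f` a `K`-basis of `L_K(A')`, `φ` a basis of the lattice
of values. -/
def S27ptIsIdx {N : ℕ} (W : ValuationSubring 𝔏) (R : Fin N → F →ₐ[K] 𝔏) (A' : Divisor K F)
    (x : 𝔏) : Prop :=
  ∃ (f : Module.Basis (Fin N) K ↥(riemannRochSpace A')) (φ : Fin N → F),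
    S27ptIsLatBasis W R A' φ ∧ x = (s27ptValB R f).det / (s27ptVal R φ).det

/-! ### Formal facts -/

section Formal

variable {N : ℕ} {W : ValuationSubring 𝔏} {R : Fin N → F →ₐ[K] 𝔏} {A' : Divisor K F}

theorem s27pt_det_mem (C : Matrix (Fin N) (Fin N) 𝔏) (hC : ∀ i j, C i j ∈ W) : C.det ∈ W := by
  rw [Matrix.det_apply]
  refine W.toSubring.sum_mem fun σ _ => ?_
  have h1 : (∏ i, C (σ i) i) ∈ W := W.toSubring.prod_mem fun i _ => hC _ _
  rcases Int.units_eq_one_or (Equiv.Perm.sign σ) with h | h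
  · rw [h, one_smul]; exact h1
  · rw [h, Units.neg_smul, one_smul]; exact W.neg_mem _ h1

/-- values of a family of `𝓕` in terms of a lattice basis: `Val ψ = Val φ · C`, `C` over `W`. -/
theorem s27pt_exists_coeff {φ : Fin N → F} (hφ : S27ptIsLatBasis W R A' φ) (ψ : Fin N → F)
    (hψ : ∀ l, ψ l ∈ s27ptF W R A') :
    ∃ C : Matrix (Fin N) (Fin N) 𝔏, (∀ j l, C j l ∈ W) ∧ s27ptVal R ψ = s27ptVal R φ * C := by
  choose c hc1 hc2 using fun l => hφ.span (ψ l) (hψ l)
  refine ⟨Matrix.of fun j l => c l j, fun j l => hc1 l j, ?_⟩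
  ext i l
  rw [s27ptVal_apply, Matrix.mul_apply, hc2 l i]
  rfl

/-- **EFF**: a local equation lies in `W`. -/
theorem s27pt_idx_mem {x : 𝔏} (hx : S27ptIsIdx W R A' x) : x ∈ W := by
  obtain ⟨f, φ, hφ, rfl⟩ := hx
  have hfF : ∀ l, ((f l : ↥(riemannRochSpace A')) : F) ∈ s27ptF W R A' := fun l =>
    s27pt_rr_le W R A' (f l).2
  obtain ⟨C, hC, hval⟩ := s27pt_exists_coeff hφ _ hfF
  unfold s27ptValB
  rw [hval, Matrix.det_mul, mul_comm, mul_div_assoc, div_self hφ.det_ne, mul_one]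
  exact s27pt_det_mem C hC

/-- two lattice bases: the ratio of the determinants is a unit of `W`. -/
theorem s27pt_latBasis_unit {φ φ' : Fin N → F} (hφ : S27ptIsLatBasis W R A' φ)
    (hφ' : S27ptIsLatBasis W R A' φ') :
    (s27ptVal R φ').det / (s27ptVal R φ).det ∈ W ∧
      (s27ptVal R φ).det / (s27ptVal R φ').det ∈ W := by
  constructor
  · obtain ⟨C, hC, hval⟩ := s27pt_exists_coeff hφ φ' hφ'.mem
    rw [hval, Matrix.det_mul, mul_comm, mul_div_assoc, div_self hφ.det_ne, mul_one]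
    exact s27pt_det_mem C hC
  · obtain ⟨C, hC, hval⟩ := s27pt_exists_coeff hφ' φ hφ.mem
    rw [hval, Matrix.det_mul, mul_comm, mul_div_assoc, div_self hφ'.det_ne, mul_one]
    exact s27pt_det_mem C hC

/-- two `K`-bases of `L_K(A')`: the determinant of values changes by a constant of `Kˣ`. -/
theorem s27pt_rrBasis_det (f f' : Module.Basis (Fin N) K ↥(riemannRochSpace A')) :
    ∃ a : K, a ≠ 0 ∧ (s27ptValB R f').det = (s27ptValB R f).det * algebraMap K 𝔏 a := by
  refine ⟨(f.toMatrix f').det, ?_, ?_⟩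
  · have : IsUnit (f.toMatrix f').det := by
      have h := f.isUnit_det f'
      rwa [Module.Basis.det_apply] at h
    exact this.ne_zero
  · have hval : s27ptValB R f' = s27ptValB R f * (f.toMatrix f').map (algebraMap K 𝔏) := by
      ext i l
      rw [Matrix.mul_apply]
      have h1 : (f' l : ↥(riemannRochSpace A')) = ∑ j, f.toMatrix f' j l • f j :=
        (f.sum_toMatrix_smul_self f' l).symm
      have h2 : ((f' l : ↥(riemannRochSpace A')) : F) =
          ∑ j, f.toMatrix f' j l • ((f j : ↥(riemannRochSpace A')) : F) := by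
        have h3 := congrArg (fun z : ↥(riemannRochSpace A') => (z : F)) h1
        simp only [Submodule.coe_sum, Submodule.coe_smul] at h3
        exact h3
      show R i ((f' l : ↥(riemannRochSpace A')) : F) = _
      rw [h2, map_sum]
      refine Finset.sum_congr rfl fun j _ => ?_
      rw [Algebra.smul_def, map_mul, AlgHom.commutes, mul_comm]
      rfl
    rw [hval, Matrix.det_mul]
    congr 1
    exact (RingHom.map_det (algebraMap K 𝔏) (f.toMatrix f')).symm

/-- **uniqueness**: two local equations differ by a unit of `W` (`K ⊆ W`). -/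
theorem s27pt_idx_unique (hW : ∀ a : K, algebraMap K 𝔏 a ∈ W) {x x' : 𝔏}
    (hx : S27ptIsIdx W R A' x) (hx' : S27ptIsIdx W R A' x') :
    ∃ u : 𝔏, u ≠ 0 ∧ u ∈ W ∧ u⁻¹ ∈ W ∧ x = u * x' := by
  obtain ⟨f, φ, hφ, rfl⟩ := hx
  obtain ⟨f', φ', hφ', rfl⟩ := hx'
  obtain ⟨a, ha, hdet⟩ := s27pt_rrBasis_det (R := R) f f'
  obtain ⟨h1, h2⟩ := s27pt_latBasis_unit hφ hφ'
  have ha' : algebraMap K 𝔏 a ≠ 0 := fun h => ha ((map_eq_zero _).1 h)
  have hd := hφ.det_ne
  have hd' := hφ'.det_ne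
  refine ⟨(algebraMap K 𝔏 a)⁻¹ * ((s27ptVal R φ').det / (s27ptVal R φ).det), ?_, ?_, ?_, ?_⟩
  · exact mul_ne_zero (inv_ne_zero ha') (div_ne_zero hd' hd)
  · refine W.mul_mem _ _ ?_ h1
    rw [← map_inv₀]
    exact hW _
  · rw [mul_inv, inv_inv, inv_div]
    exact W.mul_mem _ _ (hW _) h2
  · rw [hdet]
    field_simp

/-- a local equation is nonzero as soon as the determinant of values of `L_K(A')` is. -/
theorem s27pt_idx_ne_zero {x : 𝔏} (hx : S27ptIsIdx W R A' x)
    (h : ∀ f : Module.Basis (Fin N) K ↥(riemannRochSpace A'), (s27ptValB R f).det ≠ 0) :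
    x ≠ 0 := by
  obtain ⟨f, φ, hφ, rfl⟩ := hx
  exact div_ne_zero (h f) hφ.det_ne

end Formal

/-! ### Naturality -/

section Nat

variable {𝔏' : Type w'} [Field 𝔏'] [Algebra K 𝔏']
variable {N : ℕ} {R : Fin N → F →ₐ[K] 𝔏} {A' : Divisor K F}

theorem s27pt_centre_nat (σ : 𝔏 →ₐ[K] 𝔏') (W' : ValuationSubring 𝔏') (R₀ : F →ₐ[K] 𝔏)
    (Q : Place K F) :
    S27ptIsCentre W' (σ.comp R₀) Q ↔ S27ptIsCentre (W'.comap (σ : 𝔏 →+* 𝔏')) R₀ Q := by
  unfold S27ptIsCentre
  rw [ValuationSubring.comap_comap]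
  rfl

theorem s27pt_F_nat (σ : 𝔏 →ₐ[K] 𝔏') (W' : ValuationSubring 𝔏') (R : Fin N → F →ₐ[K] 𝔏)
    (A' : Divisor K F) :
    s27ptF W' (fun i => σ.comp (R i)) A' = s27ptF (W'.comap (σ : 𝔏 →+* 𝔏')) R A' := by
  ext f
  simp only [s27pt_mem_F, s27pt_centre_nat]

theorem s27pt_val_nat (σ : 𝔏 →ₐ[K] 𝔏') (R : Fin N → F →ₐ[K] 𝔏) (φ : Fin N → F) :
    s27ptVal (fun i => σ.comp (R i)) φ = (s27ptVal R φ).map (σ : 𝔏 →+* 𝔏') := by
  ext i j
  rfl

theorem s27pt_det_nat (σ : 𝔏 →ₐ[K] 𝔏') (R : Fin N → F →ₐ[K] 𝔏) (φ : Fin N → F) :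
    (s27ptVal (fun i => σ.comp (R i)) φ).det = σ (s27ptVal R φ).det := by
  rw [s27pt_val_nat]
  exact (RingHom.map_det (σ : 𝔏 →+* 𝔏') _).symm

/-- **NAT**: naturality of the local equation in `(𝔏, W)`. -/
theorem s27pt_idx_nat (σ : 𝔏 →ₐ[K] 𝔏') (W' : ValuationSubring 𝔏') {x : 𝔏}
    (hx : S27ptIsIdx (W'.comap (σ : 𝔏 →+* 𝔏')) R A' x) :
    S27ptIsIdx W' (fun i => σ.comp (R i)) A' (σ x) := by
  obtain ⟨f, φ, hφ, rfl⟩ := hx
  refine ⟨f, φ, ⟨?_, ?_, ?_⟩, ?_⟩
  · intro j
    rw [s27pt_F_nat]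
    exact hφ.mem j
  · rw [s27pt_det_nat]
    exact fun h => hφ.det_ne ((map_eq_zero_iff σ σ.toRingHom.injective).1 h)
  · intro ψ hψ
    rw [s27pt_F_nat] at hψ
    obtain ⟨c, hc1, hc2⟩ := hφ.span ψ hψ
    refine ⟨fun j => σ (c j), fun j => hc1 j, fun i => ?_⟩
    show σ (R i ψ) = ∑ j, σ (R i (φ j)) * σ (c j)
    rw [hc2 i, map_sum]
    exact Finset.sum_congr rfl fun j _ => map_mul σ _ _
  · rw [map_div₀]
    congr 1
    · exact (s27pt_det_nat σ R _).symm
    · exact (s27pt_det_nat σ R φ).symm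

end Nat


end Fermat.Agent.S27

end
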