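/-
S27-B — CUBE-ASM / CP-TOP assembly (helper48): the POINTWISE CUBE IN TUPLE FORM, ready for the
hypothesis `hcp` (`S27ckCP`) of the hub's CUBE-K (`s27ck_cubeUp`, `s27mc_cube`).

Three tuples of points `D₁ : Fin N₁ → P`, `D₂ : Fin N₂ → P`, `D₃ : Fin N₃ → P` (`P` any type, e.g.
`F →ₐ[K] 𝔏`), the seven tuples are `D₁, D₂, D₃, D₁ ⧺ D₂, D₁ ⧺ D₃, D₂ ⧺ D₃, (D₁ ⧺ D₂) ⧺ D₃`
(`⧺ = Fin.append`, the SAME convention as the class additivity of the origins).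

* `s27caV y`           : the Vandermonde product `∏_{i<j} (y j − y i)` of a tuple (`= det (vandermonde y)`);
* `s27caV_append`      : `V (y ⧺ y') = V y · V y' · ∏_{i,j} (y' j − y i)`;
* `s27caV_cube`        : `V₁₂₃ V₁ V₂ V₃ = V₁₂ V₁₃ V₂₃`;
* `s27caM x w θ D`     : the point formula `θ / (V (x ∘ D) · ∏_i w (D i))`
                         (`x R = R t`, `w R = R a`, `(t, a)` adapted, `θ = det [R_i f_l]`);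
* `s27ca_cube`         : **the cube, exact**, for ANY seven weights with
                         `w₁₂₃ w₁ = w₁₂ w₁₃` on `D₁`, `w₁₂₃ w₂ = w₁₂ w₂₃` on `D₂`, `w₁₂₃ w₃ = w₁₃ w₂₃` on `D₃`
                         (e.g. `w_S = α · ∏_{j ∈ S} b_j`, or `w_S = α · σ ^ |S|`);
* `s27ca_cube_unit`    : **the cube, `≐_W` form**: `y_S ≐_W m_S` for the seven tuples ⇒
                         `y₁₂₃ y₁ y₂ y₃ ≐_W Φ · y₁₂ y₁₃ y₂₃`, `Φ = s27caPhi θ…` (independent of `W`);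
* `s27ca_cp`           : the same as the hypothesis `S27ckCP K Idx c₁ c₂ Φ` of CUBE-K, for ANY `Idx`;
* `s27ca_det_mono`     : `det [R_i (a · t^j)] = ∏_i R_i a · V (R_i t)`;
* `s27ca_idx_mono`     : (PF) if the monomials `a · t^j`, `j < N`, are a lattice basis (LAT-EX), then
                         `θ_f(R) / (V (R t) · ∏ R_i a)` IS a local equation (`S27ptIsIdx`, exactly);
* `s27ca_cp_latex`     : **CP-TOP**: LAT-EX for the seven tuples, in the adapted pairs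
                         `(t, a₀ · ∏_{j ∈ S} b_j)`, + `hIdx` for the seven tuples ⇒ `S27ckCP K Idx c₁ c₂ Φ`.
-/
import Fermat.Agent.S27.CubeK
import Fermat.Agent.S27.PtDef

set_option autoImplicit false
set_option linter.unusedVariables false
set_option linter.unusedSectionVars false

noncomputable section

namespace Fermat.Agent.S27

open AlgebraicCurve

universe u v w' x

/-! ### Vandermonde products of tuples -/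

section Vdm

variable {𝔏 : Type w'} [CommRing 𝔏]

/-- the Vandermonde product `∏_{i<j} (y j − y i)` of a tuple. -/
def s27caV {N : ℕ} (y : Fin N → 𝔏) : 𝔏 := ∏ i, ∏ j ∈ Finset.Ioi i, (y j - y i)

theorem s27caV_eq_det {N : ℕ} (y : Fin N → 𝔏) : s27caV y = (Matrix.vandermonde y).det :=
  (Matrix.det_vandermonde y).symm

theorem s27caV_eq_ite {N : ℕ} (y : Fin N → 𝔏) :
    s27caV y = ∏ i, ∏ j, if i < j then y j - y i else 1 := by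
  unfold s27caV
  refine Finset.prod_congr rfl fun i _ => ?_
  rw [← Finset.prod_filter]
  congr 1
  ext j
  simp

/-- the cross product `∏_{i,j} (y' j − y i)`. -/
def s27caX {N N' : ℕ} (y : Fin N → 𝔏) (y' : Fin N' → 𝔏) : 𝔏 := ∏ i, ∏ j, (y' j - y i)

theorem s27caV_append {N N' : ℕ} (y : Fin N → 𝔏) (y' : Fin N' → 𝔏) :
    s27caV (Fin.append y y') = s27caV y * s27caV y' * s27caX y y' := by
  rw [s27caV_eq_ite, s27caV_eq_ite, s27caV_eq_ite, Fin.prod_univ_add]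
  simp only [Fin.prod_univ_add, Fin.append_left, Fin.append_right]
  have h1 : ∀ i j : Fin N, (Fin.castAdd N' i < Fin.castAdd N' j) ↔ i < j := fun i j => by
    rw [Fin.lt_def, Fin.lt_def]; rfl
  have h2 : ∀ (i : Fin N) (j : Fin N'), (Fin.castAdd N' i < Fin.natAdd N j) := fun i j => by
    rw [Fin.lt_def]
    show (i : ℕ) < N + (j : ℕ)
    have := i.2
    omega
  have h3 : ∀ (i : Fin N') (j : Fin N), ¬ (Fin.natAdd N i < Fin.castAdd N' j) := fun i j => by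
    rw [Fin.lt_def]
    show ¬ (N + (i : ℕ) < (j : ℕ))
    have := j.2
    omega
  have h4 : ∀ i j : Fin N', (Fin.natAdd N i < Fin.natAdd N j) ↔ i < j := fun i j => by
    rw [Fin.lt_def, Fin.lt_def]
    show N + (i : ℕ) < N + (j : ℕ) ↔ _
    omega
  simp only [h1, h2, h3, h4, if_true, if_false, Finset.prod_const_one, one_mul,
    Finset.prod_mul_distrib]
  unfold s27caX
  ring

theorem s27caX_append_left {N N' N'' : ℕ} (y : Fin N → 𝔏) (y' : Fin N' → 𝔏)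
    (y'' : Fin N'' → 𝔏) :
    s27caX (Fin.append y y') y'' = s27caX y y'' * s27caX y' y'' := by
  unfold s27caX
  rw [Fin.prod_univ_add]
  simp only [Fin.append_left, Fin.append_right]

theorem s27caX_append_right {N N' N'' : ℕ} (y : Fin N → 𝔏) (y' : Fin N' → 𝔏)
    (y'' : Fin N'' → 𝔏) :
    s27caX y (Fin.append y' y'') = s27caX y y' * s27caX y y'' := by
  unfold s27caX
  simp only [Fin.prod_univ_add, Fin.append_left, Fin.append_right, Finset.prod_mul_distrib]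

/-- **the cube for the Vandermonde products of tuples**. -/
theorem s27caV_cube {N₁ N₂ N₃ : ℕ} (y₁ : Fin N₁ → 𝔏) (y₂ : Fin N₂ → 𝔏) (y₃ : Fin N₃ → 𝔏) :
    s27caV (Fin.append (Fin.append y₁ y₂) y₃) * s27caV y₁ * s27caV y₂ * s27caV y₃ =
      s27caV (Fin.append y₁ y₂) * s27caV (Fin.append y₁ y₃) * s27caV (Fin.append y₂ y₃) := by
  rw [s27caV_append, s27caX_append_left, s27caV_append, s27caV_append, s27caV_append]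
  ring

/-- composition with `Fin.append`. -/
theorem s27ca_comp_append {P : Type*} {N N' : ℕ} (x : P → 𝔏) (D : Fin N → P) (D' : Fin N' → P) :
    (fun i => x (Fin.append D D' i)) = Fin.append (fun i => x (D i)) (fun i => x (D' i)) := by
  funext i
  refine Fin.addCases (fun j => ?_) (fun j => ?_) i
  · rw [Fin.append_left, Fin.append_left]
  · rw [Fin.append_right, Fin.append_right]

/-- the pole product `∏_i w (D i)`. -/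
def s27caPi {P : Type*} {N : ℕ} (w : P → 𝔏) (D : Fin N → P) : 𝔏 := ∏ i, w (D i)

theorem s27caPi_append {P : Type*} {N N' : ℕ} (w : P → 𝔏) (D : Fin N → P) (D' : Fin N' → P) :
    s27caPi w (Fin.append D D') = s27caPi w D * s27caPi w D' := by
  unfold s27caPi
  rw [Fin.prod_univ_add]
  simp only [Fin.append_left, Fin.append_right]

theorem s27caPi_rel {P : Type*} {N : ℕ} (a b c d : P → 𝔏) (D : Fin N → P)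
    (h : ∀ i, a (D i) * b (D i) = c (D i) * d (D i)) :
    s27caPi a D * s27caPi b D = s27caPi c D * s27caPi d D := by
  unfold s27caPi
  rw [← Finset.prod_mul_distrib, ← Finset.prod_mul_distrib]
  exact Finset.prod_congr rfl fun i _ => h i

/-- **the cube for the pole products**. -/
theorem s27caPi_cube {P : Type*} {N₁ N₂ N₃ : ℕ} (w₁ w₂ w₃ w₁₂ w₁₃ w₂₃ w₁₂₃ : P → 𝔏)
    (D₁ : Fin N₁ → P) (D₂ : Fin N₂ → P) (D₃ : Fin N₃ → P)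
    (h1 : ∀ i, w₁₂₃ (D₁ i) * w₁ (D₁ i) = w₁₂ (D₁ i) * w₁₃ (D₁ i))
    (h2 : ∀ i, w₁₂₃ (D₂ i) * w₂ (D₂ i) = w₁₂ (D₂ i) * w₂₃ (D₂ i))
    (h3 : ∀ i, w₁₂₃ (D₃ i) * w₃ (D₃ i) = w₁₃ (D₃ i) * w₂₃ (D₃ i)) :
    s27caPi w₁₂₃ (Fin.append (Fin.append D₁ D₂) D₃) * s27caPi w₁ D₁ * s27caPi w₂ D₂
        * s27caPi w₃ D₃ =
      s27caPi w₁₂ (Fin.append D₁ D₂) * s27caPi w₁₃ (Fin.append D₁ D₃)
        * s27caPi w₂₃ (Fin.append D₂ D₃) := by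
  rw [s27caPi_append, s27caPi_append, s27caPi_append, s27caPi_append, s27caPi_append]
  have k1 := s27caPi_rel w₁₂₃ w₁ w₁₂ w₁₃ D₁ h1
  have k2 := s27caPi_rel w₁₂₃ w₂ w₁₂ w₂₃ D₂ h2
  have k3 := s27caPi_rel w₁₂₃ w₃ w₁₃ w₂₃ D₃ h3
  calc s27caPi w₁₂₃ D₁ * s27caPi w₁₂₃ D₂ * s27caPi w₁₂₃ D₃ * s27caPi w₁ D₁ * s27caPi w₂ D₂
          * s27caPi w₃ D₃
      = (s27caPi w₁₂₃ D₁ * s27caPi w₁ D₁) * (s27caPi w₁₂₃ D₂ * s27caPi w₂ D₂)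
          * (s27caPi w₁₂₃ D₃ * s27caPi w₃ D₃) := by ring
    _ = (s27caPi w₁₂ D₁ * s27caPi w₁₃ D₁) * (s27caPi w₁₂ D₂ * s27caPi w₂₃ D₂)
          * (s27caPi w₁₃ D₃ * s27caPi w₂₃ D₃) := by rw [k1, k2, k3]
    _ = _ := by ring

end Vdm

/-! ### The point formula and the cube -/

section Cube

variable {𝔏 : Type w'} [Field 𝔏] {P : Type*}

/-- **the point formula of a tuple** `m = θ / (V (x ∘ D) · ∏_i w (D i))`. -/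
def s27caM {N : ℕ} (x w : P → 𝔏) (θ : 𝔏) (D : Fin N → P) : 𝔏 :=
  θ / (s27caV (fun i => x (D i)) * s27caPi w D)

/-- the denominators satisfy the cube. -/
theorem s27ca_den_cube {N₁ N₂ N₃ : ℕ} (x : P → 𝔏) (w₁ w₂ w₃ w₁₂ w₁₃ w₂₃ w₁₂₃ : P → 𝔏)
    (D₁ : Fin N₁ → P) (D₂ : Fin N₂ → P) (D₃ : Fin N₃ → P)
    (h1 : ∀ i, w₁₂₃ (D₁ i) * w₁ (D₁ i) = w₁₂ (D₁ i) * w₁₃ (D₁ i))
    (h2 : ∀ i, w₁₂₃ (D₂ i) * w₂ (D₂ i) = w₁₂ (D₂ i) * w₂₃ (D₂ i))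
    (h3 : ∀ i, w₁₂₃ (D₃ i) * w₃ (D₃ i) = w₁₃ (D₃ i) * w₂₃ (D₃ i)) :
    (s27caV (fun i => x (Fin.append (Fin.append D₁ D₂) D₃ i))
          * s27caPi w₁₂₃ (Fin.append (Fin.append D₁ D₂) D₃))
        * (s27caV (fun i => x (D₁ i)) * s27caPi w₁ D₁)
        * (s27caV (fun i => x (D₂ i)) * s27caPi w₂ D₂)
        * (s27caV (fun i => x (D₃ i)) * s27caPi w₃ D₃) =
      (s27caV (fun i => x (Fin.append D₁ D₂ i)) * s27caPi w₁₂ (Fin.append D₁ D₂))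
        * (s27caV (fun i => x (Fin.append D₁ D₃ i)) * s27caPi w₁₃ (Fin.append D₁ D₃))
        * (s27caV (fun i => x (Fin.append D₂ D₃ i)) * s27caPi w₂₃ (Fin.append D₂ D₃)) := by
  have hV := s27caV_cube (fun i => x (D₁ i)) (fun i => x (D₂ i)) (fun i => x (D₃ i))
  have hP := s27caPi_cube w₁ w₂ w₃ w₁₂ w₁₃ w₂₃ w₁₂₃ D₁ D₂ D₃ h1 h2 h3
  rw [s27ca_comp_append x (Fin.append D₁ D₂) D₃, s27ca_comp_append x D₁ D₂,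
    s27ca_comp_append x D₁ D₃, s27ca_comp_append x D₂ D₃]
  calc _ = (s27caV (Fin.append (Fin.append (fun i => x (D₁ i)) (fun i => x (D₂ i)))
              (fun i => x (D₃ i))) * s27caV (fun i => x (D₁ i)) * s27caV (fun i => x (D₂ i))
              * s27caV (fun i => x (D₃ i)))
            * (s27caPi w₁₂₃ (Fin.append (Fin.append D₁ D₂) D₃) * s27caPi w₁ D₁ * s27caPi w₂ D₂
              * s27caPi w₃ D₃) := by ring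
    _ = _ := by
        rw [hV, hP]
        ring

/-- **THE CUBE IN TUPLE FORM, exact** (no hypothesis of non-vanishing). -/
theorem s27ca_cube {N₁ N₂ N₃ : ℕ} (x : P → 𝔏) (w₁ w₂ w₃ w₁₂ w₁₃ w₂₃ w₁₂₃ : P → 𝔏)
    (D₁ : Fin N₁ → P) (D₂ : Fin N₂ → P) (D₃ : Fin N₃ → P)
    (h1 : ∀ i, w₁₂₃ (D₁ i) * w₁ (D₁ i) = w₁₂ (D₁ i) * w₁₃ (D₁ i))
    (h2 : ∀ i, w₁₂₃ (D₂ i) * w₂ (D₂ i) = w₁₂ (D₂ i) * w₂₃ (D₂ i))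
    (h3 : ∀ i, w₁₂₃ (D₃ i) * w₃ (D₃ i) = w₁₃ (D₃ i) * w₂₃ (D₃ i))
    (θ₁ θ₂ θ₃ θ₁₂ θ₁₃ θ₂₃ θ₁₂₃ : 𝔏) :
    s27caM x w₁₂₃ θ₁₂₃ (Fin.append (Fin.append D₁ D₂) D₃) * s27caM x w₁ θ₁ D₁
        * s27caM x w₂ θ₂ D₂ * s27caM x w₃ θ₃ D₃ * (θ₁₂ * θ₁₃ * θ₂₃) =
      θ₁₂₃ * θ₁ * θ₂ * θ₃ * (s27caM x w₁₂ θ₁₂ (Fin.append D₁ D₂)
        * s27caM x w₁₃ θ₁₃ (Fin.append D₁ D₃) * s27caM x w₂₃ θ₂₃ (Fin.append D₂ D₃)) := by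
  have hden := s27ca_den_cube x w₁ w₂ w₃ w₁₂ w₁₃ w₂₃ w₁₂₃ D₁ D₂ D₃ h1 h2 h3
  have key : (s27caV (fun i => x (Fin.append (Fin.append D₁ D₂) D₃ i))
          * s27caPi w₁₂₃ (Fin.append (Fin.append D₁ D₂) D₃))⁻¹
        * (s27caV (fun i => x (D₁ i)) * s27caPi w₁ D₁)⁻¹
        * (s27caV (fun i => x (D₂ i)) * s27caPi w₂ D₂)⁻¹
        * (s27caV (fun i => x (D₃ i)) * s27caPi w₃ D₃)⁻¹ =
      (s27caV (fun i => x (Fin.append D₁ D₂ i)) * s27caPi w₁₂ (Fin.append D₁ D₂))⁻¹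
        * (s27caV (fun i => x (Fin.append D₁ D₃ i)) * s27caPi w₁₃ (Fin.append D₁ D₃))⁻¹
        * (s27caV (fun i => x (Fin.append D₂ D₃ i)) * s27caPi w₂₃ (Fin.append D₂ D₃))⁻¹ := by
    rw [← mul_inv, ← mul_inv, ← mul_inv, ← mul_inv, ← mul_inv, hden]
  unfold s27caM
  simp only [div_eq_mul_inv]
  linear_combination (θ₁₂₃ * θ₁ * θ₂ * θ₃ * (θ₁₂ * θ₁₃ * θ₂₃)) * key

/-- the function `Φ = θ₁₂₃ θ₁ θ₂ θ₃ / (θ₁₂ θ₁₃ θ₂₃)` (independent of `W`, `t`, `a`). -/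
def s27caPhi (θ₁ θ₂ θ₃ θ₁₂ θ₁₃ θ₂₃ θ₁₂₃ : 𝔏) : 𝔏 :=
  θ₁₂₃ * θ₁ * θ₂ * θ₃ / (θ₁₂ * θ₁₃ * θ₂₃)

theorem s27caPhi_ne_zero {θ₁ θ₂ θ₃ θ₁₂ θ₁₃ θ₂₃ θ₁₂₃ : 𝔏} (t1 : θ₁ ≠ 0) (t2 : θ₂ ≠ 0)
    (t3 : θ₃ ≠ 0) (t12 : θ₁₂ ≠ 0) (t13 : θ₁₃ ≠ 0) (t23 : θ₂₃ ≠ 0) (t123 : θ₁₂₃ ≠ 0) :
    s27caPhi θ₁ θ₂ θ₃ θ₁₂ θ₁₃ θ₂₃ θ₁₂₃ ≠ 0 :=
  div_ne_zero (mul_ne_zero (mul_ne_zero (mul_ne_zero t123 t1) t2) t3)
    (mul_ne_zero (mul_ne_zero t12 t13) t23)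

/-- **the cube with `Φ`**: `m₁₂₃ m₁ m₂ m₃ = Φ · m₁₂ m₁₃ m₂₃`. -/
theorem s27ca_cube_Phi {N₁ N₂ N₃ : ℕ} (x : P → 𝔏) (w₁ w₂ w₃ w₁₂ w₁₃ w₂₃ w₁₂₃ : P → 𝔏)
    (D₁ : Fin N₁ → P) (D₂ : Fin N₂ → P) (D₃ : Fin N₃ → P)
    (h1 : ∀ i, w₁₂₃ (D₁ i) * w₁ (D₁ i) = w₁₂ (D₁ i) * w₁₃ (D₁ i))
    (h2 : ∀ i, w₁₂₃ (D₂ i) * w₂ (D₂ i) = w₁₂ (D₂ i) * w₂₃ (D₂ i))
    (h3 : ∀ i, w₁₂₃ (D₃ i) * w₃ (D₃ i) = w₁₃ (D₃ i) * w₂₃ (D₃ i))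
    (θ₁ θ₂ θ₃ θ₁₂ θ₁₃ θ₂₃ θ₁₂₃ : 𝔏) (t12 : θ₁₂ ≠ 0) (t13 : θ₁₃ ≠ 0) (t23 : θ₂₃ ≠ 0) :
    s27caM x w₁₂₃ θ₁₂₃ (Fin.append (Fin.append D₁ D₂) D₃) * s27caM x w₁ θ₁ D₁
        * s27caM x w₂ θ₂ D₂ * s27caM x w₃ θ₃ D₃ =
      s27caPhi θ₁ θ₂ θ₃ θ₁₂ θ₁₃ θ₂₃ θ₁₂₃ * (s27caM x w₁₂ θ₁₂ (Fin.append D₁ D₂)
        * s27caM x w₁₃ θ₁₃ (Fin.append D₁ D₃) * s27caM x w₂₃ θ₂₃ (Fin.append D₂ D₃)) := by
  have h := s27ca_cube x w₁ w₂ w₃ w₁₂ w₁₃ w₂₃ w₁₂₃ D₁ D₂ D₃ h1 h2 h3 θ₁ θ₂ θ₃ θ₁₂ θ₁₃ θ₂₃ θ₁₂₃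
  have hne : θ₁₂ * θ₁₃ * θ₂₃ ≠ 0 := mul_ne_zero (mul_ne_zero t12 t13) t23
  unfold s27caPhi
  rw [div_mul_eq_mul_div, eq_div_iff hne, h]

/-- **THE CUBE IN TUPLE FORM, `≐_W` form**: `y_S ≐_W m_S` for the seven tuples ⇒
`y₁₂₃ y₁ y₂ y₃ ≐_W Φ · y₁₂ y₁₃ y₂₃`. -/
theorem s27ca_cube_unit (W : ValuationSubring 𝔏) {N₁ N₂ N₃ : ℕ} (x : P → 𝔏)
    (w₁ w₂ w₃ w₁₂ w₁₃ w₂₃ w₁₂₃ : P → 𝔏)
    (D₁ : Fin N₁ → P) (D₂ : Fin N₂ → P) (D₃ : Fin N₃ → P)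
    (h1 : ∀ i, w₁₂₃ (D₁ i) * w₁ (D₁ i) = w₁₂ (D₁ i) * w₁₃ (D₁ i))
    (h2 : ∀ i, w₁₂₃ (D₂ i) * w₂ (D₂ i) = w₁₂ (D₂ i) * w₂₃ (D₂ i))
    (h3 : ∀ i, w₁₂₃ (D₃ i) * w₃ (D₃ i) = w₁₃ (D₃ i) * w₂₃ (D₃ i))
    (θ₁ θ₂ θ₃ θ₁₂ θ₁₃ θ₂₃ θ₁₂₃ : 𝔏) (t12 : θ₁₂ ≠ 0) (t13 : θ₁₃ ≠ 0) (t23 : θ₂₃ ≠ 0)
    {y₁ y₂ y₃ y₁₂ y₁₃ y₂₃ y₁₂₃ : 𝔏}
    (m1 : s27cptEq W y₁ (s27caM x w₁ θ₁ D₁)) (m2 : s27cptEq W y₂ (s27caM x w₂ θ₂ D₂))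
    (m3 : s27cptEq W y₃ (s27caM x w₃ θ₃ D₃))
    (m12 : s27cptEq W y₁₂ (s27caM x w₁₂ θ₁₂ (Fin.append D₁ D₂)))
    (m13 : s27cptEq W y₁₃ (s27caM x w₁₃ θ₁₃ (Fin.append D₁ D₃)))
    (m23 : s27cptEq W y₂₃ (s27caM x w₂₃ θ₂₃ (Fin.append D₂ D₃)))
    (m123 : s27cptEq W y₁₂₃ (s27caM x w₁₂₃ θ₁₂₃ (Fin.append (Fin.append D₁ D₂) D₃))) :
    s27cptEq W (y₁₂₃ * y₁ * y₂ * y₃)
      (s27caPhi θ₁ θ₂ θ₃ θ₁₂ θ₁₃ θ₂₃ θ₁₂₃ * (y₁₂ * y₁₃ * y₂₃)) := by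
  have hL := s27cptEq_mul (s27cptEq_mul (s27cptEq_mul m123 m1) m2) m3
  have hR := s27cptEq_mul_left (s27caPhi θ₁ θ₂ θ₃ θ₁₂ θ₁₃ θ₂₃ θ₁₂₃)
    (s27cptEq_mul (s27cptEq_mul m12 m13) m23)
  rw [s27ca_cube_Phi x w₁ w₂ w₃ w₁₂ w₁₃ w₂₃ w₁₂₃ D₁ D₂ D₃ h1 h2 h3 θ₁ θ₂ θ₃ θ₁₂ θ₁₃ θ₂₃ θ₁₂₃
    t12 t13 t23] at hL
  exact s27cptEq_trans hL (s27cptEq_symm hR)

end Cube

/-! ### The hypothesis `hcp` of CUBE-K -/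

section CP

variable {K : Type u} [Field K] {𝔏 : Type w'} [Field 𝔏] [Algebra K 𝔏]
variable {C : Type x} [AddCommGroup C] {P : Type*}

/-- **`hcp` for ANY `Idx`**: for every `W ⊇ K` local equations `y_S` of the seven classes which
are `≐_W` the point formulas of the seven tuples. -/
theorem s27ca_cp (Idx : ValuationSubring 𝔏 → C → 𝔏 → Prop) (c₁ c₂ : C) {N₁ N₂ N₃ : ℕ}
    (D₁ : Fin N₁ → P) (D₂ : Fin N₂ → P) (D₃ : Fin N₃ → P)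
    (θ₁ θ₂ θ₃ θ₁₂ θ₁₃ θ₂₃ θ₁₂₃ : 𝔏) (t12 : θ₁₂ ≠ 0) (t13 : θ₁₃ ≠ 0) (t23 : θ₂₃ ≠ 0)
    (h : ∀ W : ValuationSubring 𝔏, S27IsKValU K W →
      ∃ (x w₁ w₂ w₃ w₁₂ w₁₃ w₂₃ w₁₂₃ : P → 𝔏) (y₁ y₂ y₃ y₁₂ y₁₃ y₂₃ y₁₂₃ : 𝔏),
        (∀ i, w₁₂₃ (D₁ i) * w₁ (D₁ i) = w₁₂ (D₁ i) * w₁₃ (D₁ i)) ∧
        (∀ i, w₁₂₃ (D₂ i) * w₂ (D₂ i) = w₁₂ (D₂ i) * w₂₃ (D₂ i)) ∧
        (∀ i, w₁₂₃ (D₃ i) * w₃ (D₃ i) = w₁₃ (D₃ i) * w₂₃ (D₃ i)) ∧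
        (Idx W c₁ y₁ ∧ s27cptEq W y₁ (s27caM x w₁ θ₁ D₁)) ∧
        (Idx W c₂ y₂ ∧ s27cptEq W y₂ (s27caM x w₂ θ₂ D₂)) ∧
        (Idx W (-c₂) y₃ ∧ s27cptEq W y₃ (s27caM x w₃ θ₃ D₃)) ∧
        (Idx W (c₁ + c₂) y₁₂ ∧ s27cptEq W y₁₂ (s27caM x w₁₂ θ₁₂ (Fin.append D₁ D₂))) ∧
        (Idx W (c₁ - c₂) y₁₃ ∧ s27cptEq W y₁₃ (s27caM x w₁₃ θ₁₃ (Fin.append D₁ D₃))) ∧
        (Idx W 0 y₂₃ ∧ s27cptEq W y₂₃ (s27caM x w₂₃ θ₂₃ (Fin.append D₂ D₃))) ∧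
        (Idx W c₁ y₁₂₃ ∧
          s27cptEq W y₁₂₃ (s27caM x w₁₂₃ θ₁₂₃ (Fin.append (Fin.append D₁ D₂) D₃)))) :
    S27ckCP K Idx c₁ c₂ (s27caPhi θ₁ θ₂ θ₃ θ₁₂ θ₁₃ θ₂₃ θ₁₂₃) := by
  intro W hW
  obtain ⟨x, w₁, w₂, w₃, w₁₂, w₁₃, w₂₃, w₁₂₃, y₁, y₂, y₃, y₁₂, y₁₃, y₂₃, y₁₂₃, h1, h2, h3,
    ⟨i1, m1⟩, ⟨i2, m2⟩, ⟨i3, m3⟩, ⟨i12, m12⟩, ⟨i13, m13⟩, ⟨i23, m23⟩, ⟨i123, m123⟩⟩ := h W hW
  exact ⟨y₁, y₂, y₃, y₁₂, y₁₃, y₂₃, y₁₂₃, i1, i2, i3, i12, i13, i23, i123,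
    s27ca_cube_unit W x w₁ w₂ w₃ w₁₂ w₁₃ w₂₃ w₁₂₃ D₁ D₂ D₃ h1 h2 h3 θ₁ θ₂ θ₃ θ₁₂ θ₁₃ θ₂₃ θ₁₂₃
      t12 t13 t23 m1 m2 m3 m12 m13 m23 m123⟩

end CP

/-! ### The point formula from a monomial lattice basis (LAT-EX), and CP-TOP -/

section PF

variable {K : Type u} {F : Type v} [Field K] [Field F] [Algebra K F]
variable {𝔏 : Type w'} [Field 𝔏] [Algebra K 𝔏]

/-- `det [R_i (a · t^j)] = ∏_i R_i a · V (R_i t)`. -/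
theorem s27ca_det_mono {N : ℕ} (R : Fin N → F →ₐ[K] 𝔏) (a t : F) :
    (s27ptVal R (fun j : Fin N => a * t ^ (j : ℕ))).det =
      (∏ i, R i a) * s27caV (fun i => R i t) := by
  have h : s27ptVal R (fun j : Fin N => a * t ^ (j : ℕ)) =
      Matrix.diagonal (fun i => R i a) * Matrix.vandermonde (fun i => R i t) := by
    ext i j
    rw [Matrix.diagonal_mul, s27ptVal_apply, map_mul, map_pow, Matrix.vandermonde_apply]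
  rw [h, Matrix.det_mul, Matrix.det_diagonal, s27caV_eq_det]

/-- **(PF)**: if the monomials `a · t^j`, `j < N`, are a lattice basis (LAT-EX for the adapted pair
`(t, a)`), then the point formula `det [R_i f_l] / (V (R_i t) · ∏_i R_i a)` IS a local equation. -/
theorem s27ca_idx_mono {N : ℕ} {W : ValuationSubring 𝔏} {R : Fin N → F →ₐ[K] 𝔏}
    {A' : Divisor K F} (f : Module.Basis (Fin N) K ↥(riemannRochSpace A')) (a t : F)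
    (hφ : S27ptIsLatBasis W R A' (fun j : Fin N => a * t ^ (j : ℕ))) :
    S27ptIsIdx W R A'
      (s27caM (fun R₀ : F →ₐ[K] 𝔏 => R₀ t) (fun R₀ : F →ₐ[K] 𝔏 => R₀ a) (s27ptValB R f).det R) := by
  refine ⟨f, _, hφ, ?_⟩
  rw [s27ca_det_mono]
  unfold s27caM s27caPi
  rw [mul_comm (s27caV fun i => R i t)]

variable {C : Type x} [AddCommGroup C]

/-- **CP-TOP**: the hypothesis `hcp` of CUBE-K from LAT-EX.  `D₁, D₂, D₃` three tuples of points,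
`A_S` the origins of the seven tuples, `f_S` `K`-bases of `L_K(A_S)`; `hIdx_S`: a local equation
at the tuple `D_S` (origin `A_S`) is a local equation at the class `c_S`; `hlat`: for every `W ⊇ K`
there are `t` and seven pole functions `a_S` with `a₁₂₃ a₁ = a₁₂ a₁₃`, `a₁₂₃ a₂ = a₁₂ a₂₃`,
`a₁₂₃ a₃ = a₁₃ a₂₃` (e.g. `a_S = a₀ · ∏_{j ∈ S} b_j`) such that the monomials `a_S · t^j` are a
lattice basis at `D_S`.  Then `S27ckCP K Idx c₁ c₂ Φ` with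
`Φ = θ₁₂₃ θ₁ θ₂ θ₃ / (θ₁₂ θ₁₃ θ₂₃)`, `θ_S = det [D_S i (f_S l)]`. -/
theorem s27ca_cp_latex (Idx : ValuationSubring 𝔏 → C → 𝔏 → Prop) (c₁ c₂ : C) {N₁ N₂ N₃ : ℕ}
    (D₁ : Fin N₁ → F →ₐ[K] 𝔏) (D₂ : Fin N₂ → F →ₐ[K] 𝔏) (D₃ : Fin N₃ → F →ₐ[K] 𝔏)
    {A₁ A₂ A₃ A₁₂ A₁₃ A₂₃ A₁₂₃ : Divisor K F}
    (f₁ : Module.Basis (Fin N₁) K ↥(riemannRochSpace A₁))
    (f₂ : Module.Basis (Fin N₂) K ↥(riemannRochSpace A₂))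
    (f₃ : Module.Basis (Fin N₃) K ↥(riemannRochSpace A₃))
    (f₁₂ : Module.Basis (Fin (N₁ + N₂)) K ↥(riemannRochSpace A₁₂))
    (f₁₃ : Module.Basis (Fin (N₁ + N₃)) K ↥(riemannRochSpace A₁₃))
    (f₂₃ : Module.Basis (Fin (N₂ + N₃)) K ↥(riemannRochSpace A₂₃))
    (f₁₂₃ : Module.Basis (Fin (N₁ + N₂ + N₃)) K ↥(riemannRochSpace A₁₂₃))
    (t12 : (s27ptValB (Fin.append D₁ D₂) f₁₂).det ≠ 0)
    (t13 : (s27ptValB (Fin.append D₁ D₃) f₁₃).det ≠ 0)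
    (t23 : (s27ptValB (Fin.append D₂ D₃) f₂₃).det ≠ 0)
    (hIdx1 : ∀ W : ValuationSubring 𝔏, S27IsKValU K W → ∀ y, S27ptIsIdx W D₁ A₁ y → Idx W c₁ y)
    (hIdx2 : ∀ W : ValuationSubring 𝔏, S27IsKValU K W → ∀ y, S27ptIsIdx W D₂ A₂ y → Idx W c₂ y)
    (hIdx3 : ∀ W : ValuationSubring 𝔏, S27IsKValU K W → ∀ y,
      S27ptIsIdx W D₃ A₃ y → Idx W (-c₂) y)
    (hIdx12 : ∀ W : ValuationSubring 𝔏, S27IsKValU K W → ∀ y,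
      S27ptIsIdx W (Fin.append D₁ D₂) A₁₂ y → Idx W (c₁ + c₂) y)
    (hIdx13 : ∀ W : ValuationSubring 𝔏, S27IsKValU K W → ∀ y,
      S27ptIsIdx W (Fin.append D₁ D₃) A₁₃ y → Idx W (c₁ - c₂) y)
    (hIdx23 : ∀ W : ValuationSubring 𝔏, S27IsKValU K W → ∀ y,
      S27ptIsIdx W (Fin.append D₂ D₃) A₂₃ y → Idx W 0 y)
    (hIdx123 : ∀ W : ValuationSubring 𝔏, S27IsKValU K W → ∀ y,
      S27ptIsIdx W (Fin.append (Fin.append D₁ D₂) D₃) A₁₂₃ y → Idx W c₁ y)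
    (hlat : ∀ W : ValuationSubring 𝔏, S27IsKValU K W →
      ∃ t a₁ a₂ a₃ a₁₂ a₁₃ a₂₃ a₁₂₃ : F,
        a₁₂₃ * a₁ = a₁₂ * a₁₃ ∧ a₁₂₃ * a₂ = a₁₂ * a₂₃ ∧ a₁₂₃ * a₃ = a₁₃ * a₂₃ ∧
        S27ptIsLatBasis W D₁ A₁ (fun j : Fin N₁ => a₁ * t ^ (j : ℕ)) ∧
        S27ptIsLatBasis W D₂ A₂ (fun j : Fin N₂ => a₂ * t ^ (j : ℕ)) ∧
        S27ptIsLatBasis W D₃ A₃ (fun j : Fin N₃ => a₃ * t ^ (j : ℕ)) ∧
        S27ptIsLatBasis W (Fin.append D₁ D₂) A₁₂ (fun j : Fin (N₁ + N₂) => a₁₂ * t ^ (j : ℕ)) ∧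
        S27ptIsLatBasis W (Fin.append D₁ D₃) A₁₃ (fun j : Fin (N₁ + N₃) => a₁₃ * t ^ (j : ℕ)) ∧
        S27ptIsLatBasis W (Fin.append D₂ D₃) A₂₃ (fun j : Fin (N₂ + N₃) => a₂₃ * t ^ (j : ℕ)) ∧
        S27ptIsLatBasis W (Fin.append (Fin.append D₁ D₂) D₃) A₁₂₃
          (fun j : Fin (N₁ + N₂ + N₃) => a₁₂₃ * t ^ (j : ℕ))) :
    S27ckCP K Idx c₁ c₂
      (s27caPhi (s27ptValB D₁ f₁).det (s27ptValB D₂ f₂).det (s27ptValB D₃ f₃).det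
        (s27ptValB (Fin.append D₁ D₂) f₁₂).det (s27ptValB (Fin.append D₁ D₃) f₁₃).det
        (s27ptValB (Fin.append D₂ D₃) f₂₃).det
        (s27ptValB (Fin.append (Fin.append D₁ D₂) D₃) f₁₂₃).det) := by
  refine s27ca_cp Idx c₁ c₂ D₁ D₂ D₃ _ _ _ _ _ _ _ t12 t13 t23 (fun W hW => ?_)
  obtain ⟨t, a₁, a₂, a₃, a₁₂, a₁₃, a₂₃, a₁₂₃, r1, r2, r3, l1, l2, l3, l12, l13, l23, l123⟩ :=
    hlat W hW
  have e1 := s27ca_idx_mono f₁ a₁ t l1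
  have e2 := s27ca_idx_mono f₂ a₂ t l2
  have e3 := s27ca_idx_mono f₃ a₃ t l3
  have e12 := s27ca_idx_mono f₁₂ a₁₂ t l12
  have e13 := s27ca_idx_mono f₁₃ a₁₃ t l13
  have e23 := s27ca_idx_mono f₂₃ a₂₃ t l23
  have e123 := s27ca_idx_mono f₁₂₃ a₁₂₃ t l123
  refine ⟨fun R₀ => R₀ t, fun R₀ => R₀ a₁, fun R₀ => R₀ a₂, fun R₀ => R₀ a₃, fun R₀ => R₀ a₁₂,
    fun R₀ => R₀ a₁₃, fun R₀ => R₀ a₂₃, fun R₀ => R₀ a₁₂₃, _, _, _, _, _, _, _,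
    fun i => ?_, fun i => ?_, fun i => ?_,
    ⟨hIdx1 W hW _ e1, s27cptEq_refl W _⟩, ⟨hIdx2 W hW _ e2, s27cptEq_refl W _⟩,
    ⟨hIdx3 W hW _ e3, s27cptEq_refl W _⟩, ⟨hIdx12 W hW _ e12, s27cptEq_refl W _⟩,
    ⟨hIdx13 W hW _ e13, s27cptEq_refl W _⟩, ⟨hIdx23 W hW _ e23, s27cptEq_refl W _⟩,
    ⟨hIdx123 W hW _ e123, s27cptEq_refl W _⟩⟩
  · show D₁ i a₁₂₃ * D₁ i a₁ = D₁ i a₁₂ * D₁ i a₁₃
    rw [← map_mul, ← map_mul, r1]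
  · show D₂ i a₁₂₃ * D₂ i a₂ = D₂ i a₁₂ * D₂ i a₂₃
    rw [← map_mul, ← map_mul, r2]
  · show D₃ i a₁₂₃ * D₃ i a₃ = D₃ i a₁₃ * D₃ i a₂₃
    rw [← map_mul, ← map_mul, r3]

end PF

end Fermat.Agent.S27

end
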