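/-
S27-B, leaf AD-EX, part 1 (helper6): WEAK APPROXIMATION for finitely many places of `F / K`
(prelude `AlgebraicCurve.Place`), from Mathlib's Artin–Whaples for real absolute values.

* `s27adex_exists_idem`  : for distinct places `u i` and `N`, an element `e` with
  `e ≡ 1 mod 𝔪_i^N`, `e ≡ 0 mod 𝔪_j^N` (`j ≠ i`), in `adicValuation` form.
* `s27adex_approx`       : simultaneous approximation of targets `y i` to precision `N`.
-/
import Mathlib
import Fermat.Agent.S24.PlaceBasic

set_option autoImplicit false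

noncomputable section

namespace Fermat.Agent.S27

open AlgebraicCurve IsDedekindDomain WithZero NNReal
open Fermat.Agent.S24.PlaceAux

variable {K F : Type*} [Field K] [Field F] [Algebra K F]

/-- the real absolute value `2^(-ord)` of a place -/
def s27adexAbv (v : Place K F) : AbsoluteValue F ℝ :=
  v.heightOneSpectrum.adicAbv (K := F) (b := 2) one_lt_two

theorem s27adex_abv_lt_one (v : Place K F) (x : F) :
    s27adexAbv v x < 1 ↔ v.adicValuation x < 1 := by
  have hb : (1 : ℝ≥0) < 2 := one_lt_two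
  change ((WithZeroMulInt.toNNReal (ne_zero_of_lt hb)
    (v.heightOneSpectrum.valuation F x) : ℝ≥0) : ℝ) < 1 ↔ _
  rw [← NNReal.coe_one, NNReal.coe_lt_coe, WithZeroMulInt.toNNReal_lt_one_iff hb]
  rfl

theorem s27adex_one_lt_abv (v : Place K F) (x : F) :
    1 < s27adexAbv v x ↔ 1 < v.adicValuation x := by
  have hb : (1 : ℝ≥0) < 2 := one_lt_two
  change (1 : ℝ) < ((WithZeroMulInt.toNNReal (ne_zero_of_lt hb)
    (v.heightOneSpectrum.valuation F x) : ℝ≥0) : ℝ) ↔ _
  rw [← NNReal.coe_one, NNReal.coe_lt_coe,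
    ← (WithZeroMulInt.toNNReal_strictMono hb).lt_iff_lt, map_one]
  rfl

theorem s27adex_abv_le_one (v : Place K F) (x : F) :
    s27adexAbv v x ≤ 1 ↔ x ∈ v.toValuationSubring := by
  rw [mem_iff_adicValuation_le_one, ← not_lt, s27adex_one_lt_abv, not_lt]

/-- a uniformiser -/
theorem s27adex_exists_unif (v : Place K F) : ∃ π : F, π ≠ 0 ∧ v.ord π = 1 := by
  obtain ⟨π, hπ⟩ := IsDiscreteValuationRing.exists_irreducible v.toValuationSubring
  refine ⟨(π : F), ?_, v.ord_coe_irreducible hπ⟩
  intro h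
  exact hπ.ne_zero (Subtype.ext h)

theorem s27adex_val_lt_one_iff (v : Place K F) {x : F} (hx : x ≠ 0) :
    v.adicValuation x < 1 ↔ 0 < v.ord x := by
  rw [adicValuation_eq_exp_neg_ord v hx, ← WithZero.exp_zero, WithZero.exp_lt_exp]
  omega

theorem s27adex_abv_nontrivial (v : Place K F) : (s27adexAbv v).IsNontrivial := by
  obtain ⟨π, hπ0, hπ⟩ := s27adex_exists_unif v
  refine ⟨π, hπ0, ?_⟩
  have : s27adexAbv v π < 1 := by
    rw [s27adex_abv_lt_one, s27adex_val_lt_one_iff v hπ0]; omega
  exact this.ne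

theorem s27adex_abv_not_isEquiv {v w : Place K F} (h : v ≠ w) :
    ¬ (s27adexAbv v).IsEquiv (s27adexAbv w) := by
  intro he
  apply h
  apply Place.ext
  ext x
  rw [← s27adex_abv_le_one, ← s27adex_abv_le_one]
  exact he.le_one_iff

/-- Artin–Whaples, first step, for places. -/
theorem s27adex_exists_sep {ι : Type*} [Finite ι] (u : ι → Place K F)
    (hu : Function.Injective u) (i : ι) :
    ∃ z : F, z ≠ 0 ∧ (u i).adicValuation z < 1 ∧ ∀ j, j ≠ i → 1 < (u j).adicValuation z := by
  obtain ⟨a, ha, haj⟩ := AbsoluteValue.exists_one_lt_lt_one_pi_of_not_isEquiv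
    (v := fun j => s27adexAbv (u j)) (fun j => s27adex_abv_nontrivial (u j))
    (fun j k hjk => s27adex_abv_not_isEquiv (fun h => hjk (hu h))) i
  have ha0 : a ≠ 0 := by
    rintro rfl
    simp at ha
    linarith
  refine ⟨a⁻¹, inv_ne_zero ha0, ?_, fun j hj => ?_⟩
  · rw [s27adex_one_lt_abv] at ha
    rw [map_inv₀]
    exact inv_lt_one_of_one_lt₀ ha
  · have := haj j hj
    rw [s27adex_abv_lt_one] at this
    rw [map_inv₀]
    exact (one_lt_inv₀ (zero_lt_iff.mpr ((u j).adicValuation_ne_zero ha0))).mpr this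

/-! ### powers in `ℤᵐ⁰` -/

theorem s27adex_pow_le_of_lt_one {x : ℤᵐ⁰} (hx : x < 1) (m : ℕ) :
    x ^ m ≤ exp (-(m : ℤ)) := by
  rcases eq_or_ne x 0 with rfl | hx0
  · rcases Nat.eq_zero_or_pos m with rfl | hm
    · simp
    · rw [zero_pow hm.ne']; exact zero_le
  · have hlog : x = exp (log x) := (WithZero.exp_log hx0).symm
    have h1 : log x ≤ -1 := by
      have : exp (log x) < exp 0 := by rw [← hlog, WithZero.exp_zero]; exact hx
      rw [WithZero.exp_lt_exp] at this
      omega
    rw [hlog, ← WithZero.exp_nsmul, WithZero.exp_le_exp]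
    simp only [nsmul_eq_mul]
    nlinarith [h1, (Nat.cast_nonneg m : (0 : ℤ) ≤ m)]

theorem s27adex_le_pow_of_one_lt {x : ℤᵐ⁰} (hx : 1 < x) (m : ℕ) :
    exp (m : ℤ) ≤ x ^ m := by
  have hx0 : x ≠ 0 := (lt_trans zero_lt_one hx).ne'
  have hlog : x = exp (log x) := (WithZero.exp_log hx0).symm
  have h1 : 1 ≤ log x := by
    have : exp 0 < exp (log x) := by rw [← hlog, WithZero.exp_zero]; exact hx
    rw [WithZero.exp_lt_exp] at this
    omega
  rw [hlog, ← WithZero.exp_nsmul, WithZero.exp_le_exp]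
  simp only [nsmul_eq_mul]
  nlinarith [h1, (Nat.cast_nonneg m : (0 : ℤ) ≤ m)]

/-- **Approximate idempotents**: `e ≡ 1 mod 𝔪_i^m`, `e ≡ 0 mod 𝔪_j^m` for `j ≠ i`. -/
theorem s27adex_exists_idem {ι : Type*} [Finite ι] (u : ι → Place K F)
    (hu : Function.Injective u) (i : ι) (m : ℕ) :
    ∃ e : F, (u i).adicValuation (e - 1) ≤ exp (-(m : ℤ)) ∧
      ∀ j, j ≠ i → (u j).adicValuation e ≤ exp (-(m : ℤ)) := by
  obtain ⟨z, hz0, hzi, hzj⟩ := s27adex_exists_sep u hu i
  have hmi : (u i).adicValuation (z ^ (m + 1)) < 1 := by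
    rw [map_pow]
    exact pow_lt_one₀ zero_le hzi (Nat.succ_ne_zero m)
  have h1i : (u i).adicValuation (1 + z ^ (m + 1)) = 1 :=
    (u i).adicValuation.map_one_add_of_lt hmi
  have hne : (1 + z ^ (m + 1) : F) ≠ 0 := by
    intro h
    rw [h, map_zero] at h1i
    exact zero_ne_one h1i
  refine ⟨(1 + z ^ (m + 1))⁻¹, ?_, fun j hj => ?_⟩
  · have he : (1 + z ^ (m + 1))⁻¹ - 1 = -(z ^ (m + 1)) * (1 + z ^ (m + 1))⁻¹ := by
      field_simp
      ring
    rw [he, map_mul, map_inv₀, h1i, inv_one, mul_one, Valuation.map_neg, map_pow]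
    refine (s27adex_pow_le_of_lt_one hzi (m + 1)).trans ?_
    rw [WithZero.exp_le_exp]
    push_cast
    omega
  · have hj1 : 1 < (u j).adicValuation (z ^ (m + 1)) := by
      rw [map_pow]
      exact one_lt_pow₀ (hzj j hj) (Nat.succ_ne_zero m)
    have h1j : (u j).adicValuation (1 + z ^ (m + 1)) = (u j).adicValuation (z ^ (m + 1)) := by
      apply (u j).adicValuation.map_add_eq_of_lt_right
      rw [map_one]
      exact hj1
    rw [map_inv₀, h1j, map_pow]
    have h2 := s27adex_le_pow_of_one_lt (hzj j hj) (m + 1)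
    have h3 : ((u j).adicValuation z ^ (m + 1))⁻¹ ≤ (exp ((m + 1 : ℕ) : ℤ))⁻¹ :=
      inv_anti₀ (by simp) h2
    refine h3.trans ?_
    rw [← WithZero.exp_neg, WithZero.exp_le_exp]
    push_cast
    omega

/-- bound for the valuation of finitely many elements at finitely many places -/
theorem s27adex_exists_bound {ι : Type*} [Finite ι] (u : ι → Place K F) (y : ι → F) :
    ∃ B : ℕ, ∀ i j, (u i).adicValuation (y j) ≤ exp (B : ℤ) := by
  classical
  have := Fintype.ofFinite ι
  refine ⟨∑ i, ∑ j, (log ((u i).adicValuation (y j))).natAbs, fun i j => ?_⟩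
  rcases eq_or_ne ((u i).adicValuation (y j)) 0 with h | h
  · rw [h]; exact zero_le
  · rw [← WithZero.exp_log h, WithZero.exp_le_exp]
    have h1 : (log ((u i).adicValuation (y j))).natAbs ≤
        ∑ j', (log ((u i).adicValuation (y j'))).natAbs :=
      Finset.single_le_sum (f := fun j' => (log ((u i).adicValuation (y j'))).natAbs)
        (fun _ _ => Nat.zero_le _) (Finset.mem_univ j)
    have h2 : (∑ j', (log ((u i).adicValuation (y j'))).natAbs) ≤
        ∑ i', ∑ j', (log ((u i').adicValuation (y j'))).natAbs :=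
      Finset.single_le_sum (f := fun i' => ∑ j', (log ((u i').adicValuation (y j'))).natAbs)
        (fun _ _ => Nat.zero_le _) (Finset.mem_univ i)
    have h3 := Int.le_natAbs (a := log ((u i).adicValuation (y j)))
    have h4 : ((log ((u i).adicValuation (y j))).natAbs : ℤ) ≤
        ((∑ i', ∑ j', (log ((u i').adicValuation (y j'))).natAbs : ℕ) : ℤ) := by
      exact_mod_cast h1.trans h2
    omega

/-- **Weak approximation** for finitely many distinct places: targets `y i`, precision `N`. -/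
theorem s27adex_approx {ι : Type*} [Finite ι] (u : ι → Place K F)
    (hu : Function.Injective u) (y : ι → F) (N : ℕ) :
    ∃ x : F, ∀ i, (u i).adicValuation (x - y i) ≤ exp (-(N : ℤ)) := by
  classical
  have := Fintype.ofFinite ι
  obtain ⟨B, hB⟩ := s27adex_exists_bound u y
  choose e he1 he0 using fun i => s27adex_exists_idem u hu i (N + B)
  refine ⟨∑ j, e j * y j, fun i => ?_⟩
  have hsplit : ∑ j, e j * y j - y i = ∑ j, (if j = i then (e j - 1) * y j else e j * y j) := by
    rw [← Finset.sum_erase_add _ _ (Finset.mem_univ i),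
      ← Finset.sum_erase_add (s := Finset.univ) (f := fun j => if j = i then (e j - 1) * y j
        else e j * y j) (a := i) (Finset.mem_univ i)]
    simp only [if_true]
    rw [Finset.sum_congr rfl (fun j hj => by
      rw [if_neg (Finset.ne_of_mem_erase hj)] :
        ∀ j ∈ Finset.univ.erase i, (if j = i then (e j - 1) * y j else e j * y j) = e j * y j)]
    ring
  rw [hsplit]
  apply (u i).adicValuation.map_sum_le
  intro j _
  have hmul : exp (-((N + B : ℕ) : ℤ)) * exp (B : ℤ) = exp (-(N : ℤ)) := by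
    rw [← WithZero.exp_add]
    congr 1
    push_cast
    ring
  split_ifs with hji
  · subst hji
    rw [map_mul, ← hmul]
    exact mul_le_mul' (he1 j) (hB j j)
  · rw [map_mul, ← hmul]
    exact mul_le_mul' (he0 j i (Ne.symm hji)) (hB i j)

end Fermat.Agent.S27

end
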