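/-
S27-B, leaf AD-EX (helper6): ADAPTED PAIRS `(t, a)` exist (NOTES/S27-geom.md §2).

`(𝔏, W)`: a field `𝔏 ⊇ K` with a valuation subring `W ⊇ K`; points `R i : F →ₐ[K] 𝔏` (finitely many);
reduction of `R i` along `W` = the valuation subring `W.comap (R i)` of `F` (all of `F`: "generic",
or a place `Q`).  `s27adex_exists` produces `t a : F` with
* `R i t ∈ W` for all `i`, `t ∉ K`;
* at every centre `Q`: `ord_Q (t - c) = 1` for some `c ∈ K`, and `ord_Q a = n Q` (prescribed);
* `t` separates every pair of points that can be separated at all: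
  `R i f - R j f` a unit of `W` for some `f` (regular at both) ⇒ `R i t - R j t` is a unit of `W`.
-/
import Mathlib
import Fermat.Agent.S27.AdExWA

set_option autoImplicit false

noncomputable section

namespace Fermat.Agent.S27

open AlgebraicCurve IsDedekindDomain WithZero
open Fermat.Agent.S24.PlaceAux

variable {K F : Type*} [Field K] [Field F] [Algebra K F]

theorem s27adex_ord_eq_of_val (v : Place K F) {x : F} {k : ℤ}
    (h : v.adicValuation x = exp (-k)) : x ≠ 0 ∧ v.ord x = k := by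
  have hx : x ≠ 0 := by
    rintro rfl
    rw [map_zero] at h
    exact WithZero.exp_ne_zero h.symm
  refine ⟨hx, ?_⟩
  rw [adicValuation_eq_exp_neg_ord v hx] at h
  have := WithZero.exp_injective h
  omega

/-- a local parameter with prescribed constant terms at finitely many places, stable under
perturbations vanishing to order `≥ 2`. -/
theorem s27adex_exists_t {ι : Type*} [Finite ι] (u : ι → Place K F)
    (hu : Function.Injective u) (c : ι → K) :
    ∃ t₀ : F, ∀ m : F, (∀ i, (u i).adicValuation m ≤ exp (-2)) →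
      ∀ i, (u i).adicValuation (t₀ + m - algebraMap K F (c i)) = exp (-1) := by
  choose π hπ0 hπ using fun i => s27adex_exists_unif (u i)
  obtain ⟨x, hx⟩ := s27adex_approx u hu (fun i => algebraMap K F (c i) + π i) 2
  refine ⟨x, fun m hm i => ?_⟩
  have hπv : (u i).adicValuation (π i) = exp (-1) := by
    rw [adicValuation_eq_exp_neg_ord (u i) (hπ0 i), hπ i]
  have hsmall : (u i).adicValuation ((x - (algebraMap K F (c i) + π i)) + m) ≤ exp (-2) :=
    ((u i).adicValuation.map_add _ _).trans (max_le (by simpa using hx i) (hm i))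
  have hlt : (u i).adicValuation ((x - (algebraMap K F (c i) + π i)) + m)
      < (u i).adicValuation (π i) := by
    rw [hπv]
    refine lt_of_le_of_lt hsmall ?_
    rw [WithZero.exp_lt_exp]
    omega
  have he : x + m - algebraMap K F (c i) = π i + ((x - (algebraMap K F (c i) + π i)) + m) := by
    ring
  rw [he, (u i).adicValuation.map_add_eq_of_lt_left hlt, hπv]

/-- a function with prescribed orders at finitely many places -/
theorem s27adex_exists_a {ι : Type*} [Finite ι] (u : ι → Place K F)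
    (hu : Function.Injective u) (n : ι → ℤ) :
    ∃ a : F, a ≠ 0 ∧ ∀ i, (u i).ord a = n i := by
  classical
  have := Fintype.ofFinite ι
  rcases isEmpty_or_nonempty ι with hι | ⟨⟨i₀⟩⟩
  · exact ⟨1, one_ne_zero, fun i => (hι.false i).elim⟩
  choose π hπ0 hπ using fun i => s27adex_exists_unif (u i)
  obtain ⟨x, hx⟩ := s27adex_approx u hu (fun i => π i ^ (n i)) (∑ i, (n i).natAbs + 1)
  have key : ∀ i, (u i).adicValuation x = exp (-(n i)) := by
    intro i
    have hyv : (u i).adicValuation (π i ^ (n i)) = exp (-(n i)) := by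
      rw [adicValuation_eq_exp_neg_ord (u i) (zpow_ne_zero _ (hπ0 i)), (u i).ord_zpow, hπ i,
        mul_one]
    have hle : (n i).natAbs ≤ ∑ j, (n j).natAbs :=
      Finset.single_le_sum (f := fun j => (n j).natAbs) (fun _ _ => Nat.zero_le _)
        (Finset.mem_univ i)
    have hlt : (u i).adicValuation (x - π i ^ (n i)) < (u i).adicValuation (π i ^ (n i)) := by
      rw [hyv]
      refine lt_of_le_of_lt (hx i) ?_
      rw [WithZero.exp_lt_exp]
      have h3 := Int.le_natAbs (a := n i)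
      have h4 : ((n i).natAbs : ℤ) ≤ ((∑ j, (n j).natAbs : ℕ) : ℤ) := Int.ofNat_le.mpr hle
      rw [Nat.cast_add, Nat.cast_one]
      omega
    have he : x = π i ^ (n i) + (x - π i ^ (n i)) := by ring
    rw [he, (u i).adicValuation.map_add_eq_of_lt_left hlt, hyv]
  have hx0 : x ≠ 0 := (s27adex_ord_eq_of_val (u i₀) (key i₀)).1
  exact ⟨x, hx0, fun i => (s27adex_ord_eq_of_val (u i) (key i)).2⟩

/-! ### avoiding finitely many proper subfields inside an affine subspace -/

/-- `K` infinite, `M ⊆ F` a `K`-subspace with `Frac M = F`, `E p` finitely many proper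
"subfields" (subspaces closed under products and inverses): some `t₀ + m`, `m ∈ M`, avoids
all of them. -/
theorem s27adex_avoid [Infinite K] {κ : Type*} [Finite κ] (M : Submodule K F)
    (E : κ → Submodule K F)
    (hEmul : ∀ p, ∀ x ∈ E p, ∀ y ∈ E p, x * y ∈ E p)
    (hEinv : ∀ p, ∀ x ∈ E p, x⁻¹ ∈ E p)
    (hEne : ∀ p, E p ≠ ⊤)
    (hfrac : ∀ f : F, ∃ h ∈ M, h ≠ 0 ∧ f * h ∈ M) (t₀ : F) :
    ∃ m ∈ M, ∀ p, t₀ + m ∉ E p := by
  classical
  by_contra hcon
  simp only [not_exists, not_and, not_forall, not_not] at hcon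
  -- (★) `M` is contained in no `E p`
  have hstar : ∀ p, ¬ M ≤ E p := by
    intro p hM
    apply hEne p
    rw [eq_top_iff]
    intro f _
    obtain ⟨h, hhM, hh0, hfh⟩ := hfrac f
    have : f = (f * h) * h⁻¹ := by field_simp
    rw [this]
    exact hEmul p _ (hM hfh) _ (hEinv p _ (hM hhM))
  -- the covering of `N = M + K t₀`
  let N : Submodule K F := M ⊔ Submodule.span K {t₀}
  let q : Option κ → Submodule K N := fun o =>
    match o with
    | none => M.comap N.subtype
    | some p => (E p).comap N.subtype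
  have hcov : ⋃ o, (q o : Set N) = Set.univ := by
    rw [Set.eq_univ_iff_forall]
    rintro ⟨x, hx⟩
    obtain ⟨m, hm, y, hy, rfl⟩ := Submodule.mem_sup.mp hx
    obtain ⟨l, rfl⟩ := Submodule.mem_span_singleton.mp hy
    rw [Set.mem_iUnion]
    rcases eq_or_ne l 0 with rfl | hl
    · refine ⟨none, ?_⟩
      show (m + (0 : K) • t₀) ∈ M
      simpa using hm
    · obtain ⟨p, hp⟩ := hcon (l⁻¹ • m) (M.smul_mem _ hm)
      refine ⟨some p, ?_⟩
      show (m + l • t₀) ∈ E p
      have : m + l • t₀ = l • (t₀ + l⁻¹ • m) := by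
        rw [smul_add, smul_smul, mul_inv_cancel₀ hl, one_smul, add_comm]
      rw [this]
      exact (E p).smul_mem _ hp
  obtain ⟨o, ho⟩ := Subspace.exists_eq_top_of_iUnion_eq_univ hcov
  have hMN : M ≤ N := le_sup_left
  cases o with
  | some p =>
    apply hstar p
    intro m hm
    have : (⟨m, hMN hm⟩ : N) ∈ q (some p) := by rw [ho]; trivial
    exact this
  | none =>
    have ht₀ : t₀ ∈ M := by
      have h1 : t₀ ∈ N := Submodule.mem_sup_right (Submodule.mem_span_singleton_self t₀)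
      have : (⟨t₀, h1⟩ : N) ∈ q none := by rw [ho]; trivial
      exact this
    -- now `M` itself is covered by the `E p`
    have hne : Nonempty κ := by
      obtain ⟨p, _⟩ := hcon 0 M.zero_mem
      exact ⟨p⟩
    let q' : κ → Submodule K M := fun p => (E p).comap M.subtype
    have hcov' : ⋃ p, (q' p : Set M) = Set.univ := by
      rw [Set.eq_univ_iff_forall]
      rintro ⟨m, hm⟩
      rw [Set.mem_iUnion]
      obtain ⟨p, hp⟩ := hcon (m - t₀) (M.sub_mem hm ht₀)
      refine ⟨p, ?_⟩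
      show m ∈ E p
      simpa using hp
    obtain ⟨p, hp⟩ := Subspace.exists_eq_top_of_iUnion_eq_univ hcov'
    apply hstar p
    intro m hm
    have : (⟨m, hm⟩ : M) ∈ q' p := by rw [hp]; trivial
    exact this

/-! ### valuation subrings of the big field -/

section Big

variable {𝔏 : Type*} [Field 𝔏] [Algebra K 𝔏]

theorem s27adex_comap_nonunits (W : ValuationSubring 𝔏) (R : F →ₐ[K] 𝔏) (x : F) :
    x ∈ (W.comap (R : F →+* 𝔏)).nonunits ↔ R x ∈ W.nonunits := by
  rw [ValuationSubring.mem_nonunits_iff_or, ValuationSubring.mem_nonunits_iff_or,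
    ValuationSubring.mem_comap]
  have h0 : R x = 0 ↔ x = 0 := map_eq_zero_iff R R.toRingHom.injective
  have hinv : (R : F →+* 𝔏) x⁻¹ = (R x)⁻¹ := map_inv₀ R x
  rw [hinv, h0]

theorem s27adex_mul_mem_nonunits (W : ValuationSubring 𝔏) {x y : 𝔏} (hx : x ∈ W)
    (hy : y ∈ W.nonunits) : x * y ∈ W.nonunits := by
  rw [ValuationSubring.mem_nonunits_iff] at hy ⊢
  rw [map_mul]
  have hx' : W.valuation x ≤ 1 := (W.valuation_le_one_iff x).mpr hx
  calc W.valuation x * W.valuation y ≤ 1 * W.valuation y := mul_le_mul_left hx' _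
    _ = W.valuation y := one_mul _
    _ < 1 := hy

theorem s27adex_unit_of_inv_mem (W : ValuationSubring 𝔏) {x : 𝔏} (hx : x ≠ 0)
    (hinv : x⁻¹ ∈ W) : x ∉ W.nonunits := by
  rw [ValuationSubring.mem_nonunits_iff_or]
  push Not
  exact ⟨hx, hinv⟩

/-- the subspace of the functions on which two points have the same reduction -/
def s27adexEq (W : ValuationSubring 𝔏) (hW : ∀ c : K, algebraMap K 𝔏 c ∈ W)
    (R₁ R₂ : F →ₐ[K] 𝔏) : Submodule K F where
  carrier := {f | R₁ f - R₂ f ∈ W.nonunits}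
  zero_mem' := by
    show R₁ 0 - R₂ 0 ∈ W.nonunits
    simp only [map_zero, sub_zero]
    exact W.nonunits.zero_mem
  add_mem' := by
    intro f g hf hg
    show R₁ (f + g) - R₂ (f + g) ∈ W.nonunits
    have : R₁ (f + g) - R₂ (f + g) = (R₁ f - R₂ f) + (R₁ g - R₂ g) := by
      rw [map_add, map_add]; ring
    rw [this]
    exact W.nonunits.add_mem hf hg
  smul_mem' := by
    intro c f hf
    show R₁ (c • f) - R₂ (c • f) ∈ W.nonunits
    have : R₁ (c • f) - R₂ (c • f) = algebraMap K 𝔏 c * (R₁ f - R₂ f) := by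
      rw [map_smul, map_smul, Algebra.smul_def, Algebra.smul_def]; ring
    rw [this]
    exact s27adex_mul_mem_nonunits W (hW c) hf

theorem s27adex_mem_eq (W : ValuationSubring 𝔏) (hW : ∀ c : K, algebraMap K 𝔏 c ∈ W)
    (R₁ R₂ : F →ₐ[K] 𝔏) (f : F) :
    f ∈ s27adexEq W hW R₁ R₂ ↔ R₁ f - R₂ f ∈ W.nonunits := Iff.rfl

theorem s27adex_eq_mul (W : ValuationSubring 𝔏) (hW : ∀ c : K, algebraMap K 𝔏 c ∈ W)
    (R₁ R₂ : F →ₐ[K] 𝔏) (h₁ : ∀ f, R₁ f ∈ W) (h₂ : ∀ f, R₂ f ∈ W) :
    ∀ x ∈ s27adexEq W hW R₁ R₂, ∀ y ∈ s27adexEq W hW R₁ R₂, x * y ∈ s27adexEq W hW R₁ R₂ := by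
  intro x hx y hy
  rw [s27adex_mem_eq] at hx hy ⊢
  have : R₁ (x * y) - R₂ (x * y) = R₁ x * (R₁ y - R₂ y) + R₂ y * (R₁ x - R₂ x) := by
    rw [map_mul, map_mul]; ring
  rw [this]
  exact W.nonunits.add_mem (s27adex_mul_mem_nonunits W (h₁ x) hy)
    (s27adex_mul_mem_nonunits W (h₂ y) hx)

theorem s27adex_eq_inv (W : ValuationSubring 𝔏) (hW : ∀ c : K, algebraMap K 𝔏 c ∈ W)
    (R₁ R₂ : F →ₐ[K] 𝔏) (h₁ : ∀ f, R₁ f ∈ W) (h₂ : ∀ f, R₂ f ∈ W) :
    ∀ x ∈ s27adexEq W hW R₁ R₂, x⁻¹ ∈ s27adexEq W hW R₁ R₂ := by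
  intro x hx
  rcases eq_or_ne x 0 with rfl | hx0
  · simp
  rw [s27adex_mem_eq] at hx ⊢
  have h1 : R₁ x ≠ 0 := (map_ne_zero R₁).mpr hx0
  have h2 : R₂ x ≠ 0 := (map_ne_zero R₂).mpr hx0
  have : R₁ x⁻¹ - R₂ x⁻¹ = (R₁ x⁻¹ * R₂ x⁻¹) * (-(R₁ x - R₂ x)) := by
    rw [map_inv₀, map_inv₀]
    field_simp
    ring
  rw [this]
  exact s27adex_mul_mem_nonunits W (W.mul_mem _ _ (h₁ _) (h₂ _)) (W.nonunits.neg_mem hx)

/-- at a centre `Q`, functions of positive order go to nonunits -/
theorem s27adex_centre_nonunit (W : ValuationSubring 𝔏) (R : F →ₐ[K] 𝔏) (Q : Place K F)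
    (hQ : W.comap (R : F →+* 𝔏) = Q.toValuationSubring) {x : F} (hx : 0 < Q.ord x) :
    R x ∈ W.nonunits := by
  have hx0 : x ≠ 0 := by
    rintro rfl
    rw [Place.ord_zero] at hx
    exact lt_irrefl _ hx
  rw [← s27adex_comap_nonunits, hQ]
  exact (ord_pos_iff_mem_nonunits Q hx0).mp hx

theorem s27adex_centre_mem (W : ValuationSubring 𝔏) (R : F →ₐ[K] 𝔏) (Q : Place K F)
    (hQ : W.comap (R : F →+* 𝔏) = Q.toValuationSubring) (x : F) :
    R x ∈ W ↔ x ∈ Q.toValuationSubring := by
  rw [← hQ, ValuationSubring.mem_comap]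
  rfl

/-- at a generic reduction, nonzero functions go to units -/
theorem s27adex_generic_unit (W : ValuationSubring 𝔏) (R : F →ₐ[K] 𝔏)
    (h : ∀ f, R f ∈ W) {x : F} (hx : x ≠ 0) : R x ∉ W.nonunits := by
  apply s27adex_unit_of_inv_mem W ((map_ne_zero R).mpr hx)
  rw [← map_inv₀]
  exact h _

/-- the subspace of the functions vanishing to order `≥ 2` at finitely many places -/
def s27adexM {σ : Type*} (u : σ → Place K F) : Submodule K F where
  carrier := {m | ∀ s, (u s).adicValuation m ≤ exp (-2)}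
  zero_mem' := fun s => by simp
  add_mem' := fun {x y} hx hy s =>
    ((u s).adicValuation.map_add x y).trans (max_le (hx s) (hy s))
  smul_mem' := fun c x hx s => by
    show (u s).adicValuation (c • x) ≤ exp (-2)
    rw [Algebra.smul_def, map_mul]
    have hc : (u s).adicValuation (algebraMap K F c) ≤ 1 :=
      (mem_iff_adicValuation_le_one (u s) _).mp ((u s).algebraMap_mem' c)
    calc (u s).adicValuation (algebraMap K F c) * (u s).adicValuation x
        ≤ 1 * (u s).adicValuation x := mul_le_mul_left hc _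
      _ = (u s).adicValuation x := one_mul _
      _ ≤ exp (-2) := hx s

theorem s27adex_M_frac {σ : Type*} [Finite σ] (u : σ → Place K F)
    (hu : Function.Injective u) (f : F) :
    ∃ h ∈ s27adexM u, h ≠ 0 ∧ f * h ∈ s27adexM u := by
  obtain ⟨h, hh0, hh⟩ := s27adex_exists_a u hu (fun s => 2 + ((u s).ord f).natAbs)
  have hhM : h ∈ s27adexM u := by
    intro s
    rw [adicValuation_eq_exp_neg_ord (u s) hh0, hh s, WithZero.exp_le_exp]
    omega
  refine ⟨h, hhM, hh0, ?_⟩
  rcases eq_or_ne f 0 with rfl | hf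
  · rw [zero_mul]; exact (s27adexM u).zero_mem
  · intro s
    rw [adicValuation_eq_exp_neg_ord (u s) (mul_ne_zero hf hh0), (u s).ord_mul hf hh0, hh s,
      WithZero.exp_le_exp]
    have h1 := Int.le_natAbs (a := -((u s).ord f))
    rw [Int.natAbs_neg] at h1
    omega

/-- **AD-EX**: adapted pairs exist. -/
theorem s27adex_exists [Infinite K] {ι : Type*} [Finite ι] (W : ValuationSubring 𝔏)
    (hW : ∀ c : K, algebraMap K 𝔏 c ∈ W) (R : ι → F →ₐ[K] 𝔏)
    (hres : ∀ Q : Place K F, ∀ f ∈ Q.toValuationSubring,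
      ∃ c : K, f - algebraMap K F c ∈ Q.toValuationSubring.nonunits)
    (hred : ∀ i, (∀ f : F, R i f ∈ W) ∨
      ∃ Q : Place K F, W.comap (R i : F →+* 𝔏) = Q.toValuationSubring)
    (hF : ∃ f : F, ∀ c : K, f ≠ algebraMap K F c)
    (n : Place K F → ℤ) :
    ∃ t a : F, a ≠ 0 ∧ (∀ c : K, t ≠ algebraMap K F c) ∧ (∀ i, R i t ∈ W) ∧
      (∀ i (Q : Place K F), W.comap (R i : F →+* 𝔏) = Q.toValuationSubring →
        (∃ c : K, Q.ord (t - algebraMap K F c) = 1) ∧ Q.ord a = n Q) ∧
      (∀ i j, (∃ f : F, R i f ∈ W ∧ R j f ∈ W ∧ R i f - R j f ∉ W.nonunits) →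
        R i t - R j t ∉ W.nonunits) := by
  classical
  -- the centres
  let C : Set (Place K F) := {Q | ∃ i, W.comap (R i : F →+* 𝔏) = Q.toValuationSubring}
  have hCfin : C.Finite := by
    have hC : C = ⋃ i, {Q : Place K F | W.comap (R i : F →+* 𝔏) = Q.toValuationSubring} := by
      ext Q
      simp [C]
    rw [hC]
    exact Set.finite_iUnion fun i =>
      Set.Subsingleton.finite (fun Q hQ Q' hQ' => Place.ext (hQ.symm.trans hQ'))
  have : Finite C := hCfin.to_subtype
  let u : C → Place K F := Subtype.val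
  have hu : Function.Injective u := Subtype.val_injective
  obtain ⟨c⟩ : Nonempty (C ↪ K) :=
    ⟨(Finite.equivFin C).toEmbedding.trans (Fin.valEmbedding.trans (Infinite.natEmbedding K))⟩
  obtain ⟨t₀, ht₀⟩ := s27adex_exists_t u hu c
  obtain ⟨a, ha0, ha⟩ := s27adex_exists_a u hu (fun s => n s.1)
  -- the bad subspaces
  let P : Type _ := {p : ι × ι // (∀ f, R p.1 f ∈ W) ∧ (∀ f, R p.2 f ∈ W) ∧
    ∃ f, R p.1 f - R p.2 f ∉ W.nonunits}
  let E : Option P → Submodule K F := fun o =>
    match o with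
    | none => Subalgebra.toSubmodule (⊥ : Subalgebra K F)
    | some p => s27adexEq W hW (R p.1.1) (R p.1.2)
  have hEmul : ∀ o, ∀ x ∈ E o, ∀ y ∈ E o, x * y ∈ E o := by
    intro o
    cases o with
    | none => intro x hx y hy; exact (⊥ : Subalgebra K F).mul_mem hx hy
    | some p => exact s27adex_eq_mul W hW _ _ p.2.1 p.2.2.1
  have hEinv : ∀ o, ∀ x ∈ E o, x⁻¹ ∈ E o := by
    intro o
    cases o with
    | none =>
      intro x hx
      obtain ⟨k, rfl⟩ := Algebra.mem_bot.mp hx
      exact Algebra.mem_bot.mpr ⟨k⁻¹, map_inv₀ _ k⟩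
    | some p => exact s27adex_eq_inv W hW _ _ p.2.1 p.2.2.1
  have hEne : ∀ o, E o ≠ ⊤ := by
    intro o
    cases o with
    | none =>
      intro h
      obtain ⟨f, hf⟩ := hF
      have : f ∈ Subalgebra.toSubmodule (⊥ : Subalgebra K F) := by
        have h' : E none = ⊤ := h
        show f ∈ E none
        rw [h']; trivial
      obtain ⟨k, hk⟩ := Algebra.mem_bot.mp this
      exact hf k hk.symm
    | some p =>
      intro h
      obtain ⟨f, hf⟩ := p.2.2.2
      apply hf
      have : f ∈ E (some p) := by rw [h]; trivial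
      exact this
  obtain ⟨m, hm, hmE⟩ := s27adex_avoid (s27adexM u) E hEmul hEinv hEne
    (s27adex_M_frac u hu) t₀
  have hkey : ∀ s : C, (t₀ + m - algebraMap K F (c s)) ≠ 0 ∧
      (u s).ord (t₀ + m - algebraMap K F (c s)) = 1 := fun s =>
    s27adex_ord_eq_of_val (u s) (by simpa using ht₀ m hm s)
  -- regularity at the centres
  have hreg : ∀ i (Q : Place K F) (hQ : W.comap (R i : F →+* 𝔏) = Q.toValuationSubring),
      R i (t₀ + m) ∈ W := by
    intro i Q hQ
    rw [s27adex_centre_mem W (R i) Q hQ]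
    have h1 := (hkey ⟨Q, i, hQ⟩).2
    have h2 : t₀ + m - algebraMap K F (c ⟨Q, i, hQ⟩) ∈ Q.toValuationSubring :=
      mem_of_ord_nonneg Q (by rw [h1]; norm_num)
    have h3 := Q.toValuationSubring.add_mem _ _ h2 (Q.algebraMap_mem' (c ⟨Q, i, hQ⟩))
    simpa using h3
  have hnon : ∀ i (Q : Place K F) (hQ : W.comap (R i : F →+* 𝔏) = Q.toValuationSubring),
      R i (t₀ + m - algebraMap K F (c ⟨Q, i, hQ⟩)) ∈ W.nonunits := by
    intro i Q hQ
    apply s27adex_centre_nonunit W (R i) Q hQ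
    rw [(hkey ⟨Q, i, hQ⟩).2]
    norm_num
  have hconst : ∀ (i j : ι) (k : K), R i (algebraMap K F k) = R j (algebraMap K F k) := by
    intro i j k
    rw [AlgHom.commutes, AlgHom.commutes]
  refine ⟨t₀ + m, a, ha0, ?_, ?_, ?_, ?_⟩
  · intro k hk
    apply hmE none
    exact Algebra.mem_bot.mpr ⟨k, hk.symm⟩
  · intro i
    rcases hred i with hg | ⟨Q, hQ⟩
    · exact hg _
    · exact hreg i Q hQ
  · intro i Q hQ
    exact ⟨⟨c ⟨Q, i, hQ⟩, (hkey ⟨Q, i, hQ⟩).2⟩, ha ⟨Q, i, hQ⟩⟩
  · rintro i j ⟨f, hfi, hfj, hf⟩ hD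
    rcases hred i with hgi | ⟨Qi, hQi⟩ <;> rcases hred j with hgj | ⟨Qj, hQj⟩
    · -- both generic
      exact hmE (some ⟨(i, j), hgi, hgj, f, hf⟩) hD
    · -- `i` generic, `j` at `Qj`
      have h1 := hnon j Qj hQj
      have h2 := s27adex_generic_unit W (R i) hgi (hkey ⟨Qj, j, hQj⟩).1
      apply h2
      have : R i (t₀ + m - algebraMap K F (c ⟨Qj, j, hQj⟩)) =
          (R i (t₀ + m) - R j (t₀ + m)) + R j (t₀ + m - algebraMap K F (c ⟨Qj, j, hQj⟩)) := by
        rw [map_sub, map_sub, hconst i j]; ring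
      rw [this]
      exact W.nonunits.add_mem hD h1
    · -- `i` at `Qi`, `j` generic
      have h1 := hnon i Qi hQi
      have h2 := s27adex_generic_unit W (R j) hgj (hkey ⟨Qi, i, hQi⟩).1
      apply h2
      have : R j (t₀ + m - algebraMap K F (c ⟨Qi, i, hQi⟩)) =
          R i (t₀ + m - algebraMap K F (c ⟨Qi, i, hQi⟩)) - (R i (t₀ + m) - R j (t₀ + m)) := by
        rw [map_sub, map_sub, hconst i j]; ring
      rw [this]
      exact W.nonunits.sub_mem h1 hD
    · -- both at centres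
      by_cases hQQ : Qi = Qj
      · subst hQQ
        apply hf
        have hfQ : f ∈ Qi.toValuationSubring := (s27adex_centre_mem W (R i) Qi hQi f).mp hfi
        obtain ⟨k, hk⟩ := hres Qi f hfQ
        have h1 : R i (f - algebraMap K F k) ∈ W.nonunits := by
          rw [← s27adex_comap_nonunits, hQi]; exact hk
        have h2 : R j (f - algebraMap K F k) ∈ W.nonunits := by
          rw [← s27adex_comap_nonunits, hQj]; exact hk
        have : R i f - R j f = R i (f - algebraMap K F k) - R j (f - algebraMap K F k) := by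
          rw [map_sub, map_sub, hconst i j]; ring
        rw [this]
        exact W.nonunits.sub_mem h1 h2
      · have hne : c ⟨Qi, i, hQi⟩ ≠ c ⟨Qj, j, hQj⟩ := by
          intro h
          apply hQQ
          have := c.injective h
          exact congrArg Subtype.val this
        have h1 := hnon i Qi hQi
        have h2 := hnon j Qj hQj
        have hk0 : algebraMap K 𝔏 (c ⟨Qi, i, hQi⟩ - c ⟨Qj, j, hQj⟩) ≠ 0 := by
          rw [Ne, map_eq_zero_iff _ (algebraMap K 𝔏).injective]
          exact sub_ne_zero.mpr hne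
        have hunit : algebraMap K 𝔏 (c ⟨Qi, i, hQi⟩ - c ⟨Qj, j, hQj⟩) ∉ W.nonunits := by
          apply s27adex_unit_of_inv_mem W hk0
          rw [← map_inv₀]
          exact hW _
        apply hunit
        have : algebraMap K 𝔏 (c ⟨Qi, i, hQi⟩ - c ⟨Qj, j, hQj⟩) =
            (R i (t₀ + m) - R j (t₀ + m)) - R i (t₀ + m - algebraMap K F (c ⟨Qi, i, hQi⟩))
              + R j (t₀ + m - algebraMap K F (c ⟨Qj, j, hQj⟩)) := by
          rw [map_sub, map_sub, map_sub, AlgHom.commutes, AlgHom.commutes]; ring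
        rw [this]
        exact W.nonunits.add_mem (W.nonunits.sub_mem hD h1) h2

end Big

end Fermat.Agent.S27

end
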