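/-
S27-B, leaf AD-EX part 3 (helper6): the PREDICATE "adapted" and its existence / naturality / use.

`S27IsAdapted W R n t a` : `(t, a)` is an adapted pair for `(W, R, A′)` with `n Q = −A′(Q)`
(NOTES/S27-geom.md §2), phrased ONLY through memberships in `W`, non-units of `W` and the valuation
subrings `W.comap (R i)` of `F` (no data depending on the big field):
* `a ≠ 0`, `t ∉ K`, `R i t ∈ W` for all `i`;
* at every centre `Q` (`W.comap (R i) = 𝒪_Q`): `ord_Q (t − c) = 1` for some `c ∈ K`, `ord_Q a = n Q`;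
* `R i t − R j t ∈ Wˣ` as soon as SOME `f ∈ F`, regular at both, has `R i f − R j f ∈ Wˣ`.

* `s27adex_exists_adapted`  : existence from `hres`, `hred` (abstract form of `s27adex_exists`);
* `s27adex_exists_curve`    : existence for a curve `F / K`, `K` algebraically closed
                              (`x` transcendental, `F / K(x)` finite): no further hypothesis;
* `s27adex_exists_isCurveOver` : the same from `[IsCurveOver K F] [Algebra.EssFiniteType K F]`;
* `s27adex_adapted_comap`   : NAT, adapted for `(W′.comap σ, R)` ↔ adapted for `(W′, σ ∘ R)`;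
* `s27adex_adapted_centres` : distinct centres are separated by `t`: `R i t − R j t ∈ Wˣ`;
* `s27adex_adapted_unit_at_centre`, `s27adex_adapted_a_unit` … : what EFF / AD-WD use.
-/
import Mathlib
import Fermat.Agent.S27.AdEx
import Fermat.Agent.S27.TD
import Fermat.Agent.S26.ERComp
import Fermat.Agent.S24.Residue
import Fermat.Agent.S24.PrincipalDegree

set_option autoImplicit false
set_option linter.style.haveILetI false

noncomputable section

namespace Fermat.Agent.S27

open AlgebraicCurve IsDedekindDomain WithZero IntermediateField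
open Fermat.Agent.S24.PlaceAux

variable {K F : Type*} [Field K] [Field F] [Algebra K F]

section Pred

variable {𝔏 : Type*} [Field 𝔏] [Algebra K 𝔏]

/-- **ADAPTED pair** `(t, a)` for `(W, R, n)`. -/
def S27IsAdapted {ι : Type*} (W : ValuationSubring 𝔏) (R : ι → F →ₐ[K] 𝔏)
    (n : Place K F → ℤ) (t a : F) : Prop :=
  a ≠ 0 ∧ (∀ c : K, t ≠ algebraMap K F c) ∧ (∀ i, R i t ∈ W) ∧
    (∀ i (Q : Place K F), W.comap (R i : F →+* 𝔏) = Q.toValuationSubring →
      (∃ c : K, Q.ord (t - algebraMap K F c) = 1) ∧ Q.ord a = n Q) ∧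
    (∀ i j, (∃ f : F, R i f ∈ W ∧ R j f ∈ W ∧ R i f - R j f ∉ W.nonunits) →
      R i t - R j t ∉ W.nonunits)

/-- existence, abstract hypotheses. -/
theorem s27adex_exists_adapted [Infinite K] {ι : Type*} [Finite ι] (W : ValuationSubring 𝔏)
    (hW : ∀ c : K, algebraMap K 𝔏 c ∈ W) (R : ι → F →ₐ[K] 𝔏)
    (hres : ∀ Q : Place K F, ∀ f ∈ Q.toValuationSubring,
      ∃ c : K, f - algebraMap K F c ∈ Q.toValuationSubring.nonunits)
    (hred : ∀ i, (∀ f : F, R i f ∈ W) ∨
      ∃ Q : Place K F, W.comap (R i : F →+* 𝔏) = Q.toValuationSubring)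
    (hF : ∃ f : F, ∀ c : K, f ≠ algebraMap K F c)
    (n : Place K F → ℤ) : ∃ t a : F, S27IsAdapted W R n t a :=
  s27adex_exists W hW R hres hred hF n

/-- the reduction of a point is `F` or a place (curve case). -/
theorem s27adex_hred_curve (x : F) (hx : Transcendental K x) [FiniteDimensional K⟮x⟯ F]
    (W : ValuationSubring 𝔏) (hW : ∀ c : K, algebraMap K 𝔏 c ∈ W) (R : F →ₐ[K] 𝔏) :
    (∀ f : F, R f ∈ W) ∨ ∃ Q : Place K F, W.comap (R : F →+* 𝔏) = Q.toValuationSubring := by
  by_cases htop : W.comap (R : F →+* 𝔏) = ⊤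
  · left
    intro f
    have : f ∈ W.comap (R : F →+* 𝔏) := by rw [htop]; exact ValuationSubring.mem_top _
    exact this
  · right
    obtain ⟨Q, hQ⟩ := Fermat.Agent.S26.s26ercomp_exists_place
      (fun s hs => Fermat.Agent.S24.pd_finiteDimensional_adjoin_of_transcendental x hx s hs)
      (W.comap (R : F →+* 𝔏))
      (fun c => by
        change R (algebraMap K F c) ∈ W
        rw [AlgHom.commutes]
        exact hW c) htop
    exact ⟨Q, hQ.symm⟩

/-- existence on a curve over an algebraically closed field. -/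
theorem s27adex_exists_curve [IsAlgClosed K] (x : F) (hx : Transcendental K x)
    [FiniteDimensional K⟮x⟯ F] {ι : Type*} [Finite ι] (W : ValuationSubring 𝔏)
    (hW : ∀ c : K, algebraMap K 𝔏 c ∈ W) (R : ι → F →ₐ[K] 𝔏) (n : Place K F → ℤ) :
    ∃ t a : F, S27IsAdapted W R n t a := by
  have : Infinite K := IsAlgClosed.instInfinite
  have halg : Algebra.IsAlgebraic K⟮x⟯ F := Algebra.IsAlgebraic.of_finite _ _
  refine s27adex_exists_adapted W hW R
    (fun Q f hf => Fermat.Agent.S24.exists_sub_mem_nonunits x hx halg Q f hf)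
    (fun i => s27adex_hred_curve x hx W hW (R i)) ⟨x, fun c hc => ?_⟩ n
  exact hx (hc ▸ isAlgebraic_algebraMap c)

/-- existence, prelude hypotheses. -/
theorem s27adex_exists_isCurveOver [IsAlgClosed K] [CharZero K] [IsCurveOver K F]
    [Algebra.EssFiniteType K F] {ι : Type*} [Finite ι] (W : ValuationSubring 𝔏)
    (hW : ∀ c : K, algebraMap K 𝔏 c ∈ W) (R : ι → F →ₐ[K] 𝔏) (n : Place K F → ℤ) :
    ∃ t a : F, S27IsAdapted W R n t a := by
  obtain ⟨x, hx, hfin⟩ := s27td_exists_of_isCurveOver (K := K) (F := F)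
  haveI := hfin
  exact s27adex_exists_curve x hx W hW R n

end Pred

section Use

variable {𝔏 : Type*} [Field 𝔏] [Algebra K 𝔏] {ι : Type*} {W : ValuationSubring 𝔏}
  {R : ι → F →ₐ[K] 𝔏} {n : Place K F → ℤ} {t a : F}

theorem S27IsAdapted.a_ne (h : S27IsAdapted W R n t a) : a ≠ 0 := h.1

theorem S27IsAdapted.t_not_const (h : S27IsAdapted W R n t a) (c : K) :
    t ≠ algebraMap K F c := h.2.1 c

theorem S27IsAdapted.t_mem (h : S27IsAdapted W R n t a) (i : ι) : R i t ∈ W := h.2.2.1 i

theorem S27IsAdapted.exists_unif (h : S27IsAdapted W R n t a) {i : ι} {Q : Place K F}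
    (hQ : W.comap (R i : F →+* 𝔏) = Q.toValuationSubring) :
    ∃ c : K, Q.ord (t - algebraMap K F c) = 1 := (h.2.2.2.1 i Q hQ).1

theorem S27IsAdapted.ord_a (h : S27IsAdapted W R n t a) {i : ι} {Q : Place K F}
    (hQ : W.comap (R i : F →+* 𝔏) = Q.toValuationSubring) : Q.ord a = n Q :=
  (h.2.2.2.1 i Q hQ).2

theorem S27IsAdapted.sep (h : S27IsAdapted W R n t a) {i j : ι} (f : F) (hi : R i f ∈ W)
    (hj : R j f ∈ W) (hf : R i f - R j f ∉ W.nonunits) : R i t - R j t ∉ W.nonunits :=
  h.2.2.2.2 i j ⟨f, hi, hj, hf⟩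

/-- `R i t ≠ R j t` for separable pairs; in particular the Vandermonde factor is nonzero. -/
theorem S27IsAdapted.sub_ne_zero (h : S27IsAdapted W R n t a) {i j : ι} (f : F) (hi : R i f ∈ W)
    (hj : R j f ∈ W) (hf : R i f - R j f ∉ W.nonunits) : R i t - R j t ≠ 0 := by
  intro h0
  apply h.sep f hi hj hf
  rw [h0, ValuationSubring.mem_nonunits_iff, map_zero]
  exact zero_lt_one

/-- `R i a ≠ 0`. -/
theorem S27IsAdapted.map_a_ne (h : S27IsAdapted W R n t a) (i : ι) : R i a ≠ 0 :=
  (map_ne_zero (R i)).mpr h.a_ne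

/-- at a generic reduction (`R i f ∈ W` for all `f`) the pole factor `R i a` is a unit of `W`. -/
theorem S27IsAdapted.a_unit_of_generic (h : S27IsAdapted W R n t a) {i : ι}
    (hi : ∀ f, R i f ∈ W) : R i a ∉ W.nonunits :=
  s27adex_generic_unit W (R i) hi h.a_ne

/-- at a centre `Q` with `n Q = 0` the pole factor `R i a` is a unit of `W`. -/
theorem S27IsAdapted.a_unit_of_centre (h : S27IsAdapted W R n t a) {i : ι} {Q : Place K F}
    (hQ : W.comap (R i : F →+* 𝔏) = Q.toValuationSubring) (hn : n Q = 0) :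
    R i a ∉ W.nonunits := by
  have hord : Q.ord a = 0 := by rw [h.ord_a hQ, hn]
  rw [← s27adex_comap_nonunits, hQ]
  intro hmem
  have := (ord_pos_iff_mem_nonunits Q h.a_ne).mpr hmem
  omega

/-- two points with DISTINCT centres are separated by `t`. -/
theorem S27IsAdapted.centres (h : S27IsAdapted W R n t a) {i j : ι} {Q Q' : Place K F}
    (hQ : W.comap (R i : F →+* 𝔏) = Q.toValuationSubring)
    (hQ' : W.comap (R j : F →+* 𝔏) = Q'.toValuationSubring) (hne : Q ≠ Q') :
    R i t - R j t ∉ W.nonunits := by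
  classical
  -- `x` with `x ≡ 0` at `Q`, `x ≡ 1` at `Q'`
  let u : Bool → Place K F := fun b => if b then Q else Q'
  have hu : Function.Injective u := by
    intro b b' hbb
    cases b <;> cases b' <;> simp [u] at hbb ⊢
    · exact hne hbb.symm
    · exact hne hbb
  obtain ⟨x, hx⟩ := s27adex_approx u hu (fun b => if b then 0 else 1) 1
  have h1 : Q.adicValuation x ≤ exp (-((1 : ℕ) : ℤ)) := by simpa [u] using hx true
  have h2 : Q'.adicValuation (x - 1) ≤ exp (-((1 : ℕ) : ℤ)) := by simpa [u] using hx false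
  have hlt : (exp (-((1 : ℕ) : ℤ)) : ℤᵐ⁰) < 1 := by
    rw [← WithZero.exp_zero, WithZero.exp_lt_exp]
    norm_num
  have key : ∀ (P : Place K F) (y : F), P.adicValuation y ≤ exp (-((1 : ℕ) : ℤ)) →
      ∀ k, W.comap (R k : F →+* 𝔏) = P.toValuationSubring → R k y ∈ W.nonunits := by
    intro P y hy k hk
    rcases eq_or_ne y 0 with rfl | hy0
    · rw [map_zero, ValuationSubring.mem_nonunits_iff, map_zero]
      exact zero_lt_one
    · exact s27adex_centre_nonunit W (R k) P hk
        ((s27adex_val_lt_one_iff P hy0).mp (lt_of_le_of_lt hy hlt))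
  have hi : R i x ∈ W.nonunits := key Q x h1 i hQ
  have hj : R j (x - 1) ∈ W.nonunits := key Q' (x - 1) h2 j hQ'
  have hjW : R j x ∈ W := by
    have : R j x = R j (x - 1) + 1 := by rw [map_sub, map_one]; ring
    rw [this]
    exact W.add_mem _ _ (ValuationSubring.nonunits_subset hj) W.one_mem
  refine h.sep x (ValuationSubring.nonunits_subset hi) hjW fun hd => ?_
  rw [ValuationSubring.mem_nonunits_iff] at hi hj hd
  have h1' : W.valuation (1 : 𝔏) < 1 := by
    have e : (1 : 𝔏) = R i x - (R i x - R j x) - R j (x - 1) := by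
      rw [map_sub, map_one]; ring
    rw [e]
    exact Valuation.map_sub_lt _ (Valuation.map_sub_lt _ hi hd) hj
  rw [map_one] at h1'
  exact lt_irrefl _ h1'

end Use

section Nat

variable {𝔏 : Type*} [Field 𝔏] [Algebra K 𝔏] {𝔏' : Type*} [Field 𝔏'] [Algebra K 𝔏']
  {ι : Type*}

theorem s27adex_comap_comap (σ : 𝔏 →ₐ[K] 𝔏') (W' : ValuationSubring 𝔏') (R : F →ₐ[K] 𝔏) :
    (W'.comap (σ : 𝔏 →+* 𝔏')).comap (R : F →+* 𝔏)
      = W'.comap ((σ.comp R : F →ₐ[K] 𝔏') : F →+* 𝔏') := rfl

/-- **NAT for adaptedness**: `(t, a)` is adapted for `(W′ ∩ 𝔏, R)` iff it is for `(W′, σ ∘ R)`. -/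
theorem s27adex_adapted_comap (σ : 𝔏 →ₐ[K] 𝔏') (W' : ValuationSubring 𝔏')
    (R : ι → F →ₐ[K] 𝔏) (n : Place K F → ℤ) (t a : F) :
    S27IsAdapted (W'.comap (σ : 𝔏 →+* 𝔏')) R n t a ↔
      S27IsAdapted W' (fun i => σ.comp (R i)) n t a := by
  have hnu : ∀ x : 𝔏, x ∈ (W'.comap (σ : 𝔏 →+* 𝔏')).nonunits ↔ σ x ∈ W'.nonunits :=
    fun x => s27adex_comap_nonunits W' σ x
  unfold S27IsAdapted
  simp only [s27adex_comap_comap, hnu, ValuationSubring.mem_comap, map_sub, AlgHom.comp_apply,
    RingHom.coe_coe]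

end Nat

end Fermat.Agent.S27

end
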