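/-
S27 route B (item 27), piece EFF-INST, ADAPTER to the adapted pairs (helper50): the hypotheses
`hmem`, `hquot`, `hdist` of `s27eis_latBasis` (S27/EffInstSpan.lean) from `S27IsAdapted`
(helper6, S27/AdExPred.lean), stated through the valuation subrings `W.comap (R i)` only (no
choice of clusters).

* `s27eia_t_mem`   : `t` is regular at every closed centre;
* `s27eia_mem`     : `a · t^j ∈ 𝓕 = s27ptF W R A'`                                  (`hmem`);
* `s27eia_quot`    : `ψ ∈ 𝓕 ⇒ R i (ψ / a) ∈ W` for every `i`, i.e. `ψ / a` lies in every centre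
                     ring `W.comap (R i)`                                            (`hquot`);
* `s27eia_dist`    : distinct points are distinct on the centre ring of the second (`hdist`);
* `s27eia_cong_or_unit`, `s27eia_same_centre` : bookkeeping of the clusters.
-/
import Fermat.Agent.S27.AdExPred
import Fermat.Agent.S27.PtDef

set_option autoImplicit false
set_option linter.unusedSectionVars false

namespace Fermat.Agent.S27

open AlgebraicCurve WithZero
open Fermat.Agent.S24.PlaceAux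

variable {K F 𝔏 : Type*} [Field K] [Field F] [Field 𝔏] [Algebra K F] [Algebra K 𝔏]
  {N : ℕ} {W : ValuationSubring 𝔏} {R : Fin N → F →ₐ[K] 𝔏} {A' : Divisor K F} {t a : F}

/-- `t` is regular at every closed centre. -/
theorem s27eia_t_mem (h : S27IsAdapted W R (fun Q => -A' Q) t a) {i : Fin N} {Q : Place K F}
    (hQ : W.comap (R i : F →+* 𝔏) = Q.toValuationSubring) : t ∈ Q.toValuationSubring := by
  rw [← hQ]
  exact h.t_mem i

/-- the valuation of `a` at a closed centre. -/
theorem s27eia_val_a (h : S27IsAdapted W R (fun Q => -A' Q) t a) {i : Fin N} {Q : Place K F}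
    (hQ : W.comap (R i : F →+* 𝔏) = Q.toValuationSubring) :
    Q.adicValuation a = exp (A' Q) := by
  rw [adicValuation_eq_exp_neg_ord Q h.a_ne, h.ord_a hQ, neg_neg]

/-- **`hmem`**: `a · t^j ∈ 𝓕`. -/
theorem s27eia_mem (h : S27IsAdapted W R (fun Q => -A' Q) t a) (j : ℕ) :
    a * t ^ j ∈ s27ptF W R A' := by
  intro Q i hQ
  have hQ' : W.comap (R i : F →+* 𝔏) = Q.toValuationSubring := hQ
  have ht : Q.adicValuation t ≤ 1 :=
    (mem_iff_adicValuation_le_one Q t).mp (s27eia_t_mem h hQ')
  rw [map_mul, map_pow, s27eia_val_a h hQ']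
  calc exp (A' Q) * Q.adicValuation t ^ j ≤ exp (A' Q) * 1 :=
        mul_le_mul_right (pow_le_one' ht j) _
    _ = exp (A' Q) := mul_one _

/-- `ψ / a` is regular at every closed centre, for `ψ ∈ 𝓕`. -/
theorem s27eia_quot_mem (h : S27IsAdapted W R (fun Q => -A' Q) t a) {ψ : F}
    (hψ : ψ ∈ s27ptF W R A') {i : Fin N} {Q : Place K F}
    (hQ : W.comap (R i : F →+* 𝔏) = Q.toValuationSubring) : ψ / a ∈ Q.toValuationSubring := by
  rw [mem_iff_adicValuation_le_one, map_div₀, s27eia_val_a h hQ]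
  have h1 : Q.adicValuation ψ ≤ exp (A' Q) := hψ Q i hQ
  have h2 : (exp (A' Q) : ℤᵐ⁰) ≠ 0 := WithZero.exp_ne_zero
  exact (div_le_one₀ (zero_lt_iff.mpr h2)).mpr h1

/-- **`hquot`**: `ψ / a` lies in every centre ring, for `ψ ∈ 𝓕`. -/
theorem s27eia_quot (h : S27IsAdapted W R (fun Q => -A' Q) t a)
    (hred : ∀ i, (∀ f : F, R i f ∈ W) ∨
      ∃ Q : Place K F, W.comap (R i : F →+* 𝔏) = Q.toValuationSubring)
    {ψ : F} (hψ : ψ ∈ s27ptF W R A') (i : Fin N) : R i (ψ / a) ∈ W := by
  rcases hred i with hg | ⟨Q, hQ⟩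
  · exact hg _
  · have h1 : ψ / a ∈ W.comap (R i : F →+* 𝔏) := by
      rw [hQ]
      exact s27eia_quot_mem h hψ hQ
    exact h1

/-- **`hdist`**: distinct points are distinct on the centre ring of the second. -/
theorem s27eia_dist (W : ValuationSubring 𝔏) (R₁ R₂ : F →ₐ[K] 𝔏) (hne : R₁ ≠ R₂) :
    ∃ f : F, R₂ f ∈ W ∧ R₁ f ≠ R₂ f := by
  have h1 : ∃ f : F, R₁ f ≠ R₂ f := by
    by_contra hcon
    exact hne (AlgHom.ext fun f => by_contra fun hf => hcon ⟨f, hf⟩)
  obtain ⟨f, hf⟩ := h1
  rcases W.mem_or_inv_mem (R₂ f) with h2 | h2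
  · exact ⟨f, h2, hf⟩
  · refine ⟨f⁻¹, ?_, ?_⟩
    · rw [map_inv₀]
      exact h2
    · rw [map_inv₀, map_inv₀]
      exact fun h3 => hf (inv_injective h3)

/-- two points: either they are congruent on the common part of their centre rings, or the
coordinate of an adapted pair separates them. -/
theorem s27eia_cong_or_unit (h : S27IsAdapted W R (fun Q => -A' Q) t a) (i j : Fin N) :
    (∀ f : F, R i f ∈ W → R j f ∈ W → R i f - R j f ∈ W.nonunits) ∨
      R i t - R j t ∉ W.nonunits := by
  by_cases hc : ∀ f : F, R i f ∈ W → R j f ∈ W → R i f - R j f ∈ W.nonunits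
  · exact Or.inl hc
  · right
    by_contra hn
    apply hc
    intro f hi hj
    by_contra hf
    exact h.sep f hi hj hf hn

/-- congruent points have the same centre ring. -/
theorem s27eia_same_centre (W : ValuationSubring 𝔏) (R₁ R₂ : F →ₐ[K] 𝔏)
    (hc : ∀ f : F, R₁ f ∈ W → R₂ f ∈ W → R₁ f - R₂ f ∈ W.nonunits) :
    W.comap (R₁ : F →+* 𝔏) = W.comap (R₂ : F →+* 𝔏) := by
  -- symmetric statement: it suffices to prove one inclusion for both orders
  have key : ∀ (S₁ S₂ : F →ₐ[K] 𝔏),
      (∀ f : F, S₁ f ∈ W → S₂ f ∈ W → S₁ f - S₂ f ∈ W.nonunits) →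
      ∀ f : F, S₁ f ∈ W → S₂ f ∈ W := by
    intro S₁ S₂ hS f hf
    by_contra hf2
    -- `S₂ f ∉ W`, so `S₂ f⁻¹` is a nonunit of `W`
    have hf0 : f ≠ 0 := by
      rintro rfl
      exact hf2 (by rw [map_zero]; exact W.zero_mem)
    have h2 : S₂ f⁻¹ ∈ W.nonunits := by
      rw [ValuationSubring.mem_nonunits_iff, map_inv₀, map_inv₀]
      have h3 : 1 < W.valuation (S₂ f) := by
        rw [← not_le, ValuationSubring.valuation_le_one_iff]
        exact hf2
      exact inv_lt_one_of_one_lt₀ h3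
    -- `S₁ f⁻¹` is then a nonunit as well, or `S₁ f⁻¹ ∉ W`
    by_cases h1 : S₁ f⁻¹ ∈ W
    · have h4 := hS f⁻¹ h1 (ValuationSubring.nonunits_subset h2)
      have h5 : S₁ f⁻¹ ∈ W.nonunits := by
        rw [ValuationSubring.mem_nonunits_iff] at h4 h2 ⊢
        have : S₁ f⁻¹ = (S₁ f⁻¹ - S₂ f⁻¹) + S₂ f⁻¹ := by ring
        rw [this]
        exact lt_of_le_of_lt (Valuation.map_add _ _ _) (max_lt h4 h2)
      -- but `S₁ f ∈ W` makes `S₁ f⁻¹` a unit or outside
      rw [ValuationSubring.mem_nonunits_iff, map_inv₀, map_inv₀] at h5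
      have h6 : W.valuation (S₁ f) ≤ 1 := (ValuationSubring.valuation_le_one_iff W _).mpr hf
      have h7 : W.valuation (S₁ f) ≠ 0 := by
        rw [Valuation.ne_zero_iff]
        exact (map_ne_zero S₁).mpr hf0
      have h8 : 1 ≤ (W.valuation (S₁ f))⁻¹ := (one_le_inv₀ (zero_lt_iff.mpr h7)).mpr h6
      exact absurd h5 (not_lt.mpr h8)
    · -- `S₁ f⁻¹ ∉ W` while `S₁ f ∈ W`: then `S₁ f` is a nonunit, fine; use `1 + f⁻¹`?
      -- `S₁ f ∈ W.nonunits`
      have h3 : W.valuation (S₁ f⁻¹) > 1 := by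
        rw [gt_iff_lt, ← not_le, ValuationSubring.valuation_le_one_iff]
        exact h1
      -- consider `g = f⁻¹ / (1 + f⁻¹) = 1 / (f + 1)`
      have hf1 : f + 1 ≠ 0 := by
        intro h0
        have : f = -1 := eq_neg_of_add_eq_zero_left h0
        apply hf2
        rw [this, map_neg, map_one]
        exact W.neg_mem _ W.one_mem
      -- `S₂ (f+1) ∉ W`
      have h4 : S₂ (f + 1) ∉ W := by
        intro h5
        apply hf2
        have : S₂ f = S₂ (f + 1) - 1 := by rw [map_add, map_one]; ring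
        rw [this]
        exact sub_mem h5 W.one_mem
      have h5 : S₁ (f + 1) ∈ W := by
        rw [map_add, map_one]
        exact W.add_mem _ _ hf W.one_mem
      -- `S₂ (f+1)⁻¹` nonunit
      have h6 : S₂ (f + 1)⁻¹ ∈ W.nonunits := by
        rw [ValuationSubring.mem_nonunits_iff, map_inv₀, map_inv₀]
        have h7 : 1 < W.valuation (S₂ (f + 1)) := by
          rw [← not_le, ValuationSubring.valuation_le_one_iff]
          exact h4
        exact inv_lt_one_of_one_lt₀ h7
      -- `S₁ (f+1)` is a unit of `W`: `v(S₁ f) < 1` since `v(S₁ f⁻¹) > 1`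
      have h7 : W.valuation (S₁ f) < 1 := by
        rw [map_inv₀, map_inv₀] at h3
        have h8 : W.valuation (S₁ f) ≠ 0 := by
          rw [Valuation.ne_zero_iff]
          exact (map_ne_zero S₁).mpr hf0
        by_contra h9
        exact absurd h3 (not_lt.mpr (inv_le_one_of_one_le₀ (not_lt.mp h9)))
      have h8 : W.valuation (S₁ (f + 1)) = 1 := by
        rw [map_add, map_one]
        have := Valuation.map_add_eq_of_lt_right W.valuation (x := S₁ f) (y := 1)
          (by rw [map_one]; exact h7)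
        rw [this, map_one]
      have h9 : S₁ (f + 1)⁻¹ ∈ W := by
        rw [← ValuationSubring.valuation_le_one_iff, map_inv₀, map_inv₀, h8, inv_one]
      have h10 := hS (f + 1)⁻¹ h9 (ValuationSubring.nonunits_subset h6)
      rw [ValuationSubring.mem_nonunits_iff] at h10 h6
      have h11 : W.valuation (S₁ (f + 1)⁻¹) < 1 := by
        have : S₁ (f + 1)⁻¹ = (S₁ (f + 1)⁻¹ - S₂ (f + 1)⁻¹) + S₂ (f + 1)⁻¹ := by ring
        rw [this]
        exact lt_of_le_of_lt (Valuation.map_add _ _ _) (max_lt h10 h6)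
      rw [map_inv₀, map_inv₀, h8, inv_one] at h11
      exact lt_irrefl _ h11
  ext f
  rw [ValuationSubring.mem_comap, ValuationSubring.mem_comap]
  constructor
  · exact key R₁ R₂ hc f
  · refine key R₂ R₁ (fun g h2 h1 => ?_) f
    have h3 := hc g h1 h2
    rw [ValuationSubring.mem_nonunits_iff] at h3 ⊢
    rw [← Valuation.map_neg, neg_sub]
    exact h3

end Fermat.Agent.S27
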