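/-
S27 route B (item 27), piece AD-WD core = DIAG (helper50): DIVIDED DIFFERENCES ARE INTEGRAL.

Setting (abstract, Mathlib only): `K` a field, `D` a `K`-algebra essentially of finite type,
`t : D` such that `D` is formally unramified over `K[t] = Algebra.adjoin K {t}`
(for `D = 𝒪_Q` the local ring of a curve at a `K`-point with `𝔪 = (t)` this is
`s26ecrvf_unramified`; for `D = F` the function field and `t ∉ K` it is separability of
`F / K(t)`), `R` a LOCAL ring over `K` (a valuation ring `W` of ANY rank), and "points"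
`ι : D →ₐ[K] R` which are pairwise congruent modulo `𝔪_R` (`S27diagCong`: the same centre).

* `s27diag_exists_sep` : the separability element at a point `ι`: `s ∈ D ⊗_K R`, a unit at every
  point congruent to `ι`, with `s · (d ⊗ 1 − 1 ⊗ ι d) ∈ (t ⊗ 1 − 1 ⊗ ι t)` for all `d`
  ("the section `ι` of the constant curve is cut out by `t − ι t` near the centre");
* `s27diag_dvd`        : **DIAG** `(ι₁ t − ι₂ t) ∣ (ι₁ f − ι₂ f)` for congruent points;
* `S27diagFun`, `s27diag_fun_of`, `s27diag_fun_step` : the ring of germs of functions at the centre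
  evaluated at a family of points, and the divided-difference step inside it;
* `s27diag_newton_fun`, `s27diag_newton` : **NEWTON** for every `f : D` and points `ι i` (`i < M`)
  there is `p ∈ R[X]` of degree `< M` with `p (ι i t) = ι i f` for all `i`
  (the divided differences of all orders lie in `R`).
-/
import Mathlib
import Fermat.Agent.S26.ECrvFin

set_option autoImplicit false
set_option linter.unusedSectionVars false
set_option linter.style.haveILetI false

namespace Fermat.Agent.S27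

open IsLocalRing Polynomial
open scoped TensorProduct

section Core

variable {K D R : Type*} [Field K] [CommRing D] [Algebra K D] [CommRing R] [IsLocalRing R]
  [Algebra K R]

/-- Two points `D → R` with the same centre: congruent modulo the maximal ideal of `R`. -/
def S27diagCong (ι ι' : D →ₐ[K] R) : Prop := ∀ b : D, ι b - ι' b ∈ maximalIdeal R

theorem s27diag_cong_refl (ι : D →ₐ[K] R) : S27diagCong ι ι := fun b => by
  rw [sub_self]; exact zero_mem _

theorem s27diag_cong_symm {ι ι' : D →ₐ[K] R} (h : S27diagCong ι ι') : S27diagCong ι' ι := fun b => by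
  have := neg_mem (h b)
  rwa [neg_sub] at this

theorem s27diag_cong_trans {ι ι' ι'' : D →ₐ[K] R} (h : S27diagCong ι ι') (h' : S27diagCong ι' ι'') :
    S27diagCong ι ι'' := fun b => by
  have := add_mem (h b) (h' b)
  rwa [sub_add_sub_cancel] at this

/-- Evaluation of a function on the constant curve `D ⊗_K R` at the point `ι`. -/
noncomputable def s27diagEv (ι : D →ₐ[K] R) : D ⊗[K] R →ₐ[K] R :=
  Algebra.TensorProduct.productMap ι (AlgHom.id K R)

@[simp]
theorem s27diag_ev_tmul (ι : D →ₐ[K] R) (d : D) (r : R) : s27diagEv ι (d ⊗ₜ[K] r) = ι d * r := rfl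

theorem s27diag_isUnit_of_sub_one_mem {x : R} (h : x - 1 ∈ maximalIdeal R) : IsUnit x := by
  by_contra hx
  have hx' : x ∈ maximalIdeal R := (IsLocalRing.mem_maximalIdeal x).mpr hx
  have h1 : (1 : R) ∈ maximalIdeal R := by
    have := sub_mem hx' h
    rwa [sub_sub_cancel] at this
  exact (IsLocalRing.mem_maximalIdeal (1 : R)).mp h1 isUnit_one

/-- **The separability element at a point.** -/
theorem s27diag_exists_sep [Algebra.EssFiniteType K D] (t : D)
    (hunr : Algebra.FormallyUnramified (Algebra.adjoin K {t}) D) (ι : D →ₐ[K] R) :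
    ∃ s : D ⊗[K] R,
      (∀ ι' : D →ₐ[K] R, S27diagCong ι' ι → IsUnit (s27diagEv ι' s)) ∧
      ∀ d : D, ∃ q : D ⊗[K] R,
        s * (d ⊗ₜ[K] (1 : R) - (1 : D) ⊗ₜ[K] ι d) =
          (t ⊗ₜ[K] (1 : R) - (1 : D) ⊗ₜ[K] ι t) * q := by
  classical
  haveI : Algebra.EssFiniteType (Algebra.adjoin K {t}) D :=
    Algebra.EssFiniteType.of_comp K (Algebra.adjoin K {t}) D
  -- the quotient of the constant curve by `t ⊗ 1 − 1 ⊗ ι t`
  set π : D ⊗[K] R := t ⊗ₜ[K] (1 : R) - (1 : D) ⊗ₜ[K] ι t with hπ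
  set I : Ideal (D ⊗[K] R) := Ideal.span {π} with hI
  let mk : D ⊗[K] R →ₐ[K] (D ⊗[K] R) ⧸ I := Ideal.Quotient.mkₐ K I
  let α : D →ₐ[K] (D ⊗[K] R) ⧸ I := mk.comp Algebra.TensorProduct.includeLeft
  let β : D →ₐ[K] (D ⊗[K] R) ⧸ I :=
    mk.comp ((Algebra.TensorProduct.includeRight : R →ₐ[K] D ⊗[K] R).comp ι)
  have hα : ∀ d : D, α d = mk (d ⊗ₜ[K] (1 : R)) := fun d => rfl
  have hβ : ∀ d : D, β d = mk ((1 : D) ⊗ₜ[K] ι d) := fun d => rfl
  have hαβt : α t = β t := by
    rw [hα, hβ, ← sub_eq_zero, ← map_sub]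
    exact Ideal.Quotient.eq_zero_iff_mem.mpr (Ideal.mem_span_singleton_self π)
  have hle : Algebra.adjoin K {t} ≤ AlgHom.equalizer α β :=
    AlgHom.adjoin_le_equalizer α β (fun x hx => by
      rw [Set.mem_singleton_iff.mp hx]; exact hαβt)
  have hAB : ∀ a : Algebra.adjoin K {t}, α (a : D) = β (a : D) := fun a => hle a.2
  letI algT : Algebra (Algebra.adjoin K {t}) ((D ⊗[K] R) ⧸ I) :=
    ((α : D →+* (D ⊗[K] R) ⧸ I).comp (algebraMap (Algebra.adjoin K {t}) D)).toAlgebra
  let α' : D →ₐ[Algebra.adjoin K {t}] (D ⊗[K] R) ⧸ I :=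
    { (α : D →+* (D ⊗[K] R) ⧸ I) with commutes' := fun a => rfl }
  let β' : D →ₐ[Algebra.adjoin K {t}] (D ⊗[K] R) ⧸ I :=
    { (β : D →+* (D ⊗[K] R) ⧸ I) with commutes' := fun a => (hAB a).symm }
  have hα' : ∀ d : D, α' d = mk (d ⊗ₜ[K] (1 : R)) := fun d => rfl
  have hβ' : ∀ d : D, β' d = mk ((1 : D) ⊗ₜ[K] ι d) := fun d => rfl
  set e := Algebra.FormallyUnramified.elem (Algebra.adjoin K {t}) D with he
  -- key 1
  have key1 : ∀ d : D,
      (β' d - α' d) * Algebra.TensorProduct.productMap α' β' e = 0 := by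
    intro d
    have h := congrArg (Algebra.TensorProduct.productMap α' β')
      (Algebra.FormallyUnramified.one_tmul_sub_tmul_one_mul_elem
        (R := Algebra.adjoin K {t}) (S := D) d)
    rw [map_mul, map_sub, Algebra.TensorProduct.productMap_apply_tmul,
      Algebra.TensorProduct.productMap_apply_tmul, map_one, map_one, one_mul, mul_one,
      map_zero] at h
    exact h
  -- key 2
  have key2 : ∀ x : D ⊗[Algebra.adjoin K {t}] D, ∃ σ : D ⊗[K] R,
      Algebra.TensorProduct.productMap α' β' x = mk σ ∧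
      ∀ ι' : D →ₐ[K] R, S27diagCong ι' ι →
        s27diagEv ι' σ - ι' (Algebra.TensorProduct.lmul' (Algebra.adjoin K {t}) x) ∈
          maximalIdeal R := by
    intro x
    induction x using TensorProduct.induction_on with
    | zero =>
      refine ⟨0, by simp, fun ι' _ => ?_⟩
      simp
    | tmul a b =>
      refine ⟨a ⊗ₜ[K] ι b, ?_, fun ι' hc => ?_⟩
      · rw [Algebra.TensorProduct.productMap_apply_tmul, hα', hβ', ← map_mul,
          Algebra.TensorProduct.tmul_mul_tmul, mul_one, one_mul]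
      · rw [s27diag_ev_tmul, Algebra.TensorProduct.lmul'_apply_tmul, map_mul]
        have h1 : ι' a * ι b - ι' a * ι' b = -(ι' a * (ι' b - ι b)) := by ring
        rw [h1]
        exact neg_mem (Ideal.mul_mem_left _ _ (hc b))
    | add x y hx hy =>
      obtain ⟨σ₁, h₁, h₁'⟩ := hx
      obtain ⟨σ₂, h₂, h₂'⟩ := hy
      refine ⟨σ₁ + σ₂, by rw [map_add, h₁, h₂, map_add], fun ι' hc => ?_⟩
      have := add_mem (h₁' ι' hc) (h₂' ι' hc)
      rw [map_add, map_add, map_add]
      have h3 : s27diagEv ι' σ₁ + s27diagEv ι' σ₂ -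
          (ι' (Algebra.TensorProduct.lmul' (Algebra.adjoin K {t}) x) +
            ι' (Algebra.TensorProduct.lmul' (Algebra.adjoin K {t}) y)) =
          (s27diagEv ι' σ₁ - ι' (Algebra.TensorProduct.lmul' (Algebra.adjoin K {t}) x)) +
          (s27diagEv ι' σ₂ - ι' (Algebra.TensorProduct.lmul' (Algebra.adjoin K {t}) y)) := by
        ring
      rw [h3]
      exact this
  obtain ⟨σ, hσ, hσ'⟩ := key2 e
  refine ⟨σ, fun ι' hc => ?_, fun d => ?_⟩
  · have h := hσ' ι' hc
    rw [he, Algebra.FormallyUnramified.lmul_elem, map_one] at h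
    exact s27diag_isUnit_of_sub_one_mem h
  · have h := key1 d
    rw [hσ, hα', hβ', ← map_sub, ← map_mul] at h
    have hmem : ((1 : D) ⊗ₜ[K] ι d - d ⊗ₜ[K] (1 : R)) * σ ∈ I :=
      Ideal.Quotient.eq_zero_iff_mem.mp h
    obtain ⟨q, hq⟩ := Ideal.mem_span_singleton.mp hmem
    refine ⟨-q, ?_⟩
    have : σ * (d ⊗ₜ[K] (1 : R) - (1 : D) ⊗ₜ[K] ι d) =
        -(((1 : D) ⊗ₜ[K] ι d - d ⊗ₜ[K] (1 : R)) * σ) := by ring
    rw [this, hq]
    ring

/-- **DIAG**: divided differences are integral.  For two points with the same centre,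
`ι₁ t − ι₂ t` divides `ι₁ f − ι₂ f` in `R`, for every `f : D`. -/
theorem s27diag_dvd [Algebra.EssFiniteType K D] (t : D)
    (hunr : Algebra.FormallyUnramified (Algebra.adjoin K {t}) D) (ι₁ ι₂ : D →ₐ[K] R)
    (h : S27diagCong ι₁ ι₂) (f : D) : ι₁ t - ι₂ t ∣ ι₁ f - ι₂ f := by
  obtain ⟨s, hs, hq⟩ := s27diag_exists_sep t hunr ι₂
  obtain ⟨q, hq⟩ := hq f
  have hu := hs ι₁ h
  have h1 := congrArg (s27diagEv ι₁) hq
  rw [map_mul, map_mul, map_sub, map_sub, s27diag_ev_tmul, s27diag_ev_tmul, s27diag_ev_tmul,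
    s27diag_ev_tmul, map_one, mul_one, one_mul, mul_one, one_mul] at h1
  obtain ⟨u, hu⟩ := hu
  refine ⟨s27diagEv ι₁ q * ↑u⁻¹, ?_⟩
  have h2 : ι₁ f - ι₂ f = ↑u⁻¹ * (s27diagEv ι₁ s * (ι₁ f - ι₂ f)) := by
    rw [← hu, ← mul_assoc, Units.inv_mul, one_mul]
  rw [h2, h1]
  ring

end Core

section Newton

variable {K D R : Type*} [Field K] [CommRing D] [Algebra K D] [CommRing R] [IsLocalRing R]
  [Algebra K R] {I : Type*}

/-- The germs of functions on the constant curve at the common centre of the points `ι i`,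
evaluated at these points: `φ i = y(ι i) / s(ι i)` with `s` a unit at all the points. -/
def S27diagFun (ι : I → D →ₐ[K] R) (φ : I → R) : Prop :=
  ∃ y s : D ⊗[K] R, (∀ i, IsUnit (s27diagEv (ι i) s)) ∧
    ∀ i, s27diagEv (ι i) s * φ i = s27diagEv (ι i) y

theorem s27diag_fun_of (ι : I → D →ₐ[K] R) (f : D) : S27diagFun ι (fun i => ι i f) :=
  ⟨f ⊗ₜ[K] (1 : R), 1, fun i => by rw [map_one]; exact isUnit_one, fun i => by
    rw [map_one, one_mul, s27diag_ev_tmul, mul_one]⟩

theorem s27diag_fun_const (ι : I → D →ₐ[K] R) (c : R) : S27diagFun ι (fun _ => c) :=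
  ⟨(1 : D) ⊗ₜ[K] c, 1, fun i => by rw [map_one]; exact isUnit_one, fun i => by
    rw [map_one, one_mul, s27diag_ev_tmul, map_one, one_mul]⟩

theorem s27diag_fun_add (ι : I → D →ₐ[K] R) {φ ψ : I → R} (hφ : S27diagFun ι φ)
    (hψ : S27diagFun ι ψ) : S27diagFun ι (fun i => φ i + ψ i) := by
  obtain ⟨y₁, s₁, hu₁, h₁⟩ := hφ
  obtain ⟨y₂, s₂, hu₂, h₂⟩ := hψ
  refine ⟨y₁ * s₂ + y₂ * s₁, s₁ * s₂, fun i => ?_, fun i => ?_⟩
  · rw [map_mul]; exact (hu₁ i).mul (hu₂ i)
  · rw [map_mul, map_add, map_mul, map_mul, ← h₁ i, ← h₂ i]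
    ring

theorem s27diag_fun_mul (ι : I → D →ₐ[K] R) {φ ψ : I → R} (hφ : S27diagFun ι φ)
    (hψ : S27diagFun ι ψ) : S27diagFun ι (fun i => φ i * ψ i) := by
  obtain ⟨y₁, s₁, hu₁, h₁⟩ := hφ
  obtain ⟨y₂, s₂, hu₂, h₂⟩ := hψ
  refine ⟨y₁ * y₂, s₁ * s₂, fun i => ?_, fun i => ?_⟩
  · rw [map_mul]; exact (hu₁ i).mul (hu₂ i)
  · rw [map_mul, map_mul, ← h₁ i, ← h₂ i]
    ring

/-- the relative form of the separability element: the kernel of the evaluation at `ι` is
generated by `t ⊗ 1 − 1 ⊗ ι t` up to the unit `s`. -/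
theorem s27diag_sep_rel (t : D) (ι : D →ₐ[K] R) (s : D ⊗[K] R)
    (hs : ∀ d : D, ∃ q : D ⊗[K] R,
        s * (d ⊗ₜ[K] (1 : R) - (1 : D) ⊗ₜ[K] ι d) =
          (t ⊗ₜ[K] (1 : R) - (1 : D) ⊗ₜ[K] ι t) * q)
    (z : D ⊗[K] R) :
    ∃ z' : D ⊗[K] R, s * (z - (1 : D) ⊗ₜ[K] s27diagEv ι z) =
      (t ⊗ₜ[K] (1 : R) - (1 : D) ⊗ₜ[K] ι t) * z' := by
  induction z using TensorProduct.induction_on with
  | zero => exact ⟨0, by simp⟩
  | tmul d r =>
    obtain ⟨q, hq⟩ := hs d
    refine ⟨q * ((1 : D) ⊗ₜ[K] r), ?_⟩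
    have h1 : d ⊗ₜ[K] r - (1 : D) ⊗ₜ[K] s27diagEv ι (d ⊗ₜ[K] r) =
        (d ⊗ₜ[K] (1 : R) - (1 : D) ⊗ₜ[K] ι d) * ((1 : D) ⊗ₜ[K] r) := by
      rw [sub_mul, Algebra.TensorProduct.tmul_mul_tmul, Algebra.TensorProduct.tmul_mul_tmul,
        mul_one, one_mul, one_mul, s27diag_ev_tmul]
    rw [h1, ← mul_assoc, hq, mul_assoc]
  | add x y hx hy =>
    obtain ⟨x', hx'⟩ := hx
    obtain ⟨y', hy'⟩ := hy
    refine ⟨x' + y', ?_⟩
    rw [map_add, TensorProduct.tmul_add, mul_add, ← hx', ← hy']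
    ring

/-- **Divided-difference step** in the ring of germs. -/
theorem s27diag_fun_step [Algebra.EssFiniteType K D] (t : D)
    (hunr : Algebra.FormallyUnramified (Algebra.adjoin K {t}) D)
    (ι : I → D →ₐ[K] R) (hc : ∀ i j, S27diagCong (ι i) (ι j))
    {φ : I → R} (hφ : S27diagFun ι φ) (j : I) :
    ∃ φ' : I → R, S27diagFun ι φ' ∧ ∀ i, φ i - φ j = (ι i t - ι j t) * φ' i := by
  classical
  obtain ⟨y, s, hu, hy⟩ := hφ
  obtain ⟨sj, hsj, hq⟩ := s27diag_exists_sep t hunr (ι j)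
  set z : D ⊗[K] R := y - s * ((1 : D) ⊗ₜ[K] φ j) with hz
  have hzj : s27diagEv (ι j) z = 0 := by
    rw [hz, map_sub, map_mul, s27diag_ev_tmul, map_one, one_mul, hy j, sub_self]
  obtain ⟨z', hz'⟩ := s27diag_sep_rel t (ι j) sj hq z
  rw [hzj, TensorProduct.tmul_zero, sub_zero] at hz'
  have hU : ∀ i, IsUnit (s27diagEv (ι i) (sj * s)) := fun i => by
    rw [map_mul]; exact (hsj (ι i) (hc i j)).mul (hu i)
  refine ⟨fun i => ↑((hU i).unit⁻¹) * s27diagEv (ι i) z', ⟨z', sj * s, hU, fun i => ?_⟩,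
    fun i => ?_⟩
  · rw [← mul_assoc]
    have : s27diagEv (ι i) (sj * s) * ↑((hU i).unit⁻¹) = 1 := (hU i).mul_val_inv
    rw [this, one_mul]
  · have e1 : s27diagEv (ι i) z = s27diagEv (ι i) s * φ i - s27diagEv (ι i) s * φ j := by
      rw [hz, map_sub, map_mul, s27diag_ev_tmul, map_one, one_mul, hy i]
    have e2 : s27diagEv (ι i) (t ⊗ₜ[K] (1 : R) - (1 : D) ⊗ₜ[K] ι j t) = ι i t - ι j t := by
      rw [map_sub, s27diag_ev_tmul, s27diag_ev_tmul, map_one, mul_one, one_mul]
    have h1 : s27diagEv (ι i) sj * s27diagEv (ι i) z =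
        (ι i t - ι j t) * s27diagEv (ι i) z' := by
      rw [← e2, ← map_mul, ← map_mul, hz']
    have h2 : s27diagEv (ι i) (sj * s) * (φ i - φ j) =
        (ι i t - ι j t) * s27diagEv (ι i) z' := by
      rw [map_mul, ← h1, e1]; ring
    have h3 : φ i - φ j = ↑((hU i).unit⁻¹) * (s27diagEv (ι i) (sj * s) * (φ i - φ j)) := by
      rw [← mul_assoc]
      have : (↑((hU i).unit⁻¹) : R) * s27diagEv (ι i) (sj * s) = 1 := (hU i).val_inv_mul
      rw [this, one_mul]
    rw [h3, h2]
    ring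

/-- **NEWTON**, for germs: interpolation by a polynomial with coefficients in `R`. -/
theorem s27diag_newton_fun [Algebra.EssFiniteType K D] (t : D)
    (hunr : Algebra.FormallyUnramified (Algebra.adjoin K {t}) D)
    (ι : I → D →ₐ[K] R) (hc : ∀ i j, S27diagCong (ι i) (ι j)) :
    ∀ (l : List I) (φ : I → R), S27diagFun ι φ →
      ∃ p : R[X], p.degree < (l.length : WithBot ℕ) ∧ ∀ i ∈ l, p.eval (ι i t) = φ i := by
  intro l
  induction l with
  | nil =>
    intro φ _
    refine ⟨0, ?_, fun i hi => absurd hi (List.not_mem_nil)⟩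
    rw [degree_zero]
    exact WithBot.bot_lt_coe _
  | cons j l ih =>
    intro φ hφ
    obtain ⟨φ', hφ', hstep⟩ := s27diag_fun_step t hunr ι hc hφ j
    obtain ⟨p', hdeg, hev⟩ := ih φ' hφ'
    refine ⟨C (φ j) + (X - C (ι j t)) * p', ?_, fun i hi => ?_⟩
    · have h1 : (C (φ j) : R[X]).degree < ((j :: l).length : WithBot ℕ) := by
        refine lt_of_le_of_lt degree_C_le ?_
        rw [List.length_cons]
        exact_mod_cast Nat.succ_pos _
      have h2 : ((X - C (ι j t)) * p' : R[X]).degree < ((j :: l).length : WithBot ℕ) := by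
        by_cases hp : p' = 0
        · rw [hp, mul_zero, degree_zero]; exact WithBot.bot_lt_coe _
        · refine lt_of_le_of_lt (degree_mul_le _ _) ?_
          rw [degree_X_sub_C, List.length_cons, degree_eq_natDegree hp]
          rw [degree_eq_natDegree hp] at hdeg
          have h : p'.natDegree < l.length := by exact_mod_cast hdeg
          have h' : 1 + p'.natDegree < l.length + 1 := by omega
          exact_mod_cast h'
      exact lt_of_le_of_lt (degree_add_le _ _) (max_lt h1 h2)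
    · rw [eval_add, eval_C, eval_mul, eval_sub, eval_X, eval_C]
      rcases List.mem_cons.mp hi with rfl | hi'
      · rw [sub_self, zero_mul, add_zero]
      · rw [hev i hi', ← hstep i]
        ring

/-- **NEWTON**: for points `ι i`, `i < M`, with the same centre and every `f : D` there is a
polynomial `p ∈ R[X]` of degree `< M` with `p (ι i t) = ι i f` for all `i`. -/
theorem s27diag_newton [Algebra.EssFiniteType K D] (t : D)
    (hunr : Algebra.FormallyUnramified (Algebra.adjoin K {t}) D) {M : ℕ}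
    (ι : Fin M → D →ₐ[K] R) (hc : ∀ i j, S27diagCong (ι i) (ι j)) (f : D) :
    ∃ p : R[X], p.degree < (M : WithBot ℕ) ∧ ∀ i, p.eval (ι i t) = ι i f := by
  obtain ⟨p, hdeg, hev⟩ :=
    s27diag_newton_fun t hunr ι hc (List.finRange M) _ (s27diag_fun_of ι f)
  rw [List.length_finRange] at hdeg
  exact ⟨p, hdeg, fun i => hev i (List.mem_finRange i)⟩

end Newton


section Instances

open Fermat.Agent.S26

/-! ### Instance 1: a closed centre (`D = 𝒪_Q`, `𝔪 = (t)`, residue field `K`) -/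

section Closed

universe u

variable {K D : Type u} [Field K] [CommRing D] [IsDomain D] [IsLocalRing D] [Algebra K D]
  [Algebra.EssFiniteType K D] {R : Type*} [CommRing R] [IsLocalRing R] [Algebra K R]

/-- points through the closed point of `D` are congruent. -/
theorem s27diag_cong_of_local
    (hres : ∀ r : D, ∃ c : K, r - algebraMap K D c ∈ maximalIdeal D)
    (ι ι' : D →ₐ[K] R) (h : ∀ x ∈ maximalIdeal D, ι x ∈ maximalIdeal R)
    (h' : ∀ x ∈ maximalIdeal D, ι' x ∈ maximalIdeal R) : S27diagCong ι ι' := by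
  intro b
  obtain ⟨c, hc⟩ := hres b
  have hb : b = algebraMap K D c + (b - algebraMap K D c) := by ring
  have e : ι b - ι' b = ι (b - algebraMap K D c) - ι' (b - algebraMap K D c) := by
    rw [map_sub, map_sub, AlgHom.commutes, AlgHom.commutes]; ring
  rw [e]
  exact sub_mem (h _ hc) (h' _ hc)

/-- **DIAG at a closed centre.** -/
theorem s27diag_dvd_local
    (hres : ∀ r : D, ∃ c : K, r - algebraMap K D c ∈ maximalIdeal D)
    (t : D) (ht : maximalIdeal D = Ideal.span {t})
    (ι₁ ι₂ : D →ₐ[K] R) (h₁ : ∀ x ∈ maximalIdeal D, ι₁ x ∈ maximalIdeal R)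
    (h₂ : ∀ x ∈ maximalIdeal D, ι₂ x ∈ maximalIdeal R) (f : D) :
    ι₁ t - ι₂ t ∣ ι₁ f - ι₂ f :=
  s27diag_dvd t (s26ecrvf_unramified hres t ht) ι₁ ι₂
    (s27diag_cong_of_local hres ι₁ ι₂ h₁ h₂) f

/-- **NEWTON at a closed centre.** -/
theorem s27diag_newton_local
    (hres : ∀ r : D, ∃ c : K, r - algebraMap K D c ∈ maximalIdeal D)
    (t : D) (ht : maximalIdeal D = Ideal.span {t}) {M : ℕ}
    (ι : Fin M → D →ₐ[K] R) (h : ∀ i, ∀ x ∈ maximalIdeal D, ι i x ∈ maximalIdeal R) (f : D) :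
    ∃ p : R[X], p.degree < (M : WithBot ℕ) ∧ ∀ i, p.eval (ι i t) = ι i f :=
  s27diag_newton t (s26ecrvf_unramified hres t ht) ι
    (fun i j => s27diag_cong_of_local hres (ι i) (ι j) (h i) (h j)) f

end Closed

/-! ### Instance 2: a generic centre (`D = F` the function field, `F / K(t)` separable) -/

section Generic

open scoped IntermediateField.algebraAdjoinAdjoin

variable {K F : Type*} [Field K] [Field F] [Algebra K F] [Algebra.EssFiniteType K F]
  {R : Type*} [CommRing R] [IsLocalRing R] [Algebra K R]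

/-- `F` is formally unramified over `K[t]` as soon as `F / K(t)` is separable. -/
theorem s27diag_unramified_field (t : F)
    [hsep : Algebra.IsSeparable (IntermediateField.adjoin K {t}) F] :
    Algebra.FormallyUnramified (Algebra.adjoin K {t}) F := by
  haveI h1 : Algebra.FormallyUnramified (Algebra.adjoin K {t}) (IntermediateField.adjoin K {t}) :=
    Algebra.FormallyUnramified.of_isLocalization (nonZeroDivisors (Algebra.adjoin K {t}))
  haveI h2 : Algebra.FormallyUnramified (IntermediateField.adjoin K {t}) F :=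
    Algebra.FormallyUnramified.of_isSeparable _ _
  exact Algebra.FormallyUnramified.comp (Algebra.adjoin K {t}) (IntermediateField.adjoin K {t}) F

/-- **DIAG at a generic centre.** -/
theorem s27diag_dvd_field (t : F)
    [Algebra.IsSeparable (IntermediateField.adjoin K {t}) F]
    (ι₁ ι₂ : F →ₐ[K] R) (h : S27diagCong ι₁ ι₂) (f : F) : ι₁ t - ι₂ t ∣ ι₁ f - ι₂ f :=
  s27diag_dvd t (s27diag_unramified_field t) ι₁ ι₂ h f

/-- **NEWTON at a generic centre.** -/
theorem s27diag_newton_field (t : F)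
    [Algebra.IsSeparable (IntermediateField.adjoin K {t}) F] {M : ℕ}
    (ι : Fin M → F →ₐ[K] R) (hc : ∀ i j, S27diagCong (ι i) (ι j)) (f : F) :
    ∃ p : R[X], p.degree < (M : WithBot ℕ) ∧ ∀ i, p.eval (ι i t) = ι i f :=
  s27diag_newton t (s27diag_unramified_field t) ι hc f

end Generic

end Instances

end Fermat.Agent.S27
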