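/-
S27 route B (item 27), geometry leaf EFF (helper17): NEWTON INTERPOLATION over a base ring and the
integrality of the point formula (simple points, no jets).

Setting (Mathlib only).  `V` a commutative ring (the valuation ring `W`), `R` a `V`-algebra (the ring of
`W`-integral functions regular at the centres), `e i : R →ₐ[V] V` the evaluations at the points, `π ∈ R` the
adapted coordinate, `z i = e i π`, and

  (DIV)   `e i r = 0 → r ∈ (π − z i) · R`     (the point `i` is cut out by `π − z i`).

No hypothesis of distinctness: colliding points (`z i − z j ∈ 𝔪`) are allowed.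

Main results:
* `s27eff_newton`     : `a = ∑_{k<n} c_k(a) ∏_{j<k} (π − z_j) + rem_n(a) ∏_{j<n} (π − z_j)`;
* `s27eff_eval`       : `e i a = ∑_{k<n} c_k(a) ∏_{j<k} (z_i − z_j)` for `i < n` (Newton interpolation);
* `s27eff_det`        : `det [e i (φ l)] = (∏_i ∏_{j<i} (z_i − z_j)) · det [c_k (φ l)]`;
* `s27eff_dvd`        : the Vandermonde product divides `det [e i (φ l)]` in `V`;
* `s27eff_det_fin`, `s27eff_dvd_fin` : the same for families indexed by `Fin N`;
* `s27eff_mem`        : `V = W` a subring of a field `𝔏`: `det [e i (φ l)] / ∏_{j<i} (z_i − z_j) ∈ W`  (EFF).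
-/
import Mathlib

set_option autoImplicit false

noncomputable section

namespace Fermat.Agent.S27

open Matrix Finset

section Core

variable {V : Type*} [CommRing V] {R : Type*} [CommRing R] [Algebra V R]

/-- the hypothesis (DIV) for a sequence of points. -/
def S27effDiv (e : ℕ → (R →ₐ[V] V)) (π : R) : Prop :=
  ∀ (k : ℕ) (r : R), e k r = 0 → ∃ r' : R, r = (π - algebraMap V R (e k π)) * r'

variable {e : ℕ → (R →ₐ[V] V)} {π : R}

/-- one division step: `a = e k a + (π − z k) · s27effQuot a`. -/
def s27effQuot (h : S27effDiv e π) (k : ℕ) (a : R) : R :=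
  Classical.choose (h k (a - algebraMap V R (e k a)) (by simp))

theorem s27eff_quot_spec (h : S27effDiv e π) (k : ℕ) (a : R) :
    a = algebraMap V R (e k a) + (π - algebraMap V R (e k π)) * s27effQuot h k a := by
  have := Classical.choose_spec (h k (a - algebraMap V R (e k a)) (by simp))
  have h2 : a = algebraMap V R (e k a) + (a - algebraMap V R (e k a)) := by ring
  rw [this] at h2
  exact h2

/-- the iterated remainders: `rem 0 a = a`, `rem (k+1) a = (rem k a − e k (rem k a)) / (π − z k)`. -/
def s27effRem (h : S27effDiv e π) : ℕ → R → R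
  | 0, a => a
  | (k + 1), a => s27effQuot h k (s27effRem h k a)

/-- the Newton coefficients (iterated divided differences), elements of `V`. -/
def s27effCoef (h : S27effDiv e π) (k : ℕ) (a : R) : V :=
  e k (s27effRem h k a)

theorem s27eff_rem_succ (h : S27effDiv e π) (k : ℕ) (a : R) :
    s27effRem h k a = algebraMap V R (s27effCoef h k a) +
      (π - algebraMap V R (e k π)) * s27effRem h (k + 1) a :=
  s27eff_quot_spec h k (s27effRem h k a)

/-- **Newton expansion** in `R`. -/
theorem s27eff_newton (h : S27effDiv e π) (a : R) (n : ℕ) :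
    a = ∑ k ∈ range n, algebraMap V R (s27effCoef h k a) *
          ∏ j ∈ range k, (π - algebraMap V R (e j π)) +
        s27effRem h n a * ∏ j ∈ range n, (π - algebraMap V R (e j π)) := by
  induction n with
  | zero => simp [s27effRem]
  | succ n ih =>
    rw [sum_range_succ, prod_range_succ]
    have h1 := s27eff_rem_succ h n a
    calc a = ∑ k ∈ range n, algebraMap V R (s27effCoef h k a) *
              ∏ j ∈ range k, (π - algebraMap V R (e j π)) +
            s27effRem h n a * ∏ j ∈ range n, (π - algebraMap V R (e j π)) := ih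
      _ = _ := by rw [h1]; ring

/-- **Newton interpolation**: the values at the points `i < n`. -/
theorem s27eff_eval (h : S27effDiv e π) (a : R) {i n : ℕ} (hi : i < n) :
    e i a = ∑ k ∈ range n, s27effCoef h k a * ∏ j ∈ range k, (e i π - e j π) := by
  have h0 := congrArg (e i) (s27eff_newton h a n)
  rw [map_add, map_sum, map_mul, map_prod] at h0
  have hz : ∏ j ∈ range n, (e i) (π - algebraMap V R (e j π)) = 0 := by
    refine prod_eq_zero (mem_range.2 hi) ?_
    simp
  rw [hz, mul_zero, add_zero] at h0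
  rw [h0]
  refine sum_congr rfl fun k _ => ?_
  rw [map_mul, map_prod]
  simp

/-- the Newton matrix `L i k = ∏_{j<k} (z i − z j)` (lower triangular). -/
def s27effL (e : ℕ → (R →ₐ[V] V)) (π : R) (N : ℕ) : Matrix (Fin N) (Fin N) V :=
  Matrix.of fun i k => ∏ j ∈ range (k : ℕ), (e i π - e j π)

theorem s27effL_apply (N : ℕ) (i k : Fin N) :
    s27effL e π N i k = ∏ j ∈ range (k : ℕ), (e i π - e j π) := rfl

theorem s27effL_upper (N : ℕ) {i k : Fin N} (hik : i < k) : s27effL e π N i k = 0 := by
  rw [s27effL_apply]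
  exact prod_eq_zero (mem_range.2 (Fin.lt_def.1 hik)) (sub_self _)

theorem s27effL_det (e : ℕ → (R →ₐ[V] V)) (π : R) (N : ℕ) :
    (s27effL e π N).det = ∏ i : Fin N, ∏ j ∈ range (i : ℕ), (e i π - e j π) := by
  rw [Matrix.det_of_isLowerTriangular]
  · rfl
  · intro i k hik
    exact s27effL_upper N hik

/-- the matrix of values is the Newton matrix times the matrix of Newton coefficients. -/
theorem s27eff_mul (h : S27effDiv e π) (N : ℕ) (φ : Fin N → R) :
    (Matrix.of fun (i l : Fin N) => e i (φ l)) =
      s27effL e π N * Matrix.of fun (k l : Fin N) => s27effCoef h k (φ l) := by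
  ext i l
  rw [Matrix.mul_apply, Matrix.of_apply, s27eff_eval h (φ l) i.2, ← Fin.sum_univ_eq_sum_range
    (fun k => s27effCoef h k (φ l) * ∏ j ∈ range k, (e i π - e j π)) N]
  refine sum_congr rfl fun k _ => ?_
  rw [s27effL_apply, Matrix.of_apply, mul_comm]

/-- **EFF, determinant form**: `det [e i (φ l)] = ∏_i ∏_{j<i} (z i − z j) · det [c_k (φ l)]`. -/
theorem s27eff_det (h : S27effDiv e π) (N : ℕ) (φ : Fin N → R) :
    (Matrix.of fun (i l : Fin N) => e i (φ l)).det =
      (∏ i : Fin N, ∏ j ∈ range (i : ℕ), (e i π - e j π)) *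
        (Matrix.of fun (k l : Fin N) => s27effCoef h k (φ l)).det := by
  rw [s27eff_mul h N φ, Matrix.det_mul, s27effL_det]

/-- **EFF, divisibility form**. -/
theorem s27eff_dvd (h : S27effDiv e π) (N : ℕ) (φ : Fin N → R) :
    (∏ i : Fin N, ∏ j ∈ range (i : ℕ), (e i π - e j π)) ∣
      (Matrix.of fun (i l : Fin N) => e i (φ l)).det :=
  ⟨_, s27eff_det h N φ⟩

end Core

section FinIndexed

variable {V : Type*} [CommRing V] {R : Type*} [CommRing R] [Algebra V R]

/-- (DIV) for a family of points indexed by `Fin N`. -/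
def S27effDivFin {N : ℕ} (e : Fin N → (R →ₐ[V] V)) (π : R) : Prop :=
  ∀ (i : Fin N) (r : R), e i r = 0 → ∃ r' : R, r = (π - algebraMap V R (e i π)) * r'

/-- extension of a `Fin (N+1)`-family to `ℕ` (constant beyond `N`). -/
def s27effExt {N : ℕ} (e : Fin (N + 1) → (R →ₐ[V] V)) (k : ℕ) : R →ₐ[V] V :=
  e ⟨min k N, by omega⟩

theorem s27effExt_fin {N : ℕ} (e : Fin (N + 1) → (R →ₐ[V] V)) (i : Fin (N + 1)) :
    s27effExt e (i : ℕ) = e i := by
  unfold s27effExt
  congr 1
  apply Fin.ext
  have := i.2
  show min (i : ℕ) N = i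
  omega

theorem s27effExt_div {N : ℕ} {e : Fin (N + 1) → (R →ₐ[V] V)} {π : R}
    (h : S27effDivFin e π) : S27effDiv (s27effExt e) π :=
  fun _ r hr => h _ r hr

/-- **EFF for `Fin N`-indexed points, determinant form**: there is a matrix `C` over `V` with
`det [e i (φ l)] = (∏_i ∏_{j<i} (z i − z j)) · det C`. -/
theorem s27eff_det_fin {N : ℕ} (e : Fin N → (R →ₐ[V] V)) (π : R) (h : S27effDivFin e π)
    (φ : Fin N → R) :
    ∃ C : Matrix (Fin N) (Fin N) V,
      (Matrix.of fun (i l : Fin N) => e i (φ l)).det =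
        (∏ i : Fin N, ∏ j ∈ Finset.univ.filter (fun j : Fin N => j < i), (e i π - e j π)) *
          C.det := by
  cases N with
  | zero => exact ⟨1, by simp⟩
  | succ N =>
    have h' := s27effExt_div h
    refine ⟨Matrix.of fun (k l : Fin (N + 1)) => s27effCoef h' k (φ l), ?_⟩
    have h1 := s27eff_det h' (N + 1) φ
    have h2 : (Matrix.of fun (i l : Fin (N + 1)) => (s27effExt e (i : ℕ)) (φ l)) =
        Matrix.of fun (i l : Fin (N + 1)) => e i (φ l) := by
      ext i l
      simp only [Matrix.of_apply, s27effExt_fin]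
    rw [h2] at h1
    rw [h1]
    congr 1
    refine Finset.prod_congr rfl fun i _ => ?_
    -- reindex `range i` by `{j : Fin (N+1) | j < i}`
    have h3 : ∏ j ∈ Finset.univ.filter (fun j : Fin (N + 1) => j < i), (e i π - e j π) =
        ∏ j ∈ range (i : ℕ), ((s27effExt e (i : ℕ)) π - (s27effExt e j) π) := by
      rw [s27effExt_fin]
      refine Finset.prod_bij (fun (j : Fin (N + 1)) _ => (j : ℕ)) ?_ ?_ ?_ ?_
      · intro j hj
        simp only [Finset.mem_filter, Finset.mem_univ, true_and] at hj
        exact mem_range.2 (Fin.lt_def.1 hj)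
      · intro a _ b _ hab
        exact Fin.ext hab
      · intro b hb
        have hb' := mem_range.1 hb
        refine ⟨⟨b, lt_trans hb' i.2⟩, ?_, rfl⟩
        simp only [Finset.mem_filter, Finset.mem_univ, true_and]
        exact Fin.lt_def.2 hb'
      · intro j _
        rw [s27effExt_fin]
    rw [h3]

/-- **EFF for `Fin N`-indexed points, divisibility form**. -/
theorem s27eff_dvd_fin {N : ℕ} (e : Fin N → (R →ₐ[V] V)) (π : R) (h : S27effDivFin e π)
    (φ : Fin N → R) :
    (∏ i : Fin N, ∏ j ∈ Finset.univ.filter (fun j : Fin N => j < i), (e i π - e j π)) ∣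
      (Matrix.of fun (i l : Fin N) => e i (φ l)).det := by
  obtain ⟨C, hC⟩ := s27eff_det_fin e π h φ
  exact ⟨C.det, hC⟩

end FinIndexed

section Field

variable {𝔏 : Type*} [Field 𝔏] (W : Subring 𝔏) {R : Type*} [CommRing R] [Algebra W R]

/-- **EFF** (`m_W(D) ∈ W`): for a subring `W` of a field `𝔏` (e.g. a valuation subring), points
`e i : R →ₐ[W] W` with (DIV) for the coordinate `π`, and any functions `φ l ∈ R`:
`det [e i (φ l)] / ∏_{j<i} (z i − z j) ∈ W`. -/
theorem s27eff_mem {N : ℕ} (e : Fin N → (R →ₐ[W] W)) (π : R) (h : S27effDivFin e π)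
    (φ : Fin N → R) :
    (Matrix.of fun (i l : Fin N) => ((e i (φ l) : W) : 𝔏)).det /
        (∏ i : Fin N, ∏ j ∈ Finset.univ.filter (fun j : Fin N => j < i),
          (((e i π : W) : 𝔏) - ((e j π : W) : 𝔏))) ∈ W := by
  obtain ⟨C, hC⟩ := s27eff_det_fin e π h φ
  have h1 : (Matrix.of fun (i l : Fin N) => ((e i (φ l) : W) : 𝔏)) =
      (Matrix.of fun (i l : Fin N) => e i (φ l)).map W.subtype := by
    ext i l
    simp
  have h2 : (∏ i : Fin N, ∏ j ∈ Finset.univ.filter (fun j : Fin N => j < i),
      (((e i π : W) : 𝔏) - ((e j π : W) : 𝔏))) =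
      W.subtype (∏ i : Fin N, ∏ j ∈ Finset.univ.filter (fun j : Fin N => j < i),
        (e i π - e j π)) := by
    simp [map_prod]
  have h3 : ((Matrix.of fun (i l : Fin N) => e i (φ l)).map W.subtype).det =
      W.subtype (Matrix.of fun (i l : Fin N) => e i (φ l)).det := by
    rw [RingHom.map_det]
    rfl
  rw [h1, h3, hC, map_mul, h2]
  by_cases hP : W.subtype (∏ i : Fin N, ∏ j ∈ Finset.univ.filter (fun j : Fin N => j < i),
      (e i π - e j π)) = 0
  · rw [hP, zero_mul, zero_div]
    exact W.zero_mem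
  · rw [mul_div_cancel_left₀ _ hP]
    exact (C.det).2

end Field

end Fermat.Agent.S27

end
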