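/-
S27 route B (item 27), piece EFF-INST (helper50): the INSTANCE of EFF (helper17, S27/Eff.lean) for
points in CLUSTERS with different centres, closed or generic.

Abstract setting.  `R` a local ring over `K` (the valuation ring `W`), points `i : Fin N`, clusters
`c : Fin N → C`; for every cluster `x` a centre ring `D x` (`𝒪_Q` or `F`) with coordinate `t x`, and
the points of the cluster `ι x j : D x →ₐ[K] R` (`j : {j // c j = x}`), pairwise congruent.
`τ i = ι (c i) ⟨i, rfl⟩ (t (c i))` are the coordinates of the points; the coordinate separates the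
clusters (`τ i − τ k` is a unit for `c i ≠ c k`).  Per centre, the divided-difference step
`S27eiStep` (from `S27/Diag.lean` for unramified centres: `s27ei_step_of_unramified`).

* `s27eiGerm`     : the `R`-algebra of global germs (a subalgebra of `Fin N → R`);
* `s27ei_div`     : (DIV) `S27effDivFin` for the evaluations at all the points;
* `s27ei_dvd`     : **EFF-INST** `∏_i ∏_{j<i} (τ i − τ j) ∣ det [ι_i (G l)]` in `R`.
-/
import Fermat.Agent.S27.Diag
import Fermat.Agent.S27.Eff

set_option autoImplicit false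
set_option linter.unusedSectionVars false
set_option linter.style.haveILetI false

namespace Fermat.Agent.S27

open IsLocalRing Polynomial
open scoped TensorProduct

section Germs

variable {K D R : Type*} [Field K] [CommRing D] [Algebra K D] [CommRing R] [IsLocalRing R]
  [Algebra K R] {I : Type*}

theorem s27ei_fun_neg (ι : I → D →ₐ[K] R) {φ : I → R} (hφ : S27diagFun ι φ) :
    S27diagFun ι (fun i => -φ i) := by
  obtain ⟨y, s, hu, h⟩ := hφ
  exact ⟨-y, s, hu, fun i => by rw [map_neg, ← h i]; ring⟩

/-- the inverse of a function which is a unit at all the points is a germ. -/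
theorem s27ei_fun_inv (ι : I → D →ₐ[K] R) (s₀ : D ⊗[K] R)
    (hu : ∀ i, IsUnit (s27diagEv (ι i) s₀)) (ψ : I → R)
    (hψ : ∀ i, s27diagEv (ι i) s₀ * ψ i = 1) : S27diagFun ι ψ :=
  ⟨1, s₀, hu, fun i => by rw [hψ i, map_one]⟩

/-- **The divided-difference step at a centre** `D` with coordinate `t`, for points in `R`. -/
def S27eiStep (K : Type*) [Field K] (D : Type*) [CommRing D] [Algebra K D] (t : D)
    (R : Type*) [CommRing R] [IsLocalRing R] [Algebra K R] : Prop :=
  ∀ (I : Type) (ι : I → D →ₐ[K] R), (∀ i j, S27diagCong (ι i) (ι j)) →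
    ∀ φ : I → R, S27diagFun ι φ → ∀ k : I,
      ∃ φ' : I → R, S27diagFun ι φ' ∧ ∀ i, φ i - φ k = (ι i t - ι k t) * φ' i

/-- the step holds at every unramified centre (in particular at generic centres). -/
theorem s27ei_step_of_unramified [Algebra.EssFiniteType K D] (t : D)
    (hunr : Algebra.FormallyUnramified (Algebra.adjoin K {t}) D) : S27eiStep K D t R :=
  fun _ ι hc _ hφ k => s27diag_fun_step t hunr ι hc hφ k

end Germs

section Clusters

variable {K : Type*} [Field K] {R : Type*} [CommRing R] [IsLocalRing R] [Algebra K R]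
  {N : ℕ} {C : Type*} (c : Fin N → C)
  (D : C → Type*) [∀ x, CommRing (D x)] [∀ x, Algebra K (D x)]
  (ι : ∀ x, {j : Fin N // c j = x} → (D x →ₐ[K] R))

/-- The `R`-algebra of global germs: functions on the set of points which are germs of functions
of the constant curve on every cluster. -/
def s27eiGerm : Subalgebra R (Fin N → R) where
  carrier := {φ | ∀ x, S27diagFun (ι x) (fun j => φ j.1)}
  mul_mem' := fun ha hb x => s27diag_fun_mul (ι x) (ha x) (hb x)
  add_mem' := fun ha hb x => s27diag_fun_add (ι x) (ha x) (hb x)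
  algebraMap_mem' := fun r x => s27diag_fun_const (ι x) r

theorem s27ei_mem_germ (φ : Fin N → R) :
    φ ∈ s27eiGerm c D ι ↔ ∀ x, S27diagFun (ι x) (fun j => φ j.1) := Iff.rfl

/-- the values of a family of functions `G x : D x` at the points. -/
def s27eiVal (G : ∀ x, D x) : Fin N → R := fun i => ι (c i) ⟨i, rfl⟩ (G (c i))

theorem s27ei_val_fiber (G : ∀ x, D x) (x : C) (j : {j : Fin N // c j = x}) :
    s27eiVal c D ι G j.1 = ι x j (G x) := by
  obtain ⟨j, rfl⟩ := j
  rfl

theorem s27ei_val_mem (G : ∀ x, D x) : s27eiVal c D ι G ∈ s27eiGerm c D ι := by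
  intro x
  have h : (fun j : {j : Fin N // c j = x} => s27eiVal c D ι G j.1) =
      fun j => ι x j (G x) := funext fun j => s27ei_val_fiber c D ι G x j
  rw [h]
  exact s27diag_fun_of (ι x) (G x)

/-- evaluation of a global germ at the point `i`. -/
def s27eiEv (i : Fin N) : s27eiGerm c D ι →ₐ[R] R :=
  (Pi.evalAlgHom R (fun _ : Fin N => R) i).comp (s27eiGerm c D ι).val

@[simp]
theorem s27ei_ev_apply (i : Fin N) (φ : s27eiGerm c D ι) :
    s27eiEv c D ι i φ = (φ : Fin N → R) i := rfl

variable (t : ∀ x, D x)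

/-- the coordinate as a global germ. -/
def s27eiPi : s27eiGerm c D ι := ⟨s27eiVal c D ι t, s27ei_val_mem c D ι t⟩

/-- **(DIV)** for the global germs. -/
theorem s27ei_div
    (hcong : ∀ x (j j' : {j : Fin N // c j = x}), S27diagCong (ι x j) (ι x j'))
    (hsep : ∀ i k : Fin N, c i ≠ c k → IsUnit (s27eiVal c D ι t i - s27eiVal c D ι t k))
    (hstep : ∀ x, S27eiStep K (D x) (t x) R) :
    S27effDivFin (s27eiEv c D ι) (s27eiPi c D ι t) := by
  classical
  intro k r hr
  -- the values
  set τ := s27eiVal c D ι t with hτ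
  have hrk : (r : Fin N → R) k = 0 := hr
  -- the step on the cluster of `k`
  obtain ⟨ψ, hψ, hψe⟩ := hstep (c k) _ (ι (c k)) (hcong (c k)) _ (r.2 (c k)) ⟨k, rfl⟩
  -- the quotient
  let φ' : Fin N → R := fun i =>
    if h : c i = c k then ψ ⟨i, h⟩
    else ↑((hsep i k h).unit⁻¹) * (r : Fin N → R) i
  have hφ'mem : φ' ∈ s27eiGerm c D ι := by
    intro x
    by_cases hx : x = c k
    · subst hx
      have h : (fun j : {j : Fin N // c j = c k} => φ' j.1) = ψ := by
        funext j
        simp only [φ', dif_pos j.2]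
      rw [h]
      exact hψ
    · have hne : ∀ j : {j : Fin N // c j = x}, c j.1 ≠ c k := fun j => by
        rw [j.2]; exact hx
      have h : (fun j : {j : Fin N // c j = x} => φ' j.1) =
          fun j => (↑((hsep j.1 k (hne j)).unit⁻¹) : R) * (r : Fin N → R) j.1 := by
        funext j
        simp only [φ', dif_neg (hne j)]
      rw [h]
      refine s27diag_fun_mul (ι x) ?_ (r.2 x)
      -- the inverse of `t − τ k` on the cluster `x`
      refine s27ei_fun_inv (ι x) (t x ⊗ₜ[K] (1 : R) - (1 : D x) ⊗ₜ[K] τ k) (fun j => ?_) _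
        (fun j => ?_)
      · rw [map_sub, s27diag_ev_tmul, s27diag_ev_tmul, map_one, mul_one, one_mul,
          ← s27ei_val_fiber c D ι t x j]
        exact hsep j.1 k (hne j)
      · rw [map_sub, s27diag_ev_tmul, s27diag_ev_tmul, map_one, mul_one, one_mul,
          ← s27ei_val_fiber c D ι t x j]
        exact (hsep j.1 k (hne j)).mul_val_inv
  refine ⟨⟨φ', hφ'mem⟩, ?_⟩
  apply Subtype.ext
  funext i
  show (r : Fin N → R) i =
    ((s27eiPi c D ι t : Fin N → R) i -
      (algebraMap R (s27eiGerm c D ι) (s27eiEv c D ι k (s27eiPi c D ι t)) : Fin N → R) i) * φ' i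
  have e1 : (s27eiPi c D ι t : Fin N → R) i = τ i := rfl
  have e2 : (algebraMap R (s27eiGerm c D ι) (s27eiEv c D ι k (s27eiPi c D ι t)) :
      Fin N → R) i = τ k := rfl
  rw [e1, e2]
  by_cases h : c i = c k
  · have h3 := hψe ⟨i, h⟩
    simp only [φ', dif_pos h]
    have h4 : ι (c k) ⟨i, h⟩ (t (c k)) = τ i := (s27ei_val_fiber c D ι t (c k) ⟨i, h⟩).symm
    have h5 : ι (c k) ⟨k, rfl⟩ (t (c k)) = τ k := rfl
    rw [h4, h5, hrk, sub_zero] at h3
    exact h3
  · simp only [φ', dif_neg h]
    rw [← mul_assoc, (hsep i k h).mul_val_inv, one_mul]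

/-- **EFF-INST**: the Vandermonde product of the coordinates divides the determinant of the values
of `N` functions at the `N` points, whatever the collisions. -/
theorem s27ei_dvd
    (hcong : ∀ x (j j' : {j : Fin N // c j = x}), S27diagCong (ι x j) (ι x j'))
    (hsep : ∀ i k : Fin N, c i ≠ c k → IsUnit (s27eiVal c D ι t i - s27eiVal c D ι t k))
    (hstep : ∀ x, S27eiStep K (D x) (t x) R)
    (G : Fin N → ∀ x, D x) :
    (∏ i : Fin N, ∏ j ∈ Finset.univ.filter (fun j : Fin N => j < i),
        (s27eiVal c D ι t i - s27eiVal c D ι t j)) ∣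
      (Matrix.of fun (i l : Fin N) => s27eiVal c D ι (G l) i).det :=
  s27eff_dvd_fin (s27eiEv c D ι) (s27eiPi c D ι t) (s27ei_div c D ι t hcong hsep hstep)
    (fun l => ⟨s27eiVal c D ι (G l), s27ei_val_mem c D ι (G l)⟩)

end Clusters

end Fermat.Agent.S27
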