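/-
S27 route B (item 27), piece EFF-INST, POINT FORM (helper50).

`K ⊂ 𝔏` fields, `W` a valuation subring of `𝔏` containing `K`, `F / K` a field, points
`P i : F →ₐ[K] 𝔏` (`i < N`), clusters `c : Fin N → C`; for every cluster `x` a centre ring `D x`
with an inclusion `incl x : D x →ₐ[K] F` (`D x = 𝒪_Q` a place of `F`, or `D x = F`), such that the
points of the cluster are `W`-integral on `D x` and pairwise congruent modulo `𝔪_W`; a coordinate
`t ∈ F` regular at all the centres and separating the clusters; per centre the divided-difference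
step `S27eiStep` (closed centres: `s27ei_step_of_dvr`, S27/EffInstCl.lean; generic centres:
`s27ei_step_of_unramified`, S27/EffInst.lean).  Then for functions `g l ∈ F` (`l < N`) regular at
all the centres

    `det [P i (g l)] / ∏_{j<i} (P i t − P j t) ∈ W`.            (`s27eif_mem`)
-/
import Fermat.Agent.S27.EffInst

set_option autoImplicit false
set_option linter.unusedSectionVars false
set_option linter.style.haveILetI false

namespace Fermat.Agent.S27

open IsLocalRing
open scoped TensorProduct

section Field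

variable {K F 𝔏 : Type*} [Field K] [Field F] [Field 𝔏] [Algebra K F] [Algebra K 𝔏]
  (W : ValuationSubring 𝔏) (hKW : ∀ a : K, algebraMap K 𝔏 a ∈ W)

/-- the `K`-algebra structure of a valuation subring containing `K`. -/
@[reducible] def s27eifAlg : Algebra K W :=
  ((algebraMap K 𝔏).codRestrict W.toSubring hKW).toAlgebra

theorem s27eif_algebraMap_coe (a : K) :
    ((@algebraMap K W _ _ (s27eifAlg W hKW) a : W) : 𝔏) = algebraMap K 𝔏 a := rfl

variable {N : ℕ} {C : Type*} (c : Fin N → C)
  (D : C → Type*) [∀ x, CommRing (D x)] [∀ x, Algebra K (D x)]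
  (incl : ∀ x, D x →ₐ[K] F) (P : Fin N → F →ₐ[K] 𝔏)

/-- the points of a cluster as `K`-algebra homomorphisms `D x → W`. -/
def s27eifPt (hA : ∀ x (j : Fin N), c j = x → ∀ d : D x, P j (incl x d) ∈ W)
    (x : C) (j : {j : Fin N // c j = x}) :
    @AlgHom K (D x) W _ _ _ _ (s27eifAlg W hKW) :=
  letI := s27eifAlg W hKW
  { toFun := fun d => ⟨P j.1 (incl x d), hA x j.1 j.2 d⟩
    map_one' := by apply Subtype.ext; simp
    map_mul' := fun a b => by apply Subtype.ext; simp
    map_zero' := by apply Subtype.ext; simp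
    map_add' := fun a b => by apply Subtype.ext; simp
    commutes' := fun a => by
      apply Subtype.ext
      show P j.1 (incl x (algebraMap K (D x) a)) = algebraMap K 𝔏 a
      rw [AlgHom.commutes, AlgHom.commutes] }

theorem s27eif_pt_coe (hA : ∀ x (j : Fin N), c j = x → ∀ d : D x, P j (incl x d) ∈ W)
    (x : C) (j : {j : Fin N // c j = x}) (d : D x) :
    ((s27eifPt W hKW c D incl P hA x j d : W) : 𝔏) = P j.1 (incl x d) := rfl

/-- **EFF-INST, point form.** -/
theorem s27eif_mem
    (hA : ∀ x (j : Fin N), c j = x → ∀ d : D x, P j (incl x d) ∈ W)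
    (hcong : ∀ x (i j : Fin N), c i = x → c j = x → ∀ d : D x,
      W.valuation (P i (incl x d) - P j (incl x d)) < 1)
    (t : F) (tD : ∀ x, D x) (htD : ∀ x, incl x (tD x) = t)
    (hsep : ∀ i j : Fin N, c i ≠ c j → W.valuation (P i t - P j t) = 1)
    (hstep : ∀ x, @S27eiStep K _ (D x) _ _ (tD x) W _ _ (s27eifAlg W hKW))
    (g : Fin N → F) (gD : Fin N → ∀ x, D x) (hgD : ∀ l x, incl x (gD l x) = g l) :
    (Matrix.of fun (i l : Fin N) => P i (g l)).det /
        (∏ i : Fin N, ∏ j ∈ Finset.univ.filter (fun j : Fin N => j < i), (P i t - P j t)) ∈ W := by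
  classical
  letI := s27eifAlg W hKW
  set ι := s27eifPt W hKW c D incl P hA with hι
  -- values
  have hval : ∀ (G : ∀ x, D x) (i : Fin N),
      ((s27eiVal c D ι G i : W) : 𝔏) = P i (incl (c i) (G (c i))) := fun G i => rfl
  have hvalt : ∀ i : Fin N, ((s27eiVal c D ι tD i : W) : 𝔏) = P i t := fun i => by
    rw [hval, htD]
  have hvalg : ∀ (l i : Fin N), ((s27eiVal c D ι (gD l) i : W) : 𝔏) = P i (g l) := fun l i => by
    rw [hval, hgD]
  have hc' : ∀ x (j j' : {j : Fin N // c j = x}), S27diagCong (ι x j) (ι x j') := by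
    intro x j j' b
    rw [ValuationSubring.valuation_lt_one_iff]
    have : (((ι x j b - ι x j' b : W)) : 𝔏) = P j.1 (incl x b) - P j'.1 (incl x b) := rfl
    rw [this]
    exact hcong x j.1 j'.1 j.2 j'.2 b
  have hs' : ∀ i k : Fin N, c i ≠ c k →
      IsUnit (s27eiVal c D ι tD i - s27eiVal c D ι tD k) := by
    intro i k hik
    rw [ValuationSubring.valuation_eq_one_iff]
    have : (((s27eiVal c D ι tD i - s27eiVal c D ι tD k : W)) : 𝔏) = P i t - P k t := by
      rw [← hvalt i, ← hvalt k]; rfl
    rw [this]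
    exact hsep i k hik
  obtain ⟨w, hw⟩ := s27ei_dvd c D ι tD hc' hs' hstep gD
  -- transport to `𝔏`
  have h1 : (Matrix.of fun (i l : Fin N) => P i (g l)) =
      (Matrix.of fun (i l : Fin N) => s27eiVal c D ι (gD l) i).map W.subtype := by
    ext i l
    simp only [Matrix.map_apply, Matrix.of_apply]
    exact (hvalg l i).symm
  have h2 : (∏ i : Fin N, ∏ j ∈ Finset.univ.filter (fun j : Fin N => j < i),
      (P i t - P j t)) =
      W.subtype (∏ i : Fin N, ∏ j ∈ Finset.univ.filter (fun j : Fin N => j < i),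
        (s27eiVal c D ι tD i - s27eiVal c D ι tD j)) := by
    rw [map_prod]
    refine Finset.prod_congr rfl fun i _ => ?_
    rw [map_prod]
    refine Finset.prod_congr rfl fun j _ => ?_
    rw [map_sub]
    show P i t - P j t = ((s27eiVal c D ι tD i : W) : 𝔏) - ((s27eiVal c D ι tD j : W) : 𝔏)
    rw [hvalt i, hvalt j]
  have h3 : ((Matrix.of fun (i l : Fin N) => s27eiVal c D ι (gD l) i).map W.subtype).det =
      W.subtype (Matrix.of fun (i l : Fin N) => s27eiVal c D ι (gD l) i).det := by
    rw [RingHom.map_det]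
    rfl
  rw [h1, h3, hw, map_mul, h2]
  by_cases hP : W.subtype (∏ i : Fin N, ∏ j ∈ Finset.univ.filter (fun j : Fin N => j < i),
      (s27eiVal c D ι tD i - s27eiVal c D ι tD j)) = 0
  · rw [hP, zero_mul, zero_div]
    exact W.zero_mem
  · rw [mul_div_cancel_left₀ _ hP]
    exact w.2

end Field

end Fermat.Agent.S27
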