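/-
S27 route B (item 27), geometry leaf EFF, part 2 (helper17): the LATTICE OF VALUES is the NEWTON LATTICE
(the index formula IDX for simple points; bridge between the point formula and the lattice form).

Setting of `S27/Eff.lean`: `R` a `V`-algebra, points `e i : R →ₐ[V] V` (`i : Fin N`), coordinate `π`, `z i = e i π`,
(DIV) `e i r = 0 → r ∈ (π − z i) R`.  Newton matrix `L i k = ∏_{j<k} (z i − z j)` (lower triangular).

* `s27efl_det`      : `det L = ∏_i ∏_{j<i} (z i − z j)`;
* `s27efl_values`   : `{(e i φ)_i | φ ∈ R} = {L · c | c ∈ V^N}`  (the lattice of values is spanned by the Newton columns);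
* `s27efl_exists`   : every vector `L · c` is the vector of values of a polynomial in `π` with coefficients in `V`
                      (no (DIV) needed);
* `s27efl_coeffs`   : (DIV) ⇒ every `φ` has a vector of Newton coefficients `c` with `(e i φ)_i = L · c`;
* `s27efl_det_values` : for `φ_l ∈ R` there is `C` over `V` with `[e i (φ l)] = L · C`.
-/
import Fermat.Agent.S27.Eff

set_option autoImplicit false

noncomputable section

namespace Fermat.Agent.S27

open Matrix Finset

variable {V : Type*} [CommRing V] {R : Type*} [CommRing R] [Algebra V R]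

/-- the Newton matrix of a `Fin N`-family of points: `L i k = ∏_{j<k} (z i − z j)`. -/
def s27eflL {N : ℕ} (e : Fin N → (R →ₐ[V] V)) (π : R) : Matrix (Fin N) (Fin N) V :=
  Matrix.of fun i k => ∏ j ∈ Finset.univ.filter (fun j : Fin N => j < k), (e i π - e j π)

theorem s27eflL_apply {N : ℕ} (e : Fin N → (R →ₐ[V] V)) (π : R) (i k : Fin N) :
    s27eflL e π i k = ∏ j ∈ Finset.univ.filter (fun j : Fin N => j < k), (e i π - e j π) := rfl

theorem s27eflL_upper {N : ℕ} (e : Fin N → (R →ₐ[V] V)) (π : R) {i k : Fin N} (hik : i < k) :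
    s27eflL e π i k = 0 := by
  rw [s27eflL_apply]
  refine prod_eq_zero (i := i) ?_ (sub_self _)
  simp only [Finset.mem_filter, Finset.mem_univ, true_and]
  exact hik

/-- the determinant of the Newton matrix is the Vandermonde product. -/
theorem s27efl_det {N : ℕ} (e : Fin N → (R →ₐ[V] V)) (π : R) :
    (s27eflL e π).det =
      ∏ i : Fin N, ∏ j ∈ Finset.univ.filter (fun j : Fin N => j < i), (e i π - e j π) := by
  rw [Matrix.det_of_isLowerTriangular]
  · rfl
  · intro i k hik
    exact s27eflL_upper e π hik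

/-- the Newton polynomial in `π` with coefficient vector `c`. -/
def s27eflPoly {N : ℕ} (e : Fin N → (R →ₐ[V] V)) (π : R) (c : Fin N → V) : R :=
  ∑ k : Fin N, algebraMap V R (c k) *
    ∏ j ∈ Finset.univ.filter (fun j : Fin N => j < k), (π - algebraMap V R (e j π))

/-- the values of the Newton polynomial are `L · c`. -/
theorem s27efl_exists {N : ℕ} (e : Fin N → (R →ₐ[V] V)) (π : R) (c : Fin N → V) (i : Fin N) :
    e i (s27eflPoly e π c) = (s27eflL e π).mulVec c i := by
  unfold s27eflPoly
  rw [map_sum, Matrix.mulVec, dotProduct]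
  refine sum_congr rfl fun k _ => ?_
  rw [map_mul, map_prod, s27eflL_apply, mul_comm]
  congr 1
  · refine prod_congr rfl fun j _ => ?_
    simp
  · simp

/-- reindexing of the products: `Fin (N+1)` versus `ℕ`. -/
theorem s27efl_prod_ext {N : ℕ} (e : Fin (N + 1) → (R →ₐ[V] V)) (π : R) (i k : Fin (N + 1)) :
    ∏ j ∈ range (k : ℕ), ((s27effExt e (i : ℕ)) π - (s27effExt e j) π) =
      ∏ j ∈ Finset.univ.filter (fun j : Fin (N + 1) => j < k), (e i π - e j π) := by
  rw [s27effExt_fin]
  symm
  refine Finset.prod_bij (fun (j : Fin (N + 1)) _ => (j : ℕ)) ?_ ?_ ?_ ?_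
  · intro j hj
    simp only [Finset.mem_filter, Finset.mem_univ, true_and] at hj
    exact mem_range.2 (Fin.lt_def.1 hj)
  · intro a _ b _ hab
    exact Fin.ext hab
  · intro b hb
    have hb' := mem_range.1 hb
    refine ⟨⟨b, lt_trans hb' k.2⟩, ?_, rfl⟩
    simp only [Finset.mem_filter, Finset.mem_univ, true_and]
    exact Fin.lt_def.2 hb'
  · intro j _
    rw [s27effExt_fin]

/-- **Newton coefficients**: under (DIV) the vector of values of any `φ ∈ R` is `L · c`. -/
theorem s27efl_coeffs {N : ℕ} (e : Fin N → (R →ₐ[V] V)) (π : R) (h : S27effDivFin e π) (φ : R) :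
    ∃ c : Fin N → V, ∀ i, e i φ = (s27eflL e π).mulVec c i := by
  cases N with
  | zero => exact ⟨fun _ => 0, fun i => i.elim0⟩
  | succ N =>
    have h' := s27effExt_div h
    refine ⟨fun k => s27effCoef h' k φ, fun i => ?_⟩
    have h1 := s27eff_eval h' φ i.2
    rw [s27effExt_fin] at h1
    rw [h1, Matrix.mulVec, dotProduct, ← Fin.sum_univ_eq_sum_range
      (fun k => s27effCoef h' k φ *
        ∏ j ∈ range k, ((e i) π - (s27effExt e j) π)) (N + 1)]
    refine sum_congr rfl fun k _ => ?_
    have h2 := s27efl_prod_ext e π i k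
    rw [s27effExt_fin] at h2
    rw [h2, s27eflL_apply, mul_comm]

/-- **The lattice of values is the Newton lattice.** -/
theorem s27efl_values {N : ℕ} (e : Fin N → (R →ₐ[V] V)) (π : R) (h : S27effDivFin e π) :
    Set.range (fun (φ : R) (i : Fin N) => e i φ) =
      Set.range (fun c : Fin N → V => (s27eflL e π).mulVec c) := by
  ext y
  constructor
  · rintro ⟨φ, rfl⟩
    obtain ⟨c, hc⟩ := s27efl_coeffs e π h φ
    exact ⟨c, funext fun i => (hc i).symm⟩
  · rintro ⟨c, rfl⟩
    exact ⟨s27eflPoly e π c, funext fun i => s27efl_exists e π c i⟩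

/-- matrix form: `[e i (φ l)] = L · C` with `C` over `V`. -/
theorem s27efl_det_values {N : ℕ} (e : Fin N → (R →ₐ[V] V)) (π : R) (h : S27effDivFin e π)
    (φ : Fin N → R) :
    ∃ C : Matrix (Fin N) (Fin N) V,
      (Matrix.of fun (i l : Fin N) => e i (φ l)) = s27eflL e π * C := by
  choose c hc using fun l => s27efl_coeffs e π h (φ l)
  refine ⟨Matrix.of fun k l => c l k, ?_⟩
  ext i l
  rw [Matrix.of_apply, hc l i, Matrix.mul_apply, Matrix.mulVec, dotProduct]
  rfl

end Fermat.Agent.S27

end
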