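/-
S27 route B (item 27), geometry leaf EFF, part 3 (helper17): Newton interpolation in POLYNOMIAL form
(monomial basis), the shape of `S27ptIsLatBasis.span` for the lattice basis `φ_j = a · t^j`.

Setting of `S27/Eff.lean`: `R` a `V`-algebra, points `e i : R →ₐ[V] V` (`i : Fin N`), coordinate `π`,
`z i = e i π`, (DIV) `e i r = 0 → r ∈ (π − z i) R`.

* `s27efp_poly`   : ∀ φ ∈ R ∃ p ∈ V[X], natDegree p < N (or `N = 0`), ∀ i, e i φ = p.eval (z i);
* `s27efp_coeffs` : ∀ φ ∈ R ∃ c : Fin N → V, ∀ i, e i φ = ∑ j, z i ^ j · c j;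
* `s27efp_span`   : field form: `W` a subring of a field `𝔏`, values in `𝔏`, multipliers `α i`:
                    `α i · e i φ = ∑ j, (α i · z i ^ j) · c j` with `c j ∈ W`.
-/
import Fermat.Agent.S27.EffLat

set_option autoImplicit false

noncomputable section

namespace Fermat.Agent.S27

open Matrix Finset Polynomial

variable {V : Type*} [CommRing V] {R : Type*} [CommRing R] [Algebra V R]

/-- the Newton polynomial `∑_k c_k ∏_{j<k} (X − z j)` over `V`. -/
def s27efpPoly {N : ℕ} (z : Fin N → V) (c : Fin N → V) : V[X] :=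
  ∑ k : Fin N, C (c k) * ∏ j ∈ Finset.univ.filter (fun j : Fin N => j < k), (X - C (z j))

theorem s27efp_eval {N : ℕ} (z : Fin N → V) (c : Fin N → V) (x : V) :
    (s27efpPoly z c).eval x =
      ∑ k : Fin N, c k * ∏ j ∈ Finset.univ.filter (fun j : Fin N => j < k), (x - z j) := by
  unfold s27efpPoly
  rw [eval_finsetSum]
  refine sum_congr rfl fun k _ => ?_
  rw [eval_mul, eval_C, eval_prod]
  congr 1
  refine prod_congr rfl fun j _ => ?_
  rw [eval_sub, eval_X, eval_C]

theorem s27efp_natDegree_lt {N : ℕ} (hN : 0 < N) (z : Fin N → V) (c : Fin N → V) :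
    (s27efpPoly z c).natDegree < N := by
  rcases subsingleton_or_nontrivial V with hV | hV
  · have : s27efpPoly z c = 0 := Subsingleton.elim _ _
    rw [this, natDegree_zero]
    exact hN
  unfold s27efpPoly
  have h1 : ∀ k : Fin N, (C (c k) * ∏ j ∈ Finset.univ.filter (fun j : Fin N => j < k),
      (X - C (z j))).natDegree ≤ N - 1 := by
    intro k
    refine (natDegree_C_mul_le _ _).trans ?_
    refine (natDegree_prod_le _ _).trans ?_
    have h2 : ∑ j ∈ Finset.univ.filter (fun j : Fin N => j < k), (X - C (z j)).natDegree =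
        (Finset.univ.filter (fun j : Fin N => j < k)).card := by
      rw [Finset.card_eq_sum_ones]
      refine sum_congr rfl fun j _ => natDegree_X_sub_C (z j)
    rw [h2]
    have h3 : (Finset.univ.filter (fun j : Fin N => j < k)).card = (k : ℕ) := by
      have : Finset.univ.filter (fun j : Fin N => j < k) = Finset.Iio k := by
        ext j; simp
      rw [this, Fin.card_Iio]
    rw [h3]
    have := k.2
    omega
  have h4 : (∑ k : Fin N, C (c k) * ∏ j ∈ Finset.univ.filter (fun j : Fin N => j < k),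
      (X - C (z j))).natDegree ≤ N - 1 :=
    natDegree_sum_le_of_forall_le _ _ fun k _ => h1 k
  omega

/-- **Newton interpolation, polynomial form.** -/
theorem s27efp_poly {N : ℕ} (e : Fin N → (R →ₐ[V] V)) (π : R) (h : S27effDivFin e π) (φ : R) :
    ∃ p : V[X], (0 < N → p.natDegree < N) ∧ ∀ i, e i φ = p.eval (e i π) := by
  obtain ⟨c, hc⟩ := s27efl_coeffs e π h φ
  refine ⟨s27efpPoly (fun i => e i π) c, fun hN => s27efp_natDegree_lt hN _ _, fun i => ?_⟩
  rw [hc i, s27efp_eval, Matrix.mulVec, dotProduct]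
  refine sum_congr rfl fun k _ => ?_
  rw [s27eflL_apply, mul_comm]

/-- **Newton interpolation, monomial coefficients.** -/
theorem s27efp_coeffs {N : ℕ} (e : Fin N → (R →ₐ[V] V)) (π : R) (h : S27effDivFin e π) (φ : R) :
    ∃ c : Fin N → V, ∀ i, e i φ = ∑ j : Fin N, e i π ^ (j : ℕ) * c j := by
  obtain ⟨p, hp, hval⟩ := s27efp_poly e π h φ
  refine ⟨fun j => p.coeff j, fun i => ?_⟩
  rcases Nat.eq_zero_or_pos N with h0 | hN
  · subst h0
    exact i.elim0
  · rw [hval i, eval_eq_sum_range' (hp hN), ← Fin.sum_univ_eq_sum_range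
      (fun j => p.coeff j * e i π ^ j) N]
    refine sum_congr rfl fun j _ => ?_
    rw [mul_comm]

/-- **span, field form** (the shape of `S27ptIsLatBasis.span` for `φ_j = a · t^j`): `W` a subring
of a field `𝔏`, multipliers `α i ∈ 𝔏`. -/
theorem s27efp_span {𝔏 : Type*} [Field 𝔏] (W : Subring 𝔏) {R : Type*} [CommRing R] [Algebra W R]
    {N : ℕ} (e : Fin N → (R →ₐ[W] W)) (π : R) (h : S27effDivFin e π) (α : Fin N → 𝔏) (φ : R) :
    ∃ c : Fin N → 𝔏, (∀ j, c j ∈ W) ∧
      ∀ i, α i * ((e i φ : W) : 𝔏) = ∑ j : Fin N, (α i * ((e i π : W) : 𝔏) ^ (j : ℕ)) * c j := by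
  obtain ⟨c, hc⟩ := s27efp_coeffs e π h φ
  refine ⟨fun j => ((c j : W) : 𝔏), fun j => (c j).2, fun i => ?_⟩
  rw [hc i]
  have h1 : ((∑ j : Fin N, e i π ^ (j : ℕ) * c j : W) : 𝔏) =
      ∑ j : Fin N, ((e i π : W) : 𝔏) ^ (j : ℕ) * ((c j : W) : 𝔏) := by
    rw [← Subring.coe_subtype, map_sum]
    refine sum_congr rfl fun j _ => ?_
    rw [map_mul, map_pow]
  rw [h1, Finset.mul_sum]
  refine sum_congr rfl fun j _ => ?_
  rw [mul_assoc]

end Fermat.Agent.S27

end
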