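/-
S27 route B (item 27), piece EFF-INST, SPAN FORM (helper50): the lattice of values in the point
form, for the consumers of LAT-EX (`S27ptIsLatBasis`, S27/PtDef.lean).

Setting of `S27/EffInstF.lean`: `K ⊂ 𝔏` fields, `W` a valuation subring of `𝔏` containing `K`,
points `P i : F →ₐ[K] 𝔏` (`i < N`) in clusters `c : Fin N → C`, centres `D x` with inclusions
`incl x : D x →ₐ[K] F`, the points of a cluster `W`-integral on `D x` and pairwise congruent modulo
`𝔪_W`, a coordinate `t` regular at all the centres and separating the clusters, per centre the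
divided-difference step `S27eiStep`.

* `s27eis_span`     : `g` regular at all the centres ⇒ `∃ c_j ∈ W, ∀ i, P i g = ∑_j (P i t)^j c_j`;
* `s27eis_span_mul` : the same with a multiplier: `P i (a g) = ∑_j P i (a t^j) c_j`;
* `s27eis_eq_of_t`  : two points of a cluster with the same coordinate agree on the centre;
* `s27eis_t_ne`     : points which are distinct on their centres have distinct coordinates;
* `s27eis_det_ne`   : `det [P i (a t^j)] ≠ 0`;
* `s27eis_latBasis` : **`S27ptIsLatBasis W P A' (a · t^j)`** from: `a t^j ∈ 𝓕`, and `ψ / a` is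
                      regular at all the centres for every `ψ ∈ 𝓕`.
-/
import Fermat.Agent.S27.EffInstF
import Fermat.Agent.S27.EffPoly
import Fermat.Agent.S27.PtDef

set_option autoImplicit false
set_option linter.unusedSectionVars false
set_option linter.style.haveILetI false

namespace Fermat.Agent.S27

open IsLocalRing
open scoped TensorProduct

section Span

variable {K F 𝔏 : Type*} [Field K] [Field F] [Field 𝔏] [Algebra K F] [Algebra K 𝔏]
  (W : ValuationSubring 𝔏) (hKW : ∀ a : K, algebraMap K 𝔏 a ∈ W)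
  {N : ℕ} {C : Type*} (c : Fin N → C)
  (D : C → Type*) [∀ x, CommRing (D x)] [∀ x, Algebra K (D x)]
  (incl : ∀ x, D x →ₐ[K] F) (P : Fin N → F →ₐ[K] 𝔏)

/-- **span, point form**: the values of a function regular at all the centres are a
`W`-combination of the values of the powers of the coordinate. -/
theorem s27eis_span
    (hA : ∀ x (j : Fin N), c j = x → ∀ d : D x, P j (incl x d) ∈ W)
    (hcong : ∀ x (i j : Fin N), c i = x → c j = x → ∀ d : D x,
      W.valuation (P i (incl x d) - P j (incl x d)) < 1)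
    (t : F) (tD : ∀ x, D x) (htD : ∀ x, incl x (tD x) = t)
    (hsep : ∀ i j : Fin N, c i ≠ c j → W.valuation (P i t - P j t) = 1)
    (hstep : ∀ x, @S27eiStep K _ (D x) _ _ (tD x) W _ _ (s27eifAlg W hKW))
    (g : F) (gD : ∀ x, D x) (hgD : ∀ x, incl x (gD x) = g) :
    ∃ cf : Fin N → 𝔏, (∀ j, cf j ∈ W) ∧
      ∀ i, P i g = ∑ j : Fin N, P i t ^ (j : ℕ) * cf j := by
  classical
  letI := s27eifAlg W hKW
  set ι := s27eifPt W hKW c D incl P hA with hι
  have hval : ∀ (G : ∀ x, D x) (i : Fin N),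
      ((s27eiVal c D ι G i : W) : 𝔏) = P i (incl (c i) (G (c i))) := fun G i => rfl
  have hvalt : ∀ i : Fin N, ((s27eiVal c D ι tD i : W) : 𝔏) = P i t := fun i => by
    rw [hval, htD]
  have hvalg : ∀ (i : Fin N), ((s27eiVal c D ι gD i : W) : 𝔏) = P i g := fun i => by
    rw [hval, hgD]
  have hc' : ∀ x (j j' : {j : Fin N // c j = x}), S27diagCong (ι x j) (ι x j') := by
    intro x j j' b
    rw [ValuationSubring.valuation_lt_one_iff]
    have : (((ι x j b - ι x j' b : W)) : 𝔏) = P j.1 (incl x b) - P j'.1 (incl x b) := rfl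
    rw [this]
    exact hcong x j.1 j'.1 j.2 j'.2 b
  have hs' : ∀ i k : Fin N, c i ≠ c k →
      IsUnit (s27eiVal c D ι tD i - s27eiVal c D ι tD k) := by
    intro i k hik
    rw [ValuationSubring.valuation_eq_one_iff]
    have : (((s27eiVal c D ι tD i - s27eiVal c D ι tD k : W)) : 𝔏) = P i t - P k t := by
      rw [← hvalt i, ← hvalt k]; rfl
    rw [this]
    exact hsep i k hik
  have hdiv := s27ei_div c D ι tD hc' hs' hstep
  obtain ⟨cf, hcf⟩ := s27efp_coeffs (s27eiEv c D ι) (s27eiPi c D ι tD) hdiv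
    ⟨s27eiVal c D ι gD, s27ei_val_mem c D ι gD⟩
  refine ⟨fun j => ((cf j : W) : 𝔏), fun j => (cf j).2, fun i => ?_⟩
  have h1 := congrArg (fun w : W => (w : 𝔏)) (hcf i)
  simp only [s27ei_ev_apply] at h1
  rw [← hvalg i]
  refine h1.trans ?_
  have h2 : ((∑ j : Fin N, (s27eiEv c D ι i (s27eiPi c D ι tD)) ^ (j : ℕ) * cf j : W) : 𝔏) =
      ∑ j : Fin N, (((s27eiEv c D ι i (s27eiPi c D ι tD)) ^ (j : ℕ) * cf j : W) : 𝔏) :=
    map_sum W.subtype _ _
  have h3 : ((∑ j : Fin N, (s27eiPi c D ι tD : Fin N → W) i ^ (j : ℕ) * cf j : W) : 𝔏) =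
      ((∑ j : Fin N, (s27eiEv c D ι i (s27eiPi c D ι tD)) ^ (j : ℕ) * cf j : W) : 𝔏) := rfl
  rw [h3, h2]
  refine Finset.sum_congr rfl fun j _ => ?_
  show (((s27eiEv c D ι i (s27eiPi c D ι tD)) ^ (j : ℕ) : W) : 𝔏) * ((cf j : W) : 𝔏) = _
  have h4 : (((s27eiEv c D ι i (s27eiPi c D ι tD)) ^ (j : ℕ) : W) : 𝔏) =
      ((s27eiVal c D ι tD i : W) : 𝔏) ^ (j : ℕ) := rfl
  rw [h4, hvalt i]

/-- **span with a multiplier**: `P i (a g) = ∑_j P i (a t^j) c_j`, `c_j ∈ W`. -/
theorem s27eis_span_mul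
    (hA : ∀ x (j : Fin N), c j = x → ∀ d : D x, P j (incl x d) ∈ W)
    (hcong : ∀ x (i j : Fin N), c i = x → c j = x → ∀ d : D x,
      W.valuation (P i (incl x d) - P j (incl x d)) < 1)
    (t : F) (tD : ∀ x, D x) (htD : ∀ x, incl x (tD x) = t)
    (hsep : ∀ i j : Fin N, c i ≠ c j → W.valuation (P i t - P j t) = 1)
    (hstep : ∀ x, @S27eiStep K _ (D x) _ _ (tD x) W _ _ (s27eifAlg W hKW))
    (a : F) (g : F) (gD : ∀ x, D x) (hgD : ∀ x, incl x (gD x) = g) :
    ∃ cf : Fin N → 𝔏, (∀ j, cf j ∈ W) ∧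
      ∀ i, P i (a * g) = ∑ j : Fin N, P i (a * t ^ (j : ℕ)) * cf j := by
  obtain ⟨cf, hcf, h⟩ := s27eis_span W hKW c D incl P hA hcong t tD htD hsep hstep g gD hgD
  refine ⟨cf, hcf, fun i => ?_⟩
  rw [map_mul, h i, Finset.mul_sum]
  refine Finset.sum_congr rfl fun j _ => ?_
  rw [map_mul, map_pow, mul_assoc]

/-- two points of a cluster with the same coordinate agree on the centre. -/
theorem s27eis_eq_of_t
    (hA : ∀ x (j : Fin N), c j = x → ∀ d : D x, P j (incl x d) ∈ W)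
    (hcong : ∀ x (i j : Fin N), c i = x → c j = x → ∀ d : D x,
      W.valuation (P i (incl x d) - P j (incl x d)) < 1)
    (t : F) (tD : ∀ x, D x) (htD : ∀ x, incl x (tD x) = t)
    (hstep : ∀ x, @S27eiStep K _ (D x) _ _ (tD x) W _ _ (s27eifAlg W hKW))
    (x : C) (i k : Fin N) (hi : c i = x) (hk : c k = x) (ht : P i t = P k t) (d : D x) :
    P i (incl x d) = P k (incl x d) := by
  classical
  letI := s27eifAlg W hKW
  set ι := s27eifPt W hKW c D incl P hA with hι
  have hc' : ∀ (j j' : {j : Fin N // c j = x}), S27diagCong (ι x j) (ι x j') := by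
    intro j j' b
    rw [ValuationSubring.valuation_lt_one_iff]
    have : (((ι x j b - ι x j' b : W)) : 𝔏) = P j.1 (incl x b) - P j'.1 (incl x b) := rfl
    rw [this]
    exact hcong x j.1 j'.1 j.2 j'.2 b
  -- `ULift`-free: the step is stated for index types in `Type`
  obtain ⟨φ', -, hφ'⟩ := hstep x {j : Fin N // c j = x} (ι x) hc' (fun j => ι x j d)
    (s27diag_fun_of (ι x) d) ⟨k, hk⟩
  have h1 := congrArg (fun w : W => (w : 𝔏)) (hφ' ⟨i, hi⟩)
  have h2 : ((ι x ⟨i, hi⟩ d - ι x ⟨k, hk⟩ d : W) : 𝔏) = P i (incl x d) - P k (incl x d) := rfl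
  have h3 : (((ι x ⟨i, hi⟩ (tD x) - ι x ⟨k, hk⟩ (tD x)) * φ' ⟨i, hi⟩ : W) : 𝔏) =
      (P i (incl x (tD x)) - P k (incl x (tD x))) * ((φ' ⟨i, hi⟩ : W) : 𝔏) := rfl
  have h4 : P i (incl x d) - P k (incl x d) =
      (P i (incl x (tD x)) - P k (incl x (tD x))) * ((φ' ⟨i, hi⟩ : W) : 𝔏) := by
    rw [← h2, ← h3]
    exact h1
  rw [htD, ht, sub_self, zero_mul] at h4
  exact sub_eq_zero.mp h4

/-- points which are distinct on their centres have distinct coordinates. -/
theorem s27eis_t_ne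
    (hA : ∀ x (j : Fin N), c j = x → ∀ d : D x, P j (incl x d) ∈ W)
    (hcong : ∀ x (i j : Fin N), c i = x → c j = x → ∀ d : D x,
      W.valuation (P i (incl x d) - P j (incl x d)) < 1)
    (t : F) (tD : ∀ x, D x) (htD : ∀ x, incl x (tD x) = t)
    (hsep : ∀ i j : Fin N, c i ≠ c j → W.valuation (P i t - P j t) = 1)
    (hstep : ∀ x, @S27eiStep K _ (D x) _ _ (tD x) W _ _ (s27eifAlg W hKW))
    (hdist : ∀ i k : Fin N, i ≠ k → c i = c k →
      ∃ d : D (c k), P i (incl (c k) d) ≠ P k (incl (c k) d))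
    (i k : Fin N) (hik : i ≠ k) : P i t ≠ P k t := by
  intro ht
  by_cases hc : c i = c k
  · obtain ⟨d, hd⟩ := hdist i k hik hc
    exact hd (s27eis_eq_of_t W hKW c D incl P hA hcong t tD htD hstep (c k) i k hc rfl ht d)
  · have h := hsep i k hc
    rw [ht, sub_self, map_zero] at h
    exact zero_ne_one h

/-- the matrix of values of `a · t^j` is a row-scaled Vandermonde matrix. -/
theorem s27eis_val_eq (a t : F) :
    s27ptVal P (fun j : Fin N => a * t ^ (j : ℕ)) =
      Matrix.of fun i j => P i a * Matrix.vandermonde (fun i => P i t) i j := by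
  ext i j
  rw [s27ptVal_apply, Matrix.of_apply, Matrix.vandermonde_apply, map_mul, map_pow]

theorem s27eis_det_eq (a t : F) :
    (s27ptVal P (fun j : Fin N => a * t ^ (j : ℕ))).det =
      (∏ i, P i a) * (Matrix.vandermonde (fun i => P i t)).det := by
  rw [s27eis_val_eq, Matrix.det_mul_column]

/-- `det [P i (a t^j)] ≠ 0`. -/
theorem s27eis_det_ne
    (hA : ∀ x (j : Fin N), c j = x → ∀ d : D x, P j (incl x d) ∈ W)
    (hcong : ∀ x (i j : Fin N), c i = x → c j = x → ∀ d : D x,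
      W.valuation (P i (incl x d) - P j (incl x d)) < 1)
    (t : F) (tD : ∀ x, D x) (htD : ∀ x, incl x (tD x) = t)
    (hsep : ∀ i j : Fin N, c i ≠ c j → W.valuation (P i t - P j t) = 1)
    (hstep : ∀ x, @S27eiStep K _ (D x) _ _ (tD x) W _ _ (s27eifAlg W hKW))
    (hdist : ∀ i k : Fin N, i ≠ k → c i = c k →
      ∃ d : D (c k), P i (incl (c k) d) ≠ P k (incl (c k) d))
    (a : F) (ha : a ≠ 0) :
    (s27ptVal P (fun j : Fin N => a * t ^ (j : ℕ))).det ≠ 0 := by
  rw [s27eis_det_eq]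
  refine mul_ne_zero (Finset.prod_ne_zero_iff.mpr fun i _ => ?_) ?_
  · exact (map_ne_zero_iff _ (P i).toRingHom.injective).mpr ha
  · rw [Matrix.det_vandermonde_ne_zero_iff]
    intro i k h
    by_contra hik
    exact s27eis_t_ne W hKW c D incl P hA hcong t tD htD hsep hstep hdist i k hik h

end Span

section LatBasis

open AlgebraicCurve

variable {K F 𝔏 : Type*} [Field K] [Field F] [Field 𝔏] [Algebra K F] [Algebra K 𝔏]
  (W : ValuationSubring 𝔏) (hKW : ∀ a : K, algebraMap K 𝔏 a ∈ W)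
  {N : ℕ} {C : Type*} (c : Fin N → C)
  (D : C → Type*) [∀ x, CommRing (D x)] [∀ x, Algebra K (D x)]
  (incl : ∀ x, D x →ₐ[K] F) (P : Fin N → F →ₐ[K] 𝔏)

/-- **LAT-EX from the cluster data**: `φ_j = a · t^j` is a `W`-basis of the lattice of values
`M_W(P, A')`, as soon as `a t^j ∈ 𝓕` and `ψ / a` is regular at all the centres for every
`ψ ∈ 𝓕`. -/
theorem s27eis_latBasis
    (hA : ∀ x (j : Fin N), c j = x → ∀ d : D x, P j (incl x d) ∈ W)
    (hcong : ∀ x (i j : Fin N), c i = x → c j = x → ∀ d : D x,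
      W.valuation (P i (incl x d) - P j (incl x d)) < 1)
    (t : F) (tD : ∀ x, D x) (htD : ∀ x, incl x (tD x) = t)
    (hsep : ∀ i j : Fin N, c i ≠ c j → W.valuation (P i t - P j t) = 1)
    (hstep : ∀ x, @S27eiStep K _ (D x) _ _ (tD x) W _ _ (s27eifAlg W hKW))
    (hdist : ∀ i k : Fin N, i ≠ k → c i = c k →
      ∃ d : D (c k), P i (incl (c k) d) ≠ P k (incl (c k) d))
    (A' : Divisor K F) (a : F) (ha : a ≠ 0)
    (hmem : ∀ j : Fin N, a * t ^ (j : ℕ) ∈ s27ptF W P A')
    (hquot : ∀ ψ ∈ s27ptF W P A', ∀ x, ∃ d : D x, incl x d = ψ / a) :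
    S27ptIsLatBasis W P A' (fun j : Fin N => a * t ^ (j : ℕ)) where
  mem := hmem
  det_ne := s27eis_det_ne W hKW c D incl P hA hcong t tD htD hsep hstep hdist a ha
  span := by
    intro ψ hψ
    choose gD hgD using hquot ψ hψ
    obtain ⟨cf, hcf, h⟩ := s27eis_span_mul W hKW c D incl P hA hcong t tD htD hsep hstep a
      (ψ / a) gD hgD
    refine ⟨cf, hcf, fun i => ?_⟩
    rw [← h i, mul_div_cancel₀ _ ha]

end LatBasis

end Fermat.Agent.S27
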