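/-
S27 route B (item 27), piece EFF-INST, LAT-EX FOR EVERY ADAPTED PAIR (helper50).

`F / K` a curve over an algebraically closed field of characteristic `0`, `W ⊇ K` a valuation
subring of a field `𝔏 ⊇ K`, pairwise distinct points `R i : F →ₐ[K] 𝔏` (`i < N`), `A'` a divisor of
`F / K`, `(t, a)` ANY adapted pair for `(W, R, −A')` (`S27IsAdapted`, S27/AdExPred.lean).  Then

    `φ_j = a · t^j` (`j < N`) is a `W`-basis of the lattice of values `M_W(R, A')`
                                                             (`s27eil_latBasis`),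

and in particular `det [R i (f l)] / det [R i (a t^j)]` is a local equation (`s27eil_isIdx`).

Clusters: the classes of the congruence `R i ≡ R j mod 𝔪_W` (`S27eilRel`); the centre ring of a
cluster is `{f | R i f ∈ W}` for the chosen representative; the steps are helper40's
`s27eip_step_point` (S27/EffInstPl.lean); the frame is `s27eis_latBasis` (S27/EffInstSpan.lean),
its remaining hypotheses come from S27/EffInstAd.lean.
-/
import Fermat.Agent.S27.EffInstSpan
import Fermat.Agent.S27.EffInstAd
import Fermat.Agent.S27.EffInstPl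

set_option autoImplicit false
set_option linter.unusedSectionVars false
set_option linter.style.haveILetI false

noncomputable section

namespace Fermat.Agent.S27

open AlgebraicCurve

universe u v w

variable {K : Type u} {F : Type v} [Field K] [Field F] [Algebra K F]
  {𝔏 : Type w} [Field 𝔏] [Algebra K 𝔏]

section Rel

variable (W : ValuationSubring 𝔏) {N : ℕ} (R : Fin N → F →ₐ[K] 𝔏)

/-- congruence of two points modulo `𝔪_W` (on the functions regular at both). -/
def S27eilRel (i j : Fin N) : Prop :=
  ∀ f : F, R i f ∈ W → R j f ∈ W → R i f - R j f ∈ W.nonunits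

theorem s27eil_rel_refl (i : Fin N) : S27eilRel W R i i := by
  intro f _ _
  rw [sub_self, ValuationSubring.mem_nonunits_iff, map_zero]
  exact zero_lt_one

theorem s27eil_rel_symm {i j : Fin N} (h : S27eilRel W R i j) : S27eilRel W R j i := by
  intro f hj hi
  have h1 := h f hi hj
  rw [ValuationSubring.mem_nonunits_iff] at h1 ⊢
  rw [← Valuation.map_neg, neg_sub]
  exact h1

theorem s27eil_rel_centre {i j : Fin N} (h : S27eilRel W R i j) (f : F) :
    R i f ∈ W ↔ R j f ∈ W := by
  have h1 := s27eia_same_centre W (R i) (R j) h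
  have h2 : f ∈ W.comap (R i : F →+* 𝔏) ↔ f ∈ W.comap (R j : F →+* 𝔏) := by rw [h1]
  exact h2

theorem s27eil_rel_trans {i j k : Fin N} (h : S27eilRel W R i j) (h' : S27eilRel W R j k) :
    S27eilRel W R i k := by
  intro f hi hk
  have hj : R j f ∈ W := (s27eil_rel_centre W R h f).mp hi
  have h1 := h f hi hj
  have h2 := h' f hj hk
  rw [ValuationSubring.mem_nonunits_iff] at h1 h2 ⊢
  have : R i f - R k f = (R i f - R j f) + (R j f - R k f) := by ring
  rw [this]
  exact lt_of_le_of_lt (Valuation.map_add _ _ _) (max_lt h1 h2)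

/-- the setoid of the clusters. -/
def s27eilSetoid : Setoid (Fin N) where
  r := S27eilRel W R
  iseqv := ⟨s27eil_rel_refl W R, fun h => s27eil_rel_symm W R h,
    fun h h' => s27eil_rel_trans W R h h'⟩

/-- the centre ring of a point: the functions with integral value. -/
def s27eilCentre (hW : ∀ a : K, algebraMap K 𝔏 a ∈ W) (P : F →ₐ[K] 𝔏) : Subalgebra K F where
  carrier := {f | P f ∈ W}
  mul_mem' := fun {a b} ha hb => by
    show P (a * b) ∈ W
    rw [map_mul]
    exact W.mul_mem _ _ ha hb
  add_mem' := fun {a b} ha hb => by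
    show P (a + b) ∈ W
    rw [map_add]
    exact W.add_mem _ _ ha hb
  algebraMap_mem' := fun r => by
    show P (algebraMap K F r) ∈ W
    rw [AlgHom.commutes]
    exact hW r

theorem s27eil_mem_centre (hW : ∀ a : K, algebraMap K 𝔏 a ∈ W) (P : F →ₐ[K] 𝔏) (f : F) :
    f ∈ s27eilCentre W hW P ↔ P f ∈ W := Iff.rfl

end Rel

section Main

variable [IsAlgClosed K] [CharZero K] [IsCurveOver K F] [Algebra.EssFiniteType K F]

omit [CharZero K] [IsCurveOver K F] [Algebra.EssFiniteType K F] in
/-- a non-constant function is transcendental (`K` algebraically closed). -/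
theorem s27eil_transcendental (t : F) (ht : ∀ c : K, t ≠ algebraMap K F c) :
    Transcendental K t := by
  intro halg
  have hint : IsIntegral K t := halg.isIntegral
  have hirr : Irreducible (minpoly K t) := minpoly.irreducible hint
  have hdeg : (minpoly K t).degree = 1 := IsAlgClosed.degree_eq_one_of_irreducible K hirr
  obtain ⟨c, hc⟩ := minpoly.mem_range_of_degree_eq_one K t hdeg
  exact ht c hc.symm

/-- **LAT-EX for every adapted pair.** -/
theorem s27eil_latBasis (W : ValuationSubring 𝔏) (hW : ∀ a : K, algebraMap K 𝔏 a ∈ W)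
    {N : ℕ} (R : Fin N → F →ₐ[K] 𝔏) (hR : Function.Injective R) (A' : Divisor K F)
    (t a : F) (h : S27IsAdapted W R (fun Q => -A' Q) t a) :
    S27ptIsLatBasis W R A' (fun j : Fin N => a * t ^ (j : ℕ)) := by
  classical
  letI : Setoid (Fin N) := s27eilSetoid W R
  letI : Algebra K W := s27eifAlg W hW
  -- the clusters
  let c : Fin N → Quotient (s27eilSetoid W R) := fun i => Quotient.mk _ i
  have hrel : ∀ (x : Quotient (s27eilSetoid W R)) (j : Fin N), c j = x →
      S27eilRel W R j x.out := by
    intro x j hj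
    have h1 : Quotient.mk (s27eilSetoid W R) j = Quotient.mk (s27eilSetoid W R) x.out := by
      rw [Quotient.out_eq]
      exact hj
    exact Quotient.exact h1
  have hrel2 : ∀ i j : Fin N, c i = c j → S27eilRel W R i j := fun i j hij =>
    Quotient.exact hij
  -- the reduction of every point is `F` or a place
  obtain ⟨x₀, hx₀, hfin⟩ := s27td_exists_of_isCurveOver (K := K) (F := F)
  haveI := hfin
  have hred : ∀ i, (∀ f : F, R i f ∈ W) ∨
      ∃ Q : Place K F, W.comap (R i : F →+* 𝔏) = Q.toValuationSubring :=
    fun i => s27adex_hred_curve x₀ hx₀ W hW (R i)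
  have htr : Transcendental K t := s27eil_transcendental t h.t_not_const
  -- the frame
  refine s27eis_latBasis W hW c
    (fun x => ↥(s27eilCentre W hW (R x.out)))
    (fun x => (s27eilCentre W hW (R x.out)).val) R ?hA ?hcong t
    (fun x => ⟨t, h.t_mem x.out⟩) (fun x => rfl) ?hsep ?hstep ?hdist A' a h.a_ne
    (fun j => s27eia_mem h j) ?hquot
  case hA =>
    intro x j hj d
    exact (s27eil_rel_centre W R (hrel x j hj) _).mpr d.2
  case hcong =>
    intro x i j hi hj d
    have hij : S27eilRel W R i j :=
      s27eil_rel_trans W R (hrel x i hi) (s27eil_rel_symm W R (hrel x j hj))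
    have h1 : R i (d : F) ∈ W := (s27eil_rel_centre W R (hrel x i hi) _).mpr d.2
    have h2 : R j (d : F) ∈ W := (s27eil_rel_centre W R (hrel x j hj) _).mpr d.2
    exact (ValuationSubring.mem_nonunits_iff _).mp (hij _ h1 h2)
  case hsep =>
    intro i j hij
    rcases s27eia_cong_or_unit h i j with h1 | h1
    · exact absurd (Quotient.sound (s := s27eilSetoid W R) h1) hij
    · have h2 : R i t - R j t ∈ W := sub_mem (h.t_mem i) (h.t_mem j)
      have h3 : W.valuation (R i t - R j t) ≤ 1 :=
        (ValuationSubring.valuation_le_one_iff W _).mpr h2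
      rcases lt_or_eq_of_le h3 with h4 | h4
      · exact absurd ((ValuationSubring.mem_nonunits_iff _).mpr h4) h1
      · exact h4
  case hstep =>
    intro x
    exact s27eip_step_point W hW (R x.out) (s27eilCentre W hW (R x.out)) (fun f => Iff.rfl) t
      htr (fun Q hQ => h.exists_unif hQ) (h.t_mem x.out)
  case hdist =>
    intro i k hik hc
    obtain ⟨f, hf, hne⟩ := s27eia_dist W (R i) (R k) (fun h0 => hik (hR h0))
    have hk : S27eilRel W R k (c k).out := hrel (c k) k rfl
    exact ⟨⟨f, (s27eil_rel_centre W R hk f).mp hf⟩, hne⟩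
  case hquot =>
    intro ψ hψ x
    exact ⟨⟨ψ / a, s27eia_quot h hred hψ x.out⟩, rfl⟩

/-- the local equation with respect to an adapted pair. -/
theorem s27eil_isIdx (W : ValuationSubring 𝔏) (hW : ∀ a : K, algebraMap K 𝔏 a ∈ W)
    {N : ℕ} (R : Fin N → F →ₐ[K] 𝔏) (hR : Function.Injective R) (A' : Divisor K F)
    (t a : F) (h : S27IsAdapted W R (fun Q => -A' Q) t a)
    (f : Module.Basis (Fin N) K ↥(riemannRochSpace A')) :
    S27ptIsIdx W R A'
      ((s27ptValB R f).det / (s27ptVal R (fun j : Fin N => a * t ^ (j : ℕ))).det) :=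
  ⟨f, _, s27eil_latBasis W hW R hR A' t a h, rfl⟩

/-- **LAT-EX**: a lattice basis exists. -/
theorem s27eil_exists (W : ValuationSubring 𝔏) (hW : ∀ a : K, algebraMap K 𝔏 a ∈ W)
    {N : ℕ} (R : Fin N → F →ₐ[K] 𝔏) (hR : Function.Injective R) (A' : Divisor K F) :
    ∃ φ : Fin N → F, S27ptIsLatBasis W R A' φ := by
  obtain ⟨t, a, h⟩ := s27adex_exists_isCurveOver W hW R (fun Q => -A' Q)
  exact ⟨_, s27eil_latBasis W hW R hR A' t a h⟩

end Main

end Fermat.Agent.S27

end
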