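/-
S27-B — CP-TOP, the LAT-EX side (helper48): the hypothesis `hlat` of `s27ca_cp_latex`
(S27/CubeAsm.lean) is PROVED from AD-EX (`s27adex_exists_isCurveOver`, helper6) and LAT-EX for
every adapted pair (`s27eil_latBasis`, helper50).

Three tuples `D₁, D₂, D₃` of points, injective and pairwise disjoint; origins `B₁, B₂, B₃`, `Ao`;
the seven divisors are `A_S = Σ_{j ∈ S} B_j + Ao`.  For every `W ⊇ K` ONE `t` adapted to the union of
the three tuples and pole functions `a₀, b₁, b₂, b₃` (adapted to `−Ao`, `−B_j`), `a_S = ∏_{j∈S} b_j · a₀`.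

* `s27cplat_adapted_of_range` : an adapted pair stays adapted on every tuple of points of the family;
* `s27cplat_adapted_swap`     : the `t` of one adapted pair with the `a` of another one;
* `s27cplat_adapted_mul`      : product of pole functions;
* `s27cplat_hlat`             : **`hlat`** of `s27ca_cp_latex` for `A_S = B_S + Ao`;
* `s27cplat_cp`               : **CP-TOP for ANY `Idx`**: `S27ckCP K Idx c₁ c₂ Φ` from `hIdx_S` only
                                (+ bases `f_S` of `L_K(A_S)`, `θ₁₂, θ₁₃, θ₂₃ ≠ 0`, injectivity, disjointness).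
-/
import Fermat.Agent.S27.CubeAsm
import Fermat.Agent.S27.EffInstLat

set_option autoImplicit false
set_option linter.unusedVariables false
set_option linter.unusedSectionVars false

noncomputable section

namespace Fermat.Agent.S27

open AlgebraicCurve

universe u v w' x

/-! ### Tuples -/

section Tuples

variable {α : Type*}

theorem s27cplat_append_injective {N N' : ℕ} {R : Fin N → α} {R' : Fin N' → α}
    (h : Function.Injective R) (h' : Function.Injective R') (hd : ∀ i j, R i ≠ R' j) :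
    Function.Injective (Fin.append R R') := by
  intro i j
  refine Fin.addCases (fun a => ?_) (fun a => ?_) i <;>
    refine Fin.addCases (fun b => ?_) (fun b => ?_) j
  · simp only [Fin.append_left]
    intro e
    rw [h e]
  · simp only [Fin.append_left, Fin.append_right]
    intro e
    exact absurd e (hd a b)
  · simp only [Fin.append_left, Fin.append_right]
    intro e
    exact absurd e.symm (hd b a)
  · simp only [Fin.append_right]
    intro e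
    rw [h' e]

theorem s27cplat_append_ne {N N' N'' : ℕ} {R : Fin N → α} {R' : Fin N' → α} {R'' : Fin N'' → α}
    (hd : ∀ i j, R i ≠ R'' j) (hd' : ∀ i j, R' i ≠ R'' j) :
    ∀ i j, Fin.append R R' i ≠ R'' j := by
  intro i j
  refine Fin.addCases (fun a => ?_) (fun a => ?_) i
  · rw [Fin.append_left]
    exact hd a j
  · rw [Fin.append_right]
    exact hd' a j

theorem s27cplat_range_left {N N' : ℕ} (R : Fin N → α) (R' : Fin N' → α) (i : Fin N) :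
    ∃ j, R i = Fin.append R R' j :=
  ⟨Fin.castAdd N' i, (Fin.append_left R R' i).symm⟩

theorem s27cplat_range_right {N N' : ℕ} (R : Fin N → α) (R' : Fin N' → α) (i : Fin N') :
    ∃ j, R' i = Fin.append R R' j :=
  ⟨Fin.natAdd N i, (Fin.append_right R R' i).symm⟩

theorem s27cplat_range_append {M N N' : ℕ} {T : Fin M → α} {R : Fin N → α} {R' : Fin N' → α}
    (h : ∀ i, ∃ j, R i = T j) (h' : ∀ i, ∃ j, R' i = T j) (i : Fin (N + N')) :
    ∃ j, Fin.append R R' i = T j := by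
  refine Fin.addCases (fun a => ?_) (fun a => ?_) i
  · rw [Fin.append_left]
    exact h a
  · rw [Fin.append_right]
    exact h' a

end Tuples

/-! ### Adapted pairs -/

section Adapted

variable {K : Type u} {F : Type v} [Field K] [Field F] [Algebra K F]
variable {𝔏 : Type w'} [Field 𝔏] [Algebra K 𝔏]

/-- an adapted pair stays adapted on every tuple of points of the family. -/
theorem s27cplat_adapted_of_range {ι ι' : Type*} {W : ValuationSubring 𝔏}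
    {R : ι → F →ₐ[K] 𝔏} {D : ι' → F →ₐ[K] 𝔏} {n : Place K F → ℤ} {t a : F}
    (h : S27IsAdapted W R n t a) (hD : ∀ i, ∃ j, D i = R j) : S27IsAdapted W D n t a := by
  refine ⟨h.1, h.2.1, fun i => ?_, fun i Q hQ => ?_, fun i j hij => ?_⟩
  · obtain ⟨j, hj⟩ := hD i
    rw [hj]
    exact h.2.2.1 j
  · obtain ⟨j, hj⟩ := hD i
    rw [hj] at hQ
    exact h.2.2.2.1 j Q hQ
  · obtain ⟨i', hi'⟩ := hD i
    obtain ⟨j', hj'⟩ := hD j
    rw [hi', hj'] at hij ⊢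
    exact h.2.2.2.2 i' j' hij

/-- the `t` of one adapted pair with the `a` of another one. -/
theorem s27cplat_adapted_swap {ι : Type*} {W : ValuationSubring 𝔏} {R : ι → F →ₐ[K] 𝔏}
    {n n' : Place K F → ℤ} {t t' a a' : F}
    (h : S27IsAdapted W R n t a) (h' : S27IsAdapted W R n' t' a') :
    S27IsAdapted W R n' t a' :=
  ⟨h'.1, h.2.1, h.2.2.1, fun i Q hQ => ⟨(h.2.2.2.1 i Q hQ).1, (h'.2.2.2.1 i Q hQ).2⟩,
    h.2.2.2.2⟩

/-- product of pole functions. -/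
theorem s27cplat_adapted_mul {ι : Type*} {W : ValuationSubring 𝔏} {R : ι → F →ₐ[K] 𝔏}
    {n n' : Place K F → ℤ} {t a a' : F}
    (h : S27IsAdapted W R n t a) (h' : S27IsAdapted W R n' t a') :
    S27IsAdapted W R (fun Q => n Q + n' Q) t (a * a') := by
  refine ⟨mul_ne_zero h.1 h'.1, h.2.1, h.2.2.1, fun i Q hQ => ⟨(h.2.2.2.1 i Q hQ).1, ?_⟩,
    h.2.2.2.2⟩
  rw [Place.ord_mul Q h.1 h'.1, (h.2.2.2.1 i Q hQ).2, (h'.2.2.2.1 i Q hQ).2]

theorem s27cplat_adapted_congr {ι : Type*} {W : ValuationSubring 𝔏} {R : ι → F →ₐ[K] 𝔏}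
    {n n' : Place K F → ℤ} {t a : F} (h : S27IsAdapted W R n t a) (hn : ∀ Q, n Q = n' Q) :
    S27IsAdapted W R n' t a := by
  have : n = n' := funext hn
  rwa [← this]

end Adapted

/-! ### `hlat` -/

section Lat

variable {K : Type u} {F : Type v} [Field K] [Field F] [Algebra K F]
variable {𝔏 : Type w'} [Field 𝔏] [Algebra K 𝔏]
variable [IsAlgClosed K] [CharZero K] [IsCurveOver K F] [Algebra.EssFiniteType K F]

/-- **`hlat` of `s27ca_cp_latex`**, for the seven divisors `A_S = Σ_{j ∈ S} B_j + Ao`. -/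
theorem s27cplat_hlat {N₁ N₂ N₃ : ℕ}
    (D₁ : Fin N₁ → F →ₐ[K] 𝔏) (D₂ : Fin N₂ → F →ₐ[K] 𝔏) (D₃ : Fin N₃ → F →ₐ[K] 𝔏)
    (h1 : Function.Injective D₁) (h2 : Function.Injective D₂) (h3 : Function.Injective D₃)
    (d12 : ∀ i j, D₁ i ≠ D₂ j) (d13 : ∀ i j, D₁ i ≠ D₃ j) (d23 : ∀ i j, D₂ i ≠ D₃ j)
    (Ao B₁ B₂ B₃ : Divisor K F) (W : ValuationSubring 𝔏)
    (hW : ∀ a : K, algebraMap K 𝔏 a ∈ W) :
    ∃ t a₁ a₂ a₃ a₁₂ a₁₃ a₂₃ a₁₂₃ : F,
      a₁₂₃ * a₁ = a₁₂ * a₁₃ ∧ a₁₂₃ * a₂ = a₁₂ * a₂₃ ∧ a₁₂₃ * a₃ = a₁₃ * a₂₃ ∧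
      S27ptIsLatBasis W D₁ (B₁ + Ao) (fun j : Fin N₁ => a₁ * t ^ (j : ℕ)) ∧
      S27ptIsLatBasis W D₂ (B₂ + Ao) (fun j : Fin N₂ => a₂ * t ^ (j : ℕ)) ∧
      S27ptIsLatBasis W D₃ (B₃ + Ao) (fun j : Fin N₃ => a₃ * t ^ (j : ℕ)) ∧
      S27ptIsLatBasis W (Fin.append D₁ D₂) (B₁ + B₂ + Ao)
        (fun j : Fin (N₁ + N₂) => a₁₂ * t ^ (j : ℕ)) ∧
      S27ptIsLatBasis W (Fin.append D₁ D₃) (B₁ + B₃ + Ao)
        (fun j : Fin (N₁ + N₃) => a₁₃ * t ^ (j : ℕ)) ∧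
      S27ptIsLatBasis W (Fin.append D₂ D₃) (B₂ + B₃ + Ao)
        (fun j : Fin (N₂ + N₃) => a₂₃ * t ^ (j : ℕ)) ∧
      S27ptIsLatBasis W (Fin.append (Fin.append D₁ D₂) D₃) (B₁ + B₂ + B₃ + Ao)
        (fun j : Fin (N₁ + N₂ + N₃) => a₁₂₃ * t ^ (j : ℕ)) := by
  classical
  set R := Fin.append (Fin.append D₁ D₂) D₃ with hR
  obtain ⟨t, a₀, g0⟩ := s27adex_exists_isCurveOver W hW R (fun Q => -Ao Q)
  obtain ⟨t₁, b₁, g1'⟩ := s27adex_exists_isCurveOver W hW R (fun Q => -B₁ Q)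
  obtain ⟨t₂, b₂, g2'⟩ := s27adex_exists_isCurveOver W hW R (fun Q => -B₂ Q)
  obtain ⟨t₃, b₃, g3'⟩ := s27adex_exists_isCurveOver W hW R (fun Q => -B₃ Q)
  have g1 := s27cplat_adapted_swap g0 g1'
  have g2 := s27cplat_adapted_swap g0 g2'
  have g3 := s27cplat_adapted_swap g0 g3'
  -- the seven adapted pairs on the union
  have k1 : S27IsAdapted W R (fun Q => -(B₁ + Ao) Q) t (b₁ * a₀) :=
    s27cplat_adapted_congr (s27cplat_adapted_mul g1 g0) (fun Q => by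
      simp only [Finsupp.coe_add, Pi.add_apply]; ring)
  have k2 : S27IsAdapted W R (fun Q => -(B₂ + Ao) Q) t (b₂ * a₀) :=
    s27cplat_adapted_congr (s27cplat_adapted_mul g2 g0) (fun Q => by
      simp only [Finsupp.coe_add, Pi.add_apply]; ring)
  have k3 : S27IsAdapted W R (fun Q => -(B₃ + Ao) Q) t (b₃ * a₀) :=
    s27cplat_adapted_congr (s27cplat_adapted_mul g3 g0) (fun Q => by
      simp only [Finsupp.coe_add, Pi.add_apply]; ring)
  have k12 : S27IsAdapted W R (fun Q => -(B₁ + B₂ + Ao) Q) t (b₁ * b₂ * a₀) :=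
    s27cplat_adapted_congr (s27cplat_adapted_mul (s27cplat_adapted_mul g1 g2) g0) (fun Q => by
      simp only [Finsupp.coe_add, Pi.add_apply]; ring)
  have k13 : S27IsAdapted W R (fun Q => -(B₁ + B₃ + Ao) Q) t (b₁ * b₃ * a₀) :=
    s27cplat_adapted_congr (s27cplat_adapted_mul (s27cplat_adapted_mul g1 g3) g0) (fun Q => by
      simp only [Finsupp.coe_add, Pi.add_apply]; ring)
  have k23 : S27IsAdapted W R (fun Q => -(B₂ + B₃ + Ao) Q) t (b₂ * b₃ * a₀) :=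
    s27cplat_adapted_congr (s27cplat_adapted_mul (s27cplat_adapted_mul g2 g3) g0) (fun Q => by
      simp only [Finsupp.coe_add, Pi.add_apply]; ring)
  have k123 : S27IsAdapted W R (fun Q => -(B₁ + B₂ + B₃ + Ao) Q) t (b₁ * b₂ * b₃ * a₀) :=
    s27cplat_adapted_congr
      (s27cplat_adapted_mul (s27cplat_adapted_mul (s27cplat_adapted_mul g1 g2) g3) g0)
      (fun Q => by simp only [Finsupp.coe_add, Pi.add_apply]; ring)
  -- the ranges
  have r12 : ∀ i, ∃ j, Fin.append D₁ D₂ i = R j := fun i =>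
    s27cplat_range_left (Fin.append D₁ D₂) D₃ i
  have r1 : ∀ i, ∃ j, D₁ i = R j := fun i => by
    obtain ⟨j, hj⟩ := s27cplat_range_left D₁ D₂ i
    obtain ⟨j', hj'⟩ := r12 j
    exact ⟨j', hj.trans hj'⟩
  have r2 : ∀ i, ∃ j, D₂ i = R j := fun i => by
    obtain ⟨j, hj⟩ := s27cplat_range_right D₁ D₂ i
    obtain ⟨j', hj'⟩ := r12 j
    exact ⟨j', hj.trans hj'⟩
  have r3 : ∀ i, ∃ j, D₃ i = R j := fun i => s27cplat_range_right (Fin.append D₁ D₂) D₃ i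
  have r13 : ∀ i, ∃ j, Fin.append D₁ D₃ i = R j := s27cplat_range_append r1 r3
  have r23 : ∀ i, ∃ j, Fin.append D₂ D₃ i = R j := s27cplat_range_append r2 r3
  -- injectivity
  have i12 := s27cplat_append_injective h1 h2 d12
  have i13 := s27cplat_append_injective h1 h3 d13
  have i23 := s27cplat_append_injective h2 h3 d23
  have i123 : Function.Injective R :=
    s27cplat_append_injective i12 h3 (s27cplat_append_ne d13 d23)
  refine ⟨t, b₁ * a₀, b₂ * a₀, b₃ * a₀, b₁ * b₂ * a₀, b₁ * b₃ * a₀, b₂ * b₃ * a₀,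
    b₁ * b₂ * b₃ * a₀, by ring, by ring, by ring, ?_, ?_, ?_, ?_, ?_, ?_, ?_⟩
  · exact s27eil_latBasis W hW D₁ h1 _ t _ (s27cplat_adapted_of_range k1 r1)
  · exact s27eil_latBasis W hW D₂ h2 _ t _ (s27cplat_adapted_of_range k2 r2)
  · exact s27eil_latBasis W hW D₃ h3 _ t _ (s27cplat_adapted_of_range k3 r3)
  · exact s27eil_latBasis W hW _ i12 _ t _ (s27cplat_adapted_of_range k12 r12)
  · exact s27eil_latBasis W hW _ i13 _ t _ (s27cplat_adapted_of_range k13 r13)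
  · exact s27eil_latBasis W hW _ i23 _ t _ (s27cplat_adapted_of_range k23 r23)
  · exact s27eil_latBasis W hW R i123 _ t _ k123

variable {C : Type x} [AddCommGroup C]

/-- **CP-TOP for ANY `Idx`** (LAT-EX discharged): `S27ckCP K Idx c₁ c₂ Φ` from `hIdx_S`. -/
theorem s27cplat_cp (Idx : ValuationSubring 𝔏 → C → 𝔏 → Prop) (c₁ c₂ : C) {N₁ N₂ N₃ : ℕ}
    (D₁ : Fin N₁ → F →ₐ[K] 𝔏) (D₂ : Fin N₂ → F →ₐ[K] 𝔏) (D₃ : Fin N₃ → F →ₐ[K] 𝔏)
    (h1 : Function.Injective D₁) (h2 : Function.Injective D₂) (h3 : Function.Injective D₃)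
    (d12 : ∀ i j, D₁ i ≠ D₂ j) (d13 : ∀ i j, D₁ i ≠ D₃ j) (d23 : ∀ i j, D₂ i ≠ D₃ j)
    (Ao B₁ B₂ B₃ : Divisor K F)
    (f₁ : Module.Basis (Fin N₁) K ↥(riemannRochSpace (B₁ + Ao)))
    (f₂ : Module.Basis (Fin N₂) K ↥(riemannRochSpace (B₂ + Ao)))
    (f₃ : Module.Basis (Fin N₃) K ↥(riemannRochSpace (B₃ + Ao)))
    (f₁₂ : Module.Basis (Fin (N₁ + N₂)) K ↥(riemannRochSpace (B₁ + B₂ + Ao)))
    (f₁₃ : Module.Basis (Fin (N₁ + N₃)) K ↥(riemannRochSpace (B₁ + B₃ + Ao)))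
    (f₂₃ : Module.Basis (Fin (N₂ + N₃)) K ↥(riemannRochSpace (B₂ + B₃ + Ao)))
    (f₁₂₃ : Module.Basis (Fin (N₁ + N₂ + N₃)) K ↥(riemannRochSpace (B₁ + B₂ + B₃ + Ao)))
    (t12 : (s27ptValB (Fin.append D₁ D₂) f₁₂).det ≠ 0)
    (t13 : (s27ptValB (Fin.append D₁ D₃) f₁₃).det ≠ 0)
    (t23 : (s27ptValB (Fin.append D₂ D₃) f₂₃).det ≠ 0)
    (hIdx1 : ∀ W : ValuationSubring 𝔏, S27IsKValU K W → ∀ y,
      S27ptIsIdx W D₁ (B₁ + Ao) y → Idx W c₁ y)
    (hIdx2 : ∀ W : ValuationSubring 𝔏, S27IsKValU K W → ∀ y,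
      S27ptIsIdx W D₂ (B₂ + Ao) y → Idx W c₂ y)
    (hIdx3 : ∀ W : ValuationSubring 𝔏, S27IsKValU K W → ∀ y,
      S27ptIsIdx W D₃ (B₃ + Ao) y → Idx W (-c₂) y)
    (hIdx12 : ∀ W : ValuationSubring 𝔏, S27IsKValU K W → ∀ y,
      S27ptIsIdx W (Fin.append D₁ D₂) (B₁ + B₂ + Ao) y → Idx W (c₁ + c₂) y)
    (hIdx13 : ∀ W : ValuationSubring 𝔏, S27IsKValU K W → ∀ y,
      S27ptIsIdx W (Fin.append D₁ D₃) (B₁ + B₃ + Ao) y → Idx W (c₁ - c₂) y)
    (hIdx23 : ∀ W : ValuationSubring 𝔏, S27IsKValU K W → ∀ y,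
      S27ptIsIdx W (Fin.append D₂ D₃) (B₂ + B₃ + Ao) y → Idx W 0 y)
    (hIdx123 : ∀ W : ValuationSubring 𝔏, S27IsKValU K W → ∀ y,
      S27ptIsIdx W (Fin.append (Fin.append D₁ D₂) D₃) (B₁ + B₂ + B₃ + Ao) y → Idx W c₁ y) :
    S27ckCP K Idx c₁ c₂
      (s27caPhi (s27ptValB D₁ f₁).det (s27ptValB D₂ f₂).det (s27ptValB D₃ f₃).det
        (s27ptValB (Fin.append D₁ D₂) f₁₂).det (s27ptValB (Fin.append D₁ D₃) f₁₃).det
        (s27ptValB (Fin.append D₂ D₃) f₂₃).det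
        (s27ptValB (Fin.append (Fin.append D₁ D₂) D₃) f₁₂₃).det) :=
  s27ca_cp_latex Idx c₁ c₂ D₁ D₂ D₃ f₁ f₂ f₃ f₁₂ f₁₃ f₂₃ f₁₂₃ t12 t13 t23
    hIdx1 hIdx2 hIdx3 hIdx12 hIdx13 hIdx23 hIdx123
    (fun W hW => s27cplat_hlat D₁ D₂ D₃ h1 h2 h3 d12 d13 d23 Ao B₁ B₂ B₃ W hW)

end Lat

end Fermat.Agent.S27

end
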