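/-
S27, route B, leaf CUBE-PT (helper4): the CANCELLATION in the pointwise cube (NOTES/S27-geom.md §3).

Points are indexed by a linearly ordered type `ι`; a divisor `D` of distinct points is a `Finset ι`.
With ONE adapted datum for the whole configuration `D₁ + D₂ + D₃` — `v i = R_i t`, `α i = R_i a_A`,
`σ i = R_i a_shift` — the point formula of a divisor `S` of degree `j · N` is

  `s27cp_m θ v α σ j S = θ S / (∏_{a < b ∈ S} (v a − v b) · ∏_{i ∈ S} α i · σ i ^ j)`.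

* `s27cp_pairProd_union`  : `P (S ∪ T) = P S · P T · cross S T` for disjoint `S`, `T`;
* `s27cp_pairProd_cube`   : `P (S₁∪S₂∪S₃) P S₁ P S₂ P S₃ = P (S₁∪S₂) P (S₁∪S₃) P (S₂∪S₃)` (pairs: `+1+1−1−1`, `+1−1`);
* `s27cp_pole_cube`       : the pole factors cancel (exponents `1+1−2 = 0` and `3+1−4 = 0`);
* `s27cp_den_cube`        : the denominators of the point formula satisfy the cube identity EXACTLY;
* **`s27cp_cube`**        : `m₃(D₁+D₂+D₃) m₁(D₁) m₁(D₂) m₁(D₃) = Φ · m₂(D₁+D₂) m₂(D₁+D₃) m₂(D₂+D₃)`,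
  `Φ = θ(D₁+D₂+D₃) θ(D₁) θ(D₂) θ(D₃) / (θ(D₁+D₂) θ(D₁+D₃) θ(D₂+D₃))`, only `θ(D_i + D_j) ≠ 0` is used;
* `s27cp_pairProd_univ`   : on `Fin n`, `P univ` is Mathlib's Vandermonde product.
Mathlib only.
-/
import Mathlib

set_option autoImplicit false

namespace Fermat.Agent.S27

open Finset

section Monoid

variable {ι : Type*} [LinearOrder ι] {M : Type*} [CommMonoid M]

/-- the product of `f a b` over the pairs `a < b` of `S` -/
def s27cp_pairProd (f : ι → ι → M) (S : Finset ι) : M :=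
  ∏ a ∈ S, ∏ b ∈ S.filter (fun b => a < b), f a b

/-- the product of `f (min a b) (max a b)` over `S × T` -/
def s27cp_cross (f : ι → ι → M) (S T : Finset ι) : M :=
  ∏ a ∈ S, ∏ b ∈ T, f (min a b) (max a b)

theorem s27cp_cross_eq (f : ι → ι → M) {S T : Finset ι} (h : Disjoint S T) :
    s27cp_cross f S T
      = (∏ a ∈ S, ∏ b ∈ T.filter (fun b => a < b), f a b)
        * ∏ b ∈ T, ∏ a ∈ S.filter (fun a => b < a), f b a := by
  classical
  unfold s27cp_cross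
  have h1 : ∀ a ∈ S, ∏ b ∈ T, f (min a b) (max a b)
      = (∏ b ∈ T.filter (fun b => a < b), f a b)
        * ∏ b ∈ T.filter (fun b => ¬ a < b), f b a := by
    intro a _
    rw [← Finset.prod_filter_mul_prod_filter_not T (fun b => a < b)]
    congr 1
    · refine Finset.prod_congr rfl fun b hb => ?_
      rw [Finset.mem_filter] at hb
      rw [min_eq_left hb.2.le, max_eq_right hb.2.le]
    · refine Finset.prod_congr rfl fun b hb => ?_
      rw [Finset.mem_filter] at hb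
      have hle : b ≤ a := not_lt.mp hb.2
      rw [min_eq_right hle, max_eq_left hle]
  rw [Finset.prod_congr rfl h1, Finset.prod_mul_distrib]
  congr 1
  refine Finset.prod_comm' fun a b => ?_
  simp only [Finset.mem_filter]
  constructor
  · rintro ⟨ha, hb, hab⟩
    refine ⟨⟨ha, ?_⟩, hb⟩
    rcases lt_or_eq_of_le (not_lt.mp hab) with h' | h'
    · exact h'
    · exact absurd (h' ▸ hb) (Finset.disjoint_left.mp h ha)
  · rintro ⟨⟨ha, hab⟩, hb⟩
    exact ⟨ha, hb, not_lt.mpr hab.le⟩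

theorem s27cp_cross_union_left (f : ι → ι → M) {S S' : Finset ι} (T : Finset ι)
    (h : Disjoint S S') :
    s27cp_cross f (S ∪ S') T = s27cp_cross f S T * s27cp_cross f S' T := by
  classical
  unfold s27cp_cross
  rw [Finset.prod_union h]

theorem s27cp_cross_union_right (f : ι → ι → M) (S : Finset ι) {T T' : Finset ι}
    (h : Disjoint T T') :
    s27cp_cross f S (T ∪ T') = s27cp_cross f S T * s27cp_cross f S T' := by
  classical
  unfold s27cp_cross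
  rw [← Finset.prod_mul_distrib]
  refine Finset.prod_congr rfl fun a _ => ?_
  rw [Finset.prod_union h]

/-- **pairs of a disjoint union** -/
theorem s27cp_pairProd_union (f : ι → ι → M) {S T : Finset ι} (h : Disjoint S T) :
    s27cp_pairProd f (S ∪ T)
      = s27cp_pairProd f S * s27cp_pairProd f T * s27cp_cross f S T := by
  classical
  rw [s27cp_cross_eq f h]
  unfold s27cp_pairProd
  rw [Finset.prod_union h]
  have hin : ∀ a : ι, ∏ b ∈ (S ∪ T).filter (fun b => a < b), f a b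
      = (∏ b ∈ S.filter (fun b => a < b), f a b) * ∏ b ∈ T.filter (fun b => a < b), f a b := by
    intro a
    rw [Finset.filter_union, Finset.prod_union (Finset.disjoint_filter_filter h)]
  simp only [hin, Finset.prod_mul_distrib]
  simp only [mul_comm, mul_left_comm, mul_assoc]

/-- **the cube identity for the pairs**: pairs inside `S₁` count `+1+1−1−1`, pairs across
`S₁`, `S₂` count `+1−1`. -/
theorem s27cp_pairProd_cube (f : ι → ι → M) {S₁ S₂ S₃ : Finset ι} (h12 : Disjoint S₁ S₂)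
    (h13 : Disjoint S₁ S₃) (h23 : Disjoint S₂ S₃) :
    s27cp_pairProd f (S₁ ∪ S₂ ∪ S₃) * s27cp_pairProd f S₁ * s27cp_pairProd f S₂
        * s27cp_pairProd f S₃
      = s27cp_pairProd f (S₁ ∪ S₂) * s27cp_pairProd f (S₁ ∪ S₃) * s27cp_pairProd f (S₂ ∪ S₃) := by
  classical
  have h123 : Disjoint (S₁ ∪ S₂) S₃ := Finset.disjoint_union_left.mpr ⟨h13, h23⟩
  rw [s27cp_pairProd_union f h123, s27cp_cross_union_left f S₃ h12, s27cp_pairProd_union f h12,
    s27cp_pairProd_union f h13, s27cp_pairProd_union f h23]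
  simp only [mul_comm, mul_left_comm, mul_assoc]

/-- **the cube identity for the pole factors**: a point of `S₁` carries `α σ³ · α σ` on the left
and `α σ² · α σ²` on the right. -/
theorem s27cp_pole_cube (α σ : ι → M) {S₁ S₂ S₃ : Finset ι} (h12 : Disjoint S₁ S₂)
    (h13 : Disjoint S₁ S₃) (h23 : Disjoint S₂ S₃) :
    (∏ i ∈ S₁ ∪ S₂ ∪ S₃, α i * σ i ^ 3) * (∏ i ∈ S₁, α i * σ i ^ 1)
        * (∏ i ∈ S₂, α i * σ i ^ 1) * (∏ i ∈ S₃, α i * σ i ^ 1)
      = (∏ i ∈ S₁ ∪ S₂, α i * σ i ^ 2) * (∏ i ∈ S₁ ∪ S₃, α i * σ i ^ 2)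
        * ∏ i ∈ S₂ ∪ S₃, α i * σ i ^ 2 := by
  classical
  have h123 : Disjoint (S₁ ∪ S₂) S₃ := Finset.disjoint_union_left.mpr ⟨h13, h23⟩
  simp only [Finset.prod_union h123, Finset.prod_union h12, Finset.prod_union h13,
    Finset.prod_union h23, Finset.prod_mul_distrib, pow_succ, pow_zero, one_mul]
  simp only [mul_comm, mul_left_comm, mul_assoc]

/-- the denominator of the point formula of a divisor `S` of degree `j · N` -/
def s27cp_den (f : ι → ι → M) (α σ : ι → M) (j : ℕ) (S : Finset ι) : M :=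
  s27cp_pairProd f S * ∏ i ∈ S, α i * σ i ^ j

/-- **the denominators satisfy the cube identity exactly** -/
theorem s27cp_den_cube (f : ι → ι → M) (α σ : ι → M) {S₁ S₂ S₃ : Finset ι}
    (h12 : Disjoint S₁ S₂) (h13 : Disjoint S₁ S₃) (h23 : Disjoint S₂ S₃) :
    s27cp_den f α σ 3 (S₁ ∪ S₂ ∪ S₃) * s27cp_den f α σ 1 S₁ * s27cp_den f α σ 1 S₂
        * s27cp_den f α σ 1 S₃
      = s27cp_den f α σ 2 (S₁ ∪ S₂) * s27cp_den f α σ 2 (S₁ ∪ S₃)
        * s27cp_den f α σ 2 (S₂ ∪ S₃) := by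
  unfold s27cp_den
  have hP := s27cp_pairProd_cube f h12 h13 h23
  have hQ := s27cp_pole_cube α σ h12 h13 h23
  calc s27cp_pairProd f (S₁ ∪ S₂ ∪ S₃) * (∏ i ∈ S₁ ∪ S₂ ∪ S₃, α i * σ i ^ 3)
          * (s27cp_pairProd f S₁ * ∏ i ∈ S₁, α i * σ i ^ 1)
          * (s27cp_pairProd f S₂ * ∏ i ∈ S₂, α i * σ i ^ 1)
          * (s27cp_pairProd f S₃ * ∏ i ∈ S₃, α i * σ i ^ 1)
      = (s27cp_pairProd f (S₁ ∪ S₂ ∪ S₃) * s27cp_pairProd f S₁ * s27cp_pairProd f S₂
          * s27cp_pairProd f S₃)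
        * ((∏ i ∈ S₁ ∪ S₂ ∪ S₃, α i * σ i ^ 3) * (∏ i ∈ S₁, α i * σ i ^ 1)
          * (∏ i ∈ S₂, α i * σ i ^ 1) * (∏ i ∈ S₃, α i * σ i ^ 1)) := by
        simp only [mul_comm, mul_left_comm, mul_assoc]
    _ = (s27cp_pairProd f (S₁ ∪ S₂) * s27cp_pairProd f (S₁ ∪ S₃) * s27cp_pairProd f (S₂ ∪ S₃))
        * ((∏ i ∈ S₁ ∪ S₂, α i * σ i ^ 2) * (∏ i ∈ S₁ ∪ S₃, α i * σ i ^ 2)
          * ∏ i ∈ S₂ ∪ S₃, α i * σ i ^ 2) := by rw [hP, hQ]
    _ = _ := by simp only [mul_comm, mul_left_comm, mul_assoc]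

end Monoid

section Field

variable {ι : Type*} [LinearOrder ι] {𝔏 : Type*} [Field 𝔏]

/-- **the point formula**: `θ S / (∏_{a < b ∈ S} (v a − v b) · ∏_{i ∈ S} α i · σ i ^ j)` -/
def s27cp_m (θ : Finset ι → 𝔏) (v α σ : ι → 𝔏) (j : ℕ) (S : Finset ι) : 𝔏 :=
  θ S / s27cp_den (fun a b => v a - v b) α σ j S

/-- the constant of the cube -/
def s27cp_Phi (θ : Finset ι → 𝔏) (S₁ S₂ S₃ : Finset ι) : 𝔏 :=
  θ (S₁ ∪ S₂ ∪ S₃) * θ S₁ * θ S₂ * θ S₃ / (θ (S₁ ∪ S₂) * θ (S₁ ∪ S₃) * θ (S₂ ∪ S₃))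

/-- **CUBE-PT**: the pointwise cube, as an exact identity. -/
theorem s27cp_cube (θ : Finset ι → 𝔏) (v α σ : ι → 𝔏) {S₁ S₂ S₃ : Finset ι}
    (h12 : Disjoint S₁ S₂) (h13 : Disjoint S₁ S₃) (h23 : Disjoint S₂ S₃)
    (hθ12 : θ (S₁ ∪ S₂) ≠ 0) (hθ13 : θ (S₁ ∪ S₃) ≠ 0) (hθ23 : θ (S₂ ∪ S₃) ≠ 0) :
    s27cp_m θ v α σ 3 (S₁ ∪ S₂ ∪ S₃) * s27cp_m θ v α σ 1 S₁ * s27cp_m θ v α σ 1 S₂
        * s27cp_m θ v α σ 1 S₃
      = s27cp_Phi θ S₁ S₂ S₃
        * (s27cp_m θ v α σ 2 (S₁ ∪ S₂) * s27cp_m θ v α σ 2 (S₁ ∪ S₃)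
          * s27cp_m θ v α σ 2 (S₂ ∪ S₃)) := by
  have hden := s27cp_den_cube (fun a b => v a - v b) α σ h12 h13 h23
  unfold s27cp_m s27cp_Phi
  have hθ : θ (S₁ ∪ S₂) * θ (S₁ ∪ S₃) * θ (S₂ ∪ S₃) ≠ 0 :=
    mul_ne_zero (mul_ne_zero hθ12 hθ13) hθ23
  rw [div_mul_div_comm, div_mul_div_comm, div_mul_div_comm, div_mul_div_comm,
    div_mul_div_comm, div_mul_div_comm, hden]
  rw [mul_comm (θ (S₁ ∪ S₂ ∪ S₃) * θ S₁ * θ S₂ * θ S₃)
    (θ (S₁ ∪ S₂) * θ (S₁ ∪ S₃) * θ (S₂ ∪ S₃)), mul_div_mul_left _ _ hθ]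

end Field

section Fin

variable {R : Type*} [CommRing R]

/-- on `Fin n`, the pair product of `(a, b) ↦ v b − v a` is Mathlib's Vandermonde determinant -/
theorem s27cp_pairProd_univ {n : ℕ} (v : Fin n → R) :
    s27cp_pairProd (fun a b => v b - v a) (Finset.univ : Finset (Fin n))
      = (Matrix.vandermonde v).det := by
  rw [Matrix.det_vandermonde]
  unfold s27cp_pairProd
  refine Finset.prod_congr rfl fun a _ => ?_
  refine Finset.prod_congr ?_ fun b _ => rfl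
  ext b
  simp

end Fin

end Fermat.Agent.S27
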