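/-
S27 route B, piece B1-FIELDS (helper33): the function field of `C^g` and of `Sym^g C`.

`K` a field, `F / K` a field (the function field of the curve `C`), `g : ℕ`.
* `s27gfR K F g := ⨂[K] (_ : Fin g), F` (the coordinate ring of the generic fibre of `C^g`);
  `s27gfSingle i : F →ₐ[K] R_g`; `s27gfLiftR j : R_g →ₐ[K] M` for a family `j i : F →ₐ[K] M` into a
  commutative `K`-algebra; `s27gfPermR σ : R_g ≃ₐ[K] R_g`, `σ · (single i f) = single (σ i) f`.
* `s27gf_isDomain` : `R_g` is a domain (`K` algebraically closed; induction with `s26etd_isDomain`).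
* `s27gfOm K F g := FractionRing R_g` = `K(C^g)`, a field; `s27gfIota i : F →ₐ[K] Ω_g`;
  `s27gfLift j hj : Ω_g →ₐ[K] M` (`M` a field, the product map of `j` injective);
  `s27gfPerm σ : Ω_g ≃ₐ[K] Ω_g`, a group homomorphism `s27gfPermHom`, `σ · ι_i f = ι_{σ i} f`.
* `s27gfSym K F g : IntermediateField K Ω_g` = the fixed field `K(Sym^g C) = Ω_g^{S_g}`;
  `Ω_g / 𝔉` is finite Galois.
-/
import Mathlib
import Fermat.Agent.S26.ETensDom

set_option autoImplicit false
set_option linter.unusedVariables false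
set_option linter.unusedSectionVars false
set_option linter.style.haveILetI false

noncomputable section

namespace Fermat.Agent.S27

open TensorProduct Fermat.Agent.S26

universe u v

section Ring

variable (K : Type u) (F : Type v) [Field K] [Field F] [Algebra K F] (g : ℕ)

/-- `R_g = F ⊗ ⋯ ⊗ F` (`g` factors) -/
abbrev s27gfR : Type (max u v) := PiTensorProduct K (fun _ : Fin g => F)

variable {K F g}

/-- the `i`-th coordinate inclusion `F → R_g` -/
def s27gfSingle (i : Fin g) : F →ₐ[K] s27gfR K F g :=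
  PiTensorProduct.singleAlgHom (R := K) (A := fun _ : Fin g => F) i

/-- the product map of a family of homomorphisms into a commutative algebra -/
def s27gfLiftR {M : Type*} [CommRing M] [Algebra K M] (j : Fin g → F →ₐ[K] M) :
    s27gfR K F g →ₐ[K] M :=
  PiTensorProduct.liftAlgHom
    ((MultilinearMap.mkPiAlgebra K (Fin g) M).compLinearMap (fun i => (j i).toLinearMap))
    (by
      show ∏ i, j i ((1 : Fin g → F) i) = 1
      simp)
    (fun x y => by
      show ∏ i, j i ((x * y) i) = (∏ i, j i (x i)) * ∏ i, j i (y i)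
      simp [Finset.prod_mul_distrib])

theorem s27gfLiftR_tprod {M : Type*} [CommRing M] [Algebra K M] (j : Fin g → F →ₐ[K] M)
    (x : Fin g → F) :
    s27gfLiftR j (PiTensorProduct.tprod K x) = ∏ i, j i (x i) := by
  show PiTensorProduct.lift ((MultilinearMap.mkPiAlgebra K (Fin g) M).compLinearMap
    (fun i => (j i).toLinearMap)) (PiTensorProduct.tprod K x) = _
  rw [PiTensorProduct.lift.tprod]
  rfl

@[simp] theorem s27gfLiftR_single {M : Type*} [CommRing M] [Algebra K M]
    (j : Fin g → F →ₐ[K] M) (i : Fin g) (f : F) :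
    s27gfLiftR j (s27gfSingle i f) = j i f := by
  show s27gfLiftR j (PiTensorProduct.tprod K _) = _
  rw [s27gfLiftR_tprod, Finset.prod_eq_single i]
  · simp
  · intro k _ hk
    simp [Pi.mulSingle_eq_of_ne hk]
  · intro h
    exact absurd (Finset.mem_univ i) h

theorem s27gfLiftR_comp_single {M : Type*} [CommRing M] [Algebra K M]
    (j : Fin g → F →ₐ[K] M) (i : Fin g) : (s27gfLiftR j).comp (s27gfSingle i) = j i :=
  AlgHom.ext fun f => s27gfLiftR_single j i f

/-- two homomorphisms out of `R_g` which agree on the coordinates are equal -/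
theorem s27gfR_hom_ext {M : Type*} [CommRing M] [Algebra K M] {a b : s27gfR K F g →ₐ[K] M}
    (h : ∀ i f, a (s27gfSingle i f) = b (s27gfSingle i f)) : a = b :=
  PiTensorProduct.algHom_ext fun i => AlgHom.ext fun f => h i f

theorem s27gfLiftR_single_id : s27gfLiftR (fun i => s27gfSingle (K := K) (F := F) (g := g) i) =
    AlgHom.id K _ :=
  s27gfR_hom_ext fun i f => by simp

/-- the permutation of the factors -/
def s27gfPermRHom (σ : Equiv.Perm (Fin g)) : s27gfR K F g →ₐ[K] s27gfR K F g :=
  s27gfLiftR fun i => s27gfSingle (σ i)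

@[simp] theorem s27gfPermRHom_single (σ : Equiv.Perm (Fin g)) (i : Fin g) (f : F) :
    s27gfPermRHom σ (s27gfSingle (K := K) i f) = s27gfSingle (σ i) f := by
  simp [s27gfPermRHom]

theorem s27gfPermRHom_comp (σ τ : Equiv.Perm (Fin g)) :
    (s27gfPermRHom (K := K) (F := F) σ).comp (s27gfPermRHom τ) = s27gfPermRHom (σ * τ) :=
  s27gfR_hom_ext fun i f => by simp

theorem s27gfPermRHom_one : s27gfPermRHom (K := K) (F := F) (1 : Equiv.Perm (Fin g)) =
    AlgHom.id K _ :=
  s27gfR_hom_ext fun i f => by simp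

/-- the permutation of the factors, as an automorphism -/
def s27gfPermR (σ : Equiv.Perm (Fin g)) : s27gfR K F g ≃ₐ[K] s27gfR K F g :=
  AlgEquiv.ofAlgHom (s27gfPermRHom σ) (s27gfPermRHom σ⁻¹)
    (by rw [s27gfPermRHom_comp, mul_inv_cancel, s27gfPermRHom_one])
    (by rw [s27gfPermRHom_comp, inv_mul_cancel, s27gfPermRHom_one])

@[simp] theorem s27gfPermR_single (σ : Equiv.Perm (Fin g)) (i : Fin g) (f : F) :
    s27gfPermR σ (s27gfSingle (K := K) i f) = s27gfSingle (σ i) f :=
  s27gfPermRHom_single σ i f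

theorem s27gfPermR_mul (σ τ : Equiv.Perm (Fin g)) :
    s27gfPermR (K := K) (F := F) (σ * τ) = (s27gfPermR τ).trans (s27gfPermR σ) := by
  apply AlgEquiv.ext
  intro x
  have := congrArg (fun a => a x) (s27gfPermRHom_comp (K := K) (F := F) σ τ)
  exact this.symm

/-! ### `R_g` is a domain -/

variable (K F) in
/-- `R_{g+1} → R_g ⊗ F` -/
def s27gfSplit (g : ℕ) : s27gfR K F (g + 1) →ₐ[K] s27gfR K F g ⊗[K] F :=
  s27gfLiftR (Fin.lastCases (Algebra.TensorProduct.includeRight : F →ₐ[K] s27gfR K F g ⊗[K] F)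
    (fun i => (Algebra.TensorProduct.includeLeft : s27gfR K F g →ₐ[K] s27gfR K F g ⊗[K] F).comp
      (s27gfSingle i)))

variable (K F) in
/-- `R_g ⊗ F → R_{g+1}` -/
def s27gfJoin (g : ℕ) : s27gfR K F g ⊗[K] F →ₐ[K] s27gfR K F (g + 1) :=
  Algebra.TensorProduct.productMap (s27gfLiftR fun i => s27gfSingle (Fin.castSucc i))
    (s27gfSingle (Fin.last g))

theorem s27gfJoin_split_apply (g : ℕ) (z : s27gfR K F (g + 1)) :
    s27gfJoin K F g (s27gfSplit K F g z) = z := by
  have h : (s27gfJoin K F g).comp (s27gfSplit K F g) = AlgHom.id K _ := by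
    apply s27gfR_hom_ext
    intro i f
    show s27gfJoin K F g (s27gfSplit K F g (s27gfSingle i f)) = s27gfSingle i f
    unfold s27gfSplit
    rw [s27gfLiftR_single]
    induction i using Fin.lastCases with
    | last =>
      rw [Fin.lastCases_last]
      show s27gfJoin K F g ((1 : s27gfR K F g) ⊗ₜ[K] f) = _
      unfold s27gfJoin
      rw [Algebra.TensorProduct.productMap_apply_tmul, map_one, one_mul]
    | cast k =>
      rw [Fin.lastCases_castSucc]
      show s27gfJoin K F g ((s27gfSingle k f) ⊗ₜ[K] (1 : F)) = _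
      unfold s27gfJoin
      rw [Algebra.TensorProduct.productMap_apply_tmul, map_one, mul_one, s27gfLiftR_single]
  exact congrArg (fun a => a z) h

theorem s27gfSplit_injective (g : ℕ) : Function.Injective (s27gfSplit K F g) := by
  intro x y h
  have h1 := congrArg (s27gfJoin K F g) h
  rwa [s27gfJoin_split_apply, s27gfJoin_split_apply] at h1

variable (K F) in
/-- `R_0 → K` -/
def s27gfZero : s27gfR K F 0 →ₐ[K] K := s27gfLiftR fun i => i.elim0

theorem s27gfZero_injective : Function.Injective (s27gfZero K F) := by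
  intro x y h
  have h0 : (Algebra.ofId K (s27gfR K F 0)).comp (s27gfZero K F) = AlgHom.id K _ :=
    s27gfR_hom_ext fun i f => i.elim0
  have h2 : ∀ z, Algebra.ofId K (s27gfR K F 0) (s27gfZero K F z) = z := fun z =>
    congrArg (fun a => a z) h0
  have h1 := congrArg (Algebra.ofId K (s27gfR K F 0)) h
  rwa [h2, h2] at h1

variable (K F) in
/-- **`R_g = F^{⊗ g}` is a domain** (`K` algebraically closed) -/
theorem s27gf_isDomain [IsAlgClosed K] (g : ℕ) : IsDomain (s27gfR K F g) := by
  induction g with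
  | zero =>
    exact Function.Injective.isDomain (s27gfZero K F : s27gfR K F 0 →+* K) s27gfZero_injective
  | succ g ih =>
    haveI := ih
    haveI : IsDomain (s27gfR K F g ⊗[K] F) := s26etd_isDomain K (s27gfR K F g) F
    exact Function.Injective.isDomain
      (s27gfSplit K F g : s27gfR K F (g + 1) →+* s27gfR K F g ⊗[K] F) (s27gfSplit_injective g)

end Ring

/-! ### The field `Ω_g = K(C^g)` -/

section Field

variable (K : Type u) (F : Type v) [Field K] [IsAlgClosed K] [Field F] [Algebra K F] (g : ℕ)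

/-- `Ω_g = Frac (F^{⊗ g})`, the function field of `C^g` -/
def s27gfOm : Type (max u v) := FractionRing (s27gfR K F g)

instance s27gfOm_field : Field (s27gfOm K F g) :=
  haveI := s27gf_isDomain K F g
  inferInstanceAs (Field (FractionRing (s27gfR K F g)))

instance s27gfOm_algebraR : Algebra (s27gfR K F g) (s27gfOm K F g) :=
  inferInstanceAs (Algebra (s27gfR K F g) (FractionRing (s27gfR K F g)))

instance s27gfOm_isFractionRing : IsFractionRing (s27gfR K F g) (s27gfOm K F g) :=
  inferInstanceAs (IsFractionRing (s27gfR K F g) (FractionRing (s27gfR K F g)))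

instance s27gfOm_algebraK : Algebra K (s27gfOm K F g) :=
  ((algebraMap (s27gfR K F g) (s27gfOm K F g)).comp (algebraMap K (s27gfR K F g))).toAlgebra

instance s27gfOm_tower : IsScalarTower K (s27gfR K F g) (s27gfOm K F g) :=
  IsScalarTower.of_algebraMap_eq fun _ => rfl

variable {K F g}

theorem s27gfOm_algebraMap_injective :
    Function.Injective (algebraMap (s27gfR K F g) (s27gfOm K F g)) :=
  haveI := s27gf_isDomain K F g
  IsFractionRing.injective (s27gfR K F g) (s27gfOm K F g)

/-- the `i`-th coordinate embedding `F → Ω_g` -/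
def s27gfIota (i : Fin g) : F →ₐ[K] s27gfOm K F g :=
  (IsScalarTower.toAlgHom K (s27gfR K F g) (s27gfOm K F g)).comp (s27gfSingle i)

theorem s27gfIota_apply (i : Fin g) (f : F) :
    s27gfIota i f = algebraMap (s27gfR K F g) (s27gfOm K F g) (s27gfSingle i f) := rfl

theorem s27gfIota_injective (i : Fin g) : Function.Injective (s27gfIota (K := K) (F := F) i) :=
  RingHom.injective ((s27gfIota (K := K) (F := F) i : F →ₐ[K] s27gfOm K F g) :
    F →+* s27gfOm K F g)

/-- two homomorphisms out of `Ω_g` which agree on the coordinates are equal -/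
theorem s27gfOm_hom_ext {M : Type*} [Field M] [Algebra K M] {a b : s27gfOm K F g →ₐ[K] M}
    (h : ∀ i f, a (s27gfIota i f) = b (s27gfIota i f)) : a = b := by
  haveI := s27gf_isDomain K F g
  have h1 : a.comp (IsScalarTower.toAlgHom K (s27gfR K F g) (s27gfOm K F g)) =
      b.comp (IsScalarTower.toAlgHom K (s27gfR K F g) (s27gfOm K F g)) :=
    s27gfR_hom_ext fun i f => h i f
  apply AlgHom.ext
  intro x
  obtain ⟨r, s, hs, rfl⟩ := IsFractionRing.div_surjective (A := s27gfR K F g) x
  have hr := congrArg (fun c => c r) h1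
  have hs' := congrArg (fun c => c s) h1
  simp only [AlgHom.comp_apply, IsScalarTower.coe_toAlgHom'] at hr hs'
  rw [map_div₀, map_div₀, hr, hs']

/-- **the lifting property of `Ω_g`**: a family of embeddings `j i : F → M` into a field whose
product map `R_g → M` is injective extends to `Ω_g → M`. -/
def s27gfLift {M : Type*} [Field M] [Algebra K M] (j : Fin g → F →ₐ[K] M)
    (hj : Function.Injective (s27gfLiftR j)) : s27gfOm K F g →ₐ[K] M :=
  haveI := s27gf_isDomain K F g
  IsFractionRing.liftAlgHom (K := s27gfOm K F g) (g := s27gfLiftR j) hj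

@[simp] theorem s27gfLift_algebraMap {M : Type*} [Field M] [Algebra K M]
    (j : Fin g → F →ₐ[K] M) (hj : Function.Injective (s27gfLiftR j)) (r : s27gfR K F g) :
    s27gfLift j hj (algebraMap (s27gfR K F g) (s27gfOm K F g) r) = s27gfLiftR j r := by
  haveI := s27gf_isDomain K F g
  unfold s27gfLift
  rw [IsFractionRing.liftAlgHom_apply, IsFractionRing.lift_algebraMap]
  rfl

@[simp] theorem s27gfLift_iota {M : Type*} [Field M] [Algebra K M]
    (j : Fin g → F →ₐ[K] M) (hj : Function.Injective (s27gfLiftR j)) (i : Fin g) (f : F) :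
    s27gfLift j hj (s27gfIota i f) = j i f := by
  rw [s27gfIota_apply, s27gfLift_algebraMap, s27gfLiftR_single]

/-- the permutation of the coordinates on `Ω_g` -/
def s27gfPerm (σ : Equiv.Perm (Fin g)) : s27gfOm K F g ≃ₐ[K] s27gfOm K F g :=
  IsFractionRing.algEquivOfAlgEquiv (R := K) (A := s27gfR K F g) (B := s27gfR K F g)
    (K := s27gfOm K F g) (L := s27gfOm K F g) (s27gfPermR σ)

@[simp] theorem s27gfPerm_algebraMap (σ : Equiv.Perm (Fin g)) (r : s27gfR K F g) :
    s27gfPerm σ (algebraMap (s27gfR K F g) (s27gfOm K F g) r) =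
      algebraMap (s27gfR K F g) (s27gfOm K F g) (s27gfPermR σ r) := by
  unfold s27gfPerm
  rw [IsFractionRing.algEquivOfAlgEquiv_algebraMap]

@[simp] theorem s27gfPerm_iota (σ : Equiv.Perm (Fin g)) (i : Fin g) (f : F) :
    s27gfPerm σ (s27gfIota (K := K) i f) = s27gfIota (σ i) f := by
  rw [s27gfIota_apply, s27gfPerm_algebraMap, s27gfPermR_single, s27gfIota_apply]

theorem s27gfPerm_mul_apply (σ τ : Equiv.Perm (Fin g)) (x : s27gfOm K F g) :
    s27gfPerm (σ * τ) x = s27gfPerm σ (s27gfPerm τ x) := by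
  haveI := s27gf_isDomain K F g
  obtain ⟨r, s, hs, rfl⟩ := IsFractionRing.div_surjective (A := s27gfR K F g) x
  rw [map_div₀, map_div₀, map_div₀, s27gfPerm_algebraMap, s27gfPerm_algebraMap,
    s27gfPerm_algebraMap, s27gfPerm_algebraMap, s27gfPerm_algebraMap, s27gfPerm_algebraMap,
    s27gfPermR_mul]
  rfl

theorem s27gfPerm_one_apply (x : s27gfOm K F g) :
    s27gfPerm (1 : Equiv.Perm (Fin g)) x = x := by
  haveI := s27gf_isDomain K F g
  obtain ⟨r, s, hs, rfl⟩ := IsFractionRing.div_surjective (A := s27gfR K F g) x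
  have h1 : ∀ r : s27gfR K F g, s27gfPermR (1 : Equiv.Perm (Fin g)) r = r := fun r =>
    congrArg (fun c => c r) (s27gfPermRHom_one (K := K) (F := F) (g := g))
  rw [map_div₀, s27gfPerm_algebraMap, s27gfPerm_algebraMap, h1, h1]

theorem s27gfPerm_mul (σ τ : Equiv.Perm (Fin g)) :
    s27gfPerm (K := K) (F := F) (σ * τ) = s27gfPerm σ * s27gfPerm τ :=
  AlgEquiv.ext fun x => s27gfPerm_mul_apply σ τ x

theorem s27gfPerm_one : s27gfPerm (K := K) (F := F) (1 : Equiv.Perm (Fin g)) = 1 :=
  AlgEquiv.ext fun x => s27gfPerm_one_apply x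

variable (K F g) in
/-- the action of `S_g` on `Ω_g` -/
def s27gfPermHom : Equiv.Perm (Fin g) →* (s27gfOm K F g ≃ₐ[K] s27gfOm K F g) where
  toFun := s27gfPerm
  map_one' := s27gfPerm_one
  map_mul' := s27gfPerm_mul

@[simp] theorem s27gfPermHom_apply (σ : Equiv.Perm (Fin g)) :
    s27gfPermHom K F g σ = s27gfPerm σ := rfl

variable (K F g) in
/-- **`𝔉 = K(Sym^g C)`**: the field of symmetric functions -/
def s27gfSym : IntermediateField K (s27gfOm K F g) :=
  IntermediateField.fixedField (s27gfPermHom K F g).range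

theorem s27gf_mem_sym {x : s27gfOm K F g} :
    x ∈ s27gfSym K F g ↔ ∀ σ : Equiv.Perm (Fin g), s27gfPerm σ x = x := by
  unfold s27gfSym
  rw [IntermediateField.mem_fixedField_iff]
  constructor
  · intro h σ
    exact h _ ⟨σ, rfl⟩
  · rintro h _ ⟨σ, rfl⟩
    exact h σ

end Field

end Fermat.Agent.S27
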