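/-
S27 route B, geometry leaf SYM (helper47): the point formula of the generic divisor is
`S_g`-invariant, hence an element of `𝔉 = K(Sym^g C) = s27gfSym K F g`.

With the point formula of `S27/CubePt.lean`,
  `s27cp_m θ v α σ j S = θ S / (∏_{a < b ∈ S} (v a − v b) · ∏_{i ∈ S} α i · σ i ^ j)`,
for the generic divisor `D_gen = Σ_i ι_i` on `Ω_g = K(C^g)`:
  `θ = det [ι_i (f l)]`, `v i = ι_i t`, `α i = ι_i a`, `σ i = ι_i s`.

* `s27sym_det_perm`, `s27sym_pairProd_perm` : the determinant and the difference product change by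
  `sign τ` under a permutation `τ` of the points (abstract, for any ring homomorphism `ρ` with
  `ρ (P i x) = P (τ i) x`);
* `s27sym_m_fixed` : the point formula is fixed by `ρ` (abstract);
* `s27symTheta`, `s27symM` : the determinant and the point formula of the generic divisor on `Ω_g`;
* **`s27sym_mem`** : `s27symM f t a s j ∈ s27gfSym K F g`;
* `s27symBeta` : the same element, as an element of the field `𝔉 = ↥(s27gfSym K F g)`;
* `s27sym_m_ne_zero` : it is nonzero as soon as the determinant is, `t` separates the points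
  (automatic for `t ∉ K`... here: hypothesis `ι_i t ≠ ι_j t`) and `a, s ≠ 0`.
-/
import Fermat.Agent.S27.CubePt
import Fermat.Agent.S27.GenField

set_option autoImplicit false
set_option linter.unusedSectionVars false
set_option linter.style.haveILetI false

noncomputable section

namespace Fermat.Agent.S27

open Finset Matrix

universe u v

/-! ### Abstract core -/

section Abstract

variable {n : ℕ} {𝔏 : Type*} [Field 𝔏] (ρ : 𝔏 →+* 𝔏) (τ : Equiv.Perm (Fin n))

/-- a square matrix whose rows are permuted by `ρ`: the determinant changes by the sign -/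
theorem s27sym_det_perm (M : Matrix (Fin n) (Fin n) 𝔏)
    (hM : ∀ i l, ρ (M i l) = M (τ i) l) :
    ρ M.det = (Equiv.Perm.sign τ : ℤ) * M.det := by
  have h1 : ρ M.det = (ρ.mapMatrix M).det := RingHom.map_det ρ M
  have h2 : ρ.mapMatrix M = M.submatrix τ id := by
    ext i l
    simp [hM]
  rw [h1, h2, Matrix.det_permute]

/-- the difference product changes by the sign -/
theorem s27sym_pairProd_perm (v : Fin n → 𝔏) (hv : ∀ i, ρ (v i) = v (τ i)) :
    ρ (s27cp_pairProd (fun a b => v a - v b) (Finset.univ : Finset (Fin n))) =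
      (Equiv.Perm.sign τ : ℤ) *
        s27cp_pairProd (fun a b => v a - v b) (Finset.univ : Finset (Fin n)) := by
  have e : s27cp_pairProd (fun a b => v a - v b) (Finset.univ : Finset (Fin n)) =
      (Matrix.vandermonde (fun i => - v i)).det := by
    rw [← s27cp_pairProd_univ]
    unfold s27cp_pairProd
    refine Finset.prod_congr rfl fun a _ => Finset.prod_congr rfl fun b _ => ?_
    ring
  rw [e]
  refine s27sym_det_perm ρ τ _ ?_
  intro i l
  simp only [Matrix.vandermonde_apply, map_pow, map_neg, hv]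

/-- **the point formula is invariant** (abstract form) -/
theorem s27sym_m_fixed (θ : 𝔏) (v α σ : Fin n → 𝔏) (j : ℕ)
    (hθ : ρ θ = (Equiv.Perm.sign τ : ℤ) * θ)
    (hv : ∀ i, ρ (v i) = v (τ i)) (hα : ∀ i, ρ (α i) = α (τ i))
    (hσ : ∀ i, ρ (σ i) = σ (τ i)) :
    ρ (s27cp_m (fun _ => θ) v α σ j (Finset.univ : Finset (Fin n))) =
      s27cp_m (fun _ => θ) v α σ j (Finset.univ : Finset (Fin n)) := by
  unfold s27cp_m s27cp_den
  rw [map_div₀, map_mul, hθ, s27sym_pairProd_perm ρ τ v hv]
  have hprod : ρ (∏ i : Fin n, α i * σ i ^ j) = ∏ i : Fin n, α i * σ i ^ j := by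
    rw [map_prod]
    have : ∀ i : Fin n, ρ (α i * σ i ^ j) = (fun i => α i * σ i ^ j) (τ i) := by
      intro i
      simp only [map_mul, map_pow, hα, hσ]
    simp only [this]
    exact Equiv.prod_comp τ (fun i => α i * σ i ^ j)
  rw [hprod]
  have hs : ((Equiv.Perm.sign τ : ℤ) : 𝔏) ≠ 0 := by
    rcases Int.units_eq_one_or (Equiv.Perm.sign τ) with h | h <;> rw [h] <;> simp
  rw [mul_assoc, mul_div_mul_left _ _ hs]

end Abstract

/-! ### The generic divisor on `Ω_g` -/

section Generic

variable {K : Type u} {F : Type v} [Field K] [Field F] [Algebra K F] [IsAlgClosed K] {g : ℕ}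

/-- the determinant `det [ι_i (f l)]` of the generic divisor -/
def s27symTheta (f : Fin g → F) : s27gfOm K F g :=
  (Matrix.of fun i l => s27gfIota (K := K) i (f l)).det

/-- the point formula of the generic divisor `D_gen = Σ ι_i`:
`det [ι_i (f l)] / (∏_{i<j} (ι_i t − ι_j t) · ∏_i ι_i a · (ι_i s)^j)` -/
def s27symM (f : Fin g → F) (t a s : F) (j : ℕ) : s27gfOm K F g :=
  s27cp_m (fun _ => s27symTheta (K := K) f) (fun i => s27gfIota i t) (fun i => s27gfIota i a)
    (fun i => s27gfIota i s) j (Finset.univ : Finset (Fin g))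

theorem s27sym_theta_perm (τ : Equiv.Perm (Fin g)) (f : Fin g → F) :
    s27gfPerm τ (s27symTheta (K := K) f) =
      (Equiv.Perm.sign τ : ℤ) * s27symTheta (K := K) f :=
  s27sym_det_perm ((s27gfPerm (K := K) (F := F) τ : s27gfOm K F g ≃ₐ[K] s27gfOm K F g) :
    s27gfOm K F g →+* s27gfOm K F g) τ _ (fun i l => by
      simp only [Matrix.of_apply]
      exact s27gfPerm_iota τ i (f l))

/-- the point formula of the generic divisor is fixed by every permutation of the points -/
theorem s27sym_perm (τ : Equiv.Perm (Fin g)) (f : Fin g → F) (t a s : F) (j : ℕ) :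
    s27gfPerm τ (s27symM (K := K) f t a s j) = s27symM (K := K) f t a s j :=
  s27sym_m_fixed ((s27gfPerm (K := K) (F := F) τ : s27gfOm K F g ≃ₐ[K] s27gfOm K F g) :
    s27gfOm K F g →+* s27gfOm K F g) τ _ _ _ _ j (s27sym_theta_perm τ f)
    (fun i => s27gfPerm_iota τ i t) (fun i => s27gfPerm_iota τ i a)
    (fun i => s27gfPerm_iota τ i s)

/-- **SYM**: the point formula of the generic divisor lies in `𝔉 = K(Sym^g C)`. -/
theorem s27sym_mem (f : Fin g → F) (t a s : F) (j : ℕ) :
    s27symM (K := K) f t a s j ∈ s27gfSym K F g :=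
  s27gf_mem_sym.2 fun τ => s27sym_perm τ f t a s j

/-- the point formula of the generic divisor, as an element of the field `𝔉`. -/
def s27symBeta (f : Fin g → F) (t a s : F) (j : ℕ) : ↥(s27gfSym K F g) :=
  ⟨s27symM (K := K) f t a s j, s27sym_mem f t a s j⟩

@[simp] theorem s27symBeta_coe (f : Fin g → F) (t a s : F) (j : ℕ) :
    ((s27symBeta (K := K) f t a s j : ↥(s27gfSym K F g)) : s27gfOm K F g) =
      s27symM (K := K) f t a s j := rfl

/-- the product of two determinants of the generic divisor is symmetric -/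
theorem s27sym_theta_mul_mem (f f' : Fin g → F) :
    s27symTheta (K := K) f * s27symTheta (K := K) f' ∈ s27gfSym K F g := by
  refine s27gf_mem_sym.2 fun τ => ?_
  rw [map_mul, s27sym_theta_perm, s27sym_theta_perm]
  rcases Int.units_eq_one_or (Equiv.Perm.sign τ) with h | h <;> rw [h] <;> simp

/-- the quotient of two determinants of the generic divisor is symmetric -/
theorem s27sym_theta_div_mem (f f' : Fin g → F) :
    s27symTheta (K := K) f / s27symTheta (K := K) f' ∈ s27gfSym K F g := by
  refine s27gf_mem_sym.2 fun τ => ?_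
  rw [map_div₀, s27sym_theta_perm, s27sym_theta_perm]
  have hs : ((Equiv.Perm.sign τ : ℤ) : s27gfOm K F g) ≠ 0 := by
    rcases Int.units_eq_one_or (Equiv.Perm.sign τ) with h | h <;> rw [h] <;> simp
  rw [mul_div_mul_left _ _ hs]

/-- symmetric functions of the coordinates: `∏_i ι_i a ∈ 𝔉` -/
theorem s27sym_prod_mem (a : F) :
    (∏ i : Fin g, s27gfIota (K := K) i a) ∈ s27gfSym K F g := by
  refine s27gf_mem_sym.2 fun τ => ?_
  rw [map_prod]
  simp only [s27gfPerm_iota]
  exact Equiv.prod_comp τ (fun i => s27gfIota (K := K) i a)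

/-- symmetric functions of the coordinates: `Σ_i ι_i a ∈ 𝔉` -/
theorem s27sym_sum_mem (a : F) :
    (∑ i : Fin g, s27gfIota (K := K) i a) ∈ s27gfSym K F g := by
  refine s27gf_mem_sym.2 fun τ => ?_
  rw [map_sum]
  simp only [s27gfPerm_iota]
  exact Equiv.sum_comp τ (fun i => s27gfIota (K := K) i a)

/-- the point formula is nonzero when the determinant is, `t` separates the points and
`a, s ≠ 0` -/
theorem s27sym_m_ne_zero (f : Fin g → F) (t a s : F) (j : ℕ)
    (hθ : s27symTheta (K := K) f ≠ 0)
    (ht : ∀ i k : Fin g, i ≠ k → s27gfIota (K := K) i t ≠ s27gfIota k t)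
    (ha : a ≠ 0) (hs : s ≠ 0) : s27symM (K := K) f t a s j ≠ 0 := by
  unfold s27symM s27cp_m s27cp_den s27cp_pairProd
  refine div_ne_zero hθ (mul_ne_zero ?_ ?_)
  · refine Finset.prod_ne_zero_iff.2 fun i _ => Finset.prod_ne_zero_iff.2 fun k hk => ?_
    have hik : i < k := (Finset.mem_filter.1 hk).2
    exact sub_ne_zero.2 (ht i k (ne_of_lt hik))
  · refine Finset.prod_ne_zero_iff.2 fun i _ => mul_ne_zero ?_ (pow_ne_zero _ ?_)
    · exact (map_ne_zero_iff _ (s27gfIota_injective i)).2 ha
    · exact (map_ne_zero_iff _ (s27gfIota_injective i)).2 hs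

end Generic

end Fermat.Agent.S27
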