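/-
S27 route B, geometry leaf BETA concrete (helper19): **the local equation `β V` of the theta
divisor at the generic point**, on the model `𝔉 = s27gfSym K F g ⊂ Ω = s27gfOm K F g`, stated on
the hub's concrete definitions `S27/PtDef.lean` (`S27ptIsIdx W R A' x`: `x` is a local equation
along `W` at the points `R`).

* `s27beta_idx_reindex`  : a local equation does not depend on the order of the points;
* `s27beta_idx_sym`      : a local equation at the generic points `ι_i` lies in `𝔉` (SYM);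
* `S27betaIs A' V b`     : `b ∈ 𝔉` is a local equation along SOME `W` over `V`;
* **`s27beta A' V`**     : THE function `β` (a chosen `b`, or `1`);
* **`s27beta_mem`**      : `β V ∈ V`, unconditionally;
* **`s27beta_ne`**       : `β V ≠ 0` as soon as the generic determinant of `L_K(A')` is nonzero;
* `s27beta_exists`       : Chevalley + existence of a lattice basis (LAT-EX) ⇒ `∃ b, S27betaIs A' V b`;
* `s27beta_is_all`       : CONJ ⇒ `S27betaIs A' V b` holds along EVERY `W` over `V`;
* **`s27beta_spec`**     : (LAT-EX + CONJ) `β (W ∩ 𝔉)` is a local equation along `W`, for every `W ⊇ K`;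
* **`s27beta_unit`**     : every local equation `x` along `W` is `u · β (W ∩ 𝔉)`, `u ∈ Wˣ`;
* `s27beta_main`         : the package.
-/
import Fermat.Agent.S27.PtDef
import Fermat.Agent.S27.Sym
import Fermat.Agent.S27.Lift
import Fermat.Agent.S27.Plan
import Fermat.Agent.S26.ERAbs

set_option autoImplicit false
set_option linter.unusedSectionVars false

noncomputable section

namespace Fermat.Agent.S27

open AlgebraicCurve Fermat.Agent.S26

universe u v w

/-! ### Reindexing the points -/

section Reindex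

variable {K : Type u} {F : Type v} [Field K] [Field F] [Algebra K F]
variable {𝔏 : Type w} [Field 𝔏] [Algebra K 𝔏]
variable {N : ℕ}

theorem s27beta_F_reindex (W : ValuationSubring 𝔏) (R : Fin N → F →ₐ[K] 𝔏)
    (τ : Equiv.Perm (Fin N)) (A' : Divisor K F) :
    s27ptF W (fun i => R (τ i)) A' = s27ptF W R A' := by
  ext f
  simp only [s27pt_mem_F]
  constructor
  · intro h Q i hQ
    refine h Q (τ.symm i) ?_
    simpa using hQ
  · intro h Q i hQ
    exact h Q (τ i) hQ

theorem s27beta_det_reindex (R : Fin N → F →ₐ[K] 𝔏) (τ : Equiv.Perm (Fin N))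
    (φ : Fin N → F) :
    (s27ptVal (fun i => R (τ i)) φ).det = (Equiv.Perm.sign τ : ℤ) * (s27ptVal R φ).det := by
  have h : s27ptVal (fun i => R (τ i)) φ = (s27ptVal R φ).submatrix τ id := by
    ext i j
    rfl
  rw [h, Matrix.det_permute]

theorem s27beta_sign_ne_zero (τ : Equiv.Perm (Fin N)) :
    (((Equiv.Perm.sign τ : ℤˣ) : ℤ) : 𝔏) ≠ 0 := by
  rcases Int.units_eq_one_or (Equiv.Perm.sign τ) with h | h
  · rw [h]; simp
  · rw [h]; simp

theorem s27beta_latBasis_reindex {W : ValuationSubring 𝔏} {R : Fin N → F →ₐ[K] 𝔏}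
    {A' : Divisor K F} {φ : Fin N → F} (τ : Equiv.Perm (Fin N))
    (hφ : S27ptIsLatBasis W R A' φ) : S27ptIsLatBasis W (fun i => R (τ i)) A' φ := by
  refine ⟨fun j => ?_, ?_, fun ψ hψ => ?_⟩
  · rw [s27beta_F_reindex]
    exact hφ.mem j
  · rw [s27beta_det_reindex]
    exact mul_ne_zero (s27beta_sign_ne_zero τ) hφ.det_ne
  · rw [s27beta_F_reindex] at hψ
    obtain ⟨c, hc1, hc2⟩ := hφ.span ψ hψ
    exact ⟨c, hc1, fun i => hc2 (τ i)⟩

/-- **a local equation does not depend on the order of the points.** -/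
theorem s27beta_idx_reindex {W : ValuationSubring 𝔏} {R : Fin N → F →ₐ[K] 𝔏}
    {A' : Divisor K F} {x : 𝔏} (τ : Equiv.Perm (Fin N)) (hx : S27ptIsIdx W R A' x) :
    S27ptIsIdx W (fun i => R (τ i)) A' x := by
  obtain ⟨f, φ, hφ, rfl⟩ := hx
  refine ⟨f, φ, s27beta_latBasis_reindex τ hφ, ?_⟩
  have h1 : (s27ptValB (fun i => R (τ i)) f).det =
      (Equiv.Perm.sign τ : ℤ) * (s27ptValB R f).det := s27beta_det_reindex R τ _
  rw [h1, s27beta_det_reindex, mul_div_mul_left _ _ (s27beta_sign_ne_zero τ)]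

end Reindex

/-! ### The model -/

section Model

variable {K : Type u} {F : Type v} [Field K] [IsAlgClosed K] [Field F] [Algebra K F] {g : ℕ}

/-- the generic points `ι_i : F → Ω_g`. -/
def s27betaPt (K : Type u) (F : Type v) [Field K] [IsAlgClosed K] [Field F] [Algebra K F]
    (g : ℕ) : Fin g → F →ₐ[K] s27gfOm K F g := fun i => s27gfIota i

theorem s27betaPt_apply (i : Fin g) (f : F) : s27betaPt K F g i f = s27gfIota i f := rfl

/-- **SYM**: a local equation at the generic points is a symmetric function. -/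
theorem s27beta_idx_sym {W : ValuationSubring (s27gfOm K F g)} {A' : Divisor K F}
    {x : s27gfOm K F g} (hx : S27ptIsIdx W (s27betaPt K F g) A' x) :
    x ∈ s27gfSym K F g := by
  rw [s27gf_mem_sym]
  intro σ
  obtain ⟨f, φ, hφ, rfl⟩ := hx
  have h1 := s27sym_det_perm ((s27gfPerm σ : s27gfOm K F g ≃ₐ[K] s27gfOm K F g) :
      s27gfOm K F g →+* s27gfOm K F g) σ (s27ptValB (s27betaPt K F g) f)
    (fun i l => s27gfPerm_iota σ i _)
  have h2 := s27sym_det_perm ((s27gfPerm σ : s27gfOm K F g ≃ₐ[K] s27gfOm K F g) :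
      s27gfOm K F g →+* s27gfOm K F g) σ (s27ptVal (s27betaPt K F g) φ)
    (fun i l => s27gfPerm_iota σ i _)
  have h1' : s27gfPerm σ (s27ptValB (s27betaPt K F g) f).det =
      (Equiv.Perm.sign σ : ℤ) * (s27ptValB (s27betaPt K F g) f).det := h1
  have h2' : s27gfPerm σ (s27ptVal (s27betaPt K F g) φ).det =
      (Equiv.Perm.sign σ : ℤ) * (s27ptVal (s27betaPt K F g) φ).det := h2
  rw [map_div₀, h1', h2', mul_div_mul_left _ _ (s27beta_sign_ne_zero σ)]

/-- `b ∈ 𝔉` is a local equation of the theta divisor of `A'` at the generic divisor, along some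
valuation subring `W` of `Ω_g` over `V`. -/
def S27betaIs (A' : Divisor K F) (V : ValuationSubring (s27gfSym K F g))
    (b : s27gfSym K F g) : Prop :=
  ∃ W : ValuationSubring (s27gfOm K F g),
    W.comap (algebraMap (s27gfSym K F g) (s27gfOm K F g)) = V ∧
      S27ptIsIdx W (s27betaPt K F g) A' (algebraMap (s27gfSym K F g) (s27gfOm K F g) b)

open Classical in
/-- **THE local equation `β V` of the theta divisor of `A'` at the generic point `η`.** -/
def s27beta (A' : Divisor K F) (V : ValuationSubring (s27gfSym K F g)) : s27gfSym K F g :=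
  if h : ∃ b, S27betaIs A' V b then h.choose else 1

theorem s27beta_is {A' : Divisor K F} {V : ValuationSubring (s27gfSym K F g)}
    (h : ∃ b, S27betaIs A' V b) : S27betaIs A' V (s27beta A' V) := by
  unfold s27beta
  rw [dif_pos h]
  exact h.choose_spec

theorem s27betaIs_mem {A' : Divisor K F} {V : ValuationSubring (s27gfSym K F g)}
    {b : s27gfSym K F g} (h : S27betaIs A' V b) : b ∈ V := by
  obtain ⟨W, hWV, hx⟩ := h
  rw [← hWV, ValuationSubring.mem_comap]
  exact s27pt_idx_mem hx

theorem s27betaIs_ne {A' : Divisor K F} {V : ValuationSubring (s27gfSym K F g)}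
    {b : s27gfSym K F g} (h : S27betaIs A' V b)
    (hθ : ∀ f : Module.Basis (Fin g) K ↥(riemannRochSpace A'),
      (s27ptValB (s27betaPt K F g) f).det ≠ 0) : b ≠ 0 := by
  obtain ⟨W, hWV, hx⟩ := h
  intro h0
  refine s27pt_idx_ne_zero hx hθ ?_
  rw [h0, map_zero]

/-- **β_mem**: `β V ∈ V` (unconditionally). -/
theorem s27beta_mem (A' : Divisor K F) (V : ValuationSubring (s27gfSym K F g)) :
    s27beta A' V ∈ V := by
  by_cases h : ∃ b, S27betaIs A' V b
  · exact s27betaIs_mem (s27beta_is h)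
  · unfold s27beta
    rw [dif_neg h]
    exact V.one_mem

/-- **β_ne**: `β V ≠ 0`, as soon as the generic determinant of `L_K(A')` is nonzero. -/
theorem s27beta_ne (A' : Divisor K F)
    (hθ : ∀ f : Module.Basis (Fin g) K ↥(riemannRochSpace A'),
      (s27ptValB (s27betaPt K F g) f).det ≠ 0)
    (V : ValuationSubring (s27gfSym K F g)) : s27beta A' V ≠ 0 := by
  by_cases h : ∃ b, S27betaIs A' V b
  · exact s27betaIs_ne (s27beta_is h) hθ
  · unfold s27beta
    rw [dif_neg h]
    exact one_ne_zero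

/-- `W ⊇ K` iff `W ∩ 𝔉 ⊇ K`. -/
theorem s27beta_isKVal_iff (W : ValuationSubring (s27gfOm K F g)) :
    S27IsKValU K (W.comap (algebraMap (s27gfSym K F g) (s27gfOm K F g))) ↔
      ∀ a : K, algebraMap K (s27gfOm K F g) a ∈ W := by
  unfold S27IsKValU
  refine forall_congr' fun a => ?_
  rw [ValuationSubring.mem_comap]
  rfl

/-- **existence** (Chevalley + LAT-EX): every `V ⊇ K` has a local equation. -/
theorem s27beta_exists (A' : Divisor K F)
    (f : Module.Basis (Fin g) K ↥(riemannRochSpace A'))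
    (hlat : ∀ W : ValuationSubring (s27gfOm K F g),
      (∀ a : K, algebraMap K (s27gfOm K F g) a ∈ W) →
        ∃ φ : Fin g → F, S27ptIsLatBasis W (s27betaPt K F g) A' φ)
    (V : ValuationSubring (s27gfSym K F g)) (hV : S27IsKValU K V) :
    ∃ b, S27betaIs A' V b := by
  obtain ⟨W, hWV⟩ := s26er_exists_comap_eq (Ω' := s27gfOm K F g) V
  have hW : ∀ a : K, algebraMap K (s27gfOm K F g) a ∈ W := by
    rw [← s27beta_isKVal_iff, hWV]
    exact hV
  obtain ⟨φ, hφ⟩ := hlat W hW
  have hx : S27ptIsIdx W (s27betaPt K F g) A'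
      ((s27ptValB (s27betaPt K F g) f).det / (s27ptVal (s27betaPt K F g) φ).det) :=
    ⟨f, φ, hφ, rfl⟩
  exact ⟨⟨_, s27beta_idx_sym hx⟩, W, hWV, hx⟩

/-- **CONJ** (the statement): two valuation subrings of `Ω_g` with the same trace on `𝔉` are
conjugate under `S_g`. -/
def s27beta_StmtConj (K : Type u) (F : Type v) [Field K] [IsAlgClosed K] [Field F]
    [Algebra K F] (g : ℕ) : Prop :=
  ∀ W W' : ValuationSubring (s27gfOm K F g),
    W.comap (algebraMap (s27gfSym K F g) (s27gfOm K F g)) =
      W'.comap (algebraMap (s27gfSym K F g) (s27gfOm K F g)) →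
    ∃ σ : Equiv.Perm (Fin g), ∀ x : s27gfOm K F g, x ∈ W' ↔ s27gfPerm σ x ∈ W

/-- a local equation along `W'` which lies in `𝔉` is a local equation along every conjugate. -/
theorem s27beta_idx_conj {A' : Divisor K F} {W W' : ValuationSubring (s27gfOm K F g)}
    (σ : Equiv.Perm (Fin g)) (hσ : ∀ x : s27gfOm K F g, x ∈ W' ↔ s27gfPerm σ x ∈ W)
    {b : s27gfSym K F g}
    (hx : S27ptIsIdx W' (s27betaPt K F g) A'
      (algebraMap (s27gfSym K F g) (s27gfOm K F g) b)) :
    S27ptIsIdx W (s27betaPt K F g) A' (algebraMap (s27gfSym K F g) (s27gfOm K F g) b) := by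
  have hW' : W' = W.comap (((s27gfPerm σ : s27gfOm K F g ≃ₐ[K] s27gfOm K F g) :
      s27gfOm K F g →ₐ[K] s27gfOm K F g) : s27gfOm K F g →+* s27gfOm K F g) := by
    ext x
    rw [ValuationSubring.mem_comap]
    exact hσ x
  rw [hW'] at hx
  have h1 := s27pt_idx_nat ((s27gfPerm σ : s27gfOm K F g ≃ₐ[K] s27gfOm K F g) :
      s27gfOm K F g →ₐ[K] s27gfOm K F g) W hx
  have h2 : (fun i => (((s27gfPerm σ : s27gfOm K F g ≃ₐ[K] s27gfOm K F g) :
      s27gfOm K F g →ₐ[K] s27gfOm K F g)).comp (s27betaPt K F g i)) =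
      fun i => s27betaPt K F g (σ i) := by
    funext i
    apply AlgHom.ext
    intro f
    exact s27gfPerm_iota σ i f
  have h3 : ((s27gfPerm σ : s27gfOm K F g ≃ₐ[K] s27gfOm K F g) :
      s27gfOm K F g →ₐ[K] s27gfOm K F g)
      (algebraMap (s27gfSym K F g) (s27gfOm K F g) b) =
      algebraMap (s27gfSym K F g) (s27gfOm K F g) b :=
    (s27gf_mem_sym.1 b.2) σ
  rw [h2, h3] at h1
  have h4 := s27beta_idx_reindex σ⁻¹ h1
  have h5 : (fun i => s27betaPt K F g (σ (σ⁻¹ i))) = s27betaPt K F g := by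
    funext i
    simp
  rwa [h5] at h4

/-- CONJ ⇒ a local equation `b ∈ 𝔉` along ONE `W` over `V` is one along EVERY `W` over `V`. -/
theorem s27beta_is_all (hconj : s27beta_StmtConj K F g) {A' : Divisor K F}
    {V : ValuationSubring (s27gfSym K F g)} {b : s27gfSym K F g} (h : S27betaIs A' V b)
    (W : ValuationSubring (s27gfOm K F g))
    (hWV : W.comap (algebraMap (s27gfSym K F g) (s27gfOm K F g)) = V) :
    S27ptIsIdx W (s27betaPt K F g) A' (algebraMap (s27gfSym K F g) (s27gfOm K F g) b) := by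
  obtain ⟨W', hW'V, hx⟩ := h
  obtain ⟨σ, hσ⟩ := hconj W W' (hWV.trans hW'V.symm)
  exact s27beta_idx_conj σ hσ hx

/-- **the spec of `β`** (LAT-EX + CONJ): for EVERY valuation subring `W ⊇ K` of `Ω_g`,
`β (W ∩ 𝔉)` is a local equation along `W`. -/
theorem s27beta_spec (hconj : s27beta_StmtConj K F g) (A' : Divisor K F)
    (f : Module.Basis (Fin g) K ↥(riemannRochSpace A'))
    (hlat : ∀ W : ValuationSubring (s27gfOm K F g),
      (∀ a : K, algebraMap K (s27gfOm K F g) a ∈ W) →
        ∃ φ : Fin g → F, S27ptIsLatBasis W (s27betaPt K F g) A' φ)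
    (W : ValuationSubring (s27gfOm K F g))
    (hW : ∀ a : K, algebraMap K (s27gfOm K F g) a ∈ W) :
    S27ptIsIdx W (s27betaPt K F g) A' (algebraMap (s27gfSym K F g) (s27gfOm K F g)
      (s27beta A' (W.comap (algebraMap (s27gfSym K F g) (s27gfOm K F g))))) := by
  have hV : S27IsKValU K (W.comap (algebraMap (s27gfSym K F g) (s27gfOm K F g))) :=
    (s27beta_isKVal_iff W).2 hW
  exact s27beta_is_all hconj (s27beta_is (s27beta_exists A' f hlat _ hV)) W rfl

/-- **uniqueness against `β`**: every local equation `x` along `W ⊇ K` is `u · β (W ∩ 𝔉)` with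
`u` a unit of `W`. -/
theorem s27beta_unit (hconj : s27beta_StmtConj K F g) (A' : Divisor K F)
    (f : Module.Basis (Fin g) K ↥(riemannRochSpace A'))
    (hlat : ∀ W : ValuationSubring (s27gfOm K F g),
      (∀ a : K, algebraMap K (s27gfOm K F g) a ∈ W) →
        ∃ φ : Fin g → F, S27ptIsLatBasis W (s27betaPt K F g) A' φ)
    (W : ValuationSubring (s27gfOm K F g))
    (hW : ∀ a : K, algebraMap K (s27gfOm K F g) a ∈ W) {x : s27gfOm K F g}
    (hx : S27ptIsIdx W (s27betaPt K F g) A' x) :
    ∃ u : s27gfOm K F g, u ≠ 0 ∧ u ∈ W ∧ u⁻¹ ∈ W ∧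
      x = u * algebraMap (s27gfSym K F g) (s27gfOm K F g)
        (s27beta A' (W.comap (algebraMap (s27gfSym K F g) (s27gfOm K F g)))) :=
  s27pt_idx_unique hW hx (s27beta_spec hconj A' f hlat W hW)

/-- two local equations in `𝔉` along valuation subrings over the same `V` differ by a unit of
`V` (CONJ). -/
theorem s27betaIs_unique (hconj : s27beta_StmtConj K F g) {A' : Divisor K F}
    {V : ValuationSubring (s27gfSym K F g)} (hV : S27IsKValU K V) {b b' : s27gfSym K F g}
    (h : S27betaIs A' V b) (h' : S27betaIs A' V b') :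
    ∃ u : s27gfSym K F g, S27IsUnitIn V u ∧ b = u * b' := by
  obtain ⟨W, hWV, hx⟩ := h
  have hx' := s27beta_is_all hconj h' W hWV
  have hW : ∀ a : K, algebraMap K (s27gfOm K F g) a ∈ W := by
    rw [← s27beta_isKVal_iff, hWV]
    exact hV
  obtain ⟨u, hu0, hu1, hu2, hu3⟩ := s27pt_idx_unique hW hx hx'
  by_cases hb' : b' = 0
  · refine ⟨1, ⟨one_ne_zero, V.one_mem, by rw [inv_one]; exact V.one_mem⟩, ?_⟩
    rw [hb', map_zero, mul_zero] at hu3
    have : b = 0 := by
      have h0 : algebraMap (s27gfSym K F g) (s27gfOm K F g) b =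
          algebraMap (s27gfSym K F g) (s27gfOm K F g) 0 := by rw [hu3, map_zero]
      exact (algebraMap (s27gfSym K F g) (s27gfOm K F g)).injective h0
    rw [this, hb', mul_zero]
  · have hinj := (algebraMap (s27gfSym K F g) (s27gfOm K F g)).injective
    have hb'0 : algebraMap (s27gfSym K F g) (s27gfOm K F g) b' ≠ 0 := fun h0 =>
      hb' (hinj (by rw [h0, map_zero]))
    have hu : algebraMap (s27gfSym K F g) (s27gfOm K F g) (b / b') = u := by
      rw [map_div₀, hu3, mul_div_assoc, div_self hb'0, mul_one]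
    have hne : b / b' ≠ 0 := by
      intro h0
      rw [h0, map_zero] at hu
      exact hu0 hu.symm
    refine ⟨b / b', ⟨hne, ?_, ?_⟩, ?_⟩
    · rw [← hWV, ValuationSubring.mem_comap, hu]
      exact hu1
    · rw [← hWV, ValuationSubring.mem_comap, map_inv₀, hu]
      exact hu2
    · rw [div_mul_cancel₀ _ hb']

/-- **the package BETA**: `β := s27beta A'` is nonzero, effective, and is a local equation along
every valuation subring `W ⊇ K` of `Ω_g`. -/
theorem s27beta_main (hconj : s27beta_StmtConj K F g) (A' : Divisor K F)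
    (f : Module.Basis (Fin g) K ↥(riemannRochSpace A'))
    (hθ : ∀ f : Module.Basis (Fin g) K ↥(riemannRochSpace A'),
      (s27ptValB (s27betaPt K F g) f).det ≠ 0)
    (hlat : ∀ W : ValuationSubring (s27gfOm K F g),
      (∀ a : K, algebraMap K (s27gfOm K F g) a ∈ W) →
        ∃ φ : Fin g → F, S27ptIsLatBasis W (s27betaPt K F g) A' φ) :
    (∀ V, S27IsKValU K V → s27beta (g := g) A' V ≠ 0) ∧
    (∀ V, S27IsKValU K V → s27beta (g := g) A' V ∈ V) ∧
    (∀ W : ValuationSubring (s27gfOm K F g), (∀ a : K, algebraMap K (s27gfOm K F g) a ∈ W) →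
      S27ptIsIdx W (s27betaPt K F g) A' (algebraMap (s27gfSym K F g) (s27gfOm K F g)
        (s27beta A' (W.comap (algebraMap (s27gfSym K F g) (s27gfOm K F g)))))) :=
  ⟨fun V _ => s27beta_ne A' hθ V, fun V _ => s27beta_mem A' V,
    fun W hW => s27beta_spec hconj A' f hlat W hW⟩

end Model

end Fermat.Agent.S27

end
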