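/-
S27 route B, piece MODEL / B1-FIELDS, part 2 (helper33): the `S_g`-action on `Ω_g = K(C^g)` and the
extension `Ω_g / 𝔉`, `𝔉 = K(Sym^g C) = s27gfSym K F g`, in the shapes of `S27/GenEmb.lean` (helper15).

* `s27gfAction`     : `MulSemiringAction (Equiv.Perm (Fin g)) Ω_g`, `σ • x = s27gfPerm σ x`;
* `s27gf_hact`      : `σ • ι_i f = ι_{σ i} f`;
* `s27gf_hfix`      : `σ • x = x` for `x ∈ 𝔉`;   `s27gf_mem_sym_iff_smul`;
* `s27gf_hgen`      : `Subfield.closure (⋃ i, range ι_i) = ⊤`;  `s27gf_adjoin` (intermediate fields);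
* `s27gf_finite`, `s27gf_isGalois` : `Ω_g / 𝔉` is finite and Galois;
  `s27gf_isAlgebraic` : `Ω_g / 𝔉` is algebraic;
* `s27gf_finrank_le` : `[Ω_g : 𝔉] ≤ g !`.
-/
import Mathlib
import Fermat.Agent.S27.GenField

set_option autoImplicit false
set_option linter.unusedVariables false
set_option linter.unusedSectionVars false
set_option linter.style.haveILetI false

noncomputable section

namespace Fermat.Agent.S27

open TensorProduct Fermat.Agent.S26

universe u v

section Action

variable {K : Type u} {F : Type v} [Field K] [IsAlgClosed K] [Field F] [Algebra K F] {g : ℕ}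

/-- the action of `S_g` on `Ω_g` -/
instance s27gfAction : MulSemiringAction (Equiv.Perm (Fin g)) (s27gfOm K F g) :=
  MulSemiringAction.compHom (s27gfOm K F g) (s27gfPermHom K F g)

theorem s27gf_smul_def (σ : Equiv.Perm (Fin g)) (x : s27gfOm K F g) :
    σ • x = s27gfPerm σ x := rfl

theorem s27gf_hact (σ : Equiv.Perm (Fin g)) (i : Fin g) (f : F) :
    σ • s27gfIota (K := K) i f = s27gfIota (σ i) f := by
  rw [s27gf_smul_def, s27gfPerm_iota]

instance s27gfAction_smulComm : SMulCommClass (Equiv.Perm (Fin g)) K (s27gfOm K F g) :=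
  ⟨fun σ c x => by
    rw [s27gf_smul_def, s27gf_smul_def, map_smul]⟩

theorem s27gf_mem_sym_iff_smul {x : s27gfOm K F g} :
    x ∈ s27gfSym K F g ↔ ∀ σ : Equiv.Perm (Fin g), σ • x = x :=
  s27gf_mem_sym

theorem s27gf_hfix (σ : Equiv.Perm (Fin g)) (x : s27gfSym K F g) :
    σ • algebraMap (s27gfSym K F g) (s27gfOm K F g) x =
      algebraMap (s27gfSym K F g) (s27gfOm K F g) x :=
  s27gf_mem_sym_iff_smul.mp x.2 σ

/-- a subfield of `Ω_g` containing `K` and the coordinates is everything -/
theorem s27gf_subfield_eq_top (S : Subfield (s27gfOm K F g))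
    (hK : ∀ c : K, algebraMap K (s27gfOm K F g) c ∈ S)
    (hι : ∀ (i : Fin g) (f : F), s27gfIota (K := K) i f ∈ S) : S = ⊤ := by
  haveI := s27gf_isDomain K F g
  rw [eq_top_iff]
  rintro x -
  -- the image of `R_g` lies in `S`
  have hR : ∀ r : s27gfR K F g, algebraMap (s27gfR K F g) (s27gfOm K F g) r ∈ S := by
    intro r
    induction r using PiTensorProduct.induction_on with
    | smul_tprod c y =>
      have h1 : PiTensorProduct.tprod K y = ∏ i, s27gfSingle (K := K) i (y i) := by
        have h2 : ∀ i : Fin g, s27gfSingle (K := K) i (y i) =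
            PiTensorProduct.tprod K (Pi.mulSingle i (y i)) := fun i => rfl
        simp_rw [h2]
        rw [← PiTensorProduct.tprod_prod]
        congr 1
        ext k
        rw [Finset.prod_apply, Finset.prod_eq_single k]
        · simp
        · intro b _ hb
          simp [Pi.mulSingle_eq_of_ne (Ne.symm hb)]
        · intro h
          exact absurd (Finset.mem_univ k) h
      rw [h1, Algebra.smul_def, map_mul, map_prod]
      refine S.mul_mem ?_ (S.prod_mem fun i _ => hι i (y i))
      exact hK c
    | add a b ha hb =>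
      rw [map_add]
      exact S.add_mem ha hb
  obtain ⟨r, s, hs, rfl⟩ := IsFractionRing.div_surjective (A := s27gfR K F g) x
  exact S.div_mem (hR r) (hR s)

/-- **`Ω_g` is generated, as a field, by the coordinates** (`g ≥ 1`) -/
theorem s27gf_hgen (hg : 0 < g) :
    Subfield.closure (⋃ i : Fin g, Set.range (s27gfIota (K := K) (F := F) i : F →+* s27gfOm K F g))
      = ⊤ := by
  apply s27gf_subfield_eq_top
  · intro c
    have h := Subfield.subset_closure (s := ⋃ i : Fin g, Set.range
      (s27gfIota (K := K) (F := F) i : F →+* s27gfOm K F g))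
      (Set.mem_iUnion.2 ⟨⟨0, hg⟩, algebraMap K F c, rfl⟩)
    have h2 : (s27gfIota (K := K) (F := F) (⟨0, hg⟩ : Fin g) : F →+* s27gfOm K F g)
        (algebraMap K F c) = algebraMap K (s27gfOm K F g) c :=
      AlgHom.commutes (s27gfIota (K := K) (F := F) (⟨0, hg⟩ : Fin g)) c
    rw [h2] at h
    exact h
  · intro i f
    exact Subfield.subset_closure (Set.mem_iUnion.2 ⟨i, f, rfl⟩)

/-- `Ω_g = K(ι_i(F) : i)` -/
theorem s27gf_adjoin :
    IntermediateField.adjoin K (⋃ i : Fin g, Set.range (s27gfIota (K := K) (F := F) i)) = ⊤ := by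
  have h := s27gf_subfield_eq_top (K := K) (F := F) (g := g)
    (IntermediateField.adjoin K (⋃ i : Fin g, Set.range (s27gfIota (K := K) (F := F) i))).toSubfield
    (fun c => IntermediateField.algebraMap_mem _ c)
    (fun i f => IntermediateField.subset_adjoin K _ (Set.mem_iUnion.2 ⟨i, f, rfl⟩))
  rw [eq_top_iff]
  rintro x -
  have hx : x ∈ (IntermediateField.adjoin K
      (⋃ i : Fin g, Set.range (s27gfIota (K := K) (F := F) i))).toSubfield := by
    rw [h]
    exact Subfield.mem_top x
  exact hx

/-! ### `Ω_g / 𝔉` is finite Galois -/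

instance s27gf_range_finite : Finite (s27gfPermHom K F g).range :=
  Finite.of_surjective (s27gfPermHom K F g).rangeRestrict (MonoidHom.rangeRestrict_surjective _)

theorem s27gf_isGalois : IsGalois (s27gfSym K F g) (s27gfOm K F g) :=
  IsGalois.of_fixed_field (s27gfOm K F g) (s27gfPermHom K F g).range

theorem s27gf_finite : FiniteDimensional (s27gfSym K F g) (s27gfOm K F g) :=
  inferInstanceAs (FiniteDimensional
    (FixedPoints.subfield (s27gfPermHom K F g).range (s27gfOm K F g)) (s27gfOm K F g))

theorem s27gf_isAlgebraic : Algebra.IsAlgebraic (s27gfSym K F g) (s27gfOm K F g) :=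
  haveI := s27gf_finite (K := K) (F := F) (g := g)
  Algebra.IsAlgebraic.of_finite _ _

theorem s27gf_finrank_le :
    Module.finrank (s27gfSym K F g) (s27gfOm K F g) ≤ g.factorial := by
  classical
  letI : Fintype (s27gfPermHom K F g).range := Fintype.ofFinite _
  have h1 : Module.finrank (s27gfSym K F g) (s27gfOm K F g) ≤
      Fintype.card (s27gfPermHom K F g).range :=
    FixedPoints.finrank_le_card (s27gfPermHom K F g).range (s27gfOm K F g)
  refine h1.trans ?_
  have h2 : Nat.card (s27gfPermHom K F g).range ≤ Nat.card (Equiv.Perm (Fin g)) :=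
    Nat.card_le_card_of_surjective (s27gfPermHom K F g).rangeRestrict
      (MonoidHom.rangeRestrict_surjective _)
  rw [Nat.card_eq_fintype_card, Nat.card_eq_fintype_card, Fintype.card_perm,
    Fintype.card_fin] at h2
  exact h2

end Action

end Fermat.Agent.S27
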