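/-
S27-B, leaf SYM-CONJ (helper8) — CONJUGACY OF THE EXTENSIONS OF A VALUATION RING in a finite Galois
extension.  Mathlib only.

`L` a field, `G` a finite group acting on `L` by ring automorphisms (`MulSemiringAction G L`),
`W W' : ValuationSubring L` which AGREE ON THE FIXED FIELD (`c` fixed by `G` ⇒ (`c ∈ W ↔ c ∈ W'`)).

* `s27vc_normEq` : every `x : L` satisfies `Σ_{i ≤ n} a_i x^i = 0` with `a_i` fixed by `G`, `a_i ∈ W`,
  and some `a_m = 1` (the polynomial `∏ (X − σ x)` divided by a coefficient of least valuation);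
* `s27vc_loc`    : (`W = B_P`) every `x ∈ U` is `z / y` with `y⁻¹ ∈ U` and `y, z` in EVERY valuation
  subring `T` containing the fixed elements of `U`;
* `s27vc_half`   : `∃ σ, ∀ x, σ • x ∈ W → x ∈ W'` (norm argument + prime avoidance);
* **`s27vc_conj`** : `∃ σ : G, ∀ x, x ∈ W' ↔ σ • x ∈ W`;
* `s27vc_conj_comap` : `∃ σ : G, W' = W.comap (MulSemiringAction.toRingHom G L σ)`.
-/
import Mathlib

set_option autoImplicit false
set_option linter.unusedSectionVars false
set_option linter.unusedVariables false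
set_option linter.style.haveILetI false

namespace Fermat.Agent.S27

open Polynomial

section

variable {L : Type*} [Field L] {G : Type*} [Group G] [Finite G] [MulSemiringAction G L]

/-- **normalised equation** of `x` over the fixed field, with respect to `W`. -/
theorem s27vc_normEq (W : ValuationSubring L) (x : L) :
    ∃ (n : ℕ) (a : ℕ → L), (∀ (i : ℕ) (σ : G), σ • a i = a i) ∧ (∀ i, a i ∈ W) ∧
      (∃ m, m ≤ n ∧ a m = 1) ∧ ∑ i ∈ Finset.range (n + 1), a i * x ^ i = 0 := by
  classical
  haveI : Fintype G := Fintype.ofFinite G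
  set p := prodXSubSMul G L x with hp
  have hmonic : p.Monic := prodXSubSMul.monic G L x
  have heval : p.eval x = 0 := prodXSubSMul.eval G L x
  have hfix : ∀ (σ : G) (i : ℕ), σ • p.coeff i = p.coeff i :=
    fun σ i => prodXSubSMul.coeff G L x σ i
  set n := p.natDegree with hn
  obtain ⟨m, hm, hmax⟩ := Finset.exists_max_image (Finset.range (n + 1))
    (fun i => W.valuation (p.coeff i)) ⟨0, by simp⟩
  have hcn : p.coeff n = 1 := hmonic.coeff_natDegree
  have hm0 : p.coeff m ≠ 0 := by
    intro h0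
    have h1 := hmax n (by simp)
    simp only [h0, map_zero, hcn, map_one] at h1
    exact absurd h1 (by simp)
  refine ⟨n, fun i => p.coeff i / p.coeff m, ?_, ?_, ⟨m, ?_, div_self hm0⟩, ?_⟩
  · intro i σ
    show σ • (p.coeff i / p.coeff m) = p.coeff i / p.coeff m
    rw [smul_div₀', hfix, hfix]
  · intro i
    show p.coeff i / p.coeff m ∈ W
    by_cases hi : i ∈ Finset.range (n + 1)
    · rw [← ValuationSubring.valuation_le_one_iff, map_div₀]
      have hpos : W.valuation (p.coeff m) ≠ 0 := (Valuation.ne_zero_iff _).mpr hm0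
      exact (div_le_one₀ (zero_lt_iff.mpr hpos)).mpr (hmax i hi)
    · have : p.coeff i = 0 := by
        apply Polynomial.coeff_eq_zero_of_natDegree_lt
        rw [Finset.mem_range, not_lt] at hi
        omega
      rw [this, zero_div]
      exact W.zero_mem
  · rw [Finset.mem_range] at hm
    omega
  · have h1 : ∑ i ∈ Finset.range (n + 1), p.coeff i * x ^ i = 0 := by
      rw [← Polynomial.eval_eq_sum_range]
      exact heval
    calc ∑ i ∈ Finset.range (n + 1), p.coeff i / p.coeff m * x ^ i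
        = (∑ i ∈ Finset.range (n + 1), p.coeff i * x ^ i) / p.coeff m := by
          rw [Finset.sum_div]
          refine Finset.sum_congr rfl fun i _ => ?_
          ring
      _ = 0 := by rw [h1, zero_div]

/-- **localisation lemma** (`U = B_P`): every `x ∈ U` is `z / y` with `y` a unit of `U` and
`y`, `z` in every valuation subring `T` containing the fixed elements of `U`. -/
theorem s27vc_loc (U : ValuationSubring L) (x : L) (hx : x ∈ U) :
    ∃ y z : L, y ≠ 0 ∧ y ∈ U ∧ y⁻¹ ∈ U ∧ x * y = z ∧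
      ∀ T : ValuationSubring L, (∀ c : L, (∀ σ : G, σ • c = c) → c ∈ U → c ∈ T) →
        y ∈ T ∧ z ∈ T := by
  classical
  by_cases hx0 : x = 0
  · refine ⟨1, 0, one_ne_zero, U.one_mem, ?_, by simp [hx0], fun T _ => ⟨T.one_mem, T.zero_mem⟩⟩
    rw [inv_one]
    exact U.one_mem
  obtain ⟨n, a, hfix, haU, ⟨m, hmn, ham⟩, heq⟩ := s27vc_normEq (G := G) U x
  set v := U.valuation with hv
  have hva : ∀ i, v (a i) ≤ 1 := fun i => (ValuationSubring.valuation_le_one_iff U _).mpr (haU i)
  have hvx : v x ≤ 1 := (ValuationSubring.valuation_le_one_iff U _).mpr hx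
  set I := (Finset.range (n + 1)).filter (fun i => v (a i) = 1) with hI
  have hIne : I.Nonempty := by
    refine ⟨m, ?_⟩
    rw [hI, Finset.mem_filter, Finset.mem_range, ham, map_one]
    exact ⟨Nat.lt_succ_iff.mpr hmn, rfl⟩
  obtain ⟨s, hsI, hsmax⟩ := Finset.exists_max_image I id hIne
  have hs : s < n + 1 ∧ v (a s) = 1 := by
    rw [hI, Finset.mem_filter, Finset.mem_range] at hsI
    exact hsI
  have hlt : ∀ i, i < n + 1 → s < i → v (a i) < 1 := by
    intro i hi hsi
    refine lt_of_le_of_ne (hva i) fun h1 => ?_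
    have h2 : i ∈ I := by
      rw [hI, Finset.mem_filter, Finset.mem_range]
      exact ⟨hi, h1⟩
    have h3 := hsmax i h2
    simp only [id] at h3
    omega
  set y := ∑ i ∈ (Finset.range (n + 1)).filter (fun i => s ≤ i), a i * x ^ (i - s) with hy
  set z := - ∑ i ∈ (Finset.range (n + 1)).filter (fun i => i < s), a i * x⁻¹ ^ (s - 1 - i)
    with hz
  have hvy : v y = 1 := by
    have hset : (Finset.range (n + 1)).filter (fun i => s ≤ i)
        = insert s ((Finset.range (n + 1)).filter (fun i => s < i)) := by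
      ext i
      simp only [Finset.mem_filter, Finset.mem_range, Finset.mem_insert]
      constructor
      · rintro ⟨h1, h2⟩
        rcases h2.eq_or_lt with h | h
        · exact Or.inl h.symm
        · exact Or.inr ⟨h1, h⟩
      · rintro (h | ⟨h1, h2⟩)
        · subst h
          exact ⟨hs.1, le_refl _⟩
        · exact ⟨h1, h2.le⟩
    have hsplit : y = a s
        + ∑ i ∈ (Finset.range (n + 1)).filter (fun i => s < i), a i * x ^ (i - s) := by
      rw [hy, hset, Finset.sum_insert (by simp)]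
      simp
    have hrest : v (∑ i ∈ (Finset.range (n + 1)).filter (fun i => s < i), a i * x ^ (i - s))
        < 1 := by
      apply Valuation.map_sum_lt v one_ne_zero
      intro i hi
      rw [Finset.mem_filter, Finset.mem_range] at hi
      rw [map_mul, map_pow]
      calc v (a i) * v x ^ (i - s) ≤ v (a i) * 1 := by
            gcongr
            exact pow_le_one' hvx _
        _ = v (a i) := mul_one _
        _ < 1 := hlt i hi.1 hi.2
    rw [hsplit, Valuation.map_add_eq_of_lt_left v (by rw [hs.2]; exact hrest), hs.2]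
  have hy0 : y ≠ 0 := by
    intro h
    rw [h, map_zero] at hvy
    exact zero_ne_one hvy
  have h1 : x ^ s * y = ∑ i ∈ (Finset.range (n + 1)).filter (fun i => s ≤ i), a i * x ^ i := by
    rw [hy, Finset.mul_sum]
    refine Finset.sum_congr rfl fun i hi => ?_
    rw [Finset.mem_filter] at hi
    rw [mul_left_comm, ← pow_add, Nat.add_sub_cancel' hi.2]
  have hsum : (∑ i ∈ (Finset.range (n + 1)).filter (fun i => s ≤ i), a i * x ^ i)
      + ∑ i ∈ (Finset.range (n + 1)).filter (fun i => i < s), a i * x ^ i = 0 := by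
    rw [add_comm, ← heq]
    have := Finset.sum_filter_add_sum_filter_not (Finset.range (n + 1)) (fun i => i < s)
      (fun i => a i * x ^ i)
    simp only [not_lt] at this
    exact this
  have hs1 : 1 ≤ s := by
    by_contra hcon
    have hs0 : s = 0 := by omega
    apply hy0
    have h3 := hsum
    rw [← h1, hs0] at h3
    simp only [pow_zero, one_mul, not_lt_zero, Finset.filter_false, Finset.sum_empty,
      add_zero] at h3
    exact h3
  have h2 : x ^ (s - 1) * z
      = - ∑ i ∈ (Finset.range (n + 1)).filter (fun i => i < s), a i * x ^ i := by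
    rw [hz, mul_neg, Finset.mul_sum]
    congr 1
    refine Finset.sum_congr rfl fun i hi => ?_
    rw [Finset.mem_filter] at hi
    have e : x ^ (s - 1) = x ^ i * x ^ (s - 1 - i) := by
      rw [← pow_add]
      congr 1
      omega
    rw [e, inv_pow]
    have hne : x ^ (s - 1 - i) ≠ 0 := pow_ne_zero _ hx0
    field_simp
  have hxyz : x * y = z := by
    have h3 : x ^ s * y = x ^ (s - 1) * z := by
      rw [h1, h2]
      exact eq_neg_of_add_eq_zero_left hsum
    have h4 : x ^ s = x ^ (s - 1) * x := by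
      rw [← pow_succ]
      congr 1
      omega
    rw [h4, mul_assoc] at h3
    exact mul_left_cancel₀ (pow_ne_zero _ hx0) h3
  refine ⟨y, z, hy0, ?_, ?_, hxyz, ?_⟩
  · rw [← ValuationSubring.valuation_le_one_iff, hvy]
  · rw [← ValuationSubring.valuation_le_one_iff, map_inv₀, hvy, inv_one]
  · intro T hT
    have haT : ∀ i, a i ∈ T := fun i => hT (a i) (hfix i) (haU i)
    rcases T.mem_or_inv_mem x with hxT | hxT
    · have hyT : y ∈ T := by
        rw [hy]
        exact sum_mem fun i _ => T.mul_mem _ _ (haT i) (pow_mem hxT _)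
      refine ⟨hyT, ?_⟩
      rw [← hxyz]
      exact T.mul_mem _ _ hxT hyT
    · have hzT : z ∈ T := by
        rw [hz]
        exact T.neg_mem _ (sum_mem fun i _ => T.mul_mem _ _ (haT i) (pow_mem hxT _))
      refine ⟨?_, hzT⟩
      have e : y = z * x⁻¹ := by
        rw [← hxyz]
        field_simp
      rw [e]
      exact T.mul_mem _ _ hzT hxT

/-- the common subring `B = ⋂_τ τ⁻¹ W ∩ τ⁻¹ W'` -/
def s27vcB (G : Type*) [Group G] [MulSemiringAction G L] (W W' : ValuationSubring L) :
    Subring L where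
  carrier := {x | ∀ τ : G, τ • x ∈ W ∧ τ • x ∈ W'}
  mul_mem' := fun {x y} hx hy τ => by
    rw [smul_mul']
    exact ⟨W.mul_mem _ _ (hx τ).1 (hy τ).1, W'.mul_mem _ _ (hx τ).2 (hy τ).2⟩
  one_mem' := fun τ => by
    rw [smul_one]
    exact ⟨W.one_mem, W'.one_mem⟩
  add_mem' := fun {x y} hx hy τ => by
    rw [smul_add]
    exact ⟨W.add_mem _ _ (hx τ).1 (hy τ).1, W'.add_mem _ _ (hx τ).2 (hy τ).2⟩
  zero_mem' := fun τ => by
    rw [smul_zero]
    exact ⟨W.zero_mem, W'.zero_mem⟩
  neg_mem' := fun {x} hx τ => by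
    rw [smul_neg]
    exact ⟨W.neg_mem _ (hx τ).1, W'.neg_mem _ (hx τ).2⟩

theorem s27vc_mem_B {W W' : ValuationSubring L} {x : L} :
    x ∈ s27vcB G W W' ↔ ∀ τ : G, τ • x ∈ W ∧ τ • x ∈ W' := Iff.rfl

/-- the ring homomorphism `B → W`, `b ↦ σ • b` -/
def s27vcToW (W W' : ValuationSubring L) (σ : G) : ↥(s27vcB G W W') →+* ↥W :=
  RingHom.codRestrict ((MulSemiringAction.toRingHom G L σ).comp (s27vcB G W W').subtype) W
    fun b => (b.2 σ).1

/-- the ring homomorphism `B → W'`, `b ↦ b` -/
def s27vcToW' (W W' : ValuationSubring L) : ↥(s27vcB G W W') →+* ↥W' :=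
  RingHom.codRestrict (s27vcB G W W').subtype W' fun b => by
    have := (b.2 (1 : G)).2
    rwa [one_smul] at this

/-- the prime `P_σ = {b ∈ B | v (σ b) < 1}` -/
def s27vcP (W W' : ValuationSubring L) (σ : G) : Ideal ↥(s27vcB G W W') :=
  Ideal.comap (s27vcToW W W' σ) (IsLocalRing.maximalIdeal ↥W)

/-- the prime `Q = {b ∈ B | v' b < 1}` -/
def s27vcQ (G : Type*) [Group G] [MulSemiringAction G L] (W W' : ValuationSubring L) :
    Ideal ↥(s27vcB G W W') :=
  Ideal.comap (s27vcToW' (G := G) W W') (IsLocalRing.maximalIdeal ↥W')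

theorem s27vc_mem_P {W W' : ValuationSubring L} {σ : G} {b : ↥(s27vcB G W W')} :
    b ∈ s27vcP W W' σ ↔ W.valuation (σ • (b : L)) < 1 := by
  unfold s27vcP
  rw [Ideal.mem_comap, ValuationSubring.valuation_lt_one_iff]
  rfl

theorem s27vc_mem_Q {W W' : ValuationSubring L} {b : ↥(s27vcB G W W')} :
    b ∈ s27vcQ G W W' ↔ W'.valuation (b : L) < 1 := by
  unfold s27vcQ
  rw [Ideal.mem_comap, ValuationSubring.valuation_lt_one_iff]
  rfl

instance s27vcP_prime (W W' : ValuationSubring L) (σ : G) : (s27vcP W W' σ).IsPrime := by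
  unfold s27vcP
  infer_instance

/-- a fixed element which is a unit of `W` is a unit of `W'` -/
theorem s27vc_fixed_val {W W' : ValuationSubring L}
    (h : ∀ c : L, (∀ σ : G, σ • c = c) → (c ∈ W ↔ c ∈ W')) (c : L) (hc : ∀ σ : G, σ • c = c)
    (h1 : W.valuation c = 1) : W'.valuation c = 1 := by
  have hc0 : c ≠ 0 := by
    intro h0
    rw [h0, map_zero] at h1
    exact zero_ne_one h1
  have hci : ∀ σ : G, σ • c⁻¹ = c⁻¹ := fun σ => by rw [smul_inv'', hc]
  have m1 : c ∈ W := by rw [← ValuationSubring.valuation_le_one_iff, h1]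
  have m2 : c⁻¹ ∈ W := by rw [← ValuationSubring.valuation_le_one_iff, map_inv₀, h1, inv_one]
  have m1' : W'.valuation c ≤ 1 := (ValuationSubring.valuation_le_one_iff _ _).mpr ((h c hc).mp m1)
  have m2' : W'.valuation c⁻¹ ≤ 1 :=
    (ValuationSubring.valuation_le_one_iff _ _).mpr ((h _ hci).mp m2)
  rw [map_inv₀] at m2'
  have hne : W'.valuation c ≠ 0 := (Valuation.ne_zero_iff _).mpr hc0
  have m3 : 1 ≤ W'.valuation c := by
    rwa [inv_le_one₀ (zero_lt_iff.mpr hne)] at m2'
  exact le_antisymm m1' m3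

/-- **half of the conjugacy**: some conjugate of `W` is contained in `W'`. -/
theorem s27vc_half (W W' : ValuationSubring L)
    (h : ∀ c : L, (∀ σ : G, σ • c = c) → (c ∈ W ↔ c ∈ W')) :
    ∃ σ : G, ∀ x : L, σ • x ∈ W → x ∈ W' := by
  classical
  haveI : Fintype G := Fintype.ofFinite G
  -- step 1: `Q ≤ P_σ` for some `σ`
  have hQP : ∃ σ : G, s27vcQ G W W' ≤ s27vcP W W' σ := by
    by_contra hcon
    rw [not_exists] at hcon
    have hnot : ¬ ((s27vcQ G W W' : Set ↥(s27vcB G W W')) ⊆
        ⋃ σ ∈ ((Finset.univ : Finset G) : Set G), (s27vcP W W' σ : Set ↥(s27vcB G W W'))) := by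
      intro hsub
      obtain ⟨σ, -, hσ⟩ := (Ideal.subset_union_prime (1 : G) (1 : G)
        (fun σ _ _ _ => s27vcP_prime W W' σ)).mp hsub
      exact hcon σ hσ
    rw [Set.not_subset] at hnot
    obtain ⟨b, hbQ, hbP⟩ := hnot
    have hbP' : ∀ σ : G, W.valuation (σ • (b : L)) = 1 := by
      intro σ
      have h1 : b ∉ s27vcP W W' σ := by
        intro hmem
        apply hbP
        simp only [Finset.coe_univ, Set.mem_univ, Set.iUnion_true, Set.mem_iUnion]
        exact ⟨σ, hmem⟩
      rw [s27vc_mem_P, not_lt] at h1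
      exact le_antisymm ((ValuationSubring.valuation_le_one_iff _ _).mpr (b.2 σ).1) h1
    have hbQ' : W'.valuation (b : L) < 1 := s27vc_mem_Q.mp hbQ
    -- the norm
    set N : L := ∏ σ : G, σ • (b : L) with hN
    have hNfix : ∀ τ : G, τ • N = N := by
      intro τ
      rw [hN, Finset.smul_prod']
      simp only [smul_smul]
      exact Fintype.prod_equiv (Equiv.mulLeft τ) _ _ fun σ => rfl
    have hvN : W.valuation N = 1 := by
      rw [hN, map_prod]
      exact Finset.prod_eq_one fun σ _ => hbP' σ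
    have hvN' : W'.valuation N < 1 := by
      rw [hN, map_prod, ← Finset.mul_prod_erase Finset.univ _ (Finset.mem_univ (1 : G)),
        one_smul]
      have hle : ∏ σ ∈ Finset.univ.erase (1 : G), W'.valuation (σ • (b : L)) ≤ 1 :=
        Finset.prod_le_one' fun σ _ =>
          (ValuationSubring.valuation_le_one_iff _ _).mpr (b.2 σ).2
      calc W'.valuation (b : L) * ∏ σ ∈ Finset.univ.erase (1 : G), W'.valuation (σ • (b : L))
          ≤ W'.valuation (b : L) * 1 := by gcongr
        _ = W'.valuation (b : L) := mul_one _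
        _ < 1 := hbQ'
    rw [s27vc_fixed_val h N hNfix hvN] at hvN'
    exact lt_irrefl _ hvN'
  obtain ⟨σ, hσ⟩ := hQP
  refine ⟨σ, fun x hx => ?_⟩
  -- step 2: `σ⁻¹ W ⊆ W'` by the localisation lemma
  set U : ValuationSubring L := W.comap (MulSemiringAction.toRingHom G L σ) with hU
  have hxU : x ∈ U := by
    rw [hU, ValuationSubring.mem_comap]
    exact hx
  obtain ⟨y, z, hy0, hyU, hyiU, hxyz, hT⟩ := s27vc_loc (G := G) U x hxU
  -- fixed elements of `U` lie in every conjugate of `W` and of `W'`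
  have hfixW : ∀ c : L, (∀ τ : G, τ • c = c) → c ∈ U → c ∈ W := by
    intro c hc hcU
    rw [hU, ValuationSubring.mem_comap] at hcU
    have : (MulSemiringAction.toRingHom G L σ) c = c := hc σ
    rwa [this] at hcU
  have hB : ∀ τ : G, (y ∈ W.comap (MulSemiringAction.toRingHom G L τ) ∧
      z ∈ W.comap (MulSemiringAction.toRingHom G L τ)) ∧
      (y ∈ W'.comap (MulSemiringAction.toRingHom G L τ) ∧
      z ∈ W'.comap (MulSemiringAction.toRingHom G L τ)) := by
    intro τ
    refine ⟨hT _ fun c hc hcU => ?_, hT _ fun c hc hcU => ?_⟩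
    · rw [ValuationSubring.mem_comap]
      have : (MulSemiringAction.toRingHom G L τ) c = c := hc τ
      rw [this]
      exact hfixW c hc hcU
    · rw [ValuationSubring.mem_comap]
      have : (MulSemiringAction.toRingHom G L τ) c = c := hc τ
      rw [this]
      exact (h c hc).mp (hfixW c hc hcU)
  have hyB : y ∈ s27vcB G W W' := fun τ => ⟨(hB τ).1.1, (hB τ).2.1⟩
  have hzB : z ∈ s27vcB G W W' := fun τ => ⟨(hB τ).1.2, (hB τ).2.2⟩
  -- `y ∉ P_σ`, hence `y ∉ Q`
  have hyP : (⟨y, hyB⟩ : ↥(s27vcB G W W')) ∉ s27vcP W W' σ := by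
    rw [s27vc_mem_P, not_lt]
    show 1 ≤ W.valuation (σ • y)
    have h1 : σ • y⁻¹ ∈ W := by
      rw [hU, ValuationSubring.mem_comap] at hyiU
      exact hyiU
    rw [smul_inv'', ← ValuationSubring.valuation_le_one_iff, map_inv₀] at h1
    have hne : W.valuation (σ • y) ≠ 0 := by
      rw [Valuation.ne_zero_iff]
      intro h0
      apply hy0
      have := congrArg (fun u => σ⁻¹ • u) h0
      simpa using this
    rwa [inv_le_one₀ (zero_lt_iff.mpr hne)] at h1
  have hyQ : (⟨y, hyB⟩ : ↥(s27vcB G W W')) ∉ s27vcQ G W W' := fun hmem => hyP (hσ hmem)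
  rw [s27vc_mem_Q, not_lt] at hyQ
  have hyi' : y⁻¹ ∈ W' := by
    rw [← ValuationSubring.valuation_le_one_iff, map_inv₀]
    have hne : W'.valuation y ≠ 0 := (Valuation.ne_zero_iff _).mpr hy0
    rw [inv_le_one₀ (zero_lt_iff.mpr hne)]
    exact hyQ
  have hz' : z ∈ W' := by
    have := (hzB (1 : G)).2
    rwa [one_smul] at this
  have e : x = z * y⁻¹ := by
    rw [← hxyz]
    field_simp
  rw [e]
  exact W'.mul_mem _ _ hz' hyi'

/-- **CONJUGACY of the extensions**: two valuation subrings of `L` which agree on the fixed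
field of the finite group `G` are conjugate under `G`. -/
theorem s27vc_conj (W W' : ValuationSubring L)
    (h : ∀ c : L, (∀ σ : G, σ • c = c) → (c ∈ W ↔ c ∈ W')) :
    ∃ σ : G, ∀ x : L, x ∈ W' ↔ σ • x ∈ W := by
  obtain ⟨σ, h1⟩ := s27vc_half W W' h
  obtain ⟨τ, h2⟩ := s27vc_half W' W fun c hc => (h c hc).symm
  -- `κ = (σ τ)⁻¹` maps `W` into `W`
  have hκ : ∀ u : L, u ∈ W → (σ * τ)⁻¹ • u ∈ W := by
    intro u hu
    apply h2
    have e : τ • (σ * τ)⁻¹ • u = σ⁻¹ • u := by
      rw [smul_smul]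
      congr 1
      group
    rw [e]
    apply h1
    rw [smul_smul, mul_inv_cancel, one_smul]
    exact hu
  have hpow : ∀ (j : ℕ) (u : L), u ∈ W → ((σ * τ)⁻¹) ^ j • u ∈ W := by
    intro j
    induction j with
    | zero => intro u hu; simpa using hu
    | succ j ih =>
      intro u hu
      rw [pow_succ, mul_smul]
      exact ih _ (hκ u hu)
  have hinv : ∀ u : L, u ∈ W → (σ * τ) • u ∈ W := by
    intro u hu
    have hord : 0 < orderOf ((σ * τ)⁻¹) := orderOf_pos _
    have e : ((σ * τ)⁻¹) ^ (orderOf ((σ * τ)⁻¹) - 1) = σ * τ := by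
      have h3 : ((σ * τ)⁻¹) ^ (orderOf ((σ * τ)⁻¹) - 1) * (σ * τ)⁻¹ = 1 := by
        rw [← pow_succ, Nat.sub_add_cancel hord, pow_orderOf_eq_one]
      exact eq_of_mul_inv_eq_one (by simpa using h3) 
    rw [← e]
    exact hpow _ u hu
  refine ⟨σ, fun x => ⟨fun hx => ?_, h1 x⟩⟩
  have h4 : τ⁻¹ • x ∈ W := by
    apply h2
    rw [smul_smul, mul_inv_cancel, one_smul]
    exact hx
  have h5 := hinv _ h4
  rwa [smul_smul, mul_assoc, mul_inv_cancel, mul_one] at h5

/-- the same with `comap` -/
theorem s27vc_conj_comap (W W' : ValuationSubring L)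
    (h : ∀ c : L, (∀ σ : G, σ • c = c) → (c ∈ W ↔ c ∈ W')) :
    ∃ σ : G, W' = W.comap (MulSemiringAction.toRingHom G L σ) := by
  obtain ⟨σ, hσ⟩ := s27vc_conj W W' h
  refine ⟨σ, ?_⟩
  ext x
  rw [ValuationSubring.mem_comap]
  exact hσ x

end

end Fermat.Agent.S27
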