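/-
S27-B, leaf SYM-W (helper8) — THE LOCAL EQUATION OF THE GENERIC DIVISOR DOES NOT DEPEND ON THE
EXTENSION `W` OF `V`, and it is a symmetric function.

Definitions of the hub (helper95, S27/PtDef.lean): `S27ptIsIdx W R A' x` (`x` is a local equation of
the theta divisor of `A'` at the points `R i` along `W`).  Model (helper33, S27/GenField*.lean):
`Ω = s27gfOm K F g`, `ι_i = s27gfIota i`, `S_g` acts by `s27gfPerm`, `𝔉 = s27gfSym K F g`.

* `s27symw_idx_perm`   : `S27ptIsIdx W (R ∘ π) A' x ↔ S27ptIsIdx W R A' x` (ANY `𝔏`, `R`; the order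
                         of the points does not matter);
* `s27symw_idx_fixed`  : a local equation of the generic points `ι` is fixed by `S_g`;
  **`s27symw_idx_mem_sym`** : `S27ptIsIdx W ι A' x → x ∈ s27gfSym K F g`;
* `s27symw_idx_conj`   : `S27ptIsIdx (W.comap (s27gfPerm π)) ι A' x → S27ptIsIdx W ι A' x`;
* `s27symw_conj`       : two valuation subrings of `Ω` with the same restriction to `𝔉` are
                         conjugate under `S_g` (from S27/ValConj.lean);
* **`s27symw_idx_of_over`** : `W₀`, `W` over the same `V ⊂ 𝔉`: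
                         `S27ptIsIdx W₀ ι A' x → S27ptIsIdx W ι A' x`;
* `s27symw_beta`       : the element `β ∈ 𝔉` of a local equation, `s27symw_beta_mem` (`β ∈ V`),
                         `s27symw_beta_idx` (it is a local equation along EVERY `W` over `V`).
-/
import Mathlib
import Fermat.Agent.S27.PtDef
import Fermat.Agent.S27.GenFieldGal
import Fermat.Agent.S27.ValConj

set_option autoImplicit false
set_option linter.unusedSectionVars false
set_option linter.unusedVariables false

noncomputable section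

namespace Fermat.Agent.S27

open AlgebraicCurve

universe u v w

section perm

variable {K : Type u} {F : Type v} [Field K] [Field F] [Algebra K F]
variable {𝔏 : Type w} [Field 𝔏] [Algebra K 𝔏]
variable {N : ℕ}

theorem s27symw_F_perm (W : ValuationSubring 𝔏) (R : Fin N → F →ₐ[K] 𝔏) (A' : Divisor K F)
    (π : Equiv.Perm (Fin N)) : s27ptF W (fun i => R (π i)) A' = s27ptF W R A' := by
  ext f
  simp only [s27pt_mem_F]
  constructor
  · intro h Q i hQ
    have := h Q (π.symm i)
    rw [Equiv.apply_symm_apply] at this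
    exact this hQ
  · intro h Q i hQ
    exact h Q (π i) hQ

theorem s27symw_val_perm (R : Fin N → F →ₐ[K] 𝔏) (φ : Fin N → F) (π : Equiv.Perm (Fin N)) :
    s27ptVal (fun i => R (π i)) φ = (s27ptVal R φ).submatrix π id := by
  ext i j
  rfl

theorem s27symw_det_perm (R : Fin N → F →ₐ[K] 𝔏) (φ : Fin N → F) (π : Equiv.Perm (Fin N)) :
    (s27ptVal (fun i => R (π i)) φ).det = ((Equiv.Perm.sign π : ℤˣ) : ℤ) * (s27ptVal R φ).det := by
  rw [s27symw_val_perm, Matrix.det_permute]

theorem s27symw_sign_ne_zero (π : Equiv.Perm (Fin N)) :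
    ((((Equiv.Perm.sign π : ℤˣ) : ℤ)) : 𝔏) ≠ 0 := by
  rcases Int.units_eq_one_or (Equiv.Perm.sign π) with h | h <;> rw [h] <;> simp

theorem s27symw_latBasis_perm {W : ValuationSubring 𝔏} {R : Fin N → F →ₐ[K] 𝔏}
    {A' : Divisor K F} {φ : Fin N → F} (π : Equiv.Perm (Fin N))
    (h : S27ptIsLatBasis W (fun i => R (π i)) A' φ) : S27ptIsLatBasis W R A' φ := by
  refine ⟨fun j => ?_, ?_, fun ψ hψ => ?_⟩
  · rw [← s27symw_F_perm W R A' π]
    exact h.mem j
  · intro h0
    apply h.det_ne
    rw [s27symw_det_perm, h0, mul_zero]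
  · rw [← s27symw_F_perm W R A' π] at hψ
    obtain ⟨c, hc1, hc2⟩ := h.span ψ hψ
    refine ⟨c, hc1, fun i => ?_⟩
    have := hc2 (π.symm i)
    simp only [Equiv.apply_symm_apply] at this
    exact this

/-- **the order of the points does not matter** (one direction) -/
theorem s27symw_idx_perm' {W : ValuationSubring 𝔏} {R : Fin N → F →ₐ[K] 𝔏} {A' : Divisor K F}
    {x : 𝔏} (π : Equiv.Perm (Fin N)) (h : S27ptIsIdx W (fun i => R (π i)) A' x) :
    S27ptIsIdx W R A' x := by
  obtain ⟨f, φ, hφ, rfl⟩ := h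
  refine ⟨f, φ, s27symw_latBasis_perm π hφ, ?_⟩
  unfold s27ptValB
  rw [s27symw_det_perm, s27symw_det_perm, mul_div_mul_left _ _ (s27symw_sign_ne_zero π)]

/-- **the order of the points does not matter** -/
theorem s27symw_idx_perm {W : ValuationSubring 𝔏} {R : Fin N → F →ₐ[K] 𝔏} {A' : Divisor K F}
    {x : 𝔏} (π : Equiv.Perm (Fin N)) :
    S27ptIsIdx W (fun i => R (π i)) A' x ↔ S27ptIsIdx W R A' x := by
  refine ⟨s27symw_idx_perm' π, fun h => ?_⟩
  refine s27symw_idx_perm' (R := fun i => R (π i)) π.symm ?_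
  simpa using h

end perm

section model

variable {K : Type u} {F : Type v} [Field K] [IsAlgClosed K] [Field F] [Algebra K F] {g : ℕ}

/-- the generic points -/
def s27symwIota : Fin g → F →ₐ[K] s27gfOm K F g := fun i => s27gfIota (K := K) i

theorem s27symw_comp_iota (π : Equiv.Perm (Fin g)) (i : Fin g) :
    ((s27gfPerm (K := K) (F := F) π : s27gfOm K F g →ₐ[K] s27gfOm K F g)).comp
        (s27symwIota (K := K) (F := F) i) = s27symwIota (π i) := by
  ext f
  exact s27gfPerm_iota π i f

/-- a determinant of values of the generic points is alternating -/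
theorem s27symw_perm_det (π : Equiv.Perm (Fin g)) (φ : Fin g → F) :
    s27gfPerm π (s27ptVal (s27symwIota (K := K) (F := F) (g := g)) φ).det =
      ((Equiv.Perm.sign π : ℤˣ) : ℤ) * (s27ptVal (s27symwIota (K := K) (F := F) (g := g)) φ).det := by
  have h1 := s27pt_det_nat
    ((s27gfPerm (K := K) (F := F) π : s27gfOm K F g →ₐ[K] s27gfOm K F g))
    (s27symwIota (K := K) (F := F) (g := g)) φ
  have h2 : (fun i => ((s27gfPerm (K := K) (F := F) π :
      s27gfOm K F g →ₐ[K] s27gfOm K F g)).comp (s27symwIota (K := K) (F := F) i))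
      = fun i => s27symwIota (K := K) (F := F) (π i) := funext fun i => s27symw_comp_iota π i
  rw [h2, s27symw_det_perm] at h1
  exact h1.symm

/-- a local equation of the generic points is fixed by `S_g` -/
theorem s27symw_idx_fixed {W : ValuationSubring (s27gfOm K F g)} {A' : Divisor K F}
    {x : s27gfOm K F g} (hx : S27ptIsIdx W (s27symwIota (K := K) (F := F) (g := g)) A' x)
    (π : Equiv.Perm (Fin g)) : s27gfPerm π x = x := by
  obtain ⟨f, φ, hφ, rfl⟩ := hx
  unfold s27ptValB
  rw [map_div₀, s27symw_perm_det, s27symw_perm_det,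
    mul_div_mul_left _ _ (s27symw_sign_ne_zero π)]

/-- **SYM**: a local equation of the generic points lies in `𝔉`. -/
theorem s27symw_idx_mem_sym {W : ValuationSubring (s27gfOm K F g)} {A' : Divisor K F}
    {x : s27gfOm K F g} (hx : S27ptIsIdx W (s27symwIota (K := K) (F := F) (g := g)) A' x) :
    x ∈ s27gfSym K F g :=
  s27gf_mem_sym.mpr fun π => s27symw_idx_fixed hx π

/-- a local equation along a conjugate of `W` is a local equation along `W` -/
theorem s27symw_idx_conj {W : ValuationSubring (s27gfOm K F g)} {A' : Divisor K F}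
    {x : s27gfOm K F g} (π : Equiv.Perm (Fin g))
    (hx : S27ptIsIdx (W.comap (((s27gfPerm (K := K) (F := F) π :
      s27gfOm K F g →ₐ[K] s27gfOm K F g)) : s27gfOm K F g →+* s27gfOm K F g))
      (s27symwIota (K := K) (F := F) (g := g)) A' x) :
    S27ptIsIdx W (s27symwIota (K := K) (F := F) (g := g)) A' x := by
  have hfix := s27symw_idx_fixed hx π
  have h1 := s27pt_idx_nat
    ((s27gfPerm (K := K) (F := F) π : s27gfOm K F g →ₐ[K] s27gfOm K F g)) W hx
  have h2 : (fun i => ((s27gfPerm (K := K) (F := F) π :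
      s27gfOm K F g →ₐ[K] s27gfOm K F g)).comp (s27symwIota (K := K) (F := F) i))
      = fun i => s27symwIota (K := K) (F := F) (π i) := funext fun i => s27symw_comp_iota π i
  rw [h2] at h1
  have h3 : ((s27gfPerm (K := K) (F := F) π : s27gfOm K F g →ₐ[K] s27gfOm K F g)) x = x :=
    hfix
  rw [h3] at h1
  exact (s27symw_idx_perm π).mp h1

/-- **conjugacy** of the valuation subrings of `Ω` over the same valuation subring of `𝔉` -/
theorem s27symw_conj (W₀ W : ValuationSubring (s27gfOm K F g))
    (hover : ∀ c : s27gfOm K F g, c ∈ s27gfSym K F g → (c ∈ W ↔ c ∈ W₀)) :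
    ∃ π : Equiv.Perm (Fin g), W₀ = W.comap (((s27gfPerm (K := K) (F := F) π :
      s27gfOm K F g →ₐ[K] s27gfOm K F g)) : s27gfOm K F g →+* s27gfOm K F g) := by
  obtain ⟨π, hπ⟩ := s27vc_conj (G := Equiv.Perm (Fin g)) W W₀
    (fun c hc => hover c (s27gf_mem_sym_iff_smul.mpr hc))
  refine ⟨π, ?_⟩
  ext x
  rw [ValuationSubring.mem_comap]
  exact hπ x

/-- **SYM-W**: a local equation of the generic points along `W₀` is a local equation along
every `W` with the same restriction to `𝔉`. -/
theorem s27symw_idx_of_over (W₀ W : ValuationSubring (s27gfOm K F g))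
    (hover : ∀ c : s27gfOm K F g, c ∈ s27gfSym K F g → (c ∈ W ↔ c ∈ W₀))
    {A' : Divisor K F} {x : s27gfOm K F g}
    (hx : S27ptIsIdx W₀ (s27symwIota (K := K) (F := F) (g := g)) A' x) :
    S27ptIsIdx W (s27symwIota (K := K) (F := F) (g := g)) A' x := by
  obtain ⟨π, hπ⟩ := s27symw_conj W₀ W hover
  rw [hπ] at hx
  exact s27symw_idx_conj π hx

/-- the same with `comap (algebraMap 𝔉 Ω)` -/
theorem s27symw_idx_of_comap_eq (W₀ W : ValuationSubring (s27gfOm K F g))
    (hover : W₀.comap (algebraMap (↥(s27gfSym K F g)) (s27gfOm K F g)) =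
      W.comap (algebraMap (↥(s27gfSym K F g)) (s27gfOm K F g)))
    {A' : Divisor K F} {x : s27gfOm K F g}
    (hx : S27ptIsIdx W₀ (s27symwIota (K := K) (F := F) (g := g)) A' x) :
    S27ptIsIdx W (s27symwIota (K := K) (F := F) (g := g)) A' x := by
  refine s27symw_idx_of_over W₀ W (fun c hc => ?_) hx
  have h := congrArg (fun V : ValuationSubring ↥(s27gfSym K F g) =>
    (⟨c, hc⟩ : ↥(s27gfSym K F g)) ∈ V) hover
  simp only [ValuationSubring.mem_comap] at h
  exact (iff_of_eq h).symm

/-- the element of `𝔉` of a local equation of the generic points -/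
def s27symwBeta {W : ValuationSubring (s27gfOm K F g)} {A' : Divisor K F}
    {x : s27gfOm K F g} (hx : S27ptIsIdx W (s27symwIota (K := K) (F := F) (g := g)) A' x) :
    ↥(s27gfSym K F g) := ⟨x, s27symw_idx_mem_sym hx⟩

theorem s27symwBeta_coe {W : ValuationSubring (s27gfOm K F g)} {A' : Divisor K F}
    {x : s27gfOm K F g} (hx : S27ptIsIdx W (s27symwIota (K := K) (F := F) (g := g)) A' x) :
    algebraMap (↥(s27gfSym K F g)) (s27gfOm K F g) (s27symwBeta hx) = x := rfl

/-- `β ∈ V` (EFF on `𝔉`) -/
theorem s27symwBeta_mem {W : ValuationSubring (s27gfOm K F g)} {A' : Divisor K F}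
    {x : s27gfOm K F g} (hx : S27ptIsIdx W (s27symwIota (K := K) (F := F) (g := g)) A' x) :
    s27symwBeta hx ∈ W.comap (algebraMap (↥(s27gfSym K F g)) (s27gfOm K F g)) := by
  rw [ValuationSubring.mem_comap]
  exact s27pt_idx_mem hx

end model

end Fermat.Agent.S27
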