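/-
S27 route B, geometry leaf BETA concrete (helper19), part 2: CONJ discharged.
`s27beta_StmtConj` (S27/Beta.lean) holds on the model by helper8's `s27symw_conj`
(S27/SymW.lean, on S27/ValConj.lean); the spec of `β := s27beta A'` with the one remaining
input LAT-EX (existence of a lattice basis along every `W ⊇ K`).

* `s27betac_conj`  : `s27beta_StmtConj K F g`;
* `s27betac_spec`  : `β (W ∩ 𝔉)` is a local equation along `W`, for every `W ⊇ K`;
* `s27betac_unit`  : every local equation along `W` is `u · β (W ∩ 𝔉)`, `u ∈ Wˣ`;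
* `s27betac_main`  : the package `β_ne`, `β_mem`, spec.
-/
import Fermat.Agent.S27.Beta
import Fermat.Agent.S27.SymW

set_option autoImplicit false
set_option linter.unusedSectionVars false

noncomputable section

namespace Fermat.Agent.S27

open AlgebraicCurve Fermat.Agent.S26

universe u v

variable {K : Type u} {F : Type v} [Field K] [IsAlgClosed K] [Field F] [Algebra K F] {g : ℕ}

/-- **CONJ on the model.** -/
theorem s27betac_conj : s27beta_StmtConj K F g := by
  intro W W' h
  have hover : ∀ c : s27gfOm K F g, c ∈ s27gfSym K F g → (c ∈ W ↔ c ∈ W') := by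
    intro c hc
    have h1 : (⟨c, hc⟩ : s27gfSym K F g) ∈
        W.comap (algebraMap (s27gfSym K F g) (s27gfOm K F g)) ↔
        (⟨c, hc⟩ : s27gfSym K F g) ∈
        W'.comap (algebraMap (s27gfSym K F g) (s27gfOm K F g)) := by rw [h]
    rw [ValuationSubring.mem_comap, ValuationSubring.mem_comap] at h1
    exact h1
  obtain ⟨π, hπ⟩ := s27symw_conj W' W hover
  refine ⟨π, fun x => ?_⟩
  rw [hπ, ValuationSubring.mem_comap]
  rfl

/-- **the spec of `β`** (LAT-EX): for EVERY valuation subring `W ⊇ K` of `Ω_g`, `β (W ∩ 𝔉)` is a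
local equation along `W`. -/
theorem s27betac_spec (A' : Divisor K F)
    (f : Module.Basis (Fin g) K ↥(riemannRochSpace A'))
    (hlat : ∀ W : ValuationSubring (s27gfOm K F g),
      (∀ a : K, algebraMap K (s27gfOm K F g) a ∈ W) →
        ∃ φ : Fin g → F, S27ptIsLatBasis W (s27betaPt K F g) A' φ)
    (W : ValuationSubring (s27gfOm K F g))
    (hW : ∀ a : K, algebraMap K (s27gfOm K F g) a ∈ W) :
    S27ptIsIdx W (s27betaPt K F g) A' (algebraMap (s27gfSym K F g) (s27gfOm K F g)
      (s27beta A' (W.comap (algebraMap (s27gfSym K F g) (s27gfOm K F g))))) :=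
  s27beta_spec s27betac_conj A' f hlat W hW

/-- **uniqueness against `β`**. -/
theorem s27betac_unit (A' : Divisor K F)
    (f : Module.Basis (Fin g) K ↥(riemannRochSpace A'))
    (hlat : ∀ W : ValuationSubring (s27gfOm K F g),
      (∀ a : K, algebraMap K (s27gfOm K F g) a ∈ W) →
        ∃ φ : Fin g → F, S27ptIsLatBasis W (s27betaPt K F g) A' φ)
    (W : ValuationSubring (s27gfOm K F g))
    (hW : ∀ a : K, algebraMap K (s27gfOm K F g) a ∈ W) {x : s27gfOm K F g}
    (hx : S27ptIsIdx W (s27betaPt K F g) A' x) :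
    ∃ u : s27gfOm K F g, u ≠ 0 ∧ u ∈ W ∧ u⁻¹ ∈ W ∧
      x = u * algebraMap (s27gfSym K F g) (s27gfOm K F g)
        (s27beta A' (W.comap (algebraMap (s27gfSym K F g) (s27gfOm K F g)))) :=
  s27beta_unit s27betac_conj A' f hlat W hW hx

/-- **the package BETA** (inputs: a basis of `L_K(A')`, the generic determinant, LAT-EX). -/
theorem s27betac_main (A' : Divisor K F)
    (f : Module.Basis (Fin g) K ↥(riemannRochSpace A'))
    (hθ : ∀ f : Module.Basis (Fin g) K ↥(riemannRochSpace A'),
      (s27ptValB (s27betaPt K F g) f).det ≠ 0)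
    (hlat : ∀ W : ValuationSubring (s27gfOm K F g),
      (∀ a : K, algebraMap K (s27gfOm K F g) a ∈ W) →
        ∃ φ : Fin g → F, S27ptIsLatBasis W (s27betaPt K F g) A' φ) :
    (∀ V, S27IsKValU K V → s27beta (g := g) A' V ≠ 0) ∧
    (∀ V, S27IsKValU K V → s27beta (g := g) A' V ∈ V) ∧
    (∀ W : ValuationSubring (s27gfOm K F g), (∀ a : K, algebraMap K (s27gfOm K F g) a ∈ W) →
      S27ptIsIdx W (s27betaPt K F g) A' (algebraMap (s27gfSym K F g) (s27gfOm K F g)
        (s27beta A' (W.comap (algebraMap (s27gfSym K F g) (s27gfOm K F g)))))) :=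
  s27beta_main s27betac_conj A' f hθ hlat

end Fermat.Agent.S27

end
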