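/-
S27 route B, geometry leaf BETA concrete (helper19), part 3: **the generic determinant is
nonzero**.  For a `K`-linearly independent family `v : Fin g → F`, the determinant of values
`det [ι_i (v l)] ∈ Ω_g` at the generic points is nonzero: it is the image of the antisymmetric
tensor `Σ_σ sign σ · v_{σ 1} ⊗ ⋯ ⊗ v_{σ g} ∈ F^{⊗ g}`, on which the product `λ_1 ⊗ ⋯ ⊗ λ_g` of the
dual functionals takes the value `det 1 = 1`.

* `s27betat_exists_dual` : dual functionals of a linearly independent family;
* `s27betat_det_eq`      : `det [ι_i (v l)] = algebraMap (Σ_σ sign σ • tprod (v ∘ σ))`;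
* **`s27betat_det_ne_zero`** : `LinearIndependent K v → det [ι_i (v l)] ≠ 0`;
* **`s27betat_theta`**   : the hypothesis `hθ` of `s27beta_ne` / `s27beta_main`, for every `A'`;
* **`s27betat_ne`**      : `s27beta A' V ≠ 0`, UNCONDITIONALLY;
* `s27betat_main`        : the package BETA with the single input LAT-EX.
-/
import Fermat.Agent.S27.BetaConj

set_option autoImplicit false
set_option linter.unusedSectionVars false

noncomputable section

namespace Fermat.Agent.S27

open AlgebraicCurve Fermat.Agent.S26

universe u v

section Dual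

variable {K : Type u} {F : Type v} [Field K] [Field F] [Algebra K F] {g : ℕ}

/-- dual functionals of a linearly independent family. -/
theorem s27betat_exists_dual (v : Fin g → F) (hv : LinearIndependent K v) :
    ∃ lam : Fin g → (F →ₗ[K] K), ∀ i l, lam i (v l) = if i = l then 1 else 0 := by
  obtain ⟨G, hG⟩ := LinearMap.exists_extend (hv.repr)
  refine ⟨fun i => (Finsupp.lapply i).comp G, fun i l => ?_⟩
  have hmem : v l ∈ Submodule.span K (Set.range v) := Submodule.subset_span ⟨l, rfl⟩
  have h1 : G (v l) = hv.repr ⟨v l, hmem⟩ := by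
    have := congrArg (fun φ => φ ⟨v l, hmem⟩) hG
    exact this
  have h2 : hv.repr ⟨v l, hmem⟩ = Finsupp.single l 1 := hv.repr_eq_single l _ rfl
  show (G (v l)) i = _
  rw [h1, h2, Finsupp.single_apply]
  by_cases h : i = l
  · rw [if_pos h, if_pos h.symm]
  · rw [if_neg h, if_neg (fun h' => h h'.symm)]

/-- a pure tensor is the product of its coordinates. -/
theorem s27betat_tprod (x : Fin g → F) :
    PiTensorProduct.tprod K x = ∏ i, s27gfSingle (K := K) (F := F) (g := g) i (x i) := by
  have h := s27gfLiftR_tprod (fun i => s27gfSingle (K := K) (F := F) (g := g) i) x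
  rw [s27gfLiftR_single_id] at h
  exact h

end Dual

section Model

variable {K : Type u} {F : Type v} [Field K] [IsAlgClosed K] [Field F] [Algebra K F] {g : ℕ}

/-- the generic determinant is the image of the antisymmetrised pure tensor. -/
theorem s27betat_det_eq (v : Fin g → F) :
    (s27ptVal (s27betaPt K F g) v).det =
      algebraMap (s27gfR K F g) (s27gfOm K F g)
        (∑ σ : Equiv.Perm (Fin g),
          Equiv.Perm.sign σ • PiTensorProduct.tprod K (fun i => v (σ i))) := by
  rw [← Matrix.det_transpose, Matrix.det_apply, map_sum]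
  refine Finset.sum_congr rfl fun σ _ => ?_
  rw [Units.smul_def, Units.smul_def, map_zsmul]
  congr 1
  rw [s27betat_tprod, map_prod]
  rfl

/-- **the generic determinant of a linearly independent family is nonzero.** -/
theorem s27betat_det_ne_zero (v : Fin g → F) (hv : LinearIndependent K v) :
    (s27ptVal (s27betaPt K F g) v).det ≠ 0 := by
  obtain ⟨lam, hlam⟩ := s27betat_exists_dual v hv
  rw [s27betat_det_eq]
  intro h0
  have h1 := s27gfOm_algebraMap_injective (K := K) (F := F) (g := g)
    (h0.trans (map_zero _).symm)
  have h2 := congrArg (PiTensorProduct.lift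
    ((MultilinearMap.mkPiAlgebra K (Fin g) K).compLinearMap lam)) h1
  rw [map_sum, map_zero] at h2
  have h3 : ∀ σ : Equiv.Perm (Fin g), PiTensorProduct.lift
      ((MultilinearMap.mkPiAlgebra K (Fin g) K).compLinearMap lam)
      (Equiv.Perm.sign σ • PiTensorProduct.tprod K (fun i => v (σ i))) =
      Equiv.Perm.sign σ • ∏ i, (1 : Matrix (Fin g) (Fin g) K).transpose (σ i) i := by
    intro σ
    rw [Units.smul_def, map_zsmul, PiTensorProduct.lift.tprod, Units.smul_def]
    congr 1
    show ∏ i, lam i (v (σ i)) = _
    refine Finset.prod_congr rfl fun i _ => ?_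
    rw [hlam, Matrix.transpose_apply, Matrix.one_apply]
  rw [Finset.sum_congr rfl (fun σ _ => h3 σ), ← Matrix.det_apply, Matrix.det_transpose,
    Matrix.det_one] at h2
  exact one_ne_zero h2

/-- **`hθ`**: the determinant of values of any `K`-basis of `L_K(A')` at the generic points is
nonzero. -/
theorem s27betat_theta (A' : Divisor K F)
    (f : Module.Basis (Fin g) K ↥(riemannRochSpace A')) :
    (s27ptValB (s27betaPt K F g) f).det ≠ 0 := by
  have hli : LinearIndependent K (fun l => ((f l : ↥(riemannRochSpace A')) : F)) :=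
    f.linearIndependent.map' (riemannRochSpace A').subtype (Submodule.ker_subtype _)
  exact s27betat_det_ne_zero _ hli

/-- **β_ne, unconditionally.** -/
theorem s27betat_ne (A' : Divisor K F) (V : ValuationSubring (s27gfSym K F g)) :
    s27beta A' V ≠ 0 :=
  s27beta_ne A' (s27betat_theta A') V

/-- **the package BETA**: inputs = a `K`-basis of `L_K(A')` indexed by `Fin g` (`ℓ(A') = g`) and
LAT-EX (existence of a lattice basis along every `W ⊇ K`). -/
theorem s27betat_main (A' : Divisor K F)
    (f : Module.Basis (Fin g) K ↥(riemannRochSpace A'))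
    (hlat : ∀ W : ValuationSubring (s27gfOm K F g),
      (∀ a : K, algebraMap K (s27gfOm K F g) a ∈ W) →
        ∃ φ : Fin g → F, S27ptIsLatBasis W (s27betaPt K F g) A' φ) :
    (∀ V, S27IsKValU K V → s27beta (g := g) A' V ≠ 0) ∧
    (∀ V, S27IsKValU K V → s27beta (g := g) A' V ∈ V) ∧
    (∀ W : ValuationSubring (s27gfOm K F g), (∀ a : K, algebraMap K (s27gfOm K F g) a ∈ W) →
      S27ptIsIdx W (s27betaPt K F g) A' (algebraMap (s27gfSym K F g) (s27gfOm K F g)
        (s27beta A' (W.comap (algebraMap (s27gfSym K F g) (s27gfOm K F g)))))) :=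
  s27betac_main A' f (s27betat_theta A') hlat

end Model

end Fermat.Agent.S27

end
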