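/-
S27-B — TOP, second file (captain helper77): the genus-0 input is PROVED (RR0 of helper51/helper24 on the
S26 E-RR package + TD1 of helper39), so the frozen S27 follows from the geometric base frame ALONE:

  `s27r0_main      : s27top_StmtR0`
  `s27top_of_baseU : s27top_StmtBaseU → s27_Stmt`      (genus ≥ 1 only; genus 0 is done).
-/
import Fermat.Agent.S27.Top
import Fermat.Agent.S27.RR0Final
import Fermat.Agent.S27.TD

set_option autoImplicit false

noncomputable section

namespace Fermat.Agent.S27

open AlgebraicCurve Fermat.Agent.S26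

universe u v w

/-- **RR0 at genus 0**, unconditional. -/
theorem s27r0_main : s27top_StmtR0.{u, v} := by
  intro K F _ _ _ _ _ _ _ h0 D hD
  obtain ⟨x, hx, hfin⟩ := s27td_exists_of_isCurveOver (K := K) (F := F)
  have := hfin
  exact s27rr_genus_zero x hx h0 D hD

/-- **TOP**: the geometric base frame (genus ≥ 1) ⇒ the frozen S27. -/
theorem s27top_of_baseU (hB : s27top_StmtBaseU.{u, v, w}) : s27_Stmt.{u, v} :=
  s27top_main s27r0_main hB

end Fermat.Agent.S27

end
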