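/-
S27-B — GEOMETRIC TOP of the captain (helper77): the LAST statement, on the MODEL.

`𝔉 = s27gfSym K F g` (S27/GenField.lean, `g = genusFF K F ≥ 1`).  The geometry has to deliver, for every
`n ≥ 1`, maps `ψ k : 𝔉 →ₐ[K] 𝔉` (`= [k]^*`), local equations `β V` of `Θ`, `c`, `Φ` with

  (IND-hyps)  the hypotheses of `s27ind_crux` (S27/Ind.lean): `comp₁`, `compm`, `β_ne`, `β_mem`, `hΦ`, `cube`;
  (GROW)      `S27IsGrow K (s27indb ψ β c) g`;
  (DEG)       `S27IsDeg K (ψ n) #Pic0(F)[n]`.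

`s27geo_main : s27geo_Stmt → s27_Stmt` — the frozen S27 (genus 0 is closed in S27/Top2.lean).
-/
import Fermat.Agent.S27.Top2
import Fermat.Agent.S27.Ind
import Fermat.Agent.S27.GenField

set_option autoImplicit false

noncomputable section

namespace Fermat.Agent.S27

open AlgebraicCurve Fermat.Agent.S26

universe u v

/-- **THE geometric statement on the model** (`g ≥ 1`). -/
def s27geo_Stmt : Prop :=
  ∀ (K : Type u) (F : Type v) [Field K] [Field F] [Algebra K F] [IsAlgClosed K] [CharZero K]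
    [IsCurveOver K F] [Algebra.EssFiniteType K F] (n : ℕ), 0 < n → 0 < genusFF K F →
    ∃ (ψ : ℤ → (s27gfSym K F (genusFF K F) →ₐ[K] s27gfSym K F (genusFF K F)))
      (β : ValuationSubring (s27gfSym K F (genusFF K F)) → s27gfSym K F (genusFF K F))
      (c : ℕ) (Φ : ℤ → s27gfSym K F (genusFF K F)),
      (∀ x, ψ n (ψ 1 x) = ψ n x) ∧ (∀ x, ψ n (ψ (-1) x) = ψ (-(n : ℤ)) x) ∧
      (∀ V, S27IsKValU K V → β V ≠ 0) ∧ (∀ V, S27IsKValU K V → β V ∈ V) ∧
      (∀ k : ℤ, k ≠ 0 → Φ k ≠ 0) ∧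
      (∀ k : ℤ, k ≠ 0 → ∀ V, S27IsKValU K V → ∃ u, S27IsUnitIn V u ∧
        (s27indB ψ β (k + 1) V * s27indB ψ β (k - 1) V) ^ c =
          u * Φ k * (s27indB ψ β k V ^ 2 * s27indB ψ β 1 V * s27indB ψ β (-1) V) ^ c) ∧
      S27IsGrow K (s27indb ψ β c) (genusFF K F) ∧
      S27IsDeg K (ψ n) (Nat.card (Pic0.torsion K F n))

theorem s27geo_baseU (h : s27geo_Stmt.{u, v}) : s27top_StmtBaseU.{u, v, max u v} := by
  intro K F _ _ _ _ _ _ _ n hn hg
  obtain ⟨ψ, β, c, Φ, c1, cm, bne, bmem, hΦ, hcube, hG, hD⟩ := h K F n hn hg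
  exact ⟨s27gfSym K F (genusFF K F), inferInstance, inferInstance, ψ n, s27indb ψ β c,
    s27indH Φ n,
    s27top_baseU_of (s27ind_crux ψ β c Φ n hn c1 cm bne bmem hΦ hcube) hG hD⟩

/-- **the geometric statement on the model ⇒ the frozen S27.** -/
theorem s27geo_main (h : s27geo_Stmt.{u, v}) : s27_Stmt.{u, v} :=
  s27top_of_baseU (s27geo_baseU h)

end Fermat.Agent.S27

end
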