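/-
S27-B — GEOMETRIC TOP, bounded form (captain helper77), on helper11's `s27indb_crux` (S27/IndB.lean):
the pointwise cube is needed only for `0 < |k| < n`, with an exponent `e k > 0` depending on `k`
(norm from `𝔉′_k / 𝔉`), and the GROWTH certificate only for the exponent `1`.

  `s27geo2_grow_pow : 0 < c → (b effective) → S27IsGrow K b g → S27IsGrow K (fun V => b V ^ c) g`
  `s27geo2_Stmt`    : the LAST statement (bounded form), on the model `𝔉 = s27gfSym K F g`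
  `s27geo2_main     : s27geo2_Stmt → s27_Stmt`.
-/
import Fermat.Agent.S27.GeoTop
import Fermat.Agent.S27.IndB

set_option autoImplicit false

noncomputable section

namespace Fermat.Agent.S27

open AlgebraicCurve Fermat.Agent.S26

universe u v w

section Pow

variable {K : Type u} [Field K] {𝔉 : Type w} [Field 𝔉] [Algebra K 𝔉]

theorem s27geo2_LU_pow (b : ValuationSubring 𝔉 → 𝔉) (c m : ℕ) :
    s27LU K (fun V => b V ^ c) m = s27LU K b (c * m) := by
  ext x
  rw [s27LU_mem, s27LU_mem]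
  refine forall_congr' fun V => forall_congr' fun _ => ?_
  rw [← pow_mul]

theorem s27geo2_LU_mono (b : ValuationSubring 𝔉 → 𝔉) (hb : ∀ V, S27IsKValU K V → b V ∈ V)
    {m m' : ℕ} (hmm : m ≤ m') {x : 𝔉} (hx : x ∈ s27LU K b m) : x ∈ s27LU K b m' := by
  intro V hV
  obtain ⟨r, rfl⟩ := Nat.exists_eq_add_of_le hmm
  have h1 := V.mul_mem _ _ (hx V hV) (V.pow_mem (hb V hV) r)
  rwa [mul_assoc, ← pow_add] at h1

/-- the growth certificate passes from an effective `b` to `b ^ c` (`c ≥ 1`). -/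
theorem s27geo2_grow_pow (b : ValuationSubring 𝔉 → 𝔉) (hb : ∀ V, S27IsKValU K V → b V ∈ V)
    (g c : ℕ) (hc : 0 < c) (h : S27IsGrow K b g) : S27IsGrow K (fun V => b V ^ c) g := by
  obtain ⟨c₁, c₂, hgr⟩ := h.growth
  refine ⟨fun m => ?_, ⟨c₁, c₂ * c ^ g, fun m hm => ?_⟩, fun x => ?_⟩
  · rw [s27geo2_LU_pow]
    exact h.fin _
  · rw [s27geo2_LU_pow]
    have hcm : 1 ≤ c * m := Nat.one_le_iff_ne_zero.2 (Nat.mul_ne_zero hc.ne' (by omega))
    obtain ⟨h1, h2⟩ := hgr (c * m) hcm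
    constructor
    · calc m ^ g ≤ (c * m) ^ g := Nat.pow_le_pow_left (Nat.le_mul_of_pos_left m hc) g
        _ ≤ c₁ * Module.finrank K (s27LU K b (c * m)) := h1
    · calc Module.finrank K (s27LU K b (c * m)) ≤ c₂ * (c * m) ^ g := h2
        _ = c₂ * c ^ g * m ^ g := by rw [mul_pow, mul_assoc]
  · obtain ⟨c', a, ha, e, he, hne, hxe⟩ := h.gen x
    have hmono : ∀ y, y ∈ s27LU K b c' → y ∈ s27LU K (fun V => b V ^ c) c' := by
      intro y hy
      rw [s27geo2_LU_pow]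
      exact s27geo2_LU_mono b hb (Nat.le_mul_of_pos_left c' hc) hy
    exact ⟨c', a, hmono a ha, e, hmono e he, hne, hxe⟩

end Pow

/-- **THE geometric statement on the model, bounded form** (`g ≥ 1`): cube only for `0 < |k| < n`
with exponents `e k > 0`; growth for the exponent `1`. -/
def s27geo2_Stmt : Prop :=
  ∀ (K : Type u) (F : Type v) [Field K] [Field F] [Algebra K F] [IsAlgClosed K] [CharZero K]
    [IsCurveOver K F] [Algebra.EssFiniteType K F] (n : ℕ), 0 < n → 0 < genusFF K F →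
    ∃ (ψ : ℤ → (s27gfSym K F (genusFF K F) →ₐ[K] s27gfSym K F (genusFF K F)))
      (β : ValuationSubring (s27gfSym K F (genusFF K F)) → s27gfSym K F (genusFF K F))
      (e : ℤ → ℕ) (Φ : ℤ → s27gfSym K F (genusFF K F)),
      (∀ x, ψ n (ψ 1 x) = ψ n x) ∧ (∀ x, ψ n (ψ (-1) x) = ψ (-(n : ℤ)) x) ∧
      (∀ V, S27IsKValU K V → β V ≠ 0) ∧ (∀ V, S27IsKValU K V → β V ∈ V) ∧
      (∀ k : ℤ, k ∈ s27indbRange n → 0 < e k) ∧
      (∀ k : ℤ, k ∈ s27indbRange n → Φ k ≠ 0) ∧
      (∀ k : ℤ, k ∈ s27indbRange n → ∀ V, S27IsKValU K V → ∃ u, S27IsUnitIn V u ∧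
        (s27indB ψ β (k + 1) V * s27indB ψ β (k - 1) V) ^ e k =
          u * Φ k * (s27indB ψ β k V ^ 2 * s27indB ψ β 1 V * s27indB ψ β (-1) V) ^ e k) ∧
      S27IsGrow K (fun V => s27indB ψ β 1 V * s27indB ψ β (-1) V) (genusFF K F) ∧
      S27IsDeg K (ψ n) (Nat.card (Pic0.torsion K F n))

theorem s27geo2_baseU (h : s27geo2_Stmt.{u, v}) : s27top_StmtBaseU.{u, v, max u v} := by
  intro K F _ _ _ _ _ _ _ n hn hg
  obtain ⟨ψ, β, e, Φ, c1, cm, bne, bmem, he, hΦ, hcube, hG, hD⟩ := h K F n hn hg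
  have hc : 0 < s27indbC e n := Finset.prod_pos he
  have hb : ∀ V, S27IsKValU K V → s27indB ψ β 1 V * s27indB ψ β (-1) V ∈ V := fun V hV =>
    V.mul_mem _ _ (s27indB_mem ψ β bmem 1 hV) (s27indB_mem ψ β bmem (-1) hV)
  have hG' : S27IsGrow K (s27indb ψ β (s27indbC e n)) (genusFF K F) :=
    s27geo2_grow_pow _ hb _ _ hc hG
  exact ⟨s27gfSym K F (genusFF K F), inferInstance, inferInstance, ψ n,
    s27indb ψ β (s27indbC e n), s27indH (s27indbPhi e Φ n) n,
    s27top_baseU_of (s27indb_crux ψ β e Φ n hn c1 cm bne bmem hΦ hcube) hG' hD⟩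

/-- **the geometric statement on the model (bounded form) ⇒ the frozen S27.** -/
theorem s27geo2_main (h : s27geo2_Stmt.{u, v}) : s27_Stmt.{u, v} :=
  s27top_of_baseU (s27geo2_baseU h)

end Fermat.Agent.S27

end
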