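/-
S27 route B, leaf DEG-FG (helper33; deputy helper18): finite generation of the model fields.

* `s27dfg_essFiniteType` : `Ω / K` a finitely generated field extension, `𝔉` an intermediate field
  with `Ω / 𝔉` algebraic  ⇒  `𝔉 / K` is finitely generated (`Algebra.EssFiniteType K 𝔉`).
  [`E := K(coefficients of the minimal polynomials over 𝔉 of the generators of Ω)`; `Ω` is finite
  over `E`, hence so is `𝔉`.]  Mathlib only.
* `s27dfg_finite` : in the same situation `Ω` is finite over `𝔉`.
* `s27dfg_om`  : `[EssFiniteType K F] ⇒ EssFiniteType K (s27gfOm K F g)`.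
* `s27dfg_sym` : `[EssFiniteType K F] ⇒ EssFiniteType K (s27gfSym K F g)`.
-/
import Mathlib
import Fermat.Agent.S27.GenFieldGal

set_option autoImplicit false
set_option linter.unusedVariables false
set_option linter.unusedSectionVars false
set_option linter.style.haveILetI false

noncomputable section

namespace Fermat.Agent.S27

open Polynomial

universe u v

section Abstract

variable {K : Type*} {Ω : Type*} [Field K] [Field Ω] [Algebra K Ω]

/-- `Ω / K` finitely generated and `Ω / 𝔉` algebraic ⇒ `Ω / 𝔉` finite -/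
theorem s27dfg_finite [Algebra.EssFiniteType K Ω] (𝔉 : IntermediateField K Ω)
    [Algebra.IsAlgebraic 𝔉 Ω] : Module.Finite 𝔉 Ω := by
  haveI : Algebra.EssFiniteType 𝔉 Ω := Algebra.EssFiniteType.of_comp K 𝔉 Ω
  exact Algebra.finite_of_essFiniteType_of_isAlgebraic

/-- **DEG-FG**: `Ω / K` finitely generated and `Ω / 𝔉` algebraic ⇒ `𝔉 / K` finitely generated -/
theorem s27dfg_essFiniteType [Algebra.EssFiniteType K Ω] (𝔉 : IntermediateField K Ω)
    [Algebra.IsAlgebraic 𝔉 Ω] : Algebra.EssFiniteType K 𝔉 := by
  classical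
  obtain ⟨s, hs⟩ := IntermediateField.fg_top K Ω
  -- the coefficients of the minimal polynomials of the generators
  let T : Finset 𝔉 := s.biUnion (fun x => (minpoly 𝔉 x).coeffs)
  let E : IntermediateField K 𝔉 := IntermediateField.adjoin K (T : Set 𝔉)
  haveI hE : Algebra.EssFiniteType K E := IntermediateField.essFiniteType_iff.2 ⟨T, rfl⟩
  -- each generator is integral over `E`
  have hint : ∀ x ∈ (s : Set Ω), IsIntegral E x := by
    intro x hx
    have hx𝔉 : IsIntegral 𝔉 x := (Algebra.IsAlgebraic.isAlgebraic x).isIntegral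
    have hl : minpoly 𝔉 x ∈ Polynomial.lifts (algebraMap E 𝔉) := by
      rw [Polynomial.lifts_iff_coeffs_subset_range]
      intro c hc
      have hcT : c ∈ (T : Set 𝔉) := by
        rw [Finset.mem_coe, Finset.mem_biUnion]
        exact ⟨x, hx, hc⟩
      exact ⟨⟨c, IntermediateField.subset_adjoin K _ hcT⟩, rfl⟩
    obtain ⟨q, hq, -, hqm⟩ := Polynomial.lifts_and_degree_eq_and_monic hl (minpoly.monic hx𝔉)
    refine ⟨q, hqm, ?_⟩
    have h0 : aeval x (q.map (algebraMap E 𝔉)) = 0 := by
      rw [hq]
      exact minpoly.aeval 𝔉 x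
    rw [aeval_map_algebraMap] at h0
    exact h0
  -- `Ω = E(s)`
  have htop : IntermediateField.adjoin E (s : Set Ω) = ⊤ := by
    rw [eq_top_iff]
    intro x _
    have hx : x ∈ IntermediateField.adjoin K (s : Set Ω) := by
      rw [hs]
      trivial
    have hle : IntermediateField.adjoin K (s : Set Ω) ≤
        (IntermediateField.adjoin E (s : Set Ω)).restrictScalars K :=
      IntermediateField.adjoin_le_iff.2 (fun y hy => IntermediateField.subset_adjoin E _ hy)
    exact hle hx
  haveI h1 : FiniteDimensional E (IntermediateField.adjoin E (s : Set Ω)) :=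
    IntermediateField.finiteDimensional_adjoin hint
  haveI h2 : FiniteDimensional E Ω := by
    rw [htop] at h1
    exact Module.Finite.equiv (IntermediateField.topEquiv (F := E) (E := Ω)).toLinearEquiv
  haveI h3 : Module.Finite E 𝔉 :=
    Module.Finite.of_injective (IsScalarTower.toAlgHom E 𝔉 Ω).toLinearMap
      (algebraMap 𝔉 Ω).injective
  haveI h4 : Algebra.EssFiniteType E 𝔉 := inferInstance
  exact Algebra.EssFiniteType.comp K E 𝔉

end Abstract

section Model

variable {K : Type u} {F : Type v} [Field K] [IsAlgClosed K] [Field F] [Algebra K F]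

/-- `Ω_g = K(C^g)` is finitely generated over `K` -/
theorem s27dfg_om [Algebra.EssFiniteType K F] (g : ℕ) :
    Algebra.EssFiniteType K (s27gfOm K F g) := by
  classical
  obtain ⟨s, hs⟩ := IntermediateField.fg_top K F
  rw [← IntermediateField.fg_top_iff]
  refine ⟨Finset.univ.biUnion (fun i : Fin g => s.image (s27gfIota (K := K) (F := F) i)), ?_⟩
  rw [eq_top_iff, ← s27gf_adjoin]
  apply IntermediateField.adjoin_le_iff.2
  intro y hy
  obtain ⟨i, f, rfl⟩ := Set.mem_iUnion.1 hy
  have hf : f ∈ IntermediateField.adjoin K (s : Set F) := by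
    rw [hs]
    trivial
  have h1 : s27gfIota (K := K) (F := F) i f ∈
      (IntermediateField.adjoin K (s : Set F)).map (s27gfIota (K := K) (F := F) i) :=
    ⟨f, hf, rfl⟩
  rw [IntermediateField.adjoin_map] at h1
  refine IntermediateField.adjoin.mono K _ _ ?_ h1
  rintro _ ⟨a, ha, rfl⟩
  rw [Finset.mem_coe, Finset.mem_biUnion]
  exact ⟨i, Finset.mem_univ i, Finset.mem_image.2 ⟨a, ha, rfl⟩⟩

/-- `𝔉 = K(Sym^g C)` is finitely generated over `K` -/
theorem s27dfg_sym [Algebra.EssFiniteType K F] (g : ℕ) :
    Algebra.EssFiniteType K (s27gfSym K F g) := by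
  haveI := s27dfg_om (K := K) (F := F) g
  haveI := s27gf_isAlgebraic (K := K) (F := F) (g := g)
  exact s27dfg_essFiniteType (s27gfSym K F g)

end Model

end Fermat.Agent.S27
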