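/-
S27-B, DEG, leaf DEG-FIN (helper87; shape of helper18, NOTES/S27-DEG.md): `deg_fin` of `S27IsDeg`.

  `s27dgf_finite : [Algebra.EssFiniteType K 𝔉] (φ : 𝔉 →ₐ[K] 𝔉) : Module.Finite φ.fieldRange 𝔉`

A `K`-endomorphism of a finitely generated field extension is finite.  Proof: a transcendence
basis `x` of `𝔉/K` is finite; `φ ∘ x` is algebraically independent of the same cardinality, hence a
transcendence basis; so `𝔉` is algebraic over `K(φ x) ⊆ φ 𝔉`; `𝔉/φ 𝔉` is essentially of finite
type (`EssFiniteType.of_comp`) and algebraic, hence finite.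

* `s27dgf_isTranscendenceBasis` : `φ ∘ x` is a transcendence basis (`FinTrdeg K 𝔉`);
* `s27dgf_isAlgebraic`          : `𝔉` is algebraic over `φ.fieldRange` (`FinTrdeg K 𝔉`);
* `s27dgf_essFiniteType`        : `𝔉` is essentially of finite type over `φ.fieldRange`;
* **`s27dgf_finite`**           : `Module.Finite φ.fieldRange 𝔉`;
* `s27dgf_finrank_pos`          : `0 < finrank φ.fieldRange 𝔉`.
Mathlib only; `K`, `𝔉` in independent universes.
-/
import Mathlib

set_option autoImplicit false

namespace Fermat.Agent.S27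

open Cardinal

universe u v w

variable {K : Type u} {𝔉 : Type v} [Field K] [Field 𝔉] [Algebra K 𝔉]

/-- the image of a transcendence basis under a `K`-endomorphism is a transcendence basis -/
theorem s27dgf_isTranscendenceBasis [FinTrdeg K 𝔉] (φ : 𝔉 →ₐ[K] 𝔉) {ι : Type w} {x : ι → 𝔉}
    (hx : IsTranscendenceBasis K x) : IsTranscendenceBasis K (φ ∘ x) := by
  have hind : AlgebraicIndependent K (φ ∘ x) := hx.1.map' φ.toRingHom.injective
  refine hind.isTranscendenceBasis_of_lift_trdeg_le (trdeg_lt_aleph0 K 𝔉) ?_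
  rw [← hx.lift_cardinalMk_eq_trdeg]

/-- `𝔉` is algebraic over the image of a `K`-endomorphism -/
theorem s27dgf_isAlgebraic [FinTrdeg K 𝔉] (φ : 𝔉 →ₐ[K] 𝔉) :
    Algebra.IsAlgebraic φ.fieldRange 𝔉 := by
  obtain ⟨s, hs⟩ := exists_isTranscendenceBasis K 𝔉
  have hb := s27dgf_isTranscendenceBasis φ hs
  have halg := hb.isAlgebraic_field
  have hle : IntermediateField.adjoin K (Set.range (φ ∘ ((↑) : s → 𝔉))) ≤ φ.fieldRange := by
    rw [IntermediateField.adjoin_le_iff]
    rintro _ ⟨i, rfl⟩
    exact ⟨i, rfl⟩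
  refine ⟨fun y => ?_⟩
  have hy := halg.isAlgebraic y
  exact IsAlgebraic.tower_top_of_subalgebra_le
    (A := (IntermediateField.adjoin K (Set.range (φ ∘ ((↑) : s → 𝔉)))).toSubalgebra)
    (B := φ.fieldRange.toSubalgebra) hle hy

/-- `𝔉` is essentially of finite type over the image of a `K`-endomorphism -/
theorem s27dgf_essFiniteType [Algebra.EssFiniteType K 𝔉] (φ : 𝔉 →ₐ[K] 𝔉) :
    Algebra.EssFiniteType φ.fieldRange 𝔉 :=
  Algebra.EssFiniteType.of_comp K φ.fieldRange 𝔉

/-- **DEG-FIN**: a `K`-endomorphism of a finitely generated field extension is finite. -/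
theorem s27dgf_finite [Algebra.EssFiniteType K 𝔉] (φ : 𝔉 →ₐ[K] 𝔉) :
    Module.Finite φ.fieldRange 𝔉 := by
  have := s27dgf_isAlgebraic φ
  have := s27dgf_essFiniteType φ
  exact Algebra.finite_of_essFiniteType_of_isAlgebraic

/-- the degree of a `K`-endomorphism of a finitely generated field extension is positive -/
theorem s27dgf_finrank_pos [Algebra.EssFiniteType K 𝔉] (φ : 𝔉 →ₐ[K] 𝔉) :
    0 < Module.finrank φ.fieldRange 𝔉 := by
  have := s27dgf_finite φ
  exact Module.finrank_pos

end Fermat.Agent.S27
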