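/-
S27, route B, piece DEG-B4 (deputy helper18): the ABSTRACT degree package.  Definitions and the
statements of the sub-leaves (plus the trivial glue).  Mathlib only.

`K ⊆ L` algebraically closed fields, `F / K` the function field of the curve, `t ∈ F` a fixed
transcendental element (`F` algebraic over `K(t)`).  A tuple `e : Fin g → (F →ₐ[K] L)` of
`L`-points of the curve is GENERIC when the values `e i t` are algebraically independent over `K`.

`S27DegPkg K F L t g Pl P` (think `Pl = Place L F_L`, `F_L = Frac (F ⊗[K] L)`, `P = Pic0 L F_L`):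
* `pt e`     : the place of `F_L / L` of the point `e` (DEG-B1), injective;
* `cl R`     : the class of `Σ R i − g · P₀'`;
* `actP, actC` : the action of `Aut(L / K)` on places and classes (DEG-A1, A2);
* `ns`       : a generic divisor is the only effective divisor in its class (DEG-B2);
* `rr`       : every class of degree `0` is a `cl R` (Riemann, genus `g`).

Leaves (exact statements below):
* `s27dg_StmtTrdeg`  (B4d, pure Mathlib);
* `s27dg_StmtGS`     (B4c: a tuple `R'` with `n · cl R' = cl (pt ∘ q)`, `q` generic, is generic);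
* `s27dg_StmtCount`  (B4a+b: the count `#{σ : 𝔉 → L over K | σ ∘ φ = φ} = #P[n]`).
-/
import Mathlib

set_option autoImplicit false
set_option linter.unusedVariables false
set_option linter.unusedSectionVars false

noncomputable section

namespace Fermat.Agent.S27

universe u v w x y

/-- the tuple of points `e` is GENERIC: the values at `t` are algebraically independent. -/
def S27dgGeneric (K : Type u) {F : Type v} {L : Type w} [Field K] [Field F] [Field L]
    [Algebra K F] [Algebra K L] (t : F) {g : ℕ} (e : Fin g → F →ₐ[K] L) : Prop :=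
  AlgebraicIndependent K (fun i => e i t)

/-- **The abstract degree package.** -/
structure S27DegPkg (K : Type u) (F : Type v) (L : Type w) [Field K] [Field F] [Field L]
    [Algebra K F] [Algebra K L] (t : F) (g : ℕ) (Pl : Type x) (P : Type y)
    [AddCommGroup P] where
  /-- the place of a point -/
  pt : (F →ₐ[K] L) → Pl
  pt_inj : Function.Injective pt
  /-- the class of `Σ R i − g P₀'` -/
  cl : (Fin g → Pl) → P
  cl_perm : ∀ (R : Fin g → Pl) (π : Equiv.Perm (Fin g)), cl (fun i => R (π i)) = cl R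
  /-- the action of `Aut(L / K)` on the places -/
  actP : (L ≃ₐ[K] L) → Pl → Pl
  /-- the action of `Aut(L / K)` on the classes -/
  actC : (L ≃ₐ[K] L) → P →+ P
  actP_pt : ∀ (h : L ≃ₐ[K] L) (e : F →ₐ[K] L), actP h (pt e) = pt ((h : L →ₐ[K] L).comp e)
  /-- the constant places are fixed -/
  actP_const : ∀ (h : L ≃ₐ[K] L) (R : Pl), R ∉ Set.range pt → actP h R = R
  actC_cl : ∀ (h : L ≃ₐ[K] L) (R : Fin g → Pl), actC h (cl R) = cl (fun i => actP h (R i))
  /-- (NS) a generic divisor is alone in its class -/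
  ns : ∀ e : Fin g → F →ₐ[K] L, S27dgGeneric K t e → ∀ R' : Fin g → Pl,
    cl R' = cl (fun i => pt (e i)) → ∃ π : Equiv.Perm (Fin g), R' = fun i => pt (e (π i))
  /-- (RR) every class is the class of an effective divisor of degree `g` -/
  rr : ∀ c : P, ∃ R' : Fin g → Pl, cl R' = c

/-- **B4d (TRDEG)**: `g` algebraically independent elements which are algebraic over the field
generated by `b i`, `i ∈ I ⊆ Fin g`: then `I` is everything and `b` is algebraically independent. -/
def s27dg_StmtTrdeg : Prop :=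
  ∀ (K : Type u) (L : Type w) [Field K] [Field L] [Algebra K L] (g : ℕ)
    (a : Fin g → L), AlgebraicIndependent K a →
    ∀ (I : Set (Fin g)) (b : Fin g → L),
      (∀ i, IsAlgebraic (IntermediateField.adjoin K (b '' I)) (a i)) →
      I = Set.univ ∧ AlgebraicIndependent K b

/-- **B4c (GS)**: if `n · cl R' = cl (pt ∘ q)` with `q` generic, then `R'` is a generic tuple of
points.  [`L' :=` the algebraic closure in `L` of `K(e' i t : R' i = pt (e' i))`; `Aut(L / L')`
fixes `R'`, hence `cl (pt ∘ q)`, hence permutes the `q i` (`ns`, `pt_inj`); so `q i t` has a finite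
orbit and lies in `L'` (`s27af_mem_range_of_finite_orbit` over `L'`); TRDEG.] -/
def s27dg_StmtGS : Prop :=
  ∀ (K : Type u) (F : Type v) (L : Type w) [Field K] [Field F] [Field L] [Algebra K F]
    [Algebra K L] [IsAlgClosed K] [IsAlgClosed L] (t : F)
    (_ : ∀ u : F, IsAlgebraic (IntermediateField.adjoin K {t}) u)
    (g : ℕ) (Pl : Type x) (P : Type y) [AddCommGroup P] (pkg : S27DegPkg K F L t g Pl P)
    (n : ℕ) (q : Fin g → F →ₐ[K] L), S27dgGeneric K t q →
    ∀ R' : Fin g → Pl, (n : ℤ) • pkg.cl R' = pkg.cl (fun i => pkg.pt (q i)) →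
      ∃ e' : Fin g → F →ₐ[K] L, S27dgGeneric K t e' ∧ R' = fun i => pkg.pt (e' i)

/-- The field side of the count: `Ω ⊇ 𝔉` with the coordinate embeddings `ι i : F → Ω`, the
permutation action, `𝔉` the fixed field, `L` an algebraic closure of `Ω`. -/
structure S27DegFld (K : Type u) (F : Type v) (L : Type w) (Ω : Type w) [Field K] [Field F]
    [Field L] [Field Ω] [Algebra K F] [Algebra K L] [Algebra K Ω] [Algebra Ω L]
    (t : F) (g : ℕ) (𝔉 : IntermediateField K Ω) where
  /-- the coordinates -/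
  ι : Fin g → F →ₐ[K] Ω
  /-- the permutation action -/
  perm : Equiv.Perm (Fin g) →* (Ω ≃ₐ[K] Ω)
  perm_ι : ∀ (π : Equiv.Perm (Fin g)) (i : Fin g) (u : F), perm π (ι i u) = ι (π i) u
  gen : IntermediateField.adjoin K (⋃ i, Set.range (ι i)) = ⊤
  fixed : ∀ x : Ω, x ∈ 𝔉 ↔ ∀ π : Equiv.Perm (Fin g), perm π x = x
  /-- the coordinates are generic -/
  ι_gen : AlgebraicIndependent K (fun i => ι i t)
  /-- the universal property of `Ω = Frac (F ⊗ ⋯ ⊗ F)`: a generic tuple is an embedding -/
  lift : ∀ e : Fin g → F →ₐ[K] L, S27dgGeneric K t e →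
    ∃ ψ : Ω →ₐ[K] L, ∀ i u, ψ (ι i u) = e i u

/-- **B4a+b (COUNT)**: the embeddings of `𝔉` into `L` which agree with the inclusion on `φ 𝔉`
are in bijection with the `n`-torsion classes, `σ ↦ cl (pt ∘ σ̃ ∘ ι) − cl (pt ∘ ι)`.
[Every `σ` extends to `ê ∈ Aut(L / K)` (finite transcendence degree); `σ ∘ φ = φ` iff
`ê ∘ q = q ∘ π` iff `n · cl (pt ∘ ê ∘ p) = n · cl (pt ∘ p)` (`actC`, `ns`); injective by `ns` and
Galois theory of `Ω / 𝔉`; surjective by `rr` and GS.] -/
def s27dg_StmtCount : Prop :=
  ∀ (K : Type u) (F : Type v) (L : Type w) (Ω : Type w) [Field K] [Field F] [Field L] [Field Ω]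
    [Algebra K F] [Algebra K L] [Algebra K Ω] [Algebra Ω L] [IsScalarTower K Ω L]
    [IsAlgClosed K] [IsAlgClosed L] [CharZero K] [Algebra.IsAlgebraic Ω L] (t : F)
    (_ : ∀ u : F, IsAlgebraic (IntermediateField.adjoin K {t}) u)
    (g : ℕ) (Pl : Type x) (P : Type y) [AddCommGroup P] (pkg : S27DegPkg K F L t g Pl P)
    (𝔉 : IntermediateField K Ω) (fld : S27DegFld K F L Ω t g 𝔉)
    (n : ℕ) (q : Fin g → F →ₐ[K] L), S27dgGeneric K t q →
    (n : ℤ) • pkg.cl (fun i => pkg.pt ((IsScalarTower.toAlgHom K Ω L).comp (fld.ι i)))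
      = pkg.cl (fun i => pkg.pt (q i)) →
    ∀ (ψ : Ω →ₐ[K] L), (∀ i u, ψ (fld.ι i u) = q i u) →
    ∀ (φ : 𝔉 →ₐ[K] 𝔉), (∀ x : 𝔉, algebraMap Ω L (φ x : Ω) = ψ (x : Ω)) →
      Nat.card {σ : 𝔉 →ₐ[K] L // ∀ x : 𝔉, σ (φ x) = algebraMap Ω L (φ x : Ω)}
        = Nat.card {c : P // (n : ℤ) • c = 0}

end Fermat.Agent.S27

end
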