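/-
S27-B, piece **G1-TB** (helper36): a TRANSCENDENCE BASIS of `Ω_g = K(C^g)` and of
`𝔉 = K(Sym^g C) = Ω_g^{S_g}` (helper33's `S27/GenField.lean`) by symmetric functions.

`t ∈ F` transcendental over `K`, `F` algebraic over `K[t]`.
* `s27tbX t i = ι_i t`; `s27tb_algebraicIndependent` : the `ι_i t` are algebraically independent
  (pure tensors of powers of `t` are linearly independent in `F^{⊗ g}`);
* `s27tb_isAlgebraic` : `Ω_g` is algebraic over `K[ι_1 t, …, ι_g t]`;
* `s27tbX_isTranscendenceBasis`;
* `s27tbU t j = e_{j+1}(ι_1 t, …, ι_g t)` (elementary symmetric functions), `s27tbU_mem_sym`,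
  `s27tbU_isTranscendenceBasis` (of `Ω_g / K`);
* `s27tbUSym t j : 𝔉`, **`s27tbUSym_isTranscendenceBasis`** : a transcendence basis of `𝔉 / K`,
  `s27tbUSym_algebraicIndependent`, `s27tbUSym_isAlgebraic` (the two halves).
Feeds `s27g1a_main` (S27/G1Abs.lean): lower growth bound + (GEN), once `u j ∈ L c₀`.
-/
import Fermat.Agent.S27.GenFieldGal

set_option autoImplicit false
set_option linter.unusedVariables false
set_option linter.unusedSectionVars false
set_option linter.style.haveILetI false

noncomputable section

namespace Fermat.Agent.S27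

open MvPolynomial Cardinal

universe u v

section Ring

variable {K : Type u} {F : Type v} [Field K] [Field F] [Algebra K F] {g : ℕ}

/-- the powers of a transcendental element are linearly independent -/
theorem s27tb_linearIndependent_pow (t : F) (ht : Transcendental K t) :
    LinearIndependent K (fun a : ℕ => t ^ a) := by
  have h1 : LinearIndependent K (fun a : ℕ => (Polynomial.monomial a (1 : K))) := by
    have h := (Polynomial.basisMonomials K).linearIndependent
    rw [Polynomial.coe_basisMonomials] at h
    exact h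
  have h2 := h1.map' (Polynomial.aeval t : Polynomial K →ₐ[K] F).toLinearMap
    (LinearMap.ker_eq_bot.mpr (transcendental_iff_injective.mp ht))
  have h3 : (fun a : ℕ => t ^ a) =
      ⇑(Polynomial.aeval t : Polynomial K →ₐ[K] F).toLinearMap ∘
        (fun a => Polynomial.monomial a (1 : K)) := by
    funext a
    simp [Polynomial.aeval_monomial]
  rw [h3]
  exact h2

/-- a pure tensor is the product of its coordinates -/
theorem s27tb_tprod_eq_prod (y : Fin g → F) :
    PiTensorProduct.tprod K y = ∏ i, s27gfSingle (K := K) i (y i) := by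
  have h2 : ∀ i : Fin g, s27gfSingle (K := K) i (y i) =
      PiTensorProduct.tprod K (Pi.mulSingle i (y i)) := fun i => rfl
  simp_rw [h2]
  rw [← PiTensorProduct.tprod_prod]
  congr 1
  ext k
  rw [Finset.prod_apply, Finset.prod_eq_single k]
  · simp
  · intro b _ hb
    simp [Pi.mulSingle_eq_of_ne (Ne.symm hb)]
  · intro h
    exact absurd (Finset.mem_univ k) h

/-- the pure tensors of powers of a transcendental element are linearly independent -/
theorem s27tb_linearIndependent_tprod (t : F) (ht : Transcendental K t) :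
    LinearIndependent K
      (fun a : Fin g → ℕ => PiTensorProduct.tprod K (fun i => t ^ a i)) := by
  classical
  have hli := s27tb_linearIndependent_pow (K := K) t ht
  have hs : LinearIndepOn K id (Set.range (fun a : ℕ => t ^ a)) := hli.linearIndepOn_id
  have hmem : ∀ a : ℕ, t ^ a ∈ hs.extend (Set.subset_univ _) :=
    fun a => hs.subset_extend _ ⟨a, rfl⟩
  have he : Function.Injective
      (fun (a : Fin g → ℕ) (i : Fin g) =>
        (⟨t ^ a i, hmem (a i)⟩ : ↥(hs.extend (Set.subset_univ _)))) := by
    intro a a' h
    funext i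
    have h' := congrArg (fun p => ((p i : ↥(hs.extend (Set.subset_univ _))) : F)) h
    exact hli.injective h'
  have h1 := (Basis.piTensorProduct (fun _ : Fin g => Module.Basis.extend hs)).linearIndependent.comp
    _ he
  have h2 : (fun a : Fin g → ℕ => PiTensorProduct.tprod K (fun i => t ^ a i)) =
      ⇑(Basis.piTensorProduct (fun _ : Fin g => Module.Basis.extend hs)) ∘
        (fun (a : Fin g → ℕ) (i : Fin g) =>
          (⟨t ^ a i, hmem (a i)⟩ : ↥(hs.extend (Set.subset_univ _)))) := by
    funext a
    simp [Basis.piTensorProduct_apply, Module.Basis.coe_extend]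
  rw [h2]
  exact h1

/-- `K[X_1, …, X_g] → F^{⊗ g}`, `X_i ↦ 1 ⊗ ⋯ ⊗ t ⊗ ⋯ ⊗ 1`, is injective -/
theorem s27tb_aevalR_injective (t : F) (ht : Transcendental K t) :
    Function.Injective
      (aeval (fun i : Fin g => s27gfSingle (K := K) i t) :
        MvPolynomial (Fin g) K →ₐ[K] s27gfR K F g) := by
  have hmon : ∀ a : Fin g →₀ ℕ,
      (aeval (fun i : Fin g => s27gfSingle (K := K) i t) :
        MvPolynomial (Fin g) K →ₐ[K] s27gfR K F g) (monomial a 1) =
        PiTensorProduct.tprod K (fun i => t ^ a i) := by
    intro a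
    rw [s27tb_tprod_eq_prod]
    simp [aeval_monomial, Finsupp.prod_fintype, map_pow]
  have hli : LinearIndependent K
      (⇑(aeval (fun i : Fin g => s27gfSingle (K := K) i t) :
        MvPolynomial (Fin g) K →ₐ[K] s27gfR K F g).toLinearMap ∘
          ⇑(basisMonomials (Fin g) K)) := by
    have h1 := (s27tb_linearIndependent_tprod (K := K) (g := g) t ht).comp
      (fun a : Fin g →₀ ℕ => (a : Fin g → ℕ)) DFunLike.coe_injective
    have h2 : (⇑(aeval (fun i : Fin g => s27gfSingle (K := K) i t) :
        MvPolynomial (Fin g) K →ₐ[K] s27gfR K F g).toLinearMap ∘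
          ⇑(basisMonomials (Fin g) K)) =
        (fun a : Fin g → ℕ => PiTensorProduct.tprod K (fun i => t ^ a i)) ∘
          (fun a : Fin g →₀ ℕ => (a : Fin g → ℕ)) := by
      funext a
      simp only [Function.comp_apply, AlgHom.toLinearMap_apply, coe_basisMonomials]
      exact hmon a
    rw [h2]
    exact h1
  rw [injective_iff_map_eq_zero]
  intro p hp
  have hrepr := (basisMonomials (Fin g) K).linearCombination_repr p
  have h3 : Finsupp.linearCombination K
      (⇑(aeval (fun i : Fin g => s27gfSingle (K := K) i t) :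
        MvPolynomial (Fin g) K →ₐ[K] s27gfR K F g).toLinearMap ∘
          ⇑(basisMonomials (Fin g) K)) ((basisMonomials (Fin g) K).repr p) = 0 := by
    rw [← Finsupp.apply_linearCombination, hrepr]
    exact hp
  have h4 := (linearIndependent_iff.mp hli) _ h3
  rw [← hrepr, h4, map_zero]

end Ring

section Field

variable {K : Type u} {F : Type v} [Field K] [IsAlgClosed K] [Field F] [Algebra K F] {g : ℕ}

/-- the coordinates `ι_i t` -/
def s27tbX (t : F) (i : Fin g) : s27gfOm K F g := s27gfIota i t

/-- **the `ι_i t` are algebraically independent** -/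
theorem s27tb_algebraicIndependent (t : F) (ht : Transcendental K t) :
    AlgebraicIndependent K (s27tbX (K := K) (g := g) t) := by
  have h1 := s27tb_aevalR_injective (K := K) (g := g) t ht
  have h2 : (aeval (s27tbX (K := K) (g := g) t) :
      MvPolynomial (Fin g) K →ₐ[K] s27gfOm K F g) =
      (IsScalarTower.toAlgHom K (s27gfR K F g) (s27gfOm K F g)).comp
        (aeval (fun i : Fin g => s27gfSingle (K := K) i t)) := by
    apply MvPolynomial.algHom_ext
    intro i
    simp [s27tbX, s27gfIota]
  show Function.Injective (aeval (s27tbX (K := K) (g := g) t) :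
      MvPolynomial (Fin g) K →ₐ[K] s27gfOm K F g)
  rw [h2]
  exact s27gfOm_algebraMap_injective.comp h1

/-- **`Ω_g` is algebraic over `K[ι_1 t, …, ι_g t]`** -/
theorem s27tb_isAlgebraic (t : F)
    (halg : Algebra.IsAlgebraic (Algebra.adjoin K ({t} : Set F)) F) :
    Algebra.IsAlgebraic (Algebra.adjoin K (Set.range (s27tbX (K := K) (g := g) t)))
      (s27gfOm K F g) := by
  let S : Subfield (s27gfOm K F g) :=
    { carrier := {x | IsAlgebraic (Algebra.adjoin K (Set.range (s27tbX (K := K) (g := g) t))) x}
      mul_mem' := fun ha hb => ha.mul hb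
      one_mem' := isAlgebraic_one
      add_mem' := fun ha hb => ha.add hb
      zero_mem' := isAlgebraic_zero
      neg_mem' := fun ha => ha.neg
      inv_mem' := fun x hx => hx.inv }
  have hS : S = ⊤ := by
    apply s27gf_subfield_eq_top S
    · intro c
      exact isAlgebraic_algebraMap
        (⟨algebraMap K _ c, Subalgebra.algebraMap_mem _ c⟩ :
          Algebra.adjoin K (Set.range (s27tbX (K := K) (g := g) t)))
    · intro i f
      have hf := halg.isAlgebraic f
      let f₀ : Algebra.adjoin K ({t} : Set F) →ₐ[K]
          Algebra.adjoin K (Set.range (s27tbX (K := K) (g := g) t)) :=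
        ((s27gfIota (K := K) (g := g) i).comp (Algebra.adjoin K ({t} : Set F)).val).codRestrict _
          (by
            intro x
            have hx : (s27gfIota (K := K) (g := g) i) (x : F) ∈
                (Algebra.adjoin K ({t} : Set F)).map (s27gfIota (K := K) (g := g) i) :=
              ⟨x, x.2, rfl⟩
            rw [AlgHom.map_adjoin] at hx
            refine Algebra.adjoin_mono ?_ hx
            rintro _ ⟨_, rfl, rfl⟩
            exact ⟨i, rfl⟩)
      have hinj : Function.Injective (f₀ : Algebra.adjoin K ({t} : Set F) →+*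
          Algebra.adjoin K (Set.range (s27tbX (K := K) (g := g) t))) := by
        intro x y hxy
        have h' := congrArg (fun z : Algebra.adjoin K (Set.range (s27tbX (K := K) (g := g) t)) =>
          (z : s27gfOm K F g)) hxy
        exact Subtype.ext (s27gfIota_injective i h')
      exact hf.ringHom_of_comp_eq
        (f₀ : Algebra.adjoin K ({t} : Set F) →+*
          Algebra.adjoin K (Set.range (s27tbX (K := K) (g := g) t)))
        ((s27gfIota (K := K) (g := g) i : F →ₐ[K] s27gfOm K F g) : F →+* s27gfOm K F g)
        hinj (by ext x; rfl)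
  refine ⟨fun x => ?_⟩
  have hx : x ∈ S := hS ▸ Subfield.mem_top x
  exact hx

/-- the `ι_i t` form a transcendence basis of `Ω_g / K` -/
theorem s27tbX_isTranscendenceBasis (t : F) (ht : Transcendental K t)
    (halg : Algebra.IsAlgebraic (Algebra.adjoin K ({t} : Set F)) F) :
    IsTranscendenceBasis K (s27tbX (K := K) (g := g) t) :=
  isTranscendenceBasis_iff_algebraicIndependent_isAlgebraic.mpr
    ⟨s27tb_algebraicIndependent t ht, s27tb_isAlgebraic t halg⟩

/-- the elementary symmetric functions `e_{j+1}(ι_1 t, …, ι_g t)`, `j < g` -/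
def s27tbU (t : F) (j : Fin g) : s27gfOm K F g :=
  aeval (s27tbX (K := K) (g := g) t) (esymm (Fin g) K (j + 1))

/-- they are symmetric -/
theorem s27tbU_mem_sym (t : F) (j : Fin g) : s27tbU (K := K) t j ∈ s27gfSym K F g := by
  rw [s27gf_mem_sym]
  intro σ
  unfold s27tbU
  have h1 : (s27gfPerm σ : s27gfOm K F g ≃ₐ[K] s27gfOm K F g)
      (aeval (s27tbX (K := K) (g := g) t) (esymm (Fin g) K (j + 1))) =
      aeval (fun i => s27gfPerm σ (s27tbX (K := K) (g := g) t i)) (esymm (Fin g) K (j + 1)) := by
    have := MvPolynomial.comp_aeval (R := K) (s27tbX (K := K) (g := g) t)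
      ((s27gfPerm σ : s27gfOm K F g ≃ₐ[K] s27gfOm K F g) : s27gfOm K F g →ₐ[K] s27gfOm K F g)
    exact congrArg (fun φ => φ (esymm (Fin g) K (j + 1))) this
  rw [h1]
  have h2 : (fun i => s27gfPerm σ (s27tbX (K := K) (g := g) t i)) =
      (s27tbX (K := K) (g := g) t) ∘ σ := by
    funext i
    exact s27gfPerm_iota σ i t
  rw [h2, ← MvPolynomial.aeval_rename, (esymm_isSymmetric (Fin g) K (j + 1)) σ]

/-- **the `e_{j+1}(ι t)` are algebraically independent** -/
theorem s27tbU_algebraicIndependent (t : F) (ht : Transcendental K t) :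
    AlgebraicIndependent K (s27tbU (K := K) (g := g) t) := by
  have hX := s27tb_algebraicIndependent (K := K) (g := g) t ht
  have hE := esymmAlgHom_fin_injective K (le_refl g)
  have h2 : (aeval (s27tbU (K := K) (g := g) t) :
      MvPolynomial (Fin g) K →ₐ[K] s27gfOm K F g) =
      (aeval (s27tbX (K := K) (g := g) t)).comp
        ((symmetricSubalgebra (Fin g) K).val.comp (esymmAlgHom (Fin g) K g)) := by
    apply MvPolynomial.algHom_ext
    intro j
    simp [s27tbU, esymmAlgHom]
  show Function.Injective (aeval (s27tbU (K := K) (g := g) t) :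
      MvPolynomial (Fin g) K →ₐ[K] s27gfOm K F g)
  rw [h2, AlgHom.coe_comp, AlgHom.coe_comp]
  exact Function.Injective.comp hX (Function.Injective.comp Subtype.val_injective hE)

/-- **the `e_{j+1}(ι t)` form a transcendence basis of `Ω_g / K`** -/
theorem s27tbU_isTranscendenceBasis (t : F) (ht : Transcendental K t)
    (halg : Algebra.IsAlgebraic (Algebra.adjoin K ({t} : Set F)) F) :
    IsTranscendenceBasis K (s27tbU (K := K) (g := g) t) := by
  have hX := s27tbX_isTranscendenceBasis (K := K) (g := g) t ht halg
  apply (s27tbU_algebraicIndependent (K := K) (g := g) t ht).isTranscendenceBasis_of_lift_trdeg_le_of_finite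
  rw [← hX.lift_cardinalMk_eq_trdeg]

/-- the `e_{j+1}(ι t)` as elements of `𝔉 = K(Sym^g C)` -/
def s27tbUSym (t : F) (j : Fin g) : s27gfSym K F g := ⟨s27tbU t j, s27tbU_mem_sym t j⟩

@[simp] theorem s27tbUSym_coe (t : F) (j : Fin g) :
    ((s27tbUSym (K := K) t j : s27gfSym K F g) : s27gfOm K F g) = s27tbU t j := rfl

theorem s27tbUSym_algebraicIndependent (t : F) (ht : Transcendental K t) :
    AlgebraicIndependent K (s27tbUSym (K := K) (g := g) t) := by
  apply AlgebraicIndependent.of_comp ((s27gfSym K F g).val)
  exact s27tbU_algebraicIndependent (K := K) (g := g) t ht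

/-- **G1-TB**: the `e_{j+1}(ι t)` form a transcendence basis of `𝔉 = K(Sym^g C)` over `K`. -/
theorem s27tbUSym_isTranscendenceBasis (t : F) (ht : Transcendental K t)
    (halg : Algebra.IsAlgebraic (Algebra.adjoin K ({t} : Set F)) F) :
    IsTranscendenceBasis K (s27tbUSym (K := K) (g := g) t) := by
  have hU := s27tbU_isTranscendenceBasis (K := K) (g := g) t ht halg
  apply (s27tbUSym_algebraicIndependent (K := K) (g := g) t
    ht).isTranscendenceBasis_of_lift_trdeg_le_of_finite
  have h1 := lift_trdeg_le_of_injective ((s27gfSym K F g).val) Subtype.val_injective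
  rw [hU.lift_cardinalMk_eq_trdeg]
  exact Cardinal.lift_le.mpr (Cardinal.lift_le.mp h1)

/-- `𝔉` is algebraic over `K[e_1(ι t), …, e_g(ι t)]` -/
theorem s27tbUSym_isAlgebraic (t : F) (ht : Transcendental K t)
    (halg : Algebra.IsAlgebraic (Algebra.adjoin K ({t} : Set F)) F) :
    Algebra.IsAlgebraic (Algebra.adjoin K (Set.range (s27tbUSym (K := K) (g := g) t)))
      (s27gfSym K F g) :=
  (s27tbUSym_isTranscendenceBasis t ht halg).isAlgebraic

end Field

end Fermat.Agent.S27

end
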