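/-
S27 route B, piece DEG-B4f FLD (helper33): the concrete field package
`S27DegFld K F L (s27gfOm K F g) t g (s27gfSym K F g)` of S27/DegAbs.lean (helper18), from
S27/GenField, GenFieldGal (helper33) and GenTB (helper36).

* `s27dfl_halg`  : `(∀ u, IsAlgebraic K⟮t⟯ u) → Algebra.IsAlgebraic (Algebra.adjoin K {t}) F`
  (bridge between the shape of `s27dg_StmtCount` and the shape of GenTB).
* `s27dfl_isAlgebraicR` : every element of `R_g = F^{⊗ g}` is algebraic over `K[X_1, …, X_g]`
  (`X_i ↦ single_i t`).
* **`s27dfl_liftR_injective` (INJ)** : `e : Fin g → F →ₐ[K] L` with `(e i t)_i` algebraically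
  independent over `K`  ⇒  `s27gfLiftR e : F^{⊗ g} → L` is injective ("a generic tuple is an
  embedding").
* `s27dflLift e he : Ω_g →ₐ[K] L`, `s27dflLift_iota`.
* **`s27dflFld`** : the package `S27DegFld`.
-/
import Mathlib
import Fermat.Agent.S27.DegAbs
import Fermat.Agent.S27.GenTB

set_option autoImplicit false
set_option linter.unusedVariables false
set_option linter.unusedSectionVars false
set_option linter.style.haveILetI false

noncomputable section

namespace Fermat.Agent.S27

open MvPolynomial

universe u v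

section

variable {K : Type u} {F : Type v} [Field K] [Field F] [Algebra K F]

open scoped IntermediateField.algebraAdjoinAdjoin in
/-- bridge: algebraic over `K(t)` ⇒ algebraic over `K[t]` -/
theorem s27dfl_halg (t : F) (h : ∀ u : F, IsAlgebraic (IntermediateField.adjoin K {t}) u) :
    Algebra.IsAlgebraic (Algebra.adjoin K ({t} : Set F)) F :=
  ⟨fun u => (IsFractionRing.isAlgebraic_iff (Algebra.adjoin K ({t} : Set F))
    (IntermediateField.adjoin K ({t} : Set F)) F).2 (h u)⟩

end

section Field

variable {K : Type u} {F : Type v} [Field K] [IsAlgClosed K] [Field F] [Algebra K F] {g : ℕ}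

theorem s27dfl_aeval_eq (t : F) :
    (aeval (s27tbX (K := K) (g := g) t) : MvPolynomial (Fin g) K →ₐ[K] s27gfOm K F g) =
      (IsScalarTower.toAlgHom K (s27gfR K F g) (s27gfOm K F g)).comp
        (aeval (fun i : Fin g => s27gfSingle (K := K) i t)) := by
  apply MvPolynomial.algHom_ext
  intro i
  simp [s27tbX, s27gfIota]

/-- every element of `F^{⊗ g}` is algebraic over `K[X_1, …, X_g]` -/
theorem s27dfl_isAlgebraicR (t : F)
    (halg : Algebra.IsAlgebraic (Algebra.adjoin K ({t} : Set F)) F) (x : s27gfR K F g) :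
    letI : Algebra (MvPolynomial (Fin g) K) (s27gfR K F g) :=
      ((aeval (fun i : Fin g => s27gfSingle (K := K) i t) :
        MvPolynomial (Fin g) K →ₐ[K] s27gfR K F g) :
          MvPolynomial (Fin g) K →+* s27gfR K F g).toAlgebra
    IsAlgebraic (MvPolynomial (Fin g) K) x := by
  letI : Algebra (MvPolynomial (Fin g) K) (s27gfR K F g) :=
    ((aeval (fun i : Fin g => s27gfSingle (K := K) i t) :
      MvPolynomial (Fin g) K →ₐ[K] s27gfR K F g) :
        MvPolynomial (Fin g) K →+* s27gfR K F g).toAlgebra
  have hy := (s27tb_isAlgebraic (K := K) (g := g) t halg).isAlgebraic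
    (algebraMap (s27gfR K F g) (s27gfOm K F g) x)
  -- `f : K[X] → K[ι t]`, surjective
  have hmem : ∀ p : MvPolynomial (Fin g) K,
      aeval (s27tbX (K := K) (g := g) t) p ∈
        Algebra.adjoin K (Set.range (s27tbX (K := K) (g := g) t)) := by
    intro p
    rw [Algebra.adjoin_range_eq_range_aeval]
    exact ⟨p, rfl⟩
  let f : MvPolynomial (Fin g) K →ₐ[K]
      Algebra.adjoin K (Set.range (s27tbX (K := K) (g := g) t)) :=
    (aeval (s27tbX (K := K) (g := g) t)).codRestrict _ hmem
  have hf : Function.Surjective f := by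
    rintro ⟨y, hy⟩
    rw [Algebra.adjoin_range_eq_range_aeval] at hy
    obtain ⟨p, rfl⟩ := hy
    exact ⟨p, rfl⟩
  refine IsAlgebraic.of_ringHom_of_comp_eq
    (f : MvPolynomial (Fin g) K →+* Algebra.adjoin K (Set.range (s27tbX (K := K) (g := g) t)))
    (algebraMap (s27gfR K F g) (s27gfOm K F g)) hy hf s27gfOm_algebraMap_injective ?_
  ext p
  · show aeval (s27tbX (K := K) (g := g) t) (C p) =
      algebraMap (s27gfR K F g) (s27gfOm K F g)
        (aeval (fun i : Fin g => s27gfSingle (K := K) i t) (C p))
    rw [s27dfl_aeval_eq]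
    rfl
  · show aeval (s27tbX (K := K) (g := g) t) (X p) =
      algebraMap (s27gfR K F g) (s27gfOm K F g)
        (aeval (fun i : Fin g => s27gfSingle (K := K) i t) (X p))
    rw [s27dfl_aeval_eq]
    rfl

/-- **INJ**: a generic tuple of points is an embedding of `F^{⊗ g}`. -/
theorem s27dfl_liftR_injective {L : Type*} [Field L] [Algebra K L] (t : F)
    (halg : Algebra.IsAlgebraic (Algebra.adjoin K ({t} : Set F)) F)
    (e : Fin g → F →ₐ[K] L) (he : AlgebraicIndependent K (fun i => e i t)) :
    Function.Injective (s27gfLiftR e) := by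
  haveI := s27gf_isDomain K F g
  letI : Algebra (MvPolynomial (Fin g) K) (s27gfR K F g) :=
    ((aeval (fun i : Fin g => s27gfSingle (K := K) i t) :
      MvPolynomial (Fin g) K →ₐ[K] s27gfR K F g) :
        MvPolynomial (Fin g) K →+* s27gfR K F g).toAlgebra
  rw [injective_iff_map_eq_zero]
  intro x hx
  by_contra hx0
  have hxalg : IsAlgebraic (MvPolynomial (Fin g) K) x := s27dfl_isAlgebraicR t halg x
  have h1 := Ideal.comap_ne_bot_of_algebraic_mem
    (I := RingHom.ker ((s27gfLiftR e : s27gfR K F g →ₐ[K] L) : s27gfR K F g →+* L)) hx0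
    (by rw [RingHom.mem_ker]; exact hx) hxalg
  apply h1
  rw [eq_bot_iff]
  intro p hp
  rw [Ideal.mem_comap, RingHom.mem_ker] at hp
  have h2 : (s27gfLiftR e).comp (aeval (fun i : Fin g => s27gfSingle (K := K) i t)) =
      (aeval (fun i => e i t) : MvPolynomial (Fin g) K →ₐ[K] L) := by
    apply MvPolynomial.algHom_ext
    intro i
    simp
  have h3 : aeval (fun i => e i t) p = 0 := by
    rw [← h2]
    exact hp
  have h4 : p = 0 := he (h3.trans (map_zero _).symm)
  rw [h4]
  exact Ideal.zero_mem _

/-- the embedding `Ω_g → L` of a generic tuple -/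
def s27dflLift {L : Type*} [Field L] [Algebra K L] (t : F)
    (halg : Algebra.IsAlgebraic (Algebra.adjoin K ({t} : Set F)) F)
    (e : Fin g → F →ₐ[K] L) (he : AlgebraicIndependent K (fun i => e i t)) :
    s27gfOm K F g →ₐ[K] L :=
  s27gfLift e (s27dfl_liftR_injective t halg e he)

@[simp] theorem s27dflLift_iota {L : Type*} [Field L] [Algebra K L] (t : F)
    (halg : Algebra.IsAlgebraic (Algebra.adjoin K ({t} : Set F)) F)
    (e : Fin g → F →ₐ[K] L) (he : AlgebraicIndependent K (fun i => e i t)) (i : Fin g) (u : F) :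
    s27dflLift t halg e he (s27gfIota i u) = e i u := by
  unfold s27dflLift
  rw [s27gfLift_iota]

/-- **B4f (FLD)**: the concrete field package. -/
def s27dflFld (L : Type (max u v)) [Field L] [Algebra K L] [Algebra (s27gfOm K F g) L]
    (t : F) (ht : Transcendental K t)
    (halg : ∀ u : F, IsAlgebraic (IntermediateField.adjoin K {t}) u) :
    S27DegFld K F L (s27gfOm K F g) t g (s27gfSym K F g) where
  ι := fun i => s27gfIota i
  perm := s27gfPermHom K F g
  perm_ι := fun π i u => s27gfPerm_iota π i u
  gen := s27gf_adjoin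
  fixed := fun x => s27gf_mem_sym
  ι_gen := s27tb_algebraicIndependent t ht
  lift := fun e he =>
    ⟨s27dflLift t (s27dfl_halg t halg) e he, fun i u => s27dflLift_iota t _ e he i u⟩

@[simp] theorem s27dflFld_ι (L : Type (max u v)) [Field L] [Algebra K L]
    [Algebra (s27gfOm K F g) L] (t : F) (ht : Transcendental K t)
    (halg : ∀ u : F, IsAlgebraic (IntermediateField.adjoin K {t}) u) (i : Fin g) :
    (s27dflFld (K := K) (F := F) (g := g) L t ht halg).ι i = s27gfIota i := rfl

@[simp] theorem s27dflFld_perm (L : Type (max u v)) [Field L] [Algebra K L]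
    [Algebra (s27gfOm K F g) L] (t : F) (ht : Transcendental K t)
    (halg : ∀ u : F, IsAlgebraic (IntermediateField.adjoin K {t}) u) :
    (s27dflFld (K := K) (F := F) (g := g) L t ht halg).perm = s27gfPermHom K F g := rfl

end Field

end Fermat.Agent.S27
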