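/-
S27 route B, DEG (helper84): two algebra leaves for the bijection "embeddings ↔ torsion" (B4).

* `s27dgx_injective_of_isAlgebraic` : a ring homomorphism out of a domain `R`, algebraic over `P`,
  which is injective on `P`, is injective.
* `s27dgx_single_isAlgebraic`, `s27dgx_isAlgebraic` : `R_g = F^{⊗ g}` is algebraic over
  `K[u_1, …, u_g]`, `u_i = t` in the `i`-th coordinate, when `F` is algebraic over `K[t]`.
* **(INJ)** `s27dgx_liftR_injective` : the product map `R_g → M` of a family `j i : F →ₐ[K] M` is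
  injective as soon as the `j i t` are algebraically independent over `K`
  ("a point with independent coordinates is generic"); `s27dgx_liftR_injective'` with `K⟮t⟯`.
* **(GAL)** `s27dgx_aut_eq_perm` : an `𝔉`-endomorphism of `Ω_g` is a permutation of the coordinates;
  `s27dgx_exists_perm` : two embeddings `ψ ψ' : Ω_g → L` which agree on `𝔉 = Ω_g ^ {S_g}` differ by a
  permutation of the coordinates; `s27dgx_exists_perm_points` : in terms of the points.
-/
import Mathlib
import Fermat.Agent.S27.GenFieldGal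

set_option autoImplicit false
set_option linter.unusedVariables false
set_option linter.unusedSectionVars false
set_option linter.style.haveILetI false

noncomputable section

namespace Fermat.Agent.S27

open Polynomial

universe u v

/-! ### abstract: injectivity from algebraicity -/

/-- A ring homomorphism out of a domain `R`, algebraic over `P`, which is injective on `P`, is
injective. -/
theorem s27dgx_injective_of_isAlgebraic {P R M : Type*} [CommRing P] [CommRing R] [IsDomain R]
    [CommRing M] [Algebra P R] (ρ : R →+* M)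
    (halg : ∀ z : R, IsAlgebraic P z)
    (hinj : Function.Injective (ρ.comp (algebraMap P R))) : Function.Injective ρ := by
  rw [injective_iff_map_eq_zero]
  intro z hz
  by_contra hne
  obtain ⟨q, hq0, hq⟩ := (halg z).exists_nonzero_coeff_and_aeval_eq_zero
    (mem_nonZeroDivisors_of_ne_zero hne)
  have h1 : ρ (aeval z q) = 0 := by rw [hq, map_zero]
  rw [aeval_def, hom_eval₂, hz, eval₂_at_zero] at h1
  exact hq0 ((injective_iff_map_eq_zero _).mp hinj _ h1)

section Inj

variable {K : Type u} {F : Type v} [Field K] [IsAlgClosed K] [Field F] [Algebra K F] {g : ℕ}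

/-- the coordinates `u_i = 1 ⊗ … ⊗ t ⊗ … ⊗ 1` -/
def s27dgxU (g : ℕ) (t : F) : Fin g → s27gfR K F g := fun i => s27gfSingle i t

/-- `K[u_1, …, u_g] → R_g` -/
def s27dgxPhi (g : ℕ) (t : F) : MvPolynomial (Fin g) K →ₐ[K] s27gfR K F g :=
  MvPolynomial.aeval (s27dgxU (K := K) g t)

theorem s27dgx_tprod_eq_prod (y : Fin g → F) :
    PiTensorProduct.tprod K y = ∏ i, s27gfSingle (K := K) i (y i) := by
  have h2 : ∀ i : Fin g, s27gfSingle (K := K) i (y i) =
      PiTensorProduct.tprod K (Pi.mulSingle i (y i)) := fun i => rfl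
  simp_rw [h2]
  rw [← PiTensorProduct.tprod_prod]
  congr 1
  ext k
  rw [Finset.prod_apply, Finset.prod_eq_single k]
  · simp
  · intro b _ hb
    simp [Pi.mulSingle_eq_of_ne (Ne.symm hb)]
  · intro h
    exact absurd (Finset.mem_univ k) h

theorem s27dgx_liftR_phi {M : Type*} [CommRing M] [Algebra K M] (j : Fin g → F →ₐ[K] M) (t : F)
    (p : MvPolynomial (Fin g) K) :
    s27gfLiftR j (s27dgxPhi g t p) = MvPolynomial.aeval (fun i => j i t) p := by
  have h : (s27gfLiftR j).comp (s27dgxPhi g t) = MvPolynomial.aeval (fun i => j i t) := by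
    apply MvPolynomial.algHom_ext
    intro i
    simp [s27dgxPhi, s27dgxU, s27gfLiftR_single]
  exact DFunLike.congr_fun h p

/-- `ι_i f` is algebraic over `K[u_1, …, u_g]` when `f` is algebraic over `K[t]`. -/
theorem s27dgx_single_isAlgebraic (t : F) (i : Fin g) (f : F)
    (hf : IsAlgebraic (Algebra.adjoin K {t}) f) :
    letI : Algebra (MvPolynomial (Fin g) K) (s27gfR K F g) :=
      (s27dgxPhi (K := K) (F := F) g t).toRingHom.toAlgebra
    IsAlgebraic (MvPolynomial (Fin g) K) (s27gfSingle (K := K) i f) := by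
  letI : Algebra (MvPolynomial (Fin g) K) (s27gfR K F g) :=
    (s27dgxPhi (K := K) (F := F) g t).toRingHom.toAlgebra
  letI : Algebra K[X] F := (Polynomial.aeval (R := K) t).toRingHom.toAlgebra
  -- step 1: algebraic over `K[X]`
  have h1 : IsAlgebraic K[X] f := by
    let f0 : K[X] →+* Algebra.adjoin K {t} :=
      ((Polynomial.aeval (R := K) t).codRestrict (Algebra.adjoin K {t}) (fun p => by
        rw [Algebra.adjoin_singleton_eq_range_aeval]
        exact ⟨p, rfl⟩)).toRingHom
    have hf0 : Function.Surjective f0 := by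
      rintro ⟨x, hx⟩
      rw [Algebra.adjoin_singleton_eq_range_aeval] at hx
      obtain ⟨p, hp⟩ := hx
      exact ⟨p, Subtype.ext hp⟩
    refine IsAlgebraic.of_ringHom_of_comp_eq (R := K[X]) (S := Algebra.adjoin K {t})
      (A := F) (B := F) f0 (RingHom.id F) (a := f) hf hf0 (fun _ _ h => h) ?_
    ext <;> rfl
  -- step 2: transport along `X ↦ X_i`, `F → R_g`
  have hinj : Function.Injective
      ((Polynomial.aeval (R := K) (MvPolynomial.X i : MvPolynomial (Fin g) K)).toRingHom) := by
    have h := (MvPolynomial.algebraicIndependent_X (Fin g) K).transcendental i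
    exact transcendental_iff_injective.mp h
  refine IsAlgebraic.ringHom_of_comp_eq (R := K[X]) (S := MvPolynomial (Fin g) K)
    (A := F) (B := s27gfR K F g)
    ((Polynomial.aeval (R := K) (MvPolynomial.X i : MvPolynomial (Fin g) K)).toRingHom)
    ((s27gfSingle (K := K) (F := F) i : F →ₐ[K] s27gfR K F g) : F →+* s27gfR K F g)
    h1 hinj ?_
  apply Polynomial.ringHom_ext
  · intro c
    show s27dgxPhi (K := K) (F := F) g t (Polynomial.aeval (MvPolynomial.X i) (Polynomial.C c)) =
      s27gfSingle (K := K) i (Polynomial.aeval t (Polynomial.C c))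
    simp
  · show s27dgxPhi (K := K) (F := F) g t (Polynomial.aeval (MvPolynomial.X i) Polynomial.X) =
      s27gfSingle (K := K) i (Polynomial.aeval t Polynomial.X)
    simp [s27dgxPhi, s27dgxU]

/-- `R_g` is algebraic over `K[u_1, …, u_g]`. -/
theorem s27dgx_isAlgebraic (t : F) (halg : ∀ f : F, IsAlgebraic (Algebra.adjoin K {t}) f)
    (z : s27gfR K F g) :
    letI : Algebra (MvPolynomial (Fin g) K) (s27gfR K F g) :=
      (s27dgxPhi (K := K) (F := F) g t).toRingHom.toAlgebra
    IsAlgebraic (MvPolynomial (Fin g) K) z := by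
  letI : Algebra (MvPolynomial (Fin g) K) (s27gfR K F g) :=
    (s27dgxPhi (K := K) (F := F) g t).toRingHom.toAlgebra
  haveI := s27gf_isDomain K F g
  show z ∈ Subalgebra.algebraicClosure (MvPolynomial (Fin g) K) (s27gfR K F g)
  induction z using PiTensorProduct.induction_on with
  | smul_tprod c y =>
    have h1 : c • PiTensorProduct.tprod K y =
        algebraMap (MvPolynomial (Fin g) K) (s27gfR K F g) (MvPolynomial.C c) *
          ∏ i, s27gfSingle (K := K) i (y i) := by
      rw [s27dgx_tprod_eq_prod, Algebra.smul_def]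
      congr 1
      show _ = s27dgxPhi (K := K) (F := F) g t (MvPolynomial.C c)
      simp [s27dgxPhi]
    rw [h1]
    refine Subalgebra.mul_mem _ (Subalgebra.algebraMap_mem _ _)
      (Subalgebra.prod_mem _ fun i _ => ?_)
    exact s27dgx_single_isAlgebraic t i (y i) (halg (y i))
  | add a b ha hb => exact Subalgebra.add_mem _ ha hb

/-- **(INJ)** the product map of a family of points with algebraically independent
`t`-coordinates is injective. -/
theorem s27dgx_liftR_injective {M : Type*} [CommRing M] [Algebra K M] (j : Fin g → F →ₐ[K] M)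
    (t : F) (halg : ∀ f : F, IsAlgebraic (Algebra.adjoin K {t}) f)
    (hind : AlgebraicIndependent K (fun i => j i t)) :
    Function.Injective (s27gfLiftR j) := by
  letI : Algebra (MvPolynomial (Fin g) K) (s27gfR K F g) :=
    (s27dgxPhi (K := K) (F := F) g t).toRingHom.toAlgebra
  haveI := s27gf_isDomain K F g
  have h := s27dgx_injective_of_isAlgebraic (P := MvPolynomial (Fin g) K)
    ((s27gfLiftR j : s27gfR K F g →ₐ[K] M) : s27gfR K F g →+* M)
    (fun z => s27dgx_isAlgebraic t halg z) (by
      intro p q hpq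
      apply (algebraicIndependent_iff_injective_aeval.mp hind)
      rw [← s27dgx_liftR_phi, ← s27dgx_liftR_phi]
      exact hpq)
  exact h

/-- **(INJ)**, with `F` algebraic over `K(t)`. -/
theorem s27dgx_liftR_injective' {M : Type*} [CommRing M] [Algebra K M] (j : Fin g → F →ₐ[K] M)
    (t : F) (halg : ∀ f : F, IsAlgebraic (IntermediateField.adjoin K {t}) f)
    (hind : AlgebraicIndependent K (fun i => j i t)) :
    Function.Injective (s27gfLiftR j) := by
  refine s27dgx_liftR_injective j t (fun f => ?_) hind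
  open IntermediateField.algebraAdjoinAdjoin in
  exact (IsFractionRing.isAlgebraic_iff (Algebra.adjoin K {t})
    (IntermediateField.adjoin K {t}) F).mpr (halg f)

end Inj

section Gal

variable {K : Type u} {F : Type v} [Field K] [IsAlgClosed K] [Field F] [Algebra K F] {g : ℕ}

/-- **(GAL)** `Aut(Ω_g / 𝔉) = S_g`: an `𝔉`-endomorphism of `Ω_g` is a permutation of the
coordinates. -/
theorem s27dgx_aut_eq_perm (σ : s27gfOm K F g →ₐ[s27gfSym K F g] s27gfOm K F g) :
    ∃ π : Equiv.Perm (Fin g), ∀ x, σ x = s27gfPerm π x := by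
  have hb := FixedPoints.toAlgHom_bijective (s27gfPermHom K F g).range (s27gfOm K F g)
  let σ' : s27gfOm K F g →ₐ[FixedPoints.subfield (s27gfPermHom K F g).range (s27gfOm K F g)]
      s27gfOm K F g :=
    { (σ : s27gfOm K F g →+* s27gfOm K F g) with
      commutes' := fun x => σ.commutes (⟨x.1, x.2⟩ : s27gfSym K F g) }
  obtain ⟨γ, hγ⟩ := hb.surjective σ'
  obtain ⟨π, hπ⟩ := γ.2
  refine ⟨π, fun x => ?_⟩
  have h1 := DFunLike.congr_fun hγ x
  have h2 : σ x = γ • x := h1.symm
  rw [h2]
  show (γ : s27gfOm K F g ≃ₐ[K] s27gfOm K F g) x = _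
  rw [← hπ]
  rfl

/-- **(GAL)** two embeddings of `Ω_g` which agree on `𝔉` differ by a permutation of the
coordinates. -/
theorem s27dgx_exists_perm {L : Type*} [Field L] [Algebra K L]
    (ψ ψ' : s27gfOm K F g →ₐ[K] L)
    (h : ∀ x : s27gfOm K F g, x ∈ s27gfSym K F g → ψ' x = ψ x) :
    ∃ π : Equiv.Perm (Fin g), ∀ x, ψ' x = ψ (s27gfPerm π x) := by
  letI : Algebra (s27gfOm K F g) L := (ψ : s27gfOm K F g →+* L).toAlgebra
  haveI : IsGalois (s27gfSym K F g) (s27gfOm K F g) := s27gf_isGalois
  haveI : Normal (s27gfSym K F g) (s27gfOm K F g) := IsGalois.to_normal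
  let ψE : s27gfOm K F g →ₐ[s27gfSym K F g] L :=
    { (ψ' : s27gfOm K F g →+* L) with
      commutes' := fun x => h x.1 x.2 }
  let e := Normal.algHomEquivAut (s27gfSym K F g) L (s27gfOm K F g)
  obtain ⟨π, hπ⟩ := s27dgx_aut_eq_perm ((e ψE : s27gfOm K F g ≃ₐ[s27gfSym K F g] s27gfOm K F g) :
    s27gfOm K F g →ₐ[s27gfSym K F g] s27gfOm K F g)
  refine ⟨π, fun x => ?_⟩
  have h1 : e.symm (e ψE) = ψE := e.symm_apply_apply ψE
  have h2 : (e.symm (e ψE)) x = ψE x := DFunLike.congr_fun h1 x
  have h3 : (e.symm (e ψE)) x = ψ ((e ψE) x) := rfl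
  have h4 : ψE x = ψ' x := rfl
  rw [← hπ x, ← h4, ← h2, h3]
  rfl

/-- **(GAL)** in terms of the points: two generic points with the same symmetric functions are
permutations of each other. -/
theorem s27dgx_exists_perm_points {L : Type*} [Field L] [Algebra K L]
    (j j' : Fin g → F →ₐ[K] L)
    (hj : Function.Injective (s27gfLiftR j)) (hj' : Function.Injective (s27gfLiftR j'))
    (h : ∀ x : s27gfOm K F g, x ∈ s27gfSym K F g → s27gfLift j' hj' x = s27gfLift j hj x) :
    ∃ π : Equiv.Perm (Fin g), ∀ i, j' i = j (π i) := by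
  obtain ⟨π, hπ⟩ := s27dgx_exists_perm (s27gfLift j hj) (s27gfLift j' hj') h
  refine ⟨π, fun i => AlgHom.ext fun f => ?_⟩
  have h1 := hπ (s27gfIota i f)
  rw [s27gfLift_iota, s27gfPerm_iota, s27gfLift_iota] at h1
  exact h1

end Gal

end Fermat.Agent.S27
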