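/-
S27, route B, piece DEG-B4 COUNT-MAIN (helper18): the count
`#{σ : 𝔉 →ₐ[K] L | σ ∘ φ = φ} = #P[n]` from the abstract degree package (S27/DegAbs.lean),
the field-theoretic inputs X1, X2, X3 (COUNT-EXT) and GS, all as explicit hypotheses.

* `s27dgcP fld i`   : the coordinate `ι i` as a point of `L`;
* `s27dgcCl pkg e`  : the class of the tuple of points `e`;
* `s27dgc_act`, `s27dgc_cl_perm`, `s27dgc_ns` : the package on tuples of points;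
* `s27dgc_perm_of_fix` : `ê` fixes `φ 𝔉` ⇒ `ê ∘ q i = q (π i)`;
* `s27dgc_torsion_of_fix` (B), `s27dgc_fix_of_torsion` (C);
* `s27dgc_count` : the count;  `s27dgc_stmtCount` : `X1, X2, X3, GS ⇒ s27dg_StmtCount`-shape.
-/
import Fermat.Agent.S27.DegAbs

set_option autoImplicit false
set_option linter.unusedVariables false
set_option linter.unusedSectionVars false

noncomputable section

namespace Fermat.Agent.S27

universe u v w x y

section Count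

variable {K : Type u} {F : Type v} {L : Type w} {Ω : Type w} [Field K] [Field F] [Field L]
  [Field Ω] [Algebra K F] [Algebra K L] [Algebra K Ω] [Algebra Ω L] [IsScalarTower K Ω L]
  {t : F} {g : ℕ} {Pl : Type x} {P : Type y} [AddCommGroup P]
  (pkg : S27DegPkg K F L t g Pl P) {𝔉 : IntermediateField K Ω} (fld : S27DegFld K F L Ω t g 𝔉)

/-- the coordinates as points of `L`. -/
def s27dgcP (i : Fin g) : F →ₐ[K] L := (IsScalarTower.toAlgHom K Ω L).comp (fld.ι i)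

theorem s27dgcP_apply (i : Fin g) (u : F) : s27dgcP fld i u = algebraMap Ω L (fld.ι i u) := rfl

/-- the class of a tuple of points. -/
def s27dgcCl (e : Fin g → F →ₐ[K] L) : P := pkg.cl (fun i => pkg.pt (e i))

theorem s27dgc_act (h : L ≃ₐ[K] L) (e : Fin g → F →ₐ[K] L) :
    pkg.actC h (s27dgcCl pkg e) = s27dgcCl pkg (fun i => (h : L →ₐ[K] L).comp (e i)) := by
  unfold s27dgcCl
  rw [pkg.actC_cl]
  congr 1
  funext i
  exact pkg.actP_pt h (e i)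

theorem s27dgc_cl_perm (e : Fin g → F →ₐ[K] L) (π : Equiv.Perm (Fin g)) :
    s27dgcCl pkg (fun i => e (π i)) = s27dgcCl pkg e :=
  pkg.cl_perm (fun i => pkg.pt (e i)) π

theorem s27dgc_ns (e : Fin g → F →ₐ[K] L) (he : S27dgGeneric K t e) (e' : Fin g → F →ₐ[K] L)
    (h : s27dgcCl pkg e' = s27dgcCl pkg e) : ∃ π : Equiv.Perm (Fin g), ∀ i, e' i = e (π i) := by
  obtain ⟨π, hπ⟩ := pkg.ns e he (fun i => pkg.pt (e' i)) h
  exact ⟨π, fun i => pkg.pt_inj (congrFun hπ i)⟩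

/-- the transported coordinates are generic. -/
theorem s27dgc_generic (h : L ≃ₐ[K] L) :
    S27dgGeneric K t (fun i => (h : L →ₐ[K] L).comp (s27dgcP fld i)) := by
  unfold S27dgGeneric
  have hinj : Function.Injective ((h : L →ₐ[K] L).comp (IsScalarTower.toAlgHom K Ω L)) :=
    RingHom.injective (((h : L →ₐ[K] L).comp (IsScalarTower.toAlgHom K Ω L) : Ω →ₐ[K] L) :
      Ω →+* L)
  have h1 : AlgebraicIndependent K
      (((h : L →ₐ[K] L).comp (IsScalarTower.toAlgHom K Ω L)) ∘ fun i => fld.ι i t) :=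
    AlgebraicIndependent.map' fld.ι_gen hinj
  exact h1

theorem s27dgc_perm_fix (π : Equiv.Perm (Fin g)) (x : 𝔉) : fld.perm π (x : Ω) = (x : Ω) :=
  (fld.fixed (x : Ω)).1 x.2 π

variable (n : ℕ) (q : Fin g → F →ₐ[K] L) (hq : S27dgGeneric K t q)
  (hDOM : (n : ℤ) • s27dgcCl pkg (s27dgcP fld) = s27dgcCl pkg q)
  (ψ : Ω →ₐ[K] L) (hψ : ∀ i u, ψ (fld.ι i u) = q i u)
  (φ : 𝔉 →ₐ[K] 𝔉) (hφ : ∀ x : 𝔉, algebraMap Ω L (φ x : Ω) = ψ (x : Ω))
  (hX2 : ∀ ψ₁ ψ₂ : Ω →ₐ[K] L, (∀ x : 𝔉, ψ₁ (x : Ω) = ψ₂ (x : Ω)) →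
    ∃ π : Equiv.Perm (Fin g), ∀ y, ψ₂ y = ψ₁ (fld.perm π y))
  (hX3 : ∀ ψ₁ ψ₂ : Ω →ₐ[K] L, (∀ i u, ψ₁ (fld.ι i u) = ψ₂ (fld.ι i u)) → ψ₁ = ψ₂)

include hDOM in
/-- `n · cl (ê ∘ p) = cl (ê ∘ q)`. -/
theorem s27dgc_smul_act (h : L ≃ₐ[K] L) :
    (n : ℤ) • s27dgcCl pkg (fun i => (h : L →ₐ[K] L).comp (s27dgcP fld i))
      = s27dgcCl pkg (fun i => (h : L →ₐ[K] L).comp (q i)) := by
  rw [← s27dgc_act, ← map_zsmul, hDOM, s27dgc_act]

include hψ hφ hX2 in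
/-- `ê` fixes `φ 𝔉` ⇒ `ê` permutes the `q i`. -/
theorem s27dgc_perm_of_fix (h : L ≃ₐ[K] L)
    (hfix : ∀ x : 𝔉, h (algebraMap Ω L (φ x : Ω)) = algebraMap Ω L (φ x : Ω)) :
    ∃ π : Equiv.Perm (Fin g), ∀ i, (h : L →ₐ[K] L).comp (q i) = q (π i) := by
  obtain ⟨π, hπ⟩ := hX2 ψ ((h : L →ₐ[K] L).comp ψ) (fun x => by
    rw [AlgHom.comp_apply, ← hφ x]
    exact (hfix x).symm)
  refine ⟨π, fun i => AlgHom.ext fun u => ?_⟩
  have h1 := hπ (fld.ι i u)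
  rw [AlgHom.comp_apply, fld.perm_ι, hψ, hψ] at h1
  exact h1

include hDOM hψ hφ hX2 in
/-- **(B)** `ê` fixes `φ 𝔉` ⇒ the class `cl (ê ∘ p) − cl p` is `n`-torsion. -/
theorem s27dgc_torsion_of_fix (h : L ≃ₐ[K] L)
    (hfix : ∀ x : 𝔉, h (algebraMap Ω L (φ x : Ω)) = algebraMap Ω L (φ x : Ω)) :
    (n : ℤ) • (s27dgcCl pkg (fun i => (h : L →ₐ[K] L).comp (s27dgcP fld i))
      - s27dgcCl pkg (s27dgcP fld)) = 0 := by
  obtain ⟨π, hπ⟩ := s27dgc_perm_of_fix fld q ψ hψ φ hφ hX2 h hfix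
  rw [smul_sub, s27dgc_smul_act pkg fld n q hDOM h, hDOM, sub_eq_zero]
  have : (fun i => (h : L →ₐ[K] L).comp (q i)) = fun i => q (π i) := funext hπ
  rw [this, s27dgc_cl_perm]

include hq hDOM hψ hφ hX3 in
/-- **(C)** the class `cl (ê ∘ p) − cl p` is `n`-torsion ⇒ `ê` fixes `φ 𝔉`. -/
theorem s27dgc_fix_of_torsion (h : L ≃ₐ[K] L)
    (htor : (n : ℤ) • (s27dgcCl pkg (fun i => (h : L →ₐ[K] L).comp (s27dgcP fld i))
      - s27dgcCl pkg (s27dgcP fld)) = 0) (x : 𝔉) :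
    h (algebraMap Ω L (φ x : Ω)) = algebraMap Ω L (φ x : Ω) := by
  rw [smul_sub, s27dgc_smul_act pkg fld n q hDOM h, hDOM, sub_eq_zero] at htor
  obtain ⟨π, hπ⟩ := s27dgc_ns pkg q hq _ htor
  have h3 : (h : L →ₐ[K] L).comp ψ = ψ.comp (fld.perm π : Ω →ₐ[K] Ω) := by
    apply hX3
    intro i u
    have h1 := congrArg (fun e : F →ₐ[K] L => e u) (hπ i)
    simp only [AlgHom.comp_apply] at h1
    rw [AlgHom.comp_apply, AlgHom.comp_apply, hψ]
    change _ = ψ (fld.perm π (fld.ι i u))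
    rw [fld.perm_ι, hψ]
    exact h1
  have h4 := congrArg (fun e : Ω →ₐ[K] L => e (x : Ω)) h3
  simp only [AlgHom.comp_apply] at h4
  rw [hφ x]
  refine h4.trans ?_
  change ψ (fld.perm π (x : Ω)) = _
  rw [s27dgc_perm_fix]

include hq hDOM hψ hφ hX2 hX3 in
/-- **COUNT-MAIN.** -/
theorem s27dgc_count
    (hX1 : ∀ σ : 𝔉 →ₐ[K] L, ∃ ê : L ≃ₐ[K] L, ∀ x : 𝔉, ê (algebraMap Ω L (x : Ω)) = σ x)
    (hGS : ∀ R' : Fin g → Pl, (n : ℤ) • pkg.cl R' = pkg.cl (fun i => pkg.pt (q i)) →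
      ∃ e' : Fin g → F →ₐ[K] L, S27dgGeneric K t e' ∧ R' = fun i => pkg.pt (e' i)) :
    Nat.card {σ : 𝔉 →ₐ[K] L // ∀ x : 𝔉, σ (φ x) = algebraMap Ω L (φ x : Ω)}
      = Nat.card {c : P // (n : ℤ) • c = 0} := by
  classical
  -- the chosen extension
  choose ext hext using hX1
  let cls : (L ≃ₐ[K] L) → P := fun h =>
    s27dgcCl pkg (fun i => (h : L →ₐ[K] L).comp (s27dgcP fld i)) - s27dgcCl pkg (s27dgcP fld)
  have hfixσ : ∀ σ : {σ : 𝔉 →ₐ[K] L // ∀ x : 𝔉, σ (φ x) = algebraMap Ω L (φ x : Ω)},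
      ∀ x : 𝔉, ext σ.1 (algebraMap Ω L (φ x : Ω)) = algebraMap Ω L (φ x : Ω) := by
    intro σ x
    rw [hext σ.1 (φ x)]
    exact σ.2 x
  let f : {σ : 𝔉 →ₐ[K] L // ∀ x : 𝔉, σ (φ x) = algebraMap Ω L (φ x : Ω)} →
      {c : P // (n : ℤ) • c = 0} := fun σ =>
    ⟨cls (ext σ.1), s27dgc_torsion_of_fix pkg fld n q hDOM ψ hψ φ hφ hX2 (ext σ.1) (hfixσ σ)⟩
  refine Nat.card_congr (Equiv.ofBijective f ⟨?_, ?_⟩)
  · -- injective
    intro σ σ' hσ
    have h1 : cls (ext σ.1) = cls (ext σ'.1) := congrArg Subtype.val hσ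
    have h2 : s27dgcCl pkg (fun i => ((ext σ.1 : L ≃ₐ[K] L) : L →ₐ[K] L).comp (s27dgcP fld i))
        = s27dgcCl pkg (fun i => ((ext σ'.1 : L ≃ₐ[K] L) : L →ₐ[K] L).comp (s27dgcP fld i)) :=
      sub_left_injective h1
    obtain ⟨π, hπ⟩ := s27dgc_ns pkg _ (s27dgc_generic fld (ext σ'.1)) _ h2
    have h3 : ((ext σ.1 : L ≃ₐ[K] L) : L →ₐ[K] L).comp (IsScalarTower.toAlgHom K Ω L)
        = (((ext σ'.1 : L ≃ₐ[K] L) : L →ₐ[K] L).comp (IsScalarTower.toAlgHom K Ω L)).comp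
            (fld.perm π : Ω →ₐ[K] Ω) := by
      apply hX3
      intro i u
      have h4 := congrArg (fun e : F →ₐ[K] L => e u) (hπ i)
      simp only [AlgHom.comp_apply] at h4
      rw [AlgHom.comp_apply, AlgHom.comp_apply, AlgHom.comp_apply]
      change _ = (ext σ'.1 : L →ₐ[K] L) ((IsScalarTower.toAlgHom K Ω L)
        (fld.perm π (fld.ι i u)))
      rw [fld.perm_ι]
      exact h4
    apply Subtype.ext
    apply AlgHom.ext
    intro x
    have h5 := congrArg (fun e : Ω →ₐ[K] L => e (x : Ω)) h3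
    simp only [AlgHom.comp_apply] at h5
    have h6 : (fld.perm π : Ω →ₐ[K] Ω) (x : Ω) = (x : Ω) := s27dgc_perm_fix fld π x
    rw [h6] at h5
    rw [← hext σ.1 x, ← hext σ'.1 x]
    exact h5
  · -- surjective
    rintro ⟨c, hc⟩
    obtain ⟨R', hR'⟩ := pkg.rr (s27dgcCl pkg (s27dgcP fld) + c)
    have hnR' : (n : ℤ) • pkg.cl R' = pkg.cl (fun i => pkg.pt (q i)) := by
      rw [hR', smul_add, hc, add_zero]
      exact hDOM
    obtain ⟨e', he', hRe'⟩ := hGS R' hnR'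
    obtain ⟨ψ', hψ'⟩ := fld.lift e' he'
    let σ : 𝔉 →ₐ[K] L := ψ'.comp 𝔉.val
    -- `ext σ` and `ψ'` agree on `𝔉`
    obtain ⟨π, hπ⟩ := hX2 (((ext σ : L ≃ₐ[K] L) : L →ₐ[K] L).comp
      (IsScalarTower.toAlgHom K Ω L)) ψ' (fun x => by
        rw [AlgHom.comp_apply]
        exact hext σ x)
    have he'π : ∀ i, e' i = ((ext σ : L ≃ₐ[K] L) : L →ₐ[K] L).comp (s27dgcP fld (π i)) := by
      intro i
      apply AlgHom.ext
      intro u
      rw [← hψ' i u, hπ (fld.ι i u), fld.perm_ι]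
      rfl
    have hcl : s27dgcCl pkg (fun i => ((ext σ : L ≃ₐ[K] L) : L →ₐ[K] L).comp (s27dgcP fld i))
        = s27dgcCl pkg (s27dgcP fld) + c := by
      rw [← hR', hRe']
      have : (fun i => pkg.pt (e' i))
          = fun i => pkg.pt (((ext σ : L ≃ₐ[K] L) : L →ₐ[K] L).comp (s27dgcP fld (π i))) :=
        funext fun i => by rw [he'π i]
      rw [this]
      exact (s27dgc_cl_perm pkg
        (fun i => ((ext σ : L ≃ₐ[K] L) : L →ₐ[K] L).comp (s27dgcP fld i)) π).symm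
    have hcls : cls (ext σ) = c := by
      show _ - _ = c
      rw [hcl, add_sub_cancel_left]
    have hσ : ∀ x : 𝔉, σ (φ x) = algebraMap Ω L (φ x : Ω) := by
      intro x
      rw [← hext σ (φ x)]
      exact s27dgc_fix_of_torsion pkg fld n q hq hDOM ψ hψ φ hφ hX3 (ext σ)
        (by show (n : ℤ) • cls (ext σ) = 0; rw [hcls]; exact hc) x
    exact ⟨⟨σ, hσ⟩, Subtype.ext hcls⟩

end Count

end Fermat.Agent.S27

end
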