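/-
S27-B (row 26), DEG-B3 **EMB** (helper53; ledger NOTES/S27-DEG.md).  Mathlib only.

Counting embeddings: for a finite separable extension `𝔉 / E` and an algebraically closed field
`L ⊇ E`, `#(𝔉 →ₐ[E] L) = [𝔉 : E]`.

* `s27emb_natCard`        : the general statement (`Nat.card`);
* `s27emb_natCard_charZero` : the same in characteristic `0` (no separability hypothesis);
* `s27emb_finite`         : the set of embeddings is finite;
* `s27emb_natCard_range`  : the form for the frame: `φ : 𝔉 →ₐ[K] 𝔉` with `𝔉 / φ𝔉` finite,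
  `char = 0`, `ι : 𝔉 →+* L`:  `#{σ : 𝔉 →+* L // σ ∘ φ = ι ∘ φ} = finrank φ.fieldRange 𝔉`;
* `s27emb_natCard_range_alg` : the same for `K`-algebra maps `σ : 𝔉 →ₐ[K] L`;
* `s27emb_natCard_range_pow` : the same for `φ ^ k`.
-/
import Mathlib

set_option autoImplicit false
set_option linter.style.haveILetI false

noncomputable section

namespace Fermat.Agent.S27

open Module

/-- **DEG-B3 (EMB)**: `#(𝔉 →ₐ[E] L) = [𝔉 : E]` for `𝔉 / E` finite separable, `L` algebraically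
closed. -/
theorem s27emb_natCard (E 𝔉 L : Type*) [Field E] [Field 𝔉] [Field L] [Algebra E 𝔉]
    [Algebra E L] [FiniteDimensional E 𝔉] [Algebra.IsSeparable E 𝔉] [IsAlgClosed L] :
    Nat.card (𝔉 →ₐ[E] L) = finrank E 𝔉 :=
  AlgHom.natCard_of_splits E 𝔉 L (fun _ => IsAlgClosed.splits _)

/-- the embeddings form a finite set -/
theorem s27emb_finite (E 𝔉 L : Type*) [Field E] [Field 𝔉] [Field L] [Algebra E 𝔉]
    [Algebra E L] [FiniteDimensional E 𝔉] : Finite (𝔉 →ₐ[E] L) :=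
  inferInstance

/-- **DEG-B3** in characteristic `0`. -/
theorem s27emb_natCard_charZero (E 𝔉 L : Type*) [Field E] [Field 𝔉] [Field L] [Algebra E 𝔉]
    [Algebra E L] [FiniteDimensional E 𝔉] [CharZero E] [IsAlgClosed L] :
    Nat.card (𝔉 →ₐ[E] L) = finrank E 𝔉 :=
  s27emb_natCard E 𝔉 L

section Range

variable {K 𝔉 L : Type*} [Field K] [Field 𝔉] [Field L] [Algebra K 𝔉]

/-- ring homomorphisms `σ : 𝔉 → L` which agree with `ι` on `φ 𝔉` are the `φ𝔉`-algebra maps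
(`L` a `φ𝔉`-algebra through `ι`). -/
def s27embEquiv (φ : 𝔉 →ₐ[K] 𝔉) (ι : 𝔉 →+* L) :
    letI : Algebra φ.fieldRange L := (ι.comp (algebraMap φ.fieldRange 𝔉)).toAlgebra
    {σ : 𝔉 →+* L // ∀ x, σ (φ x) = ι (φ x)} ≃ (𝔉 →ₐ[φ.fieldRange] L) :=
  letI : Algebra φ.fieldRange L := (ι.comp (algebraMap φ.fieldRange 𝔉)).toAlgebra
  { toFun := fun σ =>
      { (σ.1 : 𝔉 →+* L) with
        commutes' := fun y => by
          obtain ⟨x, hx⟩ := y.2
          have e : algebraMap φ.fieldRange 𝔉 y = φ x := hx.symm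
          show σ.1 (algebraMap φ.fieldRange 𝔉 y) = ι (algebraMap φ.fieldRange 𝔉 y)
          rw [e]
          exact σ.2 x }
    invFun := fun τ => ⟨(τ : 𝔉 →+* L), fun x => by
      have h := τ.commutes (⟨φ x, ⟨x, rfl⟩⟩ : φ.fieldRange)
      exact h⟩
    left_inv := fun σ => by
      apply Subtype.ext
      rfl
    right_inv := fun τ => by
      apply AlgHom.ext
      intro x
      rfl }

/-- **DEG-B3, frame form**: if `𝔉 / φ 𝔉` is finite (characteristic `0`) and `L` is algebraically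
closed, there are exactly `[𝔉 : φ 𝔉]` ring homomorphisms `σ : 𝔉 → L` with `σ ∘ φ = ι ∘ φ`. -/
theorem s27emb_natCard_range [CharZero 𝔉] [IsAlgClosed L] (φ : 𝔉 →ₐ[K] 𝔉)
    [Module.Finite φ.fieldRange 𝔉] (ι : 𝔉 →+* L) :
    Nat.card {σ : 𝔉 →+* L // ∀ x, σ (φ x) = ι (φ x)} = finrank φ.fieldRange 𝔉 := by
  letI : Algebra φ.fieldRange L := (ι.comp (algebraMap φ.fieldRange 𝔉)).toAlgebra
  haveI : CharZero φ.fieldRange :=
    ⟨fun a b h => Nat.cast_injective (R := 𝔉) (by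
      have := congrArg (algebraMap φ.fieldRange 𝔉) h
      simpa using this)⟩
  rw [Nat.card_congr (s27embEquiv φ ι)]
  exact s27emb_natCard φ.fieldRange 𝔉 L

/-- finiteness of the set of `s27emb_natCard_range` -/
theorem s27emb_finite_range (φ : 𝔉 →ₐ[K] 𝔉) [Module.Finite φ.fieldRange 𝔉] (ι : 𝔉 →+* L) :
    Finite {σ : 𝔉 →+* L // ∀ x, σ (φ x) = ι (φ x)} := by
  letI : Algebra φ.fieldRange L := (ι.comp (algebraMap φ.fieldRange 𝔉)).toAlgebra
  exact Finite.of_equiv _ (s27embEquiv φ ι).symm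

/-- `K`-algebra maps `σ : 𝔉 → L` which agree with `ι` on `φ 𝔉` are the ring homomorphisms with
this property. -/
def s27embEquivAlg [Algebra K L] (φ : 𝔉 →ₐ[K] 𝔉) (ι : 𝔉 →ₐ[K] L) :
    {σ : 𝔉 →ₐ[K] L // ∀ x, σ (φ x) = ι (φ x)} ≃
      {σ : 𝔉 →+* L // ∀ x, σ (φ x) = (ι : 𝔉 →+* L) (φ x)} where
  toFun := fun σ => ⟨(σ.1 : 𝔉 →+* L), σ.2⟩
  invFun := fun σ =>
    ⟨{ σ.1 with
        commutes' := fun a => by
          have h1 : algebraMap K 𝔉 a = φ (algebraMap K 𝔉 a) := (φ.commutes a).symm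
          show σ.1 (algebraMap K 𝔉 a) = algebraMap K L a
          rw [h1, σ.2]
          show ι (φ (algebraMap K 𝔉 a)) = algebraMap K L a
          rw [φ.commutes, ι.commutes] }, σ.2⟩
  left_inv := fun σ => by
    apply Subtype.ext
    apply AlgHom.ext
    intro x
    rfl
  right_inv := fun σ => by
    apply Subtype.ext
    rfl

/-- **DEG-B3, frame form for `K`-algebra maps**. -/
theorem s27emb_natCard_range_alg [Algebra K L] [CharZero 𝔉] [IsAlgClosed L] (φ : 𝔉 →ₐ[K] 𝔉)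
    [Module.Finite φ.fieldRange 𝔉] (ι : 𝔉 →ₐ[K] L) :
    Nat.card {σ : 𝔉 →ₐ[K] L // ∀ x, σ (φ x) = ι (φ x)} = finrank φ.fieldRange 𝔉 := by
  rw [Nat.card_congr (s27embEquivAlg φ ι)]
  exact s27emb_natCard_range φ (ι : 𝔉 →+* L)

/-- **DEG-B3 for `φ ^ k`**. -/
theorem s27emb_natCard_range_pow [Algebra K L] [CharZero 𝔉] [IsAlgClosed L] (φ : 𝔉 →ₐ[K] 𝔉)
    (k : ℕ) [Module.Finite (φ ^ k).fieldRange 𝔉] (ι : 𝔉 →ₐ[K] L) :
    Nat.card {σ : 𝔉 →ₐ[K] L // ∀ x, σ ((φ ^ k) x) = ι ((φ ^ k) x)} =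
      finrank (φ ^ k).fieldRange 𝔉 :=
  s27emb_natCard_range_alg (φ ^ k) ι

end Range

end Fermat.Agent.S27

end
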