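/-
S27, route B, piece DEG-TOP (helper18): the degree of the frame,
`finrank φ.fieldRange 𝔉 = #Pic0(F)[n]`, from

* COUNT (S27/DegCount.lean `s27dgc_count`): `#{σ : 𝔉 →ₐ[K] L | σ ∘ φ = φ} = #P[n]`, `P = Pic0 L F_L`;
* EMB (S27/DegEmb.lean `s27emb_natCard_range_alg`): `#{σ | σ ∘ φ = φ} = finrank φ.fieldRange 𝔉`;
* DEG-A (S27/RigMain.lean `s27rig_card_eq`, as a hypothesis `hA`):
  `Finite Pic0(F_L)[n] → #Pic0(F)[n] = #Pic0(F_L)[n]`.

The finiteness of `Pic0(F_L)[n]` comes out of the count.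

* `s27dgtopTorsEquiv` : `{c // n • c = 0} ≃ Pic0.torsion`;
* `s27dgtop_of_count` : the glue from the count;
* `s27dgtop_main`     : the glue from the hypotheses of `s27dgc_count`.
-/
import Fermat.Agent.S27.DegCount
import Fermat.Agent.S27.DegEmb
import Fermat.Prelude.Def_AlgebraicCurve_DivisorClassGroup

set_option autoImplicit false
set_option linter.unusedVariables false
set_option linter.unusedSectionVars false
set_option linter.style.haveILetI false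

noncomputable section

namespace Fermat.Agent.S27

open AlgebraicCurve Module

universe u v w x y

/-- the `n`-torsion of `Pic0` as a subtype. -/
def s27dgtopTorsEquiv (L' : Type u) (Ω' : Type v) [Field L'] [Field Ω'] [Algebra L' Ω'] (n : ℕ) :
    {c : Pic0 L' Ω' // (n : ℤ) • c = 0} ≃ Pic0.torsion L' Ω' n where
  toFun c := ⟨c.1, Pic0.mem_torsion.2 c.2⟩
  invFun c := ⟨c.1, Pic0.mem_torsion.1 c.2⟩
  left_inv _ := rfl
  right_inv _ := rfl

section Glue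

variable {K : Type u} {L : Type w} {Ω : Type w} [Field K] [Field L] [Field Ω]
  [Algebra K L] [Algebra K Ω] [Algebra Ω L] [IsScalarTower K Ω L]
  {𝔉 : IntermediateField K Ω}

/-- **DEG-TOP, from the count.** -/
theorem s27dgtop_of_count [CharZero K] [IsAlgClosed L]
    {T₀ : Type x} {T : Type y} (φ : 𝔉 →ₐ[K] 𝔉) [Module.Finite φ.fieldRange 𝔉]
    (hcount : Nat.card {σ : 𝔉 →ₐ[K] L // ∀ x : 𝔉, σ (φ x) = algebraMap Ω L (φ x : Ω)}
      = Nat.card T)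
    (hA : Finite T → Nat.card T₀ = Nat.card T) :
    finrank φ.fieldRange 𝔉 = Nat.card T₀ := by
  haveI : CharZero 𝔉 := charZero_of_injective_algebraMap (algebraMap K 𝔉).injective
  have h1 := s27emb_natCard_range_alg (K := K) (L := L) φ
    ((IsScalarTower.toAlgHom K Ω L).comp 𝔉.val)
  have h2 : Nat.card {σ : 𝔉 →ₐ[K] L // ∀ x : 𝔉, σ (φ x) = algebraMap Ω L (φ x : Ω)}
      = finrank φ.fieldRange 𝔉 := h1
  have hpos : 0 < finrank φ.fieldRange 𝔉 := Module.finrank_pos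
  have hT : Nat.card T ≠ 0 := by
    rw [← hcount, h2]
    exact hpos.ne'
  haveI : Finite T := Nat.finite_of_card_ne_zero hT
  rw [hA inferInstance, ← hcount, h2]

end Glue

section Main

variable {K : Type u} {F : Type v} {L : Type w} {Ω : Type w} [Field K] [Field F] [Field L]
  [Field Ω] [Algebra K F] [Algebra K L] [Algebra K Ω] [Algebra Ω L] [IsScalarTower K Ω L]
  {t : F} {g : ℕ} {Pl : Type x} {FL : Type y} [Field FL] [Algebra L FL]
  (pkg : S27DegPkg K F L t g Pl (Pic0 L FL)) {𝔉 : IntermediateField K Ω}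
  (fld : S27DegFld K F L Ω t g 𝔉)

/-- **DEG-TOP.**  `finrank φ.fieldRange 𝔉 = #Pic0(F)[n]`. -/
theorem s27dgtop_main [CharZero K] [IsAlgClosed L]
    (n : ℕ) (q : Fin g → F →ₐ[K] L) (hq : S27dgGeneric K t q)
    (hDOM : (n : ℤ) • s27dgcCl pkg (s27dgcP fld) = s27dgcCl pkg q)
    (ψ : Ω →ₐ[K] L) (hψ : ∀ i u, ψ (fld.ι i u) = q i u)
    (φ : 𝔉 →ₐ[K] 𝔉) (hφ : ∀ x : 𝔉, algebraMap Ω L (φ x : Ω) = ψ (x : Ω))
    [Module.Finite φ.fieldRange 𝔉]
    (hX2 : ∀ ψ₁ ψ₂ : Ω →ₐ[K] L, (∀ x : 𝔉, ψ₁ (x : Ω) = ψ₂ (x : Ω)) →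
      ∃ π : Equiv.Perm (Fin g), ∀ y, ψ₂ y = ψ₁ (fld.perm π y))
    (hX3 : ∀ ψ₁ ψ₂ : Ω →ₐ[K] L, (∀ i u, ψ₁ (fld.ι i u) = ψ₂ (fld.ι i u)) → ψ₁ = ψ₂)
    (hX1 : ∀ σ : 𝔉 →ₐ[K] L, ∃ ê : L ≃ₐ[K] L, ∀ x : 𝔉, ê (algebraMap Ω L (x : Ω)) = σ x)
    (hGS : ∀ R' : Fin g → Pl, (n : ℤ) • pkg.cl R' = pkg.cl (fun i => pkg.pt (q i)) →
      ∃ e' : Fin g → F →ₐ[K] L, S27dgGeneric K t e' ∧ R' = fun i => pkg.pt (e' i))
    {T₀ : Type*}
    (hA : Finite (Pic0.torsion L FL n) → Nat.card T₀ = Nat.card (Pic0.torsion L FL n)) :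
    finrank φ.fieldRange 𝔉 = Nat.card T₀ ∧ Finite (Pic0.torsion L FL n) := by
  have hcount := s27dgc_count pkg fld n q hq hDOM ψ hψ φ hφ hX2 hX3 hX1 hGS
  rw [Nat.card_congr (s27dgtopTorsEquiv L FL n)] at hcount
  have hfin : Finite (Pic0.torsion L FL n) := by
    haveI : CharZero 𝔉 := charZero_of_injective_algebraMap (algebraMap K 𝔉).injective
    have h1 := s27emb_natCard_range_alg (K := K) (L := L) φ
      ((IsScalarTower.toAlgHom K Ω L).comp 𝔉.val)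
    have h2 : Nat.card {σ : 𝔉 →ₐ[K] L // ∀ x : 𝔉, σ (φ x) = algebraMap Ω L (φ x : Ω)}
        = finrank φ.fieldRange 𝔉 := h1
    have hpos : 0 < finrank φ.fieldRange 𝔉 := Module.finrank_pos
    apply Nat.finite_of_card_ne_zero
    rw [← hcount, h2]
    exact hpos.ne'
  exact ⟨s27dgtop_of_count φ hcount hA, hfin⟩

end Main

end Fermat.Agent.S27

end
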