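/-
S27-B (row 26), DEG-B4d **TRDEG** (helper53; design NOTES/S27-DEG-B4.md, deputy helper18).

`s27dgt_main : s27dg_StmtTrdeg` (interface `S27/DegAbs.lean`): if `g` algebraically independent
elements `a i` are algebraic over the field generated by the `b i`, `i ∈ I ⊆ Fin g`, then
`I = univ` and `b` is algebraically independent.

Proof: in the algebraic matroid of `L / K`, `range a` is independent and contained in the closure
of `S = b '' I`, so `g = #(range a) ≤ rk S ≤ #S ≤ #I ≤ g`; all are equalities, hence `I = univ`,
`b` is injective and `S = range b` is independent.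
Also: `s27dgt_algIndep_of_algebraic` (the case `I = univ`) and `s27dgt_injective`.
-/
import Fermat.Agent.S27.DegAbs

set_option autoImplicit false
set_option linter.style.haveILetI false

noncomputable section

namespace Fermat.Agent.S27

open Set AlgebraicIndependent
open scoped IntermediateField.algebraAdjoinAdjoin

universe u w

section Core

variable {K : Type u} {L : Type w} [Field K] [Field L] [Algebra K L]

/-- algebraic over the field `K(S)` ⇒ in the matroid closure of `S` -/
theorem s27dgt_mem_closure {S : Set L} {x : L}
    (hx : IsAlgebraic (IntermediateField.adjoin K S) x) :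
    x ∈ (matroid K L).closure S := by
  rw [matroid_closure_eq]
  have h : IsAlgebraic (Algebra.adjoin K S) x :=
    (IsFractionRing.isAlgebraic_iff (Algebra.adjoin K S) (IntermediateField.adjoin K S) L).mpr hx
  exact h

/-- the chain of inequalities -/
theorem s27dgt_chain {g : ℕ} {a : Fin g → L} (ha : AlgebraicIndependent K a)
    (I : Set (Fin g)) (b : Fin g → L)
    (halg : ∀ i, IsAlgebraic (IntermediateField.adjoin K (b '' I)) (a i)) :
    (g : ℕ∞) ≤ (matroid K L).eRk (b '' I) ∧ (matroid K L).eRk (b '' I) ≤ (b '' I).encard ∧
      (b '' I).encard ≤ I.encard ∧ I.encard ≤ (g : ℕ∞) := by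
  have hInd : (matroid K L).Indep (range a) := matroid_indep_iff.mpr ha.to_subtype_range
  have hsub : range a ⊆ (matroid K L).closure (b '' I) := by
    rintro _ ⟨i, rfl⟩
    exact s27dgt_mem_closure (halg i)
  have hcard : (range a).encard = (g : ℕ∞) := by
    rw [← image_univ, ha.injective.injOn.encard_image, encard_univ]
    simp
  refine ⟨?_, (matroid K L).eRk_le_encard _, encard_image_le b I, ?_⟩
  · rw [← hcard, ← (matroid K L).eRk_closure_eq (b '' I)]
    exact hInd.encard_le_eRk_of_subset hsub
  · calc I.encard ≤ (univ : Set (Fin g)).encard := encard_le_encard (subset_univ I)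
      _ = (g : ℕ∞) := by rw [encard_univ]; simp

end Core

/-- **DEG-B4d (TRDEG)**. -/
theorem s27dgt_main : s27dg_StmtTrdeg.{u, w} := by
  intro K L _ _ _ g a ha I b halg
  obtain ⟨h1, h2, h3, h4⟩ := s27dgt_chain ha I b halg
  have hIg : I.encard = (g : ℕ∞) := le_antisymm h4 (h1.trans (h2.trans h3))
  have hSg : (b '' I).encard = (g : ℕ∞) := le_antisymm (h3.trans h4) (h1.trans h2)
  have hRg : (matroid K L).eRk (b '' I) = (g : ℕ∞) := le_antisymm (h2.trans (h3.trans h4)) h1
  have hIfin : I.Finite := Set.toFinite I
  -- `I = univ`
  have hI : I = univ := by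
    refine hIfin.eq_of_subset_of_encard_le (subset_univ I) ?_
    rw [hIg, encard_univ]
    simp
  refine ⟨hI, ?_⟩
  -- `b` is injective
  have hinjOn : InjOn b I := hIfin.injOn_of_encard_image_eq (by rw [hSg, hIg])
  have hinj : Function.Injective b := by
    rw [hI] at hinjOn
    exact injOn_univ.mp hinjOn
  -- `range b` is independent
  have hSfin : (b '' I).Finite := hIfin.image b
  have hSind : (matroid K L).Indep (b '' I) := by
    rw [Matroid.indep_iff_eRk_eq_encard_of_finite hSfin, hRg, hSg]
  rw [hI, image_univ] at hSind
  exact (algebraicIndependent_subtype_range hinj).mp (matroid_indep_iff.mp hSind)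

section Cor

variable {K : Type u} {L : Type w} [Field K] [Field L] [Algebra K L]

/-- the case `I = univ`: `g` elements over whose field `g` algebraically independent elements are
algebraic are algebraically independent -/
theorem s27dgt_algIndep_of_algebraic {g : ℕ} {a : Fin g → L} (ha : AlgebraicIndependent K a)
    (b : Fin g → L)
    (halg : ∀ i, IsAlgebraic (IntermediateField.adjoin K (range b)) (a i)) :
    AlgebraicIndependent K b :=
  (s27dgt_main K L g a ha univ b (by rwa [image_univ])).2

/-- no proper subfamily suffices -/
theorem s27dgt_eq_univ {g : ℕ} {a : Fin g → L} (ha : AlgebraicIndependent K a)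
    (I : Set (Fin g)) (b : Fin g → L)
    (halg : ∀ i, IsAlgebraic (IntermediateField.adjoin K (b '' I)) (a i)) : I = univ :=
  (s27dgt_main K L g a ha I b halg).1

end Cor

end Fermat.Agent.S27

end
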