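/-
S27 route B, piece GEN-EMB (helper15): from a Galois-stable generic point to an endomorphism of the
symmetric function field.  ABSTRACT form (Mathlib only).

Setting: `𝔉 ⊆ Ω ⊆ Ωb` fields over `K`, `Ωb / 𝔉` Galois (e.g. `Ωb` an algebraic closure of `𝔉`,
characteristic `0`), `G` acting on `Ω` and fixing `𝔉` (`G = S_g`, `Ω = Frac (F^{⊗ g})`, `𝔉 = Ω ^ G`).
A `K`-embedding `ψ : Ω → Ωb` ("evaluation at the point `Q = (Q₁, …, Q_g)`") such that every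
`σ ∈ Gal(Ωb / 𝔉)` permutes the coordinates of `Q` (`σ ∘ ψ = ψ ∘ π` for some `π ∈ G`) maps `𝔉` into
`𝔉`: this is the endomorphism `φ` of `𝔉` ("`f ↦ f(Q)` on symmetric functions").

* `s27ge_fixed`        : `ψ x` is fixed by `Gal(Ωb / 𝔉)` for `x ∈ 𝔉`;
* `s27ge_mem_range`    : `ψ x ∈ 𝔉` for `x ∈ 𝔉`;
* `s27geEndo`, `s27ge_endo_spec`, `s27ge_exists_endo`, `s27ge_endo_unique` : the endomorphism;
* `s27ge_eq_of_gen`    : two ring homomorphisms from `Ω` which agree on a set generating `Ω` as a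
                         field agree;
* `s27ge_perm_of_points` : the hypothesis `σ ∘ ψ = ψ ∘ π` from the coordinates: `Ω` is generated
  by the images of `ι i : F → Ω`, `π • ι i f = ι (π i) f`, `ψ ∘ ι i = q i` and
  `σ ∘ q i = q (π i)`;
* `s27ge_exists_endo_of_points` : the two combined.
-/
import Mathlib

set_option autoImplicit false
set_option linter.unusedSectionVars false

noncomputable section

namespace Fermat.Agent.S27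

section Abstract

variable {K 𝔉 Ω Ωb : Type*} [Field K] [Field 𝔉] [Field Ω] [Field Ωb]
  [Algebra K 𝔉] [Algebra K Ω] [Algebra K Ωb] [Algebra 𝔉 Ω] [Algebra 𝔉 Ωb]
  [IsScalarTower K 𝔉 Ω] [IsScalarTower K 𝔉 Ωb]
  {G : Type*} [SMul G Ω]

/-- `ψ x` is fixed by `Gal(Ωb / 𝔉)` for `x ∈ 𝔉`. -/
theorem s27ge_fixed (hfix : ∀ (π : G) (x : 𝔉), π • algebraMap 𝔉 Ω x = algebraMap 𝔉 Ω x)
    (ψ : Ω →ₐ[K] Ωb)
    (hψ : ∀ σ : Ωb ≃ₐ[𝔉] Ωb, ∃ π : G, ∀ x : Ω, σ (ψ x) = ψ (π • x))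
    (x : 𝔉) (σ : Ωb ≃ₐ[𝔉] Ωb) : σ (ψ (algebraMap 𝔉 Ω x)) = ψ (algebraMap 𝔉 Ω x) := by
  obtain ⟨π, hπ⟩ := hψ σ
  rw [hπ, hfix]

/-- `ψ x ∈ 𝔉` for `x ∈ 𝔉`. -/
theorem s27ge_mem_range [IsGalois 𝔉 Ωb]
    (hfix : ∀ (π : G) (x : 𝔉), π • algebraMap 𝔉 Ω x = algebraMap 𝔉 Ω x)
    (ψ : Ω →ₐ[K] Ωb)
    (hψ : ∀ σ : Ωb ≃ₐ[𝔉] Ωb, ∃ π : G, ∀ x : Ω, σ (ψ x) = ψ (π • x))
    (x : 𝔉) : ψ (algebraMap 𝔉 Ω x) ∈ Set.range (algebraMap 𝔉 Ωb) :=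
  (InfiniteGalois.mem_range_algebraMap_iff_fixed _).mpr fun σ => s27ge_fixed hfix ψ hψ x σ

/-- **GEN-EMB**: the endomorphism of `𝔉` induced by a Galois-stable embedding `ψ : Ω → Ωb`. -/
def s27geEndo [IsGalois 𝔉 Ωb]
    (hfix : ∀ (π : G) (x : 𝔉), π • algebraMap 𝔉 Ω x = algebraMap 𝔉 Ω x)
    (ψ : Ω →ₐ[K] Ωb)
    (hψ : ∀ σ : Ωb ≃ₐ[𝔉] Ωb, ∃ π : G, ∀ x : Ω, σ (ψ x) = ψ (π • x)) : 𝔉 →ₐ[K] 𝔉 :=
  ((AlgEquiv.ofInjective (IsScalarTower.toAlgHom K 𝔉 Ωb)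
      (algebraMap 𝔉 Ωb).injective).symm : _ →ₐ[K] 𝔉).comp
    ((ψ.comp (IsScalarTower.toAlgHom K 𝔉 Ω)).codRestrict
      (IsScalarTower.toAlgHom K 𝔉 Ωb).range (fun x => by
        obtain ⟨y, hy⟩ := s27ge_mem_range hfix ψ hψ x
        exact ⟨y, hy⟩))

/-- the defining property of `s27geEndo` -/
theorem s27ge_endo_spec [IsGalois 𝔉 Ωb]
    (hfix : ∀ (π : G) (x : 𝔉), π • algebraMap 𝔉 Ω x = algebraMap 𝔉 Ω x)
    (ψ : Ω →ₐ[K] Ωb)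
    (hψ : ∀ σ : Ωb ≃ₐ[𝔉] Ωb, ∃ π : G, ∀ x : Ω, σ (ψ x) = ψ (π • x)) (x : 𝔉) :
    algebraMap 𝔉 Ωb (s27geEndo hfix ψ hψ x) = ψ (algebraMap 𝔉 Ω x) := by
  have h := (AlgEquiv.ofInjective (IsScalarTower.toAlgHom K 𝔉 Ωb)
      (algebraMap 𝔉 Ωb).injective).apply_symm_apply
    ((ψ.comp (IsScalarTower.toAlgHom K 𝔉 Ω)).codRestrict
      (IsScalarTower.toAlgHom K 𝔉 Ωb).range (fun x => by
        obtain ⟨y, hy⟩ := s27ge_mem_range hfix ψ hψ x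
        exact ⟨y, hy⟩) x)
  exact congrArg Subtype.val h

/-- **GEN-EMB**, existence form. -/
theorem s27ge_exists_endo [IsGalois 𝔉 Ωb]
    (hfix : ∀ (π : G) (x : 𝔉), π • algebraMap 𝔉 Ω x = algebraMap 𝔉 Ω x)
    (ψ : Ω →ₐ[K] Ωb)
    (hψ : ∀ σ : Ωb ≃ₐ[𝔉] Ωb, ∃ π : G, ∀ x : Ω, σ (ψ x) = ψ (π • x)) :
    ∃ φ : 𝔉 →ₐ[K] 𝔉, ∀ x : 𝔉, algebraMap 𝔉 Ωb (φ x) = ψ (algebraMap 𝔉 Ω x) :=
  ⟨s27geEndo hfix ψ hψ, s27ge_endo_spec hfix ψ hψ⟩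

/-- uniqueness of the induced endomorphism -/
theorem s27ge_endo_unique (ψ : Ω →ₐ[K] Ωb) (φ φ' : 𝔉 →ₐ[K] 𝔉)
    (h : ∀ x : 𝔉, algebraMap 𝔉 Ωb (φ x) = ψ (algebraMap 𝔉 Ω x))
    (h' : ∀ x : 𝔉, algebraMap 𝔉 Ωb (φ' x) = ψ (algebraMap 𝔉 Ω x)) : φ = φ' := by
  ext x
  exact (algebraMap 𝔉 Ωb).injective ((h x).trans (h' x).symm)

end Abstract

section Generators

/-- two ring homomorphisms from a field which agree on a set generating it (as a field) agree -/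
theorem s27ge_eq_of_gen {Ω L : Type*} [Field Ω] [Field L] (f g : Ω →+* L) (s : Set Ω)
    (hs : Subfield.closure s = ⊤) (h : ∀ x ∈ s, f x = g x) : f = g := by
  have hle : Subfield.closure s ≤ f.eqLocusField g := Subfield.closure_le.2 h
  rw [hs] at hle
  ext x
  exact hle (Subfield.mem_top x)

variable {K F 𝔉 Ω Ωb : Type*} [Field K] [Field F] [Field 𝔉] [Field Ω] [Field Ωb]
  [Algebra K F] [Algebra K 𝔉] [Algebra K Ω] [Algebra K Ωb] [Algebra 𝔉 Ω] [Algebra 𝔉 Ωb]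
  [IsScalarTower K 𝔉 Ω] [IsScalarTower K 𝔉 Ωb]
  {I : Type*} {G : Type*} [Monoid G] [MulSemiringAction G Ω]

/-- the hypothesis `σ ∘ ψ = ψ ∘ π` of GEN-EMB from the coordinates of the point: `Ω` is generated
by the images of the coordinate embeddings `ι i`, `G` permutes them through `a : G → I → I`,
`ψ ∘ ι i = q i` and every `σ` permutes the `q i` in the same way. -/
theorem s27ge_perm_of_points (ι : I → F →+* Ω)
    (hgen : Subfield.closure (⋃ i, Set.range (ι i)) = ⊤)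
    (a : G → I → I) (hact : ∀ (π : G) (i : I) (f : F), π • ι i f = ι (a π i) f)
    (ψ : Ω →ₐ[K] Ωb) (q : I → F →+* Ωb) (hq : ∀ i f, ψ (ι i f) = q i f)
    (hperm : ∀ σ : Ωb ≃ₐ[𝔉] Ωb, ∃ π : G, ∀ i f, σ (q i f) = q (a π i) f)
    (σ : Ωb ≃ₐ[𝔉] Ωb) : ∃ π : G, ∀ x : Ω, σ (ψ x) = ψ (π • x) := by
  obtain ⟨π, hπ⟩ := hperm σ
  refine ⟨π, fun x => ?_⟩
  have key : ((σ : Ωb →+* Ωb).comp (ψ : Ω →+* Ωb)) =
      ((ψ : Ω →+* Ωb).comp (MulSemiringAction.toRingHom G Ω π)) := by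
    refine s27ge_eq_of_gen _ _ _ hgen ?_
    intro y hy
    obtain ⟨i, f, rfl⟩ : ∃ i f, ι i f = y := by
      rcases Set.mem_iUnion.1 hy with ⟨i, f, hf⟩
      exact ⟨i, f, hf⟩
    show σ (ψ (ι i f)) = ψ (π • ι i f)
    rw [hq, hπ, hact, hq]
  exact congrArg (fun h : Ω →+* Ωb => h x) key

/-- **GEN-EMB from the coordinates**: a point `q = (q i)` with values in `Ωb` whose coordinates
are permuted by `Gal(Ωb / 𝔉)`, and which is the image of the generic point under an embedding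
`ψ : Ω → Ωb`, defines an endomorphism `φ` of `𝔉`. -/
theorem s27ge_exists_endo_of_points [IsGalois 𝔉 Ωb]
    (hfix : ∀ (π : G) (x : 𝔉), π • algebraMap 𝔉 Ω x = algebraMap 𝔉 Ω x)
    (ι : I → F →+* Ω) (hgen : Subfield.closure (⋃ i, Set.range (ι i)) = ⊤)
    (a : G → I → I) (hact : ∀ (π : G) (i : I) (f : F), π • ι i f = ι (a π i) f)
    (ψ : Ω →ₐ[K] Ωb) (q : I → F →+* Ωb) (hq : ∀ i f, ψ (ι i f) = q i f)
    (hperm : ∀ σ : Ωb ≃ₐ[𝔉] Ωb, ∃ π : G, ∀ i f, σ (q i f) = q (a π i) f) :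
    ∃ φ : 𝔉 →ₐ[K] 𝔉, ∀ x : 𝔉, algebraMap 𝔉 Ωb (φ x) = ψ (algebraMap 𝔉 Ω x) :=
  s27ge_exists_endo hfix ψ (s27ge_perm_of_points ι hgen a hact ψ q hq hperm)

end Generators

end Fermat.Agent.S27

end
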