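/-
S27 route B, piece PSI-DEF (helper15): THE definition of the endomorphisms `ψ` of the field of
symmetric functions `𝔉 = K(Sym^g C) = s27gfSym K F g ⊆ Ω = s27gfOm K F g = Frac (F^{⊗ g})`
attached to a generic point `e = (e_0, …, e_{g-1})`, `e_i : F →ₐ[K] L` (= a generic effective
divisor `Σ pt(e_i)` of degree `g` over `L`), on helper33's model (GenField / GenFieldGal) through
GEN-EMB (GenEmb).

`L` is any field over `Ω` (for `s27psi`: `L / 𝔉` Galois, e.g. `L = AlgebraicClosure Ω`, char. 0:
`s27psi_isGalois`).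

* `s27psiT e he : Ω →ₐ[K] L`   the evaluation at the point `e` (`he` : the product map
                               `F^{⊗ g} → L` is injective), `s27psiT_iota : ψ̃ (ι_i f) = e i f`;
* `s27psiEv e he : 𝔉 →ₐ[K] L`  the evaluation of SYMMETRIC functions at the divisor `Σ pt(e_i)`;
                               it depends on the multiset only (`s27psiEv_perm`), is natural in `L`
                               (`s27psiEv_comp`), and is the inclusion for the tautological point
                               (`s27psiEv_taut`);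
* `S27PsiPt e`                 the point datum: `inj` + `stable` (every `σ ∈ Gal(L / 𝔉)` permutes
                               the `e_i`);
* `s27psi e he : 𝔉 →ₐ[K] 𝔉`    THE endomorphism, `s27psi_spec : algebraMap 𝔉 L (ψ s) = ψ̃ (s)`
                               ("`ψ s = s(e_0, …, e_{g-1})`"), `s27psi_spec'` (in terms of
                               `s27psiEv`), `s27psi_unique`, `s27psi_perm`, `s27psi_taut`,
                               `s27psi_injective`, `s27psi_range` (`φ 𝔉` inside `L`).
`ψ_k := s27psi e he` for ANY `e` with `Σ pt(e_i) ~ k·x − (k−1)·G₀` (well defined by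
`s27psi_perm` as soon as the effective representative is unique).
-/
import Fermat.Agent.S27.GenEmb
import Fermat.Agent.S27.GenFieldGal

set_option autoImplicit false
set_option linter.unusedSectionVars false
set_option linter.style.haveILetI false

noncomputable section

namespace Fermat.Agent.S27

universe u v w

section Eval

variable {K : Type u} {F : Type v} [Field K] [IsAlgClosed K] [Field F] [Algebra K F] {g : ℕ}
variable {L : Type w} [Field L] [Algebra K L]

/-- the evaluation `Ω → L` at the generic point `e` -/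
def s27psiT (e : Fin g → F →ₐ[K] L) (he : Function.Injective (s27gfLiftR e)) :
    s27gfOm K F g →ₐ[K] L :=
  s27gfLift e he

@[simp] theorem s27psiT_iota (e : Fin g → F →ₐ[K] L) (he : Function.Injective (s27gfLiftR e))
    (i : Fin g) (f : F) : s27psiT e he (s27gfIota i f) = e i f :=
  s27gfLift_iota e he i f

theorem s27psiT_injective (e : Fin g → F →ₐ[K] L) (he : Function.Injective (s27gfLiftR e)) :
    Function.Injective (s27psiT e he) :=
  RingHom.injective ((s27psiT e he : s27gfOm K F g →ₐ[K] L) : s27gfOm K F g →+* L)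

/-- a `K`-embedding `ρ : Ω → L` is the evaluation at its own coordinates `ρ ∘ ι_i` -/
theorem s27psi_inj_of_hom (ρ : s27gfOm K F g →ₐ[K] L) :
    Function.Injective (s27gfLiftR fun i => ρ.comp (s27gfIota i)) := by
  have h : s27gfLiftR (fun i => ρ.comp (s27gfIota (K := K) (F := F) (g := g) i)) =
      ρ.comp (IsScalarTower.toAlgHom K (s27gfR K F g) (s27gfOm K F g)) := by
    apply s27gfR_hom_ext
    intro i f
    rw [s27gfLiftR_single]
    rfl
  rw [h]
  intro a b hab
  have h1 : algebraMap (s27gfR K F g) (s27gfOm K F g) a =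
      algebraMap (s27gfR K F g) (s27gfOm K F g) b :=
    (RingHom.injective ((ρ : s27gfOm K F g →ₐ[K] L) : s27gfOm K F g →+* L)) hab
  exact s27gfOm_algebraMap_injective h1

theorem s27psiT_of_hom (ρ : s27gfOm K F g →ₐ[K] L) :
    s27psiT (fun i => ρ.comp (s27gfIota i)) (s27psi_inj_of_hom ρ) = ρ := by
  apply s27gfOm_hom_ext
  intro i f
  rw [s27psiT_iota]
  rfl

/-- the coordinates permuted: the product map is still injective -/
theorem s27psi_inj_perm (e : Fin g → F →ₐ[K] L) (he : Function.Injective (s27gfLiftR e))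
    (π : Equiv.Perm (Fin g)) : Function.Injective (s27gfLiftR fun i => e (π i)) := by
  have h := s27psi_inj_of_hom ((s27psiT e he).comp (s27gfPerm (K := K) (F := F) (g := g) π).toAlgHom)
  have h2 : (fun i => ((s27psiT e he).comp (s27gfPerm (K := K) (F := F) (g := g) π).toAlgHom).comp
      (s27gfIota i)) = fun i => e (π i) := by
    funext i
    apply AlgHom.ext
    intro f
    simp only [AlgHom.comp_apply, AlgEquiv.coe_toAlgHom, s27gfPerm_iota, s27psiT_iota]
  rw [h2] at h
  exact h

theorem s27psiT_perm (e : Fin g → F →ₐ[K] L) (he : Function.Injective (s27gfLiftR e))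
    (π : Equiv.Perm (Fin g)) (x : s27gfOm K F g) :
    s27psiT (fun i => e (π i)) (s27psi_inj_perm e he π) x = s27psiT e he (s27gfPerm π x) := by
  have h : s27psiT (fun i => e (π i)) (s27psi_inj_perm e he π) =
      (s27psiT e he).comp (s27gfPerm (K := K) (F := F) (g := g) π).toAlgHom := by
    apply s27gfOm_hom_ext
    intro i f
    simp only [AlgHom.comp_apply, AlgEquiv.coe_toAlgHom, s27gfPerm_iota, s27psiT_iota]
  rw [h]
  rfl

/-- naturality in `L` -/
theorem s27psi_inj_comp {L' : Type*} [Field L'] [Algebra K L'] (τ : L →ₐ[K] L')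
    (e : Fin g → F →ₐ[K] L) (he : Function.Injective (s27gfLiftR e)) :
    Function.Injective (s27gfLiftR fun i => τ.comp (e i)) := by
  have h := s27psi_inj_of_hom (τ.comp (s27psiT e he))
  have h2 : (fun i => (τ.comp (s27psiT e he)).comp (s27gfIota i)) = fun i => τ.comp (e i) := by
    funext i
    apply AlgHom.ext
    intro f
    simp only [AlgHom.comp_apply, s27psiT_iota]
  rw [h2] at h
  exact h

theorem s27psiT_comp {L' : Type*} [Field L'] [Algebra K L'] (τ : L →ₐ[K] L')
    (e : Fin g → F →ₐ[K] L) (he : Function.Injective (s27gfLiftR e)) (x : s27gfOm K F g) :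
    s27psiT (fun i => τ.comp (e i)) (s27psi_inj_comp τ e he) x = τ (s27psiT e he x) := by
  have h : s27psiT (fun i => τ.comp (e i)) (s27psi_inj_comp τ e he) = τ.comp (s27psiT e he) := by
    apply s27gfOm_hom_ext
    intro i f
    simp only [AlgHom.comp_apply, s27psiT_iota]
  rw [h]
  rfl

/-! ### evaluation of symmetric functions -/

/-- the evaluation of the symmetric functions at the divisor `Σ pt(e_i)` -/
def s27psiEv (e : Fin g → F →ₐ[K] L) (he : Function.Injective (s27gfLiftR e)) :
    s27gfSym K F g →ₐ[K] L :=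
  (s27psiT e he).comp (s27gfSym K F g).val

theorem s27psiEv_apply (e : Fin g → F →ₐ[K] L) (he : Function.Injective (s27gfLiftR e))
    (s : s27gfSym K F g) :
    s27psiEv e he s = s27psiT e he (algebraMap (s27gfSym K F g) (s27gfOm K F g) s) := rfl

theorem s27psiEv_injective (e : Fin g → F →ₐ[K] L) (he : Function.Injective (s27gfLiftR e)) :
    Function.Injective (s27psiEv e he) :=
  RingHom.injective ((s27psiEv e he : s27gfSym K F g →ₐ[K] L) : s27gfSym K F g →+* L)

/-- the evaluation of symmetric functions depends on the multiset `{e_i}` only -/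
theorem s27psiEv_perm (e : Fin g → F →ₐ[K] L) (he : Function.Injective (s27gfLiftR e))
    (π : Equiv.Perm (Fin g)) :
    s27psiEv (fun i => e (π i)) (s27psi_inj_perm e he π) = s27psiEv e he := by
  apply AlgHom.ext
  intro s
  rw [s27psiEv_apply, s27psiEv_apply, s27psiT_perm e he π]
  congr 1
  exact s27gf_mem_sym.mp s.2 π

theorem s27psiEv_perm' (e e' : Fin g → F →ₐ[K] L) (he : Function.Injective (s27gfLiftR e))
    (he' : Function.Injective (s27gfLiftR e')) (π : Equiv.Perm (Fin g))
    (h : ∀ i, e' i = e (π i)) : s27psiEv e' he' = s27psiEv e he := by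
  have h2 : e' = fun i => e (π i) := funext h
  subst h2
  exact s27psiEv_perm e he π

/-- naturality in `L` -/
theorem s27psiEv_comp {L' : Type*} [Field L'] [Algebra K L'] (τ : L →ₐ[K] L')
    (e : Fin g → F →ₐ[K] L) (he : Function.Injective (s27gfLiftR e)) :
    s27psiEv (fun i => τ.comp (e i)) (s27psi_inj_comp τ e he) = τ.comp (s27psiEv e he) := by
  apply AlgHom.ext
  intro s
  rw [s27psiEv_apply, s27psiT_comp τ e he]
  rfl

end Eval

section Endo

variable {K : Type u} {F : Type v} [Field K] [IsAlgClosed K] [Field F] [Algebra K F] {g : ℕ}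
variable {L : Type w} [Field L] [Algebra K L] [Algebra (s27gfOm K F g) L]
  [IsScalarTower K (s27gfOm K F g) L]

/-- **the point datum**: `e = (e_i)` is generic (`inj`) and its multiset is stable under
`Gal(L / 𝔉)` (`stable`). -/
structure S27PsiPt (e : Fin g → F →ₐ[K] L) : Prop where
  inj : Function.Injective (s27gfLiftR e)
  stable : ∀ σ : L ≃ₐ[s27gfSym K F g] L, ∃ π : Equiv.Perm (Fin g), ∀ i f, σ (e i f) = e (π i) f

/-- the hypothesis `σ ∘ ψ̃ = ψ̃ ∘ π` of GEN-EMB for a point datum -/
theorem s27psi_hperm {e : Fin g → F →ₐ[K] L} (he : S27PsiPt e) (σ : L ≃ₐ[s27gfSym K F g] L) :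
    ∃ π : Equiv.Perm (Fin g), ∀ x : s27gfOm K F g,
      σ (s27psiT e he.inj x) = s27psiT e he.inj (π • x) := by
  obtain ⟨π, hπ⟩ := he.stable σ
  refine ⟨π, fun x => ?_⟩
  have h : ((σ.restrictScalars K : L ≃ₐ[K] L).toAlgHom).comp (s27psiT e he.inj) =
      (s27psiT e he.inj).comp (s27gfPerm (K := K) (F := F) (g := g) π).toAlgHom := by
    apply s27gfOm_hom_ext
    intro i f
    simp only [AlgHom.comp_apply, AlgEquiv.coe_toAlgHom, s27gfPerm_iota, s27psiT_iota]
    exact hπ i f
  exact congrArg (fun c => c x) h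

variable [IsGalois (s27gfSym K F g) L]

/-- **THE endomorphism `ψ` of `𝔉` attached to the point datum `e`**: `ψ s = s(e_0, …, e_{g-1})`. -/
def s27psi (e : Fin g → F →ₐ[K] L) (he : S27PsiPt e) : s27gfSym K F g →ₐ[K] s27gfSym K F g :=
  s27geEndo (G := Equiv.Perm (Fin g)) (Ωb := L) s27gf_hfix (s27psiT e he.inj) (s27psi_hperm he)

/-- the defining property of `s27psi` -/
theorem s27psi_spec (e : Fin g → F →ₐ[K] L) (he : S27PsiPt e) (s : s27gfSym K F g) :
    algebraMap (s27gfSym K F g) L (s27psi e he s) =
      s27psiT e he.inj (algebraMap (s27gfSym K F g) (s27gfOm K F g) s) :=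
  s27ge_endo_spec (G := Equiv.Perm (Fin g)) (Ωb := L) s27gf_hfix (s27psiT e he.inj)
    (s27psi_hperm he) s

theorem s27psi_spec' (e : Fin g → F →ₐ[K] L) (he : S27PsiPt e) (s : s27gfSym K F g) :
    algebraMap (s27gfSym K F g) L (s27psi e he s) = s27psiEv e he.inj s :=
  s27psi_spec e he s

/-- `ψ` inside `Ω` -/
theorem s27psi_spec_om (e : Fin g → F →ₐ[K] L) (he : S27PsiPt e) (s : s27gfSym K F g) :
    algebraMap (s27gfOm K F g) L (algebraMap (s27gfSym K F g) (s27gfOm K F g) (s27psi e he s)) =
      s27psiT e he.inj (algebraMap (s27gfSym K F g) (s27gfOm K F g) s) := by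
  rw [← s27psi_spec e he s, ← IsScalarTower.algebraMap_apply]

theorem s27psi_unique (e : Fin g → F →ₐ[K] L) (he : S27PsiPt e)
    (φ : s27gfSym K F g →ₐ[K] s27gfSym K F g)
    (h : ∀ s, algebraMap (s27gfSym K F g) L (φ s) = s27psiEv e he.inj s) : φ = s27psi e he :=
  s27ge_endo_unique (s27psiT e he.inj) φ (s27psi e he) h (s27psi_spec e he)

theorem s27psi_injective (e : Fin g → F →ₐ[K] L) (he : S27PsiPt e) :
    Function.Injective (s27psi e he) :=
  RingHom.injective ((s27psi e he : s27gfSym K F g →ₐ[K] s27gfSym K F g) :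
    s27gfSym K F g →+* s27gfSym K F g)

/-- `ψ` depends on the multiset `{e_i}` only -/
theorem s27psi_eq_of_ev (e e' : Fin g → F →ₐ[K] L) (he : S27PsiPt e) (he' : S27PsiPt e')
    (h : s27psiEv e' he'.inj = s27psiEv e he.inj) : s27psi e' he' = s27psi e he :=
  s27psi_unique e he _ fun s => by rw [s27psi_spec', h]

theorem s27psi_perm (e e' : Fin g → F →ₐ[K] L) (he : S27PsiPt e) (he' : S27PsiPt e')
    (π : Equiv.Perm (Fin g)) (h : ∀ i, e' i = e (π i)) : s27psi e' he' = s27psi e he :=
  s27psi_eq_of_ev e e' he he' (s27psiEv_perm' e e' he.inj he'.inj π h)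

omit [IsGalois (s27gfSym K F g) L] in
/-- a permuted point datum is a point datum -/
theorem s27psiPt_perm {e : Fin g → F →ₐ[K] L} (he : S27PsiPt e) (π : Equiv.Perm (Fin g)) :
    S27PsiPt fun i => e (π i) where
  inj := s27psi_inj_perm e he.inj π
  stable := fun σ => by
    obtain ⟨ρ, hρ⟩ := he.stable σ
    refine ⟨π⁻¹ * ρ * π, fun i f => ?_⟩
    rw [hρ (π i) f]
    have h : π ((π⁻¹ * ρ * π) i) = ρ (π i) := Equiv.apply_symm_apply π _
    rw [h]

/-- the image `ψ 𝔉` inside `L`: the values of the symmetric functions at `e` -/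
theorem s27psi_range (e : Fin g → F →ₐ[K] L) (he : S27PsiPt e) (y : L) :
    y ∈ Set.range (fun s => algebraMap (s27gfSym K F g) L (s27psi e he s)) ↔
      y ∈ Set.range (s27psiEv e he.inj) := by
  constructor
  · rintro ⟨s, rfl⟩
    exact ⟨s, (s27psi_spec' e he s).symm⟩
  · rintro ⟨s, rfl⟩
    exact ⟨s, s27psi_spec' e he s⟩

/-- an element `x ∈ 𝔉` lies in `ψ 𝔉` iff it is a value of a symmetric function at `e` -/
theorem s27psi_mem_fieldRange (e : Fin g → F →ₐ[K] L) (he : S27PsiPt e) (x : s27gfSym K F g) :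
    x ∈ (s27psi e he).fieldRange ↔
      algebraMap (s27gfSym K F g) L x ∈ Set.range (s27psiEv e he.inj) := by
  constructor
  · rintro ⟨s, rfl⟩
    exact ⟨s, (s27psi_spec' e he s).symm⟩
  · rintro ⟨s, hs⟩
    refine ⟨s, ?_⟩
    apply (algebraMap (s27gfSym K F g) L).injective
    rw [← hs]
    exact s27psi_spec' e he s

end Endo

section Model

variable {K : Type u} {F : Type v} [Field K] [IsAlgClosed K] [Field F] [Algebra K F] {g : ℕ}
variable {L : Type w} [Field L] [Algebra K L] [Algebra (s27gfOm K F g) L]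
  [IsScalarTower K (s27gfOm K F g) L]

/-- `L / 𝔉` is algebraic as soon as `L / Ω` is -/
theorem s27psi_isAlgebraic [Algebra.IsAlgebraic (s27gfOm K F g) L] :
    Algebra.IsAlgebraic (s27gfSym K F g) L := by
  haveI := s27gf_isAlgebraic (K := K) (F := F) (g := g)
  haveI : Algebra.IsIntegral (s27gfSym K F g) (s27gfOm K F g) :=
    Algebra.isIntegral_def.2 fun x => (Algebra.IsAlgebraic.isAlgebraic x).isIntegral
  haveI : Algebra.IsIntegral (s27gfOm K F g) L :=
    Algebra.isIntegral_def.2 fun x => (Algebra.IsAlgebraic.isAlgebraic x).isIntegral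
  haveI : Algebra.IsIntegral (s27gfSym K F g) L :=
    Algebra.IsIntegral.trans (s27gfOm K F g)
  exact ⟨fun x => (Algebra.IsIntegral.isIntegral x).isAlgebraic⟩

set_option synthInstance.maxHeartbeats 400000 in
/-- an algebraic closure of `Ω` is an algebraic closure of `𝔉` -/
theorem s27psi_isAlgClosure [IsAlgClosed L] [Algebra.IsAlgebraic (s27gfOm K F g) L] :
    IsAlgClosure (s27gfSym K F g) L :=
  haveI := s27psi_isAlgebraic (K := K) (F := F) (g := g) (L := L)
  ⟨inferInstance, inferInstance⟩

set_option synthInstance.maxHeartbeats 400000 in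
/-- **the hypothesis `IsGalois 𝔉 L` of `s27psi`** for an algebraic closure `L` of `Ω`, char. `0` -/
theorem s27psi_isGalois [CharZero K] [IsAlgClosed L] [Algebra.IsAlgebraic (s27gfOm K F g) L] :
    IsGalois (s27gfSym K F g) L :=
  haveI := s27psi_isAlgClosure (K := K) (F := F) (g := g) (L := L)
  haveI : CharZero (s27gfSym K F g) :=
    charZero_of_injective_algebraMap (algebraMap K (s27gfSym K F g)).injective
  IsAlgClosure.isGalois _ _

/-- the model: `L = AlgebraicClosure Ω` -/
theorem s27psi_isGalois_model [CharZero K] :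
    IsGalois (s27gfSym K F g) (AlgebraicClosure (s27gfOm K F g)) :=
  s27psi_isGalois

end Model

end Fermat.Agent.S27
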