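/-
S27, route B, piece DEG-FINAL (deputy helper18): the DEGREE certificate `S27IsDeg` of the frame on
the model `𝔉 = s27gfSym K F g ⊆ Ω_g = s27gfOm K F g ⊆ L`, for the endomorphism
`ψ = s27psi q hq` (S27/Psi.lean, helper15) of a point datum `q` with `n · cl (pt ∘ p) = cl (pt ∘ q)`.

Inputs (all landed, or explicit hypotheses):
* the degree package `pkg : S27DegPkg K F L x g Pl (Pic0 L FL)` (S27/DegPkgAct.lean, helper45);
* the field package `s27dflFld` (S27/DegFld.lean, helper33);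
* X2 = `s27dgx_exists_perm` (helper84), X3 = `s27gfOm_hom_ext` (helper33), X1 (hypothesis `hX1`);
* GS = `s27dgs_main s27dgt_main` (helper81, helper53);
* COUNT, DEG-TOP (helper18), EMB (helper53);
* DEG-A (`hA`, = `s27ri_card_eq`, helper12);
* `Module.Finite ψ.fieldRange 𝔉` (DEG-FIN, DEG-FG).

* `s27dfin_isDeg` : `S27IsDeg K (s27psi q hq) #T₀`.
-/
import Fermat.Agent.S27.DegTop
import Fermat.Agent.S27.DegFld
import Fermat.Agent.S27.DegGal
import Fermat.Agent.S27.DegGS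
import Fermat.Agent.S27.DegTrdeg
import Fermat.Agent.S27.Psi
import Fermat.Agent.S27.Top

set_option autoImplicit false
set_option linter.unusedVariables false
set_option linter.unusedSectionVars false
set_option linter.style.haveILetI false

noncomputable section

namespace Fermat.Agent.S27

open AlgebraicCurve Module

universe u v x y

section Final

variable {K : Type u} {F : Type v} [Field K] [IsAlgClosed K] [CharZero K] [Field F] [Algebra K F]
  {g : ℕ} {L : Type (max u v)} [Field L] [Algebra K L] [Algebra (s27gfOm K F g) L]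
  [IsScalarTower K (s27gfOm K F g) L] [IsAlgClosed L]
  [IsGalois (s27gfSym K F g) L]
  (x : F) (hx : Transcendental K x)
  (halg : ∀ u : F, IsAlgebraic (IntermediateField.adjoin K {x}) u)
  {Pl : Type x} {FL : Type y} [Field FL] [Algebra L FL]
  (pkg : S27DegPkg K F L x g Pl (Pic0 L FL))

/-- **DEG-FINAL.** -/
theorem s27dfin_isDeg (n : ℕ) (q : Fin g → F →ₐ[K] L) (hq : S27dgGeneric K x q)
    (hqpt : S27PsiPt q)
    (hDOM : (n : ℤ) • s27dgcCl pkg (s27dgcP (s27dflFld (K := K) (F := F) (g := g) L x hx halg))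
      = s27dgcCl pkg q)
    (hX1 : ∀ σ : s27gfSym K F g →ₐ[K] L, ∃ ê : L ≃ₐ[K] L,
      ∀ s : s27gfSym K F g, ê (algebraMap (s27gfOm K F g) L (s : s27gfOm K F g)) = σ s)
    (hfin : Module.Finite (s27psi q hqpt).fieldRange (s27gfSym K F g))
    {T₀ : Type*}
    (hA : Finite (Pic0.torsion L FL n) → Nat.card T₀ = Nat.card (Pic0.torsion L FL n)) :
    S27IsDeg K (s27psi q hqpt) (Nat.card T₀) ∧ Finite (Pic0.torsion L FL n) := by
  haveI := hfin
  have hX2 : ∀ ψ₁ ψ₂ : s27gfOm K F g →ₐ[K] L,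
      (∀ s : s27gfSym K F g, ψ₁ (s : s27gfOm K F g) = ψ₂ (s : s27gfOm K F g)) →
      ∃ π : Equiv.Perm (Fin g), ∀ y,
        ψ₂ y = ψ₁ ((s27dflFld (K := K) (F := F) (g := g) L x hx halg).perm π y) := by
    intro ψ₁ ψ₂ h
    obtain ⟨π, hπ⟩ := s27dgx_exists_perm ψ₁ ψ₂ (fun y hy => (h ⟨y, hy⟩).symm)
    exact ⟨π, fun y => hπ y⟩
  have hX3 : ∀ ψ₁ ψ₂ : s27gfOm K F g →ₐ[K] L,
      (∀ i u, ψ₁ ((s27dflFld (K := K) (F := F) (g := g) L x hx halg).ι i u)
        = ψ₂ ((s27dflFld (K := K) (F := F) (g := g) L x hx halg).ι i u)) → ψ₁ = ψ₂ :=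
    fun ψ₁ ψ₂ h => s27gfOm_hom_ext h
  have hGS := s27dgs_main.{u, v, max u v, x, y} s27dgt_main K F L x halg g Pl (Pic0 L FL) pkg n q hq
  have h := s27dgtop_main pkg (s27dflFld (K := K) (F := F) (g := g) L x hx halg) n q hq hDOM
    (s27psiT q hqpt.inj) (fun i u => s27psiT_iota q hqpt.inj i u)
    (s27psi q hqpt) (fun s => s27psi_spec_om q hqpt s) hX2 hX3 hX1 hGS hA
  exact ⟨⟨hfin, h.1⟩, h.2⟩

end Final

end Fermat.Agent.S27

end
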