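/-
S27, route B, piece DEG-B4e "PKG", part 1 (helper45): **divisors `R₁ + … + R_g` and their classes**.

General setting: `Ω / L` a field with the prelude's places, all of degree one (`hdeg`).

* `s27pkgSum R`   : the divisor `Σ_i R i` of a tuple `R : Fin g → Place L Ω`;
  `s27pkgSum_perm`, `s27pkgSum_degree`, `s27pkgSum_nonneg`;
* `s27pkg_exists_sum` : an effective divisor of degree `g` is a `s27pkgSum R`;
* `s27pkg_sum_eq`     : `Σ_i R i = Σ_i S i` ⇒ `R = S ∘ π` for a permutation `π`;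
* `s27pkgCl hdeg P₀ R : Pic0 L Ω` : the class of `Σ_i R i − g · P₀`;  `s27pkgCl_perm`;
* `s27pkgCl_eq`       : `cl R' = cl S` ⇒ `Σ R' = Σ S + div f`;
* `s27pkg_rr`         : (Riemann's inequality with genus `g`) every class is a `cl R`;
* `s27pkg_ns`         : if `L(Σ_i S i) = L` (constants) then `cl R' = cl S` ⇒ `R' = S ∘ π`.
-/
import Fermat.Prelude.Def_AlgebraicCurve_Repartitions
import Fermat.Agent.S24.PlaceBasic

set_option autoImplicit false
set_option linter.style.haveILetI false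
set_option linter.unusedSectionVars false
set_option linter.unusedVariables false

noncomputable section

namespace Fermat.Agent.S27

open AlgebraicCurve Module
open scoped Classical

variable {L Ω : Type*} [Field L] [Field Ω] [Algebra L Ω]

/-! ### Tuples of places and their divisors -/

/-- the divisor `Σ_i R i`. -/
def s27pkgSum {g : ℕ} (R : Fin g → Place L Ω) : Divisor L Ω :=
  ∑ i, Finsupp.single (R i) (1 : ℤ)

theorem s27pkgSum_perm {g : ℕ} (R : Fin g → Place L Ω) (π : Equiv.Perm (Fin g)) :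
    s27pkgSum (fun i => R (π i)) = s27pkgSum R :=
  Equiv.sum_comp π (fun i => Finsupp.single (R i) (1 : ℤ))

theorem s27pkgSum_apply {g : ℕ} (R : Fin g → Place L Ω) (v : Place L Ω) :
    s27pkgSum R v = ((Finset.univ.filter fun i => R i = v).card : ℤ) := by
  rw [s27pkgSum, Finsupp.finsetSum_apply]
  simp only [Finsupp.single_apply]
  rw [Finset.sum_boole]

theorem s27pkgSum_nonneg {g : ℕ} (R : Fin g → Place L Ω) (v : Place L Ω) :
    0 ≤ s27pkgSum R v := by
  rw [s27pkgSum_apply]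
  exact Int.natCast_nonneg _

theorem s27pkgSum_degree (hdeg : ∀ w : Place L Ω, w.deg = 1) {g : ℕ} (R : Fin g → Place L Ω) :
    Divisor.degree (s27pkgSum R) = g := by
  rw [s27pkgSum, map_sum]
  simp only [Divisor.degree_single, hdeg, Nat.cast_one, mul_one]
  rw [Finset.sum_const, Finset.card_univ, Fintype.card_fin]
  simp

theorem s27pkgSum_succ {g : ℕ} (v : Place L Ω) (R : Fin g → Place L Ω) :
    s27pkgSum (Fin.cons v R : Fin (g + 1) → Place L Ω) = Finsupp.single v 1 + s27pkgSum R := by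
  rw [s27pkgSum, Fin.sum_univ_succ]
  simp only [Fin.cons_zero, Fin.cons_succ]
  rfl

/-- the degree of a divisor is the sum of its values (all places of degree one). -/
theorem s27pkg_degree_eq_sum (hdeg : ∀ w : Place L Ω, w.deg = 1) (E : Divisor L Ω) :
    Divisor.degree E = E.sum fun _ n => n := by
  induction E using Finsupp.induction with
  | zero => simp
  | single_add v n E hv hn ih =>
      rw [map_add, ih, Divisor.degree_single, hdeg v, Nat.cast_one, mul_one,
        Finsupp.sum_add_index' (fun _ => rfl) (fun _ _ _ => rfl), Finsupp.sum_single_index rfl]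

/-- an effective divisor of degree `0` is `0`. -/
theorem s27pkg_eq_zero (hdeg : ∀ w : Place L Ω, w.deg = 1) (E : Divisor L Ω)
    (hE : ∀ v, 0 ≤ E v) (h0 : Divisor.degree E = 0) : E = 0 := by
  ext v
  rw [s27pkg_degree_eq_sum hdeg E, Finsupp.sum] at h0
  by_cases hv : v ∈ E.support
  · exact (Finset.sum_eq_zero_iff_of_nonneg (fun w _ => hE w)).mp h0 v hv
  · exact Finsupp.notMem_support_iff.mp hv

/-- **an effective divisor of degree `g` is a sum of `g` places.** -/
theorem s27pkg_exists_sum (hdeg : ∀ w : Place L Ω, w.deg = 1) :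
    ∀ (g : ℕ) (E : Divisor L Ω), (∀ v, 0 ≤ E v) → Divisor.degree E = g →
      ∃ R : Fin g → Place L Ω, s27pkgSum R = E := by
  intro g
  induction g with
  | zero =>
    intro E hE h0
    refine ⟨Fin.elim0, ?_⟩
    rw [s27pkg_eq_zero hdeg E hE (by simpa using h0)]
    simp [s27pkgSum]
  | succ g ih =>
    intro E hE hg
    have hne : E ≠ 0 := by
      rintro rfl
      rw [map_zero] at hg
      have : (0 : ℤ) = ((g + 1 : ℕ) : ℤ) := hg
      omega
    obtain ⟨v, hv⟩ : ∃ v, E v ≠ 0 := by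
      by_contra hcon
      exact hne (Finsupp.ext fun w => by
        by_contra hw
        exact hcon ⟨w, hw⟩)
    have hv1 : 1 ≤ E v := by
      have := hE v
      omega
    obtain ⟨R, hR⟩ := ih (E - Finsupp.single v 1)
      (fun w => by
        rw [Finsupp.sub_apply, Finsupp.single_apply]
        split_ifs with h
        · subst h; omega
        · have := hE w; omega)
      (by
        rw [map_sub, hg, Divisor.degree_single, hdeg v]
        push_cast
        ring)
    refine ⟨Fin.cons v R, ?_⟩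
    rw [s27pkgSum_succ, hR]
    abel

/-- **equal sums ⇒ equal up to a permutation.** -/
theorem s27pkg_sum_eq {g : ℕ} (R S : Fin g → Place L Ω) (h : s27pkgSum R = s27pkgSum S) :
    ∃ π : Equiv.Perm (Fin g), R = fun i => S (π i) := by
  have hcard : ∀ v : Place L Ω,
      Fintype.card {i : Fin g // R i = v} = Fintype.card {i : Fin g // S i = v} := by
    intro v
    have h1 := congrArg (fun D : Divisor L Ω => D v) h
    simp only [s27pkgSum_apply] at h1
    rw [Fintype.card_subtype, Fintype.card_subtype]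
    exact_mod_cast h1
  let e : ∀ v : Place L Ω, {i : Fin g // R i = v} ≃ {i : Fin g // S i = v} := fun v =>
    Fintype.equivOfCardEq (hcard v)
  let π : Equiv.Perm (Fin g) :=
    (Equiv.sigmaFiberEquiv R).symm.trans
      ((Equiv.sigmaCongrRight e).trans (Equiv.sigmaFiberEquiv S))
  refine ⟨π, funext fun i => ?_⟩
  have : π i = ((e (R i)) ⟨i, rfl⟩ : Fin g) := rfl
  rw [this]
  exact ((e (R i)) ⟨i, rfl⟩).2.symm

/-! ### The classes -/

/-- the divisor `Σ_i R i − g · P₀`. -/
def s27pkgDiv (P₀ : Place L Ω) {g : ℕ} (R : Fin g → Place L Ω) : Divisor L Ω :=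
  s27pkgSum R - Finsupp.single P₀ (g : ℤ)

theorem s27pkgDiv_degree (hdeg : ∀ w : Place L Ω, w.deg = 1) (P₀ : Place L Ω) {g : ℕ}
    (R : Fin g → Place L Ω) : Divisor.degree (s27pkgDiv P₀ R) = 0 := by
  rw [s27pkgDiv, map_sub, s27pkgSum_degree hdeg, Divisor.degree_single, hdeg P₀]
  simp

/-- the divisor `Σ_i R i − g · P₀`, of degree `0`. -/
def s27pkgDivZero (hdeg : ∀ w : Place L Ω, w.deg = 1) (P₀ : Place L Ω) {g : ℕ}
    (R : Fin g → Place L Ω) : Divisor.degZero (K := L) (F := Ω) :=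
  ⟨s27pkgDiv P₀ R, Divisor.mem_degZero.2 (s27pkgDiv_degree hdeg P₀ R)⟩

/-- **the class of `Σ_i R i − g · P₀`.** -/
def s27pkgCl (hdeg : ∀ w : Place L Ω, w.deg = 1) (P₀ : Place L Ω) {g : ℕ}
    (R : Fin g → Place L Ω) : Pic0 L Ω :=
  Pic0.mk (s27pkgDivZero hdeg P₀ R)

theorem s27pkgCl_perm (hdeg : ∀ w : Place L Ω, w.deg = 1) (P₀ : Place L Ω) {g : ℕ}
    (R : Fin g → Place L Ω) (π : Equiv.Perm (Fin g)) :
    s27pkgCl hdeg P₀ (fun i => R (π i)) = s27pkgCl hdeg P₀ R := by
  unfold s27pkgCl s27pkgDivZero s27pkgDiv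
  simp only [s27pkgSum_perm]

/-- equality in `Pic0`: the difference is principal. -/
theorem s27pkg_mk_eq_iff (D E : Divisor.degZero (K := L) (F := Ω)) :
    Pic0.mk D = Pic0.mk E ↔
      ∃ f : Ω, f ≠ 0 ∧ ∀ v : Place L Ω, (D : Divisor L Ω) v = (E : Divisor L Ω) v + v.ord f := by
  unfold Pic0.mk
  rw [QuotientAddGroup.eq, AddSubgroup.mem_addSubgroupOf]
  constructor
  · rintro ⟨f, hf, hfD⟩
    refine ⟨f⁻¹, inv_ne_zero hf, fun v => ?_⟩
    have := hfD v
    rw [AddSubgroup.coe_add, AddSubgroup.coe_neg, Finsupp.add_apply, Finsupp.neg_apply] at this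
    rw [Place.ord_inv]
    omega
  · rintro ⟨f, hf, hfD⟩
    refine ⟨f⁻¹, inv_ne_zero hf, fun v => ?_⟩
    rw [AddSubgroup.coe_add, AddSubgroup.coe_neg, Finsupp.add_apply, Finsupp.neg_apply,
      Place.ord_inv, hfD v]
    omega

theorem s27pkgCl_eq (hdeg : ∀ w : Place L Ω, w.deg = 1) (P₀ : Place L Ω) {g : ℕ}
    (R S : Fin g → Place L Ω) :
    s27pkgCl hdeg P₀ R = s27pkgCl hdeg P₀ S ↔
      ∃ f : Ω, f ≠ 0 ∧ ∀ v : Place L Ω, s27pkgSum R v = s27pkgSum S v + v.ord f := by
  unfold s27pkgCl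
  rw [s27pkg_mk_eq_iff]
  refine exists_congr fun f => and_congr_right fun _ => forall_congr' fun v => ?_
  show (s27pkgSum R - Finsupp.single P₀ (g : ℤ)) v
      = (s27pkgSum S - Finsupp.single P₀ (g : ℤ)) v + v.ord f ↔ _
  rw [Finsupp.sub_apply, Finsupp.sub_apply]
  constructor <;> intro h <;> omega

/-- **(RR)**: with Riemann's inequality for the genus `g`, every class of degree `0` is the class
of `Σ_i R i − g · P₀` for a tuple `R` of `g` places. -/
theorem s27pkg_rr (hdeg : ∀ w : Place L Ω, w.deg = 1) [HasPrincipalDivisors L Ω]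
    (P₀ : Place L Ω) (g : ℕ)
    (hR : ∀ Δ : Divisor L Ω, Divisor.degree Δ + 1 - g ≤ (finrank L ↥(riemannRochSpace Δ) : ℤ))
    (c : Pic0 L Ω) : ∃ R : Fin g → Place L Ω, s27pkgCl hdeg P₀ R = c := by
  obtain ⟨D, rfl⟩ := Pic0.mk_surjective c
  have hD0 : Divisor.degree (D : Divisor L Ω) = 0 := Divisor.mem_degZero.1 D.2
  set A : Divisor L Ω := (D : Divisor L Ω) + Finsupp.single P₀ (g : ℤ) with hA
  have hAdeg : Divisor.degree A = g := by
    rw [hA, map_add, hD0, Divisor.degree_single, hdeg P₀]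
    simp
  have h1 := hR A
  rw [hAdeg] at h1
  have h2 : 0 < finrank L ↥(riemannRochSpace A) := by
    have : (0 : ℤ) < (finrank L ↥(riemannRochSpace A) : ℤ) := by omega
    exact_mod_cast this
  haveI := Module.nontrivial_of_finrank_pos h2
  obtain ⟨⟨f, hf⟩, hf0⟩ := exists_ne (0 : ↥(riemannRochSpace A))
  have hfne : f ≠ 0 := fun h => hf0 (Subtype.ext h)
  obtain ⟨Df, hDf, hDf0⟩ := HasPrincipalDivisors.exists_divisor (K := L) f hfne
  have hE : ∀ v, 0 ≤ (Df + A) v := fun v => by
    rw [Finsupp.add_apply, hDf v]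
    rcases (mem_riemannRochSpace_iff.mp hf) v with h | h
    · exact absurd h hfne
    · linarith
  have hEdeg : Divisor.degree (Df + A) = g := by rw [map_add, hDf0, hAdeg, zero_add]
  obtain ⟨R, hRE⟩ := s27pkg_exists_sum hdeg g (Df + A) hE hEdeg
  refine ⟨R, ?_⟩
  unfold s27pkgCl
  rw [s27pkg_mk_eq_iff]
  refine ⟨f, hfne, fun v => ?_⟩
  show (s27pkgSum R - Finsupp.single P₀ (g : ℤ)) v = (D : Divisor L Ω) v + v.ord f
  rw [hRE, Finsupp.sub_apply, Finsupp.add_apply, hA, Finsupp.add_apply, hDf v]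
  ring

/-- **(NS)**: if `L(Σ_i S i)` consists of constants, then `Σ_i S i` is the only effective divisor
in its class: `cl R' = cl S` ⇒ `R' = S ∘ π`. -/
theorem s27pkg_ns (hdeg : ∀ w : Place L Ω, w.deg = 1) (P₀ : Place L Ω) {g : ℕ}
    (S : Fin g → Place L Ω)
    (hS : ∀ f ∈ riemannRochSpace (s27pkgSum S), ∃ c : L, f = algebraMap L Ω c)
    (R' : Fin g → Place L Ω) (h : s27pkgCl hdeg P₀ R' = s27pkgCl hdeg P₀ S) :
    ∃ π : Equiv.Perm (Fin g), R' = fun i => S (π i) := by
  obtain ⟨f, hf, hfv⟩ := (s27pkgCl_eq hdeg P₀ R' S).1 h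
  have hmem : f ∈ riemannRochSpace (s27pkgSum S) := by
    rw [mem_riemannRochSpace_iff]
    intro v
    right
    have := s27pkgSum_nonneg R' v
    rw [hfv v] at this
    linarith
  obtain ⟨c, rfl⟩ := hS f hmem
  have hsum : s27pkgSum R' = s27pkgSum S := by
    ext v
    rw [hfv v, Fermat.Agent.S24.PlaceAux.ord_algebraMap, add_zero]
  exact s27pkg_sum_eq R' S hsum

end Fermat.Agent.S27

end
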