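/-
S27-B, base piece (helper96), part 2: the GENERIC-POINT PLACE `P_ι` of `Ω = Frac (𝔠 ⊗[K] 𝔎)`
over `𝔎`, for an embedding `ι : 𝔠 →ₐ[K] 𝔎`.

Hypotheses: `hld`, `hgen` (S26/ERRGaussPlace.lean), `x ∈ 𝔠` transcendental over `K`,
`𝔠 / K(x)` finite separable.

* `S27gpDom ι V` : the valuation subring `V` of `Ω` is centred at the generic point `ι`
  (`V ⊇ μ(𝔠 ⊗ 𝔎)` and `μ (ker ev) ⊆ 𝔪_V`);
* `s27gp_exists_dom` : such a `V` exists;  `s27gp_dom_unique` : it is unique;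
* `s27gpPlace` : the place `P_ι`;  `s27gpPlace_dom`;
* `s27gpPlace_ord_unif` : `ord (x - ι x) = 1`;
* `s27gpPlace_ord_mu_pos_iff` : `0 < ord (μ A) ↔ ev A = 0`;
* `s27gpPlace_ord_algebraMap` : `ord u = 0` for `0 ≠ u ∈ 𝔠`;
* `s27gpPlace_residue` : every element of the valuation ring is congruent to a constant;
  `s27gpPlace_residue_surjective`, `s27gpPlace_deg : deg P_ι = 1`;
* `s27gpPlace_unique` : a place centred at `ι` is `P_ι`.
-/
import Fermat.Agent.S27.GenPlace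
import Fermat.Agent.S26.ERRGaussFin
import Fermat.Agent.S26.ERR2a

set_option autoImplicit false
set_option linter.style.haveILetI false
set_option linter.unusedSectionVars false
set_option linter.unusedVariables false

noncomputable section

namespace Fermat.Agent.S27

open AlgebraicCurve TensorProduct IsLocalRing Polynomial IntermediateField Fermat.Agent.S26
  Fermat.Agent.S24

variable {K 𝔠 𝔎 Ω : Type*} [Field K] [Field 𝔠] [Field 𝔎] [Field Ω]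
  [Algebra K 𝔠] [Algebra K 𝔎] [Algebra K Ω] [Algebra 𝔠 Ω] [Algebra 𝔎 Ω]
  [IsScalarTower K 𝔠 Ω] [IsScalarTower K 𝔎 Ω]

/-- the valuation subring `V` of `Ω` is centred at the generic point `ι`. -/
def S27gpDom (ι : 𝔠 →ₐ[K] 𝔎) (V : ValuationSubring Ω) : Prop :=
  (∀ A : 𝔠 ⊗[K] 𝔎, s26gspMu K 𝔠 𝔎 Ω A ∈ V) ∧
    ∀ A : 𝔠 ⊗[K] 𝔎, s27gpEv ι A = 0 → s26gspMu K 𝔠 𝔎 Ω A ∈ V.nonunits

theorem s27gp_mu_one_tmul (c : 𝔎) :
    s26gspMu K 𝔠 𝔎 Ω ((1 : 𝔠) ⊗ₜ[K] c) = algebraMap 𝔎 Ω c := by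
  rw [s26gspMu_tmul, map_one, one_mul]

theorem s27gp_mu_tmul_one (u : 𝔠) :
    s26gspMu K 𝔠 𝔎 Ω (u ⊗ₜ[K] (1 : 𝔎)) = algebraMap 𝔠 Ω u := by
  rw [s26gspMu_tmul, map_one, mul_one]

theorem s27gp_mu_eta (ι : 𝔠 →ₐ[K] 𝔎) (u : 𝔠) :
    s26gspMu K 𝔠 𝔎 Ω (s27gpEta ι u) = algebraMap 𝔠 Ω u - algebraMap 𝔎 Ω (ι u) := by
  rw [s27gpEta, map_sub, s27gp_mu_one_tmul, s27gp_mu_tmul_one]

/-- **existence** of a valuation subring centred at the generic point. -/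
theorem s27gp_exists_dom (hld : Function.Injective (s26gspMu K 𝔠 𝔎 Ω)) (ι : 𝔠 →ₐ[K] 𝔎) :
    ∃ V : ValuationSubring Ω, S27gpDom ι V := by
  let μ : 𝔠 ⊗[K] 𝔎 →+* Ω := (s26gspMu K 𝔠 𝔎 Ω : 𝔠 ⊗[K] 𝔎 →+* Ω)
  let f : 𝔠 ⊗[K] 𝔎 →+* ↥μ.range := μ.rangeRestrict
  have hf : Function.Surjective f := μ.rangeRestrict_surjective
  let I : Ideal ↥μ.range := Ideal.map f (RingHom.ker (s27gpEv ι : 𝔠 ⊗[K] 𝔎 →+* 𝔎))
  have hI : I ≠ ⊤ := by
    intro h
    have h1 : (1 : ↥μ.range) ∈ I := by rw [h]; trivial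
    obtain ⟨t, ht, hft⟩ := (Ideal.mem_map_iff_of_surjective f hf).1 h1
    have h2 : μ t = μ 1 := by
      have := congrArg Subtype.val hft
      simpa [f] using this
    have h3 : t = 1 := hld h2
    rw [h3, RingHom.mem_ker] at ht
    simp at ht
  obtain ⟨B, hB1, hB2⟩ := Ideal.image_subset_nonunits_valuationSubring I hI
  refine ⟨B, fun A => hB1 ⟨A, rfl⟩, fun A hA => hB2 ⟨f A, ?_, rfl⟩⟩
  exact Ideal.mem_map_of_mem f (by rw [RingHom.mem_ker]; exact hA)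

section Dom

variable {ι : 𝔠 →ₐ[K] 𝔎} {V : ValuationSubring Ω} (hV : S27gpDom (Ω := Ω) ι V)

include hV

theorem s27gp_dom_algebraMap_mem (c : 𝔎) : algebraMap 𝔎 Ω c ∈ V := by
  rw [← s27gp_mu_one_tmul (K := K) (𝔠 := 𝔠)]
  exact hV.1 _

theorem s27gp_dom_val_algebraMap {c : 𝔎} (hc : c ≠ 0) : V.valuation (algebraMap 𝔎 Ω c) = 1 := by
  have h1 : V.valuation (algebraMap 𝔎 Ω c) ≤ 1 :=
    (V.valuation_le_one_iff _).2 (s27gp_dom_algebraMap_mem hV c)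
  have h2 : V.valuation (algebraMap 𝔎 Ω c⁻¹) ≤ 1 :=
    (V.valuation_le_one_iff _).2 (s27gp_dom_algebraMap_mem hV c⁻¹)
  rw [map_inv₀, map_inv₀] at h2
  have h0 : V.valuation (algebraMap 𝔎 Ω c) ≠ 0 := by
    rw [Ne, map_eq_zero]
    simpa using hc
  refine le_antisymm h1 ?_
  rwa [inv_le_one₀ (zero_lt_iff.2 h0)] at h2

/-- `μ A` is a unit of `V` if `ev A ≠ 0`. -/
theorem s27gp_dom_val_eq_one {A : 𝔠 ⊗[K] 𝔎} (hA : s27gpEv ι A ≠ 0) :
    V.valuation (s26gspMu K 𝔠 𝔎 Ω A) = 1 := by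
  have h1 : s27gpEv ι (A - (1 : 𝔠) ⊗ₜ[K] s27gpEv ι A) = 0 := by
    rw [map_sub, s27gpEv_tmul, map_one, one_mul, sub_self]
  have h2 := (ValuationSubring.mem_nonunits_iff (A := V)).1 (hV.2 _ h1)
  have h3 : s26gspMu K 𝔠 𝔎 Ω A =
      algebraMap 𝔎 Ω (s27gpEv ι A) + s26gspMu K 𝔠 𝔎 Ω (A - (1 : 𝔠) ⊗ₜ[K] s27gpEv ι A) := by
    rw [map_sub, s27gp_mu_one_tmul]
    ring
  rw [h3, Valuation.map_add_eq_of_lt_left, s27gp_dom_val_algebraMap hV hA]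
  rw [s27gp_dom_val_algebraMap hV hA]
  exact h2

theorem s27gp_dom_val_lt_one {A : 𝔠 ⊗[K] 𝔎} (hA : s27gpEv ι A = 0) :
    V.valuation (s26gspMu K 𝔠 𝔎 Ω A) < 1 :=
  (ValuationSubring.mem_nonunits_iff (A := V)).1 (hV.2 _ hA)

theorem s27gp_dom_ne_top (hld : Function.Injective (s26gspMu K 𝔠 𝔎 Ω)) {x : 𝔠}
    (hx : Transcendental K x) : V ≠ ⊤ := by
  intro h
  have h1 := s27gp_dom_val_lt_one hV (s27gpEv_eta ι x)
  rw [h] at h1
  have h2 : s26gspMu K 𝔠 𝔎 Ω (s27gpEta ι x) ≠ 0 := by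
    rw [s27gp_mu_eta, sub_ne_zero]
    intro h3
    obtain ⟨a, ha⟩ := s26gspc_hΓL hld x (ι x) h3
    exact hx (ha ▸ isAlgebraic_algebraMap a)
  have h4 : (⊤ : ValuationSubring Ω).valuation (s26gspMu K 𝔠 𝔎 Ω (s27gpEta ι x)) = 1 := by
    have h5 : (⊤ : ValuationSubring Ω).valuation (s26gspMu K 𝔠 𝔎 Ω (s27gpEta ι x)) ≤ 1 :=
      ((⊤ : ValuationSubring Ω).valuation_le_one_iff _).2 (ValuationSubring.mem_top _)
    have h6 : (⊤ : ValuationSubring Ω).valuation (s26gspMu K 𝔠 𝔎 Ω (s27gpEta ι x))⁻¹ ≤ 1 :=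
      ((⊤ : ValuationSubring Ω).valuation_le_one_iff _).2 (ValuationSubring.mem_top _)
    rw [map_inv₀] at h6
    have h0 : (⊤ : ValuationSubring Ω).valuation (s26gspMu K 𝔠 𝔎 Ω (s27gpEta ι x)) ≠ 0 := by
      rw [Ne, map_eq_zero]
      exact h2
    refine le_antisymm h5 ?_
    rwa [inv_le_one₀ (zero_lt_iff.2 h0)] at h6
  rw [h4] at h1
  exact lt_irrefl _ h1

end Dom

/-! ### Places centred at the generic point -/

section Place

variable (hld : Function.Injective (s26gspMu K 𝔠 𝔎 Ω)) (hgen : S26gspGen K 𝔠 𝔎 Ω)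
  {ι : 𝔠 →ₐ[K] 𝔎} (P : Place 𝔎 Ω) (hP : S27gpDom (Ω := Ω) ι P.toValuationSubring)

include hld in
theorem s27gp_mu_ne_zero {A : 𝔠 ⊗[K] 𝔎} (hA : A ≠ 0) : s26gspMu K 𝔠 𝔎 Ω A ≠ 0 := by
  intro h
  apply hA
  apply hld
  rw [h, map_zero]

include hP in
theorem s27gp_mu_ne_zero' {A : 𝔠 ⊗[K] 𝔎} (hA : s27gpEv ι A ≠ 0) :
    s26gspMu K 𝔠 𝔎 Ω A ≠ 0 := by
  intro h
  have h1 := s27gp_dom_val_eq_one hP hA
  rw [h, map_zero] at h1
  exact zero_ne_one h1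

include hP in
theorem s27gp_inv_mem {A : 𝔠 ⊗[K] 𝔎} (hA : s27gpEv ι A ≠ 0) :
    (s26gspMu K 𝔠 𝔎 Ω A)⁻¹ ∈ P.toValuationSubring := by
  rw [← ValuationSubring.valuation_le_one_iff, map_inv₀, s27gp_dom_val_eq_one hP hA, inv_one]

include hP in
/-- `ord (μ A) = 0` if `ev A ≠ 0`. -/
theorem s27gp_ord_mu_eq_zero {A : 𝔠 ⊗[K] 𝔎} (hA : s27gpEv ι A ≠ 0) :
    P.ord (s26gspMu K 𝔠 𝔎 Ω A) = 0 := by
  have h0 := s27gp_mu_ne_zero' P hP hA
  have h1 : 0 ≤ P.ord (s26gspMu K 𝔠 𝔎 Ω A) := (PlaceAux.ord_nonneg_iff P h0).2 (hP.1 A)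
  have h2 : 0 ≤ P.ord (s26gspMu K 𝔠 𝔎 Ω A)⁻¹ :=
    (PlaceAux.ord_nonneg_iff P (inv_ne_zero h0)).2 (s27gp_inv_mem P hP hA)
  rw [Place.ord_inv] at h2
  omega

include hld hP in
/-- `0 < ord (μ A)` if `ev A = 0`, `A ≠ 0`. -/
theorem s27gp_ord_mu_pos {A : 𝔠 ⊗[K] 𝔎} (hA0 : A ≠ 0) (hA : s27gpEv ι A = 0) :
    0 < P.ord (s26gspMu K 𝔠 𝔎 Ω A) :=
  (PlaceAux.ord_pos_iff_mem_nonunits P (s27gp_mu_ne_zero hld hA0)).2 (hP.2 A hA)

include hld in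
theorem s27gpEta_ne_zero {x : 𝔠} (hx : Transcendental K x) (ι : 𝔠 →ₐ[K] 𝔎) :
    s27gpEta ι x ≠ 0 := by
  intro h
  have h1 : s26gspMu K 𝔠 𝔎 Ω (s27gpEta ι x) = 0 := by rw [h, map_zero]
  rw [s27gp_mu_eta, sub_eq_zero] at h1
  obtain ⟨a, ha⟩ := s26gspc_hΓL hld x (ι x) h1
  exact hx (ha ▸ isAlgebraic_algebraMap a)

variable {x : 𝔠} (hx : Transcendental K x)
  [Algebra.IsSeparable ↥(IntermediateField.adjoin K {x}) 𝔠]

include hld hP hx in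
/-- **normal form in `T`**: `B * A = η_x ^ k * C` with `ev B ≠ 0`, `ev C ≠ 0`. -/
theorem s27gp_nf (n : ℕ) : ∀ A : 𝔠 ⊗[K] 𝔎, A ≠ 0 → P.ord (s26gspMu K 𝔠 𝔎 Ω A) ≤ n →
    ∃ (k : ℕ) (B C : 𝔠 ⊗[K] 𝔎), s27gpEv ι B ≠ 0 ∧ s27gpEv ι C ≠ 0 ∧
      B * A = s27gpEta ι x ^ k * C := by
  induction n with
  | zero =>
    intro A hA hle
    have h : s27gpEv ι A ≠ 0 := by
      intro h
      have := s27gp_ord_mu_pos hld P hP hA h
      omega
    exact ⟨0, 1, A, by simp, h, by simp⟩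
  | succ n ih =>
    intro A hA hle
    by_cases h : s27gpEv ι A = 0
    · obtain ⟨B₁, C₁, hB₁, h₁⟩ := s27gp_ker_locally_principal ι x h
      have hμB₁ := s27gp_mu_ne_zero' P hP hB₁
      have hμA := s27gp_mu_ne_zero hld hA
      have hC₁ : C₁ ≠ 0 := by
        intro h0
        rw [h0, mul_zero] at h₁
        have := congrArg (s26gspMu K 𝔠 𝔎 Ω) h₁
        rw [map_mul, map_zero] at this
        exact (mul_ne_zero hμB₁ hμA) this
      have hμC₁ := s27gp_mu_ne_zero hld hC₁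
      have hη := s27gpEta_ne_zero hld hx ι
      have hμη := s27gp_mu_ne_zero hld hη
      have e := congrArg (fun z => P.ord (s26gspMu K 𝔠 𝔎 Ω z)) h₁
      simp only [map_mul] at e
      rw [P.ord_mul hμB₁ hμA, P.ord_mul hμη hμC₁, s27gp_ord_mu_eq_zero P hP hB₁] at e
      have hpos := s27gp_ord_mu_pos hld P hP hη (s27gpEv_eta ι x)
      obtain ⟨k, B₂, C₂, hB₂, hC₂, h₂⟩ := ih C₁ hC₁ (by omega)
      refine ⟨k + 1, B₁ * B₂, C₂, by rw [map_mul]; exact mul_ne_zero hB₁ hB₂, hC₂, ?_⟩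
      rw [pow_succ]
      linear_combination B₂ * h₁ + s27gpEta ι x * h₂
    · exact ⟨0, 1, A, by simp, h, by simp⟩

include hld hgen hP hx in
/-- **normal form in `Ω`**: `f * μ M = π ^ k * μ N` with `ev M ≠ 0`, `ev N ≠ 0`,
`π = x - ι x`. -/
theorem s27gp_nfΩ {f : Ω} (hf : f ≠ 0) :
    ∃ (k : ℤ) (N M : 𝔠 ⊗[K] 𝔎), s27gpEv ι N ≠ 0 ∧ s27gpEv ι M ≠ 0 ∧
      f * s26gspMu K 𝔠 𝔎 Ω M =
        s26gspMu K 𝔠 𝔎 Ω (s27gpEta ι x) ^ k * s26gspMu K 𝔠 𝔎 Ω N := by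
  obtain ⟨A, B, hB, hAB⟩ := hgen f
  have hA : A ≠ 0 := by
    rintro rfl
    rw [map_zero] at hAB
    exact (mul_ne_zero hf hB) hAB
  have hB0 : B ≠ 0 := by
    rintro rfl
    exact hB (map_zero _)
  have hμA := s27gp_mu_ne_zero hld hA
  have hordA : 0 ≤ P.ord (s26gspMu K 𝔠 𝔎 Ω A) := (PlaceAux.ord_nonneg_iff P hμA).2 (hP.1 A)
  have hordB : 0 ≤ P.ord (s26gspMu K 𝔠 𝔎 Ω B) := (PlaceAux.ord_nonneg_iff P hB).2 (hP.1 B)
  obtain ⟨a, BA, CA, hBA, hCA, hA'⟩ := s27gp_nf hld P hP hx (P.ord (s26gspMu K 𝔠 𝔎 Ω A)).toNat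
    A hA (by omega)
  obtain ⟨b, BB, CB, hBB, hCB, hB'⟩ := s27gp_nf hld P hP hx (P.ord (s26gspMu K 𝔠 𝔎 Ω B)).toNat
    B hB0 (by omega)
  have hπ := s27gp_mu_ne_zero hld (s27gpEta_ne_zero hld hx ι)
  refine ⟨(a : ℤ) - b, CA * BB, BA * CB, by rw [map_mul]; exact mul_ne_zero hCA hBB,
    by rw [map_mul]; exact mul_ne_zero hBA hCB, ?_⟩
  have eA := congrArg (s26gspMu K 𝔠 𝔎 Ω) hA'
  have eB := congrArg (s26gspMu K 𝔠 𝔎 Ω) hB'
  simp only [map_mul, map_pow] at eA eB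
  rw [zpow_sub₀ hπ, zpow_natCast, zpow_natCast, map_mul, map_mul]
  field_simp
  linear_combination (-f * s26gspMu K 𝔠 𝔎 Ω BA) * eB +
    (s26gspMu K 𝔠 𝔎 Ω BA * s26gspMu K 𝔠 𝔎 Ω BB) * hAB + s26gspMu K 𝔠 𝔎 Ω BB * eA

include hld hgen hP hx in
/-- `ord f = k * ord π` in the normal form. -/
theorem s27gp_ord_eq_mul {f : Ω} {k : ℤ} {N M : 𝔠 ⊗[K] 𝔎} (hN : s27gpEv ι N ≠ 0)
    (hM : s27gpEv ι M ≠ 0)
    (h : f * s26gspMu K 𝔠 𝔎 Ω M =
      s26gspMu K 𝔠 𝔎 Ω (s27gpEta ι x) ^ k * s26gspMu K 𝔠 𝔎 Ω N) (hf : f ≠ 0) :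
    P.ord f = k * P.ord (s26gspMu K 𝔠 𝔎 Ω (s27gpEta ι x)) := by
  have hπ := s27gp_mu_ne_zero hld (s27gpEta_ne_zero hld hx ι)
  have e := congrArg P.ord h
  rw [P.ord_mul hf (s27gp_mu_ne_zero' P hP hM), P.ord_mul (zpow_ne_zero k hπ)
    (s27gp_mu_ne_zero' P hP hN), s27gp_ord_mu_eq_zero P hP hM, s27gp_ord_mu_eq_zero P hP hN,
    P.ord_zpow] at e
  omega

include hld hgen hP hx in
/-- **`ord (x - ι x) = 1`**: `x - ι x` is a uniformizer at the generic point. -/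
theorem s27gp_ord_unif : P.ord (algebraMap 𝔠 Ω x - algebraMap 𝔎 Ω (ι x)) = 1 := by
  rw [← s27gp_mu_eta]
  have hpos := s27gp_ord_mu_pos hld P hP (s27gpEta_ne_zero hld hx ι) (s27gpEv_eta ι x)
  obtain ⟨ϖ, hϖ0, hϖ⟩ := s26err_exists_unif P
  obtain ⟨k, N, M, hN, hM, h⟩ := s27gp_nfΩ hld hgen P hP hx hϖ0
  have e := s27gp_ord_eq_mul hld hgen P hP hx hN hM h hϖ0
  rw [hϖ] at e
  have hdvd : P.ord (s26gspMu K 𝔠 𝔎 Ω (s27gpEta ι x)) ∣ 1 := Dvd.intro_left k e.symm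
  have hle := Int.le_of_dvd one_pos hdvd
  omega

include hld hgen hP hx in
/-- the normal form with `k = ord f`. -/
theorem s27gp_nf_ord {f : Ω} (hf : f ≠ 0) :
    ∃ N M : 𝔠 ⊗[K] 𝔎, s27gpEv ι N ≠ 0 ∧ s27gpEv ι M ≠ 0 ∧
      f * s26gspMu K 𝔠 𝔎 Ω M =
        s26gspMu K 𝔠 𝔎 Ω (s27gpEta ι x) ^ (P.ord f) * s26gspMu K 𝔠 𝔎 Ω N := by
  obtain ⟨k, N, M, hN, hM, h⟩ := s27gp_nfΩ hld hgen P hP hx hf
  have e := s27gp_ord_eq_mul hld hgen P hP hx hN hM h hf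
  have h1 := s27gp_ord_unif hld hgen P hP hx
  rw [← s27gp_mu_eta] at h1
  rw [h1, mul_one] at e
  exact ⟨N, M, hN, hM, by rw [e]; exact h⟩

include hld hgen hP hx in
/-- **the residue field at the generic point is `𝔎`**: every element of the valuation ring is
congruent to a constant. -/
theorem s27gp_residue {f : Ω} (hf : f ∈ P.toValuationSubring) :
    ∃ c : 𝔎, f - algebraMap 𝔎 Ω c ∈ P.toValuationSubring.nonunits := by
  rcases eq_or_ne f 0 with rfl | hf0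
  · refine ⟨0, ?_⟩
    rw [map_zero, sub_zero, ValuationSubring.mem_nonunits_iff, map_zero]
    exact zero_lt_one
  obtain ⟨N, M, hN, hM, h⟩ := s27gp_nf_ord hld hgen P hP hx hf0
  have hord : 0 ≤ P.ord f := (PlaceAux.ord_nonneg_iff P hf0).2 hf
  rcases hord.eq_or_lt with h0 | hpos
  · rw [← h0, zpow_zero, one_mul] at h
    refine ⟨s27gpEv ι N / s27gpEv ι M, ?_⟩
    have hev : s27gpEv ι (N - ((1 : 𝔠) ⊗ₜ[K] (s27gpEv ι N / s27gpEv ι M)) * M) = 0 := by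
      rw [map_sub, map_mul, s27gpEv_tmul, map_one, one_mul, div_mul_cancel₀ _ hM, sub_self]
    have h1 := s27gp_dom_val_lt_one hP hev
    have h2 : (f - algebraMap 𝔎 Ω (s27gpEv ι N / s27gpEv ι M)) * s26gspMu K 𝔠 𝔎 Ω M =
        s26gspMu K 𝔠 𝔎 Ω (N - ((1 : 𝔠) ⊗ₜ[K] (s27gpEv ι N / s27gpEv ι M)) * M) := by
      rw [map_sub, map_mul, s27gp_mu_one_tmul, sub_mul, h]
    rw [ValuationSubring.mem_nonunits_iff]
    have h3 := congrArg P.toValuationSubring.valuation h2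
    rw [map_mul, s27gp_dom_val_eq_one hP hM, mul_one] at h3
    rw [h3]
    exact h1
  · exact ⟨0, by rw [map_zero, sub_zero]; exact (PlaceAux.ord_pos_iff_mem_nonunits P hf0).1 hpos⟩

include hld hgen hP hx in
theorem s27gp_residue_surjective : Function.Surjective (algebraMap 𝔎 P.ResidueField) := by
  intro y
  obtain ⟨f, rfl⟩ := IsLocalRing.residue_surjective y
  obtain ⟨c, hc⟩ := s27gp_residue hld hgen P hP hx f.2
  refine ⟨c, ?_⟩
  have hmem : f - algebraMap 𝔎 ↥P.toValuationSubring c ∈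
      maximalIdeal ↥P.toValuationSubring := by
    rw [← ValuationSubring.coe_mem_nonunits_iff]
    exact hc
  have h1 := (residue_eq_zero_iff _).2 hmem
  rw [map_sub, sub_eq_zero] at h1
  rw [h1]
  rfl

include hld hgen hP hx in
/-- **`deg P = 1`** for a place centred at the generic point. -/
theorem s27gp_deg : P.deg = 1 :=
  s26gspc_deg_eq_one P (s27gp_residue_surjective hld hgen P hP hx)

include hld hgen hP hx in
/-- **uniqueness**: two places centred at the generic point coincide. -/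
theorem s27gp_le (P' : Place 𝔎 Ω) (hP' : S27gpDom (Ω := Ω) ι P'.toValuationSubring) :
    P.toValuationSubring ≤ P'.toValuationSubring := by
  intro f hf
  rcases eq_or_ne f 0 with rfl | hf0
  · exact zero_mem _
  obtain ⟨N, M, hN, hM, h⟩ := s27gp_nf_ord hld hgen P hP hx hf0
  have hord : 0 ≤ P.ord f := (PlaceAux.ord_nonneg_iff P hf0).2 hf
  obtain ⟨n, hn⟩ := Int.eq_ofNat_of_zero_le hord
  rw [hn, zpow_natCast] at h
  have hM0 := s27gp_mu_ne_zero' P hP hM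
  have e : f = s26gspMu K 𝔠 𝔎 Ω (s27gpEta ι x) ^ n * s26gspMu K 𝔠 𝔎 Ω N *
      (s26gspMu K 𝔠 𝔎 Ω M)⁻¹ := by
    rw [← h]
    field_simp
  rw [e]
  exact mul_mem (mul_mem (pow_mem (hP'.1 _) n) (hP'.1 _)) (s27gp_inv_mem P' hP' hM)

include hld hgen hP hx in
theorem s27gp_unique (P' : Place 𝔎 Ω) (hP' : S27gpDom (Ω := Ω) ι P'.toValuationSubring) :
    P = P' :=
  Place.ext (le_antisymm (s27gp_le hld hgen P hP hx P' hP') (s27gp_le hld hgen P' hP' hx P hP))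

end Place

/-! ### The generic-point place -/

section Def

variable (hld : Function.Injective (s26gspMu K 𝔠 𝔎 Ω)) (hgen : S26gspGen K 𝔠 𝔎 Ω)
  (ι : 𝔠 →ₐ[K] 𝔎) {x : 𝔠} (hx : Transcendental K x)
  [FiniteDimensional ↥(IntermediateField.adjoin K {x}) 𝔠]
  [Algebra.IsSeparable ↥(IntermediateField.adjoin K {x}) 𝔠]

/-- **the generic-point place** `P_ι` of `Ω = Frac (𝔠 ⊗[K] 𝔎)` over `𝔎`. -/
def s27gpPlace : Place 𝔎 Ω :=
  haveI := s26gspf_finiteDimensional (𝔎 := 𝔎) (Ω := Ω) hgen x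
  s26errPlaceOf (Classical.choose (s27gp_exists_dom hld ι))
    (s27gp_dom_algebraMap_mem (Classical.choose_spec (s27gp_exists_dom hld ι)))
    (s27gp_dom_ne_top (Classical.choose_spec (s27gp_exists_dom hld ι)) hld hx)
    (algebraMap 𝔠 Ω x) (s26gspc_transcendental hld hx)

/-- `P_ι` is centred at the generic point. -/
theorem s27gpPlace_dom : S27gpDom ι (s27gpPlace hld hgen ι hx).toValuationSubring :=
  Classical.choose_spec (s27gp_exists_dom hld ι)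

theorem s27gpPlace_mu_mem (A : 𝔠 ⊗[K] 𝔎) :
    s26gspMu K 𝔠 𝔎 Ω A ∈ (s27gpPlace hld hgen ι hx).toValuationSubring :=
  (s27gpPlace_dom hld hgen ι hx).1 A

/-- **uniqueness** of the place centred at the generic point. -/
theorem s27gpPlace_unique (P : Place 𝔎 Ω) (hP : S27gpDom (Ω := Ω) ι P.toValuationSubring) :
    P = s27gpPlace hld hgen ι hx :=
  s27gp_unique hld hgen P hP hx _ (s27gpPlace_dom hld hgen ι hx)

/-- **`x - ι x` is a uniformizer** at `P_ι`. -/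
theorem s27gpPlace_ord_unif :
    (s27gpPlace hld hgen ι hx).ord (algebraMap 𝔠 Ω x - algebraMap 𝔎 Ω (ι x)) = 1 :=
  s27gp_ord_unif hld hgen _ (s27gpPlace_dom hld hgen ι hx) hx

theorem s27gpPlace_ord_mu_eq_zero {A : 𝔠 ⊗[K] 𝔎} (hA : s27gpEv ι A ≠ 0) :
    (s27gpPlace hld hgen ι hx).ord (s26gspMu K 𝔠 𝔎 Ω A) = 0 :=
  s27gp_ord_mu_eq_zero _ (s27gpPlace_dom hld hgen ι hx) hA

/-- `0 < ord (μ A) ↔ ev A = 0`. -/
theorem s27gpPlace_ord_mu_pos_iff {A : 𝔠 ⊗[K] 𝔎} (hA : A ≠ 0) :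
    0 < (s27gpPlace hld hgen ι hx).ord (s26gspMu K 𝔠 𝔎 Ω A) ↔ s27gpEv ι A = 0 := by
  constructor
  · intro h
    by_contra h0
    rw [s27gpPlace_ord_mu_eq_zero hld hgen ι hx h0] at h
    exact lt_irrefl _ h
  · exact fun h => s27gp_ord_mu_pos hld _ (s27gpPlace_dom hld hgen ι hx) hA h

/-- `P_ι` is trivial on `𝔠`. -/
theorem s27gpPlace_ord_algebraMap {u : 𝔠} (hu : u ≠ 0) :
    (s27gpPlace hld hgen ι hx).ord (algebraMap 𝔠 Ω u) = 0 := by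
  rw [← s27gp_mu_tmul_one (K := K) (𝔎 := 𝔎)]
  refine s27gpPlace_ord_mu_eq_zero hld hgen ι hx ?_
  rw [s27gpEv_tmul, mul_one, Ne, map_eq_zero_iff ι ι.toRingHom.injective]
  exact hu

/-- every element of the valuation ring of `P_ι` is congruent to a constant. -/
theorem s27gpPlace_residue {f : Ω} (hf : f ∈ (s27gpPlace hld hgen ι hx).toValuationSubring) :
    ∃ c : 𝔎, f - algebraMap 𝔎 Ω c ∈ (s27gpPlace hld hgen ι hx).toValuationSubring.nonunits :=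
  s27gp_residue hld hgen _ (s27gpPlace_dom hld hgen ι hx) hx hf

theorem s27gpPlace_residue_surjective :
    Function.Surjective (algebraMap 𝔎 (s27gpPlace hld hgen ι hx).ResidueField) :=
  s27gp_residue_surjective hld hgen _ (s27gpPlace_dom hld hgen ι hx) hx

/-- **`deg P_ι = 1`**. -/
theorem s27gpPlace_deg : (s27gpPlace hld hgen ι hx).deg = 1 :=
  s27gp_deg hld hgen _ (s27gpPlace_dom hld hgen ι hx) hx

/-- the value at `P_ι` of a quotient `μ A / μ B` with `ev B ≠ 0` is `ev A / ev B`. -/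
theorem s27gpPlace_eval {f : Ω} {A B : 𝔠 ⊗[K] 𝔎} (hB : s27gpEv ι B ≠ 0)
    (h : f * s26gspMu K 𝔠 𝔎 Ω B = s26gspMu K 𝔠 𝔎 Ω A) :
    f ∈ (s27gpPlace hld hgen ι hx).toValuationSubring ∧
      f - algebraMap 𝔎 Ω (s27gpEv ι A / s27gpEv ι B) ∈
        (s27gpPlace hld hgen ι hx).toValuationSubring.nonunits := by
  have hP := s27gpPlace_dom (Ω := Ω) hld hgen ι hx
  have hB0 := s27gp_mu_ne_zero' _ hP hB
  have hvB := s27gp_dom_val_eq_one hP hB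
  constructor
  · rw [← ValuationSubring.valuation_le_one_iff]
    have h1 := congrArg (s27gpPlace hld hgen ι hx).toValuationSubring.valuation h
    rw [map_mul, hvB, mul_one] at h1
    rw [h1, ValuationSubring.valuation_le_one_iff]
    exact hP.1 A
  · have hev : s27gpEv ι (A - ((1 : 𝔠) ⊗ₜ[K] (s27gpEv ι A / s27gpEv ι B)) * B) = 0 := by
      rw [map_sub, map_mul, s27gpEv_tmul, map_one, one_mul, div_mul_cancel₀ _ hB, sub_self]
    have h1 := s27gp_dom_val_lt_one hP hev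
    have h2 : (f - algebraMap 𝔎 Ω (s27gpEv ι A / s27gpEv ι B)) * s26gspMu K 𝔠 𝔎 Ω B =
        s26gspMu K 𝔠 𝔎 Ω (A - ((1 : 𝔠) ⊗ₜ[K] (s27gpEv ι A / s27gpEv ι B)) * B) := by
      rw [map_sub, map_mul, s27gp_mu_one_tmul, sub_mul, h]
    rw [ValuationSubring.mem_nonunits_iff]
    have h3 := congrArg (s27gpPlace hld hgen ι hx).toValuationSubring.valuation h2
    rw [map_mul, hvB, mul_one] at h3
    rw [h3]
    exact h1

/-- a place of `Ω / 𝔎` which is trivial on `𝔠` and at which `u - ι u` has a zero for every `u`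
is `P_ι`. -/
theorem s27gpPlace_unique' (P : Place 𝔎 Ω)
    (h1 : ∀ u : 𝔠, algebraMap 𝔠 Ω u ∈ P.toValuationSubring)
    (h2 : ∀ u : 𝔠, algebraMap 𝔠 Ω u - algebraMap 𝔎 Ω (ι u) ∈ P.toValuationSubring.nonunits) :
    P = s27gpPlace hld hgen ι hx := by
  refine s27gpPlace_unique hld hgen ι hx P ⟨fun A => ?_, fun A hA => ?_⟩
  · induction A using TensorProduct.induction_on with
    | zero => rw [map_zero]; exact zero_mem _
    | tmul u c => rw [s26gspMu_tmul]; exact mul_mem (h1 u) (P.algebraMap_mem' c)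
    | add a b ha hb => rw [map_add]; exact add_mem ha hb
  · have key : ∀ A : 𝔠 ⊗[K] 𝔎,
        s26gspMu K 𝔠 𝔎 Ω A - algebraMap 𝔎 Ω (s27gpEv ι A) ∈ P.toValuationSubring.nonunits := by
      intro A
      induction A using TensorProduct.induction_on with
      | zero =>
        rw [map_zero, map_zero, map_zero, sub_zero, ValuationSubring.mem_nonunits_iff, map_zero]
        exact zero_lt_one
      | tmul u c =>
        have e : s26gspMu K 𝔠 𝔎 Ω (u ⊗ₜ[K] c) - algebraMap 𝔎 Ω (s27gpEv ι (u ⊗ₜ[K] c)) =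
            (algebraMap 𝔠 Ω u - algebraMap 𝔎 Ω (ι u)) * algebraMap 𝔎 Ω c := by
          rw [s26gspMu_tmul, s27gpEv_tmul, map_mul]
          ring
        rw [e, ValuationSubring.mem_nonunits_iff, map_mul]
        have h3 := (ValuationSubring.mem_nonunits_iff (A := P.toValuationSubring)).1 (h2 u)
        have h4 := (P.toValuationSubring.valuation_le_one_iff _).2 (P.algebraMap_mem' c)
        exact mul_lt_one_of_nonneg_of_lt_one_left zero_le h3 h4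
      | add a b ha hb =>
        have e : s26gspMu K 𝔠 𝔎 Ω (a + b) - algebraMap 𝔎 Ω (s27gpEv ι (a + b)) =
            (s26gspMu K 𝔠 𝔎 Ω a - algebraMap 𝔎 Ω (s27gpEv ι a)) +
            (s26gspMu K 𝔠 𝔎 Ω b - algebraMap 𝔎 Ω (s27gpEv ι b)) := by
          rw [map_add, map_add, map_add]
          ring
        rw [e, ValuationSubring.mem_nonunits_iff]
        exact lt_of_le_of_lt (Valuation.map_add _ _ _)
          (max_lt ((ValuationSubring.mem_nonunits_iff (A := P.toValuationSubring)).1 ha)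
            ((ValuationSubring.mem_nonunits_iff (A := P.toValuationSubring)).1 hb))
    have := key A
    rwa [hA, map_zero, sub_zero] at this

/-- the normal form at `P_ι`: `f * μ M = π ^ (ord f) * μ N` with `ev M ≠ 0`, `ev N ≠ 0`,
`π = x - ι x`. -/
theorem s27gpPlace_nf {f : Ω} (hf : f ≠ 0) :
    ∃ N M : 𝔠 ⊗[K] 𝔎, s27gpEv ι N ≠ 0 ∧ s27gpEv ι M ≠ 0 ∧
      f * s26gspMu K 𝔠 𝔎 Ω M =
        s26gspMu K 𝔠 𝔎 Ω (s27gpEta ι x) ^ ((s27gpPlace hld hgen ι hx).ord f) *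
          s26gspMu K 𝔠 𝔎 Ω N :=
  s27gp_nf_ord hld hgen _ (s27gpPlace_dom hld hgen ι hx) hx hf

/-- **`O_{P_ι}` is the localisation of `𝔠 ⊗ 𝔎` at `ker ev`**: every element of the valuation
ring is a fraction `μ a / μ b` with `ev b ≠ 0` (so `ord (μ b) = 0`). -/
theorem s27gpPlace_exists_frac {y : Ω}
    (hy : y ∈ (s27gpPlace hld hgen ι hx).toValuationSubring) :
    ∃ a b : 𝔠 ⊗[K] 𝔎, s27gpEv ι b ≠ 0 ∧
      (s27gpPlace hld hgen ι hx).ord (s26gspMu K 𝔠 𝔎 Ω b) = 0 ∧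
      y * s26gspMu K 𝔠 𝔎 Ω b = s26gspMu K 𝔠 𝔎 Ω a := by
  rcases eq_or_ne y 0 with rfl | hy0
  · refine ⟨0, 1, ?_, ?_, ?_⟩
    · rw [map_one]; exact one_ne_zero
    · exact s27gpPlace_ord_mu_eq_zero hld hgen ι hx (by rw [map_one]; exact one_ne_zero)
    · rw [zero_mul, map_zero]
  obtain ⟨N, M, hN, hM, h⟩ := s27gpPlace_nf hld hgen ι hx hy0
  have hord : 0 ≤ (s27gpPlace hld hgen ι hx).ord y := (PlaceAux.ord_nonneg_iff _ hy0).2 hy
  obtain ⟨n, hn⟩ := Int.eq_ofNat_of_zero_le hord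
  refine ⟨s27gpEta ι x ^ n * N, M, hM, s27gpPlace_ord_mu_eq_zero hld hgen ι hx hM, ?_⟩
  rw [h, hn, zpow_natCast, map_mul, map_pow]

/-- conversely a fraction `μ a / μ b` with `ev b ≠ 0` lies in the valuation ring. -/
theorem s27gpPlace_mem_of_frac {y : Ω} {a b : 𝔠 ⊗[K] 𝔎} (hb : s27gpEv ι b ≠ 0)
    (h : y * s26gspMu K 𝔠 𝔎 Ω b = s26gspMu K 𝔠 𝔎 Ω a) :
    y ∈ (s27gpPlace hld hgen ι hx).toValuationSubring :=
  (s27gpPlace_eval hld hgen ι hx hb h).1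

end Def

end Fermat.Agent.S27
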