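/-
S27, route B, piece DEG-A4 "EVAL" (helper12): the evaluation at a place which is trivial on `𝔠`.

Fields `K ⊆ 𝔠`, `K ⊆ 𝔎`, both inside `Ω`.  Let `w` be a place of `Ω / 𝔎` which is trivial on `𝔠`
(`hw : ∀ u : 𝔠, w.ord (algebraMap 𝔠 Ω u) = 0`) and whose residue field is `𝔎`
(`hres : Function.Surjective (algebraMap 𝔎 w.ResidueField)`; automatic if `𝔎` is algebraically
closed and the residue field is finite over `𝔎`: `s27ev_hres`).

* `s27ev w hw hres : 𝔠 →ₐ[K] 𝔎` : the evaluation `u ↦ u(w)`;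
* `s27ev_spec`        : `algebraMap 𝔎 w.ResidueField (ev u) = residue u`;
* `s27ev_eq_iff`      : `ev u = c ↔ u - c ∈ w.nonunits`;
* `s27ev_eq_iff_ord`  : `ev u = c ↔ u = c ∨ 0 < w.ord (u - c)`;
* `s27ev_ord_pos`     : `u ≠ ev u → 0 < w.ord (u - ev u)`;
* `s27ev_injective`   : `ev` is injective;
* `s27ev_algebraMap`  : `ev a = a` for `a ∈ K`;
* `s27ev_const`       : if `u = c` in `Ω` (`c ∈ 𝔎`) then `ev u = c`;
* `s27ev_equivariant` : if `σ` is a ring automorphism of `Ω` fixing `𝔠`, inducing `h` on `𝔎`,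
  and `w'.ord (σ f) = w.ord f` for all `f` (`w' = σ • w`), then `ev_{w'} u = h (ev_w u)`;
* `s27ev_equivariant_mem` : the same with `σ x ∈ w' ↔ x ∈ w` instead of the orders;
* `s27ev_eq_of_same`  : `ev` depends only on the place.
-/
import Fermat.Agent.S24.PlaceBasic

set_option autoImplicit false
set_option linter.style.haveILetI false
set_option linter.unusedSectionVars false
set_option linter.unusedVariables false

noncomputable section

namespace Fermat.Agent.S27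

open AlgebraicCurve IsLocalRing

variable {K 𝔠 𝔎 Ω : Type*} [Field K] [Field 𝔠] [Field 𝔎] [Field Ω]
  [Algebra K 𝔠] [Algebra K 𝔎] [Algebra K Ω] [Algebra 𝔠 Ω] [Algebra 𝔎 Ω]
  [IsScalarTower K 𝔠 Ω] [IsScalarTower K 𝔎 Ω]

/-- the residue field of a place over an algebraically closed field `𝔎` is `𝔎`, if it is finite
over `𝔎`. -/
theorem s27ev_hres [IsAlgClosed 𝔎] (w : Place 𝔎 Ω) [Module.Finite 𝔎 w.ResidueField] :
    Function.Surjective (algebraMap 𝔎 w.ResidueField) := by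
  haveI : Algebra.IsIntegral 𝔎 w.ResidueField := Algebra.IsIntegral.of_finite 𝔎 w.ResidueField
  exact (IsAlgClosed.algebraMap_bijective_of_isIntegral (k := 𝔎) (K := w.ResidueField)).2

section eval

variable (w : Place 𝔎 Ω) (hw : ∀ u : 𝔠, w.ord (algebraMap 𝔠 Ω u) = 0)

include hw in
theorem s27ev_mem (u : 𝔠) : algebraMap 𝔠 Ω u ∈ w.toValuationSubring :=
  Fermat.Agent.S24.PlaceAux.mem_of_ord_nonneg w (by rw [hw u])

/-- `𝔠 → 𝒪_w`. -/
def s27evIncl : 𝔠 →+* ↥w.toValuationSubring :=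
  RingHom.codRestrict (algebraMap 𝔠 Ω) w.toValuationSubring (s27ev_mem w hw)

@[simp] theorem s27evIncl_coe (u : 𝔠) : ((s27evIncl w hw u : ↥w.toValuationSubring) : Ω)
    = algebraMap 𝔠 Ω u := rfl

/-- `𝔠 → 𝒪_w → κ(w)`. -/
def s27evRes : 𝔠 →+* w.ResidueField :=
  (IsLocalRing.residue ↥w.toValuationSubring).comp (s27evIncl w hw)

theorem s27evRes_apply (u : 𝔠) :
    s27evRes w hw u = IsLocalRing.residue ↥w.toValuationSubring (s27evIncl w hw u) := rfl

theorem s27ev_algebraMap_residue (c : 𝔎) :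
    algebraMap 𝔎 w.ResidueField c
      = IsLocalRing.residue ↥w.toValuationSubring (algebraMap 𝔎 ↥w.toValuationSubring c) := rfl

omit hw in
theorem s27ev_zero_mem_nonunits : (0 : Ω) ∈ w.toValuationSubring.nonunits := by
  rw [ValuationSubring.mem_nonunits_iff_exists_mem_maximalIdeal]
  refine ⟨zero_mem _, ?_⟩
  have : (⟨0, zero_mem _⟩ : ↥w.toValuationSubring) = 0 := rfl
  rw [this]
  exact zero_mem _

variable (hres : Function.Surjective (algebraMap 𝔎 w.ResidueField))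

/-- the identification `𝔎 ≃ κ(w)`. -/
def s27evEquiv : 𝔎 ≃+* w.ResidueField :=
  RingEquiv.ofBijective (algebraMap 𝔎 w.ResidueField)
    ⟨(algebraMap 𝔎 w.ResidueField).injective, hres⟩

@[simp] theorem s27evEquiv_apply (c : 𝔎) :
    s27evEquiv w hres c = algebraMap 𝔎 w.ResidueField c := rfl

/-- the evaluation as a ring homomorphism. -/
def s27evHom : 𝔠 →+* 𝔎 :=
  ((s27evEquiv w hres).symm : w.ResidueField →+* 𝔎).comp (s27evRes w hw)

theorem s27evHom_spec (u : 𝔠) :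
    algebraMap 𝔎 w.ResidueField (s27evHom w hw hres u)
      = IsLocalRing.residue ↥w.toValuationSubring (s27evIncl w hw u) := by
  have h := (s27evEquiv w hres).apply_symm_apply (s27evRes w hw u)
  rw [s27evEquiv_apply] at h
  exact h

theorem s27evHom_eq_iff (u : 𝔠) (c : 𝔎) :
    s27evHom w hw hres u = c ↔
      algebraMap 𝔠 Ω u - algebraMap 𝔎 Ω c ∈ w.toValuationSubring.nonunits := by
  have hmem : algebraMap 𝔠 Ω u - algebraMap 𝔎 Ω c ∈ w.toValuationSubring :=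
    sub_mem (s27ev_mem w hw u) (w.algebraMap_mem' c)
  have hcoe : ((s27evIncl w hw u - algebraMap 𝔎 ↥w.toValuationSubring c :
      ↥w.toValuationSubring) : Ω) = algebraMap 𝔠 Ω u - algebraMap 𝔎 Ω c := rfl
  rw [← (algebraMap 𝔎 w.ResidueField).injective.eq_iff, s27evHom_spec,
    s27ev_algebraMap_residue, ← sub_eq_zero, ← map_sub, IsLocalRing.residue_eq_zero_iff,
    ValuationSubring.mem_nonunits_iff_exists_mem_maximalIdeal]
  constructor
  · intro h
    exact ⟨hmem, h⟩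
  · rintro ⟨_, h⟩
    exact h

theorem s27evHom_algebraMap (a : K) :
    s27evHom w hw hres (algebraMap K 𝔠 a) = algebraMap K 𝔎 a := by
  rw [s27evHom_eq_iff, ← IsScalarTower.algebraMap_apply K 𝔠 Ω,
    ← IsScalarTower.algebraMap_apply K 𝔎 Ω, sub_self]
  exact s27ev_zero_mem_nonunits w

/-- **DEG-A4 (EVAL)**: the evaluation `ev_w : 𝔠 →ₐ[K] 𝔎` at a place `w` of `Ω / 𝔎` which is
trivial on `𝔠` and has residue field `𝔎`. -/
def s27ev : 𝔠 →ₐ[K] 𝔎 :=
  { s27evHom w hw hres with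
    commutes' := s27evHom_algebraMap w hw hres }

theorem s27ev_apply (u : 𝔠) : s27ev (K := K) w hw hres u = s27evHom w hw hres u := rfl

/-- `residue u = ev u` in the residue field. -/
theorem s27ev_spec (u : 𝔠) :
    algebraMap 𝔎 w.ResidueField (s27ev (K := K) w hw hres u)
      = IsLocalRing.residue ↥w.toValuationSubring (s27evIncl w hw u) :=
  s27evHom_spec w hw hres u

theorem s27ev_eq_iff (u : 𝔠) (c : 𝔎) :
    s27ev (K := K) w hw hres u = c ↔
      algebraMap 𝔠 Ω u - algebraMap 𝔎 Ω c ∈ w.toValuationSubring.nonunits :=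
  s27evHom_eq_iff w hw hres u c

theorem s27ev_eq_iff_ord (u : 𝔠) (c : 𝔎) :
    s27ev (K := K) w hw hres u = c ↔
      (algebraMap 𝔠 Ω u = algebraMap 𝔎 Ω c ∨
        0 < w.ord (algebraMap 𝔠 Ω u - algebraMap 𝔎 Ω c)) := by
  rw [s27ev_eq_iff]
  by_cases h0 : algebraMap 𝔠 Ω u - algebraMap 𝔎 Ω c = 0
  · rw [h0]
    constructor
    · intro _
      exact Or.inl (sub_eq_zero.1 h0)
    · intro _
      exact s27ev_zero_mem_nonunits w
  · rw [← Fermat.Agent.S24.PlaceAux.ord_pos_iff_mem_nonunits w h0]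
    constructor
    · exact Or.inr
    · rintro (h | h)
      · exact absurd (sub_eq_zero.2 h) h0
      · exact h

theorem s27ev_ord_pos (u : 𝔠)
    (hne : algebraMap 𝔠 Ω u ≠ algebraMap 𝔎 Ω (s27ev (K := K) w hw hres u)) :
    0 < w.ord (algebraMap 𝔠 Ω u - algebraMap 𝔎 Ω (s27ev (K := K) w hw hres u)) :=
  ((s27ev_eq_iff_ord w hw hres u _).1 rfl).resolve_left hne

theorem s27ev_injective : Function.Injective (s27ev (K := K) w hw hres) :=
  (s27ev (K := K) w hw hres).toRingHom.injective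

theorem s27ev_algebraMap (a : K) :
    s27ev (K := K) w hw hres (algebraMap K 𝔠 a) = algebraMap K 𝔎 a :=
  s27evHom_algebraMap w hw hres a

/-- a function of `𝔠` which is a constant of `𝔎` has this constant as its value. -/
theorem s27ev_const (u : 𝔠) (c : 𝔎) (h : algebraMap 𝔠 Ω u = algebraMap 𝔎 Ω c) :
    s27ev (K := K) w hw hres u = c :=
  (s27ev_eq_iff_ord w hw hres u c).2 (Or.inl h)

end eval

/-! ### equivariance -/

/-- **equivariance, order form.**  `σ` a ring automorphism of `Ω` which fixes `𝔠` and induces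
`h` on `𝔎`; `w' = σ • w` in the sense that `w'.ord (σ f) = w.ord f`.  Then
`ev_{w'} u = h (ev_w u)`. -/
theorem s27ev_equivariant (w w' : Place 𝔎 Ω)
    (hw : ∀ u : 𝔠, w.ord (algebraMap 𝔠 Ω u) = 0) (hw' : ∀ u : 𝔠, w'.ord (algebraMap 𝔠 Ω u) = 0)
    (hres : Function.Surjective (algebraMap 𝔎 w.ResidueField))
    (hres' : Function.Surjective (algebraMap 𝔎 w'.ResidueField))
    (σ : Ω ≃+* Ω) (h : 𝔎 ≃+* 𝔎)
    (hσ𝔠 : ∀ u : 𝔠, σ (algebraMap 𝔠 Ω u) = algebraMap 𝔠 Ω u)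
    (hσ𝔎 : ∀ c : 𝔎, σ (algebraMap 𝔎 Ω c) = algebraMap 𝔎 Ω (h c))
    (hord : ∀ f : Ω, w'.ord (σ f) = w.ord f) (u : 𝔠) :
    s27ev (K := K) w' hw' hres' u = h (s27ev (K := K) w hw hres u) := by
  rw [s27ev_eq_iff_ord]
  rcases (s27ev_eq_iff_ord (K := K) w hw hres u _).1 rfl with h1 | h1
  · left
    rw [← hσ𝔎, ← h1, hσ𝔠]
  · right
    have h2 : σ (algebraMap 𝔠 Ω u - algebraMap 𝔎 Ω (s27ev (K := K) w hw hres u))
        = algebraMap 𝔠 Ω u - algebraMap 𝔎 Ω (h (s27ev (K := K) w hw hres u)) := by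
      rw [map_sub, hσ𝔠, hσ𝔎]
    rw [← h2, hord]
    exact h1

/-- **equivariance, membership form**: `w' = σ • w` in the sense that
`σ x ∈ 𝒪_{w'} ↔ x ∈ 𝒪_w`. -/
theorem s27ev_equivariant_mem (w w' : Place 𝔎 Ω)
    (hw : ∀ u : 𝔠, w.ord (algebraMap 𝔠 Ω u) = 0) (hw' : ∀ u : 𝔠, w'.ord (algebraMap 𝔠 Ω u) = 0)
    (hres : Function.Surjective (algebraMap 𝔎 w.ResidueField))
    (hres' : Function.Surjective (algebraMap 𝔎 w'.ResidueField))
    (σ : Ω ≃+* Ω) (h : 𝔎 ≃+* 𝔎)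
    (hσ𝔠 : ∀ u : 𝔠, σ (algebraMap 𝔠 Ω u) = algebraMap 𝔠 Ω u)
    (hσ𝔎 : ∀ c : 𝔎, σ (algebraMap 𝔎 Ω c) = algebraMap 𝔎 Ω (h c))
    (hmem : ∀ x : Ω, σ x ∈ w'.toValuationSubring ↔ x ∈ w.toValuationSubring) (u : 𝔠) :
    s27ev (K := K) w' hw' hres' u = h (s27ev (K := K) w hw hres u) := by
  rw [s27ev_eq_iff_ord]
  rcases (s27ev_eq_iff_ord (K := K) w hw hres u _).1 rfl with h1 | h1
  · left
    rw [← hσ𝔎, ← h1, hσ𝔠]
  · right
    set x := algebraMap 𝔠 Ω u - algebraMap 𝔎 Ω (s27ev (K := K) w hw hres u) with hx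
    have h2 : σ x = algebraMap 𝔠 Ω u - algebraMap 𝔎 Ω (h (s27ev (K := K) w hw hres u)) := by
      rw [hx, map_sub, hσ𝔠, hσ𝔎]
    have hx0 : x ≠ 0 := by
      intro h0
      rw [h0, Place.ord_zero] at h1
      exact lt_irrefl _ h1
    have hσx0 : σ x ≠ 0 := by simpa using hx0
    rw [← h2, Fermat.Agent.S24.PlaceAux.ord_pos_iff w' hσx0]
    rw [Fermat.Agent.S24.PlaceAux.ord_pos_iff w hx0] at h1
    refine ⟨(hmem x).2 h1.1, fun hinv => h1.2 ?_⟩
    rw [← map_inv₀] at hinv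
    exact (hmem x⁻¹).1 hinv

/-- `ev` depends only on the place. -/
theorem s27ev_eq_of_same (w w' : Place 𝔎 Ω) (hww' : w = w')
    (hw : ∀ u : 𝔠, w.ord (algebraMap 𝔠 Ω u) = 0) (hw' : ∀ u : 𝔠, w'.ord (algebraMap 𝔠 Ω u) = 0)
    (hres : Function.Surjective (algebraMap 𝔎 w.ResidueField))
    (hres' : Function.Surjective (algebraMap 𝔎 w'.ResidueField)) (u : 𝔠) :
    s27ev (K := K) w' hw' hres' u = s27ev (K := K) w hw hres u := by
  subst hww'
  rfl

end Fermat.Agent.S27
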