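/-
S27, route B, piece DEG-B1 "PT-PLACE" (helper45): **point places of a constant extension**.

Setting (helper96's, `S26/ERRGaussPlace`): fields `K ⊆ 𝔠`, `K ⊆ 𝔎`, both inside `Ω`, with
`μ : 𝔠 ⊗[K] 𝔎 → Ω` injective (`hld`) and `Ω = Frac (image of μ)` (`hgen`).

A place `w` of `Ω / 𝔎` is a *point place with evaluation* `e : 𝔠 →ₐ[K] 𝔎` (`S27ptIsPt w e`) if
`u - e u ∈ 𝔪_w` for every `u ∈ 𝔠`.  (Definition-free form of `pt(e)`: helper96's generic-point
place `P_ι` of `S27/GenPlaceV.lean` is the place with `S27ptIsPt P_ι ι`.)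

* `s27pt_trivial`      : a point place is trivial on `𝔠`;
* `s27pt_ev_eq`        : its evaluation in the sense of DEG-A4 (`s27ev`, helper12) is `e`;
* `s27pt_eval_unique`  : the evaluation of a point place is unique (so `pt` is injective);
* `s27pt_isPt_ev`      : a place trivial on `𝔠` with residue field `𝔎` is a point place with
  evaluation `s27ev`;
* `s27pt_ne_con`       : a point place is not a constant place `Con Q`;
* `s27pt_hres`         : `𝔎` algebraically closed ⇒ all residue fields of `Ω / 𝔎` are `𝔎`;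
* `s27pt_dichotomy`    : **every place of `Ω / 𝔎` is a constant place `Con Q` or a point place**
  (`𝔎` algebraically closed), and not both (`s27pt_not_both`);
* `s27pt_isPt_gpPlace`, `s27pt_eq_gpPlace` : (`𝔠 / K(x)` finite separable) the point places with
  evaluation `e` are exactly helper96's `pt e := s27gpPlace hld hgen e hx`; `s27pt_unique`;
* `s27pt_gpPlace_injective` : `pt` is injective;  `s27pt_ev_gpPlace` : `ev_{pt e} = e`;
  `s27pt_gpPlace_ev` : `pt (ev_w) = w` for `w` trivial on `𝔠`;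
* `s27pt_classify`     : every place of `Ω / 𝔎` is `Con Q` or `pt e` (`𝔎` algebraically closed);
* `s27ptEquiv`         : **`Place K 𝔠 ⊕ (𝔠 →ₐ[K] 𝔎) ≃ Place 𝔎 Ω`**, `Q ↦ Con Q`, `e ↦ pt e`;
* `s27ptTrivEquiv`     : `(𝔠 →ₐ[K] 𝔎) ≃ {w // w trivial on 𝔠}`.
-/
import Fermat.Agent.S26.ERRGaussHPD
import Fermat.Agent.S27.RigEval
import Fermat.Agent.S27.GenPlaceV

set_option autoImplicit false
set_option linter.style.haveILetI false
set_option linter.unusedSectionVars false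
set_option linter.unusedVariables false

noncomputable section

namespace Fermat.Agent.S27

open AlgebraicCurve IsLocalRing TensorProduct
open Fermat.Agent.S26

variable {K 𝔠 𝔎 Ω : Type*} [Field K] [Field 𝔠] [Field 𝔎] [Field Ω]
  [Algebra K 𝔠] [Algebra K 𝔎] [Algebra K Ω] [Algebra 𝔠 Ω] [Algebra 𝔎 Ω]
  [IsScalarTower K 𝔠 Ω] [IsScalarTower K 𝔎 Ω]

/-- `w` is a point place of `Ω / 𝔎` with evaluation `e`: `u - e u ∈ 𝔪_w` for all `u ∈ 𝔠`. -/
def S27ptIsPt (w : Place 𝔎 Ω) (e : 𝔠 →ₐ[K] 𝔎) : Prop :=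
  ∀ u : 𝔠, algebraMap 𝔠 Ω u - algebraMap 𝔎 Ω (e u) ∈ w.toValuationSubring.nonunits

theorem s27pt_isPt_iff_ord (w : Place 𝔎 Ω) (e : 𝔠 →ₐ[K] 𝔎) :
    S27ptIsPt w e ↔ ∀ u : 𝔠, algebraMap 𝔠 Ω u = algebraMap 𝔎 Ω (e u) ∨
      0 < w.ord (algebraMap 𝔠 Ω u - algebraMap 𝔎 Ω (e u)) := by
  refine forall_congr' fun u => ?_
  by_cases h0 : algebraMap 𝔠 Ω u - algebraMap 𝔎 Ω (e u) = 0
  · rw [h0]
    exact ⟨fun _ => Or.inl (sub_eq_zero.1 h0), fun _ => s27ev_zero_mem_nonunits w⟩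
  · rw [← Fermat.Agent.S24.PlaceAux.ord_pos_iff_mem_nonunits w h0]
    exact ⟨Or.inr, fun h => h.resolve_left fun h' => h0 (sub_eq_zero.2 h')⟩

/-- a point place is trivial on `𝔠`. -/
theorem s27pt_trivial {w : Place 𝔎 Ω} {e : 𝔠 →ₐ[K] 𝔎} (h : S27ptIsPt w e) (u : 𝔠) :
    w.ord (algebraMap 𝔠 Ω u) = 0 := by
  by_cases hu : u = 0
  · rw [hu, map_zero, Place.ord_zero]
  have he : e u ≠ 0 := fun h0 => hu (e.toRingHom.injective (h0.trans (map_zero _).symm))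
  have hc0 : algebraMap 𝔎 Ω (e u) ≠ 0 := fun h0 =>
    he ((algebraMap 𝔎 Ω).injective (h0.trans (map_zero _).symm))
  have hu0 : algebraMap 𝔠 Ω u ≠ 0 := fun h0 =>
    hu ((algebraMap 𝔠 Ω).injective (h0.trans (map_zero _).symm))
  have hc : w.ord (algebraMap 𝔎 Ω (e u)) = 0 := Fermat.Agent.S24.PlaceAux.ord_algebraMap w _
  rcases (s27pt_isPt_iff_ord w e).1 h u with h1 | h1
  · rw [h1, hc]
  · have hd0 : algebraMap 𝔠 Ω u - algebraMap 𝔎 Ω (e u) ≠ 0 := by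
      intro h0
      rw [h0, Place.ord_zero] at h1
      exact lt_irrefl _ h1
    have h2 := Fermat.Agent.S24.PlaceAux.ord_add_eq_of_lt w hc0 hd0 (by rw [hc]; exact h1)
    rw [add_sub_cancel] at h2
    rw [h2, hc]

/-- the evaluation (DEG-A4) of a point place with evaluation `e` is `e`. -/
theorem s27pt_ev_eq {w : Place 𝔎 Ω} {e : 𝔠 →ₐ[K] 𝔎} (h : S27ptIsPt w e)
    (hw : ∀ u : 𝔠, w.ord (algebraMap 𝔠 Ω u) = 0)
    (hres : Function.Surjective (algebraMap 𝔎 w.ResidueField)) :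
    s27ev (K := K) w hw hres = e := by
  ext u
  exact (s27ev_eq_iff w hw hres u (e u)).2 (h u)

/-- a place trivial on `𝔠` with residue field `𝔎` is a point place, with evaluation `s27ev`. -/
theorem s27pt_isPt_ev (w : Place 𝔎 Ω) (hw : ∀ u : 𝔠, w.ord (algebraMap 𝔠 Ω u) = 0)
    (hres : Function.Surjective (algebraMap 𝔎 w.ResidueField)) :
    S27ptIsPt w (s27ev (K := K) w hw hres) := fun u =>
  (s27ev_eq_iff w hw hres u _).1 rfl

/-- the evaluation of a point place is unique. -/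
theorem s27pt_eval_unique {w : Place 𝔎 Ω} {e e' : 𝔠 →ₐ[K] 𝔎} (h : S27ptIsPt w e)
    (h' : S27ptIsPt w e') : e = e' := by
  ext u
  by_contra hne
  have hd : e u - e' u ≠ 0 := sub_ne_zero.2 hne
  -- `e u - e' u = (u - e' u) - (u - e u) ∈ 𝔪_w`, but it is a non-zero constant
  have h1 : algebraMap 𝔎 Ω (e u - e' u) ∈ w.toValuationSubring.nonunits := by
    have hmem : ∀ {a b : Ω}, a ∈ w.toValuationSubring.nonunits →
        b ∈ w.toValuationSubring.nonunits → a - b ∈ w.toValuationSubring.nonunits := by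
      intro a b ha hb
      rw [ValuationSubring.mem_nonunits_iff_exists_mem_maximalIdeal] at ha hb ⊢
      obtain ⟨ha1, ha2⟩ := ha
      obtain ⟨hb1, hb2⟩ := hb
      exact ⟨sub_mem ha1 hb1, (maximalIdeal ↥w.toValuationSubring).sub_mem ha2 hb2⟩
    have := hmem (h' u) (h u)
    have e1 : algebraMap 𝔠 Ω u - algebraMap 𝔎 Ω (e' u) - (algebraMap 𝔠 Ω u - algebraMap 𝔎 Ω (e u))
        = algebraMap 𝔎 Ω (e u - e' u) := by
      rw [map_sub]; ring
    rwa [e1] at this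
  have hc0 : algebraMap 𝔎 Ω (e u - e' u) ≠ 0 := fun h0 =>
    hd ((algebraMap 𝔎 Ω).injective (h0.trans (map_zero _).symm))
  rw [← Fermat.Agent.S24.PlaceAux.ord_pos_iff_mem_nonunits w hc0,
    Fermat.Agent.S24.PlaceAux.ord_algebraMap] at h1
  exact lt_irrefl _ h1

section Con

variable (hld : Function.Injective (s26gspMu K 𝔠 𝔎 Ω)) (hgen : S26gspGen K 𝔠 𝔎 Ω)
  (hall : ∀ P : Place K 𝔠, Function.Surjective (algebraMap K P.ResidueField))

/-- a constant place is not trivial on `𝔠`. -/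
theorem s27pt_con_not_trivial (Q : Place K 𝔠) :
    ¬ ∀ u : 𝔠, (s26gspCon hld hgen hall Q).ord (algebraMap 𝔠 Ω u) = 0 := by
  intro h
  obtain ⟨t, ht⟩ := Fermat.Agent.S24.place_exists_ord_eq_one Q
  have := h t
  rw [s26gspc_ord_algebraMap, ht] at this
  exact one_ne_zero this

/-- a point place is not a constant place. -/
theorem s27pt_ne_con {w : Place 𝔎 Ω} {e : 𝔠 →ₐ[K] 𝔎} (h : S27ptIsPt w e) (Q : Place K 𝔠) :
    w ≠ s26gspCon hld hgen hall Q := by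
  rintro rfl
  exact s27pt_con_not_trivial hld hgen hall Q (s27pt_trivial h)

include hld hgen in
/-- `𝔎` algebraically closed: every place of `Ω / 𝔎` has residue field `𝔎`. -/
theorem s27pt_hres [IsAlgClosed 𝔎] {x : 𝔠} (hx : Transcendental K x)
    [FiniteDimensional (IntermediateField.adjoin K {x}) 𝔠] (w : Place 𝔎 Ω) :
    Function.Surjective (algebraMap 𝔎 w.ResidueField) := by
  haveI := s26gspf_residue_finite hld hgen hx w
  exact s27ev_hres w

/-- **dichotomy**: every place of `Ω / 𝔎` (`𝔎` algebraically closed) is a constant place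
`Con Q` or a point place with an evaluation `e : 𝔠 →ₐ[K] 𝔎`. -/
theorem s27pt_dichotomy [IsAlgClosed 𝔎] {x : 𝔠} (hx : Transcendental K x)
    [FiniteDimensional (IntermediateField.adjoin K {x}) 𝔠] (w : Place 𝔎 Ω) :
    (∃ Q, w = s26gspCon hld hgen hall Q) ∨ ∃ e : 𝔠 →ₐ[K] 𝔎, S27ptIsPt w e := by
  rcases s26gspc_dichotomy hld hgen hall w with h | h
  · exact Or.inl h
  · exact Or.inr ⟨s27ev (K := K) w h (s27pt_hres hld hgen hx w),
      s27pt_isPt_ev w h (s27pt_hres hld hgen hx w)⟩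

/-- the two cases of the dichotomy exclude each other. -/
theorem s27pt_not_both (w : Place 𝔎 Ω) :
    ¬ ((∃ Q, w = s26gspCon hld hgen hall Q) ∧ ∃ e : 𝔠 →ₐ[K] 𝔎, S27ptIsPt w e) := by
  rintro ⟨⟨Q, hQ⟩, e, he⟩
  exact s27pt_ne_con hld hgen hall he Q hQ

end Con

/-! ### The point places are helper96's generic-point places -/

section Gen

variable (hld : Function.Injective (s26gspMu K 𝔠 𝔎 Ω)) (hgen : S26gspGen K 𝔠 𝔎 Ω)
  (hall : ∀ P : Place K 𝔠, Function.Surjective (algebraMap K P.ResidueField))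
  {x : 𝔠} (hx : Transcendental K x)
  [FiniteDimensional ↥(IntermediateField.adjoin K {x}) 𝔠]
  [Algebra.IsSeparable ↥(IntermediateField.adjoin K {x}) 𝔠]

/-- `pt e` is a point place with evaluation `e`. -/
theorem s27pt_isPt_gpPlace (e : 𝔠 →ₐ[K] 𝔎) : S27ptIsPt (s27gpPlace hld hgen e hx) e := by
  intro u
  rw [← s27gp_mu_eta]
  exact (s27gpPlace_dom hld hgen e hx).2 _ (s27gpEv_eta e u)

/-- a point place with evaluation `e` is `pt e`. -/
theorem s27pt_eq_gpPlace {w : Place 𝔎 Ω} {e : 𝔠 →ₐ[K] 𝔎} (h : S27ptIsPt w e) :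
    w = s27gpPlace hld hgen e hx :=
  s27gpPlace_unique' hld hgen e hx w
    (fun u => Fermat.Agent.S24.PlaceAux.mem_of_ord_nonneg w (by rw [s27pt_trivial h u])) h

include hld hgen hx in
/-- **uniqueness**: two point places with the same evaluation are equal. -/
theorem s27pt_unique {w w' : Place 𝔎 Ω} {e : 𝔠 →ₐ[K] 𝔎} (h : S27ptIsPt w e)
    (h' : S27ptIsPt w' e) : w = w' :=
  (s27pt_eq_gpPlace hld hgen hx h).trans (s27pt_eq_gpPlace hld hgen hx h').symm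

/-- `e ↦ pt e` is injective. -/
theorem s27pt_gpPlace_injective :
    Function.Injective fun e : 𝔠 →ₐ[K] 𝔎 => s27gpPlace hld hgen e hx := by
  intro e e' h
  have h1 := s27pt_isPt_gpPlace hld hgen hx e
  have h2 := s27pt_isPt_gpPlace hld hgen hx e'
  have h3 : s27gpPlace hld hgen e hx = s27gpPlace hld hgen e' hx := h
  rw [h3] at h1
  exact s27pt_eval_unique h1 h2

/-- `pt e` is trivial on `𝔠`. -/
theorem s27pt_gpPlace_trivial (e : 𝔠 →ₐ[K] 𝔎) (u : 𝔠) :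
    (s27gpPlace hld hgen e hx).ord (algebraMap 𝔠 Ω u) = 0 :=
  s27pt_trivial (s27pt_isPt_gpPlace hld hgen hx e) u

/-- `ev_{pt e} = e`. -/
theorem s27pt_ev_gpPlace (e : 𝔠 →ₐ[K] 𝔎)
    (hw : ∀ u : 𝔠, (s27gpPlace hld hgen e hx).ord (algebraMap 𝔠 Ω u) = 0)
    (hres : Function.Surjective (algebraMap 𝔎 (s27gpPlace hld hgen e hx).ResidueField)) :
    s27ev (K := K) (s27gpPlace hld hgen e hx) hw hres = e :=
  s27pt_ev_eq (s27pt_isPt_gpPlace hld hgen hx e) hw hres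

/-- `pt (ev_w) = w` for a place `w` trivial on `𝔠` with residue field `𝔎`. -/
theorem s27pt_gpPlace_ev (w : Place 𝔎 Ω) (hw : ∀ u : 𝔠, w.ord (algebraMap 𝔠 Ω u) = 0)
    (hres : Function.Surjective (algebraMap 𝔎 w.ResidueField)) :
    s27gpPlace hld hgen (s27ev (K := K) w hw hres) hx = w :=
  (s27pt_eq_gpPlace hld hgen hx (s27pt_isPt_ev w hw hres)).symm

/-- `pt e` is not a constant place. -/
theorem s27pt_gpPlace_ne_con (e : 𝔠 →ₐ[K] 𝔎) (Q : Place K 𝔠) :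
    s27gpPlace hld hgen e hx ≠ s26gspCon hld hgen hall Q :=
  s27pt_ne_con hld hgen hall (s27pt_isPt_gpPlace hld hgen hx e) Q

/-- **classification** of the places of `Ω / 𝔎` (`𝔎` algebraically closed): constant places
`Con Q` (`Q` a place of `𝔠 / K`) and point places `pt e` (`e : 𝔠 →ₐ[K] 𝔎`). -/
theorem s27pt_classify [IsAlgClosed 𝔎] (w : Place 𝔎 Ω) :
    (∃ Q, w = s26gspCon hld hgen hall Q) ∨ ∃ e : 𝔠 →ₐ[K] 𝔎, w = s27gpPlace hld hgen e hx := by
  rcases s27pt_dichotomy hld hgen hall hx w with h | ⟨e, he⟩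
  · exact Or.inl h
  · exact Or.inr ⟨e, s27pt_eq_gpPlace hld hgen hx he⟩

/-- every place trivial on `𝔠` is a `pt e` (`𝔎` algebraically closed). -/
theorem s27pt_exists_of_trivial [IsAlgClosed 𝔎] (w : Place 𝔎 Ω)
    (hw : ∀ u : 𝔠, w.ord (algebraMap 𝔠 Ω u) = 0) :
    ∃ e : 𝔠 →ₐ[K] 𝔎, w = s27gpPlace hld hgen e hx :=
  ⟨s27ev (K := K) w hw (s27pt_hres hld hgen hx w),
    (s27pt_gpPlace_ev hld hgen hx w hw (s27pt_hres hld hgen hx w)).symm⟩

/-- the map `Q ↦ Con Q`, `e ↦ pt e`. -/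
def s27ptSum : Place K 𝔠 ⊕ (𝔠 →ₐ[K] 𝔎) → Place 𝔎 Ω :=
  Sum.elim (s26gspCon hld hgen hall) (fun e => s27gpPlace hld hgen e hx)

@[simp] theorem s27ptSum_inl (Q : Place K 𝔠) :
    s27ptSum hld hgen hall hx (Sum.inl Q : Place K 𝔠 ⊕ (𝔠 →ₐ[K] 𝔎)) =
      s26gspCon hld hgen hall Q := rfl

@[simp] theorem s27ptSum_inr (e : 𝔠 →ₐ[K] 𝔎) :
    s27ptSum hld hgen hall hx (Sum.inr e : Place K 𝔠 ⊕ (𝔠 →ₐ[K] 𝔎)) =
      s27gpPlace hld hgen e hx := rfl

theorem s27ptSum_injective : Function.Injective (s27ptSum (𝔎 := 𝔎) hld hgen hall hx) := by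
  rintro (Q | e) (Q' | e') h
  · exact congrArg Sum.inl (s26gspCon_injective hld hgen hall h)
  · exact absurd h.symm (s27pt_gpPlace_ne_con hld hgen hall hx e' Q)
  · exact absurd h (s27pt_gpPlace_ne_con hld hgen hall hx e Q')
  · exact congrArg Sum.inr (s27pt_gpPlace_injective hld hgen hx h)

theorem s27ptSum_surjective [IsAlgClosed 𝔎] :
    Function.Surjective (s27ptSum (𝔎 := 𝔎) hld hgen hall hx) := by
  intro w
  rcases s27pt_classify hld hgen hall hx w with ⟨Q, hQ⟩ | ⟨e, he⟩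
  · exact ⟨Sum.inl Q, hQ.symm⟩
  · exact ⟨Sum.inr e, he.symm⟩

/-- **the places of `Ω / 𝔎`** (`𝔎` algebraically closed) are the constant places and the point
places: `Place K 𝔠 ⊕ (𝔠 →ₐ[K] 𝔎) ≃ Place 𝔎 Ω`. -/
def s27ptEquiv [IsAlgClosed 𝔎] : Place K 𝔠 ⊕ (𝔠 →ₐ[K] 𝔎) ≃ Place 𝔎 Ω :=
  Equiv.ofBijective (s27ptSum hld hgen hall hx)
    ⟨s27ptSum_injective hld hgen hall hx, s27ptSum_surjective hld hgen hall hx⟩

@[simp] theorem s27ptEquiv_inl [IsAlgClosed 𝔎] (Q : Place K 𝔠) :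
    s27ptEquiv hld hgen hall hx (Sum.inl Q : Place K 𝔠 ⊕ (𝔠 →ₐ[K] 𝔎)) =
      s26gspCon hld hgen hall Q := rfl

@[simp] theorem s27ptEquiv_inr [IsAlgClosed 𝔎] (e : 𝔠 →ₐ[K] 𝔎) :
    s27ptEquiv hld hgen hall hx (Sum.inr e : Place K 𝔠 ⊕ (𝔠 →ₐ[K] 𝔎)) =
      s27gpPlace hld hgen e hx := rfl

/-- the embeddings `𝔠 →ₐ[K] 𝔎` are the places of `Ω / 𝔎` which are trivial on `𝔠`. -/
def s27ptTrivEquiv [IsAlgClosed 𝔎] :
    (𝔠 →ₐ[K] 𝔎) ≃ {w : Place 𝔎 Ω // ∀ u : 𝔠, w.ord (algebraMap 𝔠 Ω u) = 0} where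
  toFun e := ⟨s27gpPlace hld hgen e hx, s27pt_gpPlace_trivial hld hgen hx e⟩
  invFun w := s27ev (K := K) w.1 w.2 (s27pt_hres hld hgen hx w.1)
  left_inv e := s27pt_ev_gpPlace hld hgen hx e _ _
  right_inv w := Subtype.ext (s27pt_gpPlace_ev hld hgen hx w.1 w.2 _)

@[simp] theorem s27ptTrivEquiv_apply_coe [IsAlgClosed 𝔎] (e : 𝔠 →ₐ[K] 𝔎) :
    ((s27ptTrivEquiv hld hgen hx e : {w : Place 𝔎 Ω // ∀ u : 𝔠, w.ord (algebraMap 𝔠 Ω u) = 0}) :
      Place 𝔎 Ω) = s27gpPlace hld hgen e hx := rfl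

end Gen

end Fermat.Agent.S27
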