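/-
S27-B — leaf GENUS-BC (captain helper77): **the genus does not change under constant field extension**,
and the constant extension has the whole Riemann package of RR0.

Setting of helper96 (S26/ERRGaussPlace): fields `K 𝔠 𝔎 Ω`, `Ω = Frac (𝔠 ⊗[K] 𝔎)` (`hld`, `hgen`),
`K`, `𝔎` algebraically closed, `char K = 0`, `x ∈ 𝔠` transcendental with `[𝔠 : K(x)] < ∞`.

* `s27gbc_transc`, `s27gbc_finite` : `x` is transcendental over `𝔎` in `Ω`, `[Ω : 𝔎(x)] < ∞`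
                                      (so ALL of `S27/RR0Final.lean` applies to `Ω / 𝔎`);
* `s27gbc_genus`   : `genusFF 𝔎 Ω = genusFF K 𝔠`;
* `s27gbc_riemann` : `deg Δ + 1 − genusFF K 𝔠 ≤ l(Δ)` for every divisor `Δ` of `Ω / 𝔎`;
* `s27gbc_large`   : `∃ c, ∀ Δ, c ≤ deg Δ → l(Δ) = deg Δ + 1 − genusFF K 𝔠`;
* `s27gbc_h1`      : `H1 Δ` finite-dimensional, `l(Δ) − dim H1 Δ = deg Δ + 1 − genusFF K 𝔠`;
* `s27gbc_finrank_con` : `l_𝔎(Con B) = l_K(B)`, `s27gbc_degree_con` : `deg (Con B) = deg B`.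
-/
import Fermat.Agent.S27.RR0Final
import Fermat.Agent.S26.ERRGaussHPD
import Fermat.Agent.S26.ERRD5

set_option autoImplicit false
set_option linter.unusedSectionVars false

noncomputable section

namespace Fermat.Agent.S27

open AlgebraicCurve Module IntermediateField Fermat.Agent.S26

section

variable {K 𝔠 𝔎 Ω : Type*} [Field K] [Field 𝔠] [Field 𝔎] [Field Ω]
  [Algebra K 𝔠] [Algebra K 𝔎] [Algebra K Ω] [Algebra 𝔠 Ω] [Algebra 𝔎 Ω]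
  [IsScalarTower K 𝔠 Ω] [IsScalarTower K 𝔎 Ω]

/-- `x` stays transcendental over `𝔎`. -/
theorem s27gbc_transc (hld : Function.Injective (s26gspMu K 𝔠 𝔎 Ω)) {x : 𝔠}
    (hx : Transcendental K x) : Transcendental 𝔎 (algebraMap 𝔠 Ω x) :=
  s26gspc_transcendental hld hx

/-- `[Ω : 𝔎(x)] < ∞`. -/
theorem s27gbc_finite (hgen : S26gspGen K 𝔠 𝔎 Ω) (x : 𝔠) [FiniteDimensional K⟮x⟯ 𝔠] :
    FiniteDimensional 𝔎⟮algebraMap 𝔠 Ω x⟯ Ω :=
  s26gspf_finiteDimensional hgen x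

variable [IsAlgClosed K] [CharZero K]

/-- the hypothesis `hΓ` of (RR-D) in characteristic `0`. -/
theorem s27gbc_hΓ {x : 𝔠} (hx : Transcendental K x) [FiniteDimensional K⟮x⟯ 𝔠] :
    ∃ t : 𝔠, Transcendental K t ∧ Module.Finite (IntermediateField.adjoin K {t}) 𝔠 ∧
      Algebra.IsSeparable (IntermediateField.adjoin K {t}) 𝔠 := by
  have h0 : CharZero K⟮x⟯ := charZero_of_injective_algebraMap (algebraMap K K⟮x⟯).injective
  have ha : Algebra.IsAlgebraic K⟮x⟯ 𝔠 := Algebra.IsAlgebraic.of_finite _ _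
  exact ⟨x, hx, inferInstance, Algebra.IsAlgebraic.isSeparable_of_perfectField⟩

/-- `deg (Con B) = deg B`. -/
theorem s27gbc_degree_con (hld : Function.Injective (s26gspMu K 𝔠 𝔎 Ω))
    (hgen : S26gspGen K 𝔠 𝔎 Ω) {x : 𝔠} (hx : Transcendental K x) [FiniteDimensional K⟮x⟯ 𝔠]
    (B : Divisor K 𝔠) :
    Divisor.degree (Finsupp.mapDomain (s26gspCon hld hgen (s26gspf_hall hx)) B) =
      Divisor.degree B :=
  s26gspc_degree hld hgen (s26gspf_hall hx) B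

/-- `l_𝔎(Con B) = l_K(B)`. -/
theorem s27gbc_finrank_con (hld : Function.Injective (s26gspMu K 𝔠 𝔎 Ω))
    (hgen : S26gspGen K 𝔠 𝔎 Ω) {x : 𝔠} (hx : Transcendental K x) [FiniteDimensional K⟮x⟯ 𝔠]
    (B : Divisor K 𝔠) :
    finrank 𝔎 (riemannRochSpace (Finsupp.mapDomain (s26gspCon hld hgen (s26gspf_hall hx)) B)) =
      finrank K (riemannRochSpace B) :=
  s26errd_finrank_eq' hld hgen (s26gspf_hall hx) (s27gbc_hΓ hx) B

/-- the genus of `𝔠 / K` is a genus of `Ω / 𝔎`. -/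
theorem s27gbc_isGenus (hld : Function.Injective (s26gspMu K 𝔠 𝔎 Ω))
    (hgen : S26gspGen K 𝔠 𝔎 Ω) {x : 𝔠} (hx : Transcendental K x) [FiniteDimensional K⟮x⟯ 𝔠] :
    S26errfGenus 𝔎 Ω (genusFF K 𝔠) := by
  obtain ⟨h0, hR, A₀, hA₀⟩ := s27rr_genus x hx
  refine ⟨h0, fun Δ => s26gspf_riemann hld hgen (s26gspf_hall hx) hx _ hR Δ,
    Finsupp.mapDomain (s26gspCon hld hgen (s26gspf_hall hx)) A₀, ?_⟩
  rw [s27gbc_finrank_con hld hgen hx A₀, s27gbc_degree_con hld hgen hx A₀]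
  exact hA₀

variable [IsAlgClosed 𝔎]

/-- **GENUS-BC**: `genusFF 𝔎 Ω = genusFF K 𝔠`. -/
theorem s27gbc_genus (hld : Function.Injective (s26gspMu K 𝔠 𝔎 Ω))
    (hgen : S26gspGen K 𝔠 𝔎 Ω) {x : 𝔠} (hx : Transcendental K x) [FiniteDimensional K⟮x⟯ 𝔠] :
    genusFF 𝔎 Ω = genusFF K 𝔠 := by
  have hfin := s27gbc_finite (𝔎 := 𝔎) (Ω := Ω) hgen x
  have h1 : S26errfGenus 𝔎 Ω (genusFF 𝔎 Ω) :=
    s27rr_genus (algebraMap 𝔠 Ω x) (s27gbc_transc hld hx)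
  have h2 := s26errf_genus_unique h1 (s27gbc_isGenus hld hgen hx)
  exact_mod_cast h2

/-- Riemann's inequality over `𝔎` with the genus of `𝔠 / K`. -/
theorem s27gbc_riemann (hld : Function.Injective (s26gspMu K 𝔠 𝔎 Ω))
    (hgen : S26gspGen K 𝔠 𝔎 Ω) {x : 𝔠} (hx : Transcendental K x) [FiniteDimensional K⟮x⟯ 𝔠]
    (Δ : Divisor 𝔎 Ω) :
    Divisor.degree Δ + 1 - genusFF K 𝔠 ≤ (finrank 𝔎 ↥(riemannRochSpace Δ) : ℤ) :=
  (s27gbc_isGenus hld hgen hx).2.1 Δ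

/-- Riemann's equality in large degree over `𝔎` with the genus of `𝔠 / K`. -/
theorem s27gbc_large (hld : Function.Injective (s26gspMu K 𝔠 𝔎 Ω))
    (hgen : S26gspGen K 𝔠 𝔎 Ω) {x : 𝔠} (hx : Transcendental K x) [FiniteDimensional K⟮x⟯ 𝔠] :
    ∃ c : ℤ, ∀ Δ : Divisor 𝔎 Ω, c ≤ Divisor.degree Δ →
      (finrank 𝔎 ↥(riemannRochSpace Δ) : ℤ) = Divisor.degree Δ + 1 - genusFF K 𝔠 := by
  have hfin := s27gbc_finite (𝔎 := 𝔎) (Ω := Ω) hgen x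
  have h := s27rr_large (algebraMap 𝔠 Ω x) (s27gbc_transc hld hx)
  rw [s27gbc_genus hld hgen hx] at h
  exact h

/-- `H1 Δ` over `𝔎`: finite-dimensional, `l(Δ) − dim H1 Δ = deg Δ + 1 − genusFF K 𝔠`. -/
theorem s27gbc_h1 (hld : Function.Injective (s26gspMu K 𝔠 𝔎 Ω))
    (hgen : S26gspGen K 𝔠 𝔎 Ω) {x : 𝔠} (hx : Transcendental K x) [FiniteDimensional K⟮x⟯ 𝔠]
    (Δ : Divisor 𝔎 Ω) :
    Module.Finite 𝔎 (H1 Δ) ∧
      (finrank 𝔎 ↥(riemannRochSpace Δ) : ℤ) - finrank 𝔎 (H1 Δ)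
        = Divisor.degree Δ + 1 - genusFF K 𝔠 := by
  have hfin := s27gbc_finite (𝔎 := 𝔎) (Ω := Ω) hgen x
  have h := s27rr_h1_final (algebraMap 𝔠 Ω x) (s27gbc_transc hld hx) Δ
  rw [s27gbc_genus hld hgen hx] at h
  exact h

end

end Fermat.Agent.S27

end
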