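/-
S27, route B, piece DEG-A2 (helper18): the SEMILINEAR action of `Aut(𝔎 / K)` on the places and
divisors of the constant extension `Ω = Frac (𝔠 ⊗[K] 𝔎)` over `𝔎`.

Setting of S26/ERRGaussPlace.lean (helper96): fields `K ⊆ 𝔠`, `K ⊆ 𝔎`, `Ω ⊇ 𝔠, 𝔎`.
An action datum `A : S27raAct K 𝔠 𝔎 Ω` is a monoid hom `act : (𝔎 ≃ₐ[K] 𝔎) →* (Ω ≃ₐ[K] Ω)` with
`act h` = `h` on `𝔎` and = `id` on `𝔠` (leaf DEG-A1 constructs it for a fraction ring).

* `s27raPl A h : Place 𝔎 Ω → Place 𝔎 Ω`, `s27raPl_ord : (h·w).ord (act h f) = w.ord f`,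
  `s27raPl_one`, `s27raPl_mul`, `s27raPl_inv_apply`, `s27raPl_injective`, `s27raPl_surjective`;
* `s27raPl_con` : the constant (Gauss) places `Con Q` are fixed;
  `s27raPl_trivial` : "trivial on `𝔠`" is preserved;
* `s27raDiv A h : Divisor 𝔎 Ω → Divisor 𝔎 Ω` (`Finsupp.mapDomain`), `s27raDiv_apply`,
  `s27raDiv_principal` (`h · div G = div (act h G)`), `s27raDiv_add`, `s27raDiv_single`,
  `s27raDiv_nonneg`, `s27raDiv_support`, `s27raDiv_degree` (all places of degree one),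
  `s27ra_mem_rr` (`f ∈ L(D) ⇒ act h f ∈ L(h·D)`), `s27ra_mem_rr_iff`.
-/
import Fermat.Agent.S26.ERRGaussCon

set_option autoImplicit false
set_option linter.style.haveILetI false
set_option linter.unusedSectionVars false
set_option linter.unusedVariables false

noncomputable section

namespace Fermat.Agent.S27

open AlgebraicCurve TensorProduct Fermat.Agent.S26
open scoped Pointwise

variable {K 𝔠 𝔎 Ω : Type*} [Field K] [Field 𝔠] [Field 𝔎] [Field Ω]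
  [Algebra K 𝔠] [Algebra K 𝔎] [Algebra K Ω] [Algebra 𝔠 Ω] [Algebra 𝔎 Ω]
  [IsScalarTower K 𝔠 Ω] [IsScalarTower K 𝔎 Ω]

/-- **The action datum**: `Aut(𝔎 / K)` acts on `Ω` by `K`-automorphisms, through `h` on `𝔎` and
trivially on `𝔠`. -/
structure S27raAct (K 𝔠 𝔎 Ω : Type*) [Field K] [Field 𝔠] [Field 𝔎] [Field Ω]
    [Algebra K 𝔠] [Algebra K 𝔎] [Algebra K Ω] [Algebra 𝔠 Ω] [Algebra 𝔎 Ω] where
  /-- the action -/
  act : (𝔎 ≃ₐ[K] 𝔎) →* (Ω ≃ₐ[K] Ω)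
  /-- it extends `h` -/
  act_const : ∀ (h : 𝔎 ≃ₐ[K] 𝔎) (c : 𝔎), act h (algebraMap 𝔎 Ω c) = algebraMap 𝔎 Ω (h c)
  /-- it fixes `𝔠` -/
  act_fix : ∀ (h : 𝔎 ≃ₐ[K] 𝔎) (f : 𝔠), act h (algebraMap 𝔠 Ω f) = algebraMap 𝔠 Ω f

variable (A : S27raAct K 𝔠 𝔎 Ω)

theorem s27ra_act_inv_apply (h : 𝔎 ≃ₐ[K] 𝔎) (x : Ω) : A.act h⁻¹ (A.act h x) = x := by
  have : A.act h⁻¹ * A.act h = 1 := by rw [← map_mul, inv_mul_cancel, map_one]
  exact congrArg (fun e : Ω ≃ₐ[K] Ω => e x) this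

theorem s27ra_act_apply_inv (h : 𝔎 ≃ₐ[K] 𝔎) (x : Ω) : A.act h (A.act h⁻¹ x) = x := by
  have : A.act h * A.act h⁻¹ = 1 := by rw [← map_mul, mul_inv_cancel, map_one]
  exact congrArg (fun e : Ω ≃ₐ[K] Ω => e x) this

/-- the place `h · w`. -/
def s27raPl (h : 𝔎 ≃ₐ[K] 𝔎) (w : Place 𝔎 Ω) : Place 𝔎 Ω where
  toValuationSubring := A.act h • w.toValuationSubring
  algebraMap_mem' a := by
    have h1 := ValuationSubring.smul_mem_pointwise_smul (A.act h) (algebraMap 𝔎 Ω (h⁻¹ a))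
      w.toValuationSubring (w.algebraMap_mem' _)
    rw [AlgEquiv.smul_def, A.act_const] at h1
    have h2 : h (h⁻¹ a) = a := by
      change (h * h⁻¹) a = a
      rw [mul_inv_cancel]; rfl
    rwa [h2] at h1
  ne_top' := fun hh => w.ne_top' <| by
    have := congrArg ((A.act h)⁻¹ • ·) hh
    simpa [ValuationSubring.pointwise_smul_top] using this
  isPrincipalIdealRing' :=
    IsPrincipalIdealRing.of_surjective
      (Place.smulRingEquiv (A.act h) w.toValuationSubring : _ ≃+* _)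
      (Place.smulRingEquiv (A.act h) w.toValuationSubring).surjective

@[simp]
theorem s27raPl_toValuationSubring (h : 𝔎 ≃ₐ[K] 𝔎) (w : Place 𝔎 Ω) :
    (s27raPl A h w).toValuationSubring = A.act h • w.toValuationSubring := rfl

theorem s27raPl_restrict (h : 𝔎 ≃ₐ[K] 𝔎) (w : Place 𝔎 Ω) :
    s26gspRestrictScalars K (s27raPl A h w) = A.act h • s26gspRestrictScalars K w :=
  Place.ext rfl

/-- **`ord_{h·w} (h f) = ord_w f`**. -/
theorem s27raPl_ord (h : 𝔎 ≃ₐ[K] 𝔎) (w : Place 𝔎 Ω) (f : Ω) :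
    (s27raPl A h w).ord (A.act h f) = w.ord f := by
  have h1 := Place.ord_smul (A.act h) (s26gspRestrictScalars K w) f
  rw [← s27raPl_restrict, s26gspRestrictScalars_ord, s26gspRestrictScalars_ord] at h1
  exact h1

theorem s27raPl_one (w : Place 𝔎 Ω) : s27raPl A 1 w = w := by
  apply Place.ext
  rw [s27raPl_toValuationSubring, map_one, one_smul]

theorem s27raPl_mul (h₁ h₂ : 𝔎 ≃ₐ[K] 𝔎) (w : Place 𝔎 Ω) :
    s27raPl A (h₁ * h₂) w = s27raPl A h₁ (s27raPl A h₂ w) := by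
  apply Place.ext
  simp only [s27raPl_toValuationSubring]
  rw [map_mul, mul_smul]

theorem s27raPl_inv_apply (h : 𝔎 ≃ₐ[K] 𝔎) (w : Place 𝔎 Ω) :
    s27raPl A h⁻¹ (s27raPl A h w) = w := by
  rw [← s27raPl_mul, inv_mul_cancel, s27raPl_one]

theorem s27raPl_apply_inv (h : 𝔎 ≃ₐ[K] 𝔎) (w : Place 𝔎 Ω) :
    s27raPl A h (s27raPl A h⁻¹ w) = w := by
  rw [← s27raPl_mul, mul_inv_cancel, s27raPl_one]

theorem s27raPl_injective (h : 𝔎 ≃ₐ[K] 𝔎) : Function.Injective (s27raPl A h) :=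
  Function.LeftInverse.injective (s27raPl_inv_apply A h)

theorem s27raPl_surjective (h : 𝔎 ≃ₐ[K] 𝔎) : Function.Surjective (s27raPl A h) :=
  fun w => ⟨s27raPl A h⁻¹ w, s27raPl_apply_inv A h w⟩

/-- `ord_{h·w} f = ord_w (h⁻¹ f)`. -/
theorem s27raPl_ord' (h : 𝔎 ≃ₐ[K] 𝔎) (w : Place 𝔎 Ω) (f : Ω) :
    (s27raPl A h w).ord f = w.ord (A.act h⁻¹ f) := by
  rw [← s27raPl_ord A h w (A.act h⁻¹ f), s27ra_act_apply_inv]

/-- "trivial on `𝔠`" is preserved. -/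
theorem s27raPl_ord_fix (h : 𝔎 ≃ₐ[K] 𝔎) (w : Place 𝔎 Ω) (u : 𝔠) :
    (s27raPl A h w).ord (algebraMap 𝔠 Ω u) = w.ord (algebraMap 𝔠 Ω u) := by
  rw [← s27raPl_ord A h w (algebraMap 𝔠 Ω u), A.act_fix]

theorem s27raPl_trivial (h : 𝔎 ≃ₐ[K] 𝔎) (w : Place 𝔎 Ω)
    (hw : ∀ u : 𝔠, w.ord (algebraMap 𝔠 Ω u) = 0) (u : 𝔠) :
    (s27raPl A h w).ord (algebraMap 𝔠 Ω u) = 0 := by
  rw [s27raPl_ord_fix, hw]

/-- **The constant places are fixed.** -/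
theorem s27raPl_con (hld : Function.Injective (s26gspMu K 𝔠 𝔎 Ω)) (hgen : S26gspGen K 𝔠 𝔎 Ω)
    (hall : ∀ P : Place K 𝔠, Function.Surjective (algebraMap K P.ResidueField))
    (h : 𝔎 ≃ₐ[K] 𝔎) (Q : Place K 𝔠) :
    s27raPl A h (s26gspCon hld hgen hall Q) = s26gspCon hld hgen hall Q := by
  apply s26gspc_hcon hld hgen hall
  ext f
  rw [ValuationSubring.mem_comap, s27raPl_toValuationSubring,
    ValuationSubring.mem_pointwise_smul_iff_inv_smul_mem, ← s26gspc_comap hld hgen hall Q,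
    ValuationSubring.mem_comap]
  have h1 : (A.act h)⁻¹ • (algebraMap 𝔠 Ω f) = algebraMap 𝔠 Ω f := by
    rw [← map_inv, AlgEquiv.smul_def, A.act_fix]
  rw [h1]

/-! ### Divisors -/

/-- the divisor `h · D`. -/
def s27raDiv (h : 𝔎 ≃ₐ[K] 𝔎) (D : Divisor 𝔎 Ω) : Divisor 𝔎 Ω :=
  Finsupp.mapDomain (s27raPl A h) D

theorem s27raDiv_apply (h : 𝔎 ≃ₐ[K] 𝔎) (D : Divisor 𝔎 Ω) (w : Place 𝔎 Ω) :
    s27raDiv A h D (s27raPl A h w) = D w :=
  Finsupp.mapDomain_apply (s27raPl_injective A h) D w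

theorem s27raDiv_apply' (h : 𝔎 ≃ₐ[K] 𝔎) (D : Divisor 𝔎 Ω) (w : Place 𝔎 Ω) :
    s27raDiv A h D w = D (s27raPl A h⁻¹ w) := by
  conv_lhs => rw [← s27raPl_apply_inv A h w]
  rw [s27raDiv_apply]

theorem s27raDiv_add (h : 𝔎 ≃ₐ[K] 𝔎) (D E : Divisor 𝔎 Ω) :
    s27raDiv A h (D + E) = s27raDiv A h D + s27raDiv A h E :=
  Finsupp.mapDomain_add

theorem s27raDiv_zero (h : 𝔎 ≃ₐ[K] 𝔎) : s27raDiv A h (0 : Divisor 𝔎 Ω) = 0 :=
  Finsupp.mapDomain_zero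

theorem s27raDiv_single (h : 𝔎 ≃ₐ[K] 𝔎) (w : Place 𝔎 Ω) (n : ℤ) :
    s27raDiv A h (Finsupp.single w n) = Finsupp.single (s27raPl A h w) n :=
  Finsupp.mapDomain_single

theorem s27raDiv_sub (h : 𝔎 ≃ₐ[K] 𝔎) (D E : Divisor 𝔎 Ω) :
    s27raDiv A h (D - E) = s27raDiv A h D - s27raDiv A h E := by
  ext w
  rw [s27raDiv_apply', Finsupp.sub_apply, Finsupp.sub_apply, s27raDiv_apply', s27raDiv_apply']

theorem s27raDiv_one (D : Divisor 𝔎 Ω) : s27raDiv A 1 D = D := by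
  ext w
  rw [s27raDiv_apply', inv_one, s27raPl_one]

theorem s27raDiv_mul (h₁ h₂ : 𝔎 ≃ₐ[K] 𝔎) (D : Divisor 𝔎 Ω) :
    s27raDiv A (h₁ * h₂) D = s27raDiv A h₁ (s27raDiv A h₂ D) := by
  ext w
  rw [s27raDiv_apply', s27raDiv_apply', s27raDiv_apply', mul_inv_rev, s27raPl_mul]

theorem s27raDiv_inv_apply (h : 𝔎 ≃ₐ[K] 𝔎) (D : Divisor 𝔎 Ω) :
    s27raDiv A h⁻¹ (s27raDiv A h D) = D := by
  rw [← s27raDiv_mul, inv_mul_cancel, s27raDiv_one]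

/-- **`h · div G = div (h G)`**. -/
theorem s27raDiv_principal (h : 𝔎 ≃ₐ[K] 𝔎) (D : Divisor 𝔎 Ω) (G : Ω)
    (hD : ∀ w : Place 𝔎 Ω, D w = w.ord G) (w : Place 𝔎 Ω) :
    s27raDiv A h D w = w.ord (A.act h G) := by
  rw [s27raDiv_apply', hD, ← s27raPl_ord A h, s27raPl_apply_inv]

theorem s27raDiv_nonneg (h : 𝔎 ≃ₐ[K] 𝔎) {D : Divisor 𝔎 Ω} (hD : 0 ≤ D) :
    0 ≤ s27raDiv A h D := by
  intro w
  rw [s27raDiv_apply']
  exact hD _

theorem s27raDiv_support (h : 𝔎 ≃ₐ[K] 𝔎) (D : Divisor 𝔎 Ω) (w : Place 𝔎 Ω) :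
    w ∈ (s27raDiv A h D).support ↔ s27raPl A h⁻¹ w ∈ D.support := by
  rw [Finsupp.mem_support_iff, Finsupp.mem_support_iff, s27raDiv_apply']

/-- the degree is preserved when all places have degree one. -/
theorem s27raDiv_degree (hdeg : ∀ w : Place 𝔎 Ω, w.deg = 1) (h : 𝔎 ≃ₐ[K] 𝔎)
    (D : Divisor 𝔎 Ω) : Divisor.degree (s27raDiv A h D) = Divisor.degree D := by
  induction D using Finsupp.induction_linear with
  | zero => simp [s27raDiv_zero]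
  | add x y hx hy => rw [s27raDiv_add, map_add, map_add, hx, hy]
  | single Q n =>
    rw [s27raDiv_single, Divisor.degree_single, Divisor.degree_single, hdeg, hdeg]

/-- **`f ∈ L(D) ⇒ h f ∈ L(h · D)`**. -/
theorem s27ra_mem_rr (h : 𝔎 ≃ₐ[K] 𝔎) {D : Divisor 𝔎 Ω} {f : Ω}
    (hf : f ∈ riemannRochSpace D) : A.act h f ∈ riemannRochSpace (s27raDiv A h D) := by
  rw [mem_riemannRochSpace_iff] at hf ⊢
  intro w
  rcases hf (s27raPl A h⁻¹ w) with h0 | h1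
  · left; rw [h0, map_zero]
  · right
    rw [s27raDiv_apply', ← s27raPl_ord A h (s27raPl A h⁻¹ w) f, s27raPl_apply_inv] at *
    exact h1

theorem s27ra_mem_rr_iff (h : 𝔎 ≃ₐ[K] 𝔎) {D : Divisor 𝔎 Ω} {f : Ω} :
    A.act h f ∈ riemannRochSpace (s27raDiv A h D) ↔ f ∈ riemannRochSpace D := by
  refine ⟨fun hf => ?_, s27ra_mem_rr A h⟩
  have := s27ra_mem_rr A h⁻¹ hf
  rwa [s27raDiv_inv_apply, s27ra_act_inv_apply] at this

end Fermat.Agent.S27
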