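/-
S27, route B, piece DEG-A4 "EVAL", part 2 (helper12): the evaluation `s27ev` (S27/RigEval.lean)
is equivariant for the semilinear action `S27raAct` of `Aut(𝔎 / K)` (S27/RigAct.lean, helper18).

* `s27eva_residue_eq_iff` : `residue x = c ↔ x - c ∈ w.nonunits` (`x ∈ 𝒪_w`, `c ∈ 𝔎`);
* `s27eva_hres`   : if `κ(w) = 𝔎` then `κ(h · w) = 𝔎`;
* `s27eva_act`    : `ev_{h·w} u = h (ev_w u)`;
* `s27eva_act'`   : the same with the canonical proofs for `h · w`;
* `s27eva_fixed`  : if `h · w = w` then `h (ev_w u) = ev_w u`.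
-/
import Fermat.Agent.S27.RigAct
import Fermat.Agent.S27.RigEval

set_option autoImplicit false
set_option linter.style.haveILetI false
set_option linter.unusedSectionVars false
set_option linter.unusedVariables false

noncomputable section

namespace Fermat.Agent.S27

open AlgebraicCurve IsLocalRing Fermat.Agent.S26
open scoped Pointwise

variable {K 𝔠 𝔎 Ω : Type*} [Field K] [Field 𝔠] [Field 𝔎] [Field Ω]
  [Algebra K 𝔠] [Algebra K 𝔎] [Algebra K Ω] [Algebra 𝔠 Ω] [Algebra 𝔎 Ω]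
  [IsScalarTower K 𝔠 Ω] [IsScalarTower K 𝔎 Ω]

/-- `residue x = c ↔ x - c ∈ 𝔪_w`. -/
theorem s27eva_residue_eq_iff (w : Place 𝔎 Ω) (x : ↥w.toValuationSubring) (c : 𝔎) :
    IsLocalRing.residue ↥w.toValuationSubring x = algebraMap 𝔎 w.ResidueField c ↔
      (x : Ω) - algebraMap 𝔎 Ω c ∈ w.toValuationSubring.nonunits := by
  have hmem : (x : Ω) - algebraMap 𝔎 Ω c ∈ w.toValuationSubring :=
    sub_mem x.2 (w.algebraMap_mem' c)
  rw [s27ev_algebraMap_residue, ← sub_eq_zero, ← map_sub, IsLocalRing.residue_eq_zero_iff,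
    ValuationSubring.mem_nonunits_iff_exists_mem_maximalIdeal]
  constructor
  · intro h
    exact ⟨hmem, h⟩
  · rintro ⟨_, h⟩
    exact h

/-- membership in the nonunits, by orders. -/
theorem s27eva_mem_nonunits_iff (w : Place 𝔎 Ω) (x : Ω) :
    x ∈ w.toValuationSubring.nonunits ↔ x = 0 ∨ 0 < w.ord x := by
  by_cases h0 : x = 0
  · rw [h0]
    exact ⟨fun _ => Or.inl rfl, fun _ => s27ev_zero_mem_nonunits w⟩
  · rw [← Fermat.Agent.S24.PlaceAux.ord_pos_iff_mem_nonunits w h0]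
    exact ⟨Or.inr, fun h => h.resolve_left h0⟩

variable (A : S27raAct K 𝔠 𝔎 Ω)

/-- the action maps `𝔪_w` onto `𝔪_{h·w}`. -/
theorem s27eva_act_mem_nonunits (h : 𝔎 ≃ₐ[K] 𝔎) (w : Place 𝔎 Ω) {x : Ω}
    (hx : x ∈ w.toValuationSubring.nonunits) :
    A.act h x ∈ (s27raPl A h w).toValuationSubring.nonunits := by
  rw [s27eva_mem_nonunits_iff] at hx ⊢
  rcases hx with hx | hx
  · left
    rw [hx, map_zero]
  · right
    rw [s27raPl_ord]
    exact hx

theorem s27eva_act_mem (h : 𝔎 ≃ₐ[K] 𝔎) (w : Place 𝔎 Ω) {x : Ω}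
    (hx : x ∈ (s27raPl A h w).toValuationSubring) :
    A.act h⁻¹ x ∈ w.toValuationSubring := by
  rcases eq_or_ne x 0 with rfl | h0
  · rw [map_zero]
    exact zero_mem _
  have h1 : A.act h⁻¹ x ≠ 0 := by simpa using h0
  rw [← Fermat.Agent.S24.PlaceAux.ord_nonneg_iff w h1, ← s27raPl_ord A h w,
    s27ra_act_apply_inv]
  exact (Fermat.Agent.S24.PlaceAux.ord_nonneg_iff _ h0).2 hx

/-- **`κ(w) = 𝔎 ⇒ κ(h · w) = 𝔎`.** -/
theorem s27eva_hres (h : 𝔎 ≃ₐ[K] 𝔎) (w : Place 𝔎 Ω)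
    (hres : Function.Surjective (algebraMap 𝔎 w.ResidueField)) :
    Function.Surjective (algebraMap 𝔎 (s27raPl A h w).ResidueField) := by
  intro z
  obtain ⟨x, rfl⟩ := IsLocalRing.residue_surjective z
  obtain ⟨c, hc⟩ := hres (IsLocalRing.residue _ ⟨A.act h⁻¹ (x : Ω), s27eva_act_mem A h w x.2⟩)
  refine ⟨h c, ?_⟩
  symm
  rw [s27eva_residue_eq_iff]
  have h1 := (s27eva_residue_eq_iff w ⟨A.act h⁻¹ (x : Ω), s27eva_act_mem A h w x.2⟩ c).1 hc.symm
  have h2 := s27eva_act_mem_nonunits A h w h1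
  have h3 : A.act h (A.act h⁻¹ (x : Ω) - algebraMap 𝔎 Ω c) = (x : Ω) - algebraMap 𝔎 Ω (h c) := by
    rw [map_sub, s27ra_act_apply_inv, A.act_const]
  rw [← h3]
  exact h2

/-- **DEG-A4, equivariance**: `ev_{h·w} u = h (ev_w u)`. -/
theorem s27eva_act (h : 𝔎 ≃ₐ[K] 𝔎) (w : Place 𝔎 Ω)
    (hw : ∀ u : 𝔠, w.ord (algebraMap 𝔠 Ω u) = 0)
    (hres : Function.Surjective (algebraMap 𝔎 w.ResidueField))
    (hw' : ∀ u : 𝔠, (s27raPl A h w).ord (algebraMap 𝔠 Ω u) = 0)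
    (hres' : Function.Surjective (algebraMap 𝔎 (s27raPl A h w).ResidueField)) (u : 𝔠) :
    s27ev (K := K) (s27raPl A h w) hw' hres' u = h (s27ev (K := K) w hw hres u) :=
  s27ev_equivariant (K := K) w (s27raPl A h w) hw hw' hres hres'
    (A.act h).toRingEquiv h.toRingEquiv (fun u => A.act_fix h u) (fun c => A.act_const h c)
    (fun f => s27raPl_ord A h w f) u

/-- the same with the canonical proofs for `h · w`. -/
theorem s27eva_act' (h : 𝔎 ≃ₐ[K] 𝔎) (w : Place 𝔎 Ω)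
    (hw : ∀ u : 𝔠, w.ord (algebraMap 𝔠 Ω u) = 0)
    (hres : Function.Surjective (algebraMap 𝔎 w.ResidueField)) (u : 𝔠) :
    s27ev (K := K) (s27raPl A h w) (s27raPl_trivial A h w hw) (s27eva_hres A h w hres) u
      = h (s27ev (K := K) w hw hres u) :=
  s27eva_act A h w hw hres _ _ u

/-- if `h` fixes the place `w`, it fixes the values `ev_w u`. -/
theorem s27eva_fixed (h : 𝔎 ≃ₐ[K] 𝔎) (w : Place 𝔎 Ω)
    (hw : ∀ u : 𝔠, w.ord (algebraMap 𝔠 Ω u) = 0)
    (hres : Function.Surjective (algebraMap 𝔎 w.ResidueField))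
    (hfix : s27raPl A h w = w) (u : 𝔠) :
    h (s27ev (K := K) w hw hres u) = s27ev (K := K) w hw hres u := by
  have e := s27ev_eq_of_same (K := K) w (s27raPl A h w) hfix.symm hw
    (s27raPl_trivial A h w hw) hres (s27eva_hres A h w hres) u
  rw [← s27eva_act' A h w hw hres u, e]

end Fermat.Agent.S27
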