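/-
S27, route B, piece DEG-B4e "PKG", part 2 (helper45): **the concrete degree package**
`S27DegPkg K 𝔠 𝔎 x g (Place 𝔎 Ω) (Pic0 𝔎 Ω)` for the constant extension `Ω = Frac (𝔠 ⊗[K] 𝔎)`.

Setting of `S26/ERRGaussPlace.lean` (helper96) with an action datum `A : S27raAct K 𝔠 𝔎 Ω`
(helper18's `S27/RigAct.lean`; `S27/RigActTensor.lean` constructs it for a fraction ring).

* `s27pkgActC A hdeg h : Pic0 𝔎 Ω →+ Pic0 𝔎 Ω` : the action of `h ∈ Aut(𝔎 / K)` on the classes;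
  `s27pkgActC_mk`, `s27pkgActC_cl`;
* `s27pkg_act_pt`    : `h · pt e = pt (h ∘ e)`;
* `s27pkg_act_const` : `h · R = R` for a place `R` which is not a point place;
* `s27pkg_hdeg`      : all places of `Ω / 𝔎` have degree one (`𝔎` algebraically closed);
* `s27pkg`           : **the package**, with `g = genusFF K 𝔠`, `pt e = s27gpPlace hld hgen e hx`,
  `cl R = s27pkgCl _ (Con P₀) R`, `actP = s27raPl A`, `actC = s27pkgActC A _`; the only
  hypothesis left is NONSPECIAL (`hns`: `L(Σ_i pt (e i))` = constants for a generic tuple `e`).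
-/
import Fermat.Agent.S27.DegPkg
import Fermat.Agent.S27.DegPt
import Fermat.Agent.S27.RigEvalAct
import Fermat.Agent.S27.GenusBC
import Fermat.Agent.S27.DegAbs

set_option autoImplicit false
set_option linter.style.haveILetI false
set_option linter.unusedSectionVars false
set_option linter.unusedVariables false

noncomputable section

namespace Fermat.Agent.S27

open AlgebraicCurve IsLocalRing TensorProduct Module IntermediateField
open Fermat.Agent.S26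

variable {K 𝔠 𝔎 Ω : Type*} [Field K] [Field 𝔠] [Field 𝔎] [Field Ω]
  [Algebra K 𝔠] [Algebra K 𝔎] [Algebra K Ω] [Algebra 𝔠 Ω] [Algebra 𝔎 Ω]
  [IsScalarTower K 𝔠 Ω] [IsScalarTower K 𝔎 Ω]

/-! ### The action on the classes -/

section Act

variable (A : S27raAct K 𝔠 𝔎 Ω) (hdeg : ∀ w : Place 𝔎 Ω, w.deg = 1)

/-- `D ↦ h · D` as an additive homomorphism. -/
def s27pkgActDiv (h : 𝔎 ≃ₐ[K] 𝔎) : Divisor 𝔎 Ω →+ Divisor 𝔎 Ω :=
  Finsupp.mapDomain.addMonoidHom (s27raPl A h)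

@[simp] theorem s27pkgActDiv_apply (h : 𝔎 ≃ₐ[K] 𝔎) (D : Divisor 𝔎 Ω) :
    s27pkgActDiv A h D = s27raDiv A h D := rfl

/-- `D ↦ h · D` on the divisors of degree `0`. -/
def s27pkgActZero (h : 𝔎 ≃ₐ[K] 𝔎) :
    Divisor.degZero (K := 𝔎) (F := Ω) →+ Divisor.degZero (K := 𝔎) (F := Ω) :=
  ((s27pkgActDiv A h).comp (Divisor.degZero (K := 𝔎) (F := Ω)).subtype).codRestrict _
    (fun D => by
      rw [Divisor.mem_degZero]
      show Divisor.degree (s27raDiv A h (D : Divisor 𝔎 Ω)) = 0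
      rw [s27raDiv_degree A hdeg]
      exact D.2)

@[simp] theorem s27pkgActZero_coe (h : 𝔎 ≃ₐ[K] 𝔎) (D : Divisor.degZero (K := 𝔎) (F := Ω)) :
    (s27pkgActZero A hdeg h D : Divisor 𝔎 Ω) = s27raDiv A h (D : Divisor 𝔎 Ω) := rfl

theorem s27pkgActZero_principal (h : 𝔎 ≃ₐ[K] 𝔎) (D : Divisor.degZero (K := 𝔎) (F := Ω))
    (hD : (D : Divisor 𝔎 Ω) ∈ Divisor.principal (K := 𝔎) (F := Ω)) :
    (s27pkgActZero A hdeg h D : Divisor 𝔎 Ω) ∈ Divisor.principal (K := 𝔎) (F := Ω) := by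
  obtain ⟨G, hG, hDG⟩ := hD
  refine ⟨A.act h G, by simpa using hG, fun w => ?_⟩
  rw [s27pkgActZero_coe]
  exact s27raDiv_principal A h (D : Divisor 𝔎 Ω) G hDG w

/-- **the action of `Aut(𝔎 / K)` on `Pic0 𝔎 Ω`**. -/
def s27pkgActC (h : 𝔎 ≃ₐ[K] 𝔎) : Pic0 𝔎 Ω →+ Pic0 𝔎 Ω :=
  QuotientAddGroup.map _ _ (s27pkgActZero A hdeg h) (by
    intro D hD
    rw [AddSubgroup.mem_comap, AddSubgroup.mem_addSubgroupOf]
    rw [AddSubgroup.mem_addSubgroupOf] at hD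
    exact s27pkgActZero_principal A hdeg h D hD)

theorem s27pkgActC_mk (h : 𝔎 ≃ₐ[K] 𝔎) (D : Divisor.degZero (K := 𝔎) (F := Ω)) :
    s27pkgActC A hdeg h (Pic0.mk D) = Pic0.mk (s27pkgActZero A hdeg h D) := rfl

theorem s27pkg_raDiv_sum (h : 𝔎 ≃ₐ[K] 𝔎) {g : ℕ} (R : Fin g → Place 𝔎 Ω) :
    s27raDiv A h (s27pkgSum R) = s27pkgSum fun i => s27raPl A h (R i) := by
  unfold s27pkgSum
  rw [← s27pkgActDiv_apply, map_sum]
  simp only [s27pkgActDiv_apply, s27raDiv_single]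

/-- `h · cl R = cl (h · R)` (the base place `P₀` is fixed). -/
theorem s27pkgActC_cl (h : 𝔎 ≃ₐ[K] 𝔎) (P₀ : Place 𝔎 Ω) (hP₀ : s27raPl A h P₀ = P₀) {g : ℕ}
    (R : Fin g → Place 𝔎 Ω) :
    s27pkgActC A hdeg h (s27pkgCl hdeg P₀ R) = s27pkgCl hdeg P₀ fun i => s27raPl A h (R i) := by
  unfold s27pkgCl
  rw [s27pkgActC_mk]
  congr 1
  apply Subtype.ext
  show s27raDiv A h (s27pkgSum R - Finsupp.single P₀ (g : ℤ))
    = s27pkgSum (fun i => s27raPl A h (R i)) - Finsupp.single P₀ (g : ℤ)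
  rw [s27raDiv_sub, s27pkg_raDiv_sum, s27raDiv_single, hP₀]

end Act

/-! ### The action on the point places -/

section Pt

variable (A : S27raAct K 𝔠 𝔎 Ω)
  (hld : Function.Injective (s26gspMu K 𝔠 𝔎 Ω)) (hgen : S26gspGen K 𝔠 𝔎 Ω)
  (hall : ∀ P : Place K 𝔠, Function.Surjective (algebraMap K P.ResidueField))
  {x : 𝔠} (hx : Transcendental K x)
  [FiniteDimensional ↥(IntermediateField.adjoin K {x}) 𝔠]
  [Algebra.IsSeparable ↥(IntermediateField.adjoin K {x}) 𝔠]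

/-- the action preserves "point place", with evaluation `h ∘ e`. -/
theorem s27pkg_act_isPt (h : 𝔎 ≃ₐ[K] 𝔎) {w : Place 𝔎 Ω} {e : 𝔠 →ₐ[K] 𝔎} (hw : S27ptIsPt w e) :
    S27ptIsPt (s27raPl A h w) ((h : 𝔎 →ₐ[K] 𝔎).comp e) := by
  intro u
  have h1 := s27eva_act_mem_nonunits A h w (hw u)
  rw [map_sub, A.act_fix, A.act_const] at h1
  exact h1

/-- **`h · pt e = pt (h ∘ e)`**. -/
theorem s27pkg_act_pt (h : 𝔎 ≃ₐ[K] 𝔎) (e : 𝔠 →ₐ[K] 𝔎) :
    s27raPl A h (s27gpPlace hld hgen e hx) =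
      s27gpPlace hld hgen ((h : 𝔎 →ₐ[K] 𝔎).comp e) hx :=
  s27pt_eq_gpPlace hld hgen hx (s27pkg_act_isPt A h (s27pt_isPt_gpPlace hld hgen hx e))

include hall in
/-- **the places which are not point places are fixed** (`𝔎` algebraically closed). -/
theorem s27pkg_act_const [IsAlgClosed 𝔎] (h : 𝔎 ≃ₐ[K] 𝔎) (R : Place 𝔎 Ω)
    (hR : R ∉ Set.range fun e : 𝔠 →ₐ[K] 𝔎 => s27gpPlace hld hgen e hx) :
    s27raPl A h R = R := by
  rcases s27pt_classify hld hgen hall hx R with ⟨Q, rfl⟩ | ⟨e, he⟩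
  · exact s27raPl_con A hld hgen hall h Q
  · exact absurd ⟨e, he.symm⟩ hR

include hld hgen hx in
/-- all places of `Ω / 𝔎` have degree one (`𝔎` algebraically closed). -/
theorem s27pkg_hdeg [IsAlgClosed 𝔎] (w : Place 𝔎 Ω) : w.deg = 1 :=
  s26gspc_deg_eq_one w (s27pt_hres hld hgen hx w)

end Pt

/-! ### The package -/

section Pkg

variable [IsAlgClosed K] [CharZero K] [IsAlgClosed 𝔎]
  (A : S27raAct K 𝔠 𝔎 Ω)
  (hld : Function.Injective (s26gspMu K 𝔠 𝔎 Ω)) (hgen : S26gspGen K 𝔠 𝔎 Ω)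
  {x : 𝔠} (hx : Transcendental K x)
  [FiniteDimensional ↥(IntermediateField.adjoin K {x}) 𝔠]
  [Algebra.IsSeparable ↥(IntermediateField.adjoin K {x}) 𝔠]

/-- **NONSPECIAL** (input of the package, leaf DEG-B2): for a generic tuple `e` of
`g = genusFF K 𝔠` points, `L(Σ_i pt (e i))` consists of constants. -/
def S27pkgNS (hld : Function.Injective (s26gspMu K 𝔠 𝔎 Ω)) (hgen : S26gspGen K 𝔠 𝔎 Ω)
    {x : 𝔠} (hx : Transcendental K x)
    [FiniteDimensional ↥(IntermediateField.adjoin K {x}) 𝔠]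
    [Algebra.IsSeparable ↥(IntermediateField.adjoin K {x}) 𝔠] : Prop :=
  ∀ e : Fin (genusFF K 𝔠) → 𝔠 →ₐ[K] 𝔎, S27dgGeneric K x e →
    ∀ f ∈ riemannRochSpace (s27pkgSum fun i => s27gpPlace hld hgen (e i) hx),
      ∃ c : 𝔎, f = algebraMap 𝔎 Ω c

/-- **DEG-B4e: the concrete degree package** of the constant extension `Ω / 𝔎` of `𝔠 / K`. -/
def s27pkg (P₀ : Place K 𝔠) (hns : S27pkgNS hld hgen hx) :
    S27DegPkg K 𝔠 𝔎 x (genusFF K 𝔠) (Place 𝔎 Ω) (Pic0 𝔎 Ω) where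
  pt := fun e => s27gpPlace hld hgen e hx
  pt_inj := s27pt_gpPlace_injective hld hgen hx
  cl := fun R => s27pkgCl (s27pkg_hdeg hld hgen hx) (s26gspCon hld hgen (s26gspf_hall hx) P₀) R
  cl_perm := fun R π => s27pkgCl_perm _ _ R π
  actP := fun h => s27raPl A h
  actC := fun h => s27pkgActC A (s27pkg_hdeg hld hgen hx) h
  actP_pt := fun h e => s27pkg_act_pt A hld hgen hx h e
  actP_const := fun h R hR => s27pkg_act_const A hld hgen (s26gspf_hall hx) hx h R hR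
  actC_cl := fun h R => s27pkgActC_cl A _ h _ (s27raPl_con A hld hgen (s26gspf_hall hx) h P₀) R
  ns := fun e he R' hR' => s27pkg_ns _ _ _ (hns e he) R' hR'
  rr := fun c => by
    haveI := s26gspf_hasPrincipalDivisors (𝔎 := 𝔎) (Ω := Ω) hld hgen hx
    exact s27pkg_rr _ _ _ (fun Δ => s27gbc_riemann hld hgen hx Δ) c

@[simp] theorem s27pkg_pt (P₀ : Place K 𝔠) (hns : S27pkgNS hld hgen hx) (e : 𝔠 →ₐ[K] 𝔎) :
    (s27pkg A hld hgen hx P₀ hns).pt e = s27gpPlace hld hgen e hx := rfl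

@[simp] theorem s27pkg_cl (P₀ : Place K 𝔠) (hns : S27pkgNS hld hgen hx)
    (R : Fin (genusFF K 𝔠) → Place 𝔎 Ω) :
    (s27pkg A hld hgen hx P₀ hns).cl R =
      s27pkgCl (s27pkg_hdeg hld hgen hx) (s26gspCon hld hgen (s26gspf_hall hx) P₀) R := rfl

@[simp] theorem s27pkg_actP (P₀ : Place K 𝔠) (hns : S27pkgNS hld hgen hx) (h : 𝔎 ≃ₐ[K] 𝔎) :
    (s27pkg A hld hgen hx P₀ hns).actP h = s27raPl A h := rfl

@[simp] theorem s27pkg_actC (P₀ : Place K 𝔠) (hns : S27pkgNS hld hgen hx) (h : 𝔎 ≃ₐ[K] 𝔎) :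
    (s27pkg A hld hgen hx P₀ hns).actC h = s27pkgActC A (s27pkg_hdeg hld hgen hx) h := rfl

end Pkg

end Fermat.Agent.S27

end
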