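/-
S27, route B, piece DEG-B4e "PKG", part 3 (helper45): **the degree package with an arbitrary
constant origin** (helper15's flag: the CRUX uses the origin `[G₀]`, `G₀` a general constant
divisor of degree `g`, not `g · P₀`).

* general part (`Ω / L`, all places of degree one, `O : Divisor L Ω` of degree `g`):
  `s27pkgClO hdeg O hO R : Pic0 L Ω` = the class of `Σ_i R i − O`;  `s27pkgClO_perm`,
  `s27pkgClO_eq`, `s27pkgO_rr`, `s27pkgO_ns`;  `s27pkgClO_single : s27pkgClO … (single P₀ g) = s27pkgCl … P₀`;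
* `s27pkgActC_clO` : `h · clO R = clO (h · R)` when `h · O = O`;
* `s27pkg_raDiv_con` : `h · Con G₀ = Con G₀`;
* `s27pkgO A hld hgen hx G₀ hG₀ hns` : **the package with origin `Con G₀`**,
  `cl R = mk (Σ_i R i − Con G₀)`.
-/
import Fermat.Agent.S27.DegPkgAct

set_option autoImplicit false
set_option linter.style.haveILetI false
set_option linter.unusedSectionVars false
set_option linter.unusedVariables false

noncomputable section

namespace Fermat.Agent.S27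

open AlgebraicCurve IsLocalRing TensorProduct Module IntermediateField
open Fermat.Agent.S26

/-! ### General part -/

section General

variable {L Ω : Type*} [Field L] [Field Ω] [Algebra L Ω]

/-- the divisor `Σ_i R i − O`, of degree `0`. -/
def s27pkgDivZeroO (hdeg : ∀ w : Place L Ω, w.deg = 1) {g : ℕ} (O : Divisor L Ω)
    (hO : Divisor.degree O = g) (R : Fin g → Place L Ω) : Divisor.degZero (K := L) (F := Ω) :=
  ⟨s27pkgSum R - O, Divisor.mem_degZero.2 (by rw [map_sub, s27pkgSum_degree hdeg, hO, sub_self])⟩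

@[simp] theorem s27pkgDivZeroO_coe (hdeg : ∀ w : Place L Ω, w.deg = 1) {g : ℕ} (O : Divisor L Ω)
    (hO : Divisor.degree O = g) (R : Fin g → Place L Ω) :
    (s27pkgDivZeroO hdeg O hO R : Divisor L Ω) = s27pkgSum R - O := rfl

/-- **the class of `Σ_i R i − O`.** -/
def s27pkgClO (hdeg : ∀ w : Place L Ω, w.deg = 1) {g : ℕ} (O : Divisor L Ω)
    (hO : Divisor.degree O = g) (R : Fin g → Place L Ω) : Pic0 L Ω :=
  Pic0.mk (s27pkgDivZeroO hdeg O hO R)

theorem s27pkgClO_perm (hdeg : ∀ w : Place L Ω, w.deg = 1) {g : ℕ} (O : Divisor L Ω)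
    (hO : Divisor.degree O = g) (R : Fin g → Place L Ω) (π : Equiv.Perm (Fin g)) :
    s27pkgClO hdeg O hO (fun i => R (π i)) = s27pkgClO hdeg O hO R := by
  unfold s27pkgClO s27pkgDivZeroO
  simp only [s27pkgSum_perm]

theorem s27pkgClO_eq (hdeg : ∀ w : Place L Ω, w.deg = 1) {g : ℕ} (O : Divisor L Ω)
    (hO : Divisor.degree O = g) (R S : Fin g → Place L Ω) :
    s27pkgClO hdeg O hO R = s27pkgClO hdeg O hO S ↔
      ∃ f : Ω, f ≠ 0 ∧ ∀ v : Place L Ω, s27pkgSum R v = s27pkgSum S v + v.ord f := by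
  unfold s27pkgClO
  rw [s27pkg_mk_eq_iff]
  refine exists_congr fun f => and_congr_right fun _ => forall_congr' fun v => ?_
  rw [s27pkgDivZeroO_coe, s27pkgDivZeroO_coe, Finsupp.sub_apply, Finsupp.sub_apply]
  constructor <;> intro h <;> omega

/-- the origin `g · P₀` gives `s27pkgCl`. -/
theorem s27pkgClO_single (hdeg : ∀ w : Place L Ω, w.deg = 1) {g : ℕ} (P₀ : Place L Ω)
    (hO : Divisor.degree (Finsupp.single P₀ (g : ℤ) : Divisor L Ω) = g)
    (R : Fin g → Place L Ω) :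
    s27pkgClO hdeg (Finsupp.single P₀ (g : ℤ)) hO R = s27pkgCl hdeg P₀ R := rfl

/-- **(RR)** with an arbitrary origin. -/
theorem s27pkgO_rr (hdeg : ∀ w : Place L Ω, w.deg = 1) [HasPrincipalDivisors L Ω]
    {g : ℕ} (O : Divisor L Ω) (hO : Divisor.degree O = g)
    (hR : ∀ Δ : Divisor L Ω, Divisor.degree Δ + 1 - g ≤ (finrank L ↥(riemannRochSpace Δ) : ℤ))
    (c : Pic0 L Ω) : ∃ R : Fin g → Place L Ω, s27pkgClO hdeg O hO R = c := by
  obtain ⟨D, rfl⟩ := Pic0.mk_surjective c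
  have hD0 : Divisor.degree (D : Divisor L Ω) = 0 := Divisor.mem_degZero.1 D.2
  set A : Divisor L Ω := (D : Divisor L Ω) + O with hA
  have hAdeg : Divisor.degree A = g := by rw [hA, map_add, hD0, hO, zero_add]
  have h1 := hR A
  rw [hAdeg] at h1
  have h2 : 0 < finrank L ↥(riemannRochSpace A) := by
    have : (0 : ℤ) < (finrank L ↥(riemannRochSpace A) : ℤ) := by omega
    exact_mod_cast this
  haveI := Module.nontrivial_of_finrank_pos h2
  obtain ⟨⟨f, hf⟩, hf0⟩ := exists_ne (0 : ↥(riemannRochSpace A))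
  have hfne : f ≠ 0 := fun h => hf0 (Subtype.ext h)
  obtain ⟨Df, hDf, hDf0⟩ := HasPrincipalDivisors.exists_divisor (K := L) f hfne
  have hE : ∀ v, 0 ≤ (Df + A) v := fun v => by
    rw [Finsupp.add_apply, hDf v]
    rcases (mem_riemannRochSpace_iff.mp hf) v with h | h
    · exact absurd h hfne
    · linarith
  have hEdeg : Divisor.degree (Df + A) = g := by rw [map_add, hDf0, hAdeg, zero_add]
  obtain ⟨R, hRE⟩ := s27pkg_exists_sum hdeg g (Df + A) hE hEdeg
  refine ⟨R, ?_⟩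
  unfold s27pkgClO
  rw [s27pkg_mk_eq_iff]
  refine ⟨f, hfne, fun v => ?_⟩
  rw [s27pkgDivZeroO_coe, hRE, Finsupp.sub_apply, Finsupp.add_apply, hA, Finsupp.add_apply,
    hDf v]
  ring

/-- **(NS)** with an arbitrary origin. -/
theorem s27pkgO_ns (hdeg : ∀ w : Place L Ω, w.deg = 1) {g : ℕ} (O : Divisor L Ω)
    (hO : Divisor.degree O = g) (S : Fin g → Place L Ω)
    (hS : ∀ f ∈ riemannRochSpace (s27pkgSum S), ∃ c : L, f = algebraMap L Ω c)
    (R' : Fin g → Place L Ω) (h : s27pkgClO hdeg O hO R' = s27pkgClO hdeg O hO S) :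
    ∃ π : Equiv.Perm (Fin g), R' = fun i => S (π i) := by
  obtain ⟨f, hf, hfv⟩ := (s27pkgClO_eq hdeg O hO R' S).1 h
  have hmem : f ∈ riemannRochSpace (s27pkgSum S) := by
    rw [mem_riemannRochSpace_iff]
    intro v
    right
    have := s27pkgSum_nonneg R' v
    rw [hfv v] at this
    linarith
  obtain ⟨c, rfl⟩ := hS f hmem
  have hsum : s27pkgSum R' = s27pkgSum S := by
    ext v
    rw [hfv v, Fermat.Agent.S24.PlaceAux.ord_algebraMap, add_zero]
  exact s27pkg_sum_eq R' S hsum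

/-- change of origin: `clO' R = clO R + [O − O']`. -/
theorem s27pkgClO_change (hdeg : ∀ w : Place L Ω, w.deg = 1) {g : ℕ} (O O' : Divisor L Ω)
    (hO : Divisor.degree O = g) (hO' : Divisor.degree O' = g) (R : Fin g → Place L Ω) :
    s27pkgClO hdeg O' hO' R = s27pkgClO hdeg O hO R +
      Pic0.mk ⟨O - O', Divisor.mem_degZero.2 (by rw [map_sub, hO, hO', sub_self])⟩ := by
  unfold s27pkgClO
  rw [← Pic0.mk_add]
  congr 1
  apply Subtype.ext
  show s27pkgSum R - O' = (s27pkgSum R - O) + (O - O')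
  abel

end General

/-! ### The constant extension -/

variable {K 𝔠 𝔎 Ω : Type*} [Field K] [Field 𝔠] [Field 𝔎] [Field Ω]
  [Algebra K 𝔠] [Algebra K 𝔎] [Algebra K Ω] [Algebra 𝔠 Ω] [Algebra 𝔎 Ω]
  [IsScalarTower K 𝔠 Ω] [IsScalarTower K 𝔎 Ω]

section Act

variable (A : S27raAct K 𝔠 𝔎 Ω) (hdeg : ∀ w : Place 𝔎 Ω, w.deg = 1)

/-- `h · clO R = clO (h · R)` when the origin is fixed. -/
theorem s27pkgActC_clO (h : 𝔎 ≃ₐ[K] 𝔎) {g : ℕ} (O : Divisor 𝔎 Ω) (hO : Divisor.degree O = g)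
    (hfix : s27raDiv A h O = O) (R : Fin g → Place 𝔎 Ω) :
    s27pkgActC A hdeg h (s27pkgClO hdeg O hO R) =
      s27pkgClO hdeg O hO fun i => s27raPl A h (R i) := by
  unfold s27pkgClO
  rw [s27pkgActC_mk]
  congr 1
  apply Subtype.ext
  show s27raDiv A h (s27pkgSum R - O) = s27pkgSum (fun i => s27raPl A h (R i)) - O
  rw [s27raDiv_sub, s27pkg_raDiv_sum, hfix]

/-- **the constant divisors are fixed**: `h · Con G₀ = Con G₀`. -/
theorem s27pkg_raDiv_con (hld : Function.Injective (s26gspMu K 𝔠 𝔎 Ω))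
    (hgen : S26gspGen K 𝔠 𝔎 Ω)
    (hall : ∀ P : Place K 𝔠, Function.Surjective (algebraMap K P.ResidueField))
    (h : 𝔎 ≃ₐ[K] 𝔎) (G₀ : Divisor K 𝔠) :
    s27raDiv A h (Finsupp.mapDomain (s26gspCon hld hgen hall) G₀) =
      Finsupp.mapDomain (s26gspCon hld hgen hall) G₀ := by
  unfold s27raDiv
  rw [← Finsupp.mapDomain_comp]
  congr 1
  funext Q
  exact s27raPl_con A hld hgen hall h Q

end Act

section Pkg

variable [IsAlgClosed K] [CharZero K] [IsAlgClosed 𝔎]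
  (A : S27raAct K 𝔠 𝔎 Ω)
  (hld : Function.Injective (s26gspMu K 𝔠 𝔎 Ω)) (hgen : S26gspGen K 𝔠 𝔎 Ω)
  {x : 𝔠} (hx : Transcendental K x)
  [FiniteDimensional ↥(IntermediateField.adjoin K {x}) 𝔠]
  [Algebra.IsSeparable ↥(IntermediateField.adjoin K {x}) 𝔠]

/-- the origin `Con G₀` has the degree of `G₀`. -/
theorem s27pkgO_degree (G₀ : Divisor K 𝔠) (hG₀ : Divisor.degree G₀ = (genusFF K 𝔠 : ℤ)) :
    Divisor.degree (Finsupp.mapDomain (s26gspCon hld hgen (s26gspf_hall hx)) G₀) =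
      ((genusFF K 𝔠 : ℕ) : ℤ) := by
  rw [s26gspc_degree, hG₀]

/-- **DEG-B4e with origin `Con G₀`**: `cl R = mk (Σ_i R i − Con G₀)`. -/
def s27pkgO (G₀ : Divisor K 𝔠) (hG₀ : Divisor.degree G₀ = (genusFF K 𝔠 : ℤ))
    (hns : S27pkgNS hld hgen hx) :
    S27DegPkg K 𝔠 𝔎 x (genusFF K 𝔠) (Place 𝔎 Ω) (Pic0 𝔎 Ω) where
  pt := fun e => s27gpPlace hld hgen e hx
  pt_inj := s27pt_gpPlace_injective hld hgen hx
  cl := fun R => s27pkgClO (s27pkg_hdeg hld hgen hx)
    (Finsupp.mapDomain (s26gspCon hld hgen (s26gspf_hall hx)) G₀)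
    (s27pkgO_degree hld hgen hx G₀ hG₀) R
  cl_perm := fun R π => s27pkgClO_perm _ _ _ R π
  actP := fun h => s27raPl A h
  actC := fun h => s27pkgActC A (s27pkg_hdeg hld hgen hx) h
  actP_pt := fun h e => s27pkg_act_pt A hld hgen hx h e
  actP_const := fun h R hR => s27pkg_act_const A hld hgen (s26gspf_hall hx) hx h R hR
  actC_cl := fun h R => s27pkgActC_clO A _ h _ _
    (s27pkg_raDiv_con A hld hgen (s26gspf_hall hx) h G₀) R
  ns := fun e he R' hR' => s27pkgO_ns _ _ _ _ (hns e he) R' hR'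
  rr := fun c => by
    haveI := s26gspf_hasPrincipalDivisors (𝔎 := 𝔎) (Ω := Ω) hld hgen hx
    exact s27pkgO_rr _ _ _ (fun Δ => s27gbc_riemann hld hgen hx Δ) c

@[simp] theorem s27pkgO_pt (G₀ : Divisor K 𝔠) (hG₀ : Divisor.degree G₀ = (genusFF K 𝔠 : ℤ))
    (hns : S27pkgNS hld hgen hx) (e : 𝔠 →ₐ[K] 𝔎) :
    (s27pkgO A hld hgen hx G₀ hG₀ hns).pt e = s27gpPlace hld hgen e hx := rfl

@[simp] theorem s27pkgO_cl (G₀ : Divisor K 𝔠) (hG₀ : Divisor.degree G₀ = (genusFF K 𝔠 : ℤ))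
    (hns : S27pkgNS hld hgen hx) (R : Fin (genusFF K 𝔠) → Place 𝔎 Ω) :
    (s27pkgO A hld hgen hx G₀ hG₀ hns).cl R =
      s27pkgClO (s27pkg_hdeg hld hgen hx)
        (Finsupp.mapDomain (s26gspCon hld hgen (s26gspf_hall hx)) G₀)
        (s27pkgO_degree hld hgen hx G₀ hG₀) R := rfl

@[simp] theorem s27pkgO_actP (G₀ : Divisor K 𝔠) (hG₀ : Divisor.degree G₀ = (genusFF K 𝔠 : ℤ))
    (hns : S27pkgNS hld hgen hx) (h : 𝔎 ≃ₐ[K] 𝔎) :
    (s27pkgO A hld hgen hx G₀ hG₀ hns).actP h = s27raPl A h := rfl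

@[simp] theorem s27pkgO_actC (G₀ : Divisor K 𝔠) (hG₀ : Divisor.degree G₀ = (genusFF K 𝔠 : ℤ))
    (hns : S27pkgNS hld hgen hx) (h : 𝔎 ≃ₐ[K] 𝔎) :
    (s27pkgO A hld hgen hx G₀ hG₀ hns).actC h = s27pkgActC A (s27pkg_hdeg hld hgen hx) h := rfl

end Pkg

end Fermat.Agent.S27

end
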