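/-
S27-B (row 26), DEG-A1 **ACT** (helper53; ledger NOTES/S27-DEG.md, deputy helper18).

Setting of helper96's Gauss places (`S26/ERRGaussPlace.lean`): fields `K ⊆ 𝔠`, `K ⊆ 𝔎`,
`Ω = Frac (𝔠 ⊗[K] 𝔎)` (through `[Algebra (𝔠 ⊗[K] 𝔎) Ω] [IsFractionRing (𝔠 ⊗[K] 𝔎) Ω]`, compatible with
the multiplication map `s26gspMu`).  Every `h ∈ Aut(𝔎 / K)` acts on `Ω` as `Frac (id ⊗ h)`:

* `s27ratAct hcomp : (𝔎 ≃ₐ[K] 𝔎) →* (Ω ≃ₐ[𝔠] Ω)` — the action (a monoid homomorphism);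
* `s27rat_act_const`  : `act h (algebraMap 𝔎 Ω c) = algebraMap 𝔎 Ω (h c)`;
* `s27rat_act_base`   : `act h (algebraMap 𝔠 Ω f) = algebraMap 𝔠 Ω f`;
* `s27rat_act_mu`     : `act h (μ x) = μ ((id ⊗ h) x)`;
* `s27rat_act_tmul`   : `act h (f · c) = f · h c`;
* `s27rat_main`       : the existence statement in the exact shape of the ledger.
-/
import Fermat.Agent.S26.ERRGaussPlace

set_option autoImplicit false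
set_option linter.style.haveILetI false
set_option linter.unusedSectionVars false

noncomputable section

namespace Fermat.Agent.S27

open TensorProduct Fermat.Agent.S26

variable {K 𝔠 𝔎 Ω : Type*} [Field K] [Field 𝔠] [Field 𝔎] [Field Ω]
  [Algebra K 𝔠] [Algebra K 𝔎] [Algebra K Ω] [Algebra 𝔠 Ω] [Algebra 𝔎 Ω]
  [IsScalarTower K 𝔠 Ω] [IsScalarTower K 𝔎 Ω]

/-- `id ⊗ h` on `𝔠 ⊗[K] 𝔎`, a `𝔠`-algebra automorphism. -/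
def s27ratT (𝔠 : Type*) [Field 𝔠] [Algebra K 𝔠] (h : 𝔎 ≃ₐ[K] 𝔎) :
    (𝔠 ⊗[K] 𝔎) ≃ₐ[𝔠] (𝔠 ⊗[K] 𝔎) :=
  Algebra.TensorProduct.congr (AlgEquiv.refl : 𝔠 ≃ₐ[𝔠] 𝔠) h

@[simp]
theorem s27ratT_tmul (h : 𝔎 ≃ₐ[K] 𝔎) (f : 𝔠) (c : 𝔎) :
    s27ratT 𝔠 h (f ⊗ₜ[K] c) = f ⊗ₜ[K] h c := by
  simp [s27ratT]

theorem s27ratT_one : s27ratT 𝔠 (1 : 𝔎 ≃ₐ[K] 𝔎) = 1 := by
  apply AlgEquiv.ext
  intro x
  induction x using TensorProduct.induction_on with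
  | zero => simp
  | tmul f c => simp
  | add x y hx hy => simp only [map_add, hx, hy]

theorem s27ratT_mul (h₁ h₂ : 𝔎 ≃ₐ[K] 𝔎) :
    s27ratT 𝔠 (h₁ * h₂) = s27ratT 𝔠 h₁ * s27ratT 𝔠 h₂ := by
  apply AlgEquiv.ext
  intro x
  induction x using TensorProduct.induction_on with
  | zero => simp
  | tmul f c => simp [AlgEquiv.mul_apply]
  | add x y hx hy =>
    simp only [map_add, hx, hy]

section Frac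

variable [Algebra (𝔠 ⊗[K] 𝔎) Ω]

/-- the tower `𝔠 → 𝔠 ⊗[K] 𝔎 → Ω` -/
theorem s27rat_tower (hcomp : ∀ x, algebraMap (𝔠 ⊗[K] 𝔎) Ω x = s26gspMu K 𝔠 𝔎 Ω x) :
    IsScalarTower 𝔠 (𝔠 ⊗[K] 𝔎) Ω :=
  IsScalarTower.of_algebraMap_eq (fun f => by
    rw [hcomp, Algebra.TensorProduct.algebraMap_apply, s26gspMu_tmul]
    simp)

theorem s27rat_const_eq (hcomp : ∀ x, algebraMap (𝔠 ⊗[K] 𝔎) Ω x = s26gspMu K 𝔠 𝔎 Ω x) (c : 𝔎) :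
    algebraMap 𝔎 Ω c = algebraMap (𝔠 ⊗[K] 𝔎) Ω ((1 : 𝔠) ⊗ₜ[K] c) := by
  rw [hcomp, s26gspMu_tmul, map_one, one_mul]

theorem s27rat_tmul_eq (hcomp : ∀ x, algebraMap (𝔠 ⊗[K] 𝔎) Ω x = s26gspMu K 𝔠 𝔎 Ω x)
    (f : 𝔠) (c : 𝔎) :
    algebraMap 𝔠 Ω f * algebraMap 𝔎 Ω c = algebraMap (𝔠 ⊗[K] 𝔎) Ω (f ⊗ₜ[K] c) := by
  rw [hcomp, s26gspMu_tmul]

variable [IsFractionRing (𝔠 ⊗[K] 𝔎) Ω]

/-- `Frac (id ⊗ h)`: the automorphism of `Ω / 𝔠` induced by `h ∈ Aut(𝔎 / K)`. -/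
def s27ratAct1 (hcomp : ∀ x, algebraMap (𝔠 ⊗[K] 𝔎) Ω x = s26gspMu K 𝔠 𝔎 Ω x)
    (h : 𝔎 ≃ₐ[K] 𝔎) : Ω ≃ₐ[𝔠] Ω :=
  haveI := s27rat_tower (K := K) (𝔠 := 𝔠) (𝔎 := 𝔎) (Ω := Ω) hcomp
  IsFractionRing.algEquivOfAlgEquiv (s27ratT 𝔠 h)

theorem s27rat_act1_algebraMap (hcomp : ∀ x, algebraMap (𝔠 ⊗[K] 𝔎) Ω x = s26gspMu K 𝔠 𝔎 Ω x)
    (h : 𝔎 ≃ₐ[K] 𝔎) (x : 𝔠 ⊗[K] 𝔎) :
    s27ratAct1 hcomp h (algebraMap (𝔠 ⊗[K] 𝔎) Ω x) =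
      algebraMap (𝔠 ⊗[K] 𝔎) Ω (s27ratT 𝔠 h x) := by
  haveI := s27rat_tower (K := K) (𝔠 := 𝔠) (𝔎 := 𝔎) (Ω := Ω) hcomp
  exact IsFractionRing.algEquivOfAlgEquiv_algebraMap (s27ratT 𝔠 h) x

/-- two `𝔠`-automorphisms of `Ω` which agree on the image of `𝔠 ⊗[K] 𝔎` are equal -/
theorem s27rat_ext {σ τ : Ω ≃ₐ[𝔠] Ω}
    (hστ : ∀ x : 𝔠 ⊗[K] 𝔎, σ (algebraMap (𝔠 ⊗[K] 𝔎) Ω x) = τ (algebraMap (𝔠 ⊗[K] 𝔎) Ω x)) :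
    σ = τ := by
  apply AlgEquiv.ext
  intro z
  obtain ⟨a, b, hb, rfl⟩ := IsFractionRing.div_surjective (A := 𝔠 ⊗[K] 𝔎) z
  rw [map_div₀, map_div₀, hστ a, hστ b]

/-- **DEG-A1 (ACT)**: the action of `Aut(𝔎 / K)` on `Ω = Frac (𝔠 ⊗[K] 𝔎)` by `𝔠`-automorphisms. -/
def s27ratAct (hcomp : ∀ x, algebraMap (𝔠 ⊗[K] 𝔎) Ω x = s26gspMu K 𝔠 𝔎 Ω x) :
    (𝔎 ≃ₐ[K] 𝔎) →* (Ω ≃ₐ[𝔠] Ω) where
  toFun := s27ratAct1 hcomp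
  map_one' := by
    apply s27rat_ext (K := K) (𝔎 := 𝔎)
    intro x
    rw [s27rat_act1_algebraMap, s27ratT_one]
    rfl
  map_mul' := fun h₁ h₂ => by
    apply s27rat_ext (K := K) (𝔎 := 𝔎)
    intro x
    rw [s27rat_act1_algebraMap, s27ratT_mul, AlgEquiv.mul_apply, AlgEquiv.mul_apply,
      s27rat_act1_algebraMap, s27rat_act1_algebraMap]

theorem s27rat_act_algebraMap (hcomp : ∀ x, algebraMap (𝔠 ⊗[K] 𝔎) Ω x = s26gspMu K 𝔠 𝔎 Ω x)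
    (h : 𝔎 ≃ₐ[K] 𝔎) (x : 𝔠 ⊗[K] 𝔎) :
    s27ratAct hcomp h (algebraMap (𝔠 ⊗[K] 𝔎) Ω x) =
      algebraMap (𝔠 ⊗[K] 𝔎) Ω (s27ratT 𝔠 h x) :=
  s27rat_act1_algebraMap hcomp h x

/-- the action on the image of the multiplication map -/
theorem s27rat_act_mu (hcomp : ∀ x, algebraMap (𝔠 ⊗[K] 𝔎) Ω x = s26gspMu K 𝔠 𝔎 Ω x)
    (h : 𝔎 ≃ₐ[K] 𝔎) (x : 𝔠 ⊗[K] 𝔎) :
    s27ratAct hcomp h (s26gspMu K 𝔠 𝔎 Ω x) = s26gspMu K 𝔠 𝔎 Ω (s27ratT 𝔠 h x) := by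
  rw [← hcomp, ← hcomp]
  exact s27rat_act_algebraMap hcomp h x

/-- the action on the constants `𝔎`: `h` itself -/
theorem s27rat_act_const (hcomp : ∀ x, algebraMap (𝔠 ⊗[K] 𝔎) Ω x = s26gspMu K 𝔠 𝔎 Ω x)
    (h : 𝔎 ≃ₐ[K] 𝔎) (c : 𝔎) :
    s27ratAct hcomp h (algebraMap 𝔎 Ω c) = algebraMap 𝔎 Ω (h c) := by
  rw [s27rat_const_eq hcomp, s27rat_const_eq hcomp, s27rat_act_algebraMap, s27ratT_tmul]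

/-- the action is trivial on `𝔠` -/
theorem s27rat_act_base (hcomp : ∀ x, algebraMap (𝔠 ⊗[K] 𝔎) Ω x = s26gspMu K 𝔠 𝔎 Ω x)
    (h : 𝔎 ≃ₐ[K] 𝔎) (f : 𝔠) :
    s27ratAct hcomp h (algebraMap 𝔠 Ω f) = algebraMap 𝔠 Ω f :=
  (s27ratAct hcomp h).commutes f

/-- the action on products `f · c` -/
theorem s27rat_act_tmul (hcomp : ∀ x, algebraMap (𝔠 ⊗[K] 𝔎) Ω x = s26gspMu K 𝔠 𝔎 Ω x)
    (h : 𝔎 ≃ₐ[K] 𝔎) (f : 𝔠) (c : 𝔎) :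
    s27ratAct hcomp h (algebraMap 𝔠 Ω f * algebraMap 𝔎 Ω c) =
      algebraMap 𝔠 Ω f * algebraMap 𝔎 Ω (h c) := by
  rw [map_mul, s27rat_act_base, s27rat_act_const]

/-- the inverse acts by the inverse -/
theorem s27rat_act_symm_const (hcomp : ∀ x, algebraMap (𝔠 ⊗[K] 𝔎) Ω x = s26gspMu K 𝔠 𝔎 Ω x)
    (h : 𝔎 ≃ₐ[K] 𝔎) (c : 𝔎) :
    (s27ratAct hcomp h).symm (algebraMap 𝔎 Ω c) = algebraMap 𝔎 Ω (h.symm c) := by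
  rw [AlgEquiv.symm_apply_eq, s27rat_act_const, AlgEquiv.apply_symm_apply]

/-- the action preserves the image of `𝔎` -/
theorem s27rat_act_mem_range (hcomp : ∀ x, algebraMap (𝔠 ⊗[K] 𝔎) Ω x = s26gspMu K 𝔠 𝔎 Ω x)
    (h : 𝔎 ≃ₐ[K] 𝔎) (z : Ω) :
    s27ratAct hcomp h z ∈ Set.range (algebraMap 𝔎 Ω) ↔ z ∈ Set.range (algebraMap 𝔎 Ω) := by
  constructor
  · rintro ⟨c, hc⟩
    refine ⟨h.symm c, ?_⟩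
    rw [← s27rat_act_symm_const hcomp, hc, AlgEquiv.symm_apply_apply]
  · rintro ⟨c, rfl⟩
    exact ⟨h c, (s27rat_act_const hcomp h c).symm⟩

/-- **DEG-A1 (ACT)**, the existence statement of the ledger. -/
theorem s27rat_main (hcomp : ∀ x, algebraMap (𝔠 ⊗[K] 𝔎) Ω x = s26gspMu K 𝔠 𝔎 Ω x) :
    ∃ act : (𝔎 ≃ₐ[K] 𝔎) →* (Ω ≃ₐ[𝔠] Ω),
      ∀ h c, act h (algebraMap 𝔎 Ω c) = algebraMap 𝔎 Ω (h c) :=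
  ⟨s27ratAct hcomp, s27rat_act_const hcomp⟩

end Frac

end Fermat.Agent.S27

end
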