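/-
S27, route B, piece DEG-A6 "BC-INJ" (helper12): base change of divisor classes is injective.

Setting = RR-C / RR-D of S26 (helper96, helper65): fields `K ⊆ 𝔠`, `K ⊆ 𝔎`, `Ω = Frac (𝔠 ⊗[K] 𝔎)`
(`hld`, `hgen`), every place of `𝔠 / K` has residue field `K` (`hall`),
`con := s26gspCon hld hgen hall : Place K 𝔠 → Place 𝔎 Ω`, `Con := Finsupp.mapDomain con`.

* `s27bc_eq_zero_of_nonneg`   : an effective divisor of degree `0` is `0` (places of degree `1`);
* `s27bc_principal_of_rr`     : `deg D = 0`, `L_K(D) ≠ 0` ⇒ `D` is principal;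
* `s27bc_principal_of_con`    : **A6**: `deg D = 0` and `Con D = div G` on `Ω / 𝔎` ⇒ `D = div u`
                                 on `𝔠 / K`;
* `s27bcCon`, `s27bcConZero`  : `Con` as additive homs on divisors / on divisors of degree `0`;
* `s27bcBeta`                 : `β : Pic0 K 𝔠 →+ Pic0 𝔎 Ω`, `β (mk D) = mk (Con D)`;
* `s27bcBeta_injective`       : `β` is injective;
* `s27bcBeta_mem_torsion`, `s27bcBetaTors`, `s27bc_card_le`, `s27bc_card_eq` : the torsion
  subgroups: `#Pic0(𝔠)[n] ≤ #Pic0(Ω)[n]`, with equality as soon as every `n`-torsion class of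
  `Ω / 𝔎` is the class of a `Con D₀` (rigidity, DEG-A5).
-/
import Fermat.Agent.S26.ERRD5

set_option autoImplicit false
set_option linter.style.haveILetI false
set_option linter.unusedSectionVars false
set_option linter.unusedVariables false

noncomputable section

namespace Fermat.Agent.S27

open AlgebraicCurve TensorProduct Fermat.Agent.S26

variable {K 𝔠 𝔎 Ω : Type*} [Field K] [Field 𝔠] [Field 𝔎] [Field Ω]
  [Algebra K 𝔠] [Algebra K 𝔎] [Algebra K Ω] [Algebra 𝔠 Ω] [Algebra 𝔎 Ω]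
  [IsScalarTower K 𝔠 Ω] [IsScalarTower K 𝔎 Ω]

/-! ### effective divisors of degree `0` -/

/-- the degree of a divisor all of whose places have degree `1`. -/
theorem s27bc_degree_eq_sum (hdeg : ∀ Q : Place K 𝔠, Q.deg = 1) (E : Divisor K 𝔠) :
    Divisor.degree E = ∑ Q ∈ E.support, E Q := by
  induction E using Finsupp.induction_linear with
  | zero => simp
  | add x y hx hy =>
    rw [map_add, hx, hy]
    have h1 : ∑ Q ∈ (x + y).support, (x + y) Q = (x + y).sum fun _ n => n := rfl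
    have h2 : ∑ Q ∈ x.support, x Q = x.sum fun _ n => n := rfl
    have h3 : ∑ Q ∈ y.support, y Q = y.sum fun _ n => n := rfl
    rw [h1, h2, h3, Finsupp.sum_add_index' (fun _ => rfl) (fun _ _ _ => rfl)]
  | single Q n =>
    rw [Divisor.degree_single, hdeg Q]
    have h1 : ∑ P ∈ (Finsupp.single Q n).support, (Finsupp.single Q n) P
        = (Finsupp.single Q n).sum fun _ m => m := rfl
    rw [h1, Finsupp.sum_single_index rfl]
    simp

/-- an effective divisor of degree `0` is `0` (all places of degree `1`). -/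
theorem s27bc_eq_zero_of_nonneg (hdeg : ∀ Q : Place K 𝔠, Q.deg = 1) (E : Divisor K 𝔠)
    (hE : ∀ Q, 0 ≤ E Q) (h0 : Divisor.degree E = 0) : E = 0 := by
  classical
  rw [s27bc_degree_eq_sum hdeg E] at h0
  have h1 := (Finset.sum_eq_zero_iff_of_nonneg (fun Q _ => hE Q)).1 h0
  ext Q
  by_cases hQ : Q ∈ E.support
  · simpa using h1 Q hQ
  · simpa using Finsupp.notMem_support_iff.1 hQ

/-- `deg D = 0` and `L_K(D) ≠ 0` ⇒ `D` is principal. -/
theorem s27bc_principal_of_rr [HasPrincipalDivisors K 𝔠] (hdeg : ∀ Q : Place K 𝔠, Q.deg = 1)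
    (D : Divisor K 𝔠) (hD : Divisor.degree D = 0) {f : 𝔠} (hf : f ∈ riemannRochSpace D)
    (hf0 : f ≠ 0) : ∃ u : 𝔠, u ≠ 0 ∧ ∀ Q, D Q = Q.ord u := by
  obtain ⟨Df, hDf, hdegf⟩ := HasPrincipalDivisors.exists_divisor (K := K) f hf0
  have hE : Df + D = 0 := by
    refine s27bc_eq_zero_of_nonneg hdeg (Df + D) (fun Q => ?_) (by rw [map_add, hdegf, hD, add_zero])
    have h1 := (mem_riemannRochSpace_iff.1 hf Q).resolve_left hf0
    rw [Finsupp.add_apply, hDf Q]
    linarith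
  refine ⟨f⁻¹, inv_ne_zero hf0, fun Q => ?_⟩
  have h1 := DFunLike.congr_fun hE Q
  rw [Finsupp.add_apply, hDf Q, Finsupp.zero_apply] at h1
  rw [Place.ord_inv]
  linarith

variable (hld : Function.Injective (s26gspMu K 𝔠 𝔎 Ω)) (hgen : S26gspGen K 𝔠 𝔎 Ω)
  (hall : ∀ P : Place K 𝔠, Function.Surjective (algebraMap K P.ResidueField))

/-! ### A6 -/

/-- **DEG-A6 (BC-INJ), divisor form.**  If `deg D = 0` and `Con D` is the divisor of a function
`G ≠ 0` of `Ω / 𝔎`, then `D` is the divisor of a function `u ≠ 0` of `𝔠 / K`. -/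
theorem s27bc_principal_of_con [HasPrincipalDivisors K 𝔠]
    (hΓ : ∃ t : 𝔠, Transcendental K t ∧ Module.Finite (IntermediateField.adjoin K {t}) 𝔠 ∧
      Algebra.IsSeparable (IntermediateField.adjoin K {t}) 𝔠)
    (D : Divisor K 𝔠) (hD : Divisor.degree D = 0) (G : Ω) (hG : G ≠ 0)
    (h : ∀ w : Place 𝔎 Ω, Finsupp.mapDomain (s26gspCon hld hgen hall) D w = w.ord G) :
    ∃ u : 𝔠, u ≠ 0 ∧ ∀ Q, D Q = Q.ord u := by
  have hGinv : G⁻¹ ∈ riemannRochSpace (Finsupp.mapDomain (s26gspCon hld hgen hall) D) := by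
    rw [mem_riemannRochSpace_iff]
    intro w
    right
    rw [h w, Place.ord_inv]
  rw [s26errd_rr_eq' hld hgen hall hΓ D] at hGinv
  have hex : ∃ f ∈ riemannRochSpace D, f ≠ 0 := by
    by_contra hcon0
    have hcon : ∀ f ∈ riemannRochSpace D, f = 0 :=
      fun f hf => by_contra fun hne => hcon0 ⟨f, hf, hne⟩
    have hle : Submodule.span 𝔎 (algebraMap 𝔠 Ω '' (riemannRochSpace D : Set 𝔠)) ≤ ⊥ := by
      rw [Submodule.span_le]
      rintro _ ⟨f, hf, rfl⟩
      rw [hcon f hf, map_zero]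
      exact Submodule.zero_mem _
    have h0 := hle hGinv
    rw [Submodule.mem_bot, inv_eq_zero] at h0
    exact hG h0
  obtain ⟨f, hf, hf0⟩ := hex
  exact s27bc_principal_of_rr (fun Q => s26gspc_deg_eq_one Q (hall Q)) D hD hf hf0

/-! ### the homomorphism `β` -/

/-- `Con` as an additive homomorphism of divisors. -/
def s27bcCon : Divisor K 𝔠 →+ Divisor 𝔎 Ω :=
  Finsupp.mapDomain.addMonoidHom (s26gspCon hld hgen hall)

@[simp] theorem s27bcCon_apply (D : Divisor K 𝔠) :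
    s27bcCon hld hgen hall D = Finsupp.mapDomain (s26gspCon hld hgen hall) D := rfl

theorem s27bcCon_degree (D : Divisor K 𝔠) :
    Divisor.degree (s27bcCon hld hgen hall D) = Divisor.degree D :=
  s26gspc_degree hld hgen hall D

theorem s27bcCon_injective : Function.Injective (s27bcCon hld hgen hall) :=
  Finsupp.mapDomain_injective (s26gspCon_injective hld hgen hall)

/-- `Con` on the divisors of degree `0`. -/
def s27bcConZero :
    Divisor.degZero (K := K) (F := 𝔠) →+ Divisor.degZero (K := 𝔎) (F := Ω) :=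
  ((s27bcCon hld hgen hall).comp (Divisor.degZero (K := K) (F := 𝔠)).subtype).codRestrict _
    (fun D => by
      rw [Divisor.mem_degZero]
      show Divisor.degree (s27bcCon hld hgen hall (D : Divisor K 𝔠)) = 0
      rw [s27bcCon_degree]
      exact D.2)

@[simp] theorem s27bcConZero_coe (D : Divisor.degZero (K := K) (F := 𝔠)) :
    (s27bcConZero hld hgen hall D : Divisor 𝔎 Ω)
      = Finsupp.mapDomain (s26gspCon hld hgen hall) (D : Divisor K 𝔠) := rfl

theorem s27bcConZero_principal (D : Divisor.degZero (K := K) (F := 𝔠))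
    (hD : (D : Divisor K 𝔠) ∈ Divisor.principal (K := K) (F := 𝔠)) :
    (s27bcConZero hld hgen hall D : Divisor 𝔎 Ω) ∈ Divisor.principal (K := 𝔎) (F := Ω) := by
  obtain ⟨u, hu, hDu⟩ := hD
  refine ⟨algebraMap 𝔠 Ω u, by simpa using hu, fun w => ?_⟩
  rw [s27bcConZero_coe]
  exact s26gspc_mapDomain_principal hld hgen hall (D : Divisor K 𝔠) u hDu w

/-- **`β : Pic0 K 𝔠 →+ Pic0 𝔎 Ω`**, `β (mk D) = mk (Con D)`. -/
def s27bcBeta : Pic0 K 𝔠 →+ Pic0 𝔎 Ω :=
  QuotientAddGroup.map _ _ (s27bcConZero hld hgen hall) (by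
    intro D hD
    rw [AddSubgroup.mem_comap, AddSubgroup.mem_addSubgroupOf]
    rw [AddSubgroup.mem_addSubgroupOf] at hD
    exact s27bcConZero_principal hld hgen hall D hD)

theorem s27bcBeta_mk (D : Divisor.degZero (K := K) (F := 𝔠)) :
    s27bcBeta hld hgen hall (Pic0.mk D) = Pic0.mk (s27bcConZero hld hgen hall D) := rfl

/-- **DEG-A6 (BC-INJ).**  `β` is injective. -/
theorem s27bcBeta_injective [HasPrincipalDivisors K 𝔠]
    (hΓ : ∃ t : 𝔠, Transcendental K t ∧ Module.Finite (IntermediateField.adjoin K {t}) 𝔠 ∧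
      Algebra.IsSeparable (IntermediateField.adjoin K {t}) 𝔠) :
    Function.Injective (s27bcBeta hld hgen hall) := by
  rw [injective_iff_map_eq_zero]
  intro x hx
  obtain ⟨D, rfl⟩ := Pic0.mk_surjective x
  rw [s27bcBeta_mk] at hx
  have h1 : (s27bcConZero hld hgen hall D : Divisor 𝔎 Ω)
      ∈ Divisor.principal (K := 𝔎) (F := Ω) := by
    have := (QuotientAddGroup.eq_zero_iff (s27bcConZero hld hgen hall D)).1 hx
    rwa [AddSubgroup.mem_addSubgroupOf] at this
  obtain ⟨G, hG, hDG⟩ := h1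
  obtain ⟨u, hu, hDu⟩ := s27bc_principal_of_con hld hgen hall hΓ (D : Divisor K 𝔠) D.2 G hG hDG
  refine (QuotientAddGroup.eq_zero_iff D).2 ?_
  rw [AddSubgroup.mem_addSubgroupOf]
  exact ⟨u, hu, hDu⟩

/-! ### torsion -/

theorem s27bcBeta_mem_torsion {n : ℕ} {x : Pic0 K 𝔠} (hx : x ∈ Pic0.torsion K 𝔠 n) :
    s27bcBeta hld hgen hall x ∈ Pic0.torsion 𝔎 Ω n := by
  rw [Pic0.mem_torsion] at hx ⊢
  rw [← map_zsmul, hx, map_zero]

/-- `β` on the `n`-torsion. -/
def s27bcBetaTors (n : ℕ) : Pic0.torsion K 𝔠 n →+ Pic0.torsion 𝔎 Ω n :=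
  ((s27bcBeta hld hgen hall).comp (Pic0.torsion K 𝔠 n).subtype).codRestrict _
    (fun x => s27bcBeta_mem_torsion hld hgen hall x.2)

@[simp] theorem s27bcBetaTors_coe (n : ℕ) (x : Pic0.torsion K 𝔠 n) :
    (s27bcBetaTors hld hgen hall n x : Pic0 𝔎 Ω) = s27bcBeta hld hgen hall (x : Pic0 K 𝔠) := rfl

theorem s27bcBetaTors_injective [HasPrincipalDivisors K 𝔠]
    (hΓ : ∃ t : 𝔠, Transcendental K t ∧ Module.Finite (IntermediateField.adjoin K {t}) 𝔠 ∧
      Algebra.IsSeparable (IntermediateField.adjoin K {t}) 𝔠) (n : ℕ) :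
    Function.Injective (s27bcBetaTors hld hgen hall n) := by
  intro x y hxy
  apply Subtype.ext
  apply s27bcBeta_injective hld hgen hall hΓ
  have := congrArg (fun z : Pic0.torsion 𝔎 Ω n => (z : Pic0 𝔎 Ω)) hxy
  simpa using this

include hld hgen hall in
/-- `#Pic0(𝔠)[n] ≤ #Pic0(Ω)[n]` (if the latter is finite). -/
theorem s27bc_card_le [HasPrincipalDivisors K 𝔠]
    (hΓ : ∃ t : 𝔠, Transcendental K t ∧ Module.Finite (IntermediateField.adjoin K {t}) 𝔠 ∧
      Algebra.IsSeparable (IntermediateField.adjoin K {t}) 𝔠) (n : ℕ)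
    [Finite (Pic0.torsion 𝔎 Ω n)] :
    Nat.card (Pic0.torsion K 𝔠 n) ≤ Nat.card (Pic0.torsion 𝔎 Ω n) :=
  Nat.card_le_card_of_injective _ (s27bcBetaTors_injective hld hgen hall hΓ n)

include hld hgen hall in
/-- the torsion of `𝔠 / K` is finite if that of `Ω / 𝔎` is. -/
theorem s27bc_finite [HasPrincipalDivisors K 𝔠]
    (hΓ : ∃ t : 𝔠, Transcendental K t ∧ Module.Finite (IntermediateField.adjoin K {t}) 𝔠 ∧
      Algebra.IsSeparable (IntermediateField.adjoin K {t}) 𝔠) (n : ℕ)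
    [Finite (Pic0.torsion 𝔎 Ω n)] : Finite (Pic0.torsion K 𝔠 n) :=
  Finite.of_injective _ (s27bcBetaTors_injective hld hgen hall hΓ n)

/-- **DEG-A, assembly.**  If every `n`-torsion class of `Ω / 𝔎` is the class of a constant
divisor `Con D₀` (rigidity, DEG-A5), then `β` is a bijection on the `n`-torsion. -/
theorem s27bcBetaTors_bijective [HasPrincipalDivisors K 𝔠]
    (hΓ : ∃ t : 𝔠, Transcendental K t ∧ Module.Finite (IntermediateField.adjoin K {t}) 𝔠 ∧
      Algebra.IsSeparable (IntermediateField.adjoin K {t}) 𝔠) (n : ℕ)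
    (hrig : ∀ τ ∈ Pic0.torsion 𝔎 Ω n, ∃ D₀ : Divisor.degZero (K := K) (F := 𝔠),
      τ = Pic0.mk (s27bcConZero hld hgen hall D₀)) :
    Function.Bijective (s27bcBetaTors hld hgen hall n) := by
  refine ⟨s27bcBetaTors_injective hld hgen hall hΓ n, fun τ => ?_⟩
  obtain ⟨D₀, hD₀⟩ := hrig τ τ.2
  have hx : Pic0.mk D₀ ∈ Pic0.torsion K 𝔠 n := by
    rw [Pic0.mem_torsion]
    apply s27bcBeta_injective hld hgen hall hΓ
    rw [map_zsmul, map_zero, s27bcBeta_mk, ← hD₀]
    exact Pic0.mem_torsion.1 τ.2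
  refine ⟨⟨Pic0.mk D₀, hx⟩, Subtype.ext ?_⟩
  rw [s27bcBetaTors_coe, s27bcBeta_mk, ← hD₀]

/-- **DEG-A, cardinalities.** -/
theorem s27bc_card_eq [HasPrincipalDivisors K 𝔠]
    (hΓ : ∃ t : 𝔠, Transcendental K t ∧ Module.Finite (IntermediateField.adjoin K {t}) 𝔠 ∧
      Algebra.IsSeparable (IntermediateField.adjoin K {t}) 𝔠) (n : ℕ)
    (hrig : ∀ τ ∈ Pic0.torsion 𝔎 Ω n, ∃ D₀ : Divisor.degZero (K := K) (F := 𝔠),
      τ = Pic0.mk (s27bcConZero hld hgen hall D₀)) :
    Nat.card (Pic0.torsion K 𝔠 n) = Nat.card (Pic0.torsion 𝔎 Ω n) :=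
  Nat.card_congr (Equiv.ofBijective _ (s27bcBetaTors_bijective hld hgen hall hΓ n hrig))

end Fermat.Agent.S27
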