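/-
S27, route B, piece DEG (D3e) (helper18): automorphisms of an algebraically closed field over an
algebraically closed subfield.

`K ⊆ Ω` fields, `K` algebraically closed, `Ω` algebraically closed.

* `s27af_exists_aut` : for `a : Ω` transcendental over `K` and `c : K` there is a `K`-automorphism
  `σ` of `Ω` with `σ a = a + c`;
* `s27af_mem_range_of_finite_orbit` : an element of `Ω` with finite orbit under `Ω ≃ₐ[K] Ω` lies
  in `K`;
* `s27af_mem_range_of_finiteIndex` : an element fixed by a subgroup of finite index lies in `K`;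
* `s27af_mem_range_of_stabilizer` : if `Ω ≃ₐ[K] Ω` acts on a FINITE set `T`, an element fixed by
  the stabilizer of a point of `T` lies in `K` (the shape used for the rigidity of torsion classes:
  `T = Pic⁰(F_Ω)[n]`).

Pure Mathlib.
-/
import Mathlib

set_option autoImplicit false
set_option linter.style.haveILetI false

noncomputable section

namespace Fermat.Agent.S27

open MvPolynomial

universe u v

section shift

variable {K : Type u} [Field K] {ι : Type v} [DecidableEq ι]

/-- the substitution `X_i ↦ X_i + c`, `X_j ↦ X_j` (`j ≠ i`). -/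
def s27afShiftHom (i : ι) (c : K) : MvPolynomial ι K →ₐ[K] MvPolynomial ι K :=
  aeval fun j => if j = i then X j + C c else X j

@[simp] theorem s27afShiftHom_X (i : ι) (c : K) (j : ι) :
    s27afShiftHom i c (X j) = if j = i then X j + C c else X j := by
  simp [s27afShiftHom]

theorem s27afShiftHom_comp (i : ι) (c d : K) :
    (s27afShiftHom i c).comp (s27afShiftHom i d) = s27afShiftHom i (c + d) := by
  apply MvPolynomial.algHom_ext
  intro j
  by_cases h : j = i
  · subst h
    simp [add_assoc]
  · simp [h]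

theorem s27afShiftHom_zero (i : ι) :
    s27afShiftHom i (0 : K) = AlgHom.id K (MvPolynomial ι K) := by
  apply MvPolynomial.algHom_ext
  intro j
  by_cases h : j = i
  · subst h; simp
  · simp [h]

/-- the shift as an algebra automorphism of the polynomial ring. -/
def s27afShift (i : ι) (c : K) : MvPolynomial ι K ≃ₐ[K] MvPolynomial ι K :=
  AlgEquiv.ofAlgHom (s27afShiftHom i c) (s27afShiftHom i (-c))
    (by rw [s27afShiftHom_comp, add_neg_cancel, s27afShiftHom_zero])
    (by rw [s27afShiftHom_comp, neg_add_cancel, s27afShiftHom_zero])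

@[simp] theorem s27afShift_X_self (i : ι) (c : K) :
    s27afShift i c (X i) = X i + C c := by
  simp [s27afShift]

end shift

variable {K : Type u} {Ω : Type v} [Field K] [Field Ω] [Algebra K Ω]

/-- **Enough automorphisms**: a transcendental element can be shifted by any constant. -/
theorem s27af_exists_aut [IsAlgClosed Ω] {a : Ω} (ha : Transcendental K a) (c : K) :
    ∃ σ : Ω ≃ₐ[K] Ω, σ a = a + algebraMap K Ω c := by
  classical
  -- a transcendence basis containing `a`
  have hs : AlgebraicIndepOn K id ({a} : Set Ω) := by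
    rw [AlgebraicIndepOn]
    have : AlgebraicIndependent K (fun _ : Unit => a) :=
      (algebraicIndependent_unique_type_iff (R := K) (x := fun _ : Unit => a)).2 ha
    refine (algebraicIndependent_equiv' (R := K) (Equiv.ofUnique Unit ({a} : Set Ω)) ?_).1 this
    funext u
    simp
  obtain ⟨t, hat, ht⟩ := exists_isTranscendenceBasis_superset hs
  set v : t → Ω := Subtype.val with hv
  set i₀ : t := ⟨a, hat (Set.mem_singleton a)⟩ with hi₀
  haveI : IsAlgClosure (Algebra.adjoin K (Set.range v)) Ω :=
    IsAlgClosed.isAlgClosure_of_transcendence_basis v ht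
  -- the automorphism of the adjoin
  let e₀ : Algebra.adjoin K (Set.range v) ≃ₐ[K] Algebra.adjoin K (Set.range v) :=
    (ht.1.aevalEquiv.symm.trans (s27afShift i₀ c)).trans ht.1.aevalEquiv
  let σ₀ : Ω ≃+* Ω := IsAlgClosure.equivOfEquiv Ω Ω e₀.toRingEquiv
  have hσ₀ : ∀ s : Algebra.adjoin K (Set.range v),
      σ₀ (algebraMap _ Ω s) = algebraMap _ Ω (e₀ s) := fun s =>
    IsAlgClosure.equivOfEquiv_algebraMap Ω Ω e₀.toRingEquiv s
  have hK : ∀ k : K, σ₀ (algebraMap K Ω k) = algebraMap K Ω k := by
    intro k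
    have h1 : algebraMap K Ω k
        = algebraMap (Algebra.adjoin K (Set.range v)) Ω (algebraMap K _ k) := rfl
    rw [h1, hσ₀, e₀.commutes]
  refine ⟨AlgEquiv.ofRingEquiv (f := σ₀) hK, ?_⟩
  have ha' : a = algebraMap (Algebra.adjoin K (Set.range v)) Ω (ht.1.aevalEquiv (X i₀)) := by
    rw [ht.1.algebraMap_aevalEquiv, aeval_X]
  have hcalc : e₀ (ht.1.aevalEquiv (X i₀)) = ht.1.aevalEquiv (X i₀ + C c) := by
    simp [e₀]
  change σ₀ a = _
  conv_lhs => rw [ha']
  rw [hσ₀, hcalc, ht.1.algebraMap_aevalEquiv]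
  simp [v, i₀]

/-- **Finite orbit ⇒ constant.** -/
theorem s27af_mem_range_of_finite_orbit [IsAlgClosed K] [IsAlgClosed Ω] (a : Ω)
    (h : (Set.range fun σ : Ω ≃ₐ[K] Ω => σ a).Finite) : a ∈ (algebraMap K Ω).range := by
  by_contra hnot
  have ha : Transcendental K a := by
    intro halg
    have hint : IsIntegral K a := halg.isIntegral
    have hdeg : (minpoly K a).degree = 1 :=
      IsAlgClosed.degree_eq_one_of_irreducible K (minpoly.irreducible hint)
    exact hnot (minpoly.mem_range_of_degree_eq_one K a hdeg)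
  haveI : Infinite K := IsAlgClosed.instInfinite
  have hinj : Function.Injective fun c : K => a + algebraMap K Ω c := by
    intro c d hcd
    exact (algebraMap K Ω).injective (add_left_cancel hcd)
  have hsub : Set.range (fun c : K => a + algebraMap K Ω c)
      ⊆ Set.range fun σ : Ω ≃ₐ[K] Ω => σ a := by
    rintro _ ⟨c, rfl⟩
    obtain ⟨σ, hσ⟩ := s27af_exists_aut ha c
    exact ⟨σ, hσ⟩
  exact (Set.infinite_range_of_injective hinj) (h.subset hsub)

/-- **Fixed by a subgroup of finite index ⇒ constant.** -/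
theorem s27af_mem_range_of_finiteIndex [IsAlgClosed K] [IsAlgClosed Ω]
    (H : Subgroup (Ω ≃ₐ[K] Ω)) [H.FiniteIndex] (a : Ω) (hfix : ∀ σ ∈ H, σ a = a) :
    a ∈ (algebraMap K Ω).range := by
  apply s27af_mem_range_of_finite_orbit
  -- the orbit map factors through `G ⧸ H`
  haveI : Finite ((Ω ≃ₐ[K] Ω) ⧸ H) := Subgroup.finite_quotient_of_finiteIndex
  let f : (Ω ≃ₐ[K] Ω) ⧸ H → Ω := Quotient.lift (fun σ : Ω ≃ₐ[K] Ω => σ a) (by
    intro σ τ hστ
    have h1 : σ⁻¹ * τ ∈ H := QuotientGroup.leftRel_apply.1 hστ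
    have h2 := hfix _ h1
    have h3 : σ ((σ⁻¹ * τ) a) = τ a := by
      simp [AlgEquiv.mul_apply, AlgEquiv.aut_inv]
    simpa [h2] using h3)
  refine (Set.finite_range f).subset ?_
  rintro _ ⟨σ, rfl⟩
  exact ⟨QuotientGroup.mk σ, rfl⟩

/-- **The shape used for the rigidity of torsion classes**: if the automorphism group acts on a
finite set `T`, every element of `Ω` fixed by the stabilizer of a point of `T` is a constant. -/
theorem s27af_mem_range_of_stabilizer [IsAlgClosed K] [IsAlgClosed Ω]
    {T : Type*} [MulAction (Ω ≃ₐ[K] Ω) T] [Finite T] (t : T) (a : Ω)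
    (hfix : ∀ σ ∈ MulAction.stabilizer (Ω ≃ₐ[K] Ω) t, σ a = a) :
    a ∈ (algebraMap K Ω).range := by
  haveI : Finite (MulAction.orbit (Ω ≃ₐ[K] Ω) t) := Finite.of_injective _ Subtype.val_injective
  haveI : Finite ((Ω ≃ₐ[K] Ω) ⧸ MulAction.stabilizer (Ω ≃ₐ[K] Ω) t) :=
    Finite.of_equiv _ (MulAction.orbitEquivQuotientStabilizer (Ω ≃ₐ[K] Ω) t)
  haveI : (MulAction.stabilizer (Ω ≃ₐ[K] Ω) t).FiniteIndex :=
    Subgroup.finiteIndex_of_finite_quotient
  exact s27af_mem_range_of_finiteIndex _ a hfix

end Fermat.Agent.S27
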