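/-
S27, route B, piece DEG-A5a "INFINITE ORBIT" (helper12): a finite `Aut(𝔎 / K)`-stable set of
places of the constant extension `Ω / 𝔎` consists of constant places.

Setting of S27/RigAct.lean (helper18): `K ⊆ 𝔠`, `K ⊆ 𝔎`, `Ω ⊇ 𝔠, 𝔎`, an action datum
`A : S27raAct K 𝔠 𝔎 Ω`; `K` and `𝔎` algebraically closed; `𝔠 ≠ K`.

* `s27orb_finite_orbit`  : `w` in a finite stable set `S`, trivial on `𝔠`, residue field `𝔎`
                           ⇒ the `Aut(𝔎 / K)`-orbit of `ev_w u ∈ 𝔎` is finite;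
* `s27orb_ev_mem_range`  : … ⇒ `ev_w u ∈ K` (A0);
* `s27orb_not_trivial`   : … and `𝔠 ≠ K` ⇒ contradiction;
* `s27orb_exists_con`    : every `w ∈ S` is a constant place `Con Q` (dichotomy);
* `s27orb_exists_con_div`: a divisor of `Ω / 𝔎` supported in `S` is `Con E₀`;
* `s27orb_exists_con_div_nonneg`, `s27orb_con_nonneg` : effectivity is preserved.
-/
import Fermat.Agent.S27.RigEvalAct
import Fermat.Agent.S27.AutFix

set_option autoImplicit false
set_option linter.style.haveILetI false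
set_option linter.unusedSectionVars false
set_option linter.unusedVariables false

noncomputable section

namespace Fermat.Agent.S27

open AlgebraicCurve IsLocalRing Fermat.Agent.S26
open scoped Pointwise

variable {K 𝔠 𝔎 Ω : Type*} [Field K] [Field 𝔠] [Field 𝔎] [Field Ω]
  [Algebra K 𝔠] [Algebra K 𝔎] [Algebra K Ω] [Algebra 𝔠 Ω] [Algebra 𝔎 Ω]
  [IsScalarTower K 𝔠 Ω] [IsScalarTower K 𝔎 Ω]

variable (A : S27raAct K 𝔠 𝔎 Ω)

open Classical in
/-- the value of `u` at a place (junk value `0` if the place is not trivial on `𝔠` or its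
residue field is not `𝔎`). -/
def s27orbVal (u : 𝔠) (w : Place 𝔎 Ω) : 𝔎 :=
  if h : (∀ u : 𝔠, w.ord (algebraMap 𝔠 Ω u) = 0) ∧
      Function.Surjective (algebraMap 𝔎 w.ResidueField) then
    s27ev (K := K) w h.1 h.2 u
  else 0

theorem s27orbVal_eq (u : 𝔠) (w : Place 𝔎 Ω) (hw : ∀ u : 𝔠, w.ord (algebraMap 𝔠 Ω u) = 0)
    (hres : Function.Surjective (algebraMap 𝔎 w.ResidueField)) :
    s27orbVal (K := K) u w = s27ev (K := K) w hw hres u := by
  unfold s27orbVal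
  rw [dif_pos ⟨hw, hres⟩]

/-- `h (ev_w u) = val_u (h · w)`. -/
theorem s27orb_apply (h : 𝔎 ≃ₐ[K] 𝔎) (w : Place 𝔎 Ω)
    (hw : ∀ u : 𝔠, w.ord (algebraMap 𝔠 Ω u) = 0)
    (hres : Function.Surjective (algebraMap 𝔎 w.ResidueField)) (u : 𝔠) :
    h (s27ev (K := K) w hw hres u) = s27orbVal (K := K) u (s27raPl A h w) := by
  rw [s27orbVal_eq (K := K) u (s27raPl A h w) (s27raPl_trivial A h w hw)
    (s27eva_hres A h w hres), s27eva_act']

/-- the orbit of a value `ev_w u` is finite, if `w` lies in a finite stable set of places. -/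
theorem s27orb_finite_orbit (S : Set (Place 𝔎 Ω)) (hS : S.Finite)
    (hstab : ∀ (h : 𝔎 ≃ₐ[K] 𝔎), ∀ w ∈ S, s27raPl A h w ∈ S)
    (w : Place 𝔎 Ω) (hwS : w ∈ S) (hw : ∀ u : 𝔠, w.ord (algebraMap 𝔠 Ω u) = 0)
    (hres : Function.Surjective (algebraMap 𝔎 w.ResidueField)) (u : 𝔠) :
    (Set.range fun h : 𝔎 ≃ₐ[K] 𝔎 => h (s27ev (K := K) w hw hres u)).Finite := by
  refine (hS.image (s27orbVal (K := K) u)).subset ?_
  rintro _ ⟨h, rfl⟩
  exact ⟨s27raPl A h w, hstab h w hwS, (s27orb_apply A h w hw hres u).symm⟩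

/-- … hence the value is a constant of `K`. -/
theorem s27orb_ev_mem_range [IsAlgClosed K] [IsAlgClosed 𝔎] (S : Set (Place 𝔎 Ω))
    (hS : S.Finite) (hstab : ∀ (h : 𝔎 ≃ₐ[K] 𝔎), ∀ w ∈ S, s27raPl A h w ∈ S)
    (w : Place 𝔎 Ω) (hwS : w ∈ S) (hw : ∀ u : 𝔠, w.ord (algebraMap 𝔠 Ω u) = 0)
    (hres : Function.Surjective (algebraMap 𝔎 w.ResidueField)) (u : 𝔠) :
    s27ev (K := K) w hw hres u ∈ (algebraMap K 𝔎).range :=
  s27af_mem_range_of_finite_orbit _ (s27orb_finite_orbit A S hS hstab w hwS hw hres u)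

/-- **DEG-A5a.**  A finite stable set of places contains no place which is trivial on `𝔠`
(if `𝔠 ≠ K`). -/
theorem s27orb_not_trivial [IsAlgClosed K] [IsAlgClosed 𝔎] (S : Set (Place 𝔎 Ω))
    (hS : S.Finite) (hstab : ∀ (h : 𝔎 ≃ₐ[K] 𝔎), ∀ w ∈ S, s27raPl A h w ∈ S)
    (hne : ∃ u : 𝔠, u ∉ (algebraMap K 𝔠).range)
    (w : Place 𝔎 Ω) (hwS : w ∈ S)
    (hres : Function.Surjective (algebraMap 𝔎 w.ResidueField)) :
    ¬ ∀ u : 𝔠, w.ord (algebraMap 𝔠 Ω u) = 0 := by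
  intro hw
  obtain ⟨u, hu⟩ := hne
  obtain ⟨c, hc⟩ := s27orb_ev_mem_range A S hS hstab w hwS hw hres u
  apply hu
  refine ⟨c, ?_⟩
  apply s27ev_injective (K := K) w hw hres
  rw [s27ev_algebraMap, hc]

section con

variable (hld : Function.Injective (s26gspMu K 𝔠 𝔎 Ω)) (hgen : S26gspGen K 𝔠 𝔎 Ω)
  (hall : ∀ P : Place K 𝔠, Function.Surjective (algebraMap K P.ResidueField))

/-- **DEG-A5a, constant places.**  Every place of a finite stable set is a constant place. -/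
theorem s27orb_exists_con [IsAlgClosed K] [IsAlgClosed 𝔎] (S : Set (Place 𝔎 Ω))
    (hS : S.Finite) (hstab : ∀ (h : 𝔎 ≃ₐ[K] 𝔎), ∀ w ∈ S, s27raPl A h w ∈ S)
    (hne : ∃ u : 𝔠, u ∉ (algebraMap K 𝔠).range)
    (hresΩ : ∀ w ∈ S, Function.Surjective (algebraMap 𝔎 w.ResidueField))
    (w : Place 𝔎 Ω) (hwS : w ∈ S) : ∃ Q, w = s26gspCon hld hgen hall Q :=
  (s26gspc_dichotomy hld hgen hall w).resolve_right
    (s27orb_not_trivial A S hS hstab hne w hwS (hresΩ w hwS))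

/-- a divisor supported on constant places is a `Con E₀`. -/
theorem s27orb_exists_con_div_of_support (E : Divisor 𝔎 Ω)
    (hE : ∀ w ∈ E.support, ∃ Q, w = s26gspCon hld hgen hall Q) :
    ∃ E₀ : Divisor K 𝔠, Finsupp.mapDomain (s26gspCon hld hgen hall) E₀ = E ∧
      ∀ Q, E₀ Q = E (s26gspCon hld hgen hall Q) := by
  refine ⟨Finsupp.comapDomain (s26gspCon hld hgen hall) E
    (s26gspCon_injective hld hgen hall).injOn, ?_, fun Q => rfl⟩
  apply Finsupp.mapDomain_comapDomain _ (s26gspCon_injective hld hgen hall)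
  intro w hw
  obtain ⟨Q, rfl⟩ := hE w (by simpa using hw)
  exact ⟨Q, rfl⟩

/-- **DEG-A5a, divisors.**  A divisor of `Ω / 𝔎` supported in a finite stable set of places is
the conorm `Con E₀` of a divisor of `𝔠 / K`. -/
theorem s27orb_exists_con_div [IsAlgClosed K] [IsAlgClosed 𝔎] (S : Set (Place 𝔎 Ω))
    (hS : S.Finite) (hstab : ∀ (h : 𝔎 ≃ₐ[K] 𝔎), ∀ w ∈ S, s27raPl A h w ∈ S)
    (hne : ∃ u : 𝔠, u ∉ (algebraMap K 𝔠).range)
    (hresΩ : ∀ w ∈ S, Function.Surjective (algebraMap 𝔎 w.ResidueField))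
    (E : Divisor 𝔎 Ω) (hE : ∀ w ∈ E.support, w ∈ S) :
    ∃ E₀ : Divisor K 𝔠, Finsupp.mapDomain (s26gspCon hld hgen hall) E₀ = E ∧
      ∀ Q, E₀ Q = E (s26gspCon hld hgen hall Q) :=
  s27orb_exists_con_div_of_support hld hgen hall E
    (fun w hw => s27orb_exists_con A hld hgen hall S hS hstab hne hresΩ w (hE w hw))

/-- the stable set generated by finitely many divisors which are permuted by the action. -/
theorem s27orb_stable_of_family {ι : Type*} [Finite ι] (E : ι → Divisor 𝔎 Ω)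
    (hperm : ∀ (h : 𝔎 ≃ₐ[K] 𝔎) (i : ι), ∃ j, s27raDiv A h (E i) = E j) :
    (⋃ i, ((E i).support : Set (Place 𝔎 Ω))).Finite ∧
      ∀ (h : 𝔎 ≃ₐ[K] 𝔎), ∀ w ∈ ⋃ i, ((E i).support : Set (Place 𝔎 Ω)),
        s27raPl A h w ∈ ⋃ i, ((E i).support : Set (Place 𝔎 Ω)) := by
  refine ⟨Set.finite_iUnion fun i => (E i).support.finite_toSet, fun h w hw => ?_⟩
  rw [Set.mem_iUnion] at hw ⊢
  obtain ⟨i, hi⟩ := hw
  obtain ⟨j, hj⟩ := hperm h i
  refine ⟨j, ?_⟩
  rw [← hj]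
  have h1 : (s27raDiv A h (E i)) (s27raPl A h w) = E i w := s27raDiv_apply A h (E i) w
  have h2 : E i w ≠ 0 := by simpa using hi
  simpa [h1] using h2

end con

end Fermat.Agent.S27
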