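/-
S27, route B, piece DEG-A5a, consumer shape (helper12, for helper18's A5b): a place of the
constant extension `Ω / 𝔎` with FINITE `Aut(𝔎 / K)`-orbit is a constant place.

* `s27orb_orbit_stable`            : the orbit of a place is stable;
* `s27orb_not_trivial_of_finite_orbit` : finite orbit ⇒ not trivial on `𝔠`;
* `s27orb_exists_con_of_finite_orbit`  : finite orbit ⇒ `w = Con Q`;
* `s27orb_exists_con_of_finite_orbit'` : the same with `[Module.Finite 𝔎 w.ResidueField]`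
  instead of `hres`.
-/
import Fermat.Agent.S27.RigOrbit

set_option autoImplicit false
set_option linter.style.haveILetI false
set_option linter.unusedSectionVars false
set_option linter.unusedVariables false

noncomputable section

namespace Fermat.Agent.S27

open AlgebraicCurve IsLocalRing Fermat.Agent.S26
open scoped Pointwise

variable {K 𝔠 𝔎 Ω : Type*} [Field K] [Field 𝔠] [Field 𝔎] [Field Ω]
  [Algebra K 𝔠] [Algebra K 𝔎] [Algebra K Ω] [Algebra 𝔠 Ω] [Algebra 𝔎 Ω]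
  [IsScalarTower K 𝔠 Ω] [IsScalarTower K 𝔎 Ω]

variable (A : S27raAct K 𝔠 𝔎 Ω)

theorem s27orb_orbit_stable (w : Place 𝔎 Ω) (h : 𝔎 ≃ₐ[K] 𝔎) :
    ∀ w' ∈ Set.range (fun h : 𝔎 ≃ₐ[K] 𝔎 => s27raPl A h w),
      s27raPl A h w' ∈ Set.range (fun h : 𝔎 ≃ₐ[K] 𝔎 => s27raPl A h w) := by
  rintro _ ⟨h', rfl⟩
  exact ⟨h * h', (s27raPl_mul A h h' w)⟩

theorem s27orb_mem_orbit (w : Place 𝔎 Ω) :
    w ∈ Set.range (fun h : 𝔎 ≃ₐ[K] 𝔎 => s27raPl A h w) :=
  ⟨1, s27raPl_one A w⟩

theorem s27orb_hres_orbit (w : Place 𝔎 Ω)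
    (hres : Function.Surjective (algebraMap 𝔎 w.ResidueField)) :
    ∀ w' ∈ Set.range (fun h : 𝔎 ≃ₐ[K] 𝔎 => s27raPl A h w),
      Function.Surjective (algebraMap 𝔎 w'.ResidueField) := by
  rintro _ ⟨h, rfl⟩
  exact s27eva_hres A h w hres

/-- a place with finite orbit is not trivial on `𝔠` (if `𝔠 ≠ K`). -/
theorem s27orb_not_trivial_of_finite_orbit [IsAlgClosed K] [IsAlgClosed 𝔎]
    (hne : ∃ u : 𝔠, u ∉ (algebraMap K 𝔠).range)
    (w : Place 𝔎 Ω) (hres : Function.Surjective (algebraMap 𝔎 w.ResidueField))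
    (hfin : (Set.range fun h : 𝔎 ≃ₐ[K] 𝔎 => s27raPl A h w).Finite) :
    ¬ ∀ u : 𝔠, w.ord (algebraMap 𝔠 Ω u) = 0 :=
  s27orb_not_trivial A _ hfin (fun h => s27orb_orbit_stable A w h) hne w
    (s27orb_mem_orbit A w) hres

variable (hld : Function.Injective (s26gspMu K 𝔠 𝔎 Ω)) (hgen : S26gspGen K 𝔠 𝔎 Ω)
  (hall : ∀ P : Place K 𝔠, Function.Surjective (algebraMap K P.ResidueField))

/-- **DEG-A5a, consumer shape**: a place with finite orbit is a constant place. -/
theorem s27orb_exists_con_of_finite_orbit [IsAlgClosed K] [IsAlgClosed 𝔎]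
    (hne : ∃ u : 𝔠, u ∉ (algebraMap K 𝔠).range)
    (w : Place 𝔎 Ω) (hres : Function.Surjective (algebraMap 𝔎 w.ResidueField))
    (hfin : (Set.range fun h : 𝔎 ≃ₐ[K] 𝔎 => s27raPl A h w).Finite) :
    ∃ Q, w = s26gspCon hld hgen hall Q :=
  (s26gspc_dichotomy hld hgen hall w).resolve_right
    (s27orb_not_trivial_of_finite_orbit A hne w hres hfin)

/-- the same, the residue field being finite over the algebraically closed field `𝔎`. -/
theorem s27orb_exists_con_of_finite_orbit' [IsAlgClosed K] [IsAlgClosed 𝔎]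
    (hne : ∃ u : 𝔠, u ∉ (algebraMap K 𝔠).range)
    (w : Place 𝔎 Ω) [Module.Finite 𝔎 w.ResidueField]
    (hfin : (Set.range fun h : 𝔎 ≃ₐ[K] 𝔎 => s27raPl A h w).Finite) :
    ∃ Q, w = s26gspCon hld hgen hall Q :=
  s27orb_exists_con_of_finite_orbit A hld hgen hall hne w (s27ev_hres w) hfin

/-- a transcendental element shows `𝔠 ≠ K`. -/
theorem s27orb_hne_of_transcendental {x : 𝔠} (hx : Transcendental K x) :
    ∃ u : 𝔠, u ∉ (algebraMap K 𝔠).range := by
  refine ⟨x, ?_⟩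
  rintro ⟨a, rfl⟩
  exact hx (isAlgebraic_algebraMap a)

end Fermat.Agent.S27
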