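/-
S27-B, DEG-A3 REDUCED (helper97; plan NOTES/S27-DEG.md of helper18).

`L` a field, `F / L` a field with the prelude's places and principal divisors of degree `0`,
`P₀` a place with residue field `L`, and a weak Riemann bound `hR` (every divisor of degree `≥ c₀`
has a nonzero section).  A divisor `E` is REDUCED (with respect to `P₀`) if `E ≥ 0` and
`L(E − P₀) = 0`.

* `s27rd_exists` (R1): every divisor `D` is equivalent to `E + k·P₀` with `E` reduced;
* `s27rd_unique` (R2): the reduced divisor is unique: `E + div f = E' + k·P₀` with `E`, `E'`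
  reduced forces `E = E'` (and `k = 0`, `f` constant: `s27rd_unique_k`, `s27rd_unique_const`).

Pure Riemann–Roch-space algebra on the prelude.
-/
import Fermat.Agent.ES.RiemannGeneric

set_option autoImplicit false

open AlgebraicCurve

namespace Fermat.Agent.S27

open Fermat.Agent.S24 Fermat.Agent.ES.R

variable {L F : Type*} [Field L] [Field F] [Algebra L F]

/-- `E` is reduced with respect to `P₀`: effective and `L(E − P₀) = 0`. -/
def S27Reduced (P₀ : Place L F) (E : Divisor L F) : Prop :=
  0 ≤ E ∧ ∀ f ∈ riemannRochSpace (E - Finsupp.single P₀ 1), f = 0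

theorem s27rd_bijective (P₀ : Place L F)
    (hP₀ : Function.Surjective (algebraMap L P₀.ResidueField)) :
    Function.Bijective (algebraMap L P₀.ResidueField) :=
  ⟨(algebraMap L P₀.ResidueField).injective, hP₀⟩

theorem s27rd_deg_one (P₀ : Place L F)
    (hP₀ : Function.Surjective (algebraMap L P₀.ResidueField)) : P₀.deg = 1 :=
  place_deg_eq_one P₀ (s27rd_bijective P₀ hP₀)

/-- `single P₀ j` evaluated, in the shape `j * single P₀ 1 v`. -/
theorem s27rd_single_apply (P₀ v : Place L F) (j : ℤ) :
    (Finsupp.single P₀ j : Divisor L F) v = j * (Finsupp.single P₀ (1 : ℤ) : Divisor L F) v := by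
  classical
  by_cases h : P₀ = v
  · subst h; simp
  · simp [Finsupp.single_eq_of_ne (Ne.symm h)]

/-- A nonzero section forces nonnegative degree. -/
theorem s27rd_degree_nonneg_of_mem [HasPrincipalDivisors L F] {D : Divisor L F} {f : F}
    (hf : f ≠ 0) (hfD : f ∈ riemannRochSpace D) : 0 ≤ Divisor.degree D := by
  by_contra hneg
  have := rr_eq_bot_of_degree_neg (K := L) (F := F) (D := D) (not_le.mp hneg)
  rw [this, Submodule.mem_bot] at hfD
  exact hf hfD

/-- Constants are sections of an effective divisor. -/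
theorem s27rd_const_mem {E : Divisor L F} (hE : 0 ≤ E) (c : L) :
    algebraMap L F c ∈ riemannRochSpace E := by
  rw [mem_riemannRochSpace_iff]
  intro v
  right
  rw [PlaceAux.ord_algebraMap]
  have : 0 ≤ E v := by simpa using Finsupp.le_def.mp hE v
  omega

/-- A reduced divisor does not contain `P₀`. -/
theorem s27rd_apply_P₀ {P₀ : Place L F} {E : Divisor L F} (hE : S27Reduced P₀ E) :
    E P₀ = 0 := by
  have h0 : 0 ≤ E P₀ := by simpa using Finsupp.le_def.mp hE.1 P₀
  by_contra hne
  have h1 : 1 ≤ E P₀ := by omega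
  have hmem : (1 : F) ∈ riemannRochSpace (E - Finsupp.single P₀ 1) := by
    rw [mem_riemannRochSpace_iff]
    intro v
    right
    rw [Place.ord_one]
    classical
    by_cases h : P₀ = v
    · subst h
      simp only [Finsupp.coe_sub, Pi.sub_apply, Finsupp.single_eq_same]
      omega
    · have hv : 0 ≤ E v := by simpa using Finsupp.le_def.mp hE.1 v
      simp only [Finsupp.coe_sub, Pi.sub_apply, Finsupp.single_eq_of_ne (Ne.symm h)]
      omega
  exact one_ne_zero (hE.2 1 hmem)

/-- The sections of a reduced divisor are the constants. -/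
theorem s27rd_sections_const {P₀ : Place L F}
    (hP₀ : Function.Surjective (algebraMap L P₀.ResidueField)) {E : Divisor L F}
    (hE : S27Reduced P₀ E) {h : F} (hh : h ∈ riemannRochSpace E) :
    ∃ c : L, h = algebraMap L F c := by
  classical
  rcases eq_or_ne h 0 with rfl | hh0
  · exact ⟨0, by simp⟩
  have hEP := s27rd_apply_P₀ hE
  have hmem := hh
  rw [mem_riemannRochSpace_iff] at hmem
  have hordP : 0 ≤ P₀.ord h := by
    have := (hmem P₀).resolve_left hh0
    rw [hEP] at this
    omega
  by_cases hpos : 0 < P₀.ord h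
  · -- then `h ∈ L(E − P₀)`
    exfalso
    apply hh0
    apply hE.2
    rw [mem_riemannRochSpace_iff]
    intro v
    right
    by_cases hv : P₀ = v
    · subst hv
      simp only [Finsupp.coe_sub, Pi.sub_apply, Finsupp.single_eq_same]
      omega
    · have := (hmem v).resolve_left hh0
      simp only [Finsupp.coe_sub, Pi.sub_apply, Finsupp.single_eq_of_ne (Ne.symm hv)]
      omega
  have hord0 : P₀.ord h = 0 := by omega
  -- residue trick against the constant `1`
  obtain ⟨c, hc⟩ := exists_sub_smul_ord_gt P₀ (s27rd_bijective P₀ hP₀) hh0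
    (one_ne_zero : (1 : F) ≠ 0) (by rw [hord0, Place.ord_one])
  refine ⟨c, ?_⟩
  have hcF : c • (1 : F) = algebraMap L F c := by rw [Algebra.smul_def, mul_one]
  rw [hcF] at hc
  rcases hc with hc | hc
  · exact sub_eq_zero.mp hc
  · rw [Place.ord_one] at hc
    by_contra hne
    have hd0 : h - algebraMap L F c ≠ 0 := sub_ne_zero.mpr hne
    apply hd0
    apply hE.2
    have hdE : h - algebraMap L F c ∈ riemannRochSpace E :=
      Submodule.sub_mem _ hh (s27rd_const_mem hE.1 c)
    rw [mem_riemannRochSpace_iff] at hdE ⊢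
    intro v
    right
    by_cases hv : P₀ = v
    · subst hv
      simp only [Finsupp.coe_sub, Pi.sub_apply, Finsupp.single_eq_same]
      omega
    · have := (hdE v).resolve_left hd0
      simp only [Finsupp.coe_sub, Pi.sub_apply, Finsupp.single_eq_of_ne (Ne.symm hv)]
      omega

/-- **(R1)** Existence of reduced representatives. -/
theorem s27rd_exists [HasPrincipalDivisors L F] (P₀ : Place L F)
    (hP₀ : Function.Surjective (algebraMap L P₀.ResidueField)) (c₀ : ℤ)
    (hR : ∀ D : Divisor L F, 0 ≤ Divisor.degree D - c₀ → ∃ f : F, f ≠ 0 ∧ f ∈ riemannRochSpace D)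
    (D : Divisor L F) :
    ∃ (E : Divisor L F) (k : ℤ) (f : F), f ≠ 0 ∧ S27Reduced P₀ E ∧
      ∀ v : Place L F, D v + v.ord f = E v + k * (Finsupp.single P₀ (1 : ℤ) : Divisor L F) v := by
  classical
  have hdeg1 := s27rd_deg_one P₀ hP₀
  have hdegj : ∀ j : ℤ, Divisor.degree (D + Finsupp.single P₀ j) = Divisor.degree D + j := by
    intro j
    rw [map_add, Divisor.degree_single, hdeg1]
    simp
  -- the set of `j` with `L(D + j P₀) ≠ 0`
  let P : ℤ → Prop := fun j => ∃ f : F, f ≠ 0 ∧ f ∈ riemannRochSpace (D + Finsupp.single P₀ j)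
  have hbdd : ∃ b : ℤ, ∀ z : ℤ, P z → b ≤ z := by
    refine ⟨-Divisor.degree D, ?_⟩
    rintro z ⟨f, hf, hfm⟩
    have := s27rd_degree_nonneg_of_mem hf hfm
    rw [hdegj] at this
    omega
  have hinh : ∃ z : ℤ, P z := by
    refine ⟨c₀ - Divisor.degree D, ?_⟩
    apply hR
    rw [hdegj]
    omega
  obtain ⟨j₀, ⟨f, hf, hfm⟩, hmin⟩ := Int.exists_least_of_bdd hbdd hinh
  obtain ⟨Df, hDf, -⟩ := HasPrincipalDivisors.exists_divisor (K := L) f hf
  have hfm' := hfm
  rw [mem_riemannRochSpace_iff] at hfm'
  refine ⟨D + Finsupp.single P₀ j₀ + Df, -j₀, f, hf, ⟨?_, ?_⟩, ?_⟩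
  · -- effective
    rw [Finsupp.le_def]
    intro v
    have := (hfm' v).resolve_left hf
    simp only [Finsupp.coe_add, Pi.add_apply, Finsupp.coe_zero, Pi.zero_apply, hDf v] at this ⊢
    omega
  · -- reduced
    intro h hh
    by_contra hh0
    have hP : P (j₀ - 1) := by
      refine ⟨h * f, mul_ne_zero hh0 hf, ?_⟩
      rw [mem_riemannRochSpace_iff] at hh ⊢
      intro v
      right
      have h1 := (hh v).resolve_left hh0
      rw [v.ord_mul hh0 hf]
      simp only [Finsupp.coe_add, Finsupp.coe_sub, Pi.add_apply, Pi.sub_apply, hDf v] at h1 ⊢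
      rw [s27rd_single_apply P₀ v j₀] at h1
      rw [s27rd_single_apply P₀ v (j₀ - 1)]
      linarith
    have := hmin _ hP
    omega
  · intro v
    simp only [Finsupp.coe_add, Pi.add_apply, hDf v]
    rw [s27rd_single_apply P₀ v j₀]
    ring

section Unique

variable {P₀ : Place L F}
  (hP₀ : Function.Surjective (algebraMap L P₀.ResidueField))
  {E E' : Divisor L F} (hE : S27Reduced P₀ E) (hE' : S27Reduced P₀ E') {f : F} (hf : f ≠ 0)
  {k : ℤ}
  (h : ∀ v : Place L F, E v + v.ord f = E' v + k * (Finsupp.single P₀ (1 : ℤ) : Divisor L F) v)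

include hE hE' hf h in
/-- In (R2) the integer `k` vanishes. -/
theorem s27rd_unique_k : k = 0 := by
  classical
  have hEv : ∀ v, 0 ≤ E v := fun v => by simpa using Finsupp.le_def.mp hE.1 v
  have hEv' : ∀ v, 0 ≤ E' v := fun v => by simpa using Finsupp.le_def.mp hE'.1 v
  by_contra hk
  rcases lt_or_gt_of_ne hk with hneg | hpos
  · -- `k ≤ −1`: `f⁻¹ ∈ L(E' − P₀)`
    apply inv_ne_zero hf
    apply hE'.2
    rw [mem_riemannRochSpace_iff]
    intro v
    right
    rw [v.ord_inv]
    have hv := h v
    by_cases hvP : P₀ = v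
    · subst hvP
      simp only [Finsupp.coe_sub, Pi.sub_apply, Finsupp.single_eq_same] at hv ⊢
      have := hEv P₀
      nlinarith
    · simp only [Finsupp.coe_sub, Pi.sub_apply, Finsupp.single_eq_of_ne (Ne.symm hvP)] at hv ⊢
      have := hEv v
      linarith
  · -- `k ≥ 1`: `f ∈ L(E − P₀)`
    apply hf
    apply hE.2
    rw [mem_riemannRochSpace_iff]
    intro v
    right
    have hv := h v
    by_cases hvP : P₀ = v
    · subst hvP
      simp only [Finsupp.coe_sub, Pi.sub_apply, Finsupp.single_eq_same] at hv ⊢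
      have := hEv' P₀
      nlinarith
    · simp only [Finsupp.coe_sub, Pi.sub_apply, Finsupp.single_eq_of_ne (Ne.symm hvP)] at hv ⊢
      have := hEv' v
      linarith

include hP₀ hE hE' hf h in
/-- In (R2) the function `f` is a nonzero constant. -/
theorem s27rd_unique_const : ∃ c : L, c ≠ 0 ∧ f = algebraMap L F c := by
  have hk := s27rd_unique_k hE hE' hf h
  subst hk
  have hEv' : ∀ v, 0 ≤ E' v := fun v => by simpa using Finsupp.le_def.mp hE'.1 v
  have hfE : f ∈ riemannRochSpace E := by
    rw [mem_riemannRochSpace_iff]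
    intro v
    right
    have hv := h v
    have := hEv' v
    simp only [zero_mul, add_zero] at hv
    linarith
  obtain ⟨c, hc⟩ := s27rd_sections_const hP₀ hE hfE
  refine ⟨c, ?_, hc⟩
  rintro rfl
  rw [map_zero] at hc
  exact hf hc

include hP₀ hE hE' hf h in
/-- **(R2)** Uniqueness of the reduced representative. -/
theorem s27rd_unique : E = E' := by
  have hk := s27rd_unique_k hE hE' hf h
  obtain ⟨c, -, hc⟩ := s27rd_unique_const hP₀ hE hE' hf h
  subst hk
  ext v
  have hv := h v
  rw [hc, PlaceAux.ord_algebraMap] at hv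
  simpa using hv

end Unique

end Fermat.Agent.S27
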