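/-
S27, route B, piece DEG-A5 "RIGID" + DEG-A (helper12; plan NOTES/S27-DEG.md of helper18):
the torsion classes of the constant extension are constant.

Setting: `K ⊆ 𝔠`, `K ⊆ 𝔎`, `Ω = Frac (𝔠 ⊗[K] 𝔎)` (`hld`, `hgen`, `hall`), `K` and `𝔎`
algebraically closed, `𝔠 ≠ K`, an action datum `A : S27raAct K 𝔠 𝔎 Ω` (DEG-A1/A2), principal
divisors and a weak Riemann bound `hR` on `Ω / 𝔎`, residue fields `𝔎` (`hresΩ`), a place `Q₀` of
`𝔠 / K`, `P₀ = Con Q₀`.

* `s27rig_mk_eq_iff`, `s27rig_mem_torsion_iff` : classes and torsion in terms of divisors;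
* `s27rig_reduced`        : `h · E` is reduced if `E` is;
* `s27rig_orbit_finite`   : the orbit of the reduced divisor of a torsion class is finite;
* `s27rig_support_con`    : its support consists of constant places;
* `s27rig_main`           : **A5**: every `n`-torsion class of `Ω / 𝔎` is `mk (Con D₀)`
                            (the literal `hrig` of `s27bc_card_eq`);
* `s27rig_card_eq`        : **DEG-A**: `#Pic0(𝔠)[n] = #Pic0(Ω)[n]` if the latter is finite.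
-/
import Fermat.Agent.S27.RigOrbitFin
import Fermat.Agent.S27.RigRed
import Fermat.Agent.S27.RigBC

set_option autoImplicit false
set_option linter.style.haveILetI false
set_option linter.unusedSectionVars false
set_option linter.unusedVariables false

noncomputable section

namespace Fermat.Agent.S27

open AlgebraicCurve IsLocalRing Fermat.Agent.S26
open scoped Pointwise

/-! ### classes and torsion in terms of divisors -/

section classes

variable {L F : Type*} [Field L] [Field F] [Algebra L F]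

theorem s27rig_mk_eq_zero_iff (D : Divisor.degZero (K := L) (F := F)) :
    Pic0.mk D = 0 ↔ ∃ g : F, g ≠ 0 ∧ ∀ w : Place L F, (D : Divisor L F) w = w.ord g := by
  unfold Pic0.mk
  rw [QuotientAddGroup.eq_zero_iff, AddSubgroup.mem_addSubgroupOf]
  rfl

theorem s27rig_mk_eq_iff (D₁ D₂ : Divisor.degZero (K := L) (F := F)) :
    Pic0.mk D₁ = Pic0.mk D₂ ↔
      ∃ g : F, g ≠ 0 ∧ ∀ w : Place L F,
        (D₁ : Divisor L F) w + w.ord g = (D₂ : Divisor L F) w := by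
  rw [← sub_eq_zero, ← neg_eq_zero, neg_sub]
  have h1 : Pic0.mk D₂ - Pic0.mk D₁ = Pic0.mk (D₂ - D₁) := rfl
  rw [h1, s27rig_mk_eq_zero_iff]
  constructor
  · rintro ⟨g, hg, h⟩
    refine ⟨g, hg, fun w => ?_⟩
    have := h w
    simp only [AddSubgroup.coe_sub, Finsupp.coe_sub, Pi.sub_apply] at this
    linarith
  · rintro ⟨g, hg, h⟩
    refine ⟨g, hg, fun w => ?_⟩
    have := h w
    simp only [AddSubgroup.coe_sub, Finsupp.coe_sub, Pi.sub_apply]
    linarith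

theorem s27rig_mem_torsion_iff (n : ℕ) (D : Divisor.degZero (K := L) (F := F)) :
    Pic0.mk D ∈ Pic0.torsion L F n ↔
      ∃ G : F, G ≠ 0 ∧ ∀ w : Place L F, (n : ℤ) * (D : Divisor L F) w = w.ord G := by
  rw [Pic0.mem_torsion]
  have h1 : (n : ℤ) • Pic0.mk D = Pic0.mk ((n : ℤ) • D) := rfl
  rw [h1, s27rig_mk_eq_zero_iff]
  constructor
  · rintro ⟨g, hg, h⟩
    refine ⟨g, hg, fun w => ?_⟩
    have := h w
    simpa using this
  · rintro ⟨g, hg, h⟩
    refine ⟨g, hg, fun w => ?_⟩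
    have := h w
    simpa using this

end classes

variable {K 𝔠 𝔎 Ω : Type*} [Field K] [Field 𝔠] [Field 𝔎] [Field Ω]
  [Algebra K 𝔠] [Algebra K 𝔎] [Algebra K Ω] [Algebra 𝔠 Ω] [Algebra 𝔎 Ω]
  [IsScalarTower K 𝔠 Ω] [IsScalarTower K 𝔎 Ω]

variable (A : S27raAct K 𝔠 𝔎 Ω)
  (hld : Function.Injective (s26gspMu K 𝔠 𝔎 Ω)) (hgen : S26gspGen K 𝔠 𝔎 Ω)
  (hall : ∀ P : Place K 𝔠, Function.Surjective (algebraMap K P.ResidueField))

/-! ### the action and reduced divisors -/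

theorem s27rig_single_fix (h : 𝔎 ≃ₐ[K] 𝔎) (Q₀ : Place K 𝔠) (k : ℤ) :
    s27raDiv A h (Finsupp.single (s26gspCon hld hgen hall Q₀) k)
      = Finsupp.single (s26gspCon hld hgen hall Q₀) k := by
  rw [s27raDiv_single, s27raPl_con]

/-- `h · E` is reduced with respect to `P₀ = Con Q₀` if `E` is. -/
theorem s27rig_reduced (h : 𝔎 ≃ₐ[K] 𝔎) (Q₀ : Place K 𝔠) {E : Divisor 𝔎 Ω}
    (hE : S27Reduced (s26gspCon hld hgen hall Q₀) E) :
    S27Reduced (s26gspCon hld hgen hall Q₀) (s27raDiv A h E) := by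
  refine ⟨s27raDiv_nonneg A h hE.1, fun f hf => ?_⟩
  have h1 : s27raDiv A h E - Finsupp.single (s26gspCon hld hgen hall Q₀) 1
      = s27raDiv A h (E - Finsupp.single (s26gspCon hld hgen hall Q₀) 1) := by
    rw [s27raDiv_sub, s27rig_single_fix]
  rw [h1] at hf
  have h2 : A.act h (A.act h⁻¹ f) = f := s27ra_act_apply_inv A h f
  rw [← h2] at hf
  have h3 := hE.2 _ ((s27ra_mem_rr_iff A h).1 hf)
  rw [← h2, h3, map_zero]

/-- the relation `D + div f = E + k P₀` is transported by the action. -/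
theorem s27rig_rel (h : 𝔎 ≃ₐ[K] 𝔎) (Q₀ : Place K 𝔠) {D E : Divisor 𝔎 Ω} {f : Ω} {k : ℤ}
    (hrel : ∀ v : Place 𝔎 Ω, D v + v.ord f
      = E v + k * (Finsupp.single (s26gspCon hld hgen hall Q₀) (1 : ℤ) : Divisor 𝔎 Ω) v)
    (v : Place 𝔎 Ω) :
    s27raDiv A h D v + v.ord (A.act h f) = s27raDiv A h E v
      + k * (Finsupp.single (s26gspCon hld hgen hall Q₀) (1 : ℤ) : Divisor 𝔎 Ω) v := by
  have h1 := hrel (s27raPl A h⁻¹ v)
  have h2 : (s27raPl A h⁻¹ v).ord f = v.ord (A.act h f) := by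
    rw [← s27raPl_ord A h (s27raPl A h⁻¹ v) f, s27raPl_apply_inv]
  have h3 : (Finsupp.single (s26gspCon hld hgen hall Q₀) (1 : ℤ) : Divisor 𝔎 Ω)
      (s27raPl A h⁻¹ v)
      = (Finsupp.single (s26gspCon hld hgen hall Q₀) (1 : ℤ) : Divisor 𝔎 Ω) v := by
    have := s27raDiv_apply' A h (Finsupp.single (s26gspCon hld hgen hall Q₀) (1 : ℤ)) v
    rw [s27rig_single_fix] at this
    exact this.symm
  rw [s27raDiv_apply', s27raDiv_apply', ← h2, ← h3]
  exact h1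

/-! ### the orbit of the reduced divisor of a torsion class -/

section main

variable [IsAlgClosed K] [IsAlgClosed 𝔎] [HasPrincipalDivisors 𝔎 Ω]
  (hresΩ : ∀ w : Place 𝔎 Ω, Function.Surjective (algebraMap 𝔎 w.ResidueField))

include hresΩ in
theorem s27rig_deg_one (w : Place 𝔎 Ω) : w.deg = 1 :=
  s26gspc_deg_eq_one w (hresΩ w)

/-- `E + k P₀ = D + div f` as divisors. -/
theorem s27rig_eq_add {P₀ : Place 𝔎 Ω} {D E Df : Divisor 𝔎 Ω} {f : Ω} {k : ℤ}
    (hDf : ∀ v : Place 𝔎 Ω, Df v = v.ord f)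
    (hrel : ∀ v : Place 𝔎 Ω, D v + v.ord f
      = E v + k * (Finsupp.single P₀ (1 : ℤ) : Divisor 𝔎 Ω) v) :
    E + Finsupp.single P₀ k = D + Df := by
  ext v
  rw [Finsupp.add_apply, Finsupp.add_apply, s27rd_single_apply P₀ v k, hDf v]
  exact (hrel v).symm

include hresΩ in
/-- the degree of `E + k P₀` is that of `D`. -/
theorem s27rig_degree_eq {P₀ : Place 𝔎 Ω} {D E : Divisor 𝔎 Ω} {f : Ω} (hf : f ≠ 0) {k : ℤ}
    (hrel : ∀ v : Place 𝔎 Ω, D v + v.ord f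
      = E v + k * (Finsupp.single P₀ (1 : ℤ) : Divisor 𝔎 Ω) v) :
    Divisor.degree (E + Finsupp.single P₀ k) = Divisor.degree D := by
  obtain ⟨Df, hDf, hdeg⟩ := HasPrincipalDivisors.exists_divisor (K := 𝔎) f hf
  rw [s27rig_eq_add hDf hrel, map_add, hdeg, add_zero]

include hresΩ in
/-- the class of `E + k P₀` is that of `D`. -/
theorem s27rig_class_eq {P₀ : Place 𝔎 Ω} {D E : Divisor 𝔎 Ω} {f : Ω} (hf : f ≠ 0) {k : ℤ}
    (hrel : ∀ v : Place 𝔎 Ω, D v + v.ord f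
      = E v + k * (Finsupp.single P₀ (1 : ℤ) : Divisor 𝔎 Ω) v)
    (hD : Divisor.degree D = 0) (hE : Divisor.degree (E + Finsupp.single P₀ k) = 0) :
    (Pic0.mk ⟨D, hD⟩ : Pic0 𝔎 Ω) = Pic0.mk ⟨E + Finsupp.single P₀ k, hE⟩ := by
  rw [s27rig_mk_eq_iff]
  refine ⟨f, hf, fun w => ?_⟩
  show D w + w.ord f = (E + Finsupp.single P₀ k) w
  rw [Finsupp.add_apply, s27rd_single_apply P₀ w k]
  exact hrel w

variable (Q₀ : Place K 𝔠)

include hresΩ in
/-- **the orbit of the reduced divisor of a torsion class is finite.** -/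
theorem s27rig_orbit_finite (n : ℕ) [Finite (Pic0.torsion 𝔎 Ω n)]
    {D : Divisor 𝔎 Ω} (hD0 : Divisor.degree D = 0)
    (hDn : ∃ G : Ω, G ≠ 0 ∧ ∀ w : Place 𝔎 Ω, (n : ℤ) * D w = w.ord G)
    {E : Divisor 𝔎 Ω} {k : ℤ} {f : Ω} (hf : f ≠ 0)
    (hE : S27Reduced (s26gspCon hld hgen hall Q₀) E)
    (hrel : ∀ v : Place 𝔎 Ω, D v + v.ord f
      = E v + k * (Finsupp.single (s26gspCon hld hgen hall Q₀) (1 : ℤ) : Divisor 𝔎 Ω) v) :
    (Set.range fun h : 𝔎 ≃ₐ[K] 𝔎 => s27raDiv A h E).Finite := by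
  classical
  have hdeg := s27rig_deg_one hresΩ
  -- the transported data
  have hfh : ∀ h : 𝔎 ≃ₐ[K] 𝔎, A.act h f ≠ 0 := fun h => by simpa using hf
  have hDh : ∀ h : 𝔎 ≃ₐ[K] 𝔎, Divisor.degree (s27raDiv A h D) = 0 := fun h => by
    rw [s27raDiv_degree A hdeg, hD0]
  have hEh : ∀ h : 𝔎 ≃ₐ[K] 𝔎, Divisor.degree
      (s27raDiv A h E + Finsupp.single (s26gspCon hld hgen hall Q₀) k) = 0 := fun h => by
    rw [s27rig_degree_eq hresΩ (hfh h) (s27rig_rel A hld hgen hall h Q₀ hrel), hDh h]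
  -- the classes
  have hmem : ∀ h : 𝔎 ≃ₐ[K] 𝔎,
      (Pic0.mk ⟨s27raDiv A h E + Finsupp.single (s26gspCon hld hgen hall Q₀) k, hEh h⟩ :
        Pic0 𝔎 Ω) ∈ Pic0.torsion 𝔎 Ω n := fun h => by
    rw [← s27rig_class_eq hresΩ (hfh h) (s27rig_rel A hld hgen hall h Q₀ hrel) (hDh h) (hEh h),
      s27rig_mem_torsion_iff]
    obtain ⟨G, hG, hGD⟩ := hDn
    refine ⟨A.act h G, by simpa using hG, fun w => ?_⟩
    show (n : ℤ) * s27raDiv A h D w = w.ord (A.act h G)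
    rw [s27raDiv_apply', hGD, ← s27raPl_ord A h (s27raPl A h⁻¹ w) G, s27raPl_apply_inv]
  set c : (𝔎 ≃ₐ[K] 𝔎) → Pic0.torsion 𝔎 Ω n := fun h => ⟨_, hmem h⟩ with hc
  set g : (𝔎 ≃ₐ[K] 𝔎) → Divisor 𝔎 Ω := fun h => s27raDiv A h E with hg
  have hfac : g.FactorsThrough c := by
    intro h₁ h₂ h12
    have h1 : (Pic0.mk ⟨s27raDiv A h₁ E + Finsupp.single (s26gspCon hld hgen hall Q₀) k,
        hEh h₁⟩ : Pic0 𝔎 Ω)
        = Pic0.mk ⟨s27raDiv A h₂ E + Finsupp.single (s26gspCon hld hgen hall Q₀) k, hEh h₂⟩ :=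
      congrArg Subtype.val h12
    rw [s27rig_mk_eq_iff] at h1
    obtain ⟨u, hu, hrel'⟩ := h1
    refine s27rd_unique (hresΩ _) (s27rig_reduced A hld hgen hall h₁ Q₀ hE)
      (s27rig_reduced A hld hgen hall h₂ Q₀ hE) hu (k := 0) (fun v => ?_)
    have := hrel' v
    simp only [Finsupp.coe_add, Pi.add_apply] at this
    linarith
  refine (Set.finite_range (Function.extend c g fun _ => 0)).subset ?_
  rintro _ ⟨h, rfl⟩
  exact ⟨c h, hfac.extend_apply _ h⟩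

include hresΩ A in
/-- the support of the reduced divisor of a torsion class consists of constant places. -/
theorem s27rig_support_con (hne : ∃ u : 𝔠, u ∉ (algebraMap K 𝔠).range)
    (n : ℕ) [Finite (Pic0.torsion 𝔎 Ω n)]
    {D : Divisor 𝔎 Ω} (hD0 : Divisor.degree D = 0)
    (hDn : ∃ G : Ω, G ≠ 0 ∧ ∀ w : Place 𝔎 Ω, (n : ℤ) * D w = w.ord G)
    {E : Divisor 𝔎 Ω} {k : ℤ} {f : Ω} (hf : f ≠ 0)
    (hE : S27Reduced (s26gspCon hld hgen hall Q₀) E)
    (hrel : ∀ v : Place 𝔎 Ω, D v + v.ord f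
      = E v + k * (Finsupp.single (s26gspCon hld hgen hall Q₀) (1 : ℤ) : Divisor 𝔎 Ω) v)
    (w : Place 𝔎 Ω) (hw : w ∈ E.support) : ∃ Q, w = s26gspCon hld hgen hall Q := by
  classical
  have horb := s27rig_orbit_finite A hld hgen hall hresΩ Q₀ n hD0 hDn hf hE hrel
  refine s27orb_exists_con_of_finite_orbit A hld hgen hall hne w (hresΩ w) ?_
  refine (horb.biUnion (fun E' _ => E'.support.finite_toSet)).subset ?_
  rintro _ ⟨h, rfl⟩
  rw [Set.mem_iUnion₂]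
  refine ⟨s27raDiv A h E, ⟨h, rfl⟩, ?_⟩
  rw [Finset.mem_coe, Finsupp.mem_support_iff, s27raDiv_apply]
  exact Finsupp.mem_support_iff.1 hw

include hresΩ A Q₀ in
/-- **DEG-A5 (RIGID).**  Every `n`-torsion class of the constant extension `Ω / 𝔎` is the class
of the conorm of a divisor of degree `0` of `𝔠 / K` (the literal `hrig` of `s27bc_card_eq`). -/
theorem s27rig_main (c₀ : ℤ)
    (hR : ∀ D : Divisor 𝔎 Ω, 0 ≤ Divisor.degree D - c₀ →
      ∃ f : Ω, f ≠ 0 ∧ f ∈ riemannRochSpace D)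
    (hne : ∃ u : 𝔠, u ∉ (algebraMap K 𝔠).range)
    (n : ℕ) [Finite (Pic0.torsion 𝔎 Ω n)] :
    ∀ τ ∈ Pic0.torsion 𝔎 Ω n, ∃ D₀ : Divisor.degZero (K := K) (F := 𝔠),
      τ = Pic0.mk (s27bcConZero hld hgen hall D₀) := by
  classical
  intro τ hτ
  obtain ⟨⟨D, hD0⟩, rfl⟩ := Pic0.mk_surjective τ
  have hD0' : Divisor.degree D = 0 := hD0
  have hDn := (s27rig_mem_torsion_iff n _).1 hτ
  obtain ⟨E, k, f, hf, hE, hrel⟩ :=
    s27rd_exists (s26gspCon hld hgen hall Q₀) (hresΩ _) c₀ hR D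
  obtain ⟨E₀, hE₀, -⟩ := s27orb_exists_con_div_of_support hld hgen hall E
    (fun w hw => s27rig_support_con A hld hgen hall hresΩ Q₀ hne n hD0' hDn hf hE hrel w hw)
  have hcon : Finsupp.mapDomain (s26gspCon hld hgen hall) (E₀ + Finsupp.single Q₀ k)
      = E + Finsupp.single (s26gspCon hld hgen hall Q₀) k := by
    rw [Finsupp.mapDomain_add, hE₀, Finsupp.mapDomain_single]
  have hdegE : Divisor.degree (E + Finsupp.single (s26gspCon hld hgen hall Q₀) k) = 0 := by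
    rw [s27rig_degree_eq hresΩ hf hrel, hD0']
  have hdeg₀ : Divisor.degree (E₀ + Finsupp.single Q₀ k) = 0 := by
    rw [← s26gspc_degree hld hgen hall, hcon, hdegE]
  refine ⟨⟨E₀ + Finsupp.single Q₀ k, hdeg₀⟩, ?_⟩
  rw [s27rig_mk_eq_iff]
  refine ⟨f, hf, fun w => ?_⟩
  show D w + w.ord f
    = Finsupp.mapDomain (s26gspCon hld hgen hall) (E₀ + Finsupp.single Q₀ k) w
  rw [hcon, Finsupp.add_apply, s27rd_single_apply _ w k]
  exact hrel w

include hresΩ A Q₀ hld hgen hall in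
/-- **DEG-A.**  `#Pic0(𝔠)[n] = #Pic0(Ω)[n]` for the constant extension `Ω = Frac (𝔠 ⊗[K] 𝔎)`,
`K ⊆ 𝔎` algebraically closed, if the right-hand torsion is finite. -/
theorem s27rig_card_eq [HasPrincipalDivisors K 𝔠]
    (hΓ : ∃ t : 𝔠, Transcendental K t ∧ Module.Finite (IntermediateField.adjoin K {t}) 𝔠 ∧
      Algebra.IsSeparable (IntermediateField.adjoin K {t}) 𝔠)
    (c₀ : ℤ)
    (hR : ∀ D : Divisor 𝔎 Ω, 0 ≤ Divisor.degree D - c₀ →
      ∃ f : Ω, f ≠ 0 ∧ f ∈ riemannRochSpace D)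
    (n : ℕ) [Finite (Pic0.torsion 𝔎 Ω n)] :
    Nat.card (Pic0.torsion K 𝔠 n) = Nat.card (Pic0.torsion 𝔎 Ω n) := by
  obtain ⟨t, ht, -, -⟩ := id hΓ
  exact s27bc_card_eq hld hgen hall hΓ n
    (s27rig_main A hld hgen hall hresΩ Q₀ c₀ hR (s27orb_hne_of_transcendental ht) n)

end main

end Fermat.Agent.S27
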