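/-
S27, route B, piece DEG-A, INSTANCE (helper12): the torsion of `Pic0` does not change under the
constant field extension `Ω = Frac (F ⊗[K] L)` of the curve `F / K` of S27, for every
algebraically closed field `L ⊇ K`.

Inputs on main: A1 (`s27ratAct`, helper53), A2 (`S27raAct`, helper18), A3 (`s27rd_*`, helper97),
A4/A5/A6 (`s27ev`, `s27orb_*`, `s27rig_*`, `s27bc_*`, helper12), TD (`s27td_exists_of_isCurveOver`,
helper39), GENUS-BC (`s27gbc_riemann`, helper77), Gauss places (helper96), RR-D (helper65).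

* `s27riAct hcomp : S27raAct K 𝔠 𝔎 Ω` : the action datum of a fraction ring of `𝔠 ⊗[K] 𝔎`;
* `s27ri_weak_riemann` : the weak Riemann bound `hR` of `Ω / 𝔎`;
* `s27ri_card_eq_of_hx` : DEG-A for `𝔠 / K` with a transcendental `x`, `[𝔠 : K(x)] < ∞`;
* `s27ri_card_eq`    : **DEG-A** for a curve `[IsCurveOver K F] [Algebra.EssFiniteType K F]`:
                       `Nat.card (Pic0.torsion K F n) = Nat.card (Pic0.torsion L Ω n)`
                       whenever the right-hand side is finite;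
* `s27ri_main`       : every `n`-torsion class of `Ω / L` is constant (A5, same setting);
* `s27ri_card_le`    : `#Pic0(F)[n] ≤ #Pic0(Ω)[n]`, `s27ri_finite`.
-/
import Fermat.Agent.S27.RigMain
import Fermat.Agent.S27.RigActTensor
import Fermat.Agent.S27.GenusBC
import Fermat.Agent.S27.DegPt
import Fermat.Agent.S27.TD

set_option autoImplicit false
set_option linter.style.haveILetI false
set_option linter.unusedSectionVars false
set_option linter.unusedVariables false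

noncomputable section

namespace Fermat.Agent.S27

open AlgebraicCurve TensorProduct IntermediateField Module Fermat.Agent.S26

variable {K 𝔠 𝔎 Ω : Type*} [Field K] [Field 𝔠] [Field 𝔎] [Field Ω]
  [Algebra K 𝔠] [Algebra K 𝔎] [Algebra K Ω] [Algebra 𝔠 Ω] [Algebra 𝔎 Ω]
  [IsScalarTower K 𝔠 Ω] [IsScalarTower K 𝔎 Ω]

section act

variable [Algebra (𝔠 ⊗[K] 𝔎) Ω] [IsFractionRing (𝔠 ⊗[K] 𝔎) Ω]
  (hcomp : ∀ x : 𝔠 ⊗[K] 𝔎, algebraMap (𝔠 ⊗[K] 𝔎) Ω x = s26gspMu K 𝔠 𝔎 Ω x)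

/-- restriction of scalars `Aut(Ω / 𝔠) → Aut(Ω / K)`. -/
def s27riRestrict : (Ω ≃ₐ[𝔠] Ω) →* (Ω ≃ₐ[K] Ω) where
  toFun := fun e => e.restrictScalars K
  map_one' := rfl
  map_mul' := fun _ _ => rfl

@[simp] theorem s27riRestrict_apply (e : Ω ≃ₐ[𝔠] Ω) (z : Ω) :
    s27riRestrict (K := K) e z = e z := rfl

/-- **the action datum** of `Ω = Frac (𝔠 ⊗[K] 𝔎)` (DEG-A1 in the shape of DEG-A2). -/
def s27riAct : S27raAct K 𝔠 𝔎 Ω where
  act := (s27riRestrict (K := K)).comp (s27ratAct hcomp)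
  act_const := fun h c => s27rat_act_const hcomp h c
  act_fix := fun h f => s27rat_act_base hcomp h f

end act

section riemann

variable [IsAlgClosed K] [CharZero K] [IsAlgClosed 𝔎]
  (hld : Function.Injective (s26gspMu K 𝔠 𝔎 Ω)) (hgen : S26gspGen K 𝔠 𝔎 Ω)

include hld hgen in
/-- the weak Riemann bound of the constant extension. -/
theorem s27ri_weak_riemann {x : 𝔠} (hx : Transcendental K x) [FiniteDimensional K⟮x⟯ 𝔠]
    (D : Divisor 𝔎 Ω) (hD : 0 ≤ Divisor.degree D - (genusFF K 𝔠 : ℤ)) :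
    ∃ f : Ω, f ≠ 0 ∧ f ∈ riemannRochSpace D := by
  have h1 := s27gbc_riemann hld hgen hx D
  have h2 : 0 < finrank 𝔎 ↥(riemannRochSpace D) := by
    have : (0 : ℤ) < (finrank 𝔎 ↥(riemannRochSpace D) : ℤ) := by omega
    exact_mod_cast this
  haveI := Module.nontrivial_of_finrank_pos h2
  obtain ⟨⟨f, hf⟩, hf0⟩ := exists_ne (0 : ↥(riemannRochSpace D))
  exact ⟨f, fun h => hf0 (Subtype.ext h), hf⟩

end riemann

section main

variable [IsAlgClosed K] [CharZero K] [IsAlgClosed 𝔎]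
  [Algebra (𝔠 ⊗[K] 𝔎) Ω] [IsFractionRing (𝔠 ⊗[K] 𝔎) Ω]
  (hcomp : ∀ x : 𝔠 ⊗[K] 𝔎, algebraMap (𝔠 ⊗[K] 𝔎) Ω x = s26gspMu K 𝔠 𝔎 Ω x)

include hcomp in
/-- **A5 for a fraction ring**: every `n`-torsion class of `Ω / 𝔎` is constant. -/
theorem s27ri_main_of_hx {x : 𝔠} (hx : Transcendental K x) [FiniteDimensional K⟮x⟯ 𝔠]
    (n : ℕ) [Finite (Pic0.torsion 𝔎 Ω n)] :
    ∀ τ ∈ Pic0.torsion 𝔎 Ω n, ∃ D₀ : Divisor.degZero (K := K) (F := 𝔠),
      τ = Pic0.mk (s27bcConZero (s26gsp_hyp_of_isFractionRing hcomp).1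
        (s26gsp_hyp_of_isFractionRing hcomp).2 (fun P => s26gspf_hall hx P) D₀) := by
  have hld := (s26gsp_hyp_of_isFractionRing hcomp).1
  have hgen := (s26gsp_hyp_of_isFractionRing hcomp).2
  haveI : HasPrincipalDivisors 𝔎 Ω := s26gspf_hasPrincipalDivisors hld hgen hx
  obtain ⟨Q₀⟩ := s26err_nonempty_place x hx
  exact s27rig_main (s27riAct hcomp) hld hgen (fun P => s26gspf_hall hx P)
    (fun w => s27pt_hres hld hgen hx w) Q₀ (genusFF K 𝔠 : ℤ)
    (fun D hD => s27ri_weak_riemann hld hgen hx D hD) (s27orb_hne_of_transcendental hx) n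

include hcomp in
/-- **DEG-A for a fraction ring**, with a transcendental element. -/
theorem s27ri_card_eq_of_hx [HasPrincipalDivisors K 𝔠] {x : 𝔠} (hx : Transcendental K x)
    [FiniteDimensional K⟮x⟯ 𝔠] (n : ℕ) [Finite (Pic0.torsion 𝔎 Ω n)] :
    Nat.card (Pic0.torsion K 𝔠 n) = Nat.card (Pic0.torsion 𝔎 Ω n) :=
  s27bc_card_eq (s26gsp_hyp_of_isFractionRing hcomp).1 (s26gsp_hyp_of_isFractionRing hcomp).2
    (fun P => s26gspf_hall hx P) (s27gbc_hΓ hx) n (s27ri_main_of_hx hcomp hx n)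

include hcomp in
/-- `#Pic0(𝔠)[n] ≤ #Pic0(Ω)[n]`. -/
theorem s27ri_card_le_of_hx [HasPrincipalDivisors K 𝔠] {x : 𝔠} (hx : Transcendental K x)
    [FiniteDimensional K⟮x⟯ 𝔠] (n : ℕ) [Finite (Pic0.torsion 𝔎 Ω n)] :
    Nat.card (Pic0.torsion K 𝔠 n) ≤ Nat.card (Pic0.torsion 𝔎 Ω n) :=
  s27bc_card_le (s26gsp_hyp_of_isFractionRing hcomp).1 (s26gsp_hyp_of_isFractionRing hcomp).2
    (fun P => s26gspf_hall hx P) (s27gbc_hΓ hx) n

include hcomp in
/-- **DEG-A** for the curve of S27: `#Pic0(F)[n] = #Pic0(Frac (F ⊗[K] L))[n]` for every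
algebraically closed `L ⊇ K`, as soon as the right-hand side is finite. -/
theorem s27ri_card_eq [IsCurveOver K 𝔠] [Algebra.EssFiniteType K 𝔠] (n : ℕ)
    [Finite (Pic0.torsion 𝔎 Ω n)] :
    Nat.card (Pic0.torsion K 𝔠 n) = Nat.card (Pic0.torsion 𝔎 Ω n) := by
  obtain ⟨x, hx, hfin⟩ := s27td_exists_of_isCurveOver (K := K) (F := 𝔠)
  haveI := hfin
  exact s27ri_card_eq_of_hx hcomp hx n

include hcomp in
/-- the torsion of the curve is finite if that of the constant extension is. -/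
theorem s27ri_finite [IsCurveOver K 𝔠] [Algebra.EssFiniteType K 𝔠] (n : ℕ)
    [Finite (Pic0.torsion 𝔎 Ω n)] : Finite (Pic0.torsion K 𝔠 n) := by
  obtain ⟨x, hx, hfin⟩ := s27td_exists_of_isCurveOver (K := K) (F := 𝔠)
  haveI := hfin
  exact s27bc_finite (s26gsp_hyp_of_isFractionRing hcomp).1
    (s26gsp_hyp_of_isFractionRing hcomp).2 (fun P => s26gspf_hall hx P) (s27gbc_hΓ hx) n

end main

end Fermat.Agent.S27
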