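/-
S27, route B, piece DEG "WIRING" (helper12): the action datum and DEG-A in the `(hld, hgen)` form
of helper96's setting, and the concrete degree package with its action.

Everything in S27-B is stated with `hld : Function.Injective (s26gspMu K 𝔠 𝔎 Ω)` and
`hgen : S26gspGen K 𝔠 𝔎 Ω` (no `Algebra (𝔠 ⊗[K] 𝔎) Ω` instance).  Here the fraction-ring
statements A1 (`s27ratAct`, helper53) and DEG-A (`s27ri_card_eq`, helper12) are transported to
this form.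

* `s27dw_isFractionRing` : `Ω` is a fraction ring of `𝔠 ⊗[K] 𝔎` (algebra structure through `μ`);
* `s27dwAct hld hgen : S27raAct K 𝔠 𝔎 Ω` : **the action datum** (no instance needed);
* `s27dw_card_eq`   : **DEG-A**: `#Pic0(𝔠)[n] = #Pic0(Ω)[n]` for a curve `𝔠 / K` of S27 and
                      `𝔎 ⊇ K` algebraically closed, if the right-hand side is finite;
* `s27dw_hA`        : the same in the literal shape `hA` of `s27dgtop_main` (S27/DegTop.lean);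
* `s27dw_finite`    : finiteness descends;
* `s27dw_rigid`     : A5 in this form;
* `s27dwPkg`        : the package `s27pkg` (helper45) with the action `s27dwAct`.
-/
import Fermat.Agent.S27.RigInst
import Fermat.Agent.S27.DegPkgAct

set_option autoImplicit false
set_option linter.style.haveILetI false
set_option linter.unusedSectionVars false
set_option linter.unusedVariables false

noncomputable section

namespace Fermat.Agent.S27

open AlgebraicCurve TensorProduct IntermediateField Module Fermat.Agent.S26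

variable {K 𝔠 𝔎 Ω : Type*} [Field K] [Field 𝔠] [Field 𝔎] [Field Ω]
  [Algebra K 𝔠] [Algebra K 𝔎] [Algebra K Ω] [Algebra 𝔠 Ω] [Algebra 𝔎 Ω]
  [IsScalarTower K 𝔠 Ω] [IsScalarTower K 𝔎 Ω]

/-- the algebra structure of `Ω` over `𝔠 ⊗[K] 𝔎` through the multiplication map (a reducible
definition, NOT an instance). -/
@[reducible] def s27dwAlgebra (K 𝔠 𝔎 Ω : Type*) [Field K] [Field 𝔠] [Field 𝔎] [Field Ω]
    [Algebra K 𝔠] [Algebra K 𝔎] [Algebra K Ω] [Algebra 𝔠 Ω] [Algebra 𝔎 Ω]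
    [IsScalarTower K 𝔠 Ω] [IsScalarTower K 𝔎 Ω] : Algebra (𝔠 ⊗[K] 𝔎) Ω :=
  (s26gspMu K 𝔠 𝔎 Ω).toRingHom.toAlgebra

theorem s27dw_hcomp (x : 𝔠 ⊗[K] 𝔎) :
    letI := s27dwAlgebra K 𝔠 𝔎 Ω
    algebraMap (𝔠 ⊗[K] 𝔎) Ω x = s26gspMu K 𝔠 𝔎 Ω x := rfl

/-- `Ω` is a fraction ring of `𝔠 ⊗[K] 𝔎`. -/
theorem s27dw_isFractionRing (hld : Function.Injective (s26gspMu K 𝔠 𝔎 Ω))
    (hgen : S26gspGen K 𝔠 𝔎 Ω) :
    letI := s27dwAlgebra K 𝔠 𝔎 Ω
    IsFractionRing (𝔠 ⊗[K] 𝔎) Ω := by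
  letI := s27dwAlgebra K 𝔠 𝔎 Ω
  have hmap : ∀ a : 𝔠 ⊗[K] 𝔎, algebraMap (𝔠 ⊗[K] 𝔎) Ω a = s26gspMu K 𝔠 𝔎 Ω a := fun _ => rfl
  haveI : FaithfulSMul (𝔠 ⊗[K] 𝔎) Ω := (faithfulSMul_iff_algebraMap_injective _ _).2 hld
  refine IsFractionRing.of_field (𝔠 ⊗[K] 𝔎) Ω fun z => ?_
  obtain ⟨A, B, hB, h⟩ := hgen z
  exact ⟨A, B, by rw [hmap, hmap, ← h, mul_div_assoc, div_self hB, mul_one]⟩

/-- **the action datum** of `Aut(𝔎 / K)` on `Ω = Frac (𝔠 ⊗[K] 𝔎)`, in the `(hld, hgen)` form. -/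
def s27dwAct (hld : Function.Injective (s26gspMu K 𝔠 𝔎 Ω)) (hgen : S26gspGen K 𝔠 𝔎 Ω) :
    S27raAct K 𝔠 𝔎 Ω :=
  letI := s27dwAlgebra K 𝔠 𝔎 Ω
  haveI := s27dw_isFractionRing hld hgen
  s27riAct (K := K) (𝔠 := 𝔠) (𝔎 := 𝔎) (Ω := Ω) (fun _ => rfl)

section main

variable [IsAlgClosed K] [CharZero K] [IsAlgClosed 𝔎]
  (hld : Function.Injective (s26gspMu K 𝔠 𝔎 Ω)) (hgen : S26gspGen K 𝔠 𝔎 Ω)

include hld hgen in
/-- **DEG-A** in the `(hld, hgen)` form: the torsion of `Pic0` does not change under the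
constant field extension `Ω = Frac (𝔠 ⊗[K] 𝔎)`, `𝔎 ⊇ K` algebraically closed. -/
theorem s27dw_card_eq [IsCurveOver K 𝔠] [Algebra.EssFiniteType K 𝔠] (n : ℕ)
    [Finite (Pic0.torsion 𝔎 Ω n)] :
    Nat.card (Pic0.torsion K 𝔠 n) = Nat.card (Pic0.torsion 𝔎 Ω n) := by
  letI := s27dwAlgebra K 𝔠 𝔎 Ω
  haveI := s27dw_isFractionRing hld hgen
  exact s27ri_card_eq (K := K) (𝔠 := 𝔠) (𝔎 := 𝔎) (Ω := Ω) (fun _ => rfl) n

include hld hgen in
/-- the literal hypothesis `hA` of `s27dgtop_main` (S27/DegTop.lean), `T₀ = Pic0(𝔠)[n]`. -/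
theorem s27dw_hA [IsCurveOver K 𝔠] [Algebra.EssFiniteType K 𝔠] (n : ℕ) :
    Finite (Pic0.torsion 𝔎 Ω n) →
      Nat.card (Pic0.torsion K 𝔠 n) = Nat.card (Pic0.torsion 𝔎 Ω n) := fun hfin =>
  haveI := hfin
  s27dw_card_eq hld hgen n

include hld hgen in
/-- finiteness descends. -/
theorem s27dw_finite [IsCurveOver K 𝔠] [Algebra.EssFiniteType K 𝔠] (n : ℕ)
    [Finite (Pic0.torsion 𝔎 Ω n)] : Finite (Pic0.torsion K 𝔠 n) := by
  letI := s27dwAlgebra K 𝔠 𝔎 Ω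
  haveI := s27dw_isFractionRing hld hgen
  exact s27ri_finite (K := K) (𝔠 := 𝔠) (𝔎 := 𝔎) (Ω := Ω) (fun _ => rfl) n

/-- **A5** in the `(hld, hgen)` form: every `n`-torsion class of `Ω / 𝔎` is constant. -/
theorem s27dw_rigid (hall : ∀ P : Place K 𝔠, Function.Surjective (algebraMap K P.ResidueField))
    {x : 𝔠} (hx : Transcendental K x) [FiniteDimensional K⟮x⟯ 𝔠]
    (n : ℕ) [Finite (Pic0.torsion 𝔎 Ω n)] :
    ∀ τ ∈ Pic0.torsion 𝔎 Ω n, ∃ D₀ : Divisor.degZero (K := K) (F := 𝔠),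
      τ = Pic0.mk (s27bcConZero hld hgen hall D₀) := by
  haveI : HasPrincipalDivisors 𝔎 Ω := s26gspf_hasPrincipalDivisors hld hgen hx
  obtain ⟨Q₀⟩ := s26err_nonempty_place x hx
  exact s27rig_main (s27dwAct hld hgen) hld hgen hall
    (fun w => s27pt_hres hld hgen hx w) Q₀ (genusFF K 𝔠 : ℤ)
    (fun D hD => s27ri_weak_riemann hld hgen hx D hD) (s27orb_hne_of_transcendental hx) n

/-- **the concrete degree package** with its action (helper45's `s27pkg` at `A = s27dwAct`). -/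
def s27dwPkg {x : 𝔠} (hx : Transcendental K x)
    [FiniteDimensional ↥(IntermediateField.adjoin K {x}) 𝔠]
    [Algebra.IsSeparable ↥(IntermediateField.adjoin K {x}) 𝔠]
    (P₀ : Place K 𝔠) (hns : S27pkgNS hld hgen hx) :
    S27DegPkg K 𝔠 𝔎 x (genusFF K 𝔠) (Place 𝔎 Ω) (Pic0 𝔎 Ω) :=
  s27pkg (s27dwAct hld hgen) hld hgen hx P₀ hns

end main

end Fermat.Agent.S27
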