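/-
S27-B, piece B3 (helper99): derivations separate transcendental elements in characteristic 0.

`s27der_exists_derivation`: `M ⊆ Ω` fields, `CharZero M`, `a : Ω` transcendental over `M`
⇒ there is an `M`-derivation `δ : Ω → Ω` with `δ a = 1`.

`s27der_isAlgebraic_of_forall_derivation`: if every `M`-derivation of `Ω` kills `a`, then `a` is
algebraic over `M`.

Proof: extend `{a}` to a transcendence basis `v`; `A = M[v]` is a polynomial ring (with `∂/∂a`),
`A → Frac A → Ω` is formally étale (localisation + separable algebraic), so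
`Ω ⊗[A] Ω[A⁄M] ≃ Ω[Ω⁄M]`, and `∂/∂a` base-changes to a linear form on `Ω[Ω⁄M]`.
Mathlib only.
-/
import Mathlib

set_option autoImplicit false
set_option linter.style.haveILetI false

namespace Fermat.Agent.S27

open KaehlerDifferential TensorProduct

open scoped IntermediateField.algebraAdjoinAdjoin

section

variable {M Ω : Type*} [Field M] [Field Ω] [Algebra M Ω]

/-- `∂/∂v_i` on the polynomial ring `M[v] = Algebra.adjoin M (range v)` for an algebraically
independent family `v`. -/
noncomputable def s27der_pd {ι : Type*} {v : ι → Ω} (hv : AlgebraicIndependent M v) (i : ι) :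
    Derivation M (Algebra.adjoin M (Set.range v)) (Algebra.adjoin M (Set.range v)) :=
  Derivation.mk'
    (hv.aevalEquiv.toLinearMap ∘ₗ (MvPolynomial.pderiv i).toLinearMap ∘ₗ
      hv.aevalEquiv.symm.toLinearMap)
    (by
      intro x y
      simp only [LinearMap.coe_comp, Function.comp_apply, AlgEquiv.toLinearMap_apply,
        Derivation.coeFn_coe, map_mul, Derivation.leibniz, smul_eq_mul, map_add,
        AlgEquiv.apply_symm_apply])

theorem s27der_pd_apply {ι : Type*} {v : ι → Ω} (hv : AlgebraicIndependent M v) (i : ι)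
    (x : Algebra.adjoin M (Set.range v)) :
    s27der_pd hv i x = hv.aevalEquiv (MvPolynomial.pderiv i (hv.aevalEquiv.symm x)) := rfl

theorem s27der_pd_gen {ι : Type*} {v : ι → Ω} (hv : AlgebraicIndependent M v) (i : ι) :
    s27der_pd hv i (hv.aevalEquiv (MvPolynomial.X i)) = 1 := by
  classical
  rw [s27der_pd_apply, AlgEquiv.symm_apply_apply, MvPolynomial.pderiv_X_self, map_one]

/-- Core: for a transcendence basis `v` of `Ω/M` (char 0) and an index `i`, there is an
`M`-derivation of `Ω` with `δ (v i) = 1`. -/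
theorem s27der_exists_of_basis [CharZero M] {ι : Type*} {v : ι → Ω}
    (hv : IsTranscendenceBasis M v) (i : ι) :
    ∃ δ : Derivation M Ω Ω, δ (v i) = 1 := by
  classical
  let A := Algebra.adjoin M (Set.range v)
  let E := IntermediateField.adjoin M (Set.range v)
  haveI : Algebra.IsAlgebraic E Ω := hv.isAlgebraic_field
  haveI : CharZero E := charZero_of_injective_algebraMap (algebraMap M E).injective
  haveI : Algebra.IsSeparable E Ω := Algebra.IsAlgebraic.isSeparable_of_perfectField
  haveI : Algebra.FormallyEtale E Ω := Algebra.FormallyEtale.of_isSeparable E Ω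
  haveI : Algebra.FormallyEtale A E := Algebra.FormallyEtale.of_isLocalization (nonZeroDivisors A)
  haveI : Algebra.FormallyEtale A Ω := Algebra.FormallyEtale.comp A E Ω
  let e : Ω ⊗[A] Ω[A⁄M] ≃ₗ[Ω] Ω[Ω⁄M] := tensorKaehlerEquivOfFormallyEtale M A Ω
  let l : Ω[A⁄M] →ₗ[A] A := (s27der_pd hv.1 i).liftKaehlerDifferential
  let L : Ω[Ω⁄M] →ₗ[Ω] Ω :=
    (TensorProduct.AlgebraTensorModule.rid A Ω Ω).toLinearMap ∘ₗ (l.baseChange Ω) ∘ₗ
      e.symm.toLinearMap
  refine ⟨L.compDer (D M Ω), ?_⟩
  have hvi : v i = algebraMap A Ω (hv.1.aevalEquiv (MvPolynomial.X i)) := by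
    rw [AlgebraicIndependent.algebraMap_aevalEquiv, MvPolynomial.aeval_X]
  rw [hvi]
  change (TensorProduct.AlgebraTensorModule.rid A Ω Ω) ((l.baseChange Ω)
    ((tensorKaehlerEquivOfFormallyEtale M A Ω).symm
      (D M Ω (algebraMap A Ω (hv.1.aevalEquiv (MvPolynomial.X i)))))) = 1
  rw [tensorKaehlerEquivOfFormallyEtale_symm_D_algebraMap]
  have hl : l (D M A (hv.1.aevalEquiv (MvPolynomial.X i))) = 1 := by
    change (s27der_pd hv.1 i).liftKaehlerDifferential (D M A _) = 1
    rw [Derivation.liftKaehlerDifferential_comp_D, s27der_pd_gen]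
  rw [LinearMap.baseChange_tmul, hl]
  simp

/-- Char 0: a transcendental element is separated from the base field by a derivation. -/
theorem s27der_exists_derivation [CharZero M] (a : Ω) (ha : Transcendental M a) :
    ∃ δ : Derivation M Ω Ω, δ a = 1 := by
  have hs : AlgebraicIndepOn M id ({a} : Set Ω) := by
    have : AlgebraicIndependent M (fun x : ({a} : Set Ω) => (x : Ω)) :=
      (algebraicIndependent_singleton_iff (⟨a, rfl⟩ : ({a} : Set Ω))).2 ha
    exact this
  obtain ⟨t, hat, ht⟩ := exists_isTranscendenceBasis_superset hs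
  obtain ⟨δ, hδ⟩ := s27der_exists_of_basis ht ⟨a, hat rfl⟩
  exact ⟨δ, hδ⟩

/-- Char 0: an element killed by every `M`-derivation of `Ω` is algebraic over `M`. -/
theorem s27der_isAlgebraic_of_forall_derivation [CharZero M] (a : Ω)
    (h : ∀ δ : Derivation M Ω Ω, δ a = 0) : IsAlgebraic M a := by
  by_contra hna
  obtain ⟨δ, hδ⟩ := s27der_exists_derivation a hna
  rw [h δ] at hδ
  exact zero_ne_one hδ

/-- Subfield version: `N ⊆ Ω` an intermediate field of `Ω/K`; an element killed by every
`K`-derivation of `Ω` that vanishes on `N` is algebraic over `N`. -/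
theorem s27der_isAlgebraic_of_forall_derivation_vanishing {K : Type*} [Field K] [Algebra K Ω]
    [CharZero K] (N : IntermediateField K Ω) (a : Ω)
    (h : ∀ δ : Derivation K Ω Ω, (∀ x ∈ N, δ x = 0) → δ a = 0) : IsAlgebraic N a := by
  haveI : CharZero N := charZero_of_injective_algebraMap (algebraMap K N).injective
  refine s27der_isAlgebraic_of_forall_derivation (M := N) a ?_
  intro δ
  have := h (δ.restrictScalars K) (fun x hx => by
    have : δ.restrictScalars K x = δ (algebraMap N Ω ⟨x, hx⟩) := rfl
    rw [this, Derivation.map_algebraMap])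
  simpa using this

end

end Fermat.Agent.S27
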