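/-
S27-B, piece DOM (helper86), part DER: extension of derivations.

* `s27dom_ext_formallyEtale` : a derivation `S → M` extends along a formally étale `S → T`.
* `s27dom_extend` : in the setting of `S26/ERRGaussPlace.lean` (`Ω = Frac (𝔠 ⊗[K] 𝔎)`), a
  `K`-derivation `δ₀` of the constant field `𝔎` extends to a `K`-derivation `δ` of `Ω` which
  kills `𝔠` and restricts to `δ₀` on `𝔎`.
(The existence of derivations of `𝔎` is `s27der_exists_derivation`, helper99, `S27/DerTr.lean`.)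
-/
import Mathlib
import Fermat.Agent.S26.ERRGaussPlace

set_option autoImplicit false
set_option linter.unusedVariables false
set_option linter.unusedSectionVars false
set_option linter.style.haveILetI false

namespace Fermat.Agent.S27

open TensorProduct KaehlerDifferential Fermat.Agent.S26

universe u v w x

/-- **Extension of derivations along a formally étale algebra.** -/
theorem s27dom_ext_formallyEtale (R : Type u) (S : Type v) (T : Type w) (M : Type x)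
    [CommRing R] [CommRing S] [CommRing T]
    [Algebra R S] [Algebra R T] [Algebra S T] [IsScalarTower R S T] [Algebra.FormallyEtale S T]
    [AddCommGroup M] [Module R M] [Module S M] [Module T M] [IsScalarTower R S M]
    [IsScalarTower R T M] [IsScalarTower S T M]
    (D : Derivation R S M) :
    ∃ D' : Derivation R T M, ∀ s : S, D' (algebraMap S T s) = D s := by
  let e := KaehlerDifferential.tensorKaehlerEquivOfFormallyEtale R S T
  let l : Ω[S⁄R] →ₗ[S] M := D.liftKaehlerDifferential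
  let L : T ⊗[S] Ω[S⁄R] →ₗ[T] M := LinearMap.liftBaseChange T l
  refine ⟨(L ∘ₗ e.symm.toLinearMap).compDer (KaehlerDifferential.D R T), fun s => ?_⟩
  change L (e.symm (KaehlerDifferential.D R T (algebraMap S T s))) = D s
  rw [KaehlerDifferential.tensorKaehlerEquivOfFormallyEtale_symm_D_algebraMap]
  simp [L, l]

section Extend

variable {K 𝔠 𝔎 Ω : Type*} [Field K] [Field 𝔠] [Field 𝔎] [Field Ω]
  [Algebra K 𝔠] [Algebra K 𝔎] [Algebra K Ω] [Algebra 𝔠 Ω] [Algebra 𝔎 Ω]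
  [IsScalarTower K 𝔠 Ω] [IsScalarTower K 𝔎 Ω]

/-- the `K`-linear map `u ⊗ c ↦ u · δ₀ c`. -/
noncomputable def s27domLin (δ₀ : Derivation K 𝔎 𝔎) : 𝔠 ⊗[K] 𝔎 →ₗ[K] Ω :=
  (s26gspMu K 𝔠 𝔎 Ω).toLinearMap ∘ₗ (LinearMap.lTensor 𝔠 (δ₀ : 𝔎 →ₗ[K] 𝔎))

theorem s27domLin_tmul (δ₀ : Derivation K 𝔎 𝔎) (u : 𝔠) (c : 𝔎) :
    s27domLin (𝔠 := 𝔠) (Ω := Ω) δ₀ (u ⊗ₜ[K] c) = algebraMap 𝔠 Ω u * algebraMap 𝔎 Ω (δ₀ c) := by
  simp [s27domLin]

theorem s27domLin_leibniz (δ₀ : Derivation K 𝔎 𝔎) (a b : 𝔠 ⊗[K] 𝔎) :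
    s27domLin (𝔠 := 𝔠) (Ω := Ω) δ₀ (a * b) =
      s26gspMu K 𝔠 𝔎 Ω a * s27domLin δ₀ b + s26gspMu K 𝔠 𝔎 Ω b * s27domLin δ₀ a := by
  induction a using TensorProduct.induction_on with
  | zero => simp
  | add x y hx hy => rw [add_mul, map_add, hx, hy, map_add, map_add]; ring
  | tmul u c =>
    induction b using TensorProduct.induction_on with
    | zero => simp
    | add x y hx hy => rw [mul_add, map_add, hx, hy, map_add, map_add]; ring
    | tmul u' c' =>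
      rw [Algebra.TensorProduct.tmul_mul_tmul, s27domLin_tmul, s27domLin_tmul, s27domLin_tmul,
        s26gspMu_tmul, s26gspMu_tmul, Derivation.leibniz, map_mul]
      simp only [smul_eq_mul, map_add, map_mul]
      ring

/-- **Extension of a derivation of the constant field** to `Ω = Frac (𝔠 ⊗[K] 𝔎)`. -/
theorem s27dom_extend (hld : Function.Injective (s26gspMu K 𝔠 𝔎 Ω))
    (hgen : S26gspGen K 𝔠 𝔎 Ω) (δ₀ : Derivation K 𝔎 𝔎) :
    ∃ δ : Derivation K Ω Ω, (∀ u : 𝔠, δ (algebraMap 𝔠 Ω u) = 0) ∧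
      ∀ c : 𝔎, δ (algebraMap 𝔎 Ω c) = algebraMap 𝔎 Ω (δ₀ c) := by
  classical
  letI algR : Algebra (𝔠 ⊗[K] 𝔎) Ω := (s26gspMu K 𝔠 𝔎 Ω).toRingHom.toAlgebra
  have hmap : ∀ a : 𝔠 ⊗[K] 𝔎, algebraMap (𝔠 ⊗[K] 𝔎) Ω a = s26gspMu K 𝔠 𝔎 Ω a := fun _ => rfl
  haveI tow : IsScalarTower K (𝔠 ⊗[K] 𝔎) Ω :=
    IsScalarTower.of_algebraMap_eq' (s26gspMu K 𝔠 𝔎 Ω).comp_algebraMap.symm
  haveI : FaithfulSMul (𝔠 ⊗[K] 𝔎) Ω := (faithfulSMul_iff_algebraMap_injective _ _).2 hld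
  haveI : IsFractionRing (𝔠 ⊗[K] 𝔎) Ω := by
    refine IsFractionRing.of_field (𝔠 ⊗[K] 𝔎) Ω fun z => ?_
    obtain ⟨A, B, hB, h⟩ := hgen z
    exact ⟨A, B, by rw [hmap, hmap, ← h, mul_div_assoc, div_self hB, mul_one]⟩
  haveI : Algebra.FormallyEtale (𝔠 ⊗[K] 𝔎) Ω :=
    Algebra.FormallyEtale.of_isLocalization (nonZeroDivisors (𝔠 ⊗[K] 𝔎))
  let D : Derivation K (𝔠 ⊗[K] 𝔎) Ω :=
    Derivation.mk' (s27domLin δ₀) (fun a b => by
      rw [s27domLin_leibniz, Algebra.smul_def, Algebra.smul_def, hmap, hmap])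
  obtain ⟨δ, hδ⟩ := s27dom_ext_formallyEtale K (𝔠 ⊗[K] 𝔎) Ω Ω D
  refine ⟨δ, fun u => ?_, fun c => ?_⟩
  · have h1 : algebraMap 𝔠 Ω u = algebraMap (𝔠 ⊗[K] 𝔎) Ω (u ⊗ₜ[K] (1 : 𝔎)) := by
      rw [hmap, s26gspMu_tmul, map_one, mul_one]
    rw [h1, hδ]
    change s27domLin δ₀ (u ⊗ₜ[K] (1 : 𝔎)) = 0
    rw [s27domLin_tmul, Derivation.map_one_eq_zero, map_zero, mul_zero]
  · have h1 : algebraMap 𝔎 Ω c = algebraMap (𝔠 ⊗[K] 𝔎) Ω ((1 : 𝔠) ⊗ₜ[K] c) := by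
      rw [hmap, s26gspMu_tmul, map_one, one_mul]
    rw [h1, hδ]
    change s27domLin δ₀ ((1 : 𝔠) ⊗ₜ[K] c) = _
    rw [s27domLin_tmul, map_one, one_mul]

end Extend

end Fermat.Agent.S27
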