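/-
S27-B, piece DOM (helper86), part ALG: the pole count for logarithmic derivatives.

Setting of `S26/ERRGaussPlace.lean`: `Ω = Frac (𝔠 ⊗[K] 𝔎)`, places of `Ω / 𝔎`.
`δ` a derivation of `Ω` which kills `𝔠`, maps `𝔎` to `𝔎` (as `δ₀`) and preserves every valuation
ring of `Ω / 𝔎`.

* `s27dom_logDeriv`   : `δ h / h − ord_w h · δ π / π ∈ O_w` for a uniformiser `π` at `w`;
* `s27dom_poleCount`  : if `h` has poles/zeros only at points `P i` (uniformiser `t i − c i`,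
  `ord h ≠ 0`) and at points whose coordinate is killed by `δ₀`, and the divisor `∑ P i` is
  non-special (`L(∑ P i) = 𝔎`), then `δ₀ (c i) = 0` for all `i`;
* `s27dom_main`       : hence every `c i` is algebraic over the field `N` generated by the
  coordinates of the other zeros and poles of `h` (characteristic `0`).
-/
import Mathlib
import Fermat.Agent.S26.ERRGaussPlace
import Fermat.Agent.S27.DerTr
import Fermat.Agent.S27.DomDer

set_option autoImplicit false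
set_option linter.unusedVariables false
set_option linter.unusedSectionVars false
set_option linter.style.haveILetI false

namespace Fermat.Agent.S27

open AlgebraicCurve Fermat.Agent.S26 Fermat.Agent.S24

section LogDeriv

variable {R₀ 𝔎 Ω : Type*} [CommRing R₀] [Field 𝔎] [Field Ω] [Algebra 𝔎 Ω] [Algebra R₀ Ω]

theorem s27dom_ne_zero_of_ord (w : Place 𝔎 Ω) {π : Ω} (hπ : w.ord π ≠ 0) : π ≠ 0 := by
  rintro rfl
  exact hπ w.ord_zero

/-- elements of order `0` are units of the valuation ring. -/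
theorem s27dom_mem_of_ord_zero (w : Place 𝔎 Ω) {u : Ω} (hu : w.ord u = 0) :
    u ∈ w.toValuationSubring ∧ u⁻¹ ∈ w.toValuationSubring := by
  rcases eq_or_ne u 0 with rfl | hu0
  · simp [w.toValuationSubring.zero_mem]
  · refine ⟨(place_mem_iff w hu0).2 hu.ge, (place_mem_iff w (inv_ne_zero hu0)).2 ?_⟩
    rw [w.ord_inv, hu, neg_zero]

/-- **the logarithmic derivative at a place** -/
theorem s27dom_logDeriv (w : Place 𝔎 Ω) (δ : Derivation R₀ Ω Ω)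
    (hstab : ∀ x ∈ w.toValuationSubring, δ x ∈ w.toValuationSubring)
    {π : Ω} (hπ : w.ord π = 1) {h : Ω} (hh : h ≠ 0) :
    δ h / h - (w.ord h : Ω) * (δ π / π) ∈ w.toValuationSubring := by
  have hπ0 : π ≠ 0 := s27dom_ne_zero_of_ord w (by rw [hπ]; exact one_ne_zero)
  set m : ℤ := w.ord h with hm
  set u : Ω := h * π ^ (-m) with hu
  have hu0 : u ≠ 0 := mul_ne_zero hh (zpow_ne_zero _ hπ0)
  have hordu : w.ord u = 0 := by
    rw [hu, w.ord_mul hh (zpow_ne_zero _ hπ0), w.ord_zpow, hπ, ← hm]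
    ring
  obtain ⟨hu1, hu2⟩ := s27dom_mem_of_ord_zero w hordu
  have hhu : h = u * π ^ m := by
    rw [hu, mul_assoc, ← zpow_add₀ hπ0]
    simp
  have hδu := hstab u hu1
  have key : δ h / h - (m : Ω) * (δ π / π) = δ u * u⁻¹ := by
    have h1 : δ h = u * δ (π ^ m) + π ^ m * δ u := by
      conv_lhs => rw [hhu]
      rw [Derivation.leibniz]
      simp only [smul_eq_mul]
    rw [h1, Derivation.leibniz_zpow]
    simp only [smul_eq_mul, zsmul_eq_mul]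
    have hπm : π ^ m ≠ 0 := zpow_ne_zero _ hπ0
    have hπm1 : π ^ (m - 1) = π ^ m / π := by
      rw [zpow_sub_one₀ hπ0, div_eq_mul_inv]
    rw [hπm1]
    conv_lhs => rw [hhu]
    field_simp
    ring
  rw [key]
  exact w.toValuationSubring.mul_mem _ _ hδu hu2

end LogDeriv

section PoleCount

variable {K 𝔠 𝔎 Ω : Type*} [Field K] [Field 𝔠] [Field 𝔎] [Field Ω]
  [Algebra K 𝔠] [Algebra K 𝔎] [Algebra K Ω] [Algebra 𝔠 Ω] [Algebra 𝔎 Ω]
  [IsScalarTower K 𝔠 Ω] [IsScalarTower K 𝔎 Ω]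

theorem s27dom_ord_const (w : Place 𝔎 Ω) {a : 𝔎} (ha : a ≠ 0) :
    w.ord (algebraMap 𝔎 Ω a) = 0 := by
  have h0 : algebraMap 𝔎 Ω a ≠ 0 := (map_ne_zero _).2 ha
  have h1 : 0 ≤ w.ord (algebraMap 𝔎 Ω a) := (place_mem_iff w h0).1 (w.algebraMap_mem' a)
  have h2 : 0 ≤ w.ord (algebraMap 𝔎 Ω a)⁻¹ := by
    refine (place_mem_iff w (inv_ne_zero h0)).1 ?_
    rw [← map_inv₀]
    exact w.algebraMap_mem' a⁻¹
  rw [w.ord_inv] at h2
  omega

/-- **the pole count** -/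
theorem s27dom_poleCount [CharZero K]
    (δ : Derivation K Ω Ω) (δ₀ : 𝔎 → 𝔎)
    (hδ𝔠 : ∀ u : 𝔠, δ (algebraMap 𝔠 Ω u) = 0)
    (hδ𝔎 : ∀ c : 𝔎, δ (algebraMap 𝔎 Ω c) = algebraMap 𝔎 Ω (δ₀ c))
    (hstab : ∀ w : Place 𝔎 Ω, ∀ x ∈ w.toValuationSubring, δ x ∈ w.toValuationSubring)
    {ι : Type*} (P : ι → Place 𝔎 Ω) (t : ι → 𝔠) (c : ι → 𝔎)
    (hP : ∀ i, (P i).ord (algebraMap 𝔠 Ω (t i) - algebraMap 𝔎 Ω (c i)) = 1)
    (h : Ω) (hh : h ≠ 0) (hord : ∀ i, (P i).ord h ≠ 0)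
    (hother : ∀ w : Place 𝔎 Ω, (∀ i, w ≠ P i) → w.ord h ≠ 0 →
      ∃ (s : 𝔠) (d : 𝔎), w.ord (algebraMap 𝔠 Ω s - algebraMap 𝔎 Ω d) = 1 ∧ δ₀ d = 0)
    (hns : ∀ f : Ω, (∀ w : Place 𝔎 Ω, (∀ i, w ≠ P i) → f ∈ w.toValuationSubring) →
      (∀ i, f * (algebraMap 𝔠 Ω (t i) - algebraMap 𝔎 Ω (c i)) ∈ (P i).toValuationSubring) →
      ∃ a : 𝔎, f = algebraMap 𝔎 Ω a) :
    ∀ i, δ₀ (c i) = 0 := by
  classical
  haveI : CharZero 𝔎 := charZero_of_injective_algebraMap (algebraMap K 𝔎).injective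
  set f : Ω := δ h / h with hf
  have hδπ : ∀ (s : 𝔠) (d : 𝔎), δ (algebraMap 𝔠 Ω s - algebraMap 𝔎 Ω d)
      = - algebraMap 𝔎 Ω (δ₀ d) := by
    intro s d
    rw [map_sub, hδ𝔠, hδ𝔎, zero_sub]
  -- (1) regular away from the `P i`
  have h1 : ∀ w : Place 𝔎 Ω, (∀ i, w ≠ P i) → f ∈ w.toValuationSubring := by
    intro w hw
    by_cases h0 : w.ord h = 0
    · obtain ⟨ha, hb⟩ := s27dom_mem_of_ord_zero w h0
      rw [hf, div_eq_mul_inv]
      exact w.toValuationSubring.mul_mem _ _ (hstab w h ha) hb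
    · obtain ⟨s, d, hsd, hd⟩ := hother w hw h0
      have := s27dom_logDeriv w δ (hstab w) hsd hh
      rw [hδπ, hd, map_zero, neg_zero, zero_div, mul_zero, sub_zero] at this
      exact this
  -- (2) at most simple poles at the `P i`
  have h2' : ∀ i, f + ((P i).ord h : Ω) * (algebraMap 𝔎 Ω (δ₀ (c i)) /
      (algebraMap 𝔠 Ω (t i) - algebraMap 𝔎 Ω (c i))) ∈ (P i).toValuationSubring := by
    intro i
    have := s27dom_logDeriv (P i) δ (hstab (P i)) (hP i) hh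
    rw [hδπ, neg_div, mul_neg, sub_neg_eq_add] at this
    exact this
  have hπmem : ∀ i, (algebraMap 𝔠 Ω (t i) - algebraMap 𝔎 Ω (c i)) ∈ (P i).toValuationSubring :=
    fun i => (place_mem_iff (P i) (s27dom_ne_zero_of_ord (P i)
      (by rw [hP i]; exact one_ne_zero))).2 (by rw [hP i]; exact zero_le_one)
  have hcast : ∀ (w : Place 𝔎 Ω) (n : ℤ), (n : Ω) ∈ w.toValuationSubring := by
    intro w n
    have : (n : Ω) = algebraMap 𝔎 Ω (n : 𝔎) := by simp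
    rw [this]
    exact w.algebraMap_mem' _
  have h2 : ∀ i, f * (algebraMap 𝔠 Ω (t i) - algebraMap 𝔎 Ω (c i)) ∈
      (P i).toValuationSubring := by
    intro i
    have hπ0 : (algebraMap 𝔠 Ω (t i) - algebraMap 𝔎 Ω (c i)) ≠ 0 :=
      s27dom_ne_zero_of_ord (P i) (by rw [hP i]; exact one_ne_zero)
    have e : f * (algebraMap 𝔠 Ω (t i) - algebraMap 𝔎 Ω (c i)) =
        (f + ((P i).ord h : Ω) * (algebraMap 𝔎 Ω (δ₀ (c i)) /
          (algebraMap 𝔠 Ω (t i) - algebraMap 𝔎 Ω (c i)))) *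
          (algebraMap 𝔠 Ω (t i) - algebraMap 𝔎 Ω (c i)) -
        ((P i).ord h : Ω) * algebraMap 𝔎 Ω (δ₀ (c i)) := by
      field_simp
      ring
    rw [e]
    exact (P i).toValuationSubring.sub_mem
      ((P i).toValuationSubring.mul_mem _ _ (h2' i) (hπmem i))
      ((P i).toValuationSubring.mul_mem _ _ (hcast _ _) ((P i).algebraMap_mem' _))
  -- (3) non-speciality
  obtain ⟨a, ha⟩ := hns f h1 h2
  -- (4) conclusion
  intro i
  by_contra hne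
  have hπ0 : (algebraMap 𝔠 Ω (t i) - algebraMap 𝔎 Ω (c i)) ≠ 0 :=
    s27dom_ne_zero_of_ord (P i) (by rw [hP i]; exact one_ne_zero)
  have hmem : ((P i).ord h : Ω) * (algebraMap 𝔎 Ω (δ₀ (c i)) /
      (algebraMap 𝔠 Ω (t i) - algebraMap 𝔎 Ω (c i))) ∈ (P i).toValuationSubring := by
    have := (P i).toValuationSubring.sub_mem (h2' i)
      (show f ∈ (P i).toValuationSubring by rw [ha]; exact (P i).algebraMap_mem' a)
    simpa using this
  set b : 𝔎 := ((P i).ord h : 𝔎) * δ₀ (c i) with hb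
  have hb0 : b ≠ 0 := mul_ne_zero (Int.cast_ne_zero.2 (hord i)) hne
  have hx : ((P i).ord h : Ω) * (algebraMap 𝔎 Ω (δ₀ (c i)) /
      (algebraMap 𝔠 Ω (t i) - algebraMap 𝔎 Ω (c i))) =
      algebraMap 𝔎 Ω b * (algebraMap 𝔠 Ω (t i) - algebraMap 𝔎 Ω (c i))⁻¹ := by
    rw [hb, map_mul, map_intCast]
    field_simp
  rw [hx] at hmem
  have hb1 : algebraMap 𝔎 Ω b ≠ 0 := (map_ne_zero _).2 hb0
  have hord1 := (place_mem_iff (P i) (mul_ne_zero hb1 (inv_ne_zero hπ0))).1 hmem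
  rw [(P i).ord_mul hb1 (inv_ne_zero hπ0), s27dom_ord_const (P i) hb0, (P i).ord_inv, hP i]
    at hord1
  omega

/-- **DOM, abstract form**: the coordinates `c i` of the poles `P i` of `h` are algebraic over
the field `N` generated by the coordinates of the other zeros and poles of `h`, as soon as the
divisor `∑ P i` is non-special and derivations preserve the valuation rings (`hstab`,
proved in `S27/DomGeom.lean`). -/
theorem s27dom_main [CharZero K] (hld : Function.Injective (s26gspMu K 𝔠 𝔎 Ω))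
    (hgen : S26gspGen K 𝔠 𝔎 Ω)
    (hstab : ∀ δ : Derivation K Ω Ω, (∀ u : 𝔠, δ (algebraMap 𝔠 Ω u) = 0) →
      (∀ a : 𝔎, ∃ a' : 𝔎, δ (algebraMap 𝔎 Ω a) = algebraMap 𝔎 Ω a') →
      ∀ w : Place 𝔎 Ω, ∀ x ∈ w.toValuationSubring, δ x ∈ w.toValuationSubring)
    {ι : Type*} (P : ι → Place 𝔎 Ω) (t : ι → 𝔠) (c : ι → 𝔎)
    (hP : ∀ i, (P i).ord (algebraMap 𝔠 Ω (t i) - algebraMap 𝔎 Ω (c i)) = 1)
    (h : Ω) (hh : h ≠ 0) (hord : ∀ i, (P i).ord h ≠ 0)
    (N : IntermediateField K 𝔎)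
    (hother : ∀ w : Place 𝔎 Ω, (∀ i, w ≠ P i) → w.ord h ≠ 0 →
      ∃ (s : 𝔠) (d : 𝔎), w.ord (algebraMap 𝔠 Ω s - algebraMap 𝔎 Ω d) = 1 ∧ d ∈ N)
    (hns : ∀ f : Ω, (∀ w : Place 𝔎 Ω, (∀ i, w ≠ P i) → f ∈ w.toValuationSubring) →
      (∀ i, f * (algebraMap 𝔠 Ω (t i) - algebraMap 𝔎 Ω (c i)) ∈ (P i).toValuationSubring) →
      ∃ a : 𝔎, f = algebraMap 𝔎 Ω a) :
    ∀ i, IsAlgebraic N (c i) := by
  intro i
  refine s27der_isAlgebraic_of_forall_derivation_vanishing N (c i) ?_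
  intro δ₀ hδ₀
  obtain ⟨δ, h𝔠, h𝔎⟩ := s27dom_extend (𝔠 := 𝔠) (Ω := Ω) hld hgen δ₀
  exact s27dom_poleCount δ δ₀ h𝔠 h𝔎 (hstab δ h𝔠 (fun a => ⟨δ₀ a, h𝔎 a⟩)) P t c hP h hh hord
    (fun w hw h0 => by
      obtain ⟨s, d, h1, h2⟩ := hother w hw h0
      exact ⟨s, d, h1, hδ₀ d h2⟩) hns i

end PoleCount

end Fermat.Agent.S27
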