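/-
S27-B, piece DOM (helper86), part GEOM: derivations preserve the valuation rings of `Ω / 𝔎`.

Setting of `S26/ERRGaussPlace.lean` (`Ω = Frac (𝔠 ⊗[K] 𝔎)`).  `δ` a derivation of `Ω` which kills
`𝔠` and maps `𝔎` to `𝔎`.

* `s27dom_stab_of_frac` : if every `x ∈ O_w` is `A / B` with `A, δ A, δ B, B⁻¹ ∈ O_w`, then
  `δ (O_w) ⊆ O_w`;
* `s27dom_deriv_mu0`, `s27dom_deriv_mu` : `δ` preserves the images of `O_P ⊗ 𝔎` and of `𝔠 ⊗ 𝔎`;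
* `s27dom_stab_con`     : `δ (O_w) ⊆ O_w` at the constant (Gauss) places `w = P′`;
* `s27dom_stab_gen`     : `δ (O_w) ⊆ O_w` at a place `w` which is trivial on `𝔠`, if `O_w` is a
  localisation of the image of `𝔠 ⊗ 𝔎` (`hloc`);
* `s27dom_stab`         : all places (dichotomy `s26gspc_dichotomy`).
-/
import Mathlib
import Fermat.Agent.S26.ERRGaussPlace
import Fermat.Agent.S26.ERRGaussCon
import Fermat.Agent.S27.DomAlg

set_option autoImplicit false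
set_option linter.unusedVariables false
set_option linter.unusedSectionVars false
set_option linter.style.haveILetI false

namespace Fermat.Agent.S27

open AlgebraicCurve TensorProduct Fermat.Agent.S26 Fermat.Agent.S24

section Stab

variable {K 𝔠 𝔎 Ω : Type*} [Field K] [Field 𝔠] [Field 𝔎] [Field Ω]
  [Algebra K 𝔠] [Algebra K 𝔎] [Algebra K Ω] [Algebra 𝔠 Ω] [Algebra 𝔎 Ω]
  [IsScalarTower K 𝔠 Ω] [IsScalarTower K 𝔎 Ω]

/-- stability from a presentation by fractions. -/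
theorem s27dom_stab_of_frac (V : ValuationSubring Ω) (δ : Derivation K Ω Ω)
    (hfrac : ∀ x ∈ V, ∃ A B : Ω, A ∈ V ∧ δ A ∈ V ∧ δ B ∈ V ∧ B⁻¹ ∈ V ∧ B ≠ 0 ∧ x * B = A) :
    ∀ x ∈ V, δ x ∈ V := by
  intro x hx
  obtain ⟨A, B, hA, hδA, hδB, hBi, hB0, hxB⟩ := hfrac x hx
  have h1 : δ x = (δ A - x * δ B) * B⁻¹ := by
    have h2 : δ (x * B) = δ A := by rw [hxB]
    rw [Derivation.leibniz] at h2
    simp only [smul_eq_mul] at h2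
    rw [← h2]
    field_simp
    ring
  rw [h1]
  exact V.mul_mem _ _ (V.sub_mem hδA (V.mul_mem _ _ hx hδB)) hBi

variable (δ : Derivation K Ω Ω) (hδ𝔠 : ∀ u : 𝔠, δ (algebraMap 𝔠 Ω u) = 0)
  (hδ𝔎 : ∀ a : 𝔎, ∃ a' : 𝔎, δ (algebraMap 𝔎 Ω a) = algebraMap 𝔎 Ω a')

include hδ𝔠 hδ𝔎 in
/-- `δ` preserves the image of `O_P ⊗ 𝔎`. -/
theorem s27dom_deriv_mu0 (P : Place K 𝔠) (a : ↥P.toValuationSubring ⊗[K] 𝔎) :
    ∃ a' : ↥P.toValuationSubring ⊗[K] 𝔎, δ (s26gspMu0 P 𝔎 Ω a) = s26gspMu0 P 𝔎 Ω a' := by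
  induction a using TensorProduct.induction_on with
  | zero => exact ⟨0, by simp⟩
  | add x y hx hy =>
    obtain ⟨x', hx'⟩ := hx
    obtain ⟨y', hy'⟩ := hy
    exact ⟨x' + y', by rw [map_add, map_add, hx', hy', map_add]⟩
  | tmul u c =>
    obtain ⟨c', hc'⟩ := hδ𝔎 c
    refine ⟨u ⊗ₜ[K] c', ?_⟩
    rw [s26gspMu0_tmul, s26gspMu0_tmul, Derivation.leibniz, hδ𝔠, hc']
    simp

include hδ𝔠 hδ𝔎 in
/-- `δ` preserves the image of `𝔠 ⊗ 𝔎`. -/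
theorem s27dom_deriv_mu (a : 𝔠 ⊗[K] 𝔎) :
    ∃ a' : 𝔠 ⊗[K] 𝔎, δ (s26gspMu K 𝔠 𝔎 Ω a) = s26gspMu K 𝔠 𝔎 Ω a' := by
  induction a using TensorProduct.induction_on with
  | zero => exact ⟨0, by simp⟩
  | add x y hx hy =>
    obtain ⟨x', hx'⟩ := hx
    obtain ⟨y', hy'⟩ := hy
    exact ⟨x' + y', by rw [map_add, map_add, hx', hy', map_add]⟩
  | tmul u c =>
    obtain ⟨c', hc'⟩ := hδ𝔎 c
    refine ⟨u ⊗ₜ[K] c', ?_⟩
    rw [s26gspMu_tmul, s26gspMu_tmul, Derivation.leibniz, hδ𝔠, hc']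
    simp

/-- the image of `𝔠 ⊗ 𝔎` lies in the valuation ring of a place which is trivial on `𝔠`. -/
theorem s27dom_mu_mem (w : Place 𝔎 Ω) (hw : ∀ u : 𝔠, w.ord (algebraMap 𝔠 Ω u) = 0)
    (a : 𝔠 ⊗[K] 𝔎) : s26gspMu K 𝔠 𝔎 Ω a ∈ w.toValuationSubring := by
  induction a using TensorProduct.induction_on with
  | zero => simp [w.toValuationSubring.zero_mem]
  | add x y hx hy => rw [map_add]; exact w.toValuationSubring.add_mem _ _ hx hy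
  | tmul u c =>
    rw [s26gspMu_tmul]
    exact w.toValuationSubring.mul_mem _ _ (s27dom_mem_of_ord_zero w (hw u)).1
      (w.algebraMap_mem' c)

include hδ𝔠 hδ𝔎 in
/-- **stability at a constant place**. -/
theorem s27dom_stab_con (hld : Function.Injective (s26gspMu K 𝔠 𝔎 Ω))
    (hgen : S26gspGen K 𝔠 𝔎 Ω) (P : Place K 𝔠)
    (hP : Function.Surjective (algebraMap K P.ResidueField)) :
    ∀ x ∈ (s26gspPlace P hP hld hgen).toValuationSubring,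
      δ x ∈ (s26gspPlace P hP hld hgen).toValuationSubring := by
  rw [s26gspPlace_toValuationSubring]
  have hmem : ∀ a : ↥P.toValuationSubring ⊗[K] 𝔎,
      s26gspMu0 P 𝔎 Ω a ∈ s26gspVS P hP hld hgen := fun a =>
    ⟨a, 1, by rw [map_one]; exact one_ne_zero, by rw [map_one, mul_one]⟩
  refine s27dom_stab_of_frac _ δ ?_
  intro x hx
  obtain ⟨a, b, hb, hab⟩ := (s26gsp_mem_VS P hP hld hgen x).1 hx
  obtain ⟨a', ha'⟩ := s27dom_deriv_mu0 δ hδ𝔠 hδ𝔎 P a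
  obtain ⟨b', hb'⟩ := s27dom_deriv_mu0 δ hδ𝔠 hδ𝔎 P b
  have h1 : (1 : ↥P.toValuationSubring ⊗[K] 𝔎) = 1 := rfl
  obtain ⟨-, hbi, hb0⟩ := s26gsp_unit_mem P hP hld hgen (x := s26gspMu0 P 𝔎 Ω b) (a := b)
    (b := 1) hb (by rw [map_one]; exact one_ne_zero) (by rw [map_one, mul_one])
  exact ⟨s26gspMu0 P 𝔎 Ω a, s26gspMu0 P 𝔎 Ω b, hmem a, by rw [ha']; exact hmem a',
    by rw [hb']; exact hmem b', hbi, hb0, hab⟩

include hδ𝔠 hδ𝔎 in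
/-- **stability at a place which is trivial on `𝔠`**, when its valuation ring is a
localisation of the image of `𝔠 ⊗ 𝔎`. -/
theorem s27dom_stab_gen (w : Place 𝔎 Ω) (hw : ∀ u : 𝔠, w.ord (algebraMap 𝔠 Ω u) = 0)
    (hloc : ∀ x ∈ w.toValuationSubring, ∃ a b : 𝔠 ⊗[K] 𝔎,
      s26gspMu K 𝔠 𝔎 Ω b ≠ 0 ∧ w.ord (s26gspMu K 𝔠 𝔎 Ω b) = 0 ∧
        x * s26gspMu K 𝔠 𝔎 Ω b = s26gspMu K 𝔠 𝔎 Ω a) :
    ∀ x ∈ w.toValuationSubring, δ x ∈ w.toValuationSubring := by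
  refine s27dom_stab_of_frac _ δ ?_
  intro x hx
  obtain ⟨a, b, hb0, hb, hab⟩ := hloc x hx
  obtain ⟨a', ha'⟩ := s27dom_deriv_mu δ hδ𝔠 hδ𝔎 a
  obtain ⟨b', hb'⟩ := s27dom_deriv_mu δ hδ𝔠 hδ𝔎 b
  exact ⟨s26gspMu K 𝔠 𝔎 Ω a, s26gspMu K 𝔠 𝔎 Ω b, s27dom_mu_mem w hw a,
    by rw [ha']; exact s27dom_mu_mem w hw a', by rw [hb']; exact s27dom_mu_mem w hw b',
    (s27dom_mem_of_ord_zero w hb).2, hb0, hab⟩

include hδ𝔠 hδ𝔎 in
/-- **stability at all places** (`hstab` of `s27dom_main`), from the localisation property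
of the places which are trivial on `𝔠`. -/
theorem s27dom_stab (hld : Function.Injective (s26gspMu K 𝔠 𝔎 Ω))
    (hgen : S26gspGen K 𝔠 𝔎 Ω)
    (hall : ∀ P : Place K 𝔠, Function.Surjective (algebraMap K P.ResidueField))
    (hloc : ∀ w : Place 𝔎 Ω, (∀ u : 𝔠, w.ord (algebraMap 𝔠 Ω u) = 0) →
      ∀ x ∈ w.toValuationSubring, ∃ a b : 𝔠 ⊗[K] 𝔎,
        s26gspMu K 𝔠 𝔎 Ω b ≠ 0 ∧ w.ord (s26gspMu K 𝔠 𝔎 Ω b) = 0 ∧
          x * s26gspMu K 𝔠 𝔎 Ω b = s26gspMu K 𝔠 𝔎 Ω a) :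
    ∀ w : Place 𝔎 Ω, ∀ x ∈ w.toValuationSubring, δ x ∈ w.toValuationSubring := by
  intro w
  rcases s26gspc_dichotomy hld hgen hall w with ⟨Q, rfl⟩ | hw
  · exact s27dom_stab_con δ hδ𝔠 hδ𝔎 hld hgen Q (hall Q)
  · exact s27dom_stab_gen δ hδ𝔠 hδ𝔎 w hw (hloc w hw)

end Stab

end Fermat.Agent.S27
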