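/-
S27-B, piece DOM (helper86), part STAB: `hstab` of `s27dom_main` is a theorem.

Setting of `S26/ERRGaussPlace.lean` (`Ω = Frac (𝔠 ⊗[K] 𝔎)`), `x ∈ 𝔠` transcendental over `K`
with `𝔠 / K(x)` finite separable, all residue fields of `𝔠 / K` equal to `K` (`hall`) and all
residue fields of `Ω / 𝔎` equal to `𝔎` (`hres`; automatic for `𝔎` algebraically closed).

* `s27dom_eq_gpPlace` : a place of `Ω / 𝔎` which is trivial on `𝔠` is the generic-point place
  `s27gpPlace` of its evaluation `s27ev`;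
* `s27dom_loc`        : its valuation ring is a localisation of the image of `𝔠 ⊗ 𝔎`;
* `s27dom_stab_all`   : a derivation of `Ω` which kills `𝔠` and maps `𝔎` to `𝔎` preserves the
  valuation ring of EVERY place of `Ω / 𝔎`   (= `hreg` of `S27/NonSpecDer.lean`);
* `s27dom_unif_gen`   : `x - ev_w x` is a uniformiser at a place `w` which is trivial on `𝔠`;
* `s27dom_final`      : `s27dom_main` without `hstab`.
-/
import Mathlib
import Fermat.Agent.S27.GenPlaceV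
import Fermat.Agent.S27.RigEval
import Fermat.Agent.S27.DomGeom

set_option autoImplicit false
set_option linter.unusedVariables false
set_option linter.unusedSectionVars false
set_option linter.style.haveILetI false

namespace Fermat.Agent.S27

open AlgebraicCurve TensorProduct Fermat.Agent.S26 Fermat.Agent.S24

section StabAll

variable {K 𝔠 𝔎 Ω : Type*} [Field K] [Field 𝔠] [Field 𝔎] [Field Ω]
  [Algebra K 𝔠] [Algebra K 𝔎] [Algebra K Ω] [Algebra 𝔠 Ω] [Algebra 𝔎 Ω]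
  [IsScalarTower K 𝔠 Ω] [IsScalarTower K 𝔎 Ω]

variable (hld : Function.Injective (s26gspMu K 𝔠 𝔎 Ω)) (hgen : S26gspGen K 𝔠 𝔎 Ω)
  {x : 𝔠} (hx : Transcendental K x)
  [FiniteDimensional ↥(IntermediateField.adjoin K {x}) 𝔠]
  [Algebra.IsSeparable ↥(IntermediateField.adjoin K {x}) 𝔠]

/-- a place which is trivial on `𝔠` is the generic-point place of its evaluation. -/
theorem s27dom_eq_gpPlace (w : Place 𝔎 Ω) (hw : ∀ u : 𝔠, w.ord (algebraMap 𝔠 Ω u) = 0)
    (hres : Function.Surjective (algebraMap 𝔎 w.ResidueField)) :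
    w = s27gpPlace hld hgen (s27ev (K := K) w hw hres) hx :=
  s27gpPlace_unique' hld hgen (s27ev (K := K) w hw hres) hx w
    (fun u => (s27dom_mem_of_ord_zero w (hw u)).1)
    (fun u => (s27ev_eq_iff w hw hres u _).1 rfl)

include hld hgen hx in
/-- the valuation ring of a place which is trivial on `𝔠` is a localisation of the image of
`𝔠 ⊗ 𝔎`. -/
theorem s27dom_loc (w : Place 𝔎 Ω) (hw : ∀ u : 𝔠, w.ord (algebraMap 𝔠 Ω u) = 0)
    (hres : Function.Surjective (algebraMap 𝔎 w.ResidueField)) :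
    ∀ y ∈ w.toValuationSubring, ∃ a b : 𝔠 ⊗[K] 𝔎,
      s26gspMu K 𝔠 𝔎 Ω b ≠ 0 ∧ w.ord (s26gspMu K 𝔠 𝔎 Ω b) = 0 ∧
        y * s26gspMu K 𝔠 𝔎 Ω b = s26gspMu K 𝔠 𝔎 Ω a := by
  intro y hy
  have hwe := s27dom_eq_gpPlace hld hgen hx w hw hres
  have hy' : y ∈ (s27gpPlace hld hgen (s27ev (K := K) w hw hres) hx).toValuationSubring := by
    rw [← hwe]; exact hy
  obtain ⟨a, b, hb, hb0, hab⟩ := s27gpPlace_exists_frac hld hgen _ hx hy'
  refine ⟨a, b, ?_, ?_, hab⟩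
  · intro h0
    have : b = 0 := hld (h0.trans (map_zero _).symm)
    rw [this, map_zero] at hb
    exact hb rfl
  · have e : w.ord (s26gspMu K 𝔠 𝔎 Ω b) =
        (s27gpPlace hld hgen (s27ev (K := K) w hw hres) hx).ord (s26gspMu K 𝔠 𝔎 Ω b) :=
      congrArg (fun v : Place 𝔎 Ω => v.ord (s26gspMu K 𝔠 𝔎 Ω b)) hwe
    rw [e]
    exact hb0

include hld hgen hx in
/-- `x - ev_w x` is a uniformiser at a place which is trivial on `𝔠`. -/
theorem s27dom_unif_gen (w : Place 𝔎 Ω) (hw : ∀ u : 𝔠, w.ord (algebraMap 𝔠 Ω u) = 0)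
    (hres : Function.Surjective (algebraMap 𝔎 w.ResidueField)) :
    w.ord (algebraMap 𝔠 Ω x - algebraMap 𝔎 Ω (s27ev (K := K) w hw hres x)) = 1 := by
  have hwe := s27dom_eq_gpPlace hld hgen hx w hw hres
  have e : w.ord (algebraMap 𝔠 Ω x - algebraMap 𝔎 Ω (s27ev (K := K) w hw hres x)) =
      (s27gpPlace hld hgen (s27ev (K := K) w hw hres) hx).ord
        (algebraMap 𝔠 Ω x - algebraMap 𝔎 Ω (s27ev (K := K) w hw hres x)) :=
    congrArg (fun v : Place 𝔎 Ω =>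
      v.ord (algebraMap 𝔠 Ω x - algebraMap 𝔎 Ω (s27ev (K := K) w hw hres x))) hwe
  rw [e]
  exact s27gpPlace_ord_unif hld hgen _ hx

include hld hgen hx in
/-- **derivations preserve all valuation rings** of `Ω / 𝔎`. -/
theorem s27dom_stab_all
    (hall : ∀ P : Place K 𝔠, Function.Surjective (algebraMap K P.ResidueField))
    (hres : ∀ w : Place 𝔎 Ω, Function.Surjective (algebraMap 𝔎 w.ResidueField))
    (δ : Derivation K Ω Ω) (hδ𝔠 : ∀ u : 𝔠, δ (algebraMap 𝔠 Ω u) = 0)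
    (hδ𝔎 : ∀ a : 𝔎, ∃ a' : 𝔎, δ (algebraMap 𝔎 Ω a) = algebraMap 𝔎 Ω a') :
    ∀ w : Place 𝔎 Ω, ∀ y ∈ w.toValuationSubring, δ y ∈ w.toValuationSubring :=
  s27dom_stab δ hδ𝔠 hδ𝔎 hld hgen hall
    (fun w hw => s27dom_loc hld hgen hx w hw (hres w))

include hld hgen hx in
/-- **DOM**: `s27dom_main` with the stability of the valuation rings discharged. -/
theorem s27dom_final [CharZero K]
    (hall : ∀ P : Place K 𝔠, Function.Surjective (algebraMap K P.ResidueField))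
    (hres : ∀ w : Place 𝔎 Ω, Function.Surjective (algebraMap 𝔎 w.ResidueField))
    {ι : Type*} (P : ι → Place 𝔎 Ω) (t : ι → 𝔠) (c : ι → 𝔎)
    (hP : ∀ i, (P i).ord (algebraMap 𝔠 Ω (t i) - algebraMap 𝔎 Ω (c i)) = 1)
    (h : Ω) (hh : h ≠ 0) (hord : ∀ i, (P i).ord h ≠ 0)
    (N : IntermediateField K 𝔎)
    (hother : ∀ w : Place 𝔎 Ω, (∀ i, w ≠ P i) → w.ord h ≠ 0 →
      ∃ (s : 𝔠) (d : 𝔎), w.ord (algebraMap 𝔠 Ω s - algebraMap 𝔎 Ω d) = 1 ∧ d ∈ N)
    (hns : ∀ f : Ω, (∀ w : Place 𝔎 Ω, (∀ i, w ≠ P i) → f ∈ w.toValuationSubring) →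
      (∀ i, f * (algebraMap 𝔠 Ω (t i) - algebraMap 𝔎 Ω (c i)) ∈ (P i).toValuationSubring) →
      ∃ a : 𝔎, f = algebraMap 𝔎 Ω a) :
    ∀ i, IsAlgebraic N (c i) :=
  s27dom_main hld hgen
    (fun δ h1 h2 => s27dom_stab_all hld hgen hx hall hres δ h1 h2)
    P t c hP h hh hord N hother hns

end StabAll

end Fermat.Agent.S27
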