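/-
S27-B, DEG-B2 NONSPECIAL, DERIVATION form (helper99; prefix s27nsd_; helper79's symmetric form = S27/NonSpecial.lean, s27ns_).

Setting: `Ω / L` a field with the prelude's places, all residue fields `= L`, principal divisors,
`g c₀ : ℤ` with RIEMANN'S UPPER BOUND  `c₀ ≤ deg E → dim L(E) ≤ deg E + 1 − g`.

* `S27nsdRaise D P Δ` : the operator `Δ : Ω → Ω` keeps the pole bound `D` at every place `R ≠ P` and
  raises the pole order at `P` by exactly one.
* `s27nsd_raise_of_derivation` : a derivation `Δ` of `Ω` (char 0) with `Δ(O_R) ⊆ O_R` for all `R`,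
  `Δπ_R = 0` for a uniformiser at the places `R ≠ P` with `D R ≠ 0`, and `Δπ_P` a unit at `P`,
  satisfies `S27nsdRaise D P Δ`.       (= `1 ⊗ δ` for a derivation `δ` of `L` killing the coordinates
  of the points of `D` and moving the coordinate of `P`.)
* `s27nsd_core` : `S27nsdRaise D P Δ`, `D P = 0`, `L(D + P) ≠ L(D)` ⇒ `dim L(D) ≤ deg D + 1 − g`
  (iterating `Δ` gives functions with poles of every order at `P`: `dim L(D + mP) ≥ dim L(D) + m`).
* `s27nsd_chain` : points `P_0, …, P_{g−1}` with raising operators ⇒ `L(P_0 + … + P_{j−1}) = L(0)`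
  for all `j ≤ g`: THE GENERIC DIVISOR OF DEGREE `g` IS NON-SPECIAL.
No Riemann–Roch duality, no differentials, no residues.
-/
import Fermat.Agent.ES.RiemannGeneric
import Fermat.Prelude.Def_AlgebraicCurve_Repartitions
import Mathlib.RingTheory.Derivation.Basic
import Mathlib.Algebra.CharP.Algebra

set_option autoImplicit false
set_option linter.style.haveILetI false

namespace Fermat.Agent.S27

open AlgebraicCurve Module Fermat.Agent.S24 Fermat.Agent.ES.R

variable {L Ω : Type*} [Field L] [Field Ω] [Algebra L Ω]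

/-- `Δ` keeps the pole bound `D` away from `P` and raises the pole order at `P` by one. -/
structure S27nsdRaise (D : Divisor L Ω) (P : Place L Ω) (Δ : Ω → Ω) : Prop where
  keep : ∀ R : Place L Ω, R ≠ P → ∀ f : Ω, f ≠ 0 → -D R ≤ R.ord f →
    Δ f = 0 ∨ -D R ≤ R.ord (Δ f)
  raise : ∀ f : Ω, f ≠ 0 → P.ord f < 0 → Δ f ≠ 0 ∧ P.ord (Δ f) = P.ord f - 1

/-! ### The iterates of `Δ` -/

theorem s27nsd_iterate {D : Divisor L Ω} {P : Place L Ω} {Δ : Ω → Ω} (h : S27nsdRaise D P Δ)
    {f : Ω} (hf : f ≠ 0) (hP : P.ord f = -1) (hR : ∀ R : Place L Ω, R ≠ P → -D R ≤ R.ord f)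
    (k : ℕ) :
    Δ^[k] f ≠ 0 ∧ P.ord (Δ^[k] f) = -((k : ℤ) + 1) ∧
      ∀ R : Place L Ω, R ≠ P → -D R ≤ R.ord (Δ^[k] f) := by
  induction k with
  | zero => exact ⟨hf, by simpa using hP, hR⟩
  | succ k ih =>
    obtain ⟨h0, h1, h2⟩ := ih
    rw [Function.iterate_succ_apply']
    have hlt : P.ord (Δ^[k] f) < 0 := by rw [h1]; omega
    obtain ⟨h3, h4⟩ := h.raise _ h0 hlt
    refine ⟨h3, ?_, ?_⟩
    · rw [h4, h1]; push_cast; ring
    · intro R hRP
      rcases h.keep R hRP _ h0 (h2 R hRP) with h5 | h5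
      · exact absurd h5 h3
      · exact h5

/-- `D + m·P`. -/
noncomputable def s27nsdAdd (D : Divisor L Ω) (P : Place L Ω) (m : ℕ) : Divisor L Ω :=
  D + Finsupp.single P (m : ℤ)

theorem s27nsdAdd_apply_self (D : Divisor L Ω) (P : Place L Ω) (m : ℕ) :
    s27nsdAdd D P m P = D P + m := by
  simp [s27nsdAdd]

theorem s27nsdAdd_apply_of_ne (D : Divisor L Ω) (P : Place L Ω) (m : ℕ) {R : Place L Ω}
    (h : R ≠ P) : s27nsdAdd D P m R = D R := by
  simp [s27nsdAdd, Ne.symm h]

theorem s27nsdAdd_le_succ (D : Divisor L Ω) (P : Place L Ω) (m : ℕ) :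
    s27nsdAdd D P m ≤ s27nsdAdd D P (m + 1) := by
  rw [Finsupp.le_def]
  intro R
  by_cases h : R = P
  · subst h; rw [s27nsdAdd_apply_self, s27nsdAdd_apply_self]; push_cast; omega
  · rw [s27nsdAdd_apply_of_ne D P m h, s27nsdAdd_apply_of_ne D P (m + 1) h]

theorem s27nsdAdd_zero (D : Divisor L Ω) (P : Place L Ω) : s27nsdAdd D P 0 = D := by
  simp [s27nsdAdd]

theorem s27nsd_degree_add (D : Divisor L Ω) (P : Place L Ω)
    (hres : Function.Bijective (algebraMap L P.ResidueField)) (m : ℕ) :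
    Divisor.degree (s27nsdAdd D P m) = Divisor.degree D + m := by
  rw [s27nsdAdd, map_add, Divisor.degree_single, place_deg_eq_one P hres]
  simp

/-- **Growth**: if `L(D + P) ≠ L(D)` and `Δ` is a raising operator, then
`dim L(D) + m ≤ dim L(D + mP)` for every `m`. -/
theorem s27nsd_growth [HasPrincipalDivisors L Ω]
    (hres : ∀ v : Place L Ω, Function.Bijective (algebraMap L v.ResidueField))
    {D : Divisor L Ω} {P : Place L Ω} {Δ : Ω → Ω} (h : S27nsdRaise D P Δ) (hDP : D P = 0)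
    (hne : ¬ riemannRochSpace (D + Finsupp.single P 1) ≤ riemannRochSpace D) (m : ℕ) :
    finrank L ↥(riemannRochSpace D) + m ≤ finrank L ↥(riemannRochSpace (s27nsdAdd D P m)) := by
  obtain ⟨f, hf1, hf2⟩ := SetLike.not_le_iff_exists.mp hne
  have hf0 : f ≠ 0 := fun h0 => hf2 (h0 ▸ Submodule.zero_mem _)
  rw [mem_riemannRochSpace_iff] at hf1 hf2
  have hR : ∀ R : Place L Ω, R ≠ P → -D R ≤ R.ord f := by
    intro R hRP
    have := (hf1 R).resolve_left hf0
    simpa [Finsupp.single_apply, Ne.symm hRP] using this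
  have hP : P.ord f = -1 := by
    have h1 := (hf1 P).resolve_left hf0
    simp only [Finsupp.coe_add, Pi.add_apply, Finsupp.single_eq_same, hDP, zero_add] at h1
    by_contra hcon
    apply hf2
    intro R
    right
    by_cases hRP : R = P
    · subst hRP; rw [hDP]; omega
    · exact hR R hRP
  induction m with
  | zero => rw [s27nsdAdd_zero]; simp
  | succ m ih =>
    have hlt : riemannRochSpace (s27nsdAdd D P m) < riemannRochSpace (s27nsdAdd D P (m + 1)) := by
      refine lt_of_le_of_ne (rr_mono (s27nsdAdd_le_succ D P m)) ?_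
      intro heq
      obtain ⟨h0, h1, h2⟩ := s27nsd_iterate h hf0 hP hR m
      have hmem : Δ^[m] f ∈ riemannRochSpace (s27nsdAdd D P (m + 1)) := by
        rw [mem_riemannRochSpace_iff]
        intro R
        right
        by_cases hRP : R = P
        · subst hRP; rw [s27nsdAdd_apply_self, hDP, h1]; push_cast; omega
        · rw [s27nsdAdd_apply_of_ne D P (m + 1) hRP]; exact h2 R hRP
      rw [← heq, mem_riemannRochSpace_iff] at hmem
      have := (hmem P).resolve_left h0
      rw [s27nsdAdd_apply_self, hDP, h1] at this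
      omega
    haveI := rr_finite P hres (s27nsdAdd D P (m + 1))
    have := Submodule.finrank_lt_finrank_of_lt hlt
    omega

/-- **Core**: if a raising operator exists at `P` (`D P = 0`) and `L(D + P) ≠ L(D)`, then
`dim L(D) ≤ deg D + 1 − g` (`g`, `c₀` from Riemann's upper bound). -/
theorem s27nsd_core [HasPrincipalDivisors L Ω]
    (hres : ∀ v : Place L Ω, Function.Bijective (algebraMap L v.ResidueField))
    (g c₀ : ℤ)
    (HR : ∀ E : Divisor L Ω, c₀ ≤ Divisor.degree E →
      (finrank L ↥(riemannRochSpace E) : ℤ) ≤ Divisor.degree E + 1 - g)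
    {D : Divisor L Ω} {P : Place L Ω} {Δ : Ω → Ω} (h : S27nsdRaise D P Δ) (hDP : D P = 0)
    (hne : ¬ riemannRochSpace (D + Finsupp.single P 1) ≤ riemannRochSpace D) :
    (finrank L ↥(riemannRochSpace D) : ℤ) ≤ Divisor.degree D + 1 - g := by
  set m : ℕ := (c₀ - Divisor.degree D).toNat with hm
  have h1 := s27nsd_growth hres h hDP hne m
  have h2 := s27nsd_degree_add D P (hres P) m
  have h3 : c₀ ≤ Divisor.degree (s27nsdAdd D P m) := by
    rw [h2, hm]
    have := Int.self_le_toNat (c₀ - Divisor.degree D)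
    omega
  have h4 := HR _ h3
  rw [h2] at h4
  have h5 : (finrank L ↥(riemannRochSpace D) : ℤ) + m ≤
      finrank L ↥(riemannRochSpace (s27nsdAdd D P m)) := by exact_mod_cast h1
  linarith

/-! ### Raising operators from derivations -/

section Der

variable {R₀ : Type*} [CommRing R₀] [Algebra R₀ Ω]

/-- A derivation killing a uniformiser at `R` and preserving `O_R` preserves `π^(-k) O_R`. -/
theorem s27nsd_keep_of_const (Δ : Derivation R₀ Ω Ω) (R : Place L Ω)
    (hreg : ∀ f : Ω, f ∈ R.toValuationSubring → Δ f ∈ R.toValuationSubring)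
    {π : Ω} (hπ : R.ord π = 1) (hΔπ : Δ π = 0) (k : ℤ) {f : Ω} (hf : f ≠ 0)
    (hk : -k ≤ R.ord f) : Δ f = 0 ∨ -k ≤ R.ord (Δ f) := by
  have hπ0 : π ≠ 0 := by
    rintro rfl
    simp at hπ
  have hpk : π ^ k ≠ 0 := zpow_ne_zero k hπ0
  have hpnk : π ^ (-k) ≠ 0 := zpow_ne_zero (-k) hπ0
  set v : Ω := f * π ^ k with hv
  have hv0 : v ≠ 0 := mul_ne_zero hf hpk
  have hvord : 0 ≤ R.ord v := by
    rw [hv, R.ord_mul hf hpk, R.ord_zpow, hπ]
    omega
  have hvmem : v ∈ R.toValuationSubring := PlaceAux.mem_of_ord_nonneg R hvord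
  have hfv : f = v * π ^ (-k) := by
    rw [hv, mul_assoc, ← zpow_add₀ hπ0]
    simp
  have hΔpk : Δ (π ^ (-k)) = 0 := by
    rw [Derivation.leibniz_zpow, hΔπ]
    simp
  have hΔf : Δ f = π ^ (-k) * Δ v := by
    rw [hfv, Derivation.leibniz, hΔpk]
    simp
  by_cases hΔv : Δ v = 0
  · left; rw [hΔf, hΔv, mul_zero]
  · right
    have h1 : 0 ≤ R.ord (Δ v) := (PlaceAux.ord_nonneg_iff R hΔv).mpr (hreg v hvmem)
    rw [hΔf, R.ord_mul hpnk hΔv, R.ord_zpow, hπ]
    omega

/-- A derivation preserving `O_P` with `Δπ` a unit at `P` (char 0) raises every pole order at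
`P` by exactly one. -/
theorem s27nsd_raise_of_move [CharZero L] (Δ : Derivation R₀ Ω Ω) (P : Place L Ω)
    (hreg : ∀ f : Ω, f ∈ P.toValuationSubring → Δ f ∈ P.toValuationSubring)
    {π : Ω} (hπ : P.ord π = 1) (hΔπ0 : Δ π ≠ 0) (hΔπ : P.ord (Δ π) = 0) {f : Ω} (hf : f ≠ 0)
    (hlt : P.ord f < 0) : Δ f ≠ 0 ∧ P.ord (Δ f) = P.ord f - 1 := by
  have hπ0 : π ≠ 0 := by
    rintro rfl
    simp at hπ
  set n : ℤ := P.ord f with hn
  have hpn : π ^ n ≠ 0 := zpow_ne_zero n hπ0
  have hpnn : π ^ (-n) ≠ 0 := zpow_ne_zero (-n) hπ0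
  have hpn1 : π ^ (n - 1) ≠ 0 := zpow_ne_zero (n - 1) hπ0
  set v : Ω := f * π ^ (-n) with hv
  have hv0 : v ≠ 0 := mul_ne_zero hf hpnn
  have hvord : P.ord v = 0 := by
    rw [hv, P.ord_mul hf hpnn, P.ord_zpow, hπ]
    omega
  have hvmem : v ∈ P.toValuationSubring := PlaceAux.mem_of_ord_nonneg P hvord.ge
  have hfv : f = v * π ^ n := by
    rw [hv, mul_assoc, ← zpow_add₀ hπ0]
    simp
  -- the integer `n` as an element of `Ω`
  have hnL : ((n : ℤ) : Ω) = algebraMap L Ω ((n : ℤ) : L) := by simp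
  haveI : CharZero Ω := charZero_of_injective_algebraMap (algebraMap L Ω).injective
  have hn0 : ((n : ℤ) : Ω) ≠ 0 := Int.cast_ne_zero.mpr (by omega)
  have hnord : P.ord ((n : ℤ) : Ω) = 0 := by rw [hnL]; exact PlaceAux.ord_algebraMap P _
  -- the main term
  set a : Ω := (n : Ω) * v * Δ π with ha
  have ha0 : a ≠ 0 := mul_ne_zero (mul_ne_zero hn0 hv0) hΔπ0
  have haord : P.ord a = 0 := by
    rw [ha, P.ord_mul (mul_ne_zero hn0 hv0) hΔπ0, P.ord_mul hn0 hv0, hnord, hvord, hΔπ]
    simp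
  have hΔf : Δ f = π ^ (n - 1) * (a + π * Δ v) := by
    rw [hfv, Derivation.leibniz, Derivation.leibniz_zpow]
    simp only [smul_eq_mul, zsmul_eq_mul, ha]
    have : π ^ n = π ^ (n - 1) * π := by
      rw [← zpow_add_one₀ hπ0]; simp
    rw [this]
    ring
  have hsum : a + π * Δ v ≠ 0 ∧ P.ord (a + π * Δ v) = 0 := by
    by_cases hΔv : Δ v = 0
    · rw [hΔv, mul_zero, add_zero]; exact ⟨ha0, haord⟩
    · have h1 : 0 ≤ P.ord (Δ v) := (PlaceAux.ord_nonneg_iff P hΔv).mpr (hreg v hvmem)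
      have h2 : π * Δ v ≠ 0 := mul_ne_zero hπ0 hΔv
      have h3 : P.ord a < P.ord (π * Δ v) := by
        rw [haord, P.ord_mul hπ0 hΔv, hπ]; omega
      have h4 := PlaceAux.ord_add_eq_of_lt P ha0 h2 h3
      refine ⟨?_, by rw [h4, haord]⟩
      intro h0
      have : a = -(π * Δ v) := eq_neg_of_add_eq_zero_left h0
      rw [this, PlaceAux.ord_neg] at h3
      exact lt_irrefl _ h3
  refine ⟨?_, ?_⟩
  · rw [hΔf]; exact mul_ne_zero hpn1 hsum.1
  · rw [hΔf, P.ord_mul hpn1 hsum.1, P.ord_zpow, hπ, hsum.2]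
    omega

/-- **Raising operators from derivations** (char 0): a derivation `Δ` of `Ω` with
`Δ(O_R) ⊆ O_R` for every place `R`, killing a uniformiser at every place `R ≠ P` with `D R ≠ 0`,
and with `Δπ` a unit at `P` for a uniformiser `π` at `P`, is a raising operator. -/
theorem s27nsd_raise_of_derivation [CharZero L] (Δ : Derivation R₀ Ω Ω) (D : Divisor L Ω)
    (P : Place L Ω)
    (hreg : ∀ (R : Place L Ω) (f : Ω), f ∈ R.toValuationSubring → Δ f ∈ R.toValuationSubring)
    (hconst : ∀ R : Place L Ω, R ≠ P → D R ≠ 0 → ∃ π : Ω, R.ord π = 1 ∧ Δ π = 0)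
    (hmove : ∃ π : Ω, P.ord π = 1 ∧ Δ π ≠ 0 ∧ P.ord (Δ π) = 0) :
    S27nsdRaise D P (fun x => Δ x) := by
  refine ⟨?_, ?_⟩
  · intro R hRP f hf hord
    by_cases hDR : D R = 0
    · rw [hDR] at hord ⊢
      by_cases hΔf : Δ f = 0
      · exact Or.inl hΔf
      · right
        have hmem : f ∈ R.toValuationSubring :=
          PlaceAux.mem_of_ord_nonneg R (by simpa using hord)
        simpa using (PlaceAux.ord_nonneg_iff R hΔf).mpr (hreg R f hmem)
    · obtain ⟨π, hπ, hΔπ⟩ := hconst R hRP hDR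
      exact s27nsd_keep_of_const Δ R (hreg R) hπ hΔπ (D R) hf hord
  · intro f hf hlt
    obtain ⟨π, hπ, hΔπ0, hΔπ⟩ := hmove
    exact s27nsd_raise_of_move Δ P (hreg P) hπ hΔπ0 hΔπ hf hlt

end Der

/-! ### The chain: the generic divisor of degree `g` is non-special -/

/-- `P_0 + … + P_{j−1}`. -/
noncomputable def s27nsdSum (P : ℕ → Place L Ω) (j : ℕ) : Divisor L Ω :=
  ∑ i ∈ Finset.range j, Finsupp.single (P i) 1

theorem s27nsdSum_succ (P : ℕ → Place L Ω) (j : ℕ) :
    s27nsdSum P (j + 1) = s27nsdSum P j + Finsupp.single (P j) 1 := by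
  simp [s27nsdSum, Finset.sum_range_succ]

theorem s27nsdSum_apply_eq_zero (P : ℕ → Place L Ω) (j : ℕ) (R : Place L Ω)
    (h : ∀ i, i < j → P i ≠ R) : s27nsdSum P j R = 0 := by
  classical
  simp only [s27nsdSum, Finsupp.coe_finsetSum, Finset.sum_apply]
  refine Finset.sum_eq_zero fun i hi => ?_
  rw [Finsupp.single_apply, if_neg (h i (Finset.mem_range.mp hi))]

theorem s27nsd_degree_sum (P : ℕ → Place L Ω)
    (hres : ∀ v : Place L Ω, Function.Bijective (algebraMap L v.ResidueField)) (j : ℕ) :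
    Divisor.degree (s27nsdSum P j) = j := by
  induction j with
  | zero => simp [s27nsdSum]
  | succ j ih =>
    rw [s27nsdSum_succ, map_add, ih, Divisor.degree_single, place_deg_eq_one _ (hres _)]
    push_cast; ring

/-- **The generic divisor of degree `g` is non-special** (abstract form): if for every `j < g`
there is an operator raising poles at `P_j` and keeping the bound `P_0 + … + P_{j−1}`, then
`L(P_0 + … + P_{j−1}) = L(0)` for all `j ≤ g`. -/
theorem s27nsd_chain [HasPrincipalDivisors L Ω]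
    (hres : ∀ v : Place L Ω, Function.Bijective (algebraMap L v.ResidueField))
    (g : ℕ) (c₀ : ℤ)
    (HR : ∀ E : Divisor L Ω, c₀ ≤ Divisor.degree E →
      (finrank L ↥(riemannRochSpace E) : ℤ) ≤ Divisor.degree E + 1 - g)
    (h0 : 0 < finrank L ↥(riemannRochSpace (0 : Divisor L Ω)))
    (P : ℕ → Place L Ω) (hinj : ∀ i j, i < j → j < g → P i ≠ P j)
    (hΔ : ∀ j, j < g → ∃ Δ : Ω → Ω, S27nsdRaise (s27nsdSum P j) (P j) Δ) :
    ∀ j, j ≤ g → riemannRochSpace (s27nsdSum P j) = riemannRochSpace (0 : Divisor L Ω) := by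
  intro j
  induction j with
  | zero => intro _; simp [s27nsdSum]
  | succ j ih =>
    intro hj
    have hjg : j < g := hj
    have ih' := ih hjg.le
    obtain ⟨Δ, hΔj⟩ := hΔ j hjg
    have hDP : s27nsdSum P j (P j) = 0 :=
      s27nsdSum_apply_eq_zero P j (P j) (fun i hi => hinj i j hi hjg)
    rw [← ih', s27nsdSum_succ]
    refine le_antisymm ?_ (rr_mono (by
      classical
      rw [Finsupp.le_def]; intro R
      simp only [Finsupp.coe_add, Pi.add_apply, Finsupp.single_apply]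
      split_ifs <;> omega))
    by_contra hne
    have h1 := s27nsd_core hres g c₀ HR hΔj hDP hne
    rw [ih', s27nsd_degree_sum P hres j] at h1
    have h2 : (0 : ℤ) < finrank L ↥(riemannRochSpace (0 : Divisor L Ω)) := by exact_mod_cast h0
    have h3 : (j : ℤ) + 1 ≤ g := by exact_mod_cast hjg
    omega

end Fermat.Agent.S27
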