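/-
S27-B, DEG-B2 NONSPECIAL, application to the generic divisor (helper99, prefix s27nsg_).

Setting of `S26/ERRGaussPlace.lean` + `S27/GenPlaceV.lean`: `Ω = Frac (𝔠 ⊗[K] 𝔎)`, `x ∈ 𝔠`
transcendental over `K`, `𝔠 / K(x)` finite separable, `char K = 0`; generic points
`ι 0, …, ι (g-1) : 𝔠 →ₐ[K] 𝔎` with places `P j = s27gpPlace hld hgen (ι j) hx`.

INDEPENDENCE of the points = `hder`: for every `j < g` a `K`-derivation `δ₀` of `𝔎` which kills
`ι i (𝔠)` for `i < j` and has `δ₀ (ι j x) = 1`  (`s27nsg_hder_of_transcendental`: it follows from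
`ι j x` transcendental over the field generated by the `ι i (𝔠)`, `i < j`; `S27/DerTr.lean`).

* `s27nsg_raise`  : the extension `δ` of such a `δ₀` to `Ω` (`S27/DomDer.lean`) is a raising
  operator at `P j` for the divisor `P 0 + … + P (j-1)` (`S27/NonSpecDer.lean`), given `hstab`
  (derivations preserve the valuation rings: helper86's `S27/DomGeom.lean`);
* `s27nsg_rr_eq`  : `L(P 0 + … + P (j-1)) = L(0)` for `j ≤ g`  (Riemann's upper bound `HR`);
* `s27nsg_hns`    : **NONSPECIAL in helper86's shape** (`hns` of `s27dom_poleCount`/`s27dom_main`):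
  a function regular outside the `P i`, `i < g`, with at most simple poles at the `P i`, is a
  constant.
-/
import Fermat.Agent.S27.NonSpecDer
import Fermat.Agent.S27.GenPlaceV
import Fermat.Agent.S27.DomDer
import Fermat.Agent.S27.DerTr

set_option autoImplicit false
set_option linter.style.haveILetI false
set_option linter.unusedSectionVars false
set_option linter.unusedVariables false

noncomputable section

namespace Fermat.Agent.S27

open AlgebraicCurve Module TensorProduct IntermediateField Fermat.Agent.S26 Fermat.Agent.S24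
  Fermat.Agent.ES.R

variable {K 𝔠 𝔎 Ω : Type*} [Field K] [Field 𝔠] [Field 𝔎] [Field Ω]
  [Algebra K 𝔠] [Algebra K 𝔎] [Algebra K Ω] [Algebra 𝔠 Ω] [Algebra 𝔎 Ω]
  [IsScalarTower K 𝔠 Ω] [IsScalarTower K 𝔎 Ω]

/-- **independence of the generic points, derivation form**. -/
def S27nsgDer (x : 𝔠) (ι : ℕ → 𝔠 →ₐ[K] 𝔎) (g : ℕ) : Prop :=
  ∀ j, j < g → ∃ δ₀ : Derivation K 𝔎 𝔎, (∀ i, i < j → ∀ u : 𝔠, δ₀ (ι i u) = 0) ∧ δ₀ (ι j x) = 1

/-- the field generated by the coordinates of the first `j` points. -/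
def s27nsgField (ι : ℕ → 𝔠 →ₐ[K] 𝔎) (j : ℕ) : IntermediateField K 𝔎 :=
  IntermediateField.adjoin K (⋃ i ∈ Finset.range j, Set.range (ι i))

/-- independence from transcendence (characteristic `0`). -/
theorem s27nsg_hder_of_transcendental [CharZero K] (x : 𝔠) (ι : ℕ → 𝔠 →ₐ[K] 𝔎) (g : ℕ)
    (htr : ∀ j, j < g → Transcendental (s27nsgField ι j) (ι j x)) : S27nsgDer x ι g := by
  intro j hj
  haveI : CharZero (s27nsgField ι j) :=
    charZero_of_injective_algebraMap (algebraMap K (s27nsgField ι j)).injective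
  obtain ⟨δ, hδ⟩ := s27der_exists_derivation (M := s27nsgField ι j) (ι j x) (htr j hj)
  refine ⟨δ.restrictScalars K, fun i hi u => ?_, hδ⟩
  have hmem : ι i u ∈ s27nsgField ι j := by
    refine IntermediateField.subset_adjoin K _ ?_
    simp only [Set.mem_iUnion, Set.mem_range, Finset.mem_range]
    exact ⟨i, hi, u, rfl⟩
  have : δ.restrictScalars K (ι i u) = δ (algebraMap (s27nsgField ι j) 𝔎 ⟨ι i u, hmem⟩) := rfl
  rw [this, Derivation.map_algebraMap]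

section Main

variable (hld : Function.Injective (s26gspMu K 𝔠 𝔎 Ω)) (hgen : S26gspGen K 𝔠 𝔎 Ω)
  {x : 𝔠} (hx : Transcendental K x)
  [FiniteDimensional ↥(IntermediateField.adjoin K {x}) 𝔠]
  [Algebra.IsSeparable ↥(IntermediateField.adjoin K {x}) 𝔠]
  (ι : ℕ → 𝔠 →ₐ[K] 𝔎)

/-- the generic places `P j`. -/
def s27nsgP (j : ℕ) : Place 𝔎 Ω := s27gpPlace hld hgen (ι j) hx

/-- the uniformiser `x − ι j x` at `P j`. -/
def s27nsgPi (x : 𝔠) (ι : ℕ → 𝔠 →ₐ[K] 𝔎) (j : ℕ) : Ω :=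
  algebraMap 𝔠 Ω x - algebraMap 𝔎 Ω (ι j x)

theorem s27nsgP_ord_pi (j : ℕ) :
    (s27nsgP hld hgen hx ι j).ord (s27nsgPi (Ω := Ω) x ι j) = 1 :=
  s27gpPlace_ord_unif hld hgen (ι j) hx

theorem s27nsg_ord_const (w : Place 𝔎 Ω) {a : 𝔎} (ha : a ≠ 0) :
    w.ord (algebraMap 𝔎 Ω a) = 0 := by
  have := PlaceAux.ord_algebraMap w a
  exact this

/-- two generic places with different `x`-coordinates are different. -/
theorem s27nsgP_ne {i j : ℕ} (h : ι i x ≠ ι j x) :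
    s27nsgP hld hgen hx ι i ≠ s27nsgP (Ω := Ω) hld hgen hx ι j := by
  intro heq
  have h1 := s27nsgP_ord_pi (Ω := Ω) hld hgen hx ι i
  have h2 := s27nsgP_ord_pi (Ω := Ω) hld hgen hx ι j
  rw [← heq] at h2
  set P := s27nsgP (Ω := Ω) hld hgen hx ι i
  have hne1 : s27nsgPi (Ω := Ω) x ι i ≠ 0 := by
    intro h0; rw [h0, P.ord_zero] at h1; exact zero_ne_one h1
  have hne2 : s27nsgPi (Ω := Ω) x ι j ≠ 0 := by
    intro h0; rw [h0, P.ord_zero] at h2; exact zero_ne_one h2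
  have hd : s27nsgPi (Ω := Ω) x ι j + -(s27nsgPi (Ω := Ω) x ι i) =
      algebraMap 𝔎 Ω (ι i x - ι j x) := by
    simp only [s27nsgPi, map_sub]; ring
  have hc : ι i x - ι j x ≠ 0 := sub_ne_zero.mpr h
  have hd0 : s27nsgPi (Ω := Ω) x ι j + -(s27nsgPi (Ω := Ω) x ι i) ≠ 0 := by
    rw [hd]; exact (map_ne_zero _).2 hc
  have h3 := PlaceAux.le_ord_add P hne2 (neg_ne_zero.mpr hne1) hd0
  rw [PlaceAux.ord_neg, h1, h2, hd, s27nsg_ord_const P hc] at h3
  simp at h3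

variable [CharZero K]

/-- **the raising operator at `P j`**. -/
theorem s27nsg_raise
    (hstab : ∀ δ : Derivation K Ω Ω, (∀ u : 𝔠, δ (algebraMap 𝔠 Ω u) = 0) →
      (∀ a : 𝔎, ∃ a' : 𝔎, δ (algebraMap 𝔎 Ω a) = algebraMap 𝔎 Ω a') →
      ∀ w : Place 𝔎 Ω, ∀ y ∈ w.toValuationSubring, δ y ∈ w.toValuationSubring)
    (j : ℕ) (δ₀ : Derivation K 𝔎 𝔎) (h1 : ∀ i, i < j → ∀ u : 𝔠, δ₀ (ι i u) = 0)
    (h2 : δ₀ (ι j x) = 1) :
    ∃ Δ : Ω → Ω, S27nsdRaise (s27nsdSum (s27nsgP hld hgen hx ι) j)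
      (s27nsgP hld hgen hx ι j) Δ := by
  haveI : CharZero 𝔎 := charZero_of_injective_algebraMap (algebraMap K 𝔎).injective
  obtain ⟨δ, h𝔠, h𝔎⟩ := s27dom_extend (𝔠 := 𝔠) (Ω := Ω) hld hgen δ₀
  have hδπ : ∀ i, δ (s27nsgPi (Ω := Ω) x ι i) = - algebraMap 𝔎 Ω (δ₀ (ι i x)) := by
    intro i
    rw [s27nsgPi, map_sub, h𝔠, h𝔎, zero_sub]
  refine ⟨fun y => δ y, s27nsd_raise_of_derivation δ _ _
    (hstab δ h𝔠 (fun a => ⟨δ₀ a, h𝔎 a⟩)) ?_ ?_⟩
  · intro R hR hDR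
    have : ∃ i, i < j ∧ s27nsgP hld hgen hx ι i = R := by
      by_contra hcon
      simp only [not_exists, not_and] at hcon
      exact hDR (s27nsdSum_apply_eq_zero _ j R hcon)
    obtain ⟨i, hi, rfl⟩ := this
    refine ⟨s27nsgPi (Ω := Ω) x ι i, s27nsgP_ord_pi hld hgen hx ι i, ?_⟩
    rw [hδπ, h1 i hi x, map_zero, neg_zero]
  · refine ⟨s27nsgPi (Ω := Ω) x ι j, s27nsgP_ord_pi hld hgen hx ι j, ?_, ?_⟩
    · rw [hδπ, h2, map_one]
      exact neg_ne_zero.mpr one_ne_zero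
    · rw [hδπ, h2, map_one, PlaceAux.ord_neg, Place.ord_one]

/-- the generic places are pairwise different. -/
theorem s27nsgP_injective {g : ℕ} (hder : S27nsgDer x ι g) (i j : ℕ) (hij : i < j) (hj : j < g) :
    s27nsgP hld hgen hx ι i ≠ s27nsgP (Ω := Ω) hld hgen hx ι j := by
  obtain ⟨δ₀, h1, h2⟩ := hder j hj
  refine s27nsgP_ne hld hgen hx ι ?_
  intro h
  have := h1 i hij x
  rw [h, h2] at this
  exact one_ne_zero this

/-- **the generic divisor is non-special**: `L(P 0 + … + P (j-1)) = L(0)` for `j ≤ g`. -/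
theorem s27nsg_rr_eq [HasPrincipalDivisors 𝔎 Ω]
    (hres : ∀ v : Place 𝔎 Ω, Function.Bijective (algebraMap 𝔎 v.ResidueField))
    (g : ℕ) (c₀ : ℤ)
    (HR : ∀ E : Divisor 𝔎 Ω, c₀ ≤ Divisor.degree E →
      (finrank 𝔎 ↥(riemannRochSpace E) : ℤ) ≤ Divisor.degree E + 1 - g)
    (hstab : ∀ δ : Derivation K Ω Ω, (∀ u : 𝔠, δ (algebraMap 𝔠 Ω u) = 0) →
      (∀ a : 𝔎, ∃ a' : 𝔎, δ (algebraMap 𝔎 Ω a) = algebraMap 𝔎 Ω a') →
      ∀ w : Place 𝔎 Ω, ∀ y ∈ w.toValuationSubring, δ y ∈ w.toValuationSubring)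
    (hder : S27nsgDer x ι g) :
    ∀ j, j ≤ g → riemannRochSpace (s27nsdSum (s27nsgP hld hgen hx ι) j) =
      riemannRochSpace (0 : Divisor 𝔎 Ω) := by
  intro j hj
  rcases Nat.eq_zero_or_pos g with hg | hg
  · have hj0 : j = 0 := by omega
    subst hj0
    simp [s27nsdSum]
  have h0 : 0 < finrank 𝔎 ↥(riemannRochSpace (0 : Divisor 𝔎 Ω)) := by
    haveI := rr_finite (s27nsgP hld hgen hx ι 0) hres (0 : Divisor 𝔎 Ω)
    rw [Module.finrank_pos_iff_exists_ne_zero]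
    refine ⟨⟨1, ?_⟩, ?_⟩
    · rw [mem_riemannRochSpace_iff]
      intro v
      right
      simp
    · intro h
      have := congrArg Subtype.val h
      simp at this
  revert j
  exact s27nsd_chain hres g c₀ HR h0 (s27nsgP hld hgen hx ι)
    (fun i j hij hj => s27nsgP_injective hld hgen hx ι hder i j hij hj)
    (fun j hj => by
      obtain ⟨δ₀, h1, h2⟩ := hder j hj
      exact s27nsg_raise hld hgen hx ι hstab j δ₀ h1 h2)

theorem s27nsg_one_le_sum (P : ℕ → Place 𝔎 Ω) (g i : ℕ) (hi : i < g) :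
    1 ≤ s27nsdSum P g (P i) := by
  classical
  simp only [s27nsdSum, Finsupp.coe_finsetSum, Finset.sum_apply]
  have h1 : (Finsupp.single (P i) (1 : ℤ)) (P i) ≤
      ∑ k ∈ Finset.range g, (Finsupp.single (P k) (1 : ℤ)) (P i) :=
    Finset.single_le_sum (f := fun k => (Finsupp.single (P k) (1 : ℤ)) (P i))
      (fun k _ => by
        simp only [Finsupp.single_apply]
        split_ifs <;> omega)
      (Finset.mem_range.mpr hi)
  simpa using h1

/-- **NONSPECIAL, helper86's shape** (`hns` of `s27dom_poleCount` / `s27dom_main`, index type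
`Fin g`, `t i = x`, `c i = ι i x`): a function which is regular outside the generic points
`P 0, …, P (g-1)` and has at most simple poles there is a constant. -/
theorem s27nsg_hns [HasPrincipalDivisors 𝔎 Ω]
    (hres : ∀ v : Place 𝔎 Ω, Function.Bijective (algebraMap 𝔎 v.ResidueField))
    (g : ℕ) (c₀ : ℤ)
    (HR : ∀ E : Divisor 𝔎 Ω, c₀ ≤ Divisor.degree E →
      (finrank 𝔎 ↥(riemannRochSpace E) : ℤ) ≤ Divisor.degree E + 1 - g)
    (hL0 : ∀ f ∈ riemannRochSpace (0 : Divisor 𝔎 Ω), ∃ a : 𝔎, f = algebraMap 𝔎 Ω a)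
    (hstab : ∀ δ : Derivation K Ω Ω, (∀ u : 𝔠, δ (algebraMap 𝔠 Ω u) = 0) →
      (∀ a : 𝔎, ∃ a' : 𝔎, δ (algebraMap 𝔎 Ω a) = algebraMap 𝔎 Ω a') →
      ∀ w : Place 𝔎 Ω, ∀ y ∈ w.toValuationSubring, δ y ∈ w.toValuationSubring)
    (hder : S27nsgDer x ι g) :
    ∀ f : Ω,
      (∀ w : Place 𝔎 Ω, (∀ i : Fin g, w ≠ s27nsgP hld hgen hx ι i) → f ∈ w.toValuationSubring) →
      (∀ i : Fin g, f * (algebraMap 𝔠 Ω x - algebraMap 𝔎 Ω (ι i x)) ∈
        (s27nsgP hld hgen hx ι i).toValuationSubring) →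
      ∃ a : 𝔎, f = algebraMap 𝔎 Ω a := by
  intro f hreg hpole
  rcases eq_or_ne f 0 with rfl | hf
  · exact ⟨0, (map_zero _).symm⟩
  apply hL0
  rw [← s27nsg_rr_eq hld hgen hx ι hres g c₀ HR hstab hder g le_rfl, mem_riemannRochSpace_iff]
  intro v
  right
  by_cases hv : ∃ i : Fin g, v = s27nsgP hld hgen hx ι i
  · obtain ⟨i, rfl⟩ := hv
    have h1 := s27nsg_one_le_sum (s27nsgP (Ω := Ω) hld hgen hx ι) g i i.2
    have hπ := s27nsgP_ord_pi (Ω := Ω) hld hgen hx ι i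
    have hπ0 : s27nsgPi (Ω := Ω) x ι i ≠ 0 := by
      intro h0; rw [h0, Place.ord_zero] at hπ; exact zero_ne_one hπ
    have h2 := (PlaceAux.ord_nonneg_iff _ (mul_ne_zero hf hπ0)).mpr (hpole i)
    rw [Place.ord_mul _ hf hπ0, hπ] at h2
    omega
  · simp only [not_exists] at hv
    have h1 : s27nsdSum (s27nsgP (Ω := Ω) hld hgen hx ι) g v = 0 :=
      s27nsdSum_apply_eq_zero _ g v (fun i hi h => hv ⟨i, hi⟩ h.symm)
    have h2 := (PlaceAux.ord_nonneg_iff v hf).mpr (hreg v hv)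
    rw [h1]
    omega

end Main

end Fermat.Agent.S27
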