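/-
S27-B, DEG-B2 NONSPECIAL, base-change instances (helper99, prefix s27nsb_).

Setting of `S26/ERRGaussPlace.lean`: `Ω = Frac (𝔠 ⊗[K] 𝔎)`, `K` and `𝔎` algebraically closed,
`x ∈ 𝔠` transcendental over `K`, `𝔠 / K(x)` finite separable.  Everything that
`S27/NonSpecGen.lean` (`s27nsg_hns`) needs about `Ω / 𝔎` is discharged from the S26 package:

* `s27nsb_hres`  : all residue fields of `Ω / 𝔎` are `𝔎`;
* `s27nsb_hL0`   : `L(0)` consists of constants;
* `s27nsb_riemann` : **the genus does not change under the constant field extension**: Riemann's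
  equality `ℓ_K(B) = deg B + 1 − γ` (large degree) over `K` ⇒ the same over `𝔎`, same `γ`
  ((RR-D) `s26errd_finrank_eq` + `s26errg_main` over `𝔎`);
* `s27nsb_hns`   : NONSPECIAL (helper86's `hns`) with only `hstab`, independence `S27nsgDer` and
  Riemann's equality over `K` (= RR0 with `γ = genusFF K 𝔠`) as hypotheses.
-/
import Fermat.Agent.S27.NonSpecGen
import Fermat.Agent.S26.ERRD4
import Fermat.Agent.S26.ERRGaussHPD
import Fermat.Agent.S26.ERRGFinal

set_option autoImplicit false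
set_option linter.style.haveILetI false
set_option linter.unusedSectionVars false
set_option linter.unusedVariables false

noncomputable section

namespace Fermat.Agent.S27

open AlgebraicCurve Module TensorProduct IntermediateField Fermat.Agent.S26 Fermat.Agent.S24
  Fermat.Agent.ES.R

variable {K 𝔠 𝔎 Ω : Type*} [Field K] [Field 𝔠] [Field 𝔎] [Field Ω]
  [Algebra K 𝔠] [Algebra K 𝔎] [Algebra K Ω] [Algebra 𝔠 Ω] [Algebra 𝔎 Ω]
  [IsScalarTower K 𝔠 Ω] [IsScalarTower K 𝔎 Ω]

section BC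

variable (hld : Function.Injective (s26gspMu K 𝔠 𝔎 Ω)) (hgen : S26gspGen K 𝔠 𝔎 Ω)
  {x : 𝔠} (hx : Transcendental K x)
  [FiniteDimensional ↥(IntermediateField.adjoin K {x}) 𝔠]

include hld hgen hx in
/-- all residue fields of `Ω / 𝔎` are `𝔎` (`𝔎` algebraically closed). -/
theorem s27nsb_hres [IsAlgClosed 𝔎] (v : Place 𝔎 Ω) :
    Function.Bijective (algebraMap 𝔎 v.ResidueField) := by
  haveI := s26gspf_finiteDimensional (𝔎 := 𝔎) (Ω := Ω) hgen x
  exact algebraMap_residueField_bijective (algebraMap 𝔠 Ω x) (s26gspc_transcendental hld hx)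
    (Algebra.IsAlgebraic.of_finite _ _) v

include hld hgen hx in
/-- `L(0)` of `Ω / 𝔎` consists of constants (`𝔎` algebraically closed). -/
theorem s27nsb_hL0 [IsAlgClosed 𝔎] (f : Ω) (hf : f ∈ riemannRochSpace (0 : Divisor 𝔎 Ω)) :
    ∃ a : 𝔎, f = algebraMap 𝔎 Ω a := by
  haveI := s26gspf_finiteDimensional (𝔎 := 𝔎) (Ω := Ω) hgen x
  have hz : S26errgHasZeros 𝔎 Ω :=
    s26errg_hasZeros (algebraMap 𝔠 Ω x) (s26gspc_transcendental hld hx)
  rw [s26errg_rr_zero hz, Submodule.mem_span_singleton] at hf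
  obtain ⟨a, ha⟩ := hf
  exact ⟨a, by rw [← ha, Algebra.smul_def, mul_one]⟩

include hld hgen hx in
/-- **the genus is stable under the constant field extension**. -/
theorem s27nsb_riemann [IsAlgClosed K] [IsAlgClosed 𝔎]
    [Algebra.IsSeparable ↥(IntermediateField.adjoin K {x}) 𝔠] (γ c : ℤ)
    (hK : ∀ B : Divisor K 𝔠, c ≤ Divisor.degree B →
      (finrank K ↥(riemannRochSpace B) : ℤ) = Divisor.degree B + 1 - γ) :
    ∃ c₀ : ℤ, ∀ E : Divisor 𝔎 Ω, c₀ ≤ Divisor.degree E →
      (finrank 𝔎 ↥(riemannRochSpace E) : ℤ) = Divisor.degree E + 1 - γ := by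
  haveI := s26gspf_finiteDimensional (𝔎 := 𝔎) (Ω := Ω) hgen x
  obtain ⟨γ', -, ⟨c', hc'⟩, -⟩ :=
    s26errg_main (K := 𝔎) (F := Ω) (algebraMap 𝔠 Ω x) (s26gspc_transcendental hld hx)
  have hall : ∀ P : Place K 𝔠, Function.Surjective (algebraMap K P.ResidueField) :=
    fun P => s26gspf_hall hx P
  obtain ⟨P₀⟩ := s26err_nonempty_place x hx
  -- a `K`-rational divisor of large degree
  set m : ℤ := max c c' with hm
  set B : Divisor K 𝔠 := Finsupp.single P₀ m with hB
  have hdegB : Divisor.degree B = m := by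
    rw [hB, Divisor.degree_single, s26gspc_deg_eq_one P₀ (hall P₀)]
    simp
  have h1 := hK B (by rw [hdegB]; exact le_max_left _ _)
  have h2 := hc' (Finsupp.mapDomain (s26gspCon hld hgen hall) B)
    (by rw [s26gspc_degree, hdegB]; exact le_max_right _ _)
  rw [s26gspc_degree, s26errd_finrank_eq hld hgen hall hx B] at h2
  have hγ : γ' = γ := by linarith
  exact ⟨c', fun E hE => by rw [← hγ]; exact hc' E hE⟩

end BC

section Main

variable (hld : Function.Injective (s26gspMu K 𝔠 𝔎 Ω)) (hgen : S26gspGen K 𝔠 𝔎 Ω)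
  {x : 𝔠} (hx : Transcendental K x)
  [FiniteDimensional ↥(IntermediateField.adjoin K {x}) 𝔠]
  [Algebra.IsSeparable ↥(IntermediateField.adjoin K {x}) 𝔠]
  (ι : ℕ → 𝔠 →ₐ[K] 𝔎)

/-- **NONSPECIAL, final form**: `K`, `𝔎` algebraically closed of characteristic `0`; Riemann's
equality over `K` with genus `g`; `g` independent generic points `ι 0, …, ι (g-1)`; derivations
preserve the valuation rings (`hstab`).  Then a function on `Ω / 𝔎` which is regular outside the
generic places `P i` and has at most simple poles there is a constant. -/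
theorem s27nsb_hns [IsAlgClosed K] [IsAlgClosed 𝔎] [CharZero K] (g : ℕ) (c : ℤ)
    (hK : ∀ B : Divisor K 𝔠, c ≤ Divisor.degree B →
      (finrank K ↥(riemannRochSpace B) : ℤ) = Divisor.degree B + 1 - g)
    (hstab : ∀ δ : Derivation K Ω Ω, (∀ u : 𝔠, δ (algebraMap 𝔠 Ω u) = 0) →
      (∀ a : 𝔎, ∃ a' : 𝔎, δ (algebraMap 𝔎 Ω a) = algebraMap 𝔎 Ω a') →
      ∀ w : Place 𝔎 Ω, ∀ y ∈ w.toValuationSubring, δ y ∈ w.toValuationSubring)
    (hder : S27nsgDer x ι g) :
    ∀ f : Ω,
      (∀ w : Place 𝔎 Ω, (∀ i : Fin g, w ≠ s27nsgP hld hgen hx ι i) → f ∈ w.toValuationSubring) →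
      (∀ i : Fin g, f * (algebraMap 𝔠 Ω x - algebraMap 𝔎 Ω (ι i x)) ∈
        (s27nsgP hld hgen hx ι i).toValuationSubring) →
      ∃ a : 𝔎, f = algebraMap 𝔎 Ω a := by
  haveI : HasPrincipalDivisors 𝔎 Ω := s26gspf_hasPrincipalDivisors hld hgen hx
  obtain ⟨c₀, hc₀⟩ := s27nsb_riemann hld hgen hx (g : ℤ) c hK
  exact s27nsg_hns hld hgen hx ι (s27nsb_hres hld hgen hx) g c₀
    (fun E hE => (hc₀ E hE).le) (s27nsb_hL0 hld hgen hx) hstab hder

end Main

end Fermat.Agent.S27
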