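/-
S27-B, DEG-B2 NONSPECIAL, consumer form for DEG-B4 (helper99, prefix s27nsf_).

`e : Fin g → 𝔠 →ₐ[K] 𝔎` a GENERIC tuple of points in the sense of `S27/DegAbs.lean`
(`S27dgGeneric`: the values `e i x` are algebraically independent over `K`), `K`, `𝔎`
algebraically closed of characteristic `0`, `Ω = Frac (𝔠 ⊗[K] 𝔎)`, Riemann's equality over `K`
with genus `g` (RR0).  Then the divisor `∑ i, P (e i)` of the generic places is NON-SPECIAL:

* `s27nsf_hder`  : generic ⇒ independence in the derivation form `S27nsgDer`;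
* `s27nsf_hns`   : helper86's `hns` for `P i = s27gpPlace hld hgen (e i) hx`, `t i = x`,
  `c i = e i x`;
* `s27nsf_place_injective` : the places `P i` are pairwise different;
* `s27nsf_rr`    : every `f ∈ L(∑ i, P i)` is a constant.
The only hypothesis left besides Riemann over `K` is `hstab` (helper86, `S27/DomGeom.lean`).
-/
import Fermat.Agent.S27.NonSpecBC

set_option autoImplicit false
set_option linter.style.haveILetI false
set_option linter.unusedSectionVars false
set_option linter.unusedVariables false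

noncomputable section

namespace Fermat.Agent.S27

open AlgebraicCurve Module TensorProduct IntermediateField Fermat.Agent.S26 Fermat.Agent.S24
  Fermat.Agent.ES.R Polynomial

section Alg

variable {K 𝔠 𝔎 : Type*} [Field K] [Field 𝔠] [Field 𝔎] [Algebra K 𝔠] [Algebra K 𝔎]

/-- a derivation which is linear over a field `N` (char 0) kills the elements algebraic over
`N`. -/
theorem s27nsf_der_eq_zero_of_isAlgebraic {N : Type*} [Field N] [Algebra N 𝔎] [CharZero N]
    (δ : Derivation N 𝔎 𝔎) {a : 𝔎} (ha : IsAlgebraic N a) : δ a = 0 := by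
  have hint : IsIntegral N a := ha.isIntegral
  have hsep : (minpoly N a).Separable := (minpoly.irreducible hint).separable
  have h1 : δ (aeval a (minpoly N a)) = 0 := by rw [minpoly.aeval, map_zero]
  rw [Derivation.map_aeval, smul_eq_mul] at h1
  rcases mul_eq_zero.mp h1 with h | h
  · exact absurd h (hsep.aeval_derivative_ne_zero (minpoly.aeval N a))
  · exact h

/-- transport of algebraicity along a point: `u` algebraic over `K(x)` ⇒ `ι u` algebraic over
any intermediate field `N ∋ ι x`. -/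
theorem s27nsf_isAlgebraic_map (ι : 𝔠 →ₐ[K] 𝔎) {x u : 𝔠}
    (hu : IsAlgebraic (IntermediateField.adjoin K {x}) u) (N : IntermediateField K 𝔎)
    (hN : ι x ∈ N) : IsAlgebraic N (ι u) := by
  have hmap : ∀ a : 𝔠, a ∈ IntermediateField.adjoin K {x} → ι a ∈ N := by
    intro a ha
    have h1 : (IntermediateField.adjoin K {x}).map ι ≤ N := by
      rw [IntermediateField.adjoin_map, IntermediateField.adjoin_le_iff]
      rintro _ ⟨y, hy, rfl⟩
      rw [Set.mem_singleton_iff] at hy
      rw [hy]; exact hN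
    exact h1 ⟨a, ha, rfl⟩
  let j : ↥(IntermediateField.adjoin K {x}) →+* ↥N :=
    { toFun := fun a => ⟨ι a, hmap a a.2⟩
      map_one' := by ext; simp
      map_mul' := fun a b => by ext; simp
      map_zero' := by ext; simp
      map_add' := fun a b => by ext; simp }
  obtain ⟨p, hp0, hp⟩ := hu
  refine ⟨p.map j, (Polynomial.map_ne_zero_iff j.injective).mpr hp0, ?_⟩
  have hcomp : (algebraMap ↥N 𝔎).comp j =
      (ι : 𝔠 →+* 𝔎).comp (algebraMap ↥(IntermediateField.adjoin K {x}) 𝔠) := by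
    ext a; rfl
  rw [Polynomial.aeval_def, Polynomial.eval₂_map, hcomp]
  have := congrArg ι hp
  rw [Polynomial.aeval_def, map_zero] at this
  rw [← this]
  exact (Polynomial.hom_eval₂ p (algebraMap ↥(IntermediateField.adjoin K {x}) 𝔠)
    (ι : 𝔠 →+* 𝔎) u).symm

end Alg

variable {K 𝔠 𝔎 Ω : Type*} [Field K] [Field 𝔠] [Field 𝔎] [Field Ω]
  [Algebra K 𝔠] [Algebra K 𝔎] [Algebra K Ω] [Algebra 𝔠 Ω] [Algebra 𝔎 Ω]
  [IsScalarTower K 𝔠 Ω] [IsScalarTower K 𝔎 Ω]

/-- the extension of a tuple `e : Fin g → _` (`g > 0`) to `ℕ`. -/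
def s27nsfExt {g : ℕ} (hg : 0 < g) (e : Fin g → 𝔠 →ₐ[K] 𝔎) : ℕ → 𝔠 →ₐ[K] 𝔎 :=
  fun k => if h : k < g then e ⟨k, h⟩ else e ⟨0, hg⟩

theorem s27nsfExt_apply {g : ℕ} (hg : 0 < g) (e : Fin g → 𝔠 →ₐ[K] 𝔎) (i : Fin g) :
    s27nsfExt hg e i = e i := by
  simp [s27nsfExt, i.2]

/-- **generic ⇒ independent (derivation form)**. -/
theorem s27nsf_hder [CharZero K] {x : 𝔠}
    (halg : ∀ u : 𝔠, IsAlgebraic (IntermediateField.adjoin K {x}) u)
    {g : ℕ} (hg : 0 < g) (e : Fin g → 𝔠 →ₐ[K] 𝔎)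
    (hgenr : AlgebraicIndependent K (fun i => e i x)) :
    S27nsgDer x (s27nsfExt hg e) g := by
  intro j hj
  set s : Set (Fin g) := {i | i.val < j} with hs
  set N : IntermediateField K 𝔎 := IntermediateField.adjoin K ((fun i => e i x) '' s) with hN
  have hjs : (⟨j, hj⟩ : Fin g) ∉ s := by simp [hs]
  have htr : Transcendental N (e ⟨j, hj⟩ x) := by
    rw [hN, IntermediateField.transcendental_adjoin_iff]
    exact hgenr.transcendental_adjoin hjs
  haveI : CharZero N := charZero_of_injective_algebraMap (algebraMap K N).injective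
  obtain ⟨δ, hδ⟩ := s27der_exists_derivation (M := N) (e ⟨j, hj⟩ x) htr
  refine ⟨δ.restrictScalars K, fun i hi u => ?_, ?_⟩
  · have hig : i < g := lt_trans hi hj
    have h1 : s27nsfExt hg e i = e ⟨i, hig⟩ := s27nsfExt_apply hg e ⟨i, hig⟩
    rw [h1]
    have hmem : e ⟨i, hig⟩ x ∈ N :=
      IntermediateField.subset_adjoin K _ ⟨⟨i, hig⟩, by simp [hs, hi], rfl⟩
    exact s27nsf_der_eq_zero_of_isAlgebraic δ
      (s27nsf_isAlgebraic_map (e ⟨i, hig⟩) (halg u) N hmem)
  · have h1 : s27nsfExt hg e j = e ⟨j, hj⟩ := s27nsfExt_apply hg e ⟨j, hj⟩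
    rw [h1]
    exact hδ

section Main

variable (hld : Function.Injective (s26gspMu K 𝔠 𝔎 Ω)) (hgen : S26gspGen K 𝔠 𝔎 Ω)
  {x : 𝔠} (hx : Transcendental K x)
  [FiniteDimensional ↥(IntermediateField.adjoin K {x}) 𝔠]
  [Algebra.IsSeparable ↥(IntermediateField.adjoin K {x}) 𝔠]

/-- the generic places of a generic tuple are pairwise different. -/
theorem s27nsf_place_injective {g : ℕ} (e : Fin g → 𝔠 →ₐ[K] 𝔎)
    (hgenr : AlgebraicIndependent K (fun i => e i x)) :
    Function.Injective (fun i : Fin g => s27gpPlace (Ω := Ω) hld hgen (e i) hx) := by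
  intro i k hik
  by_contra hne
  have hne' : e i x ≠ e k x := fun h => hne (hgenr.injective h)
  rcases Nat.eq_zero_or_pos g with hg | hg
  · subst hg; exact i.elim0
  have := s27nsgP_ne (Ω := Ω) hld hgen hx (s27nsfExt hg e) (i := i) (j := k)
    (by rw [s27nsfExt_apply, s27nsfExt_apply]; exact hne')
  apply this
  simp only [s27nsgP, s27nsfExt_apply]
  exact hik

/-- **NONSPECIAL, `Fin g`-form** (= `hns` of `s27dom_main` for `P i = s27gpPlace (e i)`,
`t i = x`, `c i = e i x`). -/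
theorem s27nsf_hns [IsAlgClosed K] [IsAlgClosed 𝔎] [CharZero K] (g : ℕ) (c : ℤ)
    (hK : ∀ B : Divisor K 𝔠, c ≤ Divisor.degree B →
      (finrank K ↥(riemannRochSpace B) : ℤ) = Divisor.degree B + 1 - g)
    (hstab : ∀ δ : Derivation K Ω Ω, (∀ u : 𝔠, δ (algebraMap 𝔠 Ω u) = 0) →
      (∀ a : 𝔎, ∃ a' : 𝔎, δ (algebraMap 𝔎 Ω a) = algebraMap 𝔎 Ω a') →
      ∀ w : Place 𝔎 Ω, ∀ y ∈ w.toValuationSubring, δ y ∈ w.toValuationSubring)
    (e : Fin g → 𝔠 →ₐ[K] 𝔎) (hgenr : AlgebraicIndependent K (fun i => e i x)) :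
    ∀ f : Ω,
      (∀ w : Place 𝔎 Ω, (∀ i : Fin g, w ≠ s27gpPlace hld hgen (e i) hx) →
        f ∈ w.toValuationSubring) →
      (∀ i : Fin g, f * (algebraMap 𝔠 Ω x - algebraMap 𝔎 Ω (e i x)) ∈
        (s27gpPlace hld hgen (e i) hx).toValuationSubring) →
      ∃ a : 𝔎, f = algebraMap 𝔎 Ω a := by
  intro f hreg hpole
  rcases Nat.eq_zero_or_pos g with hg | hg
  · subst hg
    apply s27nsb_hL0 hld hgen hx
    rw [mem_riemannRochSpace_iff]
    intro v
    rcases eq_or_ne f 0 with h0 | h0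
    · exact Or.inl h0
    · right
      have := (PlaceAux.ord_nonneg_iff v h0).mpr (hreg v (fun i => i.elim0))
      simpa using this
  have halg : ∀ u : 𝔠, IsAlgebraic (IntermediateField.adjoin K {x}) u :=
    fun u => (Algebra.IsAlgebraic.of_finite _ _).isAlgebraic u
  have hder := s27nsf_hder (𝔎 := 𝔎) halg hg e hgenr
  refine s27nsb_hns hld hgen hx (s27nsfExt hg e) g c hK hstab hder f ?_ ?_
  · intro w hw
    refine hreg w (fun i => ?_)
    have := hw i
    simpa only [s27nsgP, s27nsfExt_apply] using this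
  · intro i
    have := hpole i
    simpa only [s27nsgP, s27nsfExt_apply] using this

/-- **the generic divisor of degree `g` is non-special**: `L(∑ i, P (e i))` consists of
constants. -/
theorem s27nsf_rr [IsAlgClosed K] [IsAlgClosed 𝔎] [CharZero K] (g : ℕ) (c : ℤ)
    (hK : ∀ B : Divisor K 𝔠, c ≤ Divisor.degree B →
      (finrank K ↥(riemannRochSpace B) : ℤ) = Divisor.degree B + 1 - g)
    (hstab : ∀ δ : Derivation K Ω Ω, (∀ u : 𝔠, δ (algebraMap 𝔠 Ω u) = 0) →
      (∀ a : 𝔎, ∃ a' : 𝔎, δ (algebraMap 𝔎 Ω a) = algebraMap 𝔎 Ω a') →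
      ∀ w : Place 𝔎 Ω, ∀ y ∈ w.toValuationSubring, δ y ∈ w.toValuationSubring)
    (e : Fin g → 𝔠 →ₐ[K] 𝔎) (hgenr : AlgebraicIndependent K (fun i => e i x))
    (f : Ω)
    (hf : f ∈ riemannRochSpace
      (∑ i : Fin g, Finsupp.single (s27gpPlace (Ω := Ω) hld hgen (e i) hx) (1 : ℤ))) :
    ∃ a : 𝔎, f = algebraMap 𝔎 Ω a := by
  classical
  rcases eq_or_ne f 0 with rfl | hf0
  · exact ⟨0, (map_zero _).symm⟩
  rw [mem_riemannRochSpace_iff] at hf
  have hinj := s27nsf_place_injective (Ω := Ω) hld hgen hx e hgenr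
  have hD : ∀ v : Place 𝔎 Ω,
      (∑ i : Fin g, Finsupp.single (s27gpPlace (Ω := Ω) hld hgen (e i) hx) (1 : ℤ)) v =
        ∑ i : Fin g, if s27gpPlace (Ω := Ω) hld hgen (e i) hx = v then (1 : ℤ) else 0 := by
    intro v
    simp only [Finsupp.coe_finsetSum, Finset.sum_apply, Finsupp.single_apply]
  refine s27nsf_hns hld hgen hx g c hK hstab e hgenr f ?_ ?_
  · intro w hw
    have h1 := (hf w).resolve_left hf0
    rw [hD w, Finset.sum_eq_zero (fun i _ => if_neg (fun h => hw i h.symm))] at h1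
    exact PlaceAux.mem_of_ord_nonneg w (by simpa using h1)
  · intro i
    set P := s27gpPlace (Ω := Ω) hld hgen (e i) hx with hP
    have h1 := (hf P).resolve_left hf0
    have h2 : (∑ k : Fin g, if s27gpPlace (Ω := Ω) hld hgen (e k) hx = P then (1 : ℤ) else 0)
        = 1 := by
      rw [Finset.sum_eq_single i]
      · simp [hP]
      · intro k _ hki
        exact if_neg (fun h => hki (hinj h))
      · intro h; exact absurd (Finset.mem_univ i) h
    rw [hD P, h2] at h1
    have hπ : P.ord (algebraMap 𝔠 Ω x - algebraMap 𝔎 Ω (e i x)) = 1 :=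
      s27gpPlace_ord_unif hld hgen (e i) hx
    have hπ0 : algebraMap 𝔠 Ω x - algebraMap 𝔎 Ω (e i x) ≠ 0 := by
      intro h0; rw [h0, Place.ord_zero] at hπ; exact zero_ne_one hπ
    refine PlaceAux.mem_of_ord_nonneg P ?_
    rw [Place.ord_mul _ hf0 hπ0, hπ]
    omega

end Main

end Fermat.Agent.S27
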