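/-
S27-B, DEG-B2 NONSPECIAL, UNCONDITIONAL (helper99, prefix s27nst_).

`K ⊆ 𝔎` algebraically closed of characteristic `0`, `𝔠 / K` a function field (`x ∈ 𝔠`
transcendental, `𝔠 / K(x)` finite separable), `Ω = Frac (𝔠 ⊗[K] 𝔎)` (`hld`, `hgen`),
`g = genusFF K 𝔠`, `e : Fin g → 𝔠 →ₐ[K] 𝔎` a generic tuple of points
(`AlgebraicIndependent K (fun i => e i x)` = `S27dgGeneric K x e`).  Then

* `s27nst_hS`  : `L(Σ_i P (e i))` consists of constants  (= `hS` of `s27pkg_ns`);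
* `s27nst_hns` : helper86's `hns` (`s27dom_app`, `s27dom_final`).

Inputs: `S27/NonSpecFin.lean` (derivation argument), `S27/DomStab.lean` (helper86: derivations
preserve the valuation rings), `S27/RR0Final.lean` (helper51: Riemann's theorem with `genusFF`).
-/
import Fermat.Agent.S27.NonSpecFin
import Fermat.Agent.S27.DomStab
import Fermat.Agent.S27.RR0Final

set_option autoImplicit false
set_option linter.style.haveILetI false
set_option linter.unusedSectionVars false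
set_option linter.unusedVariables false

noncomputable section

namespace Fermat.Agent.S27

open AlgebraicCurve Module TensorProduct IntermediateField Fermat.Agent.S26 Fermat.Agent.S24

variable {K 𝔠 𝔎 Ω : Type*} [Field K] [Field 𝔠] [Field 𝔎] [Field Ω]
  [Algebra K 𝔠] [Algebra K 𝔎] [Algebra K Ω] [Algebra 𝔠 Ω] [Algebra 𝔎 Ω]
  [IsScalarTower K 𝔠 Ω] [IsScalarTower K 𝔎 Ω]

variable (hld : Function.Injective (s26gspMu K 𝔠 𝔎 Ω)) (hgen : S26gspGen K 𝔠 𝔎 Ω)
  {x : 𝔠} (hx : Transcendental K x)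
  [FiniteDimensional ↥(IntermediateField.adjoin K {x}) 𝔠]
  [Algebra.IsSeparable ↥(IntermediateField.adjoin K {x}) 𝔠]

include hld hgen hx in
/-- `hstab`, unconditional over algebraically closed fields. -/
theorem s27nst_hstab [IsAlgClosed K] [IsAlgClosed 𝔎] :
    ∀ δ : Derivation K Ω Ω, (∀ u : 𝔠, δ (algebraMap 𝔠 Ω u) = 0) →
      (∀ a : 𝔎, ∃ a' : 𝔎, δ (algebraMap 𝔎 Ω a) = algebraMap 𝔎 Ω a') →
      ∀ w : Place 𝔎 Ω, ∀ y ∈ w.toValuationSubring, δ y ∈ w.toValuationSubring :=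
  fun δ h1 h2 => s27dom_stab_all hld hgen hx (fun P => s26gspf_hall hx P)
    (fun w => (s27nsb_hres hld hgen hx w).2) δ h1 h2

/-- **NONSPECIAL, unconditional** (helper86's `hns`). -/
theorem s27nst_hns [IsAlgClosed K] [IsAlgClosed 𝔎] [CharZero K]
    (e : Fin (genusFF K 𝔠) → 𝔠 →ₐ[K] 𝔎) (hgenr : AlgebraicIndependent K (fun i => e i x)) :
    ∀ f : Ω,
      (∀ w : Place 𝔎 Ω, (∀ i, w ≠ s27gpPlace hld hgen (e i) hx) → f ∈ w.toValuationSubring) →
      (∀ i, f * (algebraMap 𝔠 Ω x - algebraMap 𝔎 Ω (e i x)) ∈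
        (s27gpPlace hld hgen (e i) hx).toValuationSubring) →
      ∃ a : 𝔎, f = algebraMap 𝔎 Ω a := by
  obtain ⟨c, hc⟩ := s27rr_large (K := K) (F := 𝔠) x hx
  exact s27nsf_hns hld hgen hx (genusFF K 𝔠) c hc (s27nst_hstab hld hgen hx) e hgenr

/-- **NONSPECIAL, unconditional** (`hS` of `s27pkg_ns`): for a generic tuple `e` of
`g = genusFF K 𝔠` points, `L(Σ_i P (e i))` consists of constants. -/
theorem s27nst_hS [IsAlgClosed K] [IsAlgClosed 𝔎] [CharZero K]
    (e : Fin (genusFF K 𝔠) → 𝔠 →ₐ[K] 𝔎) (hgenr : AlgebraicIndependent K (fun i => e i x))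
    (f : Ω)
    (hf : f ∈ riemannRochSpace
      (∑ i, Finsupp.single (s27gpPlace (Ω := Ω) hld hgen (e i) hx) (1 : ℤ))) :
    ∃ a : 𝔎, f = algebraMap 𝔎 Ω a := by
  obtain ⟨c, hc⟩ := s27rr_large (K := K) (F := 𝔠) x hx
  exact s27nsf_rr hld hgen hx (genusFF K 𝔠) c hc (s27nst_hstab hld hgen hx) e hgenr f hf

end Fermat.Agent.S27
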