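/-
S27, route B, piece DEG-CLOSED (deputy helper18): the DEGREE certificate of the frame,
UNCONDITIONAL on the model.

`K` algebraically closed of characteristic `0`, `F / K` a curve, `g = genusFF K F`,
`𝔉 = s27gfSym K F g ⊆ Ω_g = s27gfOm K F g ⊆ L` (`L` an algebraic closure of `Ω_g`),
`FL ⊇ F, L` with `FL = Frac (F ⊗[K] L)` (`hld`, `hgen`), `x ∈ F` transcendental with `F / K(x)`
finite, `G₀` a divisor of degree `g` of `F / K` (the origin).

For a point datum `q` (`S27PsiPt q`, generic) with `n · cl (pt ∘ p) = cl (pt ∘ q)`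
(`cl R = [Σ R i − Con G₀]`), the endomorphism `ψ = s27psi q hq` of `𝔉` satisfies

  `S27IsDeg K ψ #Pic0(F)[n]`, i.e. `𝔉 / ψ 𝔉` is finite of degree `#Pic0(F)[n]`,

and `Pic0(F)[n]`, `Pic0(FL)[n]` are finite.

Inputs: DegPkgO (helper45), DegWire (helper12), NonSpecTop (helper99), DegFld + DegFG (helper33),
DegExt (helper84), DegGS (helper81), DegTrdeg + DegEmb (helper53), DegFin (helper87),
Psi (helper15), DegAbs/DegCount/DegTop/DegFinal (helper18).
-/
import Fermat.Agent.S27.DegFinal
import Fermat.Agent.S27.DegExt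
import Fermat.Agent.S27.DegFG
import Fermat.Agent.S27.DegFin
import Fermat.Agent.S27.DegWire
import Fermat.Agent.S27.DegPkgO
import Fermat.Agent.S27.NonSpecTop

set_option autoImplicit false
set_option linter.unusedVariables false
set_option linter.unusedSectionVars false
set_option linter.style.haveILetI false

noncomputable section

namespace Fermat.Agent.S27

open AlgebraicCurve Module TensorProduct IntermediateField Fermat.Agent.S26

universe u v y

section Closed

variable {K : Type u} {F : Type v} [Field K] [IsAlgClosed K] [CharZero K] [Field F] [Algebra K F]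
  [IsCurveOver K F] [Algebra.EssFiniteType K F]
  {L : Type (max u v)} [Field L] [Algebra K L]
  [Algebra (s27gfOm K F (genusFF K F)) L] [IsScalarTower K (s27gfOm K F (genusFF K F)) L]
  [IsAlgClosed L] [Algebra.IsAlgebraic (s27gfOm K F (genusFF K F)) L]
  {FL : Type y} [Field FL] [Algebra K FL] [Algebra F FL] [Algebra L FL]
  [IsScalarTower K F FL] [IsScalarTower K L FL]
  (hld : Function.Injective (s26gspMu K F L FL)) (hgen : S26gspGen K F L FL)
  {x : F} (hx : Transcendental K x)
  [FiniteDimensional ↥(IntermediateField.adjoin K {x}) F]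
  [Algebra.IsSeparable ↥(IntermediateField.adjoin K {x}) F]

/-- NONSPECIAL in the shape of the package. -/
theorem s27dcl_hns : S27pkgNS hld hgen hx := fun e he f hf =>
  s27nst_hS hld hgen hx e he f hf

/-- `F` is algebraic over `K(x)`. -/
theorem s27dcl_halg (u : F) : IsAlgebraic (IntermediateField.adjoin K {x}) u :=
  (Algebra.IsAlgebraic.of_finite (IntermediateField.adjoin K {x}) F).isAlgebraic u

/-- the package of the model, origin `Con G₀`. -/
def s27dclPkg (G₀ : Divisor K F) (hG₀ : Divisor.degree G₀ = (genusFF K F : ℤ)) :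
    S27DegPkg K F L x (genusFF K F) (Place L FL) (Pic0 L FL) :=
  s27pkgO (s27dwAct hld hgen) hld hgen hx G₀ hG₀ (s27dcl_hns hld hgen hx)

/-- the field package of the model. -/
def s27dclFld : S27DegFld K F L (s27gfOm K F (genusFF K F)) x (genusFF K F)
    (s27gfSym K F (genusFF K F)) :=
  s27dflFld (K := K) (F := F) (g := genusFF K F) L x hx (s27dcl_halg (x := x))

/-- **DEG, closed.** -/
theorem s27dcl_isDeg (G₀ : Divisor K F) (hG₀ : Divisor.degree G₀ = (genusFF K F : ℤ))
    (n : ℕ) (q : Fin (genusFF K F) → F →ₐ[K] L) (hq : S27dgGeneric K x q)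
    [IsGalois (s27gfSym K F (genusFF K F)) L] (hqpt : S27PsiPt q)
    (hDOM : (n : ℤ) • s27dgcCl (s27dclPkg hld hgen hx G₀ hG₀) (s27dgcP (s27dclFld (L := L) hx))
      = s27dgcCl (s27dclPkg hld hgen hx G₀ hG₀) q) :
    S27IsDeg K (s27psi q hqpt) (Nat.card (Pic0.torsion K F n)) ∧
      Finite (Pic0.torsion L FL n) := by
  haveI : Algebra.EssFiniteType K (s27gfSym K F (genusFF K F)) := s27dfg_sym (genusFF K F)
  exact s27dfin_isDeg x hx (s27dcl_halg (x := x)) (s27dclPkg hld hgen hx G₀ hG₀) n q hq hqpt hDOM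
    (fun σ => s27dgx_X1 (s27dclFld (L := L) hx) (s27dcl_halg (x := x)) σ)
    (s27dgf_finite (s27psi q hqpt))
    (s27dw_hA hld hgen n)

end Closed

end Fermat.Agent.S27

end
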