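/-
S27-B, piece DOM (helper86), part APP: **`n · (generic) is generic`**.

Setting of `S26/ERRGaussPlace.lean` / `S27/GenPlaceV.lean` / `S27/DegPt.lean`
(`Ω = Frac (𝔠 ⊗[K] 𝔎)`, `x ∈ 𝔠` separating, `𝔎` algebraically closed, `pt e := s27gpPlace e`).

* `s27dom_app` : `e : Fin g → (𝔠 →ₐ[K] 𝔎)` generic (the `e i x` algebraically independent over
  `K`), `∑ pt (e i)` non-special (`hns`, = `s27nsg_hns`), `n ≥ 1`, `R' : Fin g → Place 𝔎 Ω` and a
  divisor `C` without point places in its support such that
  `n · ∑ pt (e i) − ∑ R' j + C` is principal.  Then `R' j = pt (q j)` with `q` generic.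
  (`htr` = TRDEG, `s27dg_StmtTrdeg` of `S27/DegAbs.lean`, specialised to `K`, `𝔎`, `g`.)

Proof: `s27dom_final` (logarithmic derivative) for the `P i` with `ord_{P i} h ≠ 0`; the other
`P i` are among the `R' j`; TRDEG.
-/
import Mathlib
import Fermat.Agent.S27.DomStab
import Fermat.Agent.S27.DegPt

set_option autoImplicit false
set_option linter.unusedVariables false
set_option linter.unusedSectionVars false
set_option linter.style.haveILetI false

namespace Fermat.Agent.S27

open AlgebraicCurve TensorProduct Fermat.Agent.S26 Fermat.Agent.S24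

section DomApp

variable {K 𝔠 𝔎 Ω : Type*} [Field K] [Field 𝔠] [Field 𝔎] [Field Ω]
  [Algebra K 𝔠] [Algebra K 𝔎] [Algebra K Ω] [Algebra 𝔠 Ω] [Algebra 𝔎 Ω]
  [IsScalarTower K 𝔠 Ω] [IsScalarTower K 𝔎 Ω]

/-- the value of a sum of point masses is non-negative. -/
theorem s27dom_sum_single_nonneg {α ι : Type*} [Fintype ι] (R : ι → α) (w : α) :
    0 ≤ (∑ j, Finsupp.single (R j) (1 : ℤ)) w := by
  classical
  rw [Finsupp.finsetSum_apply]
  refine Finset.sum_nonneg fun j _ => ?_
  rw [Finsupp.single_apply]
  split_ifs <;> simp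

/-- the value of a sum of point masses is positive exactly on the points. -/
theorem s27dom_sum_single_pos {α ι : Type*} [Fintype ι] (R : ι → α) (w : α)
    (h : (∑ j, Finsupp.single (R j) (1 : ℤ)) w ≠ 0) : ∃ j, R j = w := by
  classical
  by_contra hne
  apply h
  rw [Finsupp.finsetSum_apply]
  refine Finset.sum_eq_zero fun j _ => ?_
  rw [Finsupp.single_apply, if_neg]
  exact fun hj => hne ⟨j, hj⟩

/-- the value of a sum of point masses of an injective family at one of its points is `1`. -/
theorem s27dom_sum_single_inj {α ι : Type*} [Fintype ι] (R : ι → α)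
    (hR : Function.Injective R) (i : ι) :
    (∑ j, Finsupp.single (R j) (1 : ℤ)) (R i) = 1 := by
  classical
  rw [Finsupp.finsetSum_apply]
  rw [Finset.sum_eq_single i]
  · simp
  · intro j _ hji
    rw [Finsupp.single_apply, if_neg]
    exact fun hj => hji (hR hj)
  · intro hi
    exact absurd (Finset.mem_univ i) hi

variable (hld : Function.Injective (s26gspMu K 𝔠 𝔎 Ω)) (hgen : S26gspGen K 𝔠 𝔎 Ω)
  (hall : ∀ P : Place K 𝔠, Function.Surjective (algebraMap K P.ResidueField))
  {x : 𝔠} (hx : Transcendental K x)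
  [FiniteDimensional ↥(IntermediateField.adjoin K {x}) 𝔠]
  [Algebra.IsSeparable ↥(IntermediateField.adjoin K {x}) 𝔠]

include hall in
/-- **DOM, application**: if `n · ∑ pt (e i) − ∑ R' j + C` is principal, `e` generic,
`∑ pt (e i)` non-special and `C` has no point places in its support, then the `R' j` are point
places `pt (q j)` of a generic tuple `q`. -/
theorem s27dom_app [CharZero K] [IsAlgClosed 𝔎] {g : ℕ} (e : Fin g → 𝔠 →ₐ[K] 𝔎)
    (he : AlgebraicIndependent K (fun i => e i x))
    (hns : ∀ f : Ω,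
      (∀ w : Place 𝔎 Ω, (∀ i, w ≠ s27gpPlace hld hgen (e i) hx) → f ∈ w.toValuationSubring) →
      (∀ i, f * (algebraMap 𝔠 Ω x - algebraMap 𝔎 Ω (e i x)) ∈
        (s27gpPlace hld hgen (e i) hx).toValuationSubring) →
      ∃ a : 𝔎, f = algebraMap 𝔎 Ω a)
    (htr : ∀ a : Fin g → 𝔎, AlgebraicIndependent K a → ∀ (I : Set (Fin g)) (b : Fin g → 𝔎),
      (∀ i, IsAlgebraic (IntermediateField.adjoin K (b '' I)) (a i)) →
      I = Set.univ ∧ AlgebraicIndependent K b)
    (n : ℕ) (hn : 0 < n) (R' : Fin g → Place 𝔎 Ω) (C : Divisor 𝔎 Ω)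
    (hC : ∀ q : 𝔠 →ₐ[K] 𝔎, C (s27gpPlace hld hgen q hx) = 0)
    (hprin : Divisor.IsPrincipal ((n : ℤ) • ∑ i, Finsupp.single (s27gpPlace hld hgen (e i) hx) (1 : ℤ)
      - ∑ j, Finsupp.single (R' j) (1 : ℤ) + C)) :
    ∃ q : Fin g → 𝔠 →ₐ[K] 𝔎, AlgebraicIndependent K (fun j => q j x) ∧
      ∀ j, R' j = s27gpPlace hld hgen (q j) hx := by
  classical
  have hres : ∀ w : Place 𝔎 Ω, Function.Surjective (algebraMap 𝔎 w.ResidueField) :=
    fun w => s27pt_hres hld hgen hx w
  have heinj : Function.Injective e := by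
    intro i j hij
    exact he.injective (show e i x = e j x by rw [hij])
  have hPinj : Function.Injective (fun i => s27gpPlace hld hgen (e i) hx) := fun i j hij =>
    heinj (s27pt_gpPlace_injective hld hgen hx hij)
  obtain ⟨h, hh, hD⟩ := hprin
  -- the value of the divisor at a place
  have hDw : ∀ w : Place 𝔎 Ω, w.ord h =
      (n : ℤ) * (∑ i, Finsupp.single (s27gpPlace hld hgen (e i) hx) (1 : ℤ)) w
        - (∑ j, Finsupp.single (R' j) (1 : ℤ)) w + C w := by
    intro w
    rw [← hD w]
    simp only [Finsupp.coe_add, Finsupp.coe_sub, Finsupp.coe_smul, Pi.add_apply, Pi.sub_apply,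
      Pi.smul_apply, smul_eq_mul]
  -- the points among the `R' j`
  set I : Set (Fin g) := {j | ∀ u : 𝔠, (R' j).ord (algebraMap 𝔠 Ω u) = 0} with hI
  set q : Fin g → 𝔠 →ₐ[K] 𝔎 := fun j =>
    if hj : ∀ u : 𝔠, (R' j).ord (algebraMap 𝔠 Ω u) = 0 then s27ev (K := K) (R' j) hj (hres _)
    else e j with hq
  have hqI : ∀ j (hj : ∀ u : 𝔠, (R' j).ord (algebraMap 𝔠 Ω u) = 0),
      q j = s27ev (K := K) (R' j) hj (hres _) := fun j hj => by
    rw [hq]; exact dif_pos hj
  have hRq : ∀ j, j ∈ I → R' j = s27gpPlace hld hgen (q j) hx := by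
    intro j hj
    rw [hqI j hj]
    exact (s27pt_gpPlace_ev hld hgen hx (R' j) hj (hres _)).symm
  set b : Fin g → 𝔎 := fun j => q j x with hb
  set N : IntermediateField K 𝔎 := IntermediateField.adjoin K (b '' I) with hN
  have hbN : ∀ j, j ∈ I → b j ∈ N := fun j hj =>
    IntermediateField.subset_adjoin K _ ⟨j, hj, rfl⟩
  -- a point place among the `R' j` has its coordinate in `N`
  have hptN : ∀ (p : 𝔠 →ₐ[K] 𝔎) (j : Fin g), R' j = s27gpPlace hld hgen p hx → p x ∈ N := by
    intro p j hj
    have hjI : j ∈ I := by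
      intro u
      rw [hj]
      exact s27pt_gpPlace_trivial hld hgen hx p u
    have h1 : s27gpPlace hld hgen (q j) hx = s27gpPlace hld hgen p hx := by
      rw [← hRq j hjI, hj]
    have h2 : q j = p := s27pt_gpPlace_injective hld hgen hx h1
    have := hbN j hjI
    rw [hb] at this
    simpa [h2] using this
  -- the key step
  have hkey : ∀ i, IsAlgebraic N (e i x) := by
    intro i
    by_cases h0 : (s27gpPlace hld hgen (e i) hx).ord h = 0
    · -- `P i` is among the `R' j`
      have h1 := hDw (s27gpPlace hld hgen (e i) hx)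
      rw [h0, hC, s27dom_sum_single_inj (fun i => s27gpPlace hld hgen (e i) hx) hPinj i] at h1
      have h2 : (∑ j, Finsupp.single (R' j) (1 : ℤ)) (s27gpPlace hld hgen (e i) hx) ≠ 0 := by
        have : (0 : ℤ) < n := by exact_mod_cast hn
        omega
      obtain ⟨j, hj⟩ := s27dom_sum_single_pos R' _ h2
      have hmem : e i x ∈ N := hptN (e i) j hj
      exact isAlgebraic_algebraMap (⟨e i x, hmem⟩ : N)
    · -- the logarithmic derivative
      have := s27dom_final hld hgen hx hall hres
        (ι := {i : Fin g // (s27gpPlace hld hgen (e i) hx).ord h ≠ 0})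
        (fun i => s27gpPlace hld hgen (e i.1) hx) (fun _ => x) (fun i => e i.1 x)
        (fun i => s27gpPlace_ord_unif hld hgen (e i.1) hx) h hh (fun i => i.2) N ?_ ?_ ⟨i, h0⟩
      · exact this
      · -- the other zeros and poles
        intro w hw hw0
        rcases s27pt_classify hld hgen hall hx w with ⟨Q, rfl⟩ | ⟨p, rfl⟩
        · obtain ⟨s, hs⟩ := place_exists_ord_eq_one Q
          refine ⟨s, 0, ?_, N.zero_mem⟩
          rw [map_zero, sub_zero, s26gspc_ord_algebraMap, hs]
        · refine ⟨x, p x, s27gpPlace_ord_unif hld hgen p hx, ?_⟩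
          by_cases hB : (∑ j, Finsupp.single (R' j) (1 : ℤ)) (s27gpPlace hld hgen p hx) = 0
          · exfalso
            have h1 := hDw (s27gpPlace hld hgen p hx)
            rw [hB, hC, sub_zero, add_zero] at h1
            have h2 : (∑ i, Finsupp.single (s27gpPlace hld hgen (e i) hx) (1 : ℤ))
                (s27gpPlace hld hgen p hx) ≠ 0 := by
              intro h3
              rw [h3, mul_zero] at h1
              exact hw0 h1
            obtain ⟨i', hi'⟩ := s27dom_sum_single_pos
              (fun i => s27gpPlace hld hgen (e i) hx) _ h2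
            have hi'' : s27gpPlace hld hgen (e i') hx = s27gpPlace hld hgen p hx := hi'
            exact hw ⟨i', by rw [hi'']; exact hw0⟩ hi''.symm
          · obtain ⟨j, hj⟩ := s27dom_sum_single_pos R' _ hB
            exact hptN p j hj
      · -- non-speciality of the subfamily
        intro f hf1 hf2
        refine hns f ?_ ?_
        · intro w hw
          exact hf1 w (fun i' => hw i'.1)
        · intro i'
          by_cases hi' : (s27gpPlace hld hgen (e i') hx).ord h = 0
          · have h1 : f ∈ (s27gpPlace hld hgen (e i') hx).toValuationSubring := by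
              refine hf1 _ (fun i'' hi'' => ?_)
              have : i' = i''.1 := hPinj hi''
              exact i''.2 (by rw [← this]; exact hi')
            refine (s27gpPlace hld hgen (e i') hx).toValuationSubring.mul_mem _ _ h1 ?_
            exact PlaceAux.mem_of_ord_nonneg _
              (by rw [s27gpPlace_ord_unif hld hgen (e i') hx]; exact zero_le_one)
          · exact hf2 ⟨i', hi'⟩
  -- TRDEG
  obtain ⟨hIuniv, hbind⟩ := htr (fun i => e i x) he I b hkey
  refine ⟨q, hbind, fun j => hRq j ?_⟩
  rw [hIuniv]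
  exact Set.mem_univ j

end DomApp

end Fermat.Agent.S27
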