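/-
S27-B, piece DOM (helper86), part PKG: **`hDOM` of `s27dgtop_main`** for helper45's concrete
degree package `s27pkg` (`S27/DegPkgAct.lean`).

* `s27dom_hns_of_rr` : `L(Σ P i) = constants` ⇒ `hns` (valuation-ring form) of `s27dom_app`;
* `s27dom_cl`        : `cl R' = n • cl (pt ∘ e)`, `e` generic with `L(Σ pt (e i)) = constants`
  ⇒ `R' = pt ∘ q`, `q` generic   (TRDEG = `s27dgt_main` discharged);
* `s27dom_pkg`       : for `pkg = s27pkg A hld hgen hx P₀ hns`, `e` generic, `n ≥ 1`: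
  `∃ q generic, n • pkg.cl (pt ∘ e) = pkg.cl (pt ∘ q)`   (UNCONDITIONAL in the model).
-/
import Mathlib
import Fermat.Agent.S27.DomApp
import Fermat.Agent.S27.DegPkgAct
import Fermat.Agent.S27.DegTrdeg

set_option autoImplicit false
set_option linter.unusedVariables false
set_option linter.unusedSectionVars false
set_option linter.style.haveILetI false

namespace Fermat.Agent.S27

open AlgebraicCurve TensorProduct Fermat.Agent.S26 Fermat.Agent.S24

section DomPkg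

variable {K 𝔠 𝔎 Ω : Type*} [Field K] [Field 𝔠] [Field 𝔎] [Field Ω]
  [Algebra K 𝔠] [Algebra K 𝔎] [Algebra K Ω] [Algebra 𝔠 Ω] [Algebra 𝔎 Ω]
  [IsScalarTower K 𝔠 Ω] [IsScalarTower K 𝔎 Ω]

/-- from the Riemann–Roch form of non-speciality to the valuation-ring form. -/
theorem s27dom_hns_of_rr {g : ℕ} (P : Fin g → Place 𝔎 Ω) (hP : Function.Injective P)
    (π : Fin g → Ω) (hπ : ∀ i, (P i).ord (π i) = 1)
    (hS : ∀ f ∈ riemannRochSpace (∑ i, Finsupp.single (P i) (1 : ℤ)),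
      ∃ c : 𝔎, f = algebraMap 𝔎 Ω c) :
    ∀ f : Ω, (∀ w : Place 𝔎 Ω, (∀ i, w ≠ P i) → f ∈ w.toValuationSubring) →
      (∀ i, f * π i ∈ (P i).toValuationSubring) → ∃ a : 𝔎, f = algebraMap 𝔎 Ω a := by
  intro f h1 h2
  refine hS f ?_
  rw [mem_riemannRochSpace_iff]
  intro v
  by_cases hf : f = 0
  · exact Or.inl hf
  right
  by_cases hv : ∃ i, v = P i
  · obtain ⟨i, rfl⟩ := hv
    rw [s27dom_sum_single_inj P hP i]
    have hπ0 : π i ≠ 0 := s27dom_ne_zero_of_ord (P i) (by rw [hπ i]; exact one_ne_zero)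
    have := (place_mem_iff (P i) (mul_ne_zero hf hπ0)).1 (h2 i)
    rw [(P i).ord_mul hf hπ0, hπ i] at this
    omega
  · have hv' : ∀ i, v ≠ P i := fun i hi => hv ⟨i, hi⟩
    have h0 : (∑ i, Finsupp.single (P i) (1 : ℤ)) v = 0 := by
      by_contra hne
      obtain ⟨j, hj⟩ := s27dom_sum_single_pos P v hne
      exact hv' j hj.symm
    rw [h0, neg_zero]
    exact (place_mem_iff v hf).1 (h1 v hv')

variable (hld : Function.Injective (s26gspMu K 𝔠 𝔎 Ω)) (hgen : S26gspGen K 𝔠 𝔎 Ω)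
  {x : 𝔠} (hx : Transcendental K x)
  [FiniteDimensional ↥(IntermediateField.adjoin K {x}) 𝔠]
  [Algebra.IsSeparable ↥(IntermediateField.adjoin K {x}) 𝔠]

/-- **DOM for classes**: if `cl R' = n • cl (pt ∘ e)` with `e` generic and `Σ pt (e i)`
non-special, then `R' = pt ∘ q` with `q` generic. -/
theorem s27dom_cl [IsAlgClosed K] [CharZero K] [IsAlgClosed 𝔎] {g : ℕ}
    (hdeg : ∀ w : Place 𝔎 Ω, w.deg = 1) (P₀ : Place 𝔎 Ω)
    (hP₀ : ∀ q : 𝔠 →ₐ[K] 𝔎, P₀ ≠ s27gpPlace hld hgen q hx)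
    (e : Fin g → 𝔠 →ₐ[K] 𝔎) (he : AlgebraicIndependent K (fun i => e i x))
    (hS : ∀ f ∈ riemannRochSpace (s27pkgSum fun i => s27gpPlace hld hgen (e i) hx),
      ∃ c : 𝔎, f = algebraMap 𝔎 Ω c)
    (n : ℕ) (hn : 0 < n) (R' : Fin g → Place 𝔎 Ω)
    (hR' : s27pkgCl hdeg P₀ R' =
      (n : ℤ) • s27pkgCl hdeg P₀ (fun i => s27gpPlace hld hgen (e i) hx)) :
    ∃ q : Fin g → 𝔠 →ₐ[K] 𝔎, AlgebraicIndependent K (fun j => q j x) ∧
      ∀ j, R' j = s27gpPlace hld hgen (q j) hx := by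
  classical
  have heinj : Function.Injective e := by
    intro i j hij
    exact he.injective (show e i x = e j x by rw [hij])
  have hPinj : Function.Injective (fun i => s27gpPlace hld hgen (e i) hx) := fun i j hij =>
    heinj (s27pt_gpPlace_injective hld hgen hx hij)
  -- the principal divisor
  have hmk : (n : ℤ) • s27pkgCl hdeg P₀ (fun i => s27gpPlace hld hgen (e i) hx) =
      Pic0.mk ((n : ℤ) • s27pkgDivZero hdeg P₀ (fun i => s27gpPlace hld hgen (e i) hx)) := rfl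
  rw [hmk] at hR'
  unfold s27pkgCl at hR'
  obtain ⟨f, hf, hfv⟩ := (s27pkg_mk_eq_iff _ _).1 hR'
  have hfv' : ∀ v : Place 𝔎 Ω, v.ord f =
      (∑ j, Finsupp.single (R' j) (1 : ℤ)) v - Finsupp.single P₀ (g : ℤ) v
        - (n : ℤ) * ((∑ i, Finsupp.single (s27gpPlace hld hgen (e i) hx) (1 : ℤ)) v
          - Finsupp.single P₀ (g : ℤ) v) := by
    intro v
    have h1 := hfv v
    have h2 : ((s27pkgDivZero hdeg P₀ R' : Divisor.degZero (K := 𝔎) (F := Ω)) : Divisor 𝔎 Ω) v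
        = (∑ j, Finsupp.single (R' j) (1 : ℤ)) v - Finsupp.single P₀ (g : ℤ) v := by
      show (s27pkgSum R' - Finsupp.single P₀ (g : ℤ)) v = _
      rw [Finsupp.sub_apply]; rfl
    have h3 : (((n : ℤ) • s27pkgDivZero hdeg P₀ (fun i => s27gpPlace hld hgen (e i) hx) :
        Divisor.degZero (K := 𝔎) (F := Ω)) : Divisor 𝔎 Ω) v
        = (n : ℤ) * ((∑ i, Finsupp.single (s27gpPlace hld hgen (e i) hx) (1 : ℤ)) v
          - Finsupp.single P₀ (g : ℤ) v) := by
      show ((n : ℤ) • (s27pkgSum (fun i => s27gpPlace hld hgen (e i) hx)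
        - Finsupp.single P₀ (g : ℤ))) v = _
      rw [Finsupp.smul_apply, Finsupp.sub_apply, smul_eq_mul]; rfl
    rw [h2, h3] at h1
    omega
  have hprin : Divisor.IsPrincipal
      ((n : ℤ) • ∑ i, Finsupp.single (s27gpPlace hld hgen (e i) hx) (1 : ℤ)
        - ∑ j, Finsupp.single (R' j) (1 : ℤ)
        + Finsupp.single P₀ ((g : ℤ) - (n : ℤ) * g)) := by
    refine ⟨f⁻¹, inv_ne_zero hf, fun v => ?_⟩
    rw [Place.ord_inv, hfv' v]
    simp only [Finsupp.coe_add, Finsupp.coe_sub, Finsupp.coe_smul, Pi.add_apply, Pi.sub_apply,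
      Pi.smul_apply, smul_eq_mul]
    by_cases hv : P₀ = v
    · subst hv
      simp only [Finsupp.single_eq_same]
      ring
    · simp only [Finsupp.single_eq_of_ne' hv]
      ring
  refine s27dom_app hld hgen (fun P => s26gspf_hall hx P) hx e he ?_
    (fun a ha I b hb => s27dgt_main K 𝔎 g a ha I b hb) n hn R'
    (Finsupp.single P₀ ((g : ℤ) - (n : ℤ) * g)) ?_ hprin
  · exact s27dom_hns_of_rr (fun i => s27gpPlace hld hgen (e i) hx) hPinj
      (fun i => algebraMap 𝔠 Ω x - algebraMap 𝔎 Ω (e i x))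
      (fun i => s27gpPlace_ord_unif hld hgen (e i) hx) hS
  · intro q
    exact Finsupp.single_eq_of_ne' (hP₀ q)

variable (A : S27raAct K 𝔠 𝔎 Ω)

/-- **`hDOM`**: in the concrete degree package, `n • cl (pt ∘ e) = cl (pt ∘ q)` with `q` generic,
for every generic `e` and `n ≥ 1`. -/
theorem s27dom_pkg [IsAlgClosed K] [CharZero K] [IsAlgClosed 𝔎] (P₀ : Place K 𝔠)
    (hns : S27pkgNS hld hgen hx)
    (e : Fin (genusFF K 𝔠) → 𝔠 →ₐ[K] 𝔎) (he : S27dgGeneric K x e) (n : ℕ) (hn : 0 < n) :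
    ∃ q : Fin (genusFF K 𝔠) → 𝔠 →ₐ[K] 𝔎, S27dgGeneric K x q ∧
      (n : ℤ) • (s27pkg A hld hgen hx P₀ hns).cl
          (fun i => (s27pkg A hld hgen hx P₀ hns).pt (e i))
        = (s27pkg A hld hgen hx P₀ hns).cl
          (fun i => (s27pkg A hld hgen hx P₀ hns).pt (q i)) := by
  obtain ⟨R', hR'⟩ := (s27pkg A hld hgen hx P₀ hns).rr
    ((n : ℤ) • (s27pkg A hld hgen hx P₀ hns).cl
      (fun i => (s27pkg A hld hgen hx P₀ hns).pt (e i)))
  obtain ⟨q, hq, hRq⟩ := s27dom_cl hld hgen hx (s27pkg_hdeg hld hgen hx)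
    (s26gspCon hld hgen (s26gspf_hall hx) P₀)
    (fun q => (s27pt_gpPlace_ne_con hld hgen (s26gspf_hall hx) hx q P₀).symm)
    e he (hns e he) n hn R' hR'
  refine ⟨q, hq, ?_⟩
  rw [← hR']
  congr 1
  funext j
  exact hRq j

end DomPkg

end Fermat.Agent.S27
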