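/-
S27-B, piece DOM (helper86), part Z: **`k · (generic)` is generic for every `k ≠ 0` in `ℤ`**,
with an arbitrary origin `O` of the classes (helper45's `s27pkgClO`, `s27pkgO`).

* `s27dom_appZ`   : `s27dom_app` with `k : ℤ`, `k ≠ 0` instead of `n : ℕ`, `0 < n`;
* `s27dom_clOZ`   : `cl_O R' = k • cl_O (pt ∘ e)`, `e` generic, `O` without point places
  ⇒ `R' = pt ∘ q`, `q` generic;
* `s27dom_pkgOZ`  : for `pkg = s27pkgO A hld hgen hx G₀ hG₀ hns`, `e` generic, `k ≠ 0`:
  `∃ q generic, k • pkg.cl (pt ∘ e) = pkg.cl (pt ∘ q)`;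
* `s27dom_pkgZ`   : the same for `pkg = s27pkg A hld hgen hx P₀ hns`.
-/
import Mathlib
import Fermat.Agent.S27.DomPkg
import Fermat.Agent.S27.DegPkgO

set_option autoImplicit false
set_option linter.unusedVariables false
set_option linter.unusedSectionVars false
set_option linter.style.haveILetI false

namespace Fermat.Agent.S27

open AlgebraicCurve TensorProduct Fermat.Agent.S26 Fermat.Agent.S24

section DomZ

variable {K 𝔠 𝔎 Ω : Type*} [Field K] [Field 𝔠] [Field 𝔎] [Field Ω]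
  [Algebra K 𝔠] [Algebra K 𝔎] [Algebra K Ω] [Algebra 𝔠 Ω] [Algebra 𝔎 Ω]
  [IsScalarTower K 𝔠 Ω] [IsScalarTower K 𝔎 Ω]

variable (hld : Function.Injective (s26gspMu K 𝔠 𝔎 Ω)) (hgen : S26gspGen K 𝔠 𝔎 Ω)
  (hall : ∀ P : Place K 𝔠, Function.Surjective (algebraMap K P.ResidueField))
  {x : 𝔠} (hx : Transcendental K x)
  [FiniteDimensional ↥(IntermediateField.adjoin K {x}) 𝔠]
  [Algebra.IsSeparable ↥(IntermediateField.adjoin K {x}) 𝔠]

include hall in
/-- **DOM, application, integer multiples**: if `k · ∑ pt (e i) − ∑ R' j + C` is principal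
(`k ≠ 0`), `e` generic, `∑ pt (e i)` non-special and `C` has no point places in its support,
then the `R' j` are point places `pt (q j)` of a generic tuple `q`. -/
theorem s27dom_appZ [CharZero K] [IsAlgClosed 𝔎] {g : ℕ} (e : Fin g → 𝔠 →ₐ[K] 𝔎)
    (he : AlgebraicIndependent K (fun i => e i x))
    (hns : ∀ f : Ω,
      (∀ w : Place 𝔎 Ω, (∀ i, w ≠ s27gpPlace hld hgen (e i) hx) → f ∈ w.toValuationSubring) →
      (∀ i, f * (algebraMap 𝔠 Ω x - algebraMap 𝔎 Ω (e i x)) ∈
        (s27gpPlace hld hgen (e i) hx).toValuationSubring) →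
      ∃ a : 𝔎, f = algebraMap 𝔎 Ω a)
    (k : ℤ) (hk : k ≠ 0) (R' : Fin g → Place 𝔎 Ω) (C : Divisor 𝔎 Ω)
    (hC : ∀ q : 𝔠 →ₐ[K] 𝔎, C (s27gpPlace hld hgen q hx) = 0)
    (hprin : Divisor.IsPrincipal (k • ∑ i, Finsupp.single (s27gpPlace hld hgen (e i) hx) (1 : ℤ)
      - ∑ j, Finsupp.single (R' j) (1 : ℤ) + C)) :
    ∃ q : Fin g → 𝔠 →ₐ[K] 𝔎, AlgebraicIndependent K (fun j => q j x) ∧
      ∀ j, R' j = s27gpPlace hld hgen (q j) hx := by
  classical
  have hres : ∀ w : Place 𝔎 Ω, Function.Surjective (algebraMap 𝔎 w.ResidueField) :=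
    fun w => s27pt_hres hld hgen hx w
  have heinj : Function.Injective e := by
    intro i j hij
    exact he.injective (show e i x = e j x by rw [hij])
  have hPinj : Function.Injective (fun i => s27gpPlace hld hgen (e i) hx) := fun i j hij =>
    heinj (s27pt_gpPlace_injective hld hgen hx hij)
  obtain ⟨h, hh, hD⟩ := hprin
  -- the value of the divisor at a place
  have hDw : ∀ w : Place 𝔎 Ω, w.ord h =
      k * (∑ i, Finsupp.single (s27gpPlace hld hgen (e i) hx) (1 : ℤ)) w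
        - (∑ j, Finsupp.single (R' j) (1 : ℤ)) w + C w := by
    intro w
    rw [← hD w]
    simp only [Finsupp.coe_add, Finsupp.coe_sub, Finsupp.coe_smul, Pi.add_apply, Pi.sub_apply,
      Pi.smul_apply, smul_eq_mul]
  -- the points among the `R' j`
  set I : Set (Fin g) := {j | ∀ u : 𝔠, (R' j).ord (algebraMap 𝔠 Ω u) = 0} with hI
  set q : Fin g → 𝔠 →ₐ[K] 𝔎 := fun j =>
    if hj : ∀ u : 𝔠, (R' j).ord (algebraMap 𝔠 Ω u) = 0 then s27ev (K := K) (R' j) hj (hres _)
    else e j with hq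
  have hqI : ∀ j (hj : ∀ u : 𝔠, (R' j).ord (algebraMap 𝔠 Ω u) = 0),
      q j = s27ev (K := K) (R' j) hj (hres _) := fun j hj => by
    rw [hq]; exact dif_pos hj
  have hRq : ∀ j, j ∈ I → R' j = s27gpPlace hld hgen (q j) hx := by
    intro j hj
    rw [hqI j hj]
    exact (s27pt_gpPlace_ev hld hgen hx (R' j) hj (hres _)).symm
  set b : Fin g → 𝔎 := fun j => q j x with hb
  set N : IntermediateField K 𝔎 := IntermediateField.adjoin K (b '' I) with hN
  have hbN : ∀ j, j ∈ I → b j ∈ N := fun j hj =>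
    IntermediateField.subset_adjoin K _ ⟨j, hj, rfl⟩
  -- a point place among the `R' j` has its coordinate in `N`
  have hptN : ∀ (p : 𝔠 →ₐ[K] 𝔎) (j : Fin g), R' j = s27gpPlace hld hgen p hx → p x ∈ N := by
    intro p j hj
    have hjI : j ∈ I := by
      intro u
      rw [hj]
      exact s27pt_gpPlace_trivial hld hgen hx p u
    have h1 : s27gpPlace hld hgen (q j) hx = s27gpPlace hld hgen p hx := by
      rw [← hRq j hjI, hj]
    have h2 : q j = p := s27pt_gpPlace_injective hld hgen hx h1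
    have := hbN j hjI
    rw [hb] at this
    simpa [h2] using this
  -- the key step
  have hkey : ∀ i, IsAlgebraic N (e i x) := by
    intro i
    by_cases h0 : (s27gpPlace hld hgen (e i) hx).ord h = 0
    · -- `P i` is among the `R' j`
      have h1 := hDw (s27gpPlace hld hgen (e i) hx)
      rw [h0, hC, s27dom_sum_single_inj (fun i => s27gpPlace hld hgen (e i) hx) hPinj i] at h1
      have h2 : (∑ j, Finsupp.single (R' j) (1 : ℤ)) (s27gpPlace hld hgen (e i) hx) ≠ 0 := by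
        intro h3
        rw [h3] at h1
        omega
      obtain ⟨j, hj⟩ := s27dom_sum_single_pos R' _ h2
      have hmem : e i x ∈ N := hptN (e i) j hj
      exact isAlgebraic_algebraMap (⟨e i x, hmem⟩ : N)
    · -- the logarithmic derivative
      have := s27dom_final hld hgen hx hall hres
        (ι := {i : Fin g // (s27gpPlace hld hgen (e i) hx).ord h ≠ 0})
        (fun i => s27gpPlace hld hgen (e i.1) hx) (fun _ => x) (fun i => e i.1 x)
        (fun i => s27gpPlace_ord_unif hld hgen (e i.1) hx) h hh (fun i => i.2) N ?_ ?_ ⟨i, h0⟩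
      · exact this
      · -- the other zeros and poles
        intro w hw hw0
        rcases s27pt_classify hld hgen hall hx w with ⟨Q, rfl⟩ | ⟨p, rfl⟩
        · obtain ⟨s, hs⟩ := place_exists_ord_eq_one Q
          refine ⟨s, 0, ?_, N.zero_mem⟩
          rw [map_zero, sub_zero, s26gspc_ord_algebraMap, hs]
        · refine ⟨x, p x, s27gpPlace_ord_unif hld hgen p hx, ?_⟩
          by_cases hB : (∑ j, Finsupp.single (R' j) (1 : ℤ)) (s27gpPlace hld hgen p hx) = 0
          · exfalso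
            have h1 := hDw (s27gpPlace hld hgen p hx)
            rw [hB, hC, sub_zero, add_zero] at h1
            have h2 : (∑ i, Finsupp.single (s27gpPlace hld hgen (e i) hx) (1 : ℤ))
                (s27gpPlace hld hgen p hx) ≠ 0 := by
              intro h3
              rw [h3, mul_zero] at h1
              exact hw0 h1
            obtain ⟨i', hi'⟩ := s27dom_sum_single_pos
              (fun i => s27gpPlace hld hgen (e i) hx) _ h2
            have hi'' : s27gpPlace hld hgen (e i') hx = s27gpPlace hld hgen p hx := hi'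
            exact hw ⟨i', by rw [hi'']; exact hw0⟩ hi''.symm
          · obtain ⟨j, hj⟩ := s27dom_sum_single_pos R' _ hB
            exact hptN p j hj
      · -- non-speciality of the subfamily
        intro f hf1 hf2
        refine hns f ?_ ?_
        · intro w hw
          exact hf1 w (fun i' => hw i'.1)
        · intro i'
          by_cases hi' : (s27gpPlace hld hgen (e i') hx).ord h = 0
          · have h1 : f ∈ (s27gpPlace hld hgen (e i') hx).toValuationSubring := by
              refine hf1 _ (fun i'' hi'' => ?_)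
              have : i' = i''.1 := hPinj hi''
              exact i''.2 (by rw [← this]; exact hi')
            refine (s27gpPlace hld hgen (e i') hx).toValuationSubring.mul_mem _ _ h1 ?_
            exact PlaceAux.mem_of_ord_nonneg _
              (by rw [s27gpPlace_ord_unif hld hgen (e i') hx]; exact zero_le_one)
          · exact hf2 ⟨i', hi'⟩
  -- TRDEG
  obtain ⟨hIuniv, hbind⟩ := s27dgt_main K 𝔎 g (fun i => e i x) he I b hkey
  refine ⟨q, hbind, fun j => hRq j ?_⟩
  rw [hIuniv]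
  exact Set.mem_univ j

/-- **DOM for classes, integer multiples, arbitrary origin**. -/
theorem s27dom_clOZ [IsAlgClosed K] [CharZero K] [IsAlgClosed 𝔎] {g : ℕ}
    (hdeg : ∀ w : Place 𝔎 Ω, w.deg = 1) (O : Divisor 𝔎 Ω) (hO : Divisor.degree O = g)
    (hOpt : ∀ q : 𝔠 →ₐ[K] 𝔎, O (s27gpPlace hld hgen q hx) = 0)
    (e : Fin g → 𝔠 →ₐ[K] 𝔎) (he : AlgebraicIndependent K (fun i => e i x))
    (hS : ∀ f ∈ riemannRochSpace (s27pkgSum fun i => s27gpPlace hld hgen (e i) hx),
      ∃ c : 𝔎, f = algebraMap 𝔎 Ω c)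
    (k : ℤ) (hk : k ≠ 0) (R' : Fin g → Place 𝔎 Ω)
    (hR' : s27pkgClO hdeg O hO R' =
      k • s27pkgClO hdeg O hO (fun i => s27gpPlace hld hgen (e i) hx)) :
    ∃ q : Fin g → 𝔠 →ₐ[K] 𝔎, AlgebraicIndependent K (fun j => q j x) ∧
      ∀ j, R' j = s27gpPlace hld hgen (q j) hx := by
  classical
  have heinj : Function.Injective e := by
    intro i j hij
    exact he.injective (show e i x = e j x by rw [hij])
  have hPinj : Function.Injective (fun i => s27gpPlace hld hgen (e i) hx) := fun i j hij =>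
    heinj (s27pt_gpPlace_injective hld hgen hx hij)
  -- the principal divisor
  have hmk : k • s27pkgClO hdeg O hO (fun i => s27gpPlace hld hgen (e i) hx) =
      Pic0.mk (k • s27pkgDivZeroO hdeg O hO (fun i => s27gpPlace hld hgen (e i) hx)) := rfl
  rw [hmk] at hR'
  unfold s27pkgClO at hR'
  obtain ⟨f, hf, hfv⟩ := (s27pkg_mk_eq_iff _ _).1 hR'
  have hfv' : ∀ v : Place 𝔎 Ω, v.ord f =
      (∑ j, Finsupp.single (R' j) (1 : ℤ)) v - O v
        - k * ((∑ i, Finsupp.single (s27gpPlace hld hgen (e i) hx) (1 : ℤ)) v - O v) := by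
    intro v
    have h1 := hfv v
    have h2 : ((s27pkgDivZeroO hdeg O hO R' : Divisor.degZero (K := 𝔎) (F := Ω)) :
        Divisor 𝔎 Ω) v = (∑ j, Finsupp.single (R' j) (1 : ℤ)) v - O v := by
      rw [s27pkgDivZeroO_coe, Finsupp.sub_apply]; rfl
    have h3 : ((k • s27pkgDivZeroO hdeg O hO (fun i => s27gpPlace hld hgen (e i) hx) :
        Divisor.degZero (K := 𝔎) (F := Ω)) : Divisor 𝔎 Ω) v
        = k * ((∑ i, Finsupp.single (s27gpPlace hld hgen (e i) hx) (1 : ℤ)) v - O v) := by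
      show (k • (s27pkgSum (fun i => s27gpPlace hld hgen (e i) hx) - O)) v = _
      rw [Finsupp.smul_apply, Finsupp.sub_apply, smul_eq_mul]; rfl
    rw [h2, h3] at h1
    omega
  have hprin : Divisor.IsPrincipal
      (k • ∑ i, Finsupp.single (s27gpPlace hld hgen (e i) hx) (1 : ℤ)
        - ∑ j, Finsupp.single (R' j) (1 : ℤ) + (O - k • O)) := by
    refine ⟨f⁻¹, inv_ne_zero hf, fun v => ?_⟩
    rw [Place.ord_inv, hfv' v]
    simp only [Finsupp.coe_add, Finsupp.coe_sub, Finsupp.coe_smul, Pi.add_apply, Pi.sub_apply,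
      Pi.smul_apply, smul_eq_mul]
    ring
  refine s27dom_appZ hld hgen (fun P => s26gspf_hall hx P) hx e he ?_ k hk R' (O - k • O) ?_ hprin
  · exact s27dom_hns_of_rr (fun i => s27gpPlace hld hgen (e i) hx) hPinj
      (fun i => algebraMap 𝔠 Ω x - algebraMap 𝔎 Ω (e i x))
      (fun i => s27gpPlace_ord_unif hld hgen (e i) hx) hS
  · intro q
    rw [Finsupp.sub_apply, Finsupp.smul_apply, hOpt q]
    simp

variable (A : S27raAct K 𝔠 𝔎 Ω)

/-- **`hDOM`, origin `Con G₀`, integer multiples**. -/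
theorem s27dom_pkgOZ [IsAlgClosed K] [CharZero K] [IsAlgClosed 𝔎] (G₀ : Divisor K 𝔠)
    (hG₀ : Divisor.degree G₀ = (genusFF K 𝔠 : ℤ)) (hns : S27pkgNS hld hgen hx)
    (e : Fin (genusFF K 𝔠) → 𝔠 →ₐ[K] 𝔎) (he : S27dgGeneric K x e) (k : ℤ) (hk : k ≠ 0) :
    ∃ q : Fin (genusFF K 𝔠) → 𝔠 →ₐ[K] 𝔎, S27dgGeneric K x q ∧
      k • (s27pkgO A hld hgen hx G₀ hG₀ hns).cl
          (fun i => (s27pkgO A hld hgen hx G₀ hG₀ hns).pt (e i))
        = (s27pkgO A hld hgen hx G₀ hG₀ hns).cl
          (fun i => (s27pkgO A hld hgen hx G₀ hG₀ hns).pt (q i)) := by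
  obtain ⟨R', hR'⟩ := (s27pkgO A hld hgen hx G₀ hG₀ hns).rr
    (k • (s27pkgO A hld hgen hx G₀ hG₀ hns).cl
      (fun i => (s27pkgO A hld hgen hx G₀ hG₀ hns).pt (e i)))
  obtain ⟨q, hq, hRq⟩ := s27dom_clOZ hld hgen hx (s27pkg_hdeg hld hgen hx)
    (Finsupp.mapDomain (s26gspCon hld hgen (s26gspf_hall hx)) G₀)
    (s27pkgO_degree hld hgen hx G₀ hG₀)
    (fun q => s26gspc_mapDomain_apply_of_trivial hld hgen (s26gspf_hall hx) G₀ _
      (s27pt_gpPlace_trivial hld hgen hx q))
    e he (hns e he) k hk R' hR'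
  refine ⟨q, hq, ?_⟩
  rw [← hR']
  congr 1
  funext j
  exact hRq j

/-- **`hDOM`, origin `g · Con P₀`, integer multiples**. -/
theorem s27dom_pkgZ [IsAlgClosed K] [CharZero K] [IsAlgClosed 𝔎] (P₀ : Place K 𝔠)
    (hns : S27pkgNS hld hgen hx)
    (e : Fin (genusFF K 𝔠) → 𝔠 →ₐ[K] 𝔎) (he : S27dgGeneric K x e) (k : ℤ) (hk : k ≠ 0) :
    ∃ q : Fin (genusFF K 𝔠) → 𝔠 →ₐ[K] 𝔎, S27dgGeneric K x q ∧
      k • (s27pkg A hld hgen hx P₀ hns).cl
          (fun i => (s27pkg A hld hgen hx P₀ hns).pt (e i))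
        = (s27pkg A hld hgen hx P₀ hns).cl
          (fun i => (s27pkg A hld hgen hx P₀ hns).pt (q i)) := by
  obtain ⟨R', hR'⟩ := (s27pkg A hld hgen hx P₀ hns).rr
    (k • (s27pkg A hld hgen hx P₀ hns).cl
      (fun i => (s27pkg A hld hgen hx P₀ hns).pt (e i)))
  have hdegO : Divisor.degree (Finsupp.single (s26gspCon hld hgen (s26gspf_hall hx) P₀)
      ((genusFF K 𝔠 : ℕ) : ℤ) : Divisor 𝔎 Ω) = ((genusFF K 𝔠 : ℕ) : ℤ) := by
    rw [Divisor.degree_single, s27pkg_hdeg hld hgen hx]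
    simp
  obtain ⟨q, hq, hRq⟩ := s27dom_clOZ hld hgen hx (s27pkg_hdeg hld hgen hx)
    (Finsupp.single (s26gspCon hld hgen (s26gspf_hall hx) P₀) ((genusFF K 𝔠 : ℕ) : ℤ)) hdegO
    (fun q => Finsupp.single_eq_of_ne'
      (s27pt_gpPlace_ne_con hld hgen (s26gspf_hall hx) hx q P₀).symm)
    e he (hns e he) k hk R' hR'
  refine ⟨q, hq, ?_⟩
  rw [← hR']
  congr 1
  funext j
  exact hRq j

end DomZ

end Fermat.Agent.S27
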