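/-
S27, route B, piece DEG-B4c (GS) (helper81): a tuple of places `R'` with
`n · cl R' = cl (pt ∘ q)`, `q` generic, is a generic tuple of points.

`s27dgs_main : s27dg_StmtTrdeg → s27dg_StmtGS`  (statements of `S27/DegAbs.lean`).

Proof.  `I := {i | R' i ∈ range pt}`, `R' i = pt (e' i)` for `i ∈ I`, `M := K(e' i t : i ∈ I)`,
`L'' :=` the algebraic closure of `M` in `L` (algebraically closed).  Every `h ∈ Aut(L / L'')`
fixes `e' i u` (`u ∈ F` is algebraic over `K(t)`), hence fixes every `R' i` (`actP_pt`,
`actP_const`), hence `cl R'`, hence `cl (pt ∘ q) = n · cl R'`; by `ns` and `pt_inj` it permutes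
the `q i`.  So `q i t` has a finite orbit under `Aut(L / L'')` and lies in `L''`
(`s27af_mem_range_of_finite_orbit`), i.e. it is algebraic over `M`.  TRDEG gives `I = univ` and
the algebraic independence of the `e' i t`.
-/
import Mathlib
import Fermat.Agent.S27.DegAbs
import Fermat.Agent.S27.AutFix

set_option autoImplicit false

noncomputable section

namespace Fermat.Agent.S27

universe u v w x y

/-- an element of `L` which is integral over a subfield `S` algebraically closed as a field
lies in `S`. -/
theorem s27dgs_mem_of_isIntegral {K : Type u} {L : Type w} [Field K] [Field L] [Algebra K L]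
    [IsAlgClosed K] {a : L} (ha : IsIntegral K a) : a ∈ (algebraMap K L).range := by
  have hdeg : (minpoly K a).degree = 1 :=
    IsAlgClosed.degree_eq_one_of_irreducible K (minpoly.irreducible ha)
  exact minpoly.mem_range_of_degree_eq_one K a hdeg

/-- transport of algebraicity along an embedding: if `u` is algebraic over `K(t)` and `e t`
lies in the subfield `S` of `L` (algebraically closed as a field), then `e u ∈ S`. -/
theorem s27dgs_image_mem {K : Type u} {F : Type v} {L : Type w} [Field K] [Field F] [Field L]
    [Algebra K F] [Algebra K L] (t : F)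
    (halg : ∀ u : F, IsAlgebraic (IntermediateField.adjoin K {t}) u)
    (S : IntermediateField K L) [IsAlgClosed S] (e : F →ₐ[K] L) (het : e t ∈ S) (u : F) :
    e u ∈ S := by
  -- `K(t) ≤ S.comap e`
  have hle : IntermediateField.adjoin K {t} ≤ S.comap e := by
    rw [IntermediateField.adjoin_le_iff]
    intro z hz
    rw [Set.mem_singleton_iff] at hz
    subst hz
    exact het
  -- the restriction of `e` to `K(t)`, with values in `S`
  let j : (IntermediateField.adjoin K {t}) →+* S :=
    { toFun := fun z => ⟨e (z : F), hle z.2⟩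
      map_one' := by ext; simp
      map_mul' := fun a b => by ext; simp
      map_zero' := by ext; simp
      map_add' := fun a b => by ext; simp }
  have hcomp : (algebraMap S L).comp j
      = (e : F →+* L).comp (algebraMap (IntermediateField.adjoin K {t}) F) := by
    ext z
    rfl
  have hint : IsIntegral S ((e : F →+* L) u) :=
    IsIntegral.map_of_comp_eq j (e : F →+* L) hcomp (halg u).isIntegral
  obtain ⟨s, hs⟩ := s27dgs_mem_of_isIntegral (K := S) (L := L) hint
  have : e u = (s : L) := hs.symm
  rw [this]
  exact s.2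

/-- **B4c (GS)** from TRDEG. -/
theorem s27dgs_main (hT : s27dg_StmtTrdeg.{u, w}) : s27dg_StmtGS.{u, v, w, x, y} := by
  intro K F L _ _ _ _ _ _ _ t halg g Pl P _ pkg n q hq R' hR'
  classical
  -- the indices of the non-constant places
  set I : Set (Fin g) := {i | R' i ∈ Set.range pkg.pt} with hI
  have hex : ∀ i, ∃ e : F →ₐ[K] L, i ∈ I → R' i = pkg.pt e := by
    intro i
    by_cases hi : i ∈ I
    · obtain ⟨e, he⟩ := hi
      exact ⟨e, fun _ => he.symm⟩
    · exact ⟨q i, fun h => absurd h hi⟩
  choose e' he' using hex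
  set b : Fin g → L := fun i => e' i t with hb
  -- the field generated by the coordinates and its algebraic closure in `L`
  set M : IntermediateField K L := IntermediateField.adjoin K (b '' I) with hM
  -- `S` := the algebraic closure of `M` in `L`, as an intermediate field of `L / K`
  let S : IntermediateField K L := (algebraicClosure (↥M) L).restrictScalars K
  have hSmem : ∀ z : L, z ∈ S ↔ IsAlgebraic (↥M) z := fun z => mem_algebraicClosure_iff
  have hSac : IsAlgClosed S :=
    (IsAlgClosure.isAlgClosed (↥M) : IsAlgClosed ↥(algebraicClosure (↥M) L))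
  have hMS : ∀ z : L, z ∈ M → z ∈ S := fun z hz =>
    (hSmem z).2 (isAlgebraic_algebraMap (⟨z, hz⟩ : M))
  -- the points `e' i`, `i ∈ I`, have all their values in `S`
  have hval : ∀ i ∈ I, ∀ u : F, e' i u ∈ S := by
    intro i hi u
    refine s27dgs_image_mem t halg S (e' i) (hMS _ ?_) u
    exact IntermediateField.subset_adjoin K _ ⟨i, hi, rfl⟩
  -- every automorphism over `S` permutes the `q i`
  have hperm : ∀ h : L ≃ₐ[S] L, ∃ π : Equiv.Perm (Fin g), ∀ i u, h (q i u) = q (π i) u := by
    intro h
    let h' : L ≃ₐ[K] L := h.restrictScalars K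
    have hh' : ∀ z : L, h' z = h z := fun z => rfl
    -- `h'` fixes the points `e' i`
    have hfix : ∀ i ∈ I, (h' : L →ₐ[K] L).comp (e' i) = e' i := by
      intro i hi
      ext u
      have h1 : e' i u = algebraMap S L ⟨e' i u, hval i hi u⟩ := rfl
      change h (e' i u) = e' i u
      rw [h1, h.commutes]
    -- `h'` fixes the places `R' i`
    have hR : ∀ i, pkg.actP h' (R' i) = R' i := by
      intro i
      by_cases hi : i ∈ I
      · rw [he' i hi, pkg.actP_pt, hfix i hi]
      · exact pkg.actP_const h' (R' i) hi
    have hcl : pkg.actC h' (pkg.cl R') = pkg.cl R' := by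
      rw [pkg.actC_cl]
      congr 1
      funext i
      exact hR i
    have hq1 : pkg.actC h' (pkg.cl fun i => pkg.pt (q i)) = pkg.cl fun i => pkg.pt (q i) := by
      rw [← hR', map_zsmul, hcl]
    rw [pkg.actC_cl] at hq1
    have hq2 : pkg.cl (fun i => pkg.pt ((h' : L →ₐ[K] L).comp (q i)))
        = pkg.cl fun i => pkg.pt (q i) := by
      rw [← hq1]
      congr 1
      funext i
      rw [pkg.actP_pt]
    obtain ⟨π, hπ⟩ := pkg.ns q hq _ hq2
    refine ⟨π, fun i u => ?_⟩
    have h3 : (h' : L →ₐ[K] L).comp (q i) = q (π i) := pkg.pt_inj (congrFun hπ i)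
    have h4 := congrArg (fun f : F →ₐ[K] L => f u) h3
    exact h4
  -- hence `q i t ∈ S`
  have hqS : ∀ i, IsAlgebraic (↥M) (q i t) := by
    intro i
    rw [← hSmem]
    have hfin : (Set.range fun σ : L ≃ₐ[S] L => σ (q i t)).Finite := by
      refine (Set.finite_range fun j : Fin g => q j t).subset ?_
      rintro _ ⟨σ, rfl⟩
      obtain ⟨π, hπ⟩ := hperm σ
      exact ⟨π i, (hπ i t).symm⟩
    obtain ⟨s, hs⟩ := s27af_mem_range_of_finite_orbit (K := S) (Ω := L) (q i t) hfin
    rw [← hs]
    exact s.2
  -- TRDEG
  obtain ⟨hIuniv, hbind⟩ := hT K L g (fun i => q i t) hq I b hqS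
  refine ⟨e', hbind, ?_⟩
  funext i
  exact he' i (by rw [hIuniv]; exact Set.mem_univ i)

end Fermat.Agent.S27

end
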