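/-
S27, route B, piece DEG-B4c (GS), integer form (helper81, asked by helper18 for `ψ (-1)`, `ψ (-n)`):
`s27dgs_main_int` = `s27dgs_main` (S27/DegGS.lean) with a multiplier `m : ℤ` instead of `n : ℕ`:
a tuple of places `R'` with `m • cl R' = cl (pt ∘ q)`, `q` generic, is a generic tuple of points.
`s27dgs_main_int'` : the same with TRDEG (`s27dgt_main`, S27/DegTrdeg.lean) plugged in.
-/
import Mathlib
import Fermat.Agent.S27.DegAbs
import Fermat.Agent.S27.AutFix
import Fermat.Agent.S27.DegGS
import Fermat.Agent.S27.DegTrdeg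

set_option autoImplicit false

noncomputable section

namespace Fermat.Agent.S27

universe u v w x y

/-- **B4c (GS)** with an INTEGER multiplier (for `ψ (-1)`, `ψ (-n)`): same proof. -/
theorem s27dgs_main_int (hT : s27dg_StmtTrdeg.{u, w})
    (K : Type u) (F : Type v) (L : Type w) [Field K] [Field F] [Field L] [Algebra K F]
    [Algebra K L] [IsAlgClosed K] [IsAlgClosed L] (t : F)
    (halg : ∀ u : F, IsAlgebraic (IntermediateField.adjoin K {t}) u)
    (g : ℕ) (Pl : Type x) (P : Type y) [AddCommGroup P] (pkg : S27DegPkg K F L t g Pl P)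
    (m : ℤ) (q : Fin g → F →ₐ[K] L) (hq : S27dgGeneric K t q)
    (R' : Fin g → Pl) (hR' : m • pkg.cl R' = pkg.cl (fun i => pkg.pt (q i))) :
    ∃ e' : Fin g → F →ₐ[K] L, S27dgGeneric K t e' ∧ R' = fun i => pkg.pt (e' i) := by
  classical
  -- the indices of the non-constant places
  set I : Set (Fin g) := {i | R' i ∈ Set.range pkg.pt} with hI
  have hex : ∀ i, ∃ e : F →ₐ[K] L, i ∈ I → R' i = pkg.pt e := by
    intro i
    by_cases hi : i ∈ I
    · obtain ⟨e, he⟩ := hi
      exact ⟨e, fun _ => he.symm⟩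
    · exact ⟨q i, fun h => absurd h hi⟩
  choose e' he' using hex
  set b : Fin g → L := fun i => e' i t with hb
  -- the field generated by the coordinates and its algebraic closure in `L`
  set M : IntermediateField K L := IntermediateField.adjoin K (b '' I) with hM
  -- `S` := the algebraic closure of `M` in `L`, as an intermediate field of `L / K`
  let S : IntermediateField K L := (algebraicClosure (↥M) L).restrictScalars K
  have hSmem : ∀ z : L, z ∈ S ↔ IsAlgebraic (↥M) z := fun z => mem_algebraicClosure_iff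
  have hSac : IsAlgClosed S :=
    (IsAlgClosure.isAlgClosed (↥M) : IsAlgClosed ↥(algebraicClosure (↥M) L))
  have hMS : ∀ z : L, z ∈ M → z ∈ S := fun z hz =>
    (hSmem z).2 (isAlgebraic_algebraMap (⟨z, hz⟩ : M))
  -- the points `e' i`, `i ∈ I`, have all their values in `S`
  have hval : ∀ i ∈ I, ∀ u : F, e' i u ∈ S := by
    intro i hi u
    refine s27dgs_image_mem t halg S (e' i) (hMS _ ?_) u
    exact IntermediateField.subset_adjoin K _ ⟨i, hi, rfl⟩
  -- every automorphism over `S` permutes the `q i`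
  have hperm : ∀ h : L ≃ₐ[S] L, ∃ π : Equiv.Perm (Fin g), ∀ i u, h (q i u) = q (π i) u := by
    intro h
    let h' : L ≃ₐ[K] L := h.restrictScalars K
    have hh' : ∀ z : L, h' z = h z := fun z => rfl
    -- `h'` fixes the points `e' i`
    have hfix : ∀ i ∈ I, (h' : L →ₐ[K] L).comp (e' i) = e' i := by
      intro i hi
      ext u
      have h1 : e' i u = algebraMap S L ⟨e' i u, hval i hi u⟩ := rfl
      change h (e' i u) = e' i u
      rw [h1, h.commutes]
    -- `h'` fixes the places `R' i`
    have hR : ∀ i, pkg.actP h' (R' i) = R' i := by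
      intro i
      by_cases hi : i ∈ I
      · rw [he' i hi, pkg.actP_pt, hfix i hi]
      · exact pkg.actP_const h' (R' i) hi
    have hcl : pkg.actC h' (pkg.cl R') = pkg.cl R' := by
      rw [pkg.actC_cl]
      congr 1
      funext i
      exact hR i
    have hq1 : pkg.actC h' (pkg.cl fun i => pkg.pt (q i)) = pkg.cl fun i => pkg.pt (q i) := by
      rw [← hR', map_zsmul, hcl]
    rw [pkg.actC_cl] at hq1
    have hq2 : pkg.cl (fun i => pkg.pt ((h' : L →ₐ[K] L).comp (q i)))
        = pkg.cl fun i => pkg.pt (q i) := by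
      rw [← hq1]
      congr 1
      funext i
      rw [pkg.actP_pt]
    obtain ⟨π, hπ⟩ := pkg.ns q hq _ hq2
    refine ⟨π, fun i u => ?_⟩
    have h3 : (h' : L →ₐ[K] L).comp (q i) = q (π i) := pkg.pt_inj (congrFun hπ i)
    have h4 := congrArg (fun f : F →ₐ[K] L => f u) h3
    exact h4
  -- hence `q i t ∈ S`
  have hqS : ∀ i, IsAlgebraic (↥M) (q i t) := by
    intro i
    rw [← hSmem]
    have hfin : (Set.range fun σ : L ≃ₐ[S] L => σ (q i t)).Finite := by
      refine (Set.finite_range fun j : Fin g => q j t).subset ?_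
      rintro _ ⟨σ, rfl⟩
      obtain ⟨π, hπ⟩ := hperm σ
      exact ⟨π i, (hπ i t).symm⟩
    obtain ⟨s, hs⟩ := s27af_mem_range_of_finite_orbit (K := S) (Ω := L) (q i t) hfin
    rw [← hs]
    exact s.2
  -- TRDEG
  obtain ⟨hIuniv, hbind⟩ := hT K L g (fun i => q i t) hq I b hqS
  refine ⟨e', hbind, ?_⟩
  funext i
  exact he' i (by rw [hIuniv]; exact Set.mem_univ i)


/-- `s27dgs_main_int` with TRDEG plugged in. -/
theorem s27dgs_main_int'
    (K : Type u) (F : Type v) (L : Type w) [Field K] [Field F] [Field L] [Algebra K F]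
    [Algebra K L] [IsAlgClosed K] [IsAlgClosed L] (t : F)
    (halg : ∀ u : F, IsAlgebraic (IntermediateField.adjoin K {t}) u)
    (g : ℕ) (Pl : Type x) (P : Type y) [AddCommGroup P] (pkg : S27DegPkg K F L t g Pl P)
    (m : ℤ) (q : Fin g → F →ₐ[K] L) (hq : S27dgGeneric K t q)
    (R' : Fin g → Pl) (hR' : m • pkg.cl R' = pkg.cl (fun i => pkg.pt (q i))) :
    ∃ e' : Fin g → F →ₐ[K] L, S27dgGeneric K t e' ∧ R' = fun i => pkg.pt (e' i) :=
  s27dgs_main_int s27dgt_main K F L t halg g Pl P pkg m q hq R' hR'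

/-- GS (natural multiplier) unconditionally. -/
theorem s27dgs_stmtGS : s27dg_StmtGS.{u, v, w, x, y} := s27dgs_main s27dgt_main

end Fermat.Agent.S27

end
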