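/-
S27 route B, piece PSI-FAM (helper15): THE FAMILY `ψ : ℤ → (𝔉 →ₐ[K] 𝔉)` (`ψ k = [k]^*`) on the
model `𝔉 = s27gfSym K F g ⊆ Ω = s27gfOm K F g`, from

* the abstract degree package `pkg : S27DegPkg K F L t g Pl P` of the DEG hub (S27/DegAbs.lean,
  helper18): places `pt e` of points, classes `cl R`, the action of `Aut(L / K)`, (NS);
* generic tuples `q k : Fin g → F →ₐ[K] L` (`k ≠ 0`) with `cl (pt ∘ q k) = k • cl (pt ∘ p)`,
  `p i = ι_i` the tautological points (DOM, helper86);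
* (X1) every `K`-embedding `𝔉 → L` is induced by an automorphism of `L / K` (helper84).

Results (`L` algebraically closed and algebraic over `Ω`, characteristic `0`):
* `s27pf_cl_comp`     : `cl (pt ∘ h ∘ e) = actC h (cl (pt ∘ e))`;
* `s27pf_taut_stable`, `s27pf_taut_pt` : the tautological point is a point datum;
* `s27pf_stable`, `s27pf_pt` : `q k` is a point datum (`S27PsiPt`, S27/Psi.lean);
* `s27pf_psi_taut`    : `s27psi p = id`;
* `s27pf_comp`        : `s27psi (q k) ∘ s27psi (q m) = s27psi (q (k * m))`;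
* `s27pfPsi`, `s27pf_main` : the family `ψ` with `ψ 1 = id`, `ψ k ∘ ψ m = ψ (k m)` (in particular
  `comp₁`, `comp₋` of `s27geo_Stmt`), and the spec `algebraMap (ψ k s) = ψ̃_k (s)`
  (= the hypothesis `hφ` of `s27dgtop_main` with `ψ := s27psiT (q k)`).
-/
import Fermat.Agent.S27.Psi
import Fermat.Agent.S27.DegAbs
import Fermat.Agent.S27.DegGal

set_option autoImplicit false
set_option linter.unusedSectionVars false
set_option linter.unusedVariables false
set_option linter.style.haveILetI false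

noncomputable section

namespace Fermat.Agent.S27

universe u v x y

section Fam

variable {K : Type u} {F : Type v} [Field K] [IsAlgClosed K] [Field F] [Algebra K F] {g : ℕ}
variable {L : Type (max u v)} [Field L] [Algebra K L] [Algebra (s27gfOm K F g) L]
  [IsScalarTower K (s27gfOm K F g) L]
variable {t : F} {Pl : Type x} {P : Type y} [AddCommGroup P] (pkg : S27DegPkg K F L t g Pl P)

/-- the tautological points `p i = ι_i : F → Ω ⊆ L` -/
def s27pfTaut (i : Fin g) : F →ₐ[K] L :=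
  (IsScalarTower.toAlgHom K (s27gfOm K F g) L).comp (s27gfIota i)

theorem s27pfTaut_apply (i : Fin g) (f : F) :
    s27pfTaut (K := K) (L := L) i f = algebraMap (s27gfOm K F g) L (s27gfIota i f) := rfl

theorem s27pf_taut_inj :
    Function.Injective (s27gfLiftR (s27pfTaut (K := K) (F := F) (g := g) (L := L))) :=
  s27psi_inj_of_hom (IsScalarTower.toAlgHom K (s27gfOm K F g) L)

theorem s27pf_psiT_taut (x : s27gfOm K F g) :
    s27psiT (s27pfTaut (K := K) (F := F) (g := g) (L := L)) s27pf_taut_inj x =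
      algebraMap (s27gfOm K F g) L x := by
  have h := s27psiT_of_hom (IsScalarTower.toAlgHom K (s27gfOm K F g) L)
  exact congrArg (fun c => c x) h

/-- the class of a tuple of points -/
def s27pfCl (e : Fin g → F →ₐ[K] L) : P := pkg.cl fun i => pkg.pt (e i)

theorem s27pf_cl_comp (h : L ≃ₐ[K] L) (e : Fin g → F →ₐ[K] L) :
    s27pfCl pkg (fun i => (h : L →ₐ[K] L).comp (e i)) = pkg.actC h (s27pfCl pkg e) := by
  unfold s27pfCl
  rw [pkg.actC_cl]
  congr 1
  funext i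
  rw [pkg.actP_pt]

theorem s27pf_cl_perm (e : Fin g → F →ₐ[K] L) (π : Equiv.Perm (Fin g)) :
    s27pfCl pkg (fun i => e (π i)) = s27pfCl pkg e :=
  pkg.cl_perm (fun i => pkg.pt (e i)) π

/-- (NS) on tuples of points -/
theorem s27pf_ns (e e' : Fin g → F →ₐ[K] L) (he : S27dgGeneric K t e)
    (h : s27pfCl pkg e' = s27pfCl pkg e) : ∃ π : Equiv.Perm (Fin g), ∀ i, e' i = e (π i) := by
  obtain ⟨π, hπ⟩ := pkg.ns e he (fun i => pkg.pt (e' i)) h
  exact ⟨π, fun i => pkg.pt_inj (congrFun hπ i)⟩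

/-- an automorphism of `L` which induces on `𝔉` the evaluation at `e` maps the tautological
points to (a permutation of) `e` -/
theorem s27pf_perm_of_ext (e : Fin g → F →ₐ[K] L) (he : Function.Injective (s27gfLiftR e))
    (h : L ≃ₐ[K] L)
    (hh : ∀ s : s27gfSym K F g, h (algebraMap (s27gfSym K F g) L s) = s27psiEv e he s) :
    ∃ π : Equiv.Perm (Fin g), ∀ i, (h : L →ₐ[K] L).comp (s27pfTaut i) = e (π i) := by
  have hinj := s27psi_inj_comp (h : L →ₐ[K] L) (s27pfTaut (K := K) (F := F) (g := g) (L := L))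
    s27pf_taut_inj
  refine s27dgx_exists_perm_points e _ he hinj ?_
  intro y hy
  have h1 := s27psiT_comp (h : L →ₐ[K] L) (s27pfTaut (K := K) (F := F) (g := g) (L := L))
    s27pf_taut_inj y
  have h2 : s27gfLift (fun i => (h : L →ₐ[K] L).comp (s27pfTaut i)) hinj y =
      (h : L →ₐ[K] L) (algebraMap (s27gfOm K F g) L y) := by
    rw [← s27pf_psiT_taut y]
    exact h1
  rw [h2]
  exact hh ⟨y, hy⟩

/-- the class of the image of the tautological point -/
theorem s27pf_cl_of_ext (e : Fin g → F →ₐ[K] L) (he : Function.Injective (s27gfLiftR e))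
    (h : L ≃ₐ[K] L)
    (hh : ∀ s : s27gfSym K F g, h (algebraMap (s27gfSym K F g) L s) = s27psiEv e he s) :
    pkg.actC h (s27pfCl pkg (s27pfTaut (K := K) (F := F) (g := g) (L := L))) = s27pfCl pkg e := by
  obtain ⟨π, hπ⟩ := s27pf_perm_of_ext e he h hh
  rw [← s27pf_cl_comp]
  have h1 : (fun i => (h : L →ₐ[K] L).comp (s27pfTaut (K := K) (F := F) (g := g) (L := L) i)) =
      fun i => e (π i) := funext hπ
  rw [h1, s27pf_cl_perm]

/-- **the tautological point is stable** -/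
theorem s27pf_taut_stable (σ : L ≃ₐ[s27gfSym K F g] L) :
    ∃ π : Equiv.Perm (Fin g), ∀ i f,
      σ (s27pfTaut (K := K) (F := F) (g := g) (L := L) i f) =
        s27pfTaut (K := K) (F := F) (g := g) (L := L) (π i) f := by
  obtain ⟨π, hπ⟩ := s27pf_perm_of_ext (s27pfTaut (K := K) (F := F) (g := g) (L := L))
    s27pf_taut_inj (σ.restrictScalars K) (fun s => by
      rw [s27psiEv_apply, s27pf_psiT_taut, ← IsScalarTower.algebraMap_apply]
      exact σ.commutes s)
  exact ⟨π, fun i f => congrArg (fun c => c f) (hπ i)⟩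

theorem s27pf_taut_pt : S27PsiPt (s27pfTaut (K := K) (F := F) (g := g) (L := L)) :=
  ⟨s27pf_taut_inj, s27pf_taut_stable⟩

/-- **`stable` for a generic tuple whose class is a multiple of the tautological class** -/
theorem s27pf_stable (k : ℤ) (q : Fin g → F →ₐ[K] L) (hq : S27dgGeneric K t q)
    (hcl : s27pfCl pkg q = k • s27pfCl pkg (s27pfTaut (K := K) (F := F) (g := g) (L := L)))
    (σ : L ≃ₐ[s27gfSym K F g] L) :
    ∃ π : Equiv.Perm (Fin g), ∀ i f, σ (q i f) = q (π i) f := by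
  have h1 : pkg.actC (σ.restrictScalars K)
      (s27pfCl pkg (s27pfTaut (K := K) (F := F) (g := g) (L := L))) =
      s27pfCl pkg (s27pfTaut (K := K) (F := F) (g := g) (L := L)) :=
    s27pf_cl_of_ext pkg _ s27pf_taut_inj (σ.restrictScalars K) (fun s => by
      rw [s27psiEv_apply, s27pf_psiT_taut, ← IsScalarTower.algebraMap_apply]
      exact σ.commutes s)
  have h2 : s27pfCl pkg (fun i => ((σ.restrictScalars K : L ≃ₐ[K] L) : L →ₐ[K] L).comp (q i)) =
      s27pfCl pkg q := by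
    rw [s27pf_cl_comp, hcl, map_zsmul, h1]
  obtain ⟨π, hπ⟩ := s27pf_ns pkg q _ hq h2
  exact ⟨π, fun i f => congrArg (fun c => c f) (hπ i)⟩

theorem s27pf_pt (halg : ∀ f : F, IsAlgebraic (IntermediateField.adjoin K {t}) f)
    (k : ℤ) (q : Fin g → F →ₐ[K] L) (hq : S27dgGeneric K t q)
    (hcl : s27pfCl pkg q = k • s27pfCl pkg (s27pfTaut (K := K) (F := F) (g := g) (L := L))) :
    S27PsiPt q :=
  ⟨s27dgx_liftR_injective' q t halg hq, s27pf_stable pkg k q hq hcl⟩

section Galois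

variable [IsGalois (s27gfSym K F g) L]

/-- **`ψ` of the tautological point is the identity** -/
theorem s27pf_psi_taut (hp : S27PsiPt (s27pfTaut (K := K) (F := F) (g := g) (L := L))) :
    s27psi (s27pfTaut (K := K) (F := F) (g := g) (L := L)) hp = AlgHom.id K (s27gfSym K F g) := by
  symm
  apply s27psi_unique
  intro s
  rw [s27psiEv_apply, s27pf_psiT_taut, ← IsScalarTower.algebraMap_apply]
  rfl

/-- **composition**, from an automorphism `h` of `L` inducing the evaluation at `e` on `𝔉` -/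
theorem s27pf_comp_of_ext (e e' e'' : Fin g → F →ₐ[K] L) (he : S27PsiPt e) (he' : S27PsiPt e')
    (he'' : S27PsiPt e'') (h : L ≃ₐ[K] L)
    (hh : ∀ s : s27gfSym K F g, h (algebraMap (s27gfSym K F g) L s) = s27psiEv e he.inj s)
    (hπ : ∃ π : Equiv.Perm (Fin g), ∀ i, (h : L →ₐ[K] L).comp (e' i) = e'' (π i)) :
    (s27psi e he).comp (s27psi e' he') = s27psi e'' he'' := by
  obtain ⟨π, hπ⟩ := hπ
  apply s27psi_unique
  intro s
  rw [AlgHom.comp_apply, s27psi_spec', ← hh, s27psi_spec']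
  have h1 := s27psiEv_comp (h : L →ₐ[K] L) e' he'.inj
  have h2 := s27psiEv_perm' e'' (fun i => (h : L →ₐ[K] L).comp (e' i)) he''.inj
    (s27psi_inj_comp (h : L →ₐ[K] L) e' he'.inj) π hπ
  rw [← h2, h1]
  rfl

/-- the tuples `q k` of the family: generic, of class `k • cl p` -/
def S27pfFam (q : ℤ → Fin g → F →ₐ[K] L) : Prop :=
  ∀ k : ℤ, k ≠ 0 → S27dgGeneric K t (q k) ∧
    s27pfCl pkg (q k) = k • s27pfCl pkg (s27pfTaut (K := K) (F := F) (g := g) (L := L))

theorem s27pf_fam_pt (halg : ∀ f : F, IsAlgebraic (IntermediateField.adjoin K {t}) f)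
    {q : ℤ → Fin g → F →ₐ[K] L} (hq : S27pfFam pkg q) (k : ℤ) (hk : k ≠ 0) : S27PsiPt (q k) :=
  s27pf_pt pkg halg k (q k) (hq k hk).1 (hq k hk).2

/-- **THE family `ψ k = [k]^*`** (`ψ 0 := id`, not used) -/
def s27pfPsi (halg : ∀ f : F, IsAlgebraic (IntermediateField.adjoin K {t}) f)
    {q : ℤ → Fin g → F →ₐ[K] L} (hq : S27pfFam pkg q) (k : ℤ) :
    s27gfSym K F g →ₐ[K] s27gfSym K F g :=
  if hk : k = 0 then AlgHom.id K _ else s27psi (q k) (s27pf_fam_pt pkg halg hq k hk)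

theorem s27pfPsi_of_ne (halg : ∀ f : F, IsAlgebraic (IntermediateField.adjoin K {t}) f)
    {q : ℤ → Fin g → F →ₐ[K] L} (hq : S27pfFam pkg q) (k : ℤ) (hk : k ≠ 0) :
    s27pfPsi pkg halg hq k = s27psi (q k) (s27pf_fam_pt pkg halg hq k hk) := by
  unfold s27pfPsi
  rw [dif_neg hk]

/-- the spec of the family (= `hφ` of `s27dgtop_main` with `ψ := s27psiT (q k)`) -/
theorem s27pfPsi_spec (halg : ∀ f : F, IsAlgebraic (IntermediateField.adjoin K {t}) f)
    {q : ℤ → Fin g → F →ₐ[K] L} (hq : S27pfFam pkg q) (k : ℤ) (hk : k ≠ 0)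
    (s : s27gfSym K F g) :
    algebraMap (s27gfOm K F g) L ((s27pfPsi pkg halg hq k s : s27gfSym K F g) : s27gfOm K F g) =
      s27psiT (q k) (s27pf_fam_pt pkg halg hq k hk).inj (s : s27gfOm K F g) := by
  rw [s27pfPsi_of_ne pkg halg hq k hk]
  exact s27psi_spec_om (q k) (s27pf_fam_pt pkg halg hq k hk) s

/-- `ψ 1 = id` -/
theorem s27pfPsi_one (halg : ∀ f : F, IsAlgebraic (IntermediateField.adjoin K {t}) f)
    {q : ℤ → Fin g → F →ₐ[K] L} (hq : S27pfFam pkg q) :
    s27pfPsi pkg halg hq 1 = AlgHom.id K (s27gfSym K F g) := by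
  rw [s27pfPsi_of_ne pkg halg hq 1 one_ne_zero]
  have h1 := (hq 1 one_ne_zero).2
  rw [one_smul] at h1
  obtain ⟨π, hπ⟩ := s27pf_ns pkg (q 1) _ (hq 1 one_ne_zero).1 h1.symm
  have hp : S27PsiPt (s27pfTaut (K := K) (F := F) (g := g) (L := L)) := s27pf_taut_pt
  rw [← s27pf_psi_taut hp]
  exact (s27psi_perm (q 1) _ (s27pf_fam_pt pkg halg hq 1 one_ne_zero) hp π hπ).symm

/-- **`ψ k ∘ ψ m = ψ (k m)`** -/
theorem s27pfPsi_comp (halg : ∀ f : F, IsAlgebraic (IntermediateField.adjoin K {t}) f)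
    (hX1 : ∀ σ : s27gfSym K F g →ₐ[K] L, ∃ ê : L ≃ₐ[K] L,
      ∀ x : s27gfSym K F g, ê (algebraMap (s27gfOm K F g) L (x : s27gfOm K F g)) = σ x)
    {q : ℤ → Fin g → F →ₐ[K] L} (hq : S27pfFam pkg q) (k m : ℤ) (hk : k ≠ 0) (hm : m ≠ 0) :
    (s27pfPsi pkg halg hq k).comp (s27pfPsi pkg halg hq m) = s27pfPsi pkg halg hq (k * m) := by
  have hkm : k * m ≠ 0 := mul_ne_zero hk hm
  rw [s27pfPsi_of_ne pkg halg hq k hk, s27pfPsi_of_ne pkg halg hq m hm,
    s27pfPsi_of_ne pkg halg hq (k * m) hkm]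
  obtain ⟨ê, hê⟩ := hX1 (s27psiEv (q k) (s27pf_fam_pt pkg halg hq k hk).inj)
  have hh : ∀ s : s27gfSym K F g, ê (algebraMap (s27gfSym K F g) L s) =
      s27psiEv (q k) (s27pf_fam_pt pkg halg hq k hk).inj s := fun s => by
    rw [← hê s]
    rfl
  refine s27pf_comp_of_ext (q k) (q m) (q (k * m)) _ _ _ ê hh ?_
  have h1 : s27pfCl pkg (fun i => (ê : L →ₐ[K] L).comp (q m i)) = s27pfCl pkg (q (k * m)) := by
    rw [s27pf_cl_comp, (hq m hm).2, map_zsmul,
      s27pf_cl_of_ext pkg (q k) (s27pf_fam_pt pkg halg hq k hk).inj ê hh, (hq k hk).2,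
      (hq (k * m) hkm).2, smul_smul, mul_comm]
  exact s27pf_ns pkg (q (k * m)) _ (hq (k * m) hkm).1 h1

/-- **PSI-FAM**: the family `ψ` with `comp₁`, `comp₋` of `s27geo_Stmt` and its spec. -/
theorem s27pf_main (halg : ∀ f : F, IsAlgebraic (IntermediateField.adjoin K {t}) f)
    (hX1 : ∀ σ : s27gfSym K F g →ₐ[K] L, ∃ ê : L ≃ₐ[K] L,
      ∀ x : s27gfSym K F g, ê (algebraMap (s27gfOm K F g) L (x : s27gfOm K F g)) = σ x)
    {q : ℤ → Fin g → F →ₐ[K] L} (hq : S27pfFam pkg q) :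
    ∃ ψ : ℤ → (s27gfSym K F g →ₐ[K] s27gfSym K F g),
      (∀ k : ℤ, k ≠ 0 → ∃ he : Function.Injective (s27gfLiftR (q k)), ∀ s : s27gfSym K F g,
        algebraMap (s27gfOm K F g) L ((ψ k s : s27gfSym K F g) : s27gfOm K F g) =
          s27psiT (q k) he (s : s27gfOm K F g)) ∧
      (∀ x, ψ 1 x = x) ∧
      (∀ k m : ℤ, k ≠ 0 → m ≠ 0 → ∀ x, ψ k (ψ m x) = ψ (k * m) x) ∧
      (∀ n : ℕ, 0 < n → (∀ x, ψ n (ψ 1 x) = ψ n x) ∧ ∀ x, ψ n (ψ (-1) x) = ψ (-(n : ℤ)) x) := by
  have hcomp : ∀ k m : ℤ, k ≠ 0 → m ≠ 0 → ∀ x,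
      s27pfPsi pkg halg hq k (s27pfPsi pkg halg hq m x) = s27pfPsi pkg halg hq (k * m) x :=
    fun k m hk hm x => congrArg (fun c => c x) (s27pfPsi_comp pkg halg hX1 hq k m hk hm)
  have hone : ∀ x, s27pfPsi pkg halg hq 1 x = x := fun x =>
    congrArg (fun c => c x) (s27pfPsi_one pkg halg hq)
  refine ⟨s27pfPsi pkg halg hq, ?_, hone, hcomp, ?_⟩
  · intro k hk
    exact ⟨(s27pf_fam_pt pkg halg hq k hk).inj, fun s => s27pfPsi_spec pkg halg hq k hk s⟩
  · intro n hn
    have hn0 : (n : ℤ) ≠ 0 := by exact_mod_cast hn.ne'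
    refine ⟨fun x => by rw [hone], fun x => ?_⟩
    have h := hcomp n (-1) hn0 (by norm_num) x
    rw [h]
    congr 2
    ring

end Galois

end Fam

end Fermat.Agent.S27
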