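/-
S27 route B, piece PSI-FAM-EX (helper15): EXISTENCE of the family of generic tuples
`q : ℤ → Fin g → F →ₐ[K] L` with `cl (pt ∘ q k) = k • cl (pt ∘ p)` (`S27pfFam`, S27/PsiFam.lean),
from the abstract degree package:

* `k > 0` : DOM (helper86, `s27dom_pkg`-shape): `∃ q generic, n • cl (pt ∘ p) = cl (pt ∘ q)`;
* `k < 0` : `rr` gives `R'` with `cl R' = k • cl (pt ∘ p)`, then `(−1) • cl R' = cl (pt ∘ q_{−k})`
  and GS with an integer multiplier (helper81, `s27dgs_main_int'`) makes `R'` a generic tuple of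
  points.

* `s27pfx_neg`    : the step `k < 0`;
* `s27pfx_exists` : `∃ q, S27pfFam pkg q`;
* `s27pfx_exists_with` : the same with `q n = q₀` prescribed for one `n > 0` (so that the `ψ n` of
  the family is the `s27psi q₀` of DEG-FINAL);
* `s27pfx_main`   : `s27pf_main` for this family.
-/
import Fermat.Agent.S27.PsiFam
import Fermat.Agent.S27.DegGSInt

set_option autoImplicit false
set_option linter.unusedSectionVars false
set_option linter.unusedVariables false
set_option linter.style.haveILetI false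

noncomputable section

namespace Fermat.Agent.S27

universe u v x y

section FamEx

variable {K : Type u} {F : Type v} [Field K] [IsAlgClosed K] [Field F] [Algebra K F] {g : ℕ}
variable {L : Type (max u v)} [Field L] [Algebra K L] [Algebra (s27gfOm K F g) L]
  [IsScalarTower K (s27gfOm K F g) L] [IsAlgClosed L]
variable {t : F} {Pl : Type x} {P : Type y} [AddCommGroup P] (pkg : S27DegPkg K F L t g Pl P)

/-- the step `k < 0`: from a generic `q₀` of class `n • cl p` to a generic `q` of class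
`(−n) • cl p`. -/
theorem s27pfx_neg (halg : ∀ f : F, IsAlgebraic (IntermediateField.adjoin K {t}) f)
    (n : ℤ) (q₀ : Fin g → F →ₐ[K] L) (hq₀ : S27dgGeneric K t q₀)
    (hcl : s27pfCl pkg q₀ = n • s27pfCl pkg (s27pfTaut (K := K) (F := F) (g := g) (L := L))) :
    ∃ q : Fin g → F →ₐ[K] L, S27dgGeneric K t q ∧
      s27pfCl pkg q = (-n) • s27pfCl pkg (s27pfTaut (K := K) (F := F) (g := g) (L := L)) := by
  obtain ⟨R', hR'⟩ := pkg.rr
    ((-n) • s27pfCl pkg (s27pfTaut (K := K) (F := F) (g := g) (L := L)))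
  have h1 : (-1 : ℤ) • pkg.cl R' = pkg.cl (fun i => pkg.pt (q₀ i)) := by
    rw [hR', smul_smul]
    have h2 : (-1 : ℤ) * (-n) = n := by ring
    rw [h2]
    exact hcl.symm
  obtain ⟨e', he', hRe⟩ := s27dgs_main_int' K F L t halg g Pl P pkg (-1) q₀ hq₀ R' h1
  refine ⟨e', he', ?_⟩
  unfold s27pfCl
  rw [← hRe]
  exact hR'

/-- **existence of the family**, with one prescribed member. -/
theorem s27pfx_exists_with (halg : ∀ f : F, IsAlgebraic (IntermediateField.adjoin K {t}) f)
    (hDOM : ∀ n : ℕ, 0 < n → ∃ q : Fin g → F →ₐ[K] L, S27dgGeneric K t q ∧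
      (n : ℤ) • s27pfCl pkg (s27pfTaut (K := K) (F := F) (g := g) (L := L)) = s27pfCl pkg q)
    (n₀ : ℤ) (q₀ : Fin g → F →ₐ[K] L) (hq₀ : S27dgGeneric K t q₀)
    (hcl₀ : s27pfCl pkg q₀ =
      n₀ • s27pfCl pkg (s27pfTaut (K := K) (F := F) (g := g) (L := L))) :
    ∃ q : ℤ → Fin g → F →ₐ[K] L, S27pfFam pkg q ∧ q n₀ = q₀ := by
  classical
  have hex : ∀ k : ℤ, ∃ q : Fin g → F →ₐ[K] L, k ≠ 0 → S27dgGeneric K t q ∧
      s27pfCl pkg q = k • s27pfCl pkg (s27pfTaut (K := K) (F := F) (g := g) (L := L)) := by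
    intro k
    by_cases hk : k = 0
    · exact ⟨q₀, fun h => absurd hk h⟩
    rcases lt_or_gt_of_ne hk with hneg | hpos
    · -- `k < 0`
      have hn : 0 < (-k).toNat := by
        rw [Int.lt_toNat]
        simpa using hneg
      obtain ⟨q, hq, hcl⟩ := hDOM (-k).toNat hn
      have hcast : (((-k).toNat : ℕ) : ℤ) = -k := Int.toNat_of_nonneg (by omega)
      rw [hcast] at hcl
      obtain ⟨q', hq', hcl'⟩ := s27pfx_neg pkg halg (-k) q hq hcl.symm
      rw [neg_neg] at hcl'
      exact ⟨q', fun _ => ⟨hq', hcl'⟩⟩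
    · -- `k > 0`
      have hn : 0 < k.toNat := by
        rw [Int.lt_toNat]
        simpa using hpos
      obtain ⟨q, hq, hcl⟩ := hDOM k.toNat hn
      have hcast : ((k.toNat : ℕ) : ℤ) = k := Int.toNat_of_nonneg (by omega)
      rw [hcast] at hcl
      exact ⟨q, fun _ => ⟨hq, hcl.symm⟩⟩
  choose q hq using hex
  refine ⟨fun k => if k = n₀ then q₀ else q k, ?_, by simp⟩
  intro k hk
  by_cases hkn : k = n₀
  · subst hkn
    simp only [if_true]
    exact ⟨hq₀, hcl₀⟩
  · simp only [if_neg hkn]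
    exact hq k hk

/-- **existence of the family** -/
theorem s27pfx_exists (halg : ∀ f : F, IsAlgebraic (IntermediateField.adjoin K {t}) f)
    (hDOM : ∀ n : ℕ, 0 < n → ∃ q : Fin g → F →ₐ[K] L, S27dgGeneric K t q ∧
      (n : ℤ) • s27pfCl pkg (s27pfTaut (K := K) (F := F) (g := g) (L := L)) = s27pfCl pkg q) :
    ∃ q : ℤ → Fin g → F →ₐ[K] L, S27pfFam pkg q := by
  obtain ⟨q₁, hq₁, hcl₁⟩ := hDOM 1 one_pos
  obtain ⟨q, hq, -⟩ := s27pfx_exists_with pkg halg hDOM 1 q₁ hq₁ (by
    rw [← hcl₁]; simp)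
  exact ⟨q, hq⟩

end FamEx

end Fermat.Agent.S27
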