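/-
S27-B — MODEL-TOP, part 1 (captain helper77): **ψ + DEG on the stage**.

Stage: `K`, `F` the curve of S27, `g = genusFF K F`, `Ω = s27gfOm K F g`, `𝔉 = s27gfSym K F g`,
`L ⊇ Ω` an algebraic closure, `FL = Frac (F ⊗[K] L)` in the `(hld, hgen)` form, `x ∈ F` transcendental
with `[F : K(x)] < ∞`, `G₀` a divisor of degree `g` (the ORIGIN).
`pkg := s27dclPkg hld hgen hx G₀ hG₀` (classes `cl R = [Σ R i − Con G₀]`).

* `s27mp_taut_generic` : the tautological points are generic;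
* `s27mp_exists_fam`   : `∃ q, S27pfFam pkg q`  (DOM of helper86 `s27dom_pkgOZ` + PSI-FAM-EX of helper15);
* `s27mp_isDeg`        : for EVERY family `q`: `S27IsDeg K (s27pfPsi pkg halg hq n) #Pic0(F)[n]`, `n ≥ 1`
                         (DEG-CLOSED of helper18);
* `s27mp_comp`         : `ψ 1 = id`, `ψ k ∘ ψ m = ψ (k m)`, hence `comp₁`, `compm`.
-/
import Fermat.Agent.S27.DegClosed
import Fermat.Agent.S27.PsiFamEx
import Fermat.Agent.S27.DomZ

set_option autoImplicit false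
set_option linter.unusedVariables false
set_option linter.unusedSectionVars false
set_option linter.style.haveILetI false

noncomputable section

namespace Fermat.Agent.S27

open AlgebraicCurve Module TensorProduct IntermediateField Fermat.Agent.S26

universe u v y

section Stage

variable {K : Type u} {F : Type v} [Field K] [IsAlgClosed K] [CharZero K] [Field F] [Algebra K F]
  [IsCurveOver K F] [Algebra.EssFiniteType K F]
  {L : Type (max u v)} [Field L] [Algebra K L]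
  [Algebra (s27gfOm K F (genusFF K F)) L] [IsScalarTower K (s27gfOm K F (genusFF K F)) L]
  [IsAlgClosed L] [Algebra.IsAlgebraic (s27gfOm K F (genusFF K F)) L]
  {FL : Type y} [Field FL] [Algebra K FL] [Algebra F FL] [Algebra L FL]
  [IsScalarTower K F FL] [IsScalarTower K L FL]
  (hld : Function.Injective (s26gspMu K F L FL)) (hgen : S26gspGen K F L FL)
  {x : F} (hx : Transcendental K x)
  [FiniteDimensional ↥(IntermediateField.adjoin K {x}) F]
  [Algebra.IsSeparable ↥(IntermediateField.adjoin K {x}) F]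
  (G₀ : Divisor K F) (hG₀ : Divisor.degree G₀ = (genusFF K F : ℤ))

include hx in
/-- the tautological points are generic. -/
theorem s27mp_taut_generic :
    S27dgGeneric K x (s27pfTaut (K := K) (F := F) (g := genusFF K F) (L := L)) := by
  have h := s27dgc_generic (s27dclFld (K := K) (F := F) (L := L) hx) (AlgEquiv.refl : L ≃ₐ[K] L)
  exact h

/-- **the family of generic tuples exists** (`q k` of class `k • cl p`, `k ≠ 0`). -/
theorem s27mp_exists_fam :
    ∃ q : ℤ → Fin (genusFF K F) → F →ₐ[K] L, S27pfFam (s27dclPkg hld hgen hx G₀ hG₀) q := by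
  refine s27pfx_exists (s27dclPkg hld hgen hx G₀ hG₀) (s27dcl_halg (x := x)) ?_
  intro n hn
  have hn0 : (n : ℤ) ≠ 0 := by exact_mod_cast hn.ne'
  obtain ⟨q, hq, hcl⟩ := s27dom_pkgOZ (A := s27dwAct hld hgen) hld hgen hx G₀ hG₀
    (s27dcl_hns hld hgen hx) (s27pfTaut (K := K) (F := F) (g := genusFF K F) (L := L))
    (s27mp_taut_generic hx) (n : ℤ) hn0
  exact ⟨q, hq, hcl⟩

variable [IsGalois (s27gfSym K F (genusFF K F)) L]

/-- **DEG for every family**: `[𝔉 : ψ_n 𝔉] = #Pic0(F)[n]`. -/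
theorem s27mp_isDeg {q : ℤ → Fin (genusFF K F) → F →ₐ[K] L}
    (hq : S27pfFam (s27dclPkg hld hgen hx G₀ hG₀) q) (n : ℕ) (hn : 0 < n) :
    S27IsDeg K (s27pfPsi (s27dclPkg hld hgen hx G₀ hG₀) (s27dcl_halg (x := x)) hq n)
      (Nat.card (Pic0.torsion K F n)) := by
  have hn0 : (n : ℤ) ≠ 0 := by exact_mod_cast hn.ne'
  rw [s27pfPsi_of_ne _ _ hq (n : ℤ) hn0]
  refine (s27dcl_isDeg hld hgen hx G₀ hG₀ n (q n) (hq n hn0).1
    (s27pf_fam_pt _ (s27dcl_halg (x := x)) hq n hn0) ?_).1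
  exact (hq n hn0).2.symm

/-- `ψ 1 = id`, `ψ k ∘ ψ m = ψ (k m)`. -/
theorem s27mp_comp {q : ℤ → Fin (genusFF K F) → F →ₐ[K] L}
    (hq : S27pfFam (s27dclPkg hld hgen hx G₀ hG₀) q) :
    (∀ s, s27pfPsi (s27dclPkg hld hgen hx G₀ hG₀) (s27dcl_halg (x := x)) hq 1 s = s) ∧
    (∀ k m : ℤ, k ≠ 0 → m ≠ 0 → ∀ s,
      s27pfPsi (s27dclPkg hld hgen hx G₀ hG₀) (s27dcl_halg (x := x)) hq k
        (s27pfPsi (s27dclPkg hld hgen hx G₀ hG₀) (s27dcl_halg (x := x)) hq m s) =
      s27pfPsi (s27dclPkg hld hgen hx G₀ hG₀) (s27dcl_halg (x := x)) hq (k * m) s) := by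
  have hX1 : ∀ σ : s27gfSym K F (genusFF K F) →ₐ[K] L, ∃ ê : L ≃ₐ[K] L,
      ∀ s : s27gfSym K F (genusFF K F),
        ê (algebraMap (s27gfOm K F (genusFF K F)) L (s : s27gfOm K F (genusFF K F))) = σ s :=
    fun σ => s27dgx_X1 (s27dclFld (L := L) hx) (s27dcl_halg (x := x)) σ
  refine ⟨fun s => ?_, fun k m hk hm s => ?_⟩
  · rw [s27pfPsi_one]
    rfl
  · exact congrArg (fun c => c s) (s27pfPsi_comp _ (s27dcl_halg (x := x)) hX1 hq k m hk hm)

end Stage

end Fermat.Agent.S27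

end
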