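/-
S27-B — STAGE of the captain (helper77): the concrete constant field extension `F_L = Frac (F ⊗[K] L)`
in HETERO universes (`K : Type u`, `F : Type v`, `L : Type w`; S26/ETiFields.lean is one-universe),
in the literal `(hld, hgen)` form of helper96's setting (S26/ERRGaussPlace.lean):

* `s27stgFL K F L : Type (max v w)` with `Field`, `Algebra K`, `Algebra F`, `Algebra L`,
  `Algebra (F ⊗[K] L)`, `IsFractionRing (F ⊗[K] L)`, the scalar towers;
* `s27stg_hld  : Function.Injective (s26gspMu K F L (s27stgFL K F L))`;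
* `s27stg_hgen : S26gspGen K F L (s27stgFL K F L)`.
-/
import Fermat.Agent.S26.ETensDom
import Fermat.Agent.S26.ERRGaussPlace

set_option autoImplicit false
set_option linter.unusedVariables false
set_option linter.unusedSectionVars false
set_option linter.style.haveILetI false

noncomputable section

namespace Fermat.Agent.S27

open TensorProduct Fermat.Agent.S26

universe u v w

section Model

variable (K : Type u) (F : Type v) (L : Type w) [Field K] [Field F] [Field L] [Algebra K F]
  [Algebra K L]

/-- the function field of the constant extension: `F_L = Frac (F ⊗[K] L)` -/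
def s27stgFL : Type (max v w) := FractionRing (F ⊗[K] L)

variable [IsAlgClosed K]

theorem s27stg_isDomain : IsDomain (F ⊗[K] L) := s26etd_isDomain K F L

instance s27stgField : Field (s27stgFL K F L) :=
  haveI := s27stg_isDomain K F L
  inferInstanceAs (Field (FractionRing (F ⊗[K] L)))

instance s27stgAlgebraT : Algebra (F ⊗[K] L) (s27stgFL K F L) :=
  haveI := s27stg_isDomain K F L
  inferInstanceAs (Algebra (F ⊗[K] L) (FractionRing (F ⊗[K] L)))

instance s27stgIsFractionRing : IsFractionRing (F ⊗[K] L) (s27stgFL K F L) :=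
  haveI := s27stg_isDomain K F L
  inferInstanceAs (IsFractionRing (F ⊗[K] L) (FractionRing (F ⊗[K] L)))

instance s27stgAlgebraK : Algebra K (s27stgFL K F L) :=
  ((algebraMap (F ⊗[K] L) (s27stgFL K F L)).comp (algebraMap K (F ⊗[K] L))).toAlgebra

instance s27stgAlgebraF : Algebra F (s27stgFL K F L) :=
  ((algebraMap (F ⊗[K] L) (s27stgFL K F L)).comp
    (Algebra.TensorProduct.includeLeft : F →ₐ[K] F ⊗[K] L).toRingHom).toAlgebra

instance s27stgAlgebraL : Algebra L (s27stgFL K F L) :=
  ((algebraMap (F ⊗[K] L) (s27stgFL K F L)).comp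
    (Algebra.TensorProduct.includeRight : L →ₐ[K] F ⊗[K] L).toRingHom).toAlgebra

variable {K F L}

theorem s27stg_algebraMapK (k : K) :
    algebraMap K (s27stgFL K F L) k =
      algebraMap (F ⊗[K] L) (s27stgFL K F L) (algebraMap K (F ⊗[K] L) k) := rfl

theorem s27stg_algebraMapF (γ : F) :
    algebraMap F (s27stgFL K F L) γ =
      algebraMap (F ⊗[K] L) (s27stgFL K F L) (γ ⊗ₜ[K] (1 : L)) := rfl

theorem s27stg_algebraMapL (c : L) :
    algebraMap L (s27stgFL K F L) c =
      algebraMap (F ⊗[K] L) (s27stgFL K F L) ((1 : F) ⊗ₜ[K] c) := rfl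

variable (K F L)

instance s27stgTowerT : IsScalarTower K (F ⊗[K] L) (s27stgFL K F L) :=
  IsScalarTower.of_algebraMap_eq fun _ => rfl

instance s27stgTowerF : IsScalarTower K F (s27stgFL K F L) :=
  IsScalarTower.of_algebraMap_eq fun k => by
    rw [s27stg_algebraMapK, s27stg_algebraMapF, Algebra.TensorProduct.algebraMap_apply]

theorem s27stg_algebraMap_base (k : K) :
    algebraMap K (F ⊗[K] L) k = (1 : F) ⊗ₜ[K] algebraMap K L k := by
  rw [Algebra.TensorProduct.algebraMap_apply, Algebra.algebraMap_eq_smul_one (A := F),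
    Algebra.algebraMap_eq_smul_one (A := L), TensorProduct.smul_tmul]

instance s27stgTowerL : IsScalarTower K L (s27stgFL K F L) :=
  IsScalarTower.of_algebraMap_eq fun k => by
    rw [s27stg_algebraMapK, s27stg_algebraMapL, s27stg_algebraMap_base]

variable {K F L}

theorem s27stg_algebraMap_tmul (γ : F) (c : L) :
    algebraMap (F ⊗[K] L) (s27stgFL K F L) (γ ⊗ₜ[K] c) =
      algebraMap F (s27stgFL K F L) γ * algebraMap L (s27stgFL K F L) c := by
  rw [s27stg_algebraMapF, s27stg_algebraMapL, ← map_mul,
    Algebra.TensorProduct.tmul_mul_tmul, mul_one, one_mul]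

/-- **(hcomp)**: the structure map of `F_L` is the multiplication map `μ`. -/
theorem s27stg_algebraMap_eq (x : F ⊗[K] L) :
    algebraMap (F ⊗[K] L) (s27stgFL K F L) x = s26gspMu K F L (s27stgFL K F L) x := by
  induction x using TensorProduct.induction_on with
  | zero => rw [map_zero, map_zero]
  | tmul γ c => rw [s27stg_algebraMap_tmul, s26gspMu_tmul]
  | add x y hx hy => rw [map_add, map_add, hx, hy]

variable (K F L)

/-- **(hld)**: `μ : F ⊗[K] L → F_L` is injective. -/
theorem s27stg_hld : Function.Injective (s26gspMu K F L (s27stgFL K F L)) := by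
  intro x y hxy
  apply IsFractionRing.injective (F ⊗[K] L) (s27stgFL K F L)
  rw [s27stg_algebraMap_eq, s27stg_algebraMap_eq, hxy]

/-- **(hgen)**: `F_L` is generated by `F ⊗[K] L`. -/
theorem s27stg_hgen : S26gspGen K F L (s27stgFL K F L) := by
  intro ω
  obtain ⟨x, y, hy, rfl⟩ := IsFractionRing.div_surjective (F ⊗[K] L) ω
  have hy0 : algebraMap (F ⊗[K] L) (s27stgFL K F L) y ≠ 0 :=
    IsFractionRing.to_map_ne_zero_of_mem_nonZeroDivisors hy
  refine ⟨x, y, ?_, ?_⟩
  · rw [← s27stg_algebraMap_eq]
    exact hy0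
  · rw [← s27stg_algebraMap_eq, ← s27stg_algebraMap_eq, div_mul_cancel₀ _ hy0]

end Model

end Fermat.Agent.S27

end
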