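/-
S27-B — MODEL-TOP (captain helper77): the stage is INSTANTIATED
(`L = AlgebraicClosure Ω_g`, `FL = s27stgFL K F L = Frac (F ⊗[K] L)`), ψ and DEG are DONE (ModelPsi.lean);
what is left is ONE statement about CRUX + GROW:

  `s27mt_Stmt` : for every curve `F / K` of genus `g ≥ 1` there are `x`, `G₀` such that for EVERY family
                 `q` (`S27pfFam pkg q`) and every `n ≥ 1`, with `ψ := s27pfPsi pkg halg hq`, there are
                 `β`, `e`, `Φ` with: `β_ne`, `β_mem`, `0 < e k`, `Φ k ≠ 0`, the cube for `0 < |k| < n`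
                 (exponents `e k`), and `S27IsGrow K (B 1 · B (−1)) g`.
  `s27mt_main : s27mt_Stmt → s27_Stmt`   (the frozen S27).
-/
import Fermat.Agent.S27.ModelPsi
import Fermat.Agent.S27.Stage
import Fermat.Agent.S27.GeoTop2

set_option autoImplicit false
set_option linter.unusedVariables false
set_option linter.unusedSectionVars false
set_option linter.style.haveILetI false

noncomputable section

namespace Fermat.Agent.S27

open AlgebraicCurve Module TensorProduct IntermediateField Fermat.Agent.S26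

universe u v

section Inst

variable (K : Type u) (F : Type v) [Field K] [IsAlgClosed K] [Field F] [Algebra K F]

/-- the algebraic closure of `Ω_g = K(C^g)`, `g = genusFF K F`. -/
abbrev s27mtL : Type (max u v) := AlgebraicClosure (s27gfOm K F (genusFF K F))

/-- `F_L = Frac (F ⊗[K] L)`. -/
abbrev s27mtFL : Type (max u v) := s27stgFL K F (s27mtL K F)

/-- the Galois instance of the stage (characteristic `0`). -/
instance s27mt_isGalois [CharZero K] (g : ℕ) :
    IsGalois (s27gfSym K F g) (AlgebraicClosure (s27gfOm K F g)) :=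
  s27psi_isGalois_model

end Inst

/-- **THE remaining statement (CRUX + GROW)**, on the instantiated stage, for EVERY family `q`. -/
def s27mt_Stmt : Prop :=
  ∀ (K : Type u) (F : Type v) [Field K] [Field F] [Algebra K F] [IsAlgClosed K] [CharZero K]
    [IsCurveOver K F] [Algebra.EssFiniteType K F], 0 < genusFF K F →
    ∃ (x : F) (hx : Transcendental K x) (_ : FiniteDimensional ↥(IntermediateField.adjoin K {x}) F)
      (_ : Algebra.IsSeparable ↥(IntermediateField.adjoin K {x}) F)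
      (G₀ : Divisor K F) (hG₀ : Divisor.degree G₀ = (genusFF K F : ℤ)),
    ∀ (q : ℤ → Fin (genusFF K F) → F →ₐ[K] s27mtL K F)
      (hq : S27pfFam (s27dclPkg (FL := s27mtFL K F) (s27stg_hld K F (s27mtL K F))
        (s27stg_hgen K F (s27mtL K F)) hx G₀ hG₀) q) (n : ℕ), 0 < n →
    ∃ (β : ValuationSubring (s27gfSym K F (genusFF K F)) → s27gfSym K F (genusFF K F))
      (e : ℤ → ℕ) (Φ : ℤ → s27gfSym K F (genusFF K F)),
      (∀ V, S27IsKValU K V → β V ≠ 0) ∧ (∀ V, S27IsKValU K V → β V ∈ V) ∧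
      (∀ k : ℤ, k ∈ s27indbRange n → 0 < e k) ∧
      (∀ k : ℤ, k ∈ s27indbRange n → Φ k ≠ 0) ∧
      (∀ k : ℤ, k ∈ s27indbRange n → ∀ V, S27IsKValU K V → ∃ u, S27IsUnitIn V u ∧
        (s27indB (s27pfPsi _ (s27dcl_halg (x := x)) hq) β (k + 1) V *
            s27indB (s27pfPsi _ (s27dcl_halg (x := x)) hq) β (k - 1) V) ^ e k =
          u * Φ k * (s27indB (s27pfPsi _ (s27dcl_halg (x := x)) hq) β k V ^ 2 *
            s27indB (s27pfPsi _ (s27dcl_halg (x := x)) hq) β 1 V *
            s27indB (s27pfPsi _ (s27dcl_halg (x := x)) hq) β (-1) V) ^ e k) ∧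
      S27IsGrow K (fun V => s27indB (s27pfPsi _ (s27dcl_halg (x := x)) hq) β 1 V *
        s27indB (s27pfPsi _ (s27dcl_halg (x := x)) hq) β (-1) V) (genusFF K F)

theorem s27mt_geo2 (h : s27mt_Stmt.{u, v}) : s27geo2_Stmt.{u, v} := by
  intro K F _ _ _ _ _ _ _ n hn hg
  obtain ⟨x, hx, hfin, hsep, G₀, hG₀, hrest⟩ := h K F hg
  obtain ⟨q, hq⟩ := s27mp_exists_fam (FL := s27mtFL K F) (s27stg_hld K F (s27mtL K F))
    (s27stg_hgen K F (s27mtL K F)) hx G₀ hG₀
  obtain ⟨β, e, Φ, bne, bmem, he, hΦ, hcube, hG⟩ := hrest q hq n hn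
  have hcomp := s27mp_comp (FL := s27mtFL K F) (s27stg_hld K F (s27mtL K F))
    (s27stg_hgen K F (s27mtL K F)) hx G₀ hG₀ hq
  have hn0 : (n : ℤ) ≠ 0 := by exact_mod_cast hn.ne'
  refine ⟨s27pfPsi _ (s27dcl_halg (x := x)) hq, β, e, Φ, ?_, ?_, bne, bmem, he, hΦ, hcube, hG,
    s27mp_isDeg (FL := s27mtFL K F) (s27stg_hld K F (s27mtL K F))
      (s27stg_hgen K F (s27mtL K F)) hx G₀ hG₀ hq n hn⟩
  · intro s
    rw [hcomp.1]
  · intro s
    rw [hcomp.2 n (-1) hn0 (by norm_num) s]
    congr 2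
    ring

/-- **MODEL-TOP**: CRUX + GROW on the stage ⇒ the frozen S27. -/
theorem s27mt_main (h : s27mt_Stmt.{u, v}) : s27_Stmt.{u, v} :=
  s27geo2_main (s27mt_geo2 h)

end Fermat.Agent.S27

end
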