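/-
S27-B — FINAL-SHAPE (captain helper77): the γ-GENERIC form of the last statement (CRUX + GROW).

`s27mt_Stmt` (ModelTop.lean) is typed over `genusFF K F`, while the abstract CRUX / GROW theorems are
typed over a VARIABLE genus (`g + 1`).  The cast is done HERE, once:

  `s27fs_Stmt` : ∃ x G₀, ∀ (γ : ℕ) (hγ : genusFF K F = γ) (0 < γ), for EVERY package
                 `pkg : S27DegPkg K F L x γ (Place L FL) (Pic0 L FL)` on the stage
                 `L = AlgebraicClosure (s27gfOm K F γ)`, `FL = s27stgFL K F L` with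
                 `pkg.pt e = s27gpPlace hld hgen e hx` and `pkg.cl R = [Σ R i − Con G₀]`,
                 every family `q` (`S27pfFam pkg q`) and every `n ≥ 1`: ∃ β e Φ, (β_ne, β_mem, cube,
                 GROW) for `ψ := s27pfPsi pkg halg hq`.
  `s27fs_main : s27fs_Stmt → s27mt_Stmt`      (γ := genusFF K F, pkg := s27dclPkg, all `rfl`)
  `s27fs_result : s27fs_Stmt → s27_Stmt`      (the frozen S27).

In a proof of `s27fs_Stmt`, `γ` is a VARIABLE: `obtain ⟨g, rfl⟩ : ∃ g, γ = g + 1` is available, and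
every theorem stated over `s27gfSym K F (g + 1)` with `ψ`, `β`, `q`, `pkg` as ARGUMENTS applies.
-/
import Fermat.Agent.S27.ModelTop

set_option autoImplicit false
set_option linter.unusedVariables false
set_option linter.unusedSectionVars false
set_option linter.style.haveILetI false

noncomputable section

namespace Fermat.Agent.S27

open AlgebraicCurve Module TensorProduct IntermediateField Fermat.Agent.S26

universe u v

/-- the stage at genus `γ`: `L = AlgebraicClosure (K(C^γ))`. -/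
abbrev s27fsL (K : Type u) (F : Type v) [Field K] [IsAlgClosed K] [Field F] [Algebra K F]
    (γ : ℕ) : Type (max u v) := AlgebraicClosure (s27gfOm K F γ)

/-- the stage at genus `γ`: `F_L = Frac (F ⊗[K] L)`. -/
abbrev s27fsFL (K : Type u) (F : Type v) [Field K] [IsAlgClosed K] [Field F] [Algebra K F]
    (γ : ℕ) : Type (max u v) := s27stgFL K F (s27fsL K F γ)

/-- **THE last statement (CRUX + GROW), γ-generic.** -/
def s27fs_Stmt : Prop :=
  ∀ (K : Type u) (F : Type v) [Field K] [Field F] [Algebra K F] [IsAlgClosed K] [CharZero K]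
    [IsCurveOver K F] [Algebra.EssFiniteType K F],
    ∃ (x : F) (hx : Transcendental K x) (_ : FiniteDimensional ↥(IntermediateField.adjoin K {x}) F)
      (_ : Algebra.IsSeparable ↥(IntermediateField.adjoin K {x}) F)
      (G₀ : Divisor K F) (hG₀ : Divisor.degree G₀ = (genusFF K F : ℤ)),
    ∀ (γ : ℕ) (hγ : genusFF K F = γ), 0 < γ →
    ∀ (hO : Divisor.degree (Finsupp.mapDomain
          (s26gspCon (s27stg_hld K F (s27fsL K F γ)) (s27stg_hgen K F (s27fsL K F γ))
            (s26gspf_hall hx)) G₀) = (γ : ℤ))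
      (pkg : S27DegPkg K F (s27fsL K F γ) x γ (Place (s27fsL K F γ) (s27fsFL K F γ))
        (Pic0 (s27fsL K F γ) (s27fsFL K F γ)))
      (hpt : ∀ e : F →ₐ[K] s27fsL K F γ, pkg.pt e =
        s27gpPlace (s27stg_hld K F (s27fsL K F γ)) (s27stg_hgen K F (s27fsL K F γ)) e hx)
      (hcl : ∀ R : Fin γ → Place (s27fsL K F γ) (s27fsFL K F γ), pkg.cl R =
        s27pkgClO (s27pkg_hdeg (s27stg_hld K F (s27fsL K F γ)) (s27stg_hgen K F (s27fsL K F γ)) hx)
          (Finsupp.mapDomain
            (s26gspCon (s27stg_hld K F (s27fsL K F γ)) (s27stg_hgen K F (s27fsL K F γ))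
              (s26gspf_hall hx)) G₀) hO R)
      (q : ℤ → Fin γ → F →ₐ[K] s27fsL K F γ) (hq : S27pfFam pkg q) (n : ℕ), 0 < n →
    ∃ (β : ValuationSubring (s27gfSym K F γ) → s27gfSym K F γ)
      (e : ℤ → ℕ) (Φ : ℤ → s27gfSym K F γ),
      (∀ V, S27IsKValU K V → β V ≠ 0) ∧ (∀ V, S27IsKValU K V → β V ∈ V) ∧
      (∀ k : ℤ, k ∈ s27indbRange n → 0 < e k) ∧
      (∀ k : ℤ, k ∈ s27indbRange n → Φ k ≠ 0) ∧
      (∀ k : ℤ, k ∈ s27indbRange n → ∀ V, S27IsKValU K V → ∃ u, S27IsUnitIn V u ∧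
        (s27indB (s27pfPsi pkg (s27dcl_halg (x := x)) hq) β (k + 1) V *
            s27indB (s27pfPsi pkg (s27dcl_halg (x := x)) hq) β (k - 1) V) ^ e k =
          u * Φ k * (s27indB (s27pfPsi pkg (s27dcl_halg (x := x)) hq) β k V ^ 2 *
            s27indB (s27pfPsi pkg (s27dcl_halg (x := x)) hq) β 1 V *
            s27indB (s27pfPsi pkg (s27dcl_halg (x := x)) hq) β (-1) V) ^ e k) ∧
      S27IsGrow K (fun V => s27indB (s27pfPsi pkg (s27dcl_halg (x := x)) hq) β 1 V *
        s27indB (s27pfPsi pkg (s27dcl_halg (x := x)) hq) β (-1) V) γ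

/-- the cast: `γ := genusFF K F`, `pkg := s27dclPkg`. -/
theorem s27fs_main (h : s27fs_Stmt.{u, v}) : s27mt_Stmt.{u, v} := by
  intro K F _ _ _ _ _ _ _ hg
  obtain ⟨x, hx, hfin, hsep, G₀, hG₀, hrest⟩ := h K F
  refine ⟨x, hx, hfin, hsep, G₀, hG₀, fun q hq n hn => ?_⟩
  exact hrest (genusFF K F) rfl hg
    (s27pkgO_degree (s27stg_hld K F (s27mtL K F)) (s27stg_hgen K F (s27mtL K F)) hx G₀ hG₀)
    (s27dclPkg (FL := s27mtFL K F) (s27stg_hld K F (s27mtL K F))
      (s27stg_hgen K F (s27mtL K F)) hx G₀ hG₀)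
    (fun e => rfl) (fun R => rfl) q hq n hn

/-- **FINAL-SHAPE ⇒ the frozen S27.** -/
theorem s27fs_result (h : s27fs_Stmt.{u, v}) : s27_Stmt.{u, v} :=
  s27mt_main (s27fs_main h)

end Fermat.Agent.S27

end
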