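/-
S27-B, piece **GROW-MODEL** (helper36): the GROWTH certificate of the geometric top
(`s27geo_Stmt`, S27/GeoTop.lean) on the model `𝔉 = s27gfSym K F g`, reduced to three inputs.

`b₀ V = s27indb ψ β c V = (B 1 V · B (−1) V)^c` (S27/Ind.lean).  With `t ∈ F` transcendental,
`F` algebraic over `K[t]`, and `u_j = e_{j+1}(ι_1 t, …, ι_g t)` (S27/GenTB.lean):

* `s27gm_esymm_mul_prod_mem` : in ANY valuation subring `W` of a field, if `p i ∈ W` and
  `x i * p i ∈ W` for all `i`, then `e_n(x) · ∏ p i ∈ W` (`e_n` is multi-affine);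
* `s27gm_pole` : (POLE) if, over `V`, there is a valuation subring `W` of `Ω_g` with `W ∩ 𝔉 ⊆ V`
  and `bb = w · ∏ p i` in `W`, `ι_i t · p i ∈ W`, then `u_j · bb ∈ V`;
* `s27gm_mem_L` : (ALG) `u_j ∈ L(c₀)` from (POLE-DIV) for every `V`;
* **`s27gm_isGrow`** : `S27IsGrow K (s27indb ψ β c) g` from `β_mem`, (POLE-DIV), (FIN), (UP).

(POLE-DIV) is the ONLY geometric input of (ALG): "the local equation `b₀(V)^{c₀}` is divisible, in
some `W` over `V`, by the polar part `∏ p_i` of `∏ ι_i t`" (`p_i = ι_i(s)^N` if `ι_i ↦ O″`, else `1`).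
-/
import Fermat.Agent.S27.GeoTop
import Fermat.Agent.S27.GenTB
import Fermat.Agent.S27.G1AbsU

set_option autoImplicit false
set_option linter.unusedVariables false
set_option linter.unusedSectionVars false
set_option linter.style.haveILetI false

noncomputable section

namespace Fermat.Agent.S27

open MvPolynomial

universe u v

/-- `e_n` is multi-affine: in a valuation subring `W`, `p i ∈ W` and `x i * p i ∈ W` for all `i`
imply `e_n(x) · ∏ p i ∈ W`. -/
theorem s27gm_esymm_mul_prod_mem {K : Type u} [Field K] {Ω : Type v} [Field Ω] [Algebra K Ω]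
    {σ : Type*} [Fintype σ] [DecidableEq σ] (W : ValuationSubring Ω) (x p : σ → Ω)
    (hp : ∀ i, p i ∈ W) (hxp : ∀ i, x i * p i ∈ W) (n : ℕ) :
    aeval x (esymm σ K n) * ∏ i, p i ∈ W := by
  have h1 : aeval x (esymm σ K n) = ∑ s ∈ Finset.powersetCard n Finset.univ, ∏ i ∈ s, x i := by
    simp [esymm, map_sum, map_prod]
  rw [h1, Finset.sum_mul]
  refine W.toSubring.sum_mem fun s _ => ?_
  have h2 : ∏ i, p i = (∏ i ∈ s, p i) * ∏ i ∈ sᶜ, p i := (Finset.prod_mul_prod_compl s p).symm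
  have h3 : (∏ i ∈ s, x i) * ∏ i, p i = (∏ i ∈ s, x i * p i) * ∏ i ∈ sᶜ, p i := by
    rw [h2, Finset.prod_mul_distrib, mul_assoc]
  rw [h3]
  exact W.mul_mem _ _ (W.toSubring.prod_mem fun i _ => hxp i) (W.toSubring.prod_mem fun i _ => hp i)

section Model

variable {K : Type u} {F : Type v} [Field K] [IsAlgClosed K] [Field F] [Algebra K F] {g : ℕ}

/-- **(POLE)**: `u_j · bb ∈ V` as soon as, in some valuation subring `W` of `Ω_g` with
`W ∩ 𝔉 ⊆ V`, `bb` is divisible by `∏ p i`, where `p i ∈ W` kills the pole of `ι_i t`. -/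
theorem s27gm_pole (t : F) (V : ValuationSubring (s27gfSym K F g))
    (W : ValuationSubring (s27gfOm K F g))
    (hWV : ∀ x : s27gfSym K F g, (x : s27gfOm K F g) ∈ W → x ∈ V)
    (p : Fin g → s27gfOm K F g) (hp : ∀ i, p i ∈ W)
    (hxp : ∀ i, s27gfIota (K := K) i t * p i ∈ W)
    (bb : s27gfSym K F g) (w : s27gfOm K F g) (hw : w ∈ W)
    (hbb : (bb : s27gfOm K F g) = w * ∏ i, p i) (j : Fin g) :
    s27tbUSym (K := K) t j * bb ∈ V := by
  apply hWV
  have h1 : ((s27tbUSym (K := K) t j * bb : s27gfSym K F g) : s27gfOm K F g) =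
      (aeval (s27tbX (K := K) (g := g) t) (esymm (Fin g) K (j + 1)) * ∏ i, p i) * w := by
    rw [MulMemClass.coe_mul, hbb, s27tbUSym_coe]
    unfold s27tbU
    ring
  rw [h1]
  exact W.mul_mem _ _ (s27gm_esymm_mul_prod_mem W _ p hp hxp _) hw

/-- **(ALG)**: `u_j ∈ L(c₀)` from (POLE-DIV) at every `V ⊇ K`. -/
theorem s27gm_mem_L (b : ValuationSubring (s27gfSym K F g) → s27gfSym K F g) (t : F) (c₀ : ℕ)
    (hdiv : ∀ V : ValuationSubring (s27gfSym K F g), S27IsKValU K V →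
      ∃ (W : ValuationSubring (s27gfOm K F g)) (p : Fin g → s27gfOm K F g) (w : s27gfOm K F g),
        (∀ x : s27gfSym K F g, (x : s27gfOm K F g) ∈ W → x ∈ V) ∧ (∀ i, p i ∈ W) ∧
        (∀ i, s27gfIota (K := K) i t * p i ∈ W) ∧ w ∈ W ∧
        ((b V ^ c₀ : s27gfSym K F g) : s27gfOm K F g) = w * ∏ i, p i)
    (j : Fin g) : s27tbUSym (K := K) t j ∈ s27LU K b c₀ := by
  intro V hV
  obtain ⟨W, p, w, hWV, hp, hxp, hw, hbb⟩ := hdiv V hV
  exact s27gm_pole t V W hWV p hp hxp (b V ^ c₀) w hw hbb j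

/-- **GROWTH certificate on the model** from `β_mem`, (POLE-DIV), (FIN), (UP). -/
theorem s27gm_isGrow (ψ : ℤ → (s27gfSym K F g →ₐ[K] s27gfSym K F g))
    (β : ValuationSubring (s27gfSym K F g) → s27gfSym K F g) (c : ℕ)
    (β_mem : ∀ V, S27IsKValU K V → β V ∈ V)
    (t : F) (ht : Transcendental K t)
    (halg : Algebra.IsAlgebraic (Algebra.adjoin K ({t} : Set F)) F) (c₀ : ℕ)
    (hdiv : ∀ V : ValuationSubring (s27gfSym K F g), S27IsKValU K V →
      ∃ (W : ValuationSubring (s27gfOm K F g)) (p : Fin g → s27gfOm K F g) (w : s27gfOm K F g),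
        (∀ x : s27gfSym K F g, (x : s27gfOm K F g) ∈ W → x ∈ V) ∧ (∀ i, p i ∈ W) ∧
        (∀ i, s27gfIota (K := K) i t * p i ∈ W) ∧ w ∈ W ∧
        ((s27indb ψ β c V ^ c₀ : s27gfSym K F g) : s27gfOm K F g) = w * ∏ i, p i)
    (hfin : ∀ m, Module.Finite K (s27LU K (s27indb ψ β c) m))
    (hup : ∃ c₂ : ℕ, ∀ m, 1 ≤ m →
      Module.finrank K (s27LU K (s27indb ψ β c) m) ≤ c₂ * m ^ g) :
    S27IsGrow K (s27indb ψ β c) g :=
  s27g1u_isGrow (s27indb ψ β c)
    (fun V hV => V.pow_mem (V.mul_mem _ _ (s27indB_mem ψ β β_mem 1 hV)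
      (s27indB_mem ψ β β_mem (-1) hV)) c)
    (s27tbUSym (K := K) (g := g) t) (s27tbUSym_isTranscendenceBasis t ht halg) c₀
    (s27gm_mem_L (s27indb ψ β c) t c₀ hdiv) hfin hup

end Model

end Fermat.Agent.S27

end
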