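/-
S27-B — formal leaf UP-SYM (formal hub helper11): the upper half of the GROWTH certificate for the
SYMMETRIC divisor `b₁ = B 1 · B (−1)` follows FORMALLY from the upper half for `β` ALONE.

Setting (hetero-universe, `s27LU` of S27/Lift.lean): `ψ : 𝔉 →ₐ[K] 𝔉` (`= ψ 2 = [2]^*`),
`β, b₁ : ValuationSubring 𝔉 → 𝔉`, `B_ψ V := ψ (β (V ∘ ψ))` (`s27upsB`).  Inputs:

  (U1) `L_β(m)` finite-dimensional of dimension `≤ c₂ m^g`;
  (U2) `(B_ψ V)^e = w · Φ · (b₁ V)^e` with `w ∈ V`  (from `cube_1` and `B 1 V ∈ V`);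
  (U3) `gen` for `b₁`  (`Frac (⋃ L_{b₁}) = 𝔉`);
  (U4) `𝔉 / ψ 𝔉` finite, characteristic `0`.

Output `s27ups_main`: `L_{b₁}(m)` is finite-dimensional of dimension `≤ c₃ m^g`.

Proof: `x ↦ x Φ^{-m}` maps `L_{b₁}(m)` into `L_{B_ψ}(e m)` (U2); a finite set `S ⊆ L_{B_ψ}(c₀)`
spans `𝔉` over `ψ 𝔉` (U3, U2, U4); `y ↦ (ψ⁻¹ Tr_{𝔉/ψ𝔉}(y w))_{w ∈ S}` is an injective `K`-linear
map `L_{B_ψ}(M) → L_β(M + c₀)^S` (traces and valuation rings: `s27tv_trace_mem`; the trace form is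
non-degenerate).  So no bound of the factor `B (−1)` at the places of `C^g` is needed.
-/
import Fermat.Agent.S27.Top
import Fermat.Agent.S27.TraceVal

set_option autoImplicit false
set_option linter.style.haveILetI false

noncomputable section

namespace Fermat.Agent.S27

open Polynomial

universe u w

section UpSym

variable {K : Type u} [Field K] {𝔉 : Type w} [Field 𝔉] [Algebra K 𝔉]

/-- `B_ψ V = ψ (β (V ∘ ψ))`: the pull-back of the local equations `β` along `ψ`. -/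
def s27upsB (ψ : 𝔉 →ₐ[K] 𝔉) (β : ValuationSubring 𝔉 → 𝔉) (V : ValuationSubring 𝔉) : 𝔉 :=
  ψ (β (V.comap ((ψ : 𝔉 →ₐ[K] 𝔉) : 𝔉 →+* 𝔉)))

theorem s27ups_isKVal_comap (ψ : 𝔉 →ₐ[K] 𝔉) {V : ValuationSubring 𝔉} (hV : S27IsKValU K V) :
    S27IsKValU K (V.comap (ψ : 𝔉 →+* 𝔉)) := by
  intro a
  rw [ValuationSubring.mem_comap]
  have : (ψ : 𝔉 →+* 𝔉) (algebraMap K 𝔉 a) = algebraMap K 𝔉 a := ψ.commutes a
  rw [this]
  exact hV a

theorem s27upsB_mem (ψ : 𝔉 →ₐ[K] 𝔉) (β : ValuationSubring 𝔉 → 𝔉)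
    (hβ : ∀ V, S27IsKValU K V → β V ∈ V) {V : ValuationSubring 𝔉} (hV : S27IsKValU K V) :
    s27upsB ψ β V ∈ V := by
  have := hβ _ (s27ups_isKVal_comap ψ hV)
  rwa [ValuationSubring.mem_comap] at this

theorem s27ups_LU_mono (b : ValuationSubring 𝔉 → 𝔉) (hb : ∀ V, S27IsKValU K V → b V ∈ V)
    {m m' : ℕ} (h : m ≤ m') : s27LU K b m ≤ s27LU K b m' := by
  intro x hx V hV
  obtain ⟨r, rfl⟩ := Nat.exists_eq_add_of_le h
  have := V.mul_mem _ _ (hx V hV) (V.pow_mem (hb V hV) r)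
  rwa [mul_assoc, ← pow_add] at this

theorem s27ups_LU_mul (b : ValuationSubring 𝔉 → 𝔉) {m m' : ℕ} {x y : 𝔉}
    (hx : x ∈ s27LU K b m) (hy : y ∈ s27LU K b m') : x * y ∈ s27LU K b (m + m') := by
  intro V hV
  have := V.mul_mem _ _ (hx V hV) (hy V hV)
  have e : x * y * b V ^ (m + m') = x * b V ^ m * (y * b V ^ m') := by
    rw [pow_add]; ring
  rwa [e]

theorem s27ups_LU_pow (b : ValuationSubring 𝔉 → 𝔉) {m : ℕ} {x : 𝔉}
    (hx : x ∈ s27LU K b m) (i : ℕ) : x ^ i ∈ s27LU K b (m * i) := by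
  intro V hV
  have := V.pow_mem (hx V hV) i
  rwa [mul_pow, ← pow_mul] at this

/-! ### Step A: the shift `x ↦ x Φ^{-m}` -/

/-- (U2) ⇒ `x ∈ L_{b₁}(m) → x Φ^{-m} ∈ L_{B_ψ}(e m)`. -/
theorem s27ups_shift (ψ : 𝔉 →ₐ[K] 𝔉) (β b₁ : ValuationSubring 𝔉 → 𝔉)
    (hb₁ : ∀ V, S27IsKValU K V → b₁ V ∈ V) (Φ : 𝔉) (hΦ : Φ ≠ 0) (e : ℕ) (he : 0 < e)
    (hcube : ∀ V, S27IsKValU K V → ∃ w ∈ V, s27upsB ψ β V ^ e = w * Φ * b₁ V ^ e)
    (m : ℕ) {x : 𝔉} (hx : x ∈ s27LU K b₁ m) : x * Φ⁻¹ ^ m ∈ s27LU K (s27upsB ψ β) (e * m) := by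
  intro V hV
  obtain ⟨w, hw, h⟩ := hcube V hV
  obtain ⟨r, rfl⟩ : ∃ r, e = r + 1 := ⟨e - 1, by omega⟩
  have e1 : x * Φ⁻¹ ^ m * s27upsB ψ β V ^ ((r + 1) * m) =
      x * b₁ V ^ m * (w ^ m * b₁ V ^ (r * m)) := by
    rw [pow_mul, h, mul_pow, mul_pow, inv_pow]
    have hΦm : Φ ^ m ≠ 0 := pow_ne_zero _ hΦ
    field_simp
    ring
  rw [e1]
  exact V.mul_mem _ _ (hx V hV) (V.mul_mem _ _ (V.pow_mem hw m) (V.pow_mem (hb₁ V hV) _))

/-! ### Steps B, C, D: a finite subset of `L_{B_ψ}(c₀)` spanning `𝔉` over `ψ 𝔉` -/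

/-- `Φ⁻¹ ∈ L_{B_ψ}(e)`. -/
theorem s27ups_inv_mem (ψ : 𝔉 →ₐ[K] 𝔉) (β b₁ : ValuationSubring 𝔉 → 𝔉)
    (hb₁ : ∀ V, S27IsKValU K V → b₁ V ∈ V) (Φ : 𝔉) (hΦ : Φ ≠ 0) (e : ℕ)
    (hcube : ∀ V, S27IsKValU K V → ∃ w ∈ V, s27upsB ψ β V ^ e = w * Φ * b₁ V ^ e) :
    Φ⁻¹ ∈ s27LU K (s27upsB ψ β) e := by
  intro V hV
  obtain ⟨w, hw, h⟩ := hcube V hV
  have e1 : Φ⁻¹ * s27upsB ψ β V ^ e = w * b₁ V ^ e := by
    rw [h]; field_simp
  rw [e1]
  exact V.mul_mem _ _ hw (V.pow_mem (hb₁ V hV) e)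

/-- generation for `B_ψ` from generation for `b₁`. -/
theorem s27ups_gen (ψ : 𝔉 →ₐ[K] 𝔉) (β b₁ : ValuationSubring 𝔉 → 𝔉)
    (hb₁ : ∀ V, S27IsKValU K V → b₁ V ∈ V) (Φ : 𝔉) (hΦ : Φ ≠ 0) (e : ℕ) (he : 0 < e)
    (hcube : ∀ V, S27IsKValU K V → ∃ w ∈ V, s27upsB ψ β V ^ e = w * Φ * b₁ V ^ e)
    (hgen : ∀ x : 𝔉, ∃ c, ∃ a ∈ s27LU K b₁ c, ∃ d ∈ s27LU K b₁ c, d ≠ 0 ∧ x * d = a) (x : 𝔉) :
    ∃ c, ∃ a ∈ s27LU K (s27upsB ψ β) c, ∃ d ∈ s27LU K (s27upsB ψ β) c, d ≠ 0 ∧ x * d = a := by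
  obtain ⟨c, a, ha, d, hd, hd0, hxd⟩ := hgen x
  refine ⟨e * c, a * Φ⁻¹ ^ c, s27ups_shift ψ β b₁ hb₁ Φ hΦ e he hcube c ha,
    d * Φ⁻¹ ^ c, s27ups_shift ψ β b₁ hb₁ Φ hΦ e he hcube c hd,
    mul_ne_zero hd0 (pow_ne_zero _ (inv_ne_zero hΦ)), ?_⟩
  rw [← mul_assoc, hxd]

/-- the inverse of a nonzero algebraic element is a polynomial in it. -/
theorem s27ups_inv_eq_aeval {E : Type*} [Field E] [Algebra E 𝔉] (d : 𝔉) (hd : d ≠ 0)
    (hint : IsIntegral E d) : ∃ q : E[X], d⁻¹ = aeval d q := by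
  set p := minpoly E d with hp
  have hp0 : p.coeff 0 ≠ 0 := minpoly.coeff_zero_ne_zero hint hd
  have h1 : aeval d p = 0 := minpoly.aeval E d
  have h2 : p = p.divX * X + C (p.coeff 0) := (Polynomial.divX_mul_X_add p).symm
  refine ⟨C (-(p.coeff 0)⁻¹) * p.divX, ?_⟩
  have h3 : aeval d p.divX * d + algebraMap E 𝔉 (p.coeff 0) = 0 := by
    have := h1
    rw [h2] at this
    simpa using this
  have h4 : algebraMap E 𝔉 (p.coeff 0) ≠ 0 :=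
    (_root_.map_ne_zero (algebraMap E 𝔉)).2 hp0
  rw [map_mul, aeval_C, map_neg, map_inv₀]
  have h5 : d * aeval d p.divX = -algebraMap E 𝔉 (p.coeff 0) := by
    linear_combination h3
  apply inv_eq_of_mul_eq_one_right
  have h6 : d * (-(algebraMap E 𝔉 (p.coeff 0))⁻¹ * aeval d p.divX) =
      -(algebraMap E 𝔉 (p.coeff 0))⁻¹ * (d * aeval d p.divX) := by ring
  rw [h6, h5]
  field_simp

/-- every element of `𝔉` lies in the `ψ 𝔉`-span of some `L_{B_ψ}(c)`. -/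
theorem s27ups_span (ψ : 𝔉 →ₐ[K] 𝔉) (b : ValuationSubring 𝔉 → 𝔉)
    (hb : ∀ V, S27IsKValU K V → b V ∈ V) (hfin : Module.Finite ψ.fieldRange 𝔉)
    (hgen : ∀ x : 𝔉, ∃ c, ∃ a ∈ s27LU K b c, ∃ d ∈ s27LU K b c, d ≠ 0 ∧ x * d = a) (x : 𝔉) :
    ∃ c, x ∈ Submodule.span ψ.fieldRange ((s27LU K b c : Submodule K 𝔉) : Set 𝔉) := by
  obtain ⟨c, a, ha, d, hd, hd0, hxd⟩ := hgen x
  have hint : IsIntegral ψ.fieldRange d := Algebra.IsIntegral.isIntegral d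
  obtain ⟨q, hq⟩ := s27ups_inv_eq_aeval (E := ψ.fieldRange) d hd0 hint
  have hx : x = a * aeval d q := by
    rw [← hq, ← hxd]; field_simp
  refine ⟨c + c * q.natDegree, ?_⟩
  rw [hx, aeval_eq_sum_range, Finset.mul_sum]
  refine Submodule.sum_mem _ fun i hi => ?_
  have hi' : i ≤ q.natDegree := Nat.lt_succ_iff.1 (Finset.mem_range.1 hi)
  have e1 : a * q.coeff i • d ^ i = q.coeff i • (a * d ^ i) := by
    rw [mul_smul_comm]
  rw [e1]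
  refine Submodule.smul_mem _ _ (Submodule.subset_span ?_)
  have h1 : a * d ^ i ∈ s27LU K b (c + c * i) := s27ups_LU_mul b ha (s27ups_LU_pow b hd i)
  exact s27ups_LU_mono b hb (by gcongr) h1

/-- a FINITE subset of some `L_b(c₀)` spans `𝔉` over `ψ 𝔉`. -/
theorem s27ups_finset (ψ : 𝔉 →ₐ[K] 𝔉) (b : ValuationSubring 𝔉 → 𝔉)
    (hb : ∀ V, S27IsKValU K V → b V ∈ V) (hfin : Module.Finite ψ.fieldRange 𝔉)
    (hgen : ∀ x : 𝔉, ∃ c, ∃ a ∈ s27LU K b c, ∃ d ∈ s27LU K b c, d ≠ 0 ∧ x * d = a) :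
    ∃ (c₀ : ℕ) (S : Finset 𝔉), (∀ w ∈ S, w ∈ s27LU K b c₀) ∧
      Submodule.span ψ.fieldRange (S : Set 𝔉) = ⊤ := by
  classical
  let bs := Module.finBasis ψ.fieldRange 𝔉
  choose cf hcf using fun x : 𝔉 => s27ups_span ψ b hb hfin hgen x
  set c₀ : ℕ := Finset.univ.sup (fun i => cf (bs i)) with hc₀
  have htop : Submodule.span ψ.fieldRange ((s27LU K b c₀ : Submodule K 𝔉) : Set 𝔉) = ⊤ := by
    rw [eq_top_iff, ← bs.span_eq, Submodule.span_le]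
    rintro _ ⟨i, rfl⟩
    have h1 : cf (bs i) ≤ c₀ := Finset.le_sup (f := fun i => cf (bs i)) (Finset.mem_univ i)
    exact Submodule.span_mono (s27ups_LU_mono b hb h1) (hcf (bs i))
  have hfg : (Submodule.span ψ.fieldRange ((s27LU K b c₀ : Submodule K 𝔉) : Set 𝔉)).FG := by
    rw [htop]
    exact Module.Finite.fg_top
  obtain ⟨S, hS, hspan⟩ := (Submodule.fg_span_iff_fg_span_finset_subset _).1 hfg
  exact ⟨c₀, S, fun w hw => hS hw, by rw [← hspan, htop]⟩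

/-! ### Step E: traces -/

/-- the valuation subring of `ψ 𝔉` corresponding to `W` under `ψ : 𝔉 ≃ ψ 𝔉`. -/
def s27upsDown (ψ : 𝔉 →ₐ[K] 𝔉) (W : ValuationSubring 𝔉) : ValuationSubring ψ.fieldRange :=
  W.comap ((ψ.equivFieldRange.symm : ψ.fieldRange ≃ₐ[K] 𝔉) : ψ.fieldRange →+* 𝔉)

theorem s27upsDown_mem (ψ : 𝔉 →ₐ[K] 𝔉) (W : ValuationSubring 𝔉) (a : ψ.fieldRange) :
    a ∈ s27upsDown ψ W ↔ ψ.equivFieldRange.symm a ∈ W := Iff.rfl

theorem s27ups_algebraMap_equiv (ψ : 𝔉 →ₐ[K] 𝔉) (a : 𝔉) :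
    algebraMap ψ.fieldRange 𝔉 (ψ.equivFieldRange a) = ψ a := rfl

theorem s27ups_comap_eq (ψ : 𝔉 →ₐ[K] 𝔉) (W V : ValuationSubring 𝔉)
    (hV : V.comap (algebraMap ψ.fieldRange 𝔉) = s27upsDown ψ W) :
    V.comap (ψ : 𝔉 →+* 𝔉) = W := by
  ext a
  rw [ValuationSubring.mem_comap]
  have h1 : ψ.equivFieldRange a ∈ V.comap (algebraMap ψ.fieldRange 𝔉) ↔ a ∈ W := by
    rw [hV, s27upsDown_mem, AlgEquiv.symm_apply_apply]
  rw [← h1, ValuationSubring.mem_comap]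
  rfl

theorem s27ups_isKVal (ψ : 𝔉 →ₐ[K] 𝔉) (W V : ValuationSubring 𝔉) (hW : S27IsKValU K W)
    (hV : V.comap (algebraMap ψ.fieldRange 𝔉) = s27upsDown ψ W) : S27IsKValU K V := by
  intro a
  have h1 : V.comap (ψ : 𝔉 →+* 𝔉) = W := s27ups_comap_eq ψ W V hV
  have h2 : algebraMap K 𝔉 a ∈ V.comap (ψ : 𝔉 →+* 𝔉) := by rw [h1]; exact hW a
  rw [ValuationSubring.mem_comap] at h2
  have h3 : (ψ : 𝔉 →+* 𝔉) (algebraMap K 𝔉 a) = algebraMap K 𝔉 a := ψ.commutes a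
  rwa [h3] at h2

/-- **(c2)**: the trace of `L_{B_ψ}(M)` lies in `ψ (L_β(M))`. -/
theorem s27ups_trace_mem (ψ : 𝔉 →ₐ[K] 𝔉) (β : ValuationSubring 𝔉 → 𝔉) (M : ℕ) {y : 𝔉}
    (hy : y ∈ s27LU K (s27upsB ψ β) M) :
    ψ.equivFieldRange.symm (Algebra.trace ψ.fieldRange 𝔉 y) ∈ s27LU K β M := by
  intro W hW
  set c : ψ.fieldRange := ψ.equivFieldRange (β W) ^ M with hc
  have hz : ∀ V : ValuationSubring 𝔉,
      V.comap (algebraMap ψ.fieldRange 𝔉) = s27upsDown ψ W → c • y ∈ V := by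
    intro V hV
    have hVK : S27IsKValU K V := s27ups_isKVal ψ W V hW hV
    have hcomap : V.comap (ψ : 𝔉 →+* 𝔉) = W := s27ups_comap_eq ψ W V hV
    have hyV : y * s27upsB ψ β V ^ M ∈ V := hy V hVK
    have e1 : c • y = y * s27upsB ψ β V ^ M := by
      rw [Algebra.smul_def, hc, map_pow, s27ups_algebraMap_equiv]
      unfold s27upsB
      rw [hcomap]
      ring
    rw [e1]
    exact hyV
  have h1 : Algebra.trace ψ.fieldRange 𝔉 (c • y) ∈ s27upsDown ψ W :=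
    s27tv_trace_mem (s27upsDown ψ W) (c • y) hz
  rw [map_smul, smul_eq_mul, s27upsDown_mem, map_mul, hc, map_pow,
    AlgEquiv.symm_apply_apply] at h1
  rw [mul_comm]
  exact h1

/-- the `K`-linear map `y ↦ ψ⁻¹ (Tr_{𝔉/ψ𝔉} (y w))`. -/
def s27upsTr (ψ : 𝔉 →ₐ[K] 𝔉) (w : 𝔉) : 𝔉 →ₗ[K] 𝔉 :=
  (ψ.equivFieldRange.symm.toLinearMap).comp
    (((Algebra.trace ψ.fieldRange 𝔉).restrictScalars K).comp (LinearMap.mulRight K w))

theorem s27upsTr_apply (ψ : 𝔉 →ₐ[K] 𝔉) (w y : 𝔉) :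
    s27upsTr ψ w y = ψ.equivFieldRange.symm (Algebra.trace ψ.fieldRange 𝔉 (y * w)) := rfl

theorem s27upsTr_mem (ψ : 𝔉 →ₐ[K] 𝔉) (β : ValuationSubring 𝔉 → 𝔉) (M c₀ : ℕ) {y w : 𝔉}
    (hy : y ∈ s27LU K (s27upsB ψ β) M) (hw : w ∈ s27LU K (s27upsB ψ β) c₀) :
    s27upsTr ψ w y ∈ s27LU K β (M + c₀) :=
  s27ups_trace_mem ψ β (M + c₀) (s27ups_LU_mul _ hy hw)

/-- non-degeneracy of the trace pairing against a spanning set. -/
theorem s27ups_eq_zero (ψ : 𝔉 →ₐ[K] 𝔉) [CharZero K] (hfin : Module.Finite ψ.fieldRange 𝔉)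
    (S : Set 𝔉) (hS : Submodule.span ψ.fieldRange S = ⊤) (y : 𝔉)
    (h : ∀ w ∈ S, s27upsTr ψ w y = 0) : y = 0 := by
  haveI : CharZero 𝔉 := charZero_of_injective_algebraMap (algebraMap K 𝔉).injective
  haveI : CharZero ψ.fieldRange :=
    charZero_of_injective_algebraMap (algebraMap K ψ.fieldRange).injective
  haveI : Algebra.IsAlgebraic ψ.fieldRange 𝔉 := Algebra.IsAlgebraic.of_finite _ _
  haveI : Algebra.IsSeparable ψ.fieldRange 𝔉 := Algebra.IsAlgebraic.isSeparable_of_perfectField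
  have hnd := traceForm_nondegenerate ψ.fieldRange 𝔉
  apply hnd.1 y
  intro n
  have hn : n ∈ Submodule.span ψ.fieldRange S := by rw [hS]; trivial
  induction hn using Submodule.span_induction with
  | mem w hw =>
    have := h w hw
    rw [s27upsTr_apply] at this
    have h0 : Algebra.trace ψ.fieldRange 𝔉 (y * w) = 0 := by
      have := congrArg ψ.equivFieldRange this
      simpa using this
    simpa [Algebra.traceForm_apply] using h0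
  | zero => simp
  | add a b _ _ ha hb => rw [map_add, ha, hb, add_zero]
  | smul c a _ ha => rw [map_smul, ha, smul_zero]

/-! ### Steps F, G: the dimension count -/

/-- `L_{B_ψ}(M)` is finite-dimensional, of dimension `≤ #S · dim L_β(M + c₀)`. -/
theorem s27ups_finrank_B (ψ : 𝔉 →ₐ[K] 𝔉) [CharZero K] (β : ValuationSubring 𝔉 → 𝔉)
    (hfin : Module.Finite ψ.fieldRange 𝔉)
    (hfinβ : ∀ m, Module.Finite K (s27LU K β m))
    (c₀ : ℕ) (S : Finset 𝔉) (hSmem : ∀ w ∈ S, w ∈ s27LU K (s27upsB ψ β) c₀)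
    (hS : Submodule.span ψ.fieldRange (S : Set 𝔉) = ⊤) (M : ℕ) :
    Module.Finite K (s27LU K (s27upsB ψ β) M) ∧
      Module.finrank K (s27LU K (s27upsB ψ β) M) ≤
        S.card * Module.finrank K (s27LU K β (M + c₀)) := by
  classical
  haveI := hfinβ (M + c₀)
  let Λ : s27LU K (s27upsB ψ β) M →ₗ[K] (S → s27LU K β (M + c₀)) :=
    LinearMap.pi fun w : S =>
      LinearMap.codRestrict (s27LU K β (M + c₀))
        ((s27upsTr ψ (w : 𝔉)).domRestrict (s27LU K (s27upsB ψ β) M))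
        (fun y => s27upsTr_mem ψ β M c₀ y.2 (hSmem w w.2))
  have hinj : Function.Injective Λ := by
    rw [injective_iff_map_eq_zero]
    intro y hy
    apply Subtype.ext
    apply s27ups_eq_zero ψ hfin (S : Set 𝔉) hS
    intro w hw
    have := congrFun hy ⟨w, hw⟩
    have h2 := congrArg Subtype.val this
    exact h2
  refine ⟨Module.Finite.of_injective Λ hinj, ?_⟩
  calc Module.finrank K (s27LU K (s27upsB ψ β) M)
      ≤ Module.finrank K (S → s27LU K β (M + c₀)) :=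
        LinearMap.finrank_le_finrank_of_injective hinj
    _ = S.card * Module.finrank K (s27LU K β (M + c₀)) := by
        rw [Module.finrank_pi_fintype, Finset.sum_const, Finset.card_univ, Fintype.card_coe,
          smul_eq_mul]

/-- **UP-SYM**: (FIN) + (UP) for `b₁` from (FIN) + (UP) for `β` alone. -/
theorem s27ups_main (ψ : 𝔉 →ₐ[K] 𝔉) [CharZero K] (β b₁ : ValuationSubring 𝔉 → 𝔉) (g : ℕ)
    (hβ : ∀ V, S27IsKValU K V → β V ∈ V) (hb₁ : ∀ V, S27IsKValU K V → b₁ V ∈ V)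
    (hfin : Module.Finite ψ.fieldRange 𝔉)
    (Φ : 𝔉) (hΦ : Φ ≠ 0) (e : ℕ) (he : 0 < e)
    (hcube : ∀ V, S27IsKValU K V → ∃ w ∈ V, s27upsB ψ β V ^ e = w * Φ * b₁ V ^ e)
    (hgen : ∀ x : 𝔉, ∃ c, ∃ a ∈ s27LU K b₁ c, ∃ d ∈ s27LU K b₁ c, d ≠ 0 ∧ x * d = a)
    (hfinβ : ∀ m, Module.Finite K (s27LU K β m))
    (hupβ : ∃ c₂ : ℕ, ∀ m, 1 ≤ m → Module.finrank K (s27LU K β m) ≤ c₂ * m ^ g) :
    (∀ m, Module.Finite K (s27LU K b₁ m)) ∧
      ∃ c₃ : ℕ, ∀ m, 1 ≤ m → Module.finrank K (s27LU K b₁ m) ≤ c₃ * m ^ g := by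
  classical
  have hB : ∀ V, S27IsKValU K V → s27upsB ψ β V ∈ V := fun V hV => s27upsB_mem ψ β hβ hV
  obtain ⟨c₀, S, hSmem, hS⟩ := s27ups_finset ψ (s27upsB ψ β) hB hfin
    (s27ups_gen ψ β b₁ hb₁ Φ hΦ e he hcube hgen)
  -- the shift
  have hΦi : ∀ m, Φ⁻¹ ^ m ≠ 0 := fun m => pow_ne_zero _ (inv_ne_zero hΦ)
  let sh : ∀ m, s27LU K b₁ m →ₗ[K] s27LU K (s27upsB ψ β) (e * m) := fun m =>
    LinearMap.codRestrict (s27LU K (s27upsB ψ β) (e * m))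
      ((LinearMap.mulRight K (Φ⁻¹ ^ m)).domRestrict (s27LU K b₁ m))
      (fun x => s27ups_shift ψ β b₁ hb₁ Φ hΦ e he hcube m x.2)
  have hsh : ∀ m, Function.Injective (sh m) := by
    intro m
    rw [injective_iff_map_eq_zero]
    intro x hx
    have h2 := congrArg Subtype.val hx
    have h3 : (x : 𝔉) * Φ⁻¹ ^ m = 0 := by simpa [sh] using h2
    exact Subtype.ext ((mul_eq_zero.1 h3).resolve_right (hΦi m))
  have key := fun M => s27ups_finrank_B ψ β hfin hfinβ c₀ S hSmem hS M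
  obtain ⟨c₂, hc₂⟩ := hupβ
  refine ⟨fun m => ?_, S.card * c₂ * (e + c₀) ^ g, fun m hm => ?_⟩
  · haveI := (key (e * m)).1
    exact Module.Finite.of_injective (sh m) (hsh m)
  · haveI := (key (e * m)).1
    have h1 : Module.finrank K (s27LU K b₁ m) ≤
        Module.finrank K (s27LU K (s27upsB ψ β) (e * m)) :=
      LinearMap.finrank_le_finrank_of_injective (hsh m)
    have h2 := (key (e * m)).2
    have h3 : 1 ≤ e * m + c₀ := by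
      have : 1 ≤ e * m := Nat.one_le_iff_ne_zero.2 (Nat.mul_ne_zero he.ne' (by omega))
      omega
    have h4 := hc₂ (e * m + c₀) h3
    have h5 : e * m + c₀ ≤ (e + c₀) * m := by nlinarith
    calc Module.finrank K (s27LU K b₁ m)
        ≤ S.card * Module.finrank K (s27LU K β (e * m + c₀)) := h1.trans h2
      _ ≤ S.card * (c₂ * (e * m + c₀) ^ g) := Nat.mul_le_mul_left _ h4
      _ ≤ S.card * (c₂ * ((e + c₀) * m) ^ g) :=
          Nat.mul_le_mul_left _ (Nat.mul_le_mul_left _ (Nat.pow_le_pow_left h5 g))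
      _ = S.card * c₂ * (e + c₀) ^ g * m ^ g := by rw [mul_pow]; ring

end UpSym

end Fermat.Agent.S27

end
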