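/-
S27 route B, piece B1-FIELDS (helper33), part 3: the TOWER `Ω_g ⊂ Ω_{g+1}` and the adapter to the
`Frac (𝔠 ⊗[K] 𝔎)` shape of S26/ERRGauss* (helper96: `s26gspMu`, `S26gspGen`).

For `i : Fin (g + 1)` (the coordinate which is split off):
* `s27gftInsR i : F ⊗[K] R_g →ₐ[K] R_{g+1}` (`f ⊗ r ↦ single_i f · r^{(≠ i)}`) and its inverse
  `s27gftRemR i`; `s27gftInsR_bijective`.
* `s27gftKappa i : Ω_g →ₐ[K] Ω_{g+1}`, `κ_i (ι_k f) = ι_{i.succAbove k} f`.
* `s27gft_prod_injective i` : `F ⊗[K] Ω_g → Ω_{g+1}` (`ι_i`, `κ_i`) is injective;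
  `s27gft_prod_gen i` : every element of `Ω_{g+1}` is a quotient of elements of the image.
* `s27gftAlgF i`, `s27gftAlgOm i` (reducible defs, NOT instances), `s27gft_towerF`, `s27gft_towerOm`,
  `s27gft_hld i`, `s27gft_hgen i` = the literal hypotheses `hld`, `hgen` of S26/ERRGaussPlace for
  `𝔠 = F`, `𝔎 = Ω_g`, `Ω = Ω_{g+1}`.
* base cases: `s27gft_zero_bijective` (`Ω_0 = K`), `s27gft_one_bijective` (`Ω_1 = F`).
* `s27gft_perm_kappa` : `σ̃ ∘ κ_i = κ_{i} ∘ σ` for `σ ∈ S_g` extended to `Fin (g + 1)` fixing `i`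
  (stated with an explicit `σ' : Perm (Fin (g+1))` such that `σ' (i.succAbove k) = i.succAbove (σ k)`).
-/
import Mathlib
import Fermat.Agent.S27.GenField
import Fermat.Agent.S26.ETiTopB
import Fermat.Agent.S26.ERRGaussPlace

set_option autoImplicit false
set_option linter.unusedVariables false
set_option linter.unusedSectionVars false
set_option linter.style.haveILetI false

noncomputable section

namespace Fermat.Agent.S27

open TensorProduct Fermat.Agent.S26

universe u v

section Ring

variable {K : Type u} {F : Type v} [Field K] [Field F] [Algebra K F] {g : ℕ}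

/-- the inclusion `R_g → R_{g+1}` omitting the coordinate `i` -/
def s27gftOmitR (i : Fin (g + 1)) : s27gfR K F g →ₐ[K] s27gfR K F (g + 1) :=
  s27gfLiftR fun k => s27gfSingle (i.succAbove k)

@[simp] theorem s27gftOmitR_single (i : Fin (g + 1)) (k : Fin g) (f : F) :
    s27gftOmitR (K := K) (F := F) i (s27gfSingle k f) =
      s27gfSingle (K := K) (i.succAbove k) f := by
  unfold s27gftOmitR
  rw [s27gfLiftR_single]

/-- `F ⊗ R_g → R_{g+1}`: the factor `F` goes to the coordinate `i`, the coordinate `k` of `R_g`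
goes to the coordinate `i.succAbove k`. -/
def s27gftInsR (i : Fin (g + 1)) : F ⊗[K] s27gfR K F g →ₐ[K] s27gfR K F (g + 1) :=
  Algebra.TensorProduct.productMap (s27gfSingle i) (s27gftOmitR i)

/-- the family defining the inverse -/
def s27gftRemFam (i : Fin (g + 1)) : Fin (g + 1) → F →ₐ[K] F ⊗[K] s27gfR K F g :=
  Fin.insertNth (α := fun _ => F →ₐ[K] F ⊗[K] s27gfR K F g) i
    (Algebra.TensorProduct.includeLeft : F →ₐ[K] F ⊗[K] s27gfR K F g)
    (fun k => (Algebra.TensorProduct.includeRight :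
      s27gfR K F g →ₐ[K] F ⊗[K] s27gfR K F g).comp (s27gfSingle k))

theorem s27gftRemFam_same (i : Fin (g + 1)) :
    s27gftRemFam (K := K) (F := F) i i = Algebra.TensorProduct.includeLeft := by
  unfold s27gftRemFam
  rw [Fin.insertNth_apply_same]

theorem s27gftRemFam_succAbove (i : Fin (g + 1)) (k : Fin g) :
    s27gftRemFam (K := K) (F := F) i (i.succAbove k) =
      (Algebra.TensorProduct.includeRight :
        s27gfR K F g →ₐ[K] F ⊗[K] s27gfR K F g).comp (s27gfSingle k) := by
  unfold s27gftRemFam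
  rw [Fin.insertNth_apply_succAbove]

/-- `R_{g+1} → F ⊗ R_g` -/
def s27gftRemR (i : Fin (g + 1)) : s27gfR K F (g + 1) →ₐ[K] F ⊗[K] s27gfR K F g :=
  s27gfLiftR (s27gftRemFam i)

theorem s27gftInsR_tmul (i : Fin (g + 1)) (f : F) (r : s27gfR K F g) :
    s27gftInsR (K := K) (F := F) i (f ⊗ₜ[K] r) =
      s27gfSingle i f * s27gftOmitR (K := K) (F := F) i r := by
  unfold s27gftInsR
  rw [Algebra.TensorProduct.productMap_apply_tmul]

theorem s27gftInsR_left (i : Fin (g + 1)) (f : F) :
    s27gftInsR (K := K) (F := F) i (f ⊗ₜ[K] (1 : s27gfR K F g)) = s27gfSingle i f := by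
  rw [s27gftInsR_tmul, map_one, mul_one]

theorem s27gftInsR_right (i : Fin (g + 1)) (r : s27gfR K F g) :
    s27gftInsR (K := K) (F := F) i ((1 : F) ⊗ₜ[K] r) = s27gftOmitR (K := K) (F := F) i r := by
  rw [s27gftInsR_tmul, map_one, one_mul]

theorem s27gftInsR_right_single (i : Fin (g + 1)) (k : Fin g) (f : F) :
    s27gftInsR (K := K) (F := F) i ((1 : F) ⊗ₜ[K] s27gfSingle k f) =
      s27gfSingle (i.succAbove k) f := by
  rw [s27gftInsR_right, s27gftOmitR_single]

theorem s27gftRemR_single_same (i : Fin (g + 1)) (f : F) :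
    s27gftRemR (K := K) (F := F) i (s27gfSingle i f) = f ⊗ₜ[K] (1 : s27gfR K F g) := by
  unfold s27gftRemR
  rw [s27gfLiftR_single, s27gftRemFam_same]
  rfl

theorem s27gftRemR_single_succAbove (i : Fin (g + 1)) (k : Fin g) (f : F) :
    s27gftRemR (K := K) (F := F) i (s27gfSingle (i.succAbove k) f) =
      (1 : F) ⊗ₜ[K] s27gfSingle k f := by
  unfold s27gftRemR
  rw [s27gfLiftR_single, s27gftRemFam_succAbove]
  rfl

theorem s27gftRemR_comp_insR (i : Fin (g + 1)) :
    (s27gftRemR (K := K) (F := F) i).comp (s27gftInsR i) = AlgHom.id K _ := by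
  apply Algebra.TensorProduct.ext
  · apply AlgHom.ext
    intro f
    show s27gftRemR (K := K) (F := F) i
        (s27gftInsR (K := K) (F := F) i (f ⊗ₜ[K] (1 : s27gfR K F g))) =
      f ⊗ₜ[K] (1 : s27gfR K F g)
    rw [s27gftInsR_left, s27gftRemR_single_same]
  · apply s27gfR_hom_ext
    intro k f
    show s27gftRemR (K := K) (F := F) i
        (s27gftInsR (K := K) (F := F) i ((1 : F) ⊗ₜ[K] s27gfSingle k f)) =
      (1 : F) ⊗ₜ[K] s27gfSingle k f
    rw [s27gftInsR_right_single, s27gftRemR_single_succAbove]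

theorem s27gftInsR_comp_remR (i : Fin (g + 1)) :
    (s27gftInsR (K := K) (F := F) i).comp (s27gftRemR i) = AlgHom.id K _ := by
  apply s27gfR_hom_ext
  intro j f
  show s27gftInsR (K := K) (F := F) i (s27gftRemR (K := K) (F := F) i (s27gfSingle j f)) =
    s27gfSingle j f
  rcases Fin.eq_self_or_eq_succAbove i j with rfl | ⟨k, rfl⟩
  · rw [s27gftRemR_single_same, s27gftInsR_left]
  · rw [s27gftRemR_single_succAbove, s27gftInsR_right_single]

theorem s27gftRemR_insR (i : Fin (g + 1)) (z : F ⊗[K] s27gfR K F g) :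
    s27gftRemR (K := K) (F := F) i (s27gftInsR (K := K) (F := F) i z) = z :=
  congrArg (fun a => a z) (s27gftRemR_comp_insR (K := K) (F := F) i)

theorem s27gftInsR_remR (i : Fin (g + 1)) (z : s27gfR K F (g + 1)) :
    s27gftInsR (K := K) (F := F) i (s27gftRemR (K := K) (F := F) i z) = z :=
  congrArg (fun a => a z) (s27gftInsR_comp_remR (K := K) (F := F) i)

theorem s27gftInsR_injective (i : Fin (g + 1)) :
    Function.Injective (s27gftInsR (K := K) (F := F) i) :=
  Function.LeftInverse.injective (s27gftRemR_insR i)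

theorem s27gftInsR_surjective (i : Fin (g + 1)) :
    Function.Surjective (s27gftInsR (K := K) (F := F) i) :=
  Function.RightInverse.surjective (s27gftInsR_remR i)

theorem s27gftInsR_bijective (i : Fin (g + 1)) :
    Function.Bijective (s27gftInsR (K := K) (F := F) i) :=
  ⟨s27gftInsR_injective i, s27gftInsR_surjective i⟩

/-- `F ⊗[K] R_g ≃ R_{g+1}` -/
def s27gftInsEquiv (i : Fin (g + 1)) : (F ⊗[K] s27gfR K F g) ≃ₐ[K] s27gfR K F (g + 1) :=
  AlgEquiv.ofAlgHom (s27gftInsR i) (s27gftRemR i) (s27gftInsR_comp_remR i)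
    (s27gftRemR_comp_insR i)

theorem s27gftOmitR_eq (i : Fin (g + 1)) (r : s27gfR K F g) :
    s27gftOmitR (K := K) (F := F) i r = s27gftInsR (K := K) (F := F) i ((1 : F) ⊗ₜ[K] r) :=
  (s27gftInsR_right i r).symm

theorem s27gftOmitR_injective (i : Fin (g + 1)) :
    Function.Injective (s27gftOmitR (K := K) (F := F) i) := by
  intro x y h
  rw [s27gftOmitR_eq, s27gftOmitR_eq] at h
  have h1 := s27gftInsR_injective i h
  exact Algebra.TensorProduct.includeRight_injective (R := K) (A := F) (B := s27gfR K F g)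
    (algebraMap K F).injective h1

end Ring

section Field

variable {K : Type u} {F : Type v} [Field K] [IsAlgClosed K] [Field F] [Algebra K F] {g : ℕ}

theorem s27gft_liftR_eq (i : Fin (g + 1)) :
    s27gfLiftR (fun k => s27gfIota (K := K) (F := F) (i.succAbove k)) =
      (IsScalarTower.toAlgHom K (s27gfR K F (g + 1)) (s27gfOm K F (g + 1))).comp
        (s27gftOmitR i) := by
  apply s27gfR_hom_ext
  intro k f
  rw [s27gfLiftR_single, AlgHom.comp_apply, s27gftOmitR_single]
  rfl

theorem s27gft_liftR_injective (i : Fin (g + 1)) :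
    Function.Injective (s27gfLiftR fun k => s27gfIota (K := K) (F := F) (i.succAbove k)) := by
  rw [s27gft_liftR_eq]
  intro x y h
  exact s27gftOmitR_injective i (s27gfOm_algebraMap_injective h)

/-- **`κ_i : Ω_g → Ω_{g+1}`**, omitting the coordinate `i` -/
def s27gftKappa (i : Fin (g + 1)) : s27gfOm K F g →ₐ[K] s27gfOm K F (g + 1) :=
  s27gfLift (fun k => s27gfIota (i.succAbove k)) (s27gft_liftR_injective i)

@[simp] theorem s27gftKappa_iota (i : Fin (g + 1)) (k : Fin g) (f : F) :
    s27gftKappa i (s27gfIota (K := K) k f) = s27gfIota (i.succAbove k) f := by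
  unfold s27gftKappa
  rw [s27gfLift_iota]

theorem s27gftKappa_algebraMap (i : Fin (g + 1)) (r : s27gfR K F g) :
    s27gftKappa i (algebraMap (s27gfR K F g) (s27gfOm K F g) r) =
      algebraMap (s27gfR K F (g + 1)) (s27gfOm K F (g + 1))
        (s27gftOmitR (K := K) (F := F) i r) := by
  unfold s27gftKappa
  rw [s27gfLift_algebraMap, s27gft_liftR_eq]
  rfl

theorem s27gftKappa_injective (i : Fin (g + 1)) :
    Function.Injective (s27gftKappa (K := K) (F := F) (g := g) i) :=
  RingHom.injective ((s27gftKappa (K := K) (F := F) i : s27gfOm K F g →ₐ[K] s27gfOm K F (g + 1)) :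
    s27gfOm K F g →+* s27gfOm K F (g + 1))

/-- the product map on the base `F ⊗ R_g` is `algebraMap ∘ InsR` -/
theorem s27gft_prod_base (i : Fin (g + 1)) :
    Algebra.TensorProduct.productMap (s27gfIota (K := K) (F := F) i)
        ((s27gftKappa i).comp (IsScalarTower.toAlgHom K (s27gfR K F g) (s27gfOm K F g))) =
      (IsScalarTower.toAlgHom K (s27gfR K F (g + 1)) (s27gfOm K F (g + 1))).comp
        (s27gftInsR i) := by
  apply Algebra.TensorProduct.ext
  · apply AlgHom.ext
    intro f
    show Algebra.TensorProduct.productMap (s27gfIota (K := K) (F := F) i)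
        ((s27gftKappa i).comp (IsScalarTower.toAlgHom K (s27gfR K F g) (s27gfOm K F g)))
        (f ⊗ₜ[K] (1 : s27gfR K F g)) =
      algebraMap (s27gfR K F (g + 1)) (s27gfOm K F (g + 1))
        (s27gftInsR (K := K) (F := F) i (f ⊗ₜ[K] (1 : s27gfR K F g)))
    rw [Algebra.TensorProduct.productMap_apply_tmul, map_one, mul_one, s27gftInsR_left]
    rfl
  · apply s27gfR_hom_ext
    intro k f
    show Algebra.TensorProduct.productMap (s27gfIota (K := K) (F := F) i)
        ((s27gftKappa i).comp (IsScalarTower.toAlgHom K (s27gfR K F g) (s27gfOm K F g)))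
        ((1 : F) ⊗ₜ[K] s27gfSingle k f) =
      algebraMap (s27gfR K F (g + 1)) (s27gfOm K F (g + 1))
        (s27gftInsR (K := K) (F := F) i ((1 : F) ⊗ₜ[K] s27gfSingle k f))
    rw [Algebra.TensorProduct.productMap_apply_tmul, map_one, one_mul, s27gftInsR_right_single,
      AlgHom.comp_apply]
    exact s27gftKappa_iota i k f

/-- **linear disjointness**: `F ⊗[K] Ω_g → Ω_{g+1}` (`ι_i`, `κ_i`) is injective -/
theorem s27gft_prod_injective (i : Fin (g + 1)) :
    Function.Injective (Algebra.TensorProduct.productMap (s27gfIota (K := K) (F := F) i)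
      (s27gftKappa i)) := by
  haveI := s27gf_isDomain K F g
  apply s26ettb_productMap_injective_of_base (T := s27gfR K F g)
  rw [s27gft_prod_base]
  intro x y h
  exact s27gftInsR_injective i (s27gfOm_algebraMap_injective h)

/-- the image of `F ⊗ R_g` inside `F ⊗ Ω_g` -/
theorem s27gft_prod_map (i : Fin (g + 1)) (z : F ⊗[K] s27gfR K F g) :
    Algebra.TensorProduct.productMap (s27gfIota (K := K) (F := F) i) (s27gftKappa i)
        (Algebra.TensorProduct.map (AlgHom.id K F)
          (IsScalarTower.toAlgHom K (s27gfR K F g) (s27gfOm K F g)) z) =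
      algebraMap (s27gfR K F (g + 1)) (s27gfOm K F (g + 1))
        (s27gftInsR (K := K) (F := F) i z) := by
  have h := congrArg (fun a => a z) (s27gft_prod_base (K := K) (F := F) i)
  have h2 : (Algebra.TensorProduct.productMap (s27gfIota (K := K) (F := F) i)
      (s27gftKappa i)).comp (Algebra.TensorProduct.map (AlgHom.id K F)
        (IsScalarTower.toAlgHom K (s27gfR K F g) (s27gfOm K F g))) =
      Algebra.TensorProduct.productMap (s27gfIota (K := K) (F := F) i)
        ((s27gftKappa i).comp (IsScalarTower.toAlgHom K (s27gfR K F g) (s27gfOm K F g))) := by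
    apply Algebra.TensorProduct.ext'
    intro a b
    rw [AlgHom.comp_apply, Algebra.TensorProduct.map_tmul,
      Algebra.TensorProduct.productMap_apply_tmul, Algebra.TensorProduct.productMap_apply_tmul]
    rfl
  have h3 := congrArg (fun a => a z) h2
  exact h3.trans h

/-- **generation**: every element of `Ω_{g+1}` is a quotient of two elements of the image of
`F ⊗[K] Ω_g` (even of `F ⊗[K] R_g`). -/
theorem s27gft_prod_gen (i : Fin (g + 1)) (x : s27gfOm K F (g + 1)) :
    ∃ A B : F ⊗[K] s27gfOm K F g,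
      Algebra.TensorProduct.productMap (s27gfIota (K := K) (F := F) i) (s27gftKappa i) B ≠ 0 ∧
      x * Algebra.TensorProduct.productMap (s27gfIota (K := K) (F := F) i) (s27gftKappa i) B =
        Algebra.TensorProduct.productMap (s27gfIota (K := K) (F := F) i) (s27gftKappa i) A := by
  haveI := s27gf_isDomain K F (g + 1)
  obtain ⟨r, s, hs, rfl⟩ := IsFractionRing.div_surjective (A := s27gfR K F (g + 1)) x
  have hs0 : algebraMap (s27gfR K F (g + 1)) (s27gfOm K F (g + 1)) s ≠ 0 :=
    (IsLocalization.map_units (s27gfOm K F (g + 1)) ⟨s, hs⟩).ne_zero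
  refine ⟨Algebra.TensorProduct.map (AlgHom.id K F)
      (IsScalarTower.toAlgHom K (s27gfR K F g) (s27gfOm K F g))
      (s27gftRemR (K := K) (F := F) i r),
    Algebra.TensorProduct.map (AlgHom.id K F)
      (IsScalarTower.toAlgHom K (s27gfR K F g) (s27gfOm K F g))
      (s27gftRemR (K := K) (F := F) i s), ?_, ?_⟩
  · rw [s27gft_prod_map, s27gftInsR_remR]
    exact hs0
  · rw [s27gft_prod_map, s27gft_prod_map, s27gftInsR_remR, s27gftInsR_remR,
      div_mul_cancel₀ _ hs0]


/-! ### The adapter to the `s26gsp` shape (`𝔠 = F`, `𝔎 = Ω_g`, `Ω = Ω_{g+1}`) -/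

/-- the `F`-algebra structure of `Ω_{g+1}` through the coordinate `i` (NOT an instance) -/
@[reducible] def s27gftAlgF (i : Fin (g + 1)) : Algebra F (s27gfOm K F (g + 1)) :=
  ((s27gfIota (K := K) (F := F) i : F →ₐ[K] s27gfOm K F (g + 1)) :
    F →+* s27gfOm K F (g + 1)).toAlgebra

/-- the `Ω_g`-algebra structure of `Ω_{g+1}` through `κ_i` (NOT an instance) -/
@[reducible] def s27gftAlgOm (i : Fin (g + 1)) :
    Algebra (s27gfOm K F g) (s27gfOm K F (g + 1)) :=
  ((s27gftKappa (K := K) (F := F) i : s27gfOm K F g →ₐ[K] s27gfOm K F (g + 1)) :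
    s27gfOm K F g →+* s27gfOm K F (g + 1)).toAlgebra

theorem s27gft_algebraMapF (i : Fin (g + 1)) (f : F) :
    letI := s27gftAlgF (K := K) (F := F) i
    algebraMap F (s27gfOm K F (g + 1)) f = s27gfIota i f := rfl

theorem s27gft_algebraMapOm (i : Fin (g + 1)) (x : s27gfOm K F g) :
    letI := s27gftAlgOm (K := K) (F := F) i
    algebraMap (s27gfOm K F g) (s27gfOm K F (g + 1)) x = s27gftKappa i x := rfl

theorem s27gft_towerF (i : Fin (g + 1)) :
    letI := s27gftAlgF (K := K) (F := F) i
    IsScalarTower K F (s27gfOm K F (g + 1)) := by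
  letI := s27gftAlgF (K := K) (F := F) i
  exact IsScalarTower.of_algebraMap_eq fun x =>
    ((s27gfIota (K := K) (F := F) i).commutes x).symm

theorem s27gft_towerOm (i : Fin (g + 1)) :
    letI := s27gftAlgOm (K := K) (F := F) i
    IsScalarTower K (s27gfOm K F g) (s27gfOm K F (g + 1)) := by
  letI := s27gftAlgOm (K := K) (F := F) i
  exact IsScalarTower.of_algebraMap_eq fun x =>
    ((s27gftKappa (K := K) (F := F) i).commutes x).symm

theorem s27gft_mu_eq (i : Fin (g + 1)) :
    letI := s27gftAlgF (K := K) (F := F) i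
    letI := s27gftAlgOm (K := K) (F := F) i
    haveI := s27gft_towerF (K := K) (F := F) i
    haveI := s27gft_towerOm (K := K) (F := F) i
    s26gspMu K F (s27gfOm K F g) (s27gfOm K F (g + 1)) =
      Algebra.TensorProduct.productMap (s27gfIota (K := K) (F := F) i) (s27gftKappa i) := by
  letI := s27gftAlgF (K := K) (F := F) i
  letI := s27gftAlgOm (K := K) (F := F) i
  haveI := s27gft_towerF (K := K) (F := F) i
  haveI := s27gft_towerOm (K := K) (F := F) i
  apply Algebra.TensorProduct.ext'
  intro a b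
  rw [s26gspMu_tmul, Algebra.TensorProduct.productMap_apply_tmul]
  rfl

/-- **`hld`** of S26/ERRGaussPlace for `𝔠 = F` (coordinate `i`), `𝔎 = Ω_g`, `Ω = Ω_{g+1}` -/
theorem s27gft_hld (i : Fin (g + 1)) :
    letI := s27gftAlgF (K := K) (F := F) i
    letI := s27gftAlgOm (K := K) (F := F) i
    haveI := s27gft_towerF (K := K) (F := F) i
    haveI := s27gft_towerOm (K := K) (F := F) i
    Function.Injective (s26gspMu K F (s27gfOm K F g) (s27gfOm K F (g + 1))) := by
  letI := s27gftAlgF (K := K) (F := F) i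
  letI := s27gftAlgOm (K := K) (F := F) i
  haveI := s27gft_towerF (K := K) (F := F) i
  haveI := s27gft_towerOm (K := K) (F := F) i
  show Function.Injective (s26gspMu K F (s27gfOm K F g) (s27gfOm K F (g + 1)))
  rw [s27gft_mu_eq]
  exact s27gft_prod_injective i

/-- **`hgen`** of S26/ERRGaussPlace for `𝔠 = F` (coordinate `i`), `𝔎 = Ω_g`, `Ω = Ω_{g+1}` -/
theorem s27gft_hgen (i : Fin (g + 1)) :
    letI := s27gftAlgF (K := K) (F := F) i
    letI := s27gftAlgOm (K := K) (F := F) i
    haveI := s27gft_towerF (K := K) (F := F) i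
    haveI := s27gft_towerOm (K := K) (F := F) i
    S26gspGen K F (s27gfOm K F g) (s27gfOm K F (g + 1)) := by
  letI := s27gftAlgF (K := K) (F := F) i
  letI := s27gftAlgOm (K := K) (F := F) i
  haveI := s27gft_towerF (K := K) (F := F) i
  haveI := s27gft_towerOm (K := K) (F := F) i
  show S26gspGen K F (s27gfOm K F g) (s27gfOm K F (g + 1))
  unfold S26gspGen
  rw [s27gft_mu_eq]
  exact s27gft_prod_gen i

/-! ### Changing the coordinate -/

/-- `σ' ∘ κ_i = κ_j ∘ σ` whenever `σ' (i.succAbove k) = j.succAbove (σ k)` -/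
theorem s27gft_perm_kappa (i j : Fin (g + 1)) (σ' : Equiv.Perm (Fin (g + 1)))
    (σ : Equiv.Perm (Fin g)) (h : ∀ k, σ' (i.succAbove k) = j.succAbove (σ k))
    (x : s27gfOm K F g) :
    s27gfPerm σ' (s27gftKappa (K := K) (F := F) i x) = s27gftKappa j (s27gfPerm σ x) := by
  have e : ((s27gfPerm (K := K) (F := F) σ' : s27gfOm K F (g + 1) →ₐ[K] s27gfOm K F (g + 1)).comp
      (s27gftKappa i)) =
      (s27gftKappa j).comp
        (s27gfPerm (K := K) (F := F) σ : s27gfOm K F g →ₐ[K] s27gfOm K F g) := by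
    apply s27gfOm_hom_ext
    intro k f
    rw [AlgHom.comp_apply, AlgHom.comp_apply, s27gftKappa_iota]
    have h1 : (s27gfPerm (K := K) (F := F) σ' : s27gfOm K F (g + 1) →ₐ[K] s27gfOm K F (g + 1))
        (s27gfIota (i.succAbove k) f) = s27gfIota (σ' (i.succAbove k)) f :=
      s27gfPerm_iota σ' _ f
    have h2 : (s27gfPerm (K := K) (F := F) σ : s27gfOm K F g →ₐ[K] s27gfOm K F g)
        (s27gfIota k f) = s27gfIota (σ k) f :=
      s27gfPerm_iota σ _ f
    rw [h1, h2, s27gftKappa_iota, h]
  exact congrArg (fun a => a x) e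

/-- a permutation moving the coordinate `i` to `j` and keeping the order of the others -/
theorem s27gft_exists_perm (i j : Fin (g + 1)) :
    ∃ σ' : Equiv.Perm (Fin (g + 1)), σ' i = j ∧ ∀ k, σ' (i.succAbove k) = j.succAbove k := by
  classical
  let φ : Fin (g + 1) → Fin (g + 1) :=
    Fin.insertNth (α := fun _ => Fin (g + 1)) i j (fun k => j.succAbove k)
  have hφi : φ i = j := Fin.insertNth_apply_same (α := fun _ => Fin (g + 1)) i j _
  have hφs : ∀ k, φ (i.succAbove k) = j.succAbove k := fun k =>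
    Fin.insertNth_apply_succAbove (α := fun _ => Fin (g + 1)) i j _ k
  have hinj : Function.Injective φ := by
    intro a b hab
    rcases Fin.eq_self_or_eq_succAbove i a with ha | ⟨k, ha⟩ <;>
      rcases Fin.eq_self_or_eq_succAbove i b with hb | ⟨l, hb⟩
    · rw [ha, hb]
    · rw [ha, hb, hφi, hφs] at hab
      exact absurd hab.symm (Fin.succAbove_ne _ _)
    · rw [ha, hb, hφi, hφs] at hab
      exact absurd hab (Fin.succAbove_ne _ _)
    · rw [ha, hb, hφs, hφs] at hab
      rw [ha, hb, Fin.succAbove_right_injective hab]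
  refine ⟨Equiv.ofBijective φ ((Finite.injective_iff_bijective).1 hinj), hφi, hφs⟩

theorem s27gft_kappa_change (i j : Fin (g + 1)) :
    ∃ σ' : Equiv.Perm (Fin (g + 1)), σ' i = j ∧
      (∀ f : F, s27gfPerm σ' (s27gfIota (K := K) i f) = s27gfIota j f) ∧
      ∀ x : s27gfOm K F g, s27gfPerm σ' (s27gftKappa (K := K) (F := F) i x) = s27gftKappa j x := by
  obtain ⟨σ', h1, h2⟩ := s27gft_exists_perm i j
  refine ⟨σ', h1, fun f => by rw [s27gfPerm_iota, h1], fun x => ?_⟩
  have := s27gft_perm_kappa (K := K) (F := F) i j σ' 1 (fun k => by rw [h2]; rfl) x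
  rw [this, s27gfPerm_one_apply]

/-! ### Base cases -/

theorem s27gft_zero_surjective :
    Function.Surjective (algebraMap K (s27gfOm K F 0)) := by
  haveI := s27gf_isDomain K F 0
  have hR : ∀ r : s27gfR K F 0, algebraMap K (s27gfR K F 0) (s27gfZero K F r) = r := by
    intro r
    have h0 : (Algebra.ofId K (s27gfR K F 0)).comp (s27gfZero K F) = AlgHom.id K _ :=
      s27gfR_hom_ext fun i f => i.elim0
    exact congrArg (fun a => a r) h0
  intro x
  obtain ⟨r, s, hs, rfl⟩ := IsFractionRing.div_surjective (A := s27gfR K F 0) x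
  refine ⟨s27gfZero K F r / s27gfZero K F s, ?_⟩
  rw [map_div₀, IsScalarTower.algebraMap_apply K (s27gfR K F 0) (s27gfOm K F 0),
    IsScalarTower.algebraMap_apply K (s27gfR K F 0) (s27gfOm K F 0), hR, hR]

/-- `Ω_0 = K` -/
theorem s27gft_zero_bijective :
    Function.Bijective (algebraMap K (s27gfOm K F 0)) :=
  ⟨(algebraMap K (s27gfOm K F 0)).injective, s27gft_zero_surjective⟩

theorem s27gft_one_surjective :
    Function.Surjective (s27gfIota (K := K) (F := F) (0 : Fin 1)) := by
  haveI := s27gf_isDomain K F 1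
  have hR : ∀ r : s27gfR K F 1,
      s27gfSingle (0 : Fin 1) (s27gfLiftR (fun _ : Fin 1 => AlgHom.id K F) r) = r := by
    intro r
    have h0 : (s27gfSingle (K := K) (F := F) (0 : Fin 1)).comp
        (s27gfLiftR (fun _ : Fin 1 => AlgHom.id K F)) = AlgHom.id K _ := by
      apply s27gfR_hom_ext
      intro i f
      rw [AlgHom.comp_apply, s27gfLiftR_single, Subsingleton.elim i 0]
      rfl
    exact congrArg (fun a => a r) h0
  intro x
  obtain ⟨r, s, hs, rfl⟩ := IsFractionRing.div_surjective (A := s27gfR K F 1) x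
  refine ⟨s27gfLiftR (fun _ : Fin 1 => AlgHom.id K F) r /
    s27gfLiftR (fun _ : Fin 1 => AlgHom.id K F) s, ?_⟩
  rw [map_div₀, s27gfIota_apply, s27gfIota_apply, hR, hR]

/-- `Ω_1 = F` -/
theorem s27gft_one_bijective :
    Function.Bijective (s27gfIota (K := K) (F := F) (0 : Fin 1)) :=
  ⟨s27gfIota_injective 0, s27gft_one_surjective⟩

end Field

end Fermat.Agent.S27
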