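/-
S27 route B, piece KÜNNETH (helper28): the algebraic core of the upper bound (UP) / G1.
Mathlib only.

Part 1 (two factors, tensor form).  `M ⊆ E, E' ⊆ Ω` fields, `E ⊗[M] E' → Ω` injective:
* `s27kun_coeff_mem` : `f = ∑ d_l w_l` (`d_l ∈ E`, `(w_l)` an `M`-independent family of `E'`),
  `f ∈ span_{E'} U` for an `M`-subspace `U` of `E`  ⇒  every `d_l ∈ U`.

Part 2 (`g` factors).  `K` a field, `F / K` a field, `Ω ⊇ K` a field, `ι k : F →ₐ[K] Ω` (`k : ℕ`, only
`k < g` matters) the coordinate embeddings.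
* `s27kunN ι g k` : the field generated by the coordinates `j < g`, `j ≠ k`;
  `s27kunL ι g k` : the field generated by the coordinates `k ≤ j < g`;
* `s27kunMuK ι k S : F ⊗[K] S →ₐ[K] Ω`, `f ⊗ s ↦ ι k f * s`;
* the ONLY hypothesis: `hld : ∀ k < g, Function.Injective (s27kunMuK ι k (s27kunN ι g k))`
  (the `k`-th coordinate is linearly disjoint from the field of the other coordinates);
* `s27kun_step` : the peeling step (common denominators + coordinate functionals);
* `s27kun_mem_span` : `y ∈ K(ι_0 F, …)`, `y = ∑_b n_b ι_k(v_b)` with `n_b ∈ N_k` for every `k < g`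
  ⇒ `y ∈ span_K {∏_k ι_k(v_{a_k})}`;
* **`s27kun_finrank_le`** : `0 < g`, `V ≤ F` finite-dimensional, `T ≤ Ω` a `K`-subspace with
  `∀ y ∈ T, ∀ k < g, y ∈ span_{N_k} (ι_k '' V)`  ⇒  `T` is finite-dimensional of dimension
  `≤ (dim V)^g`.
-/
import Mathlib

set_option autoImplicit false
set_option linter.unusedSectionVars false
set_option linter.unusedVariables false
set_option linter.style.haveILetI false

open TensorProduct

namespace Fermat.Agent.S27


section LD

variable {M E E' Ω : Type*} [Field M] [Field E] [Field E'] [Field Ω]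
  [Algebra M E] [Algebra M E'] [Algebra M Ω] [Algebra E Ω] [Algebra E' Ω]
  [IsScalarTower M E Ω] [IsScalarTower M E' Ω]

/-- the multiplication map `E ⊗[M] E' → Ω` -/
noncomputable def s27kunMu (M E E' Ω : Type*) [Field M] [Field E] [Field E'] [Field Ω]
    [Algebra M E] [Algebra M E'] [Algebra M Ω] [Algebra E Ω] [Algebra E' Ω]
    [IsScalarTower M E Ω] [IsScalarTower M E' Ω] : E ⊗[M] E' →ₐ[M] Ω :=
  Algebra.TensorProduct.productMap (IsScalarTower.toAlgHom M E Ω) (IsScalarTower.toAlgHom M E' Ω)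

theorem s27kunMu_tmul (a : E) (b : E') :
    s27kunMu M E E' Ω (a ⊗ₜ[M] b) = algebraMap E Ω a * algebraMap E' Ω b := by
  simp [s27kunMu]

/-- an element of the `E'`-span of the image of `U` is the image of a tensor in `U ⊗ E'` -/
theorem s27kun_exists_tensor (U : Submodule M E) (f : Ω)
    (hU : f ∈ Submodule.span E' (algebraMap E Ω '' (U : Set E))) :
    ∃ t : E ⊗[M] E', s27kunMu M E E' Ω t = f ∧
      ∀ lam : E →ₗ[M] M, U ≤ LinearMap.ker lam → LinearMap.rTensor E' lam t = 0 := by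
  induction hU using Submodule.span_induction with
  | mem x hx =>
    obtain ⟨u, hu, rfl⟩ := hx
    refine ⟨u ⊗ₜ[M] (1 : E'), by rw [s27kunMu_tmul, map_one, mul_one], fun lam hlam => ?_⟩
    rw [LinearMap.rTensor_tmul, show lam u = 0 from hlam hu, TensorProduct.zero_tmul]
  | zero => exact ⟨0, map_zero _, fun lam _ => map_zero _⟩
  | add x y _ _ hx hy =>
    obtain ⟨t₁, h₁, h₁'⟩ := hx
    obtain ⟨t₂, h₂, h₂'⟩ := hy
    exact ⟨t₁ + t₂, by rw [map_add, h₁, h₂], fun lam hlam => by
      rw [map_add, h₁' lam hlam, h₂' lam hlam, add_zero]⟩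
  | smul c x _ hx =>
    obtain ⟨t, h, h'⟩ := hx
    refine ⟨((1 : E) ⊗ₜ[M] c) * t, ?_, fun lam hlam => ?_⟩
    · rw [map_mul, s27kunMu_tmul, map_one, one_mul, h, Algebra.smul_def]
    · -- `rTensor` is `E'`-linear for the right action
      have key : ∀ s : E ⊗[M] E', LinearMap.rTensor E' lam (((1 : E) ⊗ₜ[M] c) * s) =
          ((1 : M) ⊗ₜ[M] c) * LinearMap.rTensor E' lam s := by
        intro s
        induction s using TensorProduct.induction_on with
        | zero => simp
        | tmul a b =>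
          rw [Algebra.TensorProduct.tmul_mul_tmul, LinearMap.rTensor_tmul, LinearMap.rTensor_tmul,
            Algebra.TensorProduct.tmul_mul_tmul, one_mul, one_mul]
        | add s₁ s₂ h₁ h₂ => rw [mul_add, map_add, h₁, h₂, map_add, mul_add]
      rw [key, h' lam hlam, mul_zero]

/-- **(LD)** linear disjointness: if `f = ∑ d_l w_l` with `d_l ∈ E`, `(w_l)` an `M`-independent
family of `E'`, and `f` lies in the `E'`-span of an `M`-subspace `U` of `E`, then every
coefficient `d_l` lies in `U`. -/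
theorem s27kun_coeff_mem
    (hld : Function.Injective (s27kunMu M E E' Ω))
    (U : Submodule M E) {ι : Type*} [Fintype ι] (w : ι → E') (hw : LinearIndependent M w)
    (d : ι → E) (f : Ω)
    (hf : f = ∑ l, algebraMap E Ω (d l) * algebraMap E' Ω (w l))
    (hU : f ∈ Submodule.span E' (algebraMap E Ω '' (U : Set E))) :
    ∀ l, d l ∈ U := by
  classical
  obtain ⟨t, ht, hker⟩ := s27kun_exists_tensor U f hU
  have ht' : t = ∑ l, d l ⊗ₜ[M] w l := by
    apply hld
    rw [ht, hf, map_sum]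
    exact Finset.sum_congr rfl fun l _ => (s27kunMu_tmul _ _).symm
  intro l
  by_contra hl
  obtain ⟨lam, hlam, hUlam⟩ := Submodule.exists_le_ker_of_notMem hl
  have h0 := hker lam hUlam
  rw [ht', map_sum] at h0
  simp only [LinearMap.rTensor_tmul] at h0
  have h1 := congrArg (TensorProduct.lid M E') h0
  rw [map_sum, map_zero] at h1
  simp only [TensorProduct.lid_tmul] at h1
  have h2 := Fintype.linearIndependent_iff.mp hw (fun l => lam (d l)) h1 l
  exact hlam h2

end LD


section GFold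

variable {K F Ω : Type*} [Field K] [Field F] [Field Ω] [Algebra K F] [Algebra K Ω]

/-- the field generated by the coordinates `j < g`, `j ≠ k` -/
def s27kunN (ι : ℕ → F →ₐ[K] Ω) (g k : ℕ) : IntermediateField K Ω :=
  IntermediateField.adjoin K {x | ∃ j, j < g ∧ j ≠ k ∧ x ∈ Set.range (ι j)}

/-- the field generated by the coordinates `k ≤ j < g` -/
def s27kunL (ι : ℕ → F →ₐ[K] Ω) (g k : ℕ) : IntermediateField K Ω :=
  IntermediateField.adjoin K {x | ∃ j, k ≤ j ∧ j < g ∧ x ∈ Set.range (ι j)}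

variable (ι : ℕ → F →ₐ[K] Ω) (g : ℕ)

theorem s27kunL_succ_le_N (k : ℕ) : s27kunL ι g (k + 1) ≤ s27kunN ι g k := by
  apply IntermediateField.adjoin.mono
  rintro x ⟨j, hj1, hj2, hx⟩
  exact ⟨j, hj2, by omega, hx⟩

theorem s27kunL_succ_le (k : ℕ) : s27kunL ι g (k + 1) ≤ s27kunL ι g k := by
  apply IntermediateField.adjoin.mono
  rintro x ⟨j, hj1, hj2, hx⟩
  exact ⟨j, by omega, hj2, hx⟩

theorem s27kun_iota_mem_L {k : ℕ} (hk : k < g) (f : F) : ι k f ∈ s27kunL ι g k :=
  IntermediateField.subset_adjoin K _ ⟨k, le_rfl, hk, f, rfl⟩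

theorem s27kun_iota_mem_N {j k : ℕ} (hj : j < g) (hjk : j ≠ k) (f : F) :
    ι j f ∈ s27kunN ι g k :=
  IntermediateField.subset_adjoin K _ ⟨j, hj, hjk, f, rfl⟩

theorem s27kunL_self : s27kunL ι g g = ⊥ := by
  unfold s27kunL
  have : {x : Ω | ∃ j, g ≤ j ∧ j < g ∧ x ∈ Set.range (ι j)} = ∅ := by
    ext x
    simp only [Set.mem_ofPred_eq, Set.mem_empty_iff_false, iff_false]
    rintro ⟨j, h1, h2, -⟩
    omega
  rw [this, IntermediateField.adjoin_empty]

/-- the multiplication map `F ⊗ S → Ω` of the `k`-th coordinate and a subfield -/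
def s27kunMuK (k : ℕ) (S : IntermediateField K Ω) : F ⊗[K] S →ₐ[K] Ω :=
  Algebra.TensorProduct.productMap (ι k) S.val

theorem s27kunMuK_tmul (k : ℕ) (S : IntermediateField K Ω) (f : F) (s : S) :
    s27kunMuK ι k S (f ⊗ₜ[K] s) = ι k f * (s : Ω) := by
  simp [s27kunMuK]

/-- linear independence over a subfield, with coefficients in `Ω` -/
def S27kunInd (S : IntermediateField K Ω) {I : Type*} [Fintype I] (w : I → Ω) : Prop :=
  ∀ c : I → Ω, (∀ a, c a ∈ S) → ∑ a, c a * w a = 0 → ∀ a, c a = 0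

theorem S27kunInd.mono {S S' : IntermediateField K Ω} (h : S ≤ S') {I : Type*} [Fintype I]
    {w : I → Ω} (hw : S27kunInd S' w) : S27kunInd S w :=
  fun c hc h0 => hw c (fun a => h (hc a)) h0

theorem S27kunInd.linearIndependent {S : IntermediateField K Ω} {I : Type*} [Fintype I]
    {w : I → Ω} (hw : S27kunInd S w) : LinearIndependent S w := by
  rw [Fintype.linearIndependent_iff]
  intro c hc a
  have h := hw (fun a => (c a : Ω)) (fun a => (c a).2) (by
    rw [← hc]
    exact Finset.sum_congr rfl fun a _ => by rw [IntermediateField.smul_def]; rfl) a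
  exact Subtype.ext h

/-- **(F2)** a `K`-independent family of `F` is independent over the field of the other
coordinates (from the injectivity of `F ⊗ N_k → Ω`). -/
theorem s27kun_ind_of_inj (k : ℕ) (S : IntermediateField K Ω)
    (hld : Function.Injective (s27kunMuK ι k S)) {r : ℕ} (v : Fin r → F)
    (hv : LinearIndependent K v) : S27kunInd S (fun b => ι k (v b)) := by
  classical
  intro c hc h0 b
  have ht : (∑ b, v b ⊗ₜ[K] (⟨c b, hc b⟩ : S)) = 0 := by
    apply hld
    rw [map_sum, map_zero, ← h0]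
    exact Finset.sum_congr rfl fun b _ => by rw [s27kunMuK_tmul, mul_comm]
  -- the dual functional of `v b`
  obtain ⟨φ, hφ⟩ := LinearMap.exists_leftInverse_of_injective
    (Finsupp.linearCombination K v) (LinearMap.ker_eq_bot.mpr hv)
  have hφv : ∀ b', φ (v b') = Finsupp.single b' 1 := fun b' => by
    have := congrArg (fun l => l (Finsupp.single b' (1 : K))) hφ
    simpa using this
  let lam : F →ₗ[K] K := (Finsupp.lapply b).comp φ
  have h1 := congrArg (fun t => TensorProduct.lid K S (LinearMap.rTensor S lam t)) ht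
  simp only [map_sum, LinearMap.rTensor_tmul, TensorProduct.lid_tmul, map_zero] at h1
  have h2 : ∀ b', lam (v b') = if b' = b then 1 else 0 := fun b' => by
    show (φ (v b')) b = _
    rw [hφv, Finsupp.single_apply]
  simp only [h2, ite_smul, one_smul, zero_smul, Finset.sum_ite_eq', Finset.mem_univ,
    if_true] at h1
  exact congrArg Subtype.val h1

/-! ### denominators -/

/-- the ring `L_{k+1}[ι_k F]` -/
def s27kunA (k : ℕ) : Subalgebra K Ω := (s27kunMuK ι k (s27kunL ι g (k + 1))).range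

theorem s27kun_iota_mem_A (k : ℕ) (f : F) : ι k f ∈ s27kunA ι g k :=
  ⟨f ⊗ₜ[K] 1, by
    show s27kunMuK ι k (s27kunL ι g (k + 1)) (f ⊗ₜ[K] 1) = ι k f
    rw [s27kunMuK_tmul]; simp⟩

theorem s27kun_L_mem_A (k : ℕ) {x : Ω} (hx : x ∈ s27kunL ι g (k + 1)) : x ∈ s27kunA ι g k :=
  ⟨(1 : F) ⊗ₜ[K] (⟨x, hx⟩ : s27kunL ι g (k + 1)), by
    show s27kunMuK ι k (s27kunL ι g (k + 1)) ((1 : F) ⊗ₜ[K] (⟨x, hx⟩ : s27kunL ι g (k + 1))) = x
    rw [s27kunMuK_tmul]; simp⟩

/-- **(F1)** every element of `L_k` is a quotient of elements of `L_{k+1}[ι_k F]`. -/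
theorem s27kun_denom (k : ℕ) {x : Ω} (hx : x ∈ s27kunL ι g k) :
    ∃ q ∈ s27kunA ι g k, q ≠ 0 ∧ q * x ∈ s27kunA ι g k := by
  unfold s27kunL at hx
  induction hx using IntermediateField.adjoin_induction with
  | mem x hx =>
    obtain ⟨j, hj1, hj2, f, rfl⟩ := hx
    refine ⟨1, one_mem _, one_ne_zero, ?_⟩
    rw [one_mul]
    rcases Nat.eq_or_lt_of_le hj1 with h | h
    · subst h
      exact s27kun_iota_mem_A ι g k f
    · exact s27kun_L_mem_A ι g k
        (IntermediateField.subset_adjoin K _ ⟨j, h, hj2, f, rfl⟩)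
  | algebraMap x =>
    exact ⟨1, one_mem _, one_ne_zero, by rw [one_mul]; exact Subalgebra.algebraMap_mem _ x⟩
  | add x y _ _ hx hy =>
    obtain ⟨q, hq, hq0, hqx⟩ := hx
    obtain ⟨q', hq', hq0', hqy⟩ := hy
    refine ⟨q * q', mul_mem hq hq', mul_ne_zero hq0 hq0', ?_⟩
    have : q * q' * (x + y) = q' * (q * x) + q * (q' * y) := by ring
    rw [this]
    exact add_mem (mul_mem hq' hqx) (mul_mem hq hqy)
  | inv x _ hx =>
    obtain ⟨q, hq, hq0, hqx⟩ := hx
    rcases eq_or_ne x 0 with rfl | hx0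
    · exact ⟨1, one_mem _, one_ne_zero, by simp⟩
    · refine ⟨q * x, hqx, mul_ne_zero hq0 hx0, ?_⟩
      have : q * x * x⁻¹ = q := by field_simp
      rw [this]
      exact hq
  | mul x y _ _ hx hy =>
    obtain ⟨q, hq, hq0, hqx⟩ := hx
    obtain ⟨q', hq', hq0', hqy⟩ := hy
    refine ⟨q * q', mul_mem hq hq', mul_ne_zero hq0 hq0', ?_⟩
    have : q * q' * (x * y) = (q * x) * (q' * y) := by ring
    rw [this]
    exact mul_mem hqx hqy

/-- common denominators -/
theorem s27kun_denom_family (k : ℕ) {I : Type*} [Fintype I] (c : I → Ω)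
    (hc : ∀ a, c a ∈ s27kunL ι g k) :
    ∃ q ∈ s27kunA ι g k, q ≠ 0 ∧ ∀ a, q * c a ∈ s27kunA ι g k := by
  classical
  choose q hq hq0 hqc using fun a => s27kun_denom ι g k (hc a)
  refine ⟨∏ a, q a, prod_mem fun a _ => hq a,
    Finset.prod_ne_zero_iff.mpr fun a _ => hq0 a, fun a => ?_⟩
  rw [← Finset.mul_prod_erase Finset.univ q (Finset.mem_univ a)]
  have : q a * (∏ x ∈ Finset.univ.erase a, q x) * c a =
      (∏ x ∈ Finset.univ.erase a, q x) * (q a * c a) := by ring
  rw [this]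
  exact mul_mem (prod_mem fun x _ => hq x) (hqc a)

/-! ### the peeling step -/

theorem s27kunMuK_incl (k : ℕ) {S S' : IntermediateField K Ω} (h : S ≤ S') (s : F ⊗[K] S) :
    s27kunMuK ι k S' (Algebra.TensorProduct.map (AlgHom.id K F)
      (IntermediateField.inclusion h) s) = s27kunMuK ι k S s := by
  induction s using TensorProduct.induction_on with
  | zero => simp
  | tmul f m =>
    rw [Algebra.TensorProduct.map_tmul, s27kunMuK_tmul, s27kunMuK_tmul]
    rfl
  | add x y hx hy => rw [map_add, map_add, hx, hy, map_add]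

/-- **the peeling step**: if `∑ c_a w_a = ∑ n_b ι_k(v_b)` with `c_a ∈ L_k`, `n_b ∈ N_k` and
`(w_a)` a family of `N_k`, independent over `L_{k+1}`, then `c_a ∈ ∑_b L_{k+1} ι_k(v_b)`. -/
theorem s27kun_step (k : ℕ)
    (hld : Function.Injective (s27kunMuK ι k (s27kunN ι g k)))
    {I : Type*} [Fintype I] (w : I → Ω) (hwN : ∀ a, w a ∈ s27kunN ι g k)
    (hwind : S27kunInd (s27kunL ι g (k + 1)) w)
    (c : I → Ω) (hc : ∀ a, c a ∈ s27kunL ι g k)
    {r : ℕ} (v : Fin r → F) (n : Fin r → Ω) (hn : ∀ b, n b ∈ s27kunN ι g k)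
    (h : ∑ a, c a * w a = ∑ b, n b * ι k (v b)) :
    ∃ c' : I → Fin r → Ω, (∀ a b, c' a b ∈ s27kunL ι g (k + 1)) ∧
      ∀ a, c a = ∑ b, c' a b * ι k (v b) := by
  classical
  have hMN : s27kunL ι g (k + 1) ≤ s27kunN ι g k := s27kunL_succ_le_N ι g k
  obtain ⟨q, hqA, hq0, hqc⟩ := s27kun_denom_family ι g k c hc
  obtain ⟨sq, hsq⟩ : ∃ sq, s27kunMuK ι k (s27kunL ι g (k + 1)) sq = q := hqA
  have hqc' : ∀ a, ∃ s, s27kunMuK ι k (s27kunL ι g (k + 1)) s = q * c a := fun a => hqc a
  choose s hs using hqc'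
  -- the coordinate functionals of `w`
  have hwli : LinearIndependent (s27kunL ι g (k + 1)) w := hwind.linearIndependent
  have hwinj : Function.Injective (Finsupp.linearCombination (s27kunL ι g (k + 1)) w) := hwli
  obtain ⟨ξ, hξ⟩ := LinearMap.exists_leftInverse_of_injective
    (Finsupp.linearCombination (s27kunL ι g (k + 1)) w)
    (LinearMap.ker_eq_bot_of_injective hwinj)
  have hξw : ∀ a, ξ (w a) = Finsupp.single a 1 := fun a => by
    have := congrArg (fun l => l (Finsupp.single a (1 : s27kunL ι g (k + 1)))) hξ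
    simpa using this
  have hξsmul : ∀ (m : s27kunL ι g (k + 1)) (x : Ω) (a : I),
      ((ξ ((m : Ω) * x) a : s27kunL ι g (k + 1)) : Ω) = (m : Ω) * ((ξ x a : _) : Ω) := by
    intro m x a
    have h1 : (m : Ω) * x = m • x := by rw [IntermediateField.smul_def]; rfl
    rw [h1, map_smul]
    rfl
  refine ⟨fun a b => ((ξ (n b) a : s27kunL ι g (k + 1)) : Ω), fun a b => (ξ (n b) a).2, ?_⟩
  intro a₀
  -- the `K`-linear map `x ↦ ξ(x)_{a₀}`
  let ξa : Ω →ₗ[K] Ω :=
    { toFun := fun x => ((ξ x a₀ : s27kunL ι g (k + 1)) : Ω)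
      map_add' := fun x y => by rw [map_add]; rfl
      map_smul' := fun κ x => by
        have h1 : κ • x = ((algebraMap K (s27kunL ι g (k + 1)) κ : s27kunL ι g (k + 1)) : Ω) * x := by
          rw [Algebra.smul_def]; rfl
        rw [h1, hξsmul, RingHom.id_apply, Algebra.smul_def]
        rfl }
  have hξa : ∀ x, ξa x = ((ξ x a₀ : s27kunL ι g (k + 1)) : Ω) := fun _ => rfl
  let B : F →ₗ[K] (s27kunN ι g k) →ₗ[K] Ω :=
    (LinearMap.mul K Ω).compl₁₂ (ι k).toLinearMap (ξa ∘ₗ (s27kunN ι g k).val.toLinearMap)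
  let Ξ : F ⊗[K] (s27kunN ι g k) →ₗ[K] Ω := TensorProduct.lift B
  have hΞ : ∀ (f : F) (x : s27kunN ι g k), Ξ (f ⊗ₜ[K] x) = ι k f * ξa (x : Ω) := fun f x => by
    show TensorProduct.lift B (f ⊗ₜ[K] x) = _
    rw [TensorProduct.lift.tmul]
    rfl
  let j := Algebra.TensorProduct.map (AlgHom.id K F) (IntermediateField.inclusion hMN)
  have hstar : ∀ (s' : F ⊗[K] (s27kunL ι g (k + 1))) (t : F ⊗[K] (s27kunN ι g k)),
      Ξ (j s' * t) = s27kunMuK ι k (s27kunL ι g (k + 1)) s' * Ξ t := by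
    intro s' t
    induction s' using TensorProduct.induction_on with
    | zero => simp
    | add x y hx hy => rw [map_add, add_mul, map_add, hx, hy, map_add, add_mul]
    | tmul f m =>
      induction t using TensorProduct.induction_on with
      | zero => simp
      | add x y hx hy => rw [mul_add, map_add, hx, hy, map_add, mul_add]
      | tmul f' x =>
        show Ξ (Algebra.TensorProduct.map (AlgHom.id K F) (IntermediateField.inclusion hMN)
          (f ⊗ₜ[K] m) * f' ⊗ₜ[K] x) = _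
        rw [Algebra.TensorProduct.map_tmul, Algebra.TensorProduct.tmul_mul_tmul, hΞ, hΞ,
          s27kunMuK_tmul, hξa, hξa]
        have h1 : ((IntermediateField.inclusion hMN m * x : s27kunN ι g k) : Ω) =
            (m : Ω) * (x : Ω) := rfl
        rw [h1, hξsmul, AlgHom.id_apply, map_mul]
        ring
  -- the equation in `F ⊗ N_k`
  have hE : j sq * (∑ b, v b ⊗ₜ[K] (⟨n b, hn b⟩ : s27kunN ι g k)) =
      ∑ a, j (s a) * ((1 : F) ⊗ₜ[K] (⟨w a, hwN a⟩ : s27kunN ι g k)) := by
    apply hld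
    rw [map_mul, map_sum, map_sum]
    show s27kunMuK ι k (s27kunN ι g k) (Algebra.TensorProduct.map (AlgHom.id K F)
      (IntermediateField.inclusion hMN) sq) * _ = _
    rw [s27kunMuK_incl, hsq]
    have h2 : ∀ a, s27kunMuK ι k (s27kunN ι g k)
        (j (s a) * ((1 : F) ⊗ₜ[K] (⟨w a, hwN a⟩ : s27kunN ι g k))) = q * c a * w a := by
      intro a
      rw [map_mul]
      show s27kunMuK ι k (s27kunN ι g k) (Algebra.TensorProduct.map (AlgHom.id K F)
        (IntermediateField.inclusion hMN) (s a)) * _ = _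
      rw [s27kunMuK_incl, hs, s27kunMuK_tmul, map_one, one_mul]
    rw [Finset.sum_congr rfl fun a _ => h2 a]
    have h3 : ∀ b, s27kunMuK ι k (s27kunN ι g k)
        (v b ⊗ₜ[K] (⟨n b, hn b⟩ : s27kunN ι g k)) = n b * ι k (v b) := by
      intro b
      rw [s27kunMuK_tmul, mul_comm]
    rw [Finset.sum_congr rfl fun b _ => h3 b, ← h, Finset.mul_sum]
    exact Finset.sum_congr rfl fun a _ => by ring
  have hE' := congrArg Ξ hE
  rw [hstar, hsq, map_sum, map_sum] at hE'
  have h4 : ∀ a, Ξ (j (s a) * ((1 : F) ⊗ₜ[K] (⟨w a, hwN a⟩ : s27kunN ι g k))) =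
      if a = a₀ then q * c a₀ else 0 := by
    intro a
    rw [hstar, hs, hΞ, hξa, map_one, one_mul]
    show q * c a * ((ξ (w a) a₀ : s27kunL ι g (k + 1)) : Ω) = _
    rw [hξw, Finsupp.single_apply]
    split_ifs with haa
    · subst haa; simp
    · simp
  rw [Finset.sum_congr rfl fun a _ => h4 a, Finset.sum_ite_eq' Finset.univ a₀,
    if_pos (Finset.mem_univ _)] at hE'
  have h5 := mul_left_cancel₀ hq0 hE'
  rw [← h5]
  exact Finset.sum_congr rfl fun b _ => by rw [hΞ, hξa, mul_comm]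

/-! ### the products `∏_{i<k} ι_i(v_{a_i})` -/

/-- the index type `(Fin r)^k` -/
def s27kunIdx (r : ℕ) : ℕ → Type
  | 0 => Unit
  | k + 1 => s27kunIdx r k × Fin r

instance s27kunIdx_fintype (r : ℕ) : ∀ k, Fintype (s27kunIdx r k)
  | 0 => inferInstanceAs (Fintype Unit)
  | k + 1 =>
    haveI := s27kunIdx_fintype r k
    inferInstanceAs (Fintype (s27kunIdx r k × Fin r))

theorem s27kunIdx_card (r : ℕ) : ∀ k, Fintype.card (s27kunIdx r k) = r ^ k
  | 0 => by
    show Fintype.card Unit = _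
    simp
  | k + 1 => by
    show Fintype.card (s27kunIdx r k × Fin r) = _
    rw [Fintype.card_prod, s27kunIdx_card r k, Fintype.card_fin, pow_succ]

/-- the products `∏_{i<k} ι_i(v_{a_i})` -/
def s27kunW {r : ℕ} (v : Fin r → F) : ∀ k, s27kunIdx r k → Ω
  | 0 => fun _ => 1
  | k + 1 => fun (p : s27kunIdx r k × Fin r) => s27kunW v k p.1 * ι k (v p.2)

theorem s27kunW_succ {r : ℕ} (v : Fin r → F) (k : ℕ) (a : s27kunIdx r k) (b : Fin r) :
    s27kunW ι v (k + 1) ((a, b) : s27kunIdx r k × Fin r) = s27kunW ι v k a * ι k (v b) := rfl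

theorem s27kun_sum_succ {r : ℕ} (k : ℕ) (φ : s27kunIdx r (k + 1) → Ω) :
    ∑ p, φ p = ∑ a : s27kunIdx r k, ∑ b : Fin r, φ ((a, b) : s27kunIdx r k × Fin r) :=
  Fintype.sum_prod_type (f := fun p : s27kunIdx r k × Fin r => φ p)

theorem s27kunW_mem_N {r : ℕ} (v : Fin r → F) (k : ℕ) :
    ∀ k', k' ≤ k → k ≤ g → ∀ a, s27kunW ι v k' a ∈ s27kunN ι g k
  | 0 => fun _ _ _ => one_mem _
  | k' + 1 => fun h hk (p : s27kunIdx r k' × Fin r) =>
    mul_mem (s27kunW_mem_N v k k' (by omega) hk p.1)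
      (s27kun_iota_mem_N ι g (by omega) (by omega) _)

/-- **(F3)** the products of the first `k` coordinates are independent over the field of the
coordinates `≥ k`. -/
theorem s27kunW_ind {r : ℕ} (v : Fin r → F) (hv : LinearIndependent K v)
    (hld : ∀ k, k < g → Function.Injective (s27kunMuK ι k (s27kunN ι g k))) :
    ∀ k, k ≤ g → S27kunInd (s27kunL ι g k) (s27kunW ι v k)
  | 0 => fun _ c _ h0 a => by
    have h1 : ∑ a : s27kunIdx r 0, c a * s27kunW ι v 0 a = c a := by
      show ∑ a : Unit, c a * 1 = c a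
      simp
      rfl
    rw [← h1, h0]
  | k + 1 => fun hk c hc h0 (p : s27kunIdx r k × Fin r) => by
    have ih := s27kunW_ind v hv hld k (by omega)
    rw [s27kun_sum_succ] at h0
    have h1 : ∀ a : s27kunIdx r k,
        ∑ b : Fin r, c ((a, b) : s27kunIdx r k × Fin r) *
          s27kunW ι v (k + 1) ((a, b) : s27kunIdx r k × Fin r) =
        (∑ b : Fin r, c ((a, b) : s27kunIdx r k × Fin r) * ι k (v b)) * s27kunW ι v k a := by
      intro a
      rw [Finset.sum_mul]
      exact Finset.sum_congr rfl fun b _ => by rw [s27kunW_succ]; ring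
    rw [Finset.sum_congr rfl fun a _ => h1 a] at h0
    have h2 := ih (fun a => ∑ b : Fin r, c ((a, b) : s27kunIdx r k × Fin r) * ι k (v b))
      (fun a => sum_mem fun b _ => mul_mem (s27kunL_succ_le ι g k (hc _))
        (s27kun_iota_mem_L ι g (by omega) _)) h0 p.1
    exact s27kun_ind_of_inj ι k _ (hld k (by omega)) v hv
      (fun b => c ((p.1, b) : s27kunIdx r k × Fin r))
      (fun b => s27kunL_succ_le_N ι g k (hc _)) h2 p.2

/-! ### the theorem -/

/-- **Künneth, `g` factors** (peeling): an element of `L_0 = K(ι_0 F, …, ι_{g-1} F)` which lies,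
for every `k < g`, in the span of `ι_k(v)` over the field `N_k` of the other coordinates is a
`K`-combination of the products `∏_k ι_k(v_{a_k})`. -/
theorem s27kun_peel {r : ℕ} (v : Fin r → F) (hv : LinearIndependent K v)
    (hld : ∀ k, k < g → Function.Injective (s27kunMuK ι k (s27kunN ι g k)))
    (y : Ω) (hy0 : y ∈ s27kunL ι g 0)
    (hy : ∀ k, k < g → ∃ n : Fin r → Ω, (∀ b, n b ∈ s27kunN ι g k) ∧
      y = ∑ b, n b * ι k (v b)) :
    ∀ k, k ≤ g → ∃ c : s27kunIdx r k → Ω, (∀ a, c a ∈ s27kunL ι g k) ∧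
      y = ∑ a, c a * s27kunW ι v k a
  | 0 => fun _ => ⟨fun _ => y, fun _ => hy0, by
      show y = ∑ a : Unit, y * 1
      simp⟩
  | k + 1 => fun hk => by
    obtain ⟨c, hc, hyc⟩ := s27kun_peel v hv hld y hy0 hy k (by omega)
    obtain ⟨n, hn, hyn⟩ := hy k (by omega)
    obtain ⟨c', hc', hcc'⟩ := s27kun_step ι g k (hld k (by omega)) (s27kunW ι v k)
      (s27kunW_mem_N ι g v k k le_rfl (by omega))
      ((s27kunW_ind ι g v hv hld k (by omega)).mono (s27kunL_succ_le ι g k))
      c hc v n hn (by rw [← hyc, hyn])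
    refine ⟨fun (p : s27kunIdx r k × Fin r) => c' p.1 p.2, fun p => hc' _ _, ?_⟩
    rw [s27kun_sum_succ, hyc]
    refine Finset.sum_congr rfl fun a _ => ?_
    rw [hcc' a, Finset.sum_mul]
    exact Finset.sum_congr rfl fun b _ => by rw [s27kunW_succ]; ring

/-- **Künneth, `g` factors**: the conclusion in `K`. -/
theorem s27kun_mem_span {r : ℕ} (v : Fin r → F) (hv : LinearIndependent K v)
    (hld : ∀ k, k < g → Function.Injective (s27kunMuK ι k (s27kunN ι g k)))
    (y : Ω) (hy0 : y ∈ s27kunL ι g 0)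
    (hy : ∀ k, k < g → ∃ n : Fin r → Ω, (∀ b, n b ∈ s27kunN ι g k) ∧
      y = ∑ b, n b * ι k (v b)) :
    y ∈ Submodule.span K (Set.range (s27kunW ι v g)) := by
  obtain ⟨c, hc, hyc⟩ := s27kun_peel ι g v hv hld y hy0 hy g le_rfl
  rw [hyc]
  refine Submodule.sum_mem _ fun a _ => ?_
  have h1 := hc a
  rw [s27kunL_self, IntermediateField.mem_bot] at h1
  obtain ⟨κ, hκ⟩ := h1
  rw [← hκ, ← Algebra.smul_def]
  exact Submodule.smul_mem _ _ (Submodule.subset_span ⟨a, rfl⟩)

/-! ### consumer forms -/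

theorem s27kunN_zero_le_L : s27kunN ι g 0 ≤ s27kunL ι g 0 := by
  apply IntermediateField.adjoin.mono
  rintro x ⟨j, hj1, hj2, hx⟩
  exact ⟨j, Nat.zero_le _, hj1, hx⟩

/-- from the span over `N_k` of the image of a subspace `V` with basis `v` to explicit
coefficients. -/
theorem s27kun_exists_coeff (k : ℕ) (S : IntermediateField K Ω) (V : Submodule K F) {r : ℕ}
    (bV : Module.Basis (Fin r) K V) (y : Ω)
    (hy : y ∈ Submodule.span S ((ι k) '' (V : Set F))) :
    ∃ n : Fin r → Ω, (∀ b, n b ∈ S) ∧ y = ∑ b, n b * ι k ((bV b : V) : F) := by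
  have h1 : Submodule.span S ((ι k) '' (V : Set F)) ≤
      Submodule.span S (Set.range fun b => ι k ((bV b : V) : F)) := by
    rw [Submodule.span_le]
    rintro _ ⟨x, hx, rfl⟩
    have h2 : (⟨x, hx⟩ : V) = ∑ b, bV.repr ⟨x, hx⟩ b • bV b := (bV.sum_repr ⟨x, hx⟩).symm
    have h3 : x = ∑ b, bV.repr ⟨x, hx⟩ b • ((bV b : V) : F) := by
      have h5 := congrArg (fun z : V => (z : F)) h2
      have h6 : ((∑ b, bV.repr ⟨x, hx⟩ b • bV b : V) : F) =
          ∑ b, bV.repr ⟨x, hx⟩ b • ((bV b : V) : F) := by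
        rw [Submodule.coe_sum]
        rfl
      exact h5.trans h6
    rw [h3, map_sum]
    refine Submodule.sum_mem _ fun b _ => ?_
    rw [map_smul]
    have h4 : bV.repr ⟨x, hx⟩ b • ι k ((bV b : V) : F) =
        (algebraMap K S (bV.repr ⟨x, hx⟩ b)) • ι k ((bV b : V) : F) := by
      rw [Algebra.smul_def, IntermediateField.smul_def]
      rfl
    rw [h4]
    exact Submodule.smul_mem _ _ (Submodule.subset_span ⟨b, rfl⟩)
  obtain ⟨c, hc⟩ := (Submodule.mem_span_range_iff_exists_fun S).mp (h1 hy)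
  refine ⟨fun b => (c b : Ω), fun b => (c b).2, ?_⟩
  rw [← hc]
  exact Finset.sum_congr rfl fun b _ => by rw [IntermediateField.smul_def]; rfl

/-- **Künneth bound**: a `K`-subspace `T` of `Ω` all of whose elements lie, for every `k < g`,
in the span of `ι_k(V)` over the field `N_k` of the other coordinates, has dimension
`≤ (dim V)^g`. -/
theorem s27kun_finrank_le (hg : 0 < g) (V : Submodule K F) [FiniteDimensional K V]
    (hld : ∀ k, k < g → Function.Injective (s27kunMuK ι k (s27kunN ι g k)))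
    (T : Submodule K Ω)
    (hT : ∀ y ∈ T, ∀ k, k < g →
      y ∈ Submodule.span (s27kunN ι g k) ((ι k) '' (V : Set F))) :
    Module.Finite K T ∧ Module.finrank K T ≤ (Module.finrank K V) ^ g := by
  classical
  let bV := Module.finBasis K V
  let v : Fin (Module.finrank K V) → F := fun b => ((bV b : V) : F)
  have hv : LinearIndependent K v :=
    bV.linearIndependent.map' V.subtype (Submodule.ker_subtype V)
  have hle : T ≤ Submodule.span K (Set.range (s27kunW ι v g)) := by
    intro y hy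
    have hcoef : ∀ k, k < g → ∃ n : Fin (Module.finrank K V) → Ω,
        (∀ b, n b ∈ s27kunN ι g k) ∧ y = ∑ b, n b * ι k (v b) := fun k hk =>
      s27kun_exists_coeff ι k _ V bV y (hT y hy k hk)
    refine s27kun_mem_span ι g v hv hld y ?_ hcoef
    obtain ⟨n, hn, hyn⟩ := hcoef 0 hg
    rw [hyn]
    exact sum_mem fun b _ => mul_mem (s27kunN_zero_le_L ι g (hn b)) (s27kun_iota_mem_L ι g hg _)
  haveI : FiniteDimensional K (Submodule.span K (Set.range (s27kunW ι v g))) :=
    FiniteDimensional.span_of_finite K (Set.finite_range _)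
  refine ⟨Submodule.finiteDimensional_of_le hle, ?_⟩
  calc Module.finrank K T
      ≤ Module.finrank K (Submodule.span K (Set.range (s27kunW ι v g))) :=
        Submodule.finrank_mono hle
    _ ≤ Fintype.card (s27kunIdx (Module.finrank K V) g) := finrank_range_le_card _
    _ = (Module.finrank K V) ^ g := s27kunIdx_card _ _

end GFold

end Fermat.Agent.S27
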