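/-
S27 route B, piece KÜNNETH, part 2 (helper28): the plug of `S27/Kunneth.lean` into the model
`Ω_{g+1} = Frac(F^{⊗(g+1)})` of helper33 (S27/GenField.lean, S27/GenFieldTower.lean).

* `s27kmIota K F g : ℕ → F →ₐ[K] Ω_{g+1}` : the coordinates, indexed by `ℕ`;
* `s27km_kappa_mem_N`, `s27km_N_le_range` : `κ_i(Ω_g)` = the field `N_i` generated by the
  coordinates `≠ i`;
* `s27km_hld` : the hypothesis `hld` of `s27kun_finrank_le` (from `s27gft_prod_injective`);
* **`s27km_finrank_le`** : `V ≤ F` finite-dimensional over `K`, `T ≤ Ω_{g+1}` a `K`-subspace with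
  `∀ y ∈ T, ∀ i, y ∈ span_{Ω_g} (ι_i '' V)` (`Ω_g` acting through `κ_i`, i.e. the literal shape of
  (RR-D) `s26errd_rr_eq'` for `𝔠 = F` via `ι_i`, `𝔎 = Ω_g`)
  ⇒ `Module.Finite K T ∧ finrank K T ≤ (finrank K V)^(g+1)`.
-/
import Fermat.Agent.S27.Kunneth
import Fermat.Agent.S27.GenFieldTower

set_option autoImplicit false
set_option linter.unusedSectionVars false
set_option linter.unusedVariables false
set_option linter.style.haveILetI false

noncomputable section

open TensorProduct Fermat.Agent.S26

namespace Fermat.Agent.S27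

universe u v

section Model

variable (K : Type u) (F : Type v) [Field K] [IsAlgClosed K] [Field F] [Algebra K F] (g : ℕ)

/-- the `ℕ`-indexed coordinate family of `Ω_{g+1}` -/
def s27kmIota (k : ℕ) : F →ₐ[K] s27gfOm K F (g + 1) :=
  if h : k < g + 1 then s27gfIota ⟨k, h⟩ else s27gfIota 0

variable {K F g}

theorem s27kmIota_fin (i : Fin (g + 1)) : s27kmIota K F g i = s27gfIota i := by
  unfold s27kmIota
  rw [dif_pos i.2]

theorem s27kmIota_of_lt {k : ℕ} (h : k < g + 1) : s27kmIota K F g k = s27gfIota ⟨k, h⟩ := by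
  unfold s27kmIota
  rw [dif_pos h]

/-- a subalgebra of `Ω_g` which is a field and contains the coordinates is everything:
here for the comap of an intermediate field along an embedding. -/
theorem s27km_mem_of_iota {M : Type*} [Field M] [Algebra K M] (S : IntermediateField K M)
    {n : ℕ} (φ : s27gfOm K F n →ₐ[K] M) (h : ∀ (k : Fin n) (f : F), φ (s27gfIota k f) ∈ S)
    (x : s27gfOm K F n) : φ x ∈ S := by
  haveI := s27gf_isDomain K F n
  have hR : ∀ r : s27gfR K F n, φ (algebraMap (s27gfR K F n) (s27gfOm K F n) r) ∈ S := by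
    intro r
    induction r using PiTensorProduct.induction_on with
    | smul_tprod c x =>
      have h1 : PiTensorProduct.tprod K x = ∏ i, s27gfSingle (K := K) (F := F) i (x i) := by
        have := s27gfLiftR_tprod (fun i => s27gfSingle (K := K) (F := F) (g := n) i) x
        rw [s27gfLiftR_single_id] at this
        exact this
      rw [h1, Algebra.smul_def, map_mul, map_mul, map_prod, map_prod]
      refine mul_mem ?_ (prod_mem fun i _ => h i (x i))
      have h2 : φ (algebraMap (s27gfR K F n) (s27gfOm K F n) (algebraMap K (s27gfR K F n) c)) =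
          algebraMap K M c := by
        rw [← IsScalarTower.algebraMap_apply K (s27gfR K F n) (s27gfOm K F n), AlgHom.commutes]
      rw [h2]
      exact S.algebraMap_mem c
    | add x y hx hy =>
      rw [map_add, map_add]
      exact add_mem hx hy
  obtain ⟨r, s, hs, rfl⟩ := IsFractionRing.div_surjective (A := s27gfR K F n) x
  rw [map_div₀]
  exact div_mem (hR r) (hR s)

/-- `κ_i(Ω_g) ⊆ N_i` -/
theorem s27km_kappa_mem_N (i : Fin (g + 1)) (x : s27gfOm K F g) :
    s27gftKappa i x ∈ s27kunN (s27kmIota K F g) (g + 1) i := by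
  refine s27km_mem_of_iota _ (s27gftKappa i) (fun k f => ?_) x
  rw [s27gftKappa_iota]
  refine IntermediateField.subset_adjoin K _ ⟨(i.succAbove k : ℕ), (i.succAbove k).2, ?_, f, ?_⟩
  · intro h
    exact Fin.succAbove_ne i k (Fin.ext h)
  · rw [s27kmIota_fin]

/-- `N_i ⊆ κ_i(Ω_g)` -/
theorem s27km_N_le_range (i : Fin (g + 1)) :
    s27kunN (s27kmIota K F g) (g + 1) i ≤ (s27gftKappa (K := K) (F := F) i).fieldRange := by
  unfold s27kunN
  rw [IntermediateField.adjoin_le_iff]
  rintro x ⟨j, hj, hji, f, rfl⟩
  rw [s27kmIota_of_lt hj]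
  have hne : (⟨j, hj⟩ : Fin (g + 1)) ≠ i := fun h => hji (congrArg Fin.val h)
  obtain ⟨k, hk⟩ := Fin.exists_succAbove_eq hne
  exact ⟨s27gfIota k f, by rw [← hk]; exact s27gftKappa_iota i k f⟩

/-- **(LD)** for the model: the hypothesis `hld` of `s27kun_finrank_le`. -/
theorem s27km_hld (k : ℕ) (hk : k < g + 1) :
    Function.Injective (s27kunMuK (s27kmIota K F g) k (s27kunN (s27kmIota K F g) (g + 1) k)) := by
  let i : Fin (g + 1) := ⟨k, hk⟩
  let e := AlgEquiv.ofInjectiveField (s27gftKappa (K := K) (F := F) i)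
  have hle : (s27kunN (s27kmIota K F g) (g + 1) k).toSubalgebra ≤
      (s27gftKappa (K := K) (F := F) i).range := fun x hx => by
    obtain ⟨z, hz⟩ := s27km_N_le_range i hx
    exact ⟨z, hz⟩
  let θ : s27kunN (s27kmIota K F g) (g + 1) k →ₐ[K] s27gfOm K F g :=
    (e.symm : _ →ₐ[K] _).comp (Subalgebra.inclusion hle)
  have hθ : ∀ x, s27gftKappa i (θ x) = (x : s27gfOm K F (g + 1)) := by
    intro x
    have h1 : (e (e.symm (Subalgebra.inclusion hle x)) :
        s27gfOm K F (g + 1)) = s27gftKappa i (θ x) := rfl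
    rw [← h1, AlgEquiv.apply_symm_apply]
    rfl
  have hθinj : Function.Injective θ := by
    intro x y hxy
    have h1 := congrArg (s27gftKappa (K := K) (F := F) i) hxy
    rw [hθ, hθ] at h1
    exact Subtype.ext h1
  have hcomp : ∀ t, s27kunMuK (s27kmIota K F g) k (s27kunN (s27kmIota K F g) (g + 1) k) t =
      Algebra.TensorProduct.productMap (s27gfIota (K := K) (F := F) i) (s27gftKappa i)
        (Algebra.TensorProduct.map (AlgHom.id K F) θ t) := by
    intro t
    induction t using TensorProduct.induction_on with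
    | zero => simp
    | tmul f x =>
      rw [s27kunMuK_tmul, Algebra.TensorProduct.map_tmul,
        Algebra.TensorProduct.productMap_apply_tmul, hθ, s27kmIota_of_lt hk]
      rfl
    | add x y hx hy => rw [map_add, map_add, map_add, hx, hy]
  intro x y hxy
  rw [hcomp, hcomp] at hxy
  exact s26ettb_map_right_injective θ hθinj (s27gft_prod_injective i hxy)

/-- the span over `Ω_g` (acting through `κ_i`) is contained in the span over `N_i` -/
theorem s27km_span_le (i : Fin (g + 1)) (S : Set (s27gfOm K F (g + 1)))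
    (y : s27gfOm K F (g + 1))
    (hy : letI := s27gftAlgOm (K := K) (F := F) i
      y ∈ Submodule.span (s27gfOm K F g) S) :
    y ∈ Submodule.span (s27kunN (s27kmIota K F g) (g + 1) i) S := by
  letI := s27gftAlgOm (K := K) (F := F) i
  induction hy using Submodule.span_induction with
  | mem x hx => exact Submodule.subset_span hx
  | zero => exact Submodule.zero_mem _
  | add x y _ _ hx hy => exact Submodule.add_mem _ hx hy
  | smul c x _ hx =>
    have h1 : c • x = (⟨s27gftKappa i c, s27km_kappa_mem_N i c⟩ :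
        s27kunN (s27kmIota K F g) (g + 1) i) • x := by
      rw [Algebra.smul_def, IntermediateField.smul_def]
      rfl
    rw [h1]
    exact Submodule.smul_mem _ _ hx

/-- **Künneth bound for the model** `Ω_{g+1} = K(C^{g+1})`: a `K`-subspace `T` of `Ω_{g+1}` all of
whose elements lie, for every coordinate `i`, in the span of `ι_i(V)` over `Ω_g` (acting through
`κ_i`), has dimension `≤ (dim V)^(g+1)`. -/
theorem s27km_finrank_le (V : Submodule K F) [FiniteDimensional K V]
    (T : Submodule K (s27gfOm K F (g + 1)))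
    (hT : ∀ y ∈ T, ∀ i : Fin (g + 1),
      letI := s27gftAlgOm (K := K) (F := F) i
      y ∈ Submodule.span (s27gfOm K F g) ((s27gfIota (K := K) (F := F) i) '' (V : Set F))) :
    Module.Finite K T ∧ Module.finrank K T ≤ (Module.finrank K V) ^ (g + 1) := by
  refine s27kun_finrank_le (s27kmIota K F g) (g + 1) (Nat.succ_pos g) V
    (fun k hk => s27km_hld k hk) T (fun y hy k hk => ?_)
  have h := s27km_span_le ⟨k, hk⟩ _ y (hT y hy ⟨k, hk⟩)
  rw [s27kmIota_of_lt hk]
  exact h

end Model

end Fermat.Agent.S27

end
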