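/-
S27 route B, piece KÜNNETH, part 3 = UP-RRD (helper28): the Künneth bound in RIEMANN–ROCH form, on
helper33's tower `Ω_{g+1} / κ_i(Ω_g)` (S27/GenFieldTower.lean), with helper65's (RR-D) `s26errd_rr_eq'`.

`K` algebraically closed of characteristic `0`, `F / K` a curve (`x : F` transcendental with
`[F : K(x)] < ∞`), `Con_i B := Finsupp.mapDomain (s26gspCon (s27gft_hld i) (s27gft_hgen i)
(s26gspf_hall hx)) B` the constant divisor of `Ω_{g+1} / κ_i(Ω_g)` over the divisor `B` of `F / K`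
(coordinate `i`).

* `s27kr_mem_span`   : `y ∈ L_{Ω_g}(Con_i B)  ⇒  y ∈ span_{N_i} ι_i(L_K(B))`;
* `s27kr_finrank_le` : `T ≤ Ω_{g+1}` a `K`-subspace with `∀ y ∈ T, ∀ i, y ∈ L_{Ω_g}(Con_i B)`
                        ⇒ `Module.Finite K T ∧ finrank K T ≤ l(B)^(g+1)`;
* `s27kr_finrank_rr_le` : `l(B) ≤ deg B + 1` for `0 ≤ B`;
* **`s27kr_up`** : (FIN) + (UP) from the PLACE-WISE bound: `j : 𝔐 →ₗ[K] Ω_{g+1}` injective, `Θ ≠ 0`,
  `0 ≤ B₁`, `∀ m, ∀ z ∈ L m, ∀ i, j z * Θ^m ∈ L_{Ω_g}(Con_i (m • B₁))`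
  ⇒ `(∀ m, Module.Finite K (L m)) ∧ ∃ c₂, ∀ m ≥ 1, finrank K (L m) ≤ c₂ * m^(g+1)`.
-/
import Fermat.Agent.S27.KunnethModel
import Fermat.Agent.S27.GenusBC
import Fermat.Agent.S26.ERRGInst

set_option autoImplicit false
set_option linter.unusedSectionVars false
set_option linter.unusedVariables false
set_option linter.style.haveILetI false

noncomputable section

open TensorProduct AlgebraicCurve Module IntermediateField Fermat.Agent.S26

namespace Fermat.Agent.S27

universe u v

section KR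

variable {K : Type u} {F : Type v} [Field K] [IsAlgClosed K] [CharZero K] [Field F] [Algebra K F]
  {g : ℕ}

/-- **(RR-D) on the tower**: an element of `L_{Ω_g}(Con_i B)` (coordinate `i` of `Ω_{g+1}`) lies in
the span of `ι_i(L_K(B))` over the field `N_i` of the other coordinates. -/
theorem s27kr_mem_span (i : Fin (g + 1)) {x : F} (hx : Transcendental K x)
    [FiniteDimensional K⟮x⟯ F] (B : Divisor K F) (y : s27gfOm K F (g + 1)) :
    letI := s27gftAlgF (K := K) (F := F) i
    letI := s27gftAlgOm (K := K) (F := F) i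
    haveI := s27gft_towerF (K := K) (F := F) i
    haveI := s27gft_towerOm (K := K) (F := F) i
    y ∈ riemannRochSpace (Finsupp.mapDomain
        (s26gspCon (s27gft_hld i) (s27gft_hgen i) (s26gspf_hall hx)) B) →
      y ∈ Submodule.span (s27kunN (s27kmIota K F g) (g + 1) i)
        ((s27gfIota (K := K) (F := F) i) '' (riemannRochSpace B : Set F)) := by
  letI := s27gftAlgF (K := K) (F := F) i
  letI := s27gftAlgOm (K := K) (F := F) i
  haveI := s27gft_towerF (K := K) (F := F) i
  haveI := s27gft_towerOm (K := K) (F := F) i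
  intro hy
  rw [s26errd_rr_eq' (s27gft_hld i) (s27gft_hgen i) (s26gspf_hall hx) (s27gbc_hΓ hx) B] at hy
  exact s27km_span_le i _ y hy

/-- **Künneth bound, Riemann–Roch form**: a `K`-subspace `T` of `Ω_{g+1}` all of whose elements
lie in `L_{Ω_g}(Con_i B)` for every coordinate `i` has dimension `≤ l(B)^(g+1)`. -/
theorem s27kr_finrank_le {x : F} (hx : Transcendental K x) [FiniteDimensional K⟮x⟯ F]
    (B : Divisor K F) (T : Submodule K (s27gfOm K F (g + 1)))
    (hT : ∀ y ∈ T, ∀ i : Fin (g + 1),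
      letI := s27gftAlgF (K := K) (F := F) i
      letI := s27gftAlgOm (K := K) (F := F) i
      haveI := s27gft_towerF (K := K) (F := F) i
      haveI := s27gft_towerOm (K := K) (F := F) i
      y ∈ riemannRochSpace (Finsupp.mapDomain
        (s26gspCon (s27gft_hld i) (s27gft_hgen i) (s26gspf_hall hx)) B)) :
    Module.Finite K T ∧
      Module.finrank K T ≤ (Module.finrank K (riemannRochSpace B)) ^ (g + 1) := by
  haveI : Module.Finite K ↥(riemannRochSpace B) := s26err_rr_finite' x hx B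
  refine s27kun_finrank_le (s27kmIota K F g) (g + 1) (Nat.succ_pos g) (riemannRochSpace B)
    (fun k hk => s27km_hld k hk) T (fun y hy k hk => ?_)
  have h := s27kr_mem_span ⟨k, hk⟩ hx B y (hT y hy ⟨k, hk⟩)
  rw [s27kmIota_of_lt hk]
  exact h

/-- `l(B) ≤ deg B + 1` for `0 ≤ B`. -/
theorem s27kr_finrank_rr_le {x : F} (hx : Transcendental K x) [FiniteDimensional K⟮x⟯ F]
    {B : Divisor K F} (hB : 0 ≤ B) :
    (Module.finrank K (riemannRochSpace B) : ℤ) ≤ Divisor.degree B + 1 := by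
  haveI := s26err_hasPrincipalDivisors (K := K) x hx
  exact s26err_finrank_le_degree_add_one (fun v => s26err_residue_finite x hx v)
    (s26errg_rr_zero_finrank x hx).le hB

/-- **(FIN) + (UP) from the place-wise bound.**  `j : 𝔐 → Ω_{g+1}` an injective `K`-linear map
(e.g. the inclusion of `𝔉 = s27gfSym`), `Θ ≠ 0`, `B₁ ≥ 0` a divisor of `F / K`, `L m` subspaces of
`𝔐` with `j x · Θ^m ∈ L_{Ω_g}(Con_i (m B₁))` for every `x ∈ L m` and every coordinate `i`.  Then
every `L m` is finite-dimensional and `dim L m ≤ (deg B₁ + 1)^(g+1) · m^(g+1)` for `m ≥ 1`. -/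
theorem s27kr_up {x : F} (hx : Transcendental K x) [FiniteDimensional K⟮x⟯ F]
    (B₁ : Divisor K F) (hB₁ : 0 ≤ B₁) {𝔐 : Type*} [AddCommGroup 𝔐] [Module K 𝔐]
    (j : 𝔐 →ₗ[K] s27gfOm K F (g + 1)) (hj : Function.Injective j)
    (Θ : s27gfOm K F (g + 1)) (hΘ : Θ ≠ 0) (L : ℕ → Submodule K 𝔐)
    (hL : ∀ m, ∀ z ∈ L m, ∀ i : Fin (g + 1),
      letI := s27gftAlgF (K := K) (F := F) i
      letI := s27gftAlgOm (K := K) (F := F) i
      haveI := s27gft_towerF (K := K) (F := F) i
      haveI := s27gft_towerOm (K := K) (F := F) i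
      j z * Θ ^ m ∈ riemannRochSpace (Finsupp.mapDomain
        (s26gspCon (s27gft_hld i) (s27gft_hgen i) (s26gspf_hall hx)) (m • B₁))) :
    (∀ m, Module.Finite K (L m)) ∧
      ∃ c₂ : ℕ, ∀ m, 1 ≤ m → Module.finrank K (L m) ≤ c₂ * m ^ (g + 1) := by
  -- the injective map `z ↦ j z · Θ^m`
  let φ : ℕ → 𝔐 →ₗ[K] s27gfOm K F (g + 1) := fun m =>
    (LinearMap.mulRight K (Θ ^ m)).comp j
  have hφ : ∀ m z, φ m z = j z * Θ ^ m := fun m z => rfl
  have hφinj : ∀ m, Function.Injective (φ m) := by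
    intro m a b hab
    rw [hφ, hφ] at hab
    exact hj (mul_right_cancel₀ (pow_ne_zero m hΘ) hab)
  have key : ∀ m, Module.Finite K ((L m).map (φ m)) ∧
      Module.finrank K ((L m).map (φ m)) ≤
        (Module.finrank K (riemannRochSpace (m • B₁))) ^ (g + 1) := by
    intro m
    refine s27kr_finrank_le hx (m • B₁) _ ?_
    rintro y ⟨z, hz, rfl⟩ i
    exact hL m z hz i
  have hfin : ∀ m, Module.Finite K (L m) := fun m => by
    haveI := (key m).1
    exact Module.Finite.equiv (Submodule.equivMapOfInjective (φ m) (hφinj m) (L m)).symm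
  refine ⟨hfin, ((Divisor.degree B₁).toNat + 1) ^ (g + 1), fun m hm => ?_⟩
  have h1 : Module.finrank K (L m) = Module.finrank K ((L m).map (φ m)) :=
    LinearEquiv.finrank_eq (Submodule.equivMapOfInjective (φ m) (hφinj m) (L m))
  rw [h1]
  refine (key m).2.trans ?_
  rw [← mul_pow]
  refine Nat.pow_le_pow_left ?_ _
  have hmB : (0 : Divisor K F) ≤ m • B₁ := nsmul_nonneg hB₁ m
  have h2 := s27kr_finrank_rr_le hx hmB
  rw [map_nsmul] at h2
  have hd : 0 ≤ Divisor.degree B₁ := by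
    have := Fermat.Agent.ES.R.degree_mono hB₁
    rwa [map_zero] at this
  have h3 : ((Divisor.degree B₁).toNat : ℤ) = Divisor.degree B₁ := Int.toNat_of_nonneg hd
  have h4 : (Module.finrank K (riemannRochSpace (m • B₁)) : ℤ) ≤
      (((Divisor.degree B₁).toNat + 1) * m : ℕ) := by
    push_cast
    rw [h3]
    have hm' : (1 : ℤ) ≤ m := by exact_mod_cast hm
    simp only [nsmul_eq_mul] at h2
    nlinarith
  exact_mod_cast h4

end KR

end Fermat.Agent.S27

end
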