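/-
S27 route B, leaf UP-bound, β-FACTOR (helper28), on the hub's concrete definitions (S27/PtDef.lean)
and helper96's Gauss places (S26/ERRGaussCon.lean).

Setting of S26-gsp: `K 𝔠 𝔎 Ω`, `Ω = Frac (𝔠 ⊗[K] 𝔎)` (`hld`, `hgen`, `hall`), `w : Place 𝔎 Ω`,
points `R k : 𝔠 →ₐ[K] Ω` (`k : Fin N`) with `R i₀ = algebraMap 𝔠 Ω` (the moving coordinate) and
`R k u ∈ 𝔎` for `k ≠ i₀` (the other points are constants of `𝔎`).  `A' ≤ B₁`, `0 ≤ B₁`.

* `s27ub_ord_row`  : `φ ∈ 𝓕 = s27ptF W_w R A'` ⇒ `−(Con B₁)(w) ≤ ord_w (R i₀ φ)`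
                     (the centre of `R i₀` along `W_w` is `Q` iff `w = Con Q`);
* `s27ub_ord_det`  : `−(Con B₁)(w) ≤ ord_w det [R k (φ j)]` for `φ j ∈ 𝓕`;
* `s27ub_beta_ord` : `x` a local equation (`S27ptIsIdx W_w R A' x`), `x ≠ 0`, `θ = det [R k (f₀ l)]`:
                     `θ ≠ 0 ∧ −(Con B₁)(w) ≤ ord_w θ − ord_w x`;
* `s27ub_beta`     : the same as `z · x^m ∈ W_w → z · θ^m = 0 ∨ −m (Con B₁)(w) ≤ ord_w (z · θ^m)`;
* `s27ub_mem_rr`   : `(∀ w, ∃ b ≠ 0, z · b^m ∈ W_w ∧ −D(w) ≤ ord_w Θ − ord_w b) → z · Θ^m ∈ L(m • D)`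
                     (the bridge to `hL` of `s27kr_up`, S27/KunnethRR.lean; order bounds of several
                     factors ADD: `ord (Θ Θ') − ord (b b') = …`);
* `s27ub_model`    : `s27ub_beta_ord` on helper33's tower `Ω_{g+1} / κ_i(Ω_g)`, `R = ι`.
-/
import Fermat.Agent.S27.PtDef
import Fermat.Agent.S26.ERRGaussCon
import Fermat.Agent.S24.GaloisCount
import Fermat.Agent.S24.PlaceBasic
import Fermat.Agent.S27.GenFieldTower
import Fermat.Agent.S26.ERRGaussHPD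

set_option autoImplicit false
set_option linter.unusedSectionVars false
set_option linter.unusedVariables false
set_option linter.style.haveILetI false

noncomputable section

open AlgebraicCurve TensorProduct Fermat.Agent.S26 Fermat.Agent.S24

namespace Fermat.Agent.S27

section UB

variable {K 𝔠 𝔎 Ω : Type*} [Field K] [Field 𝔠] [Field 𝔎] [Field Ω]
  [Algebra K 𝔠] [Algebra K 𝔎] [Algebra K Ω] [Algebra 𝔠 Ω] [Algebra 𝔎 Ω]
  [IsScalarTower K 𝔠 Ω] [IsScalarTower K 𝔎 Ω]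
  (hld : Function.Injective (s26gspMu K 𝔠 𝔎 Ω)) (hgen : S26gspGen K 𝔠 𝔎 Ω)
  (hall : ∀ P : Place K 𝔠, Function.Surjective (algebraMap K P.ResidueField))

/-- the order of a function of `𝓕` in the moving coordinate, at a place `w` of `Ω / 𝔎`. -/
theorem s27ub_ord_row {N : ℕ} (w : Place 𝔎 Ω) (R : Fin N → 𝔠 →ₐ[K] Ω) (i₀ : Fin N)
    (hR₀ : ∀ u, R i₀ u = algebraMap 𝔠 Ω u) (A' B₁ : Divisor K 𝔠) (hAB : A' ≤ B₁) (hB₁ : 0 ≤ B₁)
    (φ : 𝔠) (hφ : φ ∈ s27ptF w.toValuationSubring R A') :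
    -(Finsupp.mapDomain (s26gspCon hld hgen hall) B₁ w) ≤ w.ord (R i₀ φ) := by
  rw [hR₀]
  by_cases hw : ∃ Q, w = s26gspCon hld hgen hall Q
  · obtain ⟨Q, rfl⟩ := hw
    rw [s26gspc_mapDomain_apply_con, s26gspc_ord_algebraMap]
    have hAQ : A' Q ≤ B₁ Q := hAB Q
    rcases eq_or_ne φ 0 with rfl | hφ0
    · rw [Place.ord_zero]
      have : 0 ≤ B₁ Q := hB₁ Q
      omega
    · have hc : S27ptIsCentre (s26gspCon hld hgen hall Q).toValuationSubring (R i₀) Q := by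
        unfold S27ptIsCentre
        have h1 := s26gspc_comap hld hgen hall Q
        rw [← h1]
        ext u
        simp only [ValuationSubring.mem_comap]
        show R i₀ u ∈ _ ↔ algebraMap 𝔠 Ω u ∈ _
        rw [hR₀]
      have h2 := hφ Q i₀ hc
      rw [Fermat.Agent.S24.PlaceAux.adicValuation_eq_exp_neg_ord Q hφ0, WithZero.exp_le_exp] at h2
      omega
  · have hw' : ∀ Q, w ≠ s26gspCon hld hgen hall Q := fun Q h => hw ⟨Q, h⟩
    rw [s26gspc_ord_eq_zero hld hgen hall w hw',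
      s26gspc_mapDomain_apply_of_trivial hld hgen hall B₁ w
        (fun u => s26gspc_ord_eq_zero hld hgen hall w hw' u)]
    simp

/-- **the determinant of values of a family of `𝓕`** at a place `w` of `Ω / 𝔎`: the rows `k ≠ i₀`
are constants of `𝔎`, the row `i₀` is the moving coordinate. -/
theorem s27ub_ord_det {N : ℕ} (w : Place 𝔎 Ω) (R : Fin N → 𝔠 →ₐ[K] Ω) (i₀ : Fin N)
    (hR₀ : ∀ u, R i₀ u = algebraMap 𝔠 Ω u)
    (hRk : ∀ k, k ≠ i₀ → ∀ u, ∃ c : 𝔎, R k u = algebraMap 𝔎 Ω c)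
    (A' B₁ : Divisor K 𝔠) (hAB : A' ≤ B₁) (hB₁ : 0 ≤ B₁)
    (φ : Fin N → 𝔠) (hφ : ∀ j, φ j ∈ s27ptF w.toValuationSubring R A')
    (hd : (s27ptVal R φ).det ≠ 0) :
    -(Finsupp.mapDomain (s26gspCon hld hgen hall) B₁ w) ≤ w.ord (s27ptVal R φ).det := by
  classical
  set c : ℤ := Finsupp.mapDomain (s26gspCon hld hgen hall) B₁ w with hc
  have hc0 : 0 ≤ c := by
    have h := s27ub_ord_row hld hgen hall w R i₀ hR₀ A' B₁ hAB hB₁ 0 (Submodule.zero_mem _)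
    rw [map_zero, Place.ord_zero] at h
    omega
  obtain ⟨ϖ, hϖ⟩ := place_exists_ord_eq_one w
  have hϖ0 : ϖ ≠ 0 := by
    rintro rfl
    rw [Place.ord_zero] at hϖ
    exact zero_ne_one hϖ
  -- scale the row `i₀`
  let M := s27ptVal R φ
  let M' := Matrix.updateRow M i₀ ((ϖ ^ c) • M i₀)
  have hM' : M'.det = ϖ ^ c * M.det := by
    show (Matrix.updateRow M i₀ ((ϖ ^ c) • M i₀)).det = _
    rw [Matrix.det_updateRow_smul, Matrix.updateRow_eq_self]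
  have hmem : ∀ k j, M' k j ∈ w.toValuationSubring := by
    intro k j
    by_cases hk : k = i₀
    · subst hk
      show Matrix.updateRow M k ((ϖ ^ c) • M k) k j ∈ _
      rw [Matrix.updateRow_self]
      show ϖ ^ c * R k (φ j) ∈ _
      rcases eq_or_ne (R k (φ j)) 0 with h0 | h0
      · rw [h0, mul_zero]; exact zero_mem _
      · apply Fermat.Agent.S24.PlaceAux.mem_of_ord_nonneg
        rw [w.ord_mul (zpow_ne_zero _ hϖ0) h0, w.ord_zpow, hϖ]
        have := s27ub_ord_row hld hgen hall w R k hR₀ A' B₁ hAB hB₁ (φ j) (hφ j)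
        rw [← hc] at this
        omega
    · show Matrix.updateRow M i₀ ((ϖ ^ c) • M i₀) k j ∈ _
      rw [Matrix.updateRow_ne hk]
      show R k (φ j) ∈ _
      obtain ⟨a, ha⟩ := hRk k hk (φ j)
      rw [ha]
      exact w.algebraMap_mem' a
  have hdet := s27pt_det_mem (W := w.toValuationSubring) M' hmem
  rw [hM'] at hdet
  have hne : ϖ ^ c * M.det ≠ 0 := mul_ne_zero (zpow_ne_zero _ hϖ0) hd
  have h1 := (Fermat.Agent.S24.PlaceAux.ord_nonneg_iff w hne).mpr hdet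
  rw [w.ord_mul (zpow_ne_zero _ hϖ0) hd, w.ord_zpow, hϖ] at h1
  omega

/-- **UP-bound, β-factor**: if `x` is a local equation (`S27ptIsIdx`) along the valuation ring of a
place `w` of `Ω / 𝔎` and `θ = det [R_k (f_l)]` for a `K`-basis `f` of `L_K(A')`, then
`z · x^m ∈ W_w` implies `z · θ^m = 0 ∨ −m · (Con B₁)(w) ≤ ord_w (z · θ^m)`. -/
theorem s27ub_beta {N : ℕ} (w : Place 𝔎 Ω) (R : Fin N → 𝔠 →ₐ[K] Ω) (i₀ : Fin N)
    (hR₀ : ∀ u, R i₀ u = algebraMap 𝔠 Ω u)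
    (hRk : ∀ k, k ≠ i₀ → ∀ u, ∃ c : 𝔎, R k u = algebraMap 𝔎 Ω c)
    (A' B₁ : Divisor K 𝔠) (hAB : A' ≤ B₁) (hB₁ : 0 ≤ B₁)
    (f₀ : Module.Basis (Fin N) K ↥(riemannRochSpace A'))
    {x : Ω} (hx : S27ptIsIdx w.toValuationSubring R A' x) (hx0 : x ≠ 0)
    (m : ℕ) (z : Ω) (hz : z * x ^ m ∈ w.toValuationSubring) :
    z * (s27ptValB R f₀).det ^ m = 0 ∨
      -((m : ℤ) * Finsupp.mapDomain (s26gspCon hld hgen hall) B₁ w) ≤
        w.ord (z * (s27ptValB R f₀).det ^ m) := by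
  obtain ⟨f, φ, hφ, hxe⟩ := hx
  obtain ⟨a, ha, hdet⟩ := s27pt_rrBasis_det (R := R) f f₀
  have ha' : algebraMap K Ω a ≠ 0 := fun h => ha ((map_eq_zero _).1 h)
  have hd := hφ.det_ne
  have hθ : (s27ptValB R f₀).det = x * ((s27ptVal R φ).det * algebraMap K Ω a) := by
    rw [hdet, hxe]
    field_simp
  rcases eq_or_ne z 0 with rfl | hz0
  · left; rw [zero_mul]
  right
  have hzx : z * x ^ m ≠ 0 := mul_ne_zero hz0 (pow_ne_zero m hx0)
  have h1 := (Fermat.Agent.S24.PlaceAux.ord_nonneg_iff w hzx).mpr hz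
  have h2 := s27ub_ord_det hld hgen hall w R i₀ hR₀ hRk A' B₁ hAB hB₁ φ hφ.mem hd
  have hda : (s27ptVal R φ).det * algebraMap K Ω a ≠ 0 := mul_ne_zero hd ha'
  have h3 : w.ord ((s27ptVal R φ).det * algebraMap K Ω a) = w.ord (s27ptVal R φ).det := by
    rw [w.ord_mul hd ha']
    have : algebraMap K Ω a = algebraMap 𝔎 Ω (algebraMap K 𝔎 a) :=
      IsScalarTower.algebraMap_apply K 𝔎 Ω a
    rw [this, Fermat.Agent.S24.PlaceAux.ord_algebraMap, add_zero]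
  have h4 : z * (s27ptValB R f₀).det ^ m =
      (z * x ^ m) * ((s27ptVal R φ).det * algebraMap K Ω a) ^ m := by
    rw [hθ]; ring
  rw [h4, w.ord_mul hzx (pow_ne_zero m hda), place_ord_pow, h3]
  have hm : (0 : ℤ) ≤ m := by positivity
  nlinarith [mul_le_mul_of_nonneg_left h2 hm]

/-- **UP-bound, β-factor, order form**: `−(Con B₁)(w) ≤ ord_w θ − ord_w x`. -/
theorem s27ub_beta_ord {N : ℕ} (w : Place 𝔎 Ω) (R : Fin N → 𝔠 →ₐ[K] Ω) (i₀ : Fin N)
    (hR₀ : ∀ u, R i₀ u = algebraMap 𝔠 Ω u)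
    (hRk : ∀ k, k ≠ i₀ → ∀ u, ∃ c : 𝔎, R k u = algebraMap 𝔎 Ω c)
    (A' B₁ : Divisor K 𝔠) (hAB : A' ≤ B₁) (hB₁ : 0 ≤ B₁)
    (f₀ : Module.Basis (Fin N) K ↥(riemannRochSpace A'))
    {x : Ω} (hx : S27ptIsIdx w.toValuationSubring R A' x) (hx0 : x ≠ 0) :
    (s27ptValB R f₀).det ≠ 0 ∧
      -(Finsupp.mapDomain (s26gspCon hld hgen hall) B₁ w) ≤
        w.ord (s27ptValB R f₀).det - w.ord x := by
  obtain ⟨f, φ, hφ, hxe⟩ := hx
  obtain ⟨a, ha, hdet⟩ := s27pt_rrBasis_det (R := R) f f₀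
  have ha' : algebraMap K Ω a ≠ 0 := fun h => ha ((map_eq_zero _).1 h)
  have hd := hφ.det_ne
  have hθ : (s27ptValB R f₀).det = x * ((s27ptVal R φ).det * algebraMap K Ω a) := by
    rw [hdet, hxe]
    field_simp
  have hda : (s27ptVal R φ).det * algebraMap K Ω a ≠ 0 := mul_ne_zero hd ha'
  have h2 := s27ub_ord_det hld hgen hall w R i₀ hR₀ hRk A' B₁ hAB hB₁ φ hφ.mem hd
  have h3 : w.ord ((s27ptVal R φ).det * algebraMap K Ω a) = w.ord (s27ptVal R φ).det := by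
    rw [w.ord_mul hd ha']
    have : algebraMap K Ω a = algebraMap 𝔎 Ω (algebraMap K 𝔎 a) :=
      IsScalarTower.algebraMap_apply K 𝔎 Ω a
    rw [this, Fermat.Agent.S24.PlaceAux.ord_algebraMap, add_zero]
  refine ⟨by rw [hθ]; exact mul_ne_zero hx0 hda, ?_⟩
  rw [hθ, w.ord_mul hx0 hda, h3]
  omega

/-- **from the order bound to the Riemann–Roch space**: if at every place `w` of `Ω / 𝔎` there is
`b_w ≠ 0` with `z · b_w^m ∈ W_w` and `−D(w) ≤ ord_w Θ − ord_w b_w`, then `z · Θ^m ∈ L(m D)`. -/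
theorem s27ub_mem_rr (D : Divisor 𝔎 Ω) (Θ : Ω) (hΘ : Θ ≠ 0) (m : ℕ) (z : Ω)
    (h : ∀ w : Place 𝔎 Ω, ∃ b : Ω, b ≠ 0 ∧ z * b ^ m ∈ w.toValuationSubring ∧
      -(D w) ≤ w.ord Θ - w.ord b) :
    z * Θ ^ m ∈ riemannRochSpace (m • D) := by
  rw [mem_riemannRochSpace_iff]
  intro w
  rcases eq_or_ne z 0 with rfl | hz0
  · left; rw [zero_mul]
  right
  obtain ⟨b, hb0, hzb, hord⟩ := h w
  have hzb0 : z * b ^ m ≠ 0 := mul_ne_zero hz0 (pow_ne_zero m hb0)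
  have h1 := (Fermat.Agent.S24.PlaceAux.ord_nonneg_iff w hzb0).mpr hzb
  rw [w.ord_mul hz0 (pow_ne_zero m hb0), place_ord_pow] at h1
  rw [w.ord_mul hz0 (pow_ne_zero m hΘ), place_ord_pow]
  have hm : (0 : ℤ) ≤ m := by positivity
  have h2 : ((m • D : Divisor 𝔎 Ω) w : ℤ) = (m : ℤ) * D w := by
    rw [Finsupp.smul_apply, nsmul_eq_mul]
  rw [h2]
  nlinarith [mul_le_mul_of_nonneg_left hord hm]

end UB

/-! ### the model `Ω_{g+1} / κ_i(Ω_g)` -/

section Model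

universe u v

variable {K : Type u} {F : Type v} [Field K] [IsAlgClosed K] [Field F] [Algebra K F] {g : ℕ}

/-- **UP-bound, β-factor, on the tower**: for a place `w` of `Ω_{g+1} / κ_i(Ω_g)` and a local
equation `x` of the theta divisor of `A'` at the generic divisor `Σ ι_k` along `W_w`:
`θ = det [ι_k (f_l)] ≠ 0` and `−(Con_i B₁)(w) ≤ ord_w θ − ord_w x` (`A' ≤ B₁`, `0 ≤ B₁`). -/
theorem s27ub_model (i : Fin (g + 1)) {x₀ : F} (hx₀ : Transcendental K x₀)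
    [FiniteDimensional (IntermediateField.adjoin K {x₀}) F]
    (A' B₁ : Divisor K F) (hAB : A' ≤ B₁) (hB₁ : 0 ≤ B₁)
    (f₀ : Module.Basis (Fin (g + 1)) K ↥(riemannRochSpace A')) :
    letI := s27gftAlgF (K := K) (F := F) i
    letI := s27gftAlgOm (K := K) (F := F) i
    haveI := s27gft_towerF (K := K) (F := F) i
    haveI := s27gft_towerOm (K := K) (F := F) i
    ∀ (w : Place (s27gfOm K F g) (s27gfOm K F (g + 1))) {x : s27gfOm K F (g + 1)},
      S27ptIsIdx w.toValuationSubring (fun k => s27gfIota (K := K) (F := F) k) A' x → x ≠ 0 →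
      (s27ptValB (fun k => s27gfIota (K := K) (F := F) k) f₀).det ≠ 0 ∧
        -(Finsupp.mapDomain
            (s26gspCon (s27gft_hld i) (s27gft_hgen i) (s26gspf_hall hx₀)) B₁ w) ≤
          w.ord (s27ptValB (fun k => s27gfIota (K := K) (F := F) k) f₀).det - w.ord x := by
  letI := s27gftAlgF (K := K) (F := F) i
  letI := s27gftAlgOm (K := K) (F := F) i
  haveI := s27gft_towerF (K := K) (F := F) i
  haveI := s27gft_towerOm (K := K) (F := F) i
  intro w x hx hx0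
  refine s27ub_beta_ord (s27gft_hld i) (s27gft_hgen i) (s26gspf_hall hx₀) w
    (fun k => s27gfIota (K := K) (F := F) k) i (fun u => rfl) (fun k hk u => ?_)
    A' B₁ hAB hB₁ f₀ hx hx0
  obtain ⟨k', hk'⟩ := Fin.exists_succAbove_eq hk
  refine ⟨s27gfIota k' u, ?_⟩
  rw [← hk']
  exact (s27gftKappa_iota i k' u).symm

end Model

end Fermat.Agent.S27

end
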