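/-
S27 route B — (U1) of helper11's UP-SYM = **(FIN) + (UP) for the `β`-factor**, ASSEMBLED (helper28):
Künneth (S27/Kunneth.lean, KunnethModel.lean) + (RR-D) (KunnethRR.lean) + UP-bound (UpBeta.lean).

`s27u1_main` : on the model `𝔉 = s27gfSym K F (g+1) ⊆ Ω_{g+1}` (genus `g + 1`), for
`β : ValuationSubring 𝔉 → 𝔉` with
  `hβ0 : ∀ V, S27IsKValU K V → β V ≠ 0`,
  `hβ  : ∀ W ⊇ K valuation subring of Ω_{g+1}, S27ptIsIdx W ι A' (β (W ∩ 𝔉))`   (S27/PtDef.lean),
`A' ≤ B₁`, `0 ≤ B₁`, `f₀` a `K`-basis of `L_K(A')` indexed by `Fin (g+1)`: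
  `(∀ m, Module.Finite K (s27LU K β m)) ∧ ∃ c₂, ∀ m ≥ 1, finrank K (s27LU K β m) ≤ c₂ * m^(g+1)`.
(`Θ = det [ι_k (f₀ l)]`; `hβ` is only used at the valuation rings of the places of
`Ω_{g+1} / κ_i(Ω_g)`, `i : Fin (g+1)`.)
-/
import Fermat.Agent.S27.KunnethRR
import Fermat.Agent.S27.UpBeta
import Fermat.Agent.S27.Lift

set_option autoImplicit false
set_option linter.unusedSectionVars false
set_option linter.unusedVariables false
set_option linter.style.haveILetI false

noncomputable section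

open AlgebraicCurve TensorProduct Module IntermediateField Fermat.Agent.S26 Fermat.Agent.S24

namespace Fermat.Agent.S27

universe u v

section U1

variable {K : Type u} {F : Type v} [Field K] [IsAlgClosed K] [CharZero K] [Field F] [Algebra K F]
  {g : ℕ}

/-- **(U1) = (FIN) + (UP) for the `β`-factor** on the model `𝔉 = s27gfSym K F (g+1) ⊆ Ω_{g+1}`.
If `β V` is, along every valuation subring `W ⊇ K` of `Ω_{g+1}` over `V`, a local equation of the
theta divisor of `A'` at the generic divisor `Σ ι_k` (`S27ptIsIdx`, S27/PtDef.lean), then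
`L_β(m) = s27LU K β m` is finite-dimensional and `dim L_β(m) ≤ c₂ · m^(g+1)`. -/
theorem s27u1_main {x₀ : F} (hx₀ : Transcendental K x₀) [FiniteDimensional K⟮x₀⟯ F]
    (A' B₁ : Divisor K F) (hAB : A' ≤ B₁) (hB₁ : 0 ≤ B₁)
    (f₀ : Module.Basis (Fin (g + 1)) K ↥(riemannRochSpace A'))
    (β : ValuationSubring (s27gfSym K F (g + 1)) → s27gfSym K F (g + 1))
    (hβ0 : ∀ V, S27IsKValU K V → β V ≠ 0)
    (hβ : ∀ W : ValuationSubring (s27gfOm K F (g + 1)),
      (∀ a : K, algebraMap K (s27gfOm K F (g + 1)) a ∈ W) →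
      S27ptIsIdx W (fun k => s27gfIota (K := K) (F := F) k) A'
        ((β (W.comap (algebraMap (s27gfSym K F (g + 1)) (s27gfOm K F (g + 1)))) :
          s27gfSym K F (g + 1)) : s27gfOm K F (g + 1))) :
    (∀ m, Module.Finite K (s27LU K β m)) ∧
      ∃ c₂ : ℕ, ∀ m, 1 ≤ m → Module.finrank K (s27LU K β m) ≤ c₂ * m ^ (g + 1) := by
  classical
  -- `K ⊆ W_w` for every place of every coordinate
  have hKW : ∀ (i : Fin (g + 1)),
      letI := s27gftAlgF (K := K) (F := F) i
      letI := s27gftAlgOm (K := K) (F := F) i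
      haveI := s27gft_towerOm (K := K) (F := F) i
      ∀ (w : Place (s27gfOm K F g) (s27gfOm K F (g + 1))) (a : K),
        algebraMap K (s27gfOm K F (g + 1)) a ∈ w.toValuationSubring := by
    intro i
    letI := s27gftAlgF (K := K) (F := F) i
    letI := s27gftAlgOm (K := K) (F := F) i
    haveI := s27gft_towerOm (K := K) (F := F) i
    intro w a
    rw [IsScalarTower.algebraMap_apply K (s27gfOm K F g) (s27gfOm K F (g + 1))]
    exact w.algebraMap_mem' _
  have hKV : ∀ (W : ValuationSubring (s27gfOm K F (g + 1))),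
      (∀ a : K, algebraMap K (s27gfOm K F (g + 1)) a ∈ W) →
      S27IsKValU K (W.comap (algebraMap (s27gfSym K F (g + 1)) (s27gfOm K F (g + 1)))) := by
    intro W hW a
    rw [ValuationSubring.mem_comap]
    exact hW a
  -- the order bound at every place
  have hord : ∀ (i : Fin (g + 1)),
      letI := s27gftAlgF (K := K) (F := F) i
      letI := s27gftAlgOm (K := K) (F := F) i
      haveI := s27gft_towerF (K := K) (F := F) i
      haveI := s27gft_towerOm (K := K) (F := F) i
      ∀ (w : Place (s27gfOm K F g) (s27gfOm K F (g + 1))),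
        (s27ptValB (fun k => s27gfIota (K := K) (F := F) k) f₀).det ≠ 0 ∧
        -(Finsupp.mapDomain
            (s26gspCon (s27gft_hld i) (s27gft_hgen i) (s26gspf_hall hx₀)) B₁ w) ≤
          w.ord (s27ptValB (fun k => s27gfIota (K := K) (F := F) k) f₀).det -
            w.ord ((β (w.toValuationSubring.comap
              (algebraMap (s27gfSym K F (g + 1)) (s27gfOm K F (g + 1)))) :
                s27gfSym K F (g + 1)) : s27gfOm K F (g + 1)) := by
    intro i
    letI := s27gftAlgF (K := K) (F := F) i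
    letI := s27gftAlgOm (K := K) (F := F) i
    haveI := s27gft_towerF (K := K) (F := F) i
    haveI := s27gft_towerOm (K := K) (F := F) i
    intro w
    refine s27ub_model i hx₀ A' B₁ hAB hB₁ f₀ w (hβ _ (hKW i w)) ?_
    have h := hβ0 _ (hKV _ (hKW i w))
    exact fun h0 => h (Subtype.ext h0)
  -- `θ ≠ 0`
  have hθ : (s27ptValB (fun k => s27gfIota (K := K) (F := F) k) f₀).det ≠ 0 := by
    letI := s27gftAlgF (K := K) (F := F) (0 : Fin (g + 1))
    letI := s27gftAlgOm (K := K) (F := F) (0 : Fin (g + 1))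
    haveI := s27gft_towerF (K := K) (F := F) (0 : Fin (g + 1))
    haveI := s27gft_towerOm (K := K) (F := F) (0 : Fin (g + 1))
    haveI : Infinite (Place K F) := s26errg_infinite_place x₀ hx₀
    obtain ⟨Q⟩ : Nonempty (Place K F) := inferInstance
    exact (hord 0 (s26gspCon (s27gft_hld 0) (s27gft_hgen 0) (s26gspf_hall hx₀) Q)).1
  refine s27kr_up hx₀ B₁ hB₁ (s27gfSym K F (g + 1)).val.toLinearMap
    Subtype.val_injective _ hθ (fun m => s27LU K β m) (fun m z hz i => ?_)
  letI := s27gftAlgF (K := K) (F := F) i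
  letI := s27gftAlgOm (K := K) (F := F) i
  haveI := s27gft_towerF (K := K) (F := F) i
  haveI := s27gft_towerOm (K := K) (F := F) i
  show ((z : s27gfSym K F (g + 1)) : s27gfOm K F (g + 1)) * _ ^ m ∈ riemannRochSpace
    (Finsupp.mapDomain (s26gspCon (s27gft_hld i) (s27gft_hgen i) (s26gspf_hall hx₀)) (m • B₁))
  rw [Finsupp.mapDomain_smul]
  refine s27ub_mem_rr _ _ hθ m _ (fun w => ?_)
  refine ⟨_, ?_, ?_, (hord i w).2⟩
  · have h := hβ0 _ (hKV _ (hKW i w))
    exact fun h0 => h (Subtype.ext h0)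
  · have h := hz _ (hKV _ (hKW i w))
    rw [ValuationSubring.mem_comap] at h
    simpa using h

end U1

end Fermat.Agent.S27

end
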