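/-
S27-B, piece **GROW-ASM2** (helper41): the GROWTH clause of `s27mt_Stmt` (S27/ModelTop.lean) for a
GENERAL genus `g` (no `g + 1`), assembled from the landed shapes:

* `s27grb_b1_mem`          : `b₁ V = B 1 V · B (−1) V ∈ V`;
* `s27grb_huL`             : `u_j ∈ L_{b₁}(c₀)` from (POLE-DIV) (`hdiv`, literal shape of
                             `s27gra_isGrow_one` / helper36's `PoleDivGlue`);
* `s27grb_gen`             : (U3) of helper11's UP-SYM = the `gen` field for `b₁`, from (POLE-DIV);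
* `s27grb_isGrow_of_fin_up`: `S27IsGrow K b₁ g` from `β_mem`, (POLE-DIV), (FIN), (UP) — general `g`;
* `s27grb_u1`              : (U1) of UP-SYM for a general genus `0 < g` (= helper28's `s27u1_main`);
* `s27grb_u2`              : (U2) of UP-SYM from the cube at `k = 1` (literal clause of `s27mt_Stmt`);
* **`s27grb_fin_up`**      : (FIN) + (UP) for `b₁` from (U1)–(U4) via helper11's `s27ups_main`;
* **`s27grb_isGrow`**      : the literal GROWTH clause `S27IsGrow K (B 1 · B (−1)) g` for `0 < g`, from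
                             BETA (`β_ne`, `β_mem`, idx), the cube at `k = 1`, `[𝔉 : ψ₂ 𝔉] < ∞` and (POLE-DIV).
-/
import Fermat.Agent.S27.GrowModel
import Fermat.Agent.S27.UpU1
import Fermat.Agent.S27.UpSym

set_option autoImplicit false
set_option linter.unusedVariables false
set_option linter.unusedSectionVars false
set_option linter.style.haveILetI false

noncomputable section

namespace Fermat.Agent.S27

open AlgebraicCurve Module IntermediateField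

universe u v

section Asm2

variable {K : Type u} {F : Type v} [Field K] [IsAlgClosed K] [Field F] [Algebra K F] {g : ℕ}

/-- `b₁ V = B 1 V · B (−1) V ∈ V`. -/
theorem s27grb_b1_mem (ψ : ℤ → (s27gfSym K F g →ₐ[K] s27gfSym K F g))
    (β : ValuationSubring (s27gfSym K F g) → s27gfSym K F g)
    (β_mem : ∀ V, S27IsKValU K V → β V ∈ V) (V : ValuationSubring (s27gfSym K F g))
    (hV : S27IsKValU K V) : s27indB ψ β 1 V * s27indB ψ β (-1) V ∈ V :=
  V.mul_mem _ _ (s27indB_mem ψ β β_mem 1 hV) (s27indB_mem ψ β β_mem (-1) hV)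

/-- (ALG): `u_j ∈ L_{b₁}(c₀)` from (POLE-DIV). -/
theorem s27grb_huL (ψ : ℤ → (s27gfSym K F g →ₐ[K] s27gfSym K F g))
    (β : ValuationSubring (s27gfSym K F g) → s27gfSym K F g) (t : F) (c₀ : ℕ)
    (hdiv : ∀ V : ValuationSubring (s27gfSym K F g), S27IsKValU K V →
      ∃ (W : ValuationSubring (s27gfOm K F g)) (p : Fin g → s27gfOm K F g) (w : s27gfOm K F g),
        (∀ x : s27gfSym K F g, (x : s27gfOm K F g) ∈ W → x ∈ V) ∧ (∀ i, p i ∈ W) ∧
        (∀ i, s27gfIota (K := K) i t * p i ∈ W) ∧ w ∈ W ∧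
        (((s27indB ψ β 1 V * s27indB ψ β (-1) V) ^ c₀ : s27gfSym K F g) : s27gfOm K F g) =
          w * ∏ i, p i)
    (j : Fin g) :
    s27tbUSym (K := K) t j ∈ s27LU K (fun V => s27indB ψ β 1 V * s27indB ψ β (-1) V) c₀ :=
  s27gm_mem_L (fun V => s27indB ψ β 1 V * s27indB ψ β (-1) V) t c₀ hdiv j

/-- **(U3)** of UP-SYM: the `gen` field of `S27IsGrow` for `b₁ = B 1 · B (−1)`, from (POLE-DIV). -/
theorem s27grb_gen (ψ : ℤ → (s27gfSym K F g →ₐ[K] s27gfSym K F g))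
    (β : ValuationSubring (s27gfSym K F g) → s27gfSym K F g)
    (β_mem : ∀ V, S27IsKValU K V → β V ∈ V)
    (t : F) (ht : Transcendental K t)
    (halg : Algebra.IsAlgebraic (Algebra.adjoin K ({t} : Set F)) F) (c₀ : ℕ)
    (hdiv : ∀ V : ValuationSubring (s27gfSym K F g), S27IsKValU K V →
      ∃ (W : ValuationSubring (s27gfOm K F g)) (p : Fin g → s27gfOm K F g) (w : s27gfOm K F g),
        (∀ x : s27gfSym K F g, (x : s27gfOm K F g) ∈ W → x ∈ V) ∧ (∀ i, p i ∈ W) ∧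
        (∀ i, s27gfIota (K := K) i t * p i ∈ W) ∧ w ∈ W ∧
        (((s27indB ψ β 1 V * s27indB ψ β (-1) V) ^ c₀ : s27gfSym K F g) : s27gfOm K F g) =
          w * ∏ i, p i) :
    ∀ x : s27gfSym K F g, ∃ c,
      ∃ a ∈ s27LU K (fun V => s27indB ψ β 1 V * s27indB ψ β (-1) V) c,
      ∃ e ∈ s27LU K (fun V => s27indB ψ β 1 V * s27indB ψ β (-1) V) c, e ≠ 0 ∧ x * e = a :=
  s27g1u_gen_of_transcendenceBasis (fun V => s27indB ψ β 1 V * s27indB ψ β (-1) V)
    (s27grb_b1_mem ψ β β_mem) (s27tbUSym (K := K) (g := g) t)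
    (s27tbUSym_isTranscendenceBasis t ht halg)
    (fun j => ⟨c₀, s27grb_huL ψ β t c₀ hdiv j⟩)

/-- **GROWTH clause, general genus**, from `β_mem`, (POLE-DIV), (FIN), (UP). -/
theorem s27grb_isGrow_of_fin_up (ψ : ℤ → (s27gfSym K F g →ₐ[K] s27gfSym K F g))
    (β : ValuationSubring (s27gfSym K F g) → s27gfSym K F g)
    (β_mem : ∀ V, S27IsKValU K V → β V ∈ V)
    (t : F) (ht : Transcendental K t)
    (halg : Algebra.IsAlgebraic (Algebra.adjoin K ({t} : Set F)) F) (c₀ : ℕ)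
    (hdiv : ∀ V : ValuationSubring (s27gfSym K F g), S27IsKValU K V →
      ∃ (W : ValuationSubring (s27gfOm K F g)) (p : Fin g → s27gfOm K F g) (w : s27gfOm K F g),
        (∀ x : s27gfSym K F g, (x : s27gfOm K F g) ∈ W → x ∈ V) ∧ (∀ i, p i ∈ W) ∧
        (∀ i, s27gfIota (K := K) i t * p i ∈ W) ∧ w ∈ W ∧
        (((s27indB ψ β 1 V * s27indB ψ β (-1) V) ^ c₀ : s27gfSym K F g) : s27gfOm K F g) =
          w * ∏ i, p i)
    (hfin : ∀ m, Module.Finite K
      (s27LU K (fun V => s27indB ψ β 1 V * s27indB ψ β (-1) V) m))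
    (hup : ∃ c₂ : ℕ, ∀ m, 1 ≤ m →
      Module.finrank K (s27LU K (fun V => s27indB ψ β 1 V * s27indB ψ β (-1) V) m) ≤
        c₂ * m ^ g) :
    S27IsGrow K (fun V => s27indB ψ β 1 V * s27indB ψ β (-1) V) g :=
  s27g1u_isGrow (fun V => s27indB ψ β 1 V * s27indB ψ β (-1) V)
    (s27grb_b1_mem ψ β β_mem) (s27tbUSym (K := K) (g := g) t)
    (s27tbUSym_isTranscendenceBasis t ht halg) c₀ (s27grb_huL ψ β t c₀ hdiv) hfin hup

/-- **(U1)** of UP-SYM for a general genus `0 < g` (helper28's `s27u1_main`). -/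
theorem s27grb_u1 [CharZero K] (hg : 0 < g) {x₀ : F} (hx₀ : Transcendental K x₀)
    [FiniteDimensional K⟮x₀⟯ F]
    (A' B₁ : Divisor K F) (hAB : A' ≤ B₁) (hB₁ : 0 ≤ B₁)
    (f₀ : Module.Basis (Fin g) K ↥(riemannRochSpace A'))
    (β : ValuationSubring (s27gfSym K F g) → s27gfSym K F g)
    (hβ0 : ∀ V, S27IsKValU K V → β V ≠ 0)
    (hβ : ∀ W : ValuationSubring (s27gfOm K F g),
      (∀ a : K, algebraMap K (s27gfOm K F g) a ∈ W) →
      S27ptIsIdx W (fun k => s27gfIota (K := K) (F := F) k) A'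
        ((β (W.comap (algebraMap (s27gfSym K F g) (s27gfOm K F g))) :
          s27gfSym K F g) : s27gfOm K F g)) :
    (∀ m, Module.Finite K (s27LU K β m)) ∧
      ∃ c₂ : ℕ, ∀ m, 1 ≤ m → Module.finrank K (s27LU K β m) ≤ c₂ * m ^ g := by
  obtain ⟨g', rfl⟩ := Nat.exists_eq_succ_of_ne_zero hg.ne'
  exact s27u1_main hx₀ A' B₁ hAB hB₁ f₀ β hβ0 hβ

/-- **(U2)** of UP-SYM from the cube at `k = 1` (the literal clause of `s27mt_Stmt` at `k = 1`). -/
theorem s27grb_u2 (ψ : ℤ → (s27gfSym K F g →ₐ[K] s27gfSym K F g))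
    (β : ValuationSubring (s27gfSym K F g) → s27gfSym K F g)
    (β_mem : ∀ V, S27IsKValU K V → β V ∈ V)
    (e : ℕ) (Φ : s27gfSym K F g)
    (hcube : ∀ V, S27IsKValU K V → ∃ u, S27IsUnitIn V u ∧
      (s27indB ψ β (1 + 1) V * s27indB ψ β (1 - 1) V) ^ e =
        u * Φ * (s27indB ψ β 1 V ^ 2 * s27indB ψ β 1 V * s27indB ψ β (-1) V) ^ e)
    (V : ValuationSubring (s27gfSym K F g)) (hV : S27IsKValU K V) :
    ∃ w ∈ V, s27upsB (ψ 2) β V ^ e =
      w * Φ * (s27indB ψ β 1 V * s27indB ψ β (-1) V) ^ e := by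
  obtain ⟨u, hu, h⟩ := hcube V hV
  have h2 : s27indB ψ β (1 + 1) V = s27upsB (ψ 2) β V := by
    have h11 : ((1 : ℤ) + 1) = 2 := by norm_num
    rw [h11]
    unfold s27indB s27upsB
    rw [if_neg (by norm_num)]
  have h0 : s27indB ψ β (1 - 1) V = 1 := by
    have h10 : ((1 : ℤ) - 1) = 0 := by norm_num
    rw [h10]
    unfold s27indB
    rw [if_pos rfl]
  rw [h2, h0, mul_one] at h
  refine ⟨u * (s27indB ψ β 1 V ^ 2) ^ e, ?_, ?_⟩
  · exact V.mul_mem _ _ hu.2.1 (V.pow_mem (V.pow_mem (s27indB_mem ψ β β_mem 1 hV) 2) e)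
  · rw [h]
    ring

/-- **(FIN) + (UP)** for `b₁ = B 1 · B (−1)` on the model, general genus `0 < g`, through
helper11's UP-SYM: from BETA (idx along every `W ⊇ K`), the cube at `k = 1`,
`[𝔉 : ψ₂ 𝔉] < ∞` and (POLE-DIV). -/
theorem s27grb_fin_up [CharZero K] (hg : 0 < g)
    (ψ : ℤ → (s27gfSym K F g →ₐ[K] s27gfSym K F g))
    (β : ValuationSubring (s27gfSym K F g) → s27gfSym K F g)
    (β_ne : ∀ V, S27IsKValU K V → β V ≠ 0) (β_mem : ∀ V, S27IsKValU K V → β V ∈ V)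
    {x₀ : F} (hx₀ : Transcendental K x₀) [FiniteDimensional K⟮x₀⟯ F]
    (A' B₁ : Divisor K F) (hAB : A' ≤ B₁) (hB₁ : 0 ≤ B₁)
    (f₀ : Module.Basis (Fin g) K ↥(riemannRochSpace A'))
    (hβ : ∀ W : ValuationSubring (s27gfOm K F g),
      (∀ a : K, algebraMap K (s27gfOm K F g) a ∈ W) →
      S27ptIsIdx W (fun k => s27gfIota (K := K) (F := F) k) A'
        ((β (W.comap (algebraMap (s27gfSym K F g) (s27gfOm K F g))) :
          s27gfSym K F g) : s27gfOm K F g))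
    (e : ℕ) (he : 0 < e) (Φ : s27gfSym K F g) (hΦ : Φ ≠ 0)
    (hcube : ∀ V, S27IsKValU K V → ∃ u, S27IsUnitIn V u ∧
      (s27indB ψ β (1 + 1) V * s27indB ψ β (1 - 1) V) ^ e =
        u * Φ * (s27indB ψ β 1 V ^ 2 * s27indB ψ β 1 V * s27indB ψ β (-1) V) ^ e)
    (hfin2 : Module.Finite (ψ 2).fieldRange (s27gfSym K F g))
    (t : F) (ht : Transcendental K t)
    (halg : Algebra.IsAlgebraic (Algebra.adjoin K ({t} : Set F)) F) (c₀ : ℕ)
    (hdiv : ∀ V : ValuationSubring (s27gfSym K F g), S27IsKValU K V →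
      ∃ (W : ValuationSubring (s27gfOm K F g)) (p : Fin g → s27gfOm K F g) (w : s27gfOm K F g),
        (∀ x : s27gfSym K F g, (x : s27gfOm K F g) ∈ W → x ∈ V) ∧ (∀ i, p i ∈ W) ∧
        (∀ i, s27gfIota (K := K) i t * p i ∈ W) ∧ w ∈ W ∧
        (((s27indB ψ β 1 V * s27indB ψ β (-1) V) ^ c₀ : s27gfSym K F g) : s27gfOm K F g) =
          w * ∏ i, p i) :
    (∀ m, Module.Finite K (s27LU K (fun V => s27indB ψ β 1 V * s27indB ψ β (-1) V) m)) ∧
      ∃ c₃ : ℕ, ∀ m, 1 ≤ m →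
        Module.finrank K (s27LU K (fun V => s27indB ψ β 1 V * s27indB ψ β (-1) V) m) ≤
          c₃ * m ^ g := by
  obtain ⟨hfinβ, hupβ⟩ := s27grb_u1 hg hx₀ A' B₁ hAB hB₁ f₀ β β_ne hβ
  exact s27ups_main (ψ 2) β (fun V => s27indB ψ β 1 V * s27indB ψ β (-1) V) g β_mem
    (s27grb_b1_mem ψ β β_mem) hfin2 Φ hΦ e he (s27grb_u2 ψ β β_mem e Φ hcube)
    (s27grb_gen ψ β β_mem t ht halg c₀ hdiv) hfinβ hupβ

/-- **GROW-ASM2**: the literal GROWTH clause of `s27mt_Stmt` / `s27geo2_Stmt` for a general genus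
`0 < g`, from BETA (`β_ne`, `β_mem`, idx along every `W ⊇ K`), the cube at `k = 1`,
`[𝔉 : ψ₂ 𝔉] < ∞` (DEG at `n = 2`) and (POLE-DIV).  No bound of the factor `B (−1)` is needed. -/
theorem s27grb_isGrow [CharZero K] (hg : 0 < g)
    (ψ : ℤ → (s27gfSym K F g →ₐ[K] s27gfSym K F g))
    (β : ValuationSubring (s27gfSym K F g) → s27gfSym K F g)
    (β_ne : ∀ V, S27IsKValU K V → β V ≠ 0) (β_mem : ∀ V, S27IsKValU K V → β V ∈ V)
    {x₀ : F} (hx₀ : Transcendental K x₀) [FiniteDimensional K⟮x₀⟯ F]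
    (A' B₁ : Divisor K F) (hAB : A' ≤ B₁) (hB₁ : 0 ≤ B₁)
    (f₀ : Module.Basis (Fin g) K ↥(riemannRochSpace A'))
    (hβ : ∀ W : ValuationSubring (s27gfOm K F g),
      (∀ a : K, algebraMap K (s27gfOm K F g) a ∈ W) →
      S27ptIsIdx W (fun k => s27gfIota (K := K) (F := F) k) A'
        ((β (W.comap (algebraMap (s27gfSym K F g) (s27gfOm K F g))) :
          s27gfSym K F g) : s27gfOm K F g))
    (e : ℕ) (he : 0 < e) (Φ : s27gfSym K F g) (hΦ : Φ ≠ 0)
    (hcube : ∀ V, S27IsKValU K V → ∃ u, S27IsUnitIn V u ∧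
      (s27indB ψ β (1 + 1) V * s27indB ψ β (1 - 1) V) ^ e =
        u * Φ * (s27indB ψ β 1 V ^ 2 * s27indB ψ β 1 V * s27indB ψ β (-1) V) ^ e)
    (hfin2 : Module.Finite (ψ 2).fieldRange (s27gfSym K F g))
    (t : F) (ht : Transcendental K t)
    (halg : Algebra.IsAlgebraic (Algebra.adjoin K ({t} : Set F)) F) (c₀ : ℕ)
    (hdiv : ∀ V : ValuationSubring (s27gfSym K F g), S27IsKValU K V →
      ∃ (W : ValuationSubring (s27gfOm K F g)) (p : Fin g → s27gfOm K F g) (w : s27gfOm K F g),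
        (∀ x : s27gfSym K F g, (x : s27gfOm K F g) ∈ W → x ∈ V) ∧ (∀ i, p i ∈ W) ∧
        (∀ i, s27gfIota (K := K) i t * p i ∈ W) ∧ w ∈ W ∧
        (((s27indB ψ β 1 V * s27indB ψ β (-1) V) ^ c₀ : s27gfSym K F g) : s27gfOm K F g) =
          w * ∏ i, p i) :
    S27IsGrow K (fun V => s27indB ψ β 1 V * s27indB ψ β (-1) V) g := by
  obtain ⟨hfin, hup⟩ := s27grb_fin_up hg ψ β β_ne β_mem hx₀ A' B₁ hAB hB₁ f₀ hβ e he Φ hΦ
    hcube hfin2 t ht halg c₀ hdiv
  exact s27grb_isGrow_of_fin_up ψ β β_mem t ht halg c₀ hdiv hfin hup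

end Asm2

end Fermat.Agent.S27

end
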