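/-
S27-B, geometry leaf NAT (helper90): NATURALITY of the point formula (NOTES/S27-geom.md §2).

`σ : 𝔏 →+* 𝔏′` a homomorphism of fields, `W′` a valuation subring of `𝔏′`, `W := W′.comap σ`.
Everything the point formula `m_W(D) = det[R_i f_l] / (∏_{i<j} (R_i t − R_j t) · ∏_i R_i a)` and the
notion "adapted" are made of is transported by `σ`:

* `s27nat_mem`, `s27nat_unit_iff`, `s27nat_val_le_iff`, `s27nat_val_lt_iff`, `s27nat_val_eq_iff`,
  `s27nat_nonunit_iff`            : membership, units, non-units of `W` ↔ of `W′`;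
* `s27nat_rel`, `s27nat_rel_iff`  : `x ≐_W y ↔ σ x ≐_W′ σ y`;
* `s27nat_comap_comp`             : `W.comap R = W′.comap (σ ∘ R)` (every point has the SAME reduction);
* `s27nat_sameRed_iff`            : `R ≡ R′ mod 𝔪_W` ↔ `σ ∘ R ≡ σ ∘ R′ mod 𝔪_W′`;
* `s27nat_map_m`                  : `σ (s27cp_m θ v α τ j S) = s27cp_m (σ∘θ) (σ∘v) (σ∘α) (σ∘τ) j S`;
* `s27nat_map_det`, `s27nat_map_vandermonde`, `s27nat_map_form` : the determinant form;
* `s27nat_form_rel`               : **NAT** for the determinant form, any `(t, a)`.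
Mathlib + S27/Plan (for `S27IsUnitIn`) + S27/CubePt (for `s27cp_m`).
-/
import Fermat.Agent.S27.Plan
import Fermat.Agent.S27.CubePt

set_option autoImplicit false

noncomputable section

namespace Fermat.Agent.S27

open Matrix

universe u₁ u₂

section Basic

variable {𝔏 : Type u₁} {𝔏' : Type u₂} [Field 𝔏] [Field 𝔏'] (σ : 𝔏 →+* 𝔏')
  (W' : ValuationSubring 𝔏')

theorem s27nat_mem (x : 𝔏) : x ∈ W'.comap σ ↔ σ x ∈ W' := ValuationSubring.mem_comap

/-- units of `W = W′.comap σ` are the elements whose image is a unit of `W′`. -/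
theorem s27nat_unit_iff (u : 𝔏) : S27IsUnitIn (W'.comap σ) u ↔ S27IsUnitIn W' (σ u) := by
  unfold S27IsUnitIn
  rw [s27nat_mem, s27nat_mem, map_inv₀, Ne, Ne, map_eq_zero]

theorem s27nat_val_le_iff (x : 𝔏) :
    (W'.comap σ).valuation x ≤ 1 ↔ W'.valuation (σ x) ≤ 1 := by
  rw [ValuationSubring.valuation_le_one_iff, ValuationSubring.valuation_le_one_iff, s27nat_mem]

theorem s27nat_one_le_val_iff {𝔎 : Type*} [Field 𝔎] (V : ValuationSubring 𝔎) {y : 𝔎}
    (hy : y ≠ 0) : (1 : V.ValueGroup) ≤ V.valuation y ↔ y⁻¹ ∈ V := by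
  rw [← ValuationSubring.valuation_le_one_iff, map_inv₀]
  exact (inv_le_one₀ (lt_of_le_of_ne zero_le (Ne.symm ((Valuation.ne_zero_iff _).2 hy)))).symm

theorem s27nat_val_lt_iff (x : 𝔏) :
    (W'.comap σ).valuation x < 1 ↔ W'.valuation (σ x) < 1 := by
  rcases eq_or_ne x 0 with rfl | hx
  · simp
  have hσx : σ x ≠ 0 := by rwa [Ne, map_eq_zero]
  rw [← not_le, ← not_le, not_iff_not, s27nat_one_le_val_iff _ hx,
    s27nat_one_le_val_iff _ hσx, s27nat_mem, map_inv₀]

theorem s27nat_val_eq_iff (x : 𝔏) :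
    (W'.comap σ).valuation x = 1 ↔ W'.valuation (σ x) = 1 := by
  constructor
  · intro h
    exact le_antisymm ((s27nat_val_le_iff σ W' x).1 h.le)
      (not_lt.1 fun hlt => (ne_of_lt ((s27nat_val_lt_iff σ W' x).2 hlt)) h)
  · intro h
    exact le_antisymm ((s27nat_val_le_iff σ W' x).2 h.le)
      (not_lt.1 fun hlt => (ne_of_lt ((s27nat_val_lt_iff σ W' x).1 hlt)) h)

/-- non-units (`𝔪_W`) are the elements whose image is a non-unit of `W′`. -/
theorem s27nat_nonunit_iff (x : 𝔏) :
    (x ∈ W'.comap σ ∧ ¬ S27IsUnitIn (W'.comap σ) x) ↔ (σ x ∈ W' ∧ ¬ S27IsUnitIn W' (σ x)) := by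
  rw [s27nat_mem, s27nat_unit_iff]

/-- `x ≐_W y ⇒ σ x ≐_W′ σ y`. -/
theorem s27nat_rel {x y : 𝔏} (h : ∃ u, S27IsUnitIn (W'.comap σ) u ∧ x = u * y) :
    ∃ u', S27IsUnitIn W' u' ∧ σ x = u' * σ y := by
  obtain ⟨u, hu, hxy⟩ := h
  exact ⟨σ u, (s27nat_unit_iff σ W' u).1 hu, by rw [hxy, map_mul]⟩

/-- `x ≐_W y ⇔ σ x ≐_W′ σ y`. -/
theorem s27nat_rel_iff {x y : 𝔏} :
    (∃ u, S27IsUnitIn (W'.comap σ) u ∧ x = u * y) ↔ ∃ u', S27IsUnitIn W' u' ∧ σ x = u' * σ y := by
  refine ⟨s27nat_rel σ W', ?_⟩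
  rintro ⟨u', hu', hxy⟩
  rcases eq_or_ne y 0 with rfl | hy
  · refine ⟨1, ⟨one_ne_zero, one_mem _, by simp [one_mem]⟩, ?_⟩
    rw [map_zero, mul_zero, map_eq_zero] at hxy
    rw [hxy, mul_zero]
  · have hσy : σ y ≠ 0 := by rwa [Ne, map_eq_zero]
    have hu'eq : u' = σ (x / y) := by
      rw [map_div₀, hxy, mul_div_assoc, div_self hσy, mul_one]
    refine ⟨x / y, (s27nat_unit_iff σ W' _).2 (hu'eq ▸ hu'), ?_⟩
    rw [div_mul_cancel₀ _ hy]

end Basic

section Points

variable {F : Type*} [Field F] {𝔏 : Type u₁} {𝔏' : Type u₂} [Field 𝔏] [Field 𝔏']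
  (σ : 𝔏 →+* 𝔏') (W' : ValuationSubring 𝔏')

/-- **the reduction of a point does not change**: `W.comap R = W′.comap (σ ∘ R)`. -/
theorem s27nat_comap_comp (R : F →+* 𝔏) :
    (W'.comap σ).comap R = W'.comap (σ.comp R) := by
  ext f
  rw [ValuationSubring.mem_comap, ValuationSubring.mem_comap, ValuationSubring.mem_comap]
  rfl

/-- two points have the same reduction along `W` iff their images have the same reduction along
`W′` (congruence modulo the maximal ideal on the common ring of regular functions). -/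
theorem s27nat_sameRed_iff (R R' : F →+* 𝔏) (f : F) :
    (W'.comap σ).valuation (R f - R' f) < 1 ↔
      W'.valuation ((σ.comp R) f - (σ.comp R') f) < 1 := by
  rw [s27nat_val_lt_iff, map_sub]
  rfl

end Points

section Formula

variable {𝔏 : Type u₁} {𝔏' : Type u₂} [Field 𝔏] [Field 𝔏'] (σ : 𝔏 →+* 𝔏')

/-- the point formula of CUBE-PT commutes with `σ`. -/
theorem s27nat_map_m {ι : Type*} [LinearOrder ι] (θ : Finset ι → 𝔏) (v α τ : ι → 𝔏) (j : ℕ)
    (S : Finset ι) :
    σ (s27cp_m θ v α τ j S)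
      = s27cp_m (fun T => σ (θ T)) (fun i => σ (v i)) (fun i => σ (α i)) (fun i => σ (τ i)) j S := by
  unfold s27cp_m s27cp_den s27cp_pairProd
  simp only [map_div₀, map_mul, map_prod, map_sub, map_pow]

theorem s27nat_map_det {N : ℕ} (M : Matrix (Fin N) (Fin N) 𝔏) :
    σ M.det = (Matrix.of fun i l => σ (M i l)).det := by
  rw [RingHom.map_det]
  rfl

theorem s27nat_map_vandermonde {N : ℕ} (z : Fin N → 𝔏) :
    σ (Matrix.vandermonde z).det = (Matrix.vandermonde fun i => σ (z i)).det := by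
  rw [Matrix.det_vandermonde, Matrix.det_vandermonde]
  simp only [map_prod, map_sub]

variable {F : Type*} [Field F]

/-- the point formula in determinant form, for the points `R i`, the functions `f l` and the
pair `(t, a)`. -/
def s27natForm {N : ℕ} (R : Fin N → F →+* 𝔏) (f : Fin N → F) (t a : F) : 𝔏 :=
  (Matrix.of fun i l => R i (f l)).det /
    ((Matrix.vandermonde fun i => R i t).det * ∏ i, R i a)

/-- the determinant form commutes with `σ`. -/
theorem s27nat_map_form {N : ℕ} (R : Fin N → F →+* 𝔏) (f : Fin N → F) (t a : F) :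
    σ (s27natForm R f t a) = s27natForm (fun i => σ.comp (R i)) f t a := by
  unfold s27natForm
  rw [map_div₀, map_mul, s27nat_map_det, s27nat_map_vandermonde, map_prod]
  rfl

/-- **NAT** (determinant form): if the local equation along `W′` of the transported points is
`≐_W′` the point formula of `(t, a)`, then it is `≐_W′` the image of the point formula of the
original points; and `≐_W` relations between point formulas are transported. -/
theorem s27nat_form_rel (W' : ValuationSubring 𝔏') {N : ℕ} (R : Fin N → F →+* 𝔏)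
    (f : Fin N → F) (t a : F) (f' : Fin N → F) (t' a' : F)
    (h : ∃ u, S27IsUnitIn (W'.comap σ) u ∧ s27natForm R f t a = u * s27natForm R f' t' a') :
    ∃ u', S27IsUnitIn W' u' ∧
      s27natForm (fun i => σ.comp (R i)) f t a
        = u' * s27natForm (fun i => σ.comp (R i)) f' t' a' := by
  have := s27nat_rel σ W' h
  rwa [s27nat_map_form, s27nat_map_form] at this

end Formula

end Fermat.Agent.S27

end
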