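/-
S27 route B, leaf ψ-COMP (helper39), ABSTRACT part (Mathlib only), in the setting of
`S27/GenEmb.lean` (helper15): fields `𝔉 ⊆ Ω ⊆ L` over `K`, a finite group `G` acting on `Ω`
with fixed field `𝔉` (`G = S_g`, `Ω = K(C^g)`, `𝔉 = K(Sym^g C)`), `L` an algebraic closure of `Ω`.
An endomorphism `φ` of `𝔉` is INDUCED by the embedding `ψ : Ω → L` ("the point `Q`") if
`algebraMap 𝔉 L (φ x) = ψ (algebraMap 𝔉 Ω x)` (`φ s = s(Q)`).

* `s27pc_exists_lift`   : `ψ : Ω → L` extends to `τ : L → L` (`τ ∘ algebraMap Ω L = ψ`);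
* `s27pc_comp_spec`     : if `φ₁, φ₂` are induced by `ψ₁, ψ₂` and `τ` extends `ψ₁`, then `φ₁ ∘ φ₂`
                          is induced by `τ ∘ ψ₂` (the TRANSPORTED point `τ(Q₂)`);
* `s27pc_exists_comp`   : existence form of the two;
* `s27pc_exists_perm_pointwise`, `s27pc_stable_of_range` : the CONVERSE of GEN-EMB: if `ψ` maps
  `𝔉` into `𝔉`, then every `σ ∈ Gal(L / 𝔉)` permutes the coordinates of the point
  (`σ ∘ ψ = ψ ∘ π` for some `π ∈ G`); so the transported point is again Galois-stable;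
* `s27pc_comp_one`      : `φ ∘ id = φ`  (`comp_one` of `S27IsTheta` once `ψ 1 = id`);
* `s27pc_eq_of_induced` : two endomorphisms induced by `ψ` and `ψ ∘ π` (`π ∈ G`) are equal.
-/
import Mathlib

set_option autoImplicit false
set_option linter.unusedSectionVars false
set_option linter.unusedVariables false

noncomputable section

namespace Fermat.Agent.S27

open Polynomial

section Lift

variable {K Ω L : Type*} [Field K] [Field Ω] [Field L] [Algebra K Ω] [Algebra K L] [Algebra Ω L]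
  [IsScalarTower K Ω L]

/-- an embedding `ψ : Ω → L` extends to `L` (`L` algebraically closed and algebraic over `Ω`). -/
theorem s27pc_exists_lift [IsAlgClosed L] [Algebra.IsAlgebraic Ω L] (ψ : Ω →ₐ[K] L) :
    ∃ τ : L →ₐ[K] L, ∀ x : Ω, τ (algebraMap Ω L x) = ψ x := by
  obtain ⟨τ, hτ⟩ := IsAlgClosed.surjective_domRestrict_of_isAlgebraic (K := K) (L := Ω) (M := L)
    (E := L) ψ
  refine ⟨τ, fun x => ?_⟩
  have h := congrArg (fun f : Ω →ₐ[K] L => f x) hτ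
  exact h

/-- the extension is an automorphism of `L`, when `L` is algebraic over `ψ Ω`. -/
theorem s27pc_lift_bijective (τ : L →ₐ[K] L) (ψ : Ω →ₐ[K] L)
    (hτ : ∀ x : Ω, τ (algebraMap Ω L x) = ψ x)
    (halg : ∀ y : L, ∃ p : Polynomial Ω, p ≠ 0 ∧ Polynomial.eval₂ (ψ : Ω →+* L) y p = 0)
    [IsAlgClosed L] [Algebra.IsAlgebraic Ω L] : Function.Bijective τ := by
  refine ⟨τ.toRingHom.injective, ?_⟩
  intro y
  obtain ⟨p, hp0, hp⟩ := halg y
  -- the roots of `p.map (algebraMap Ω L)` are mapped by `τ` injectively to the roots of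
  -- `p.map ψ`; both polynomials have the same number of roots (with multiplicity) since
  -- `L` is algebraically closed, and `τ` maps the first multiset onto the second.
  have hmap : (p.map (algebraMap Ω L)).map (τ : L →+* L) = p.map (ψ : Ω →+* L) := by
    rw [Polynomial.map_map]
    congr 1
    ext x
    exact hτ x
  have hsplit : (p.map (algebraMap Ω L)).Splits := IsAlgClosed.splits _
  have hroots : (p.map (ψ : Ω →+* L)).roots =
      (p.map (algebraMap Ω L)).roots.map (τ : L →+* L) := by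
    rw [← hmap]
    exact (Polynomial.Splits.roots_map hsplit (τ : L →+* L)).symm ▸ rfl
  have hy : y ∈ (p.map (ψ : Ω →+* L)).roots := by
    rw [Polynomial.mem_roots (Polynomial.map_ne_zero hp0)]
    rw [Polynomial.IsRoot.def, Polynomial.eval_map]
    exact hp
  rw [hroots, Multiset.mem_map] at hy
  obtain ⟨z, -, hz⟩ := hy
  exact ⟨z, hz⟩

end Lift

section Comp

variable {K 𝔉 Ω L : Type*} [Field K] [Field 𝔉] [Field Ω] [Field L]
  [Algebra K 𝔉] [Algebra K Ω] [Algebra K L] [Algebra 𝔉 Ω] [Algebra 𝔉 L] [Algebra Ω L]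
  [IsScalarTower 𝔉 Ω L]

/-- **composition**: if `φ₁, φ₂` are induced by the points `ψ₁, ψ₂` and `τ : L → L` extends `ψ₁`,
then `φ₁ ∘ φ₂` is induced by the transported point `τ ∘ ψ₂`. -/
theorem s27pc_comp_spec (φ₁ φ₂ : 𝔉 →ₐ[K] 𝔉) (ψ₁ ψ₂ : Ω →ₐ[K] L)
    (h₁ : ∀ x : 𝔉, algebraMap 𝔉 L (φ₁ x) = ψ₁ (algebraMap 𝔉 Ω x))
    (h₂ : ∀ x : 𝔉, algebraMap 𝔉 L (φ₂ x) = ψ₂ (algebraMap 𝔉 Ω x))
    (τ : L →ₐ[K] L) (hτ : ∀ x : Ω, τ (algebraMap Ω L x) = ψ₁ x) (x : 𝔉) :
    algebraMap 𝔉 L ((φ₁.comp φ₂) x) = (τ.comp ψ₂) (algebraMap 𝔉 Ω x) := by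
  rw [AlgHom.comp_apply, AlgHom.comp_apply, h₁, ← hτ, ← IsScalarTower.algebraMap_apply, h₂]

/-- existence form: the composite of two induced endomorphisms is induced by a point of the
form `τ ∘ ψ₂`, `τ` an extension of `ψ₁` to `L`. -/
theorem s27pc_exists_comp [IsScalarTower K Ω L] [IsAlgClosed L] [Algebra.IsAlgebraic Ω L]
    (φ₁ φ₂ : 𝔉 →ₐ[K] 𝔉) (ψ₁ ψ₂ : Ω →ₐ[K] L)
    (h₁ : ∀ x : 𝔉, algebraMap 𝔉 L (φ₁ x) = ψ₁ (algebraMap 𝔉 Ω x))
    (h₂ : ∀ x : 𝔉, algebraMap 𝔉 L (φ₂ x) = ψ₂ (algebraMap 𝔉 Ω x)) :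
    ∃ τ : L →ₐ[K] L, (∀ x : Ω, τ (algebraMap Ω L x) = ψ₁ x) ∧
      ∀ x : 𝔉, algebraMap 𝔉 L ((φ₁.comp φ₂) x) = (τ.comp ψ₂) (algebraMap 𝔉 Ω x) := by
  obtain ⟨τ, hτ⟩ := s27pc_exists_lift ψ₁
  exact ⟨τ, hτ, s27pc_comp_spec φ₁ φ₂ ψ₁ ψ₂ h₁ h₂ τ hτ⟩

/-- `φ ∘ id = φ`. -/
theorem s27pc_comp_one (φ φ₁ : 𝔉 →ₐ[K] 𝔉) (h : φ₁ = AlgHom.id K 𝔉) : φ.comp φ₁ = φ := by
  rw [h, AlgHom.comp_id]

/-- two endomorphisms induced by the same point are equal. -/
theorem s27pc_eq_of_induced (φ φ' : 𝔉 →ₐ[K] 𝔉) (ψ : Ω →ₐ[K] L)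
    (h : ∀ x : 𝔉, algebraMap 𝔉 L (φ x) = ψ (algebraMap 𝔉 Ω x))
    (h' : ∀ x : 𝔉, algebraMap 𝔉 L (φ' x) = ψ (algebraMap 𝔉 Ω x)) : φ = φ' := by
  ext x
  exact (algebraMap 𝔉 L).injective ((h x).trans (h' x).symm)

end Comp

section Stable

variable {K 𝔉 Ω L : Type*} [Field K] [Field 𝔉] [Field Ω] [Field L]
  [Algebra K 𝔉] [Algebra K Ω] [Algebra K L] [Algebra 𝔉 Ω] [Algebra 𝔉 L]
  {G : Type*} [Group G] [Fintype G] [MulSemiringAction G Ω]

/-- the polynomial `∏_π (X − π • x)` has its coefficients in the fixed field. -/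
theorem s27pc_prod_coeff_fixed (x : Ω) (π : G) (j : ℕ) :
    π • (∏ ρ : G, (X - C (ρ • x))).coeff j = (∏ ρ : G, (X - C (ρ • x))).coeff j := by
  have h1 : (∏ ρ : G, (X - C (ρ • x))).map (MulSemiringAction.toRingHom G Ω π) =
      ∏ ρ : G, (X - C (ρ • x)) := by
    rw [Polynomial.map_prod]
    simp only [Polynomial.map_sub, Polynomial.map_X, Polynomial.map_C,
      MulSemiringAction.toRingHom_apply, smul_smul]
    exact Fintype.prod_equiv (Equiv.mulLeft π) _ _ (fun ρ => rfl)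
  have h2 := congrArg (fun p : Polynomial Ω => p.coeff j) h1
  simp only [Polynomial.coeff_map, MulSemiringAction.toRingHom_apply] at h2
  exact h2

/-- pointwise form of the converse of GEN-EMB. -/
theorem s27pc_exists_perm_pointwise
    (hfixed : ∀ y : Ω, (∀ π : G, π • y = y) → y ∈ Set.range (algebraMap 𝔉 Ω))
    (ψ : Ω →+* L) (hrange : ∀ x : 𝔉, ψ (algebraMap 𝔉 Ω x) ∈ Set.range (algebraMap 𝔉 L))
    (σ : L ≃ₐ[𝔉] L) (x : Ω) : ∃ π : G, σ (ψ x) = ψ (π • x) := by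
  set P : Polynomial Ω := ∏ ρ : G, (X - C (ρ • x)) with hP
  set q : Polynomial L := P.map ψ with hq
  -- `q` is fixed by `σ`
  have hσq : q.map (σ : L →+* L) = q := by
    ext j
    rw [Polynomial.coeff_map, hq, Polynomial.coeff_map]
    obtain ⟨y, hy⟩ := hfixed (P.coeff j) (fun π => s27pc_prod_coeff_fixed x π j)
    obtain ⟨z, hz⟩ := hrange y
    rw [← hy, ← hz]
    exact σ.commutes z
  have hqprod : q = ∏ ρ : G, (X - C (ψ (ρ • x))) := by
    rw [hq, hP, Polynomial.map_prod]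
    simp only [Polynomial.map_sub, Polynomial.map_X, Polynomial.map_C]
  have hroot : q.eval (ψ x) = 0 := by
    rw [hqprod, Polynomial.eval_prod]
    refine Finset.prod_eq_zero (Finset.mem_univ (1 : G)) ?_
    simp
  have hroot' : q.eval (σ (ψ x)) = 0 := by
    have h1 : (q.map (σ : L →+* L)).eval ((σ : L →+* L) (ψ x)) = (σ : L →+* L) (q.eval (ψ x)) :=
      Polynomial.eval_map_apply _ _
    rw [hσq, hroot, map_zero] at h1
    exact h1
  rw [hqprod, Polynomial.eval_prod, Finset.prod_eq_zero_iff] at hroot'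
  obtain ⟨π, -, hπ⟩ := hroot'
  refine ⟨π, ?_⟩
  simp only [Polynomial.eval_sub, Polynomial.eval_X, Polynomial.eval_C] at hπ
  exact sub_eq_zero.1 hπ

/-- **converse of GEN-EMB**: an embedding `ψ : Ω → L` which maps `𝔉` into `𝔉` is Galois-stable:
every `σ ∈ Gal(L / 𝔉)` satisfies `σ ∘ ψ = ψ ∘ π` for some `π ∈ G`. -/
theorem s27pc_stable_of_range [IsScalarTower K 𝔉 L] [Infinite K] [SMulCommClass G K Ω]
    (hfixed : ∀ y : Ω, (∀ π : G, π • y = y) → y ∈ Set.range (algebraMap 𝔉 Ω))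
    (ψ : Ω →ₐ[K] L) (hrange : ∀ x : 𝔉, ψ (algebraMap 𝔉 Ω x) ∈ Set.range (algebraMap 𝔉 L))
    (σ : L ≃ₐ[𝔉] L) : ∃ π : G, ∀ x : Ω, σ (ψ x) = ψ (π • x) := by
  have hσK : ∀ (c : K) (y : L), σ (c • y) = c • σ y := by
    intro c y
    rw [Algebra.smul_def, Algebra.smul_def, map_mul, IsScalarTower.algebraMap_apply K 𝔉 L,
      σ.commutes]
  let E : G → Submodule K Ω := fun π =>
    { carrier := {x | σ (ψ x) = ψ (π • x)}
      add_mem' := by
        intro a b ha hb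
        show σ (ψ (a + b)) = ψ (π • (a + b))
        have ha' : σ (ψ a) = ψ (π • a) := ha
        have hb' : σ (ψ b) = ψ (π • b) := hb
        rw [map_add, map_add, smul_add, map_add, ha', hb']
      zero_mem' := by
        show σ (ψ 0) = ψ (π • (0 : Ω))
        rw [smul_zero, map_zero, map_zero]
      smul_mem' := by
        intro c a ha
        show σ (ψ (c • a)) = ψ (π • c • a)
        have ha' : σ (ψ a) = ψ (π • a) := ha
        have h1 : ψ (c • a) = c • ψ a := map_smul ψ c a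
        have h2 : π • c • a = c • π • a := smul_comm π c a
        have h3 : ψ (c • π • a) = c • ψ (π • a) := map_smul ψ c (π • a)
        rw [h1, hσK, ha', h2, h3] }
  by_contra hcon
  have hcon' : ∀ π : G, ∃ x : Ω, ¬ σ (ψ x) = ψ (π • x) := fun π =>
    not_forall.1 (fun h => hcon ⟨π, h⟩)
  have hne : ∀ π : G, E π ≠ ⊤ := by
    intro π htop
    obtain ⟨x, hx⟩ := hcon' π
    have hxm : x ∈ E π := by rw [htop]; exact Submodule.mem_top
    exact hx hxm
  obtain ⟨x, hx⟩ := Submodule.exists_forall_notMem_of_forall_ne_top E hne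
  obtain ⟨π, hπ⟩ := s27pc_exists_perm_pointwise hfixed (ψ : Ω →+* L) hrange σ x
  exact hx π hπ

end Stable

end Fermat.Agent.S27

end
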