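/-
S27-B, geometry leaf PSI-NAT (helper84): the local equation of `Θ` at `k·η`.

`𝔉 ⊆ L` fields over `K`; `p, q : Fin N → F →ₐ[K] L` two tuples of points, `τ : L → L` a
`K`-homomorphism with `τ ∘ p i = q i` which induces `ψ : 𝔉 → 𝔉` on `𝔉`
(`τ (algebraMap s) = algebraMap (ψ s)`).  If `β V` is a local equation of the theta divisor at
the tuple `p` (along every `W ⊇ K` of `L` above `V`), then `ψ (β (V.comap ψ))` is a local equation
at the tuple `q` — by the naturality `s27pt_idx_nat` of S27/PtDef.lean.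

* `S27pnIsEq W R A' y`   : `y` is a local equation at `R` along `W`, up to a unit of `W`;
* `S27pnBeta p A' β`     : `β (W ∩ 𝔉)` is a local equation at `p` along every `W ⊇ K`;
* `s27pn_isEq_unique`    : two local equations differ by a unit;
* `s27pn_comap`          : `(W.comap τ) ∩ 𝔉 = (W ∩ 𝔉).comap ψ`;
* **`s27pn_nat`**        : PSI-NAT, abstract form;
* **`s27pn_indB`**       : `algebraMap (s27indB ψ β k (W ∩ 𝔉))` is a local equation at `q k`
                           (`k ≠ 0`) along `W`;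
* `s27pn_indB_of_lift`   : the same, `τ` produced from `Ψ : Ω → L` (`L` an algebraic closure of
                           `Ω`), `Ψ ∘ ι_i = q k i`.
-/
import Fermat.Agent.S27.PtDef
import Fermat.Agent.S27.Nat
import Fermat.Agent.S27.Ind
import Fermat.Agent.S27.PsiComp
import Fermat.Agent.S27.Psi

set_option autoImplicit false
set_option linter.unusedVariables false
set_option linter.unusedSectionVars false

noncomputable section

namespace Fermat.Agent.S27

open AlgebraicCurve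

universe u v w w'

section Abs

variable {K : Type u} {F : Type v} [Field K] [Field F] [Algebra K F]
variable {𝔉 : Type w} [Field 𝔉] [Algebra K 𝔉]
variable {L : Type w'} [Field L] [Algebra K L] [Algebra 𝔉 L] [IsScalarTower K 𝔉 L]

/-- `y` is a local equation of the theta divisor of `A'` at the tuple `R` along `W`, up to a unit
of `W`. -/
def S27pnIsEq {N : ℕ} (W : ValuationSubring L) (R : Fin N → F →ₐ[K] L) (A' : Divisor K F)
    (y : L) : Prop :=
  ∃ x : L, S27ptIsIdx W R A' x ∧ ∃ u : L, S27IsUnitIn W u ∧ y = u * x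

/-- `β` is a local equation of the theta divisor at the tuple `p`: for every valuation subring
`W ⊇ K` of `L`, `β (W ∩ 𝔉)` is a local equation at `p` along `W`. -/
def S27pnBeta {N : ℕ} (p : Fin N → F →ₐ[K] L) (A' : Divisor K F)
    (β : ValuationSubring 𝔉 → 𝔉) : Prop :=
  ∀ W : ValuationSubring L, S27IsKValU K W →
    S27pnIsEq W p A' (algebraMap 𝔉 L (β (W.comap (algebraMap 𝔉 L))))

theorem s27pn_isEq_of_idx {N : ℕ} {W : ValuationSubring L} {R : Fin N → F →ₐ[K] L}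
    {A' : Divisor K F} {x : L} (hx : S27ptIsIdx W R A' x) : S27pnIsEq W R A' x :=
  ⟨x, hx, 1, ⟨one_ne_zero, W.one_mem, by rw [inv_one]; exact W.one_mem⟩, (one_mul x).symm⟩

theorem s27pn_unit_mul {W : ValuationSubring L} {a b : L} (ha : S27IsUnitIn W a)
    (hb : S27IsUnitIn W b) : S27IsUnitIn W (a * b) :=
  ⟨mul_ne_zero ha.1 hb.1, W.mul_mem _ _ ha.2.1 hb.2.1, by
    rw [mul_inv]
    exact W.mul_mem _ _ ha.2.2 hb.2.2⟩

theorem s27pn_unit_inv {W : ValuationSubring L} {a : L} (ha : S27IsUnitIn W a) :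
    S27IsUnitIn W a⁻¹ :=
  ⟨inv_ne_zero ha.1, ha.2.2, by rw [inv_inv]; exact ha.2.1⟩

/-- a unit multiple of a local equation is a local equation -/
theorem s27pn_isEq_mul {N : ℕ} {W : ValuationSubring L} {R : Fin N → F →ₐ[K] L}
    {A' : Divisor K F} {y u : L} (hy : S27pnIsEq W R A' y) (hu : S27IsUnitIn W u) :
    S27pnIsEq W R A' (u * y) := by
  obtain ⟨x, hx, u', hu', rfl⟩ := hy
  exact ⟨x, hx, u * u', s27pn_unit_mul hu hu', (mul_assoc _ _ _).symm⟩

/-- two local equations differ by a unit of `W`. -/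
theorem s27pn_isEq_unique {N : ℕ} {W : ValuationSubring L} (hW : S27IsKValU K W)
    {R : Fin N → F →ₐ[K] L} {A' : Divisor K F} {y y' : L}
    (hy : S27pnIsEq W R A' y) (hy' : S27pnIsEq W R A' y') :
    ∃ u : L, S27IsUnitIn W u ∧ y = u * y' := by
  obtain ⟨x, hx, u, hu, rfl⟩ := hy
  obtain ⟨x', hx', u', hu', rfl⟩ := hy'
  obtain ⟨c, hc0, hc1, hc2, hc⟩ := s27pt_idx_unique hW hx hx'
  refine ⟨u * c * u'⁻¹, s27pn_unit_mul (s27pn_unit_mul hu ⟨hc0, hc1, hc2⟩) (s27pn_unit_inv hu'),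
    ?_⟩
  rw [hc]
  have := hu'.1
  field_simp

/-- `(W.comap τ) ∩ 𝔉 = (W ∩ 𝔉).comap ψ`. -/
theorem s27pn_comap (ψ : 𝔉 →ₐ[K] 𝔉) (τ : L →ₐ[K] L)
    (hτ : ∀ s : 𝔉, τ (algebraMap 𝔉 L s) = algebraMap 𝔉 L (ψ s)) (W : ValuationSubring L) :
    (W.comap (τ : L →+* L)).comap (algebraMap 𝔉 L) =
      (W.comap (algebraMap 𝔉 L)).comap ((ψ : 𝔉 →ₐ[K] 𝔉) : 𝔉 →+* 𝔉) := by
  ext s
  simp only [ValuationSubring.mem_comap]
  show τ (algebraMap 𝔉 L s) ∈ W ↔ algebraMap 𝔉 L (ψ s) ∈ W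
  rw [hτ]

theorem s27pn_kval_comap (τ : L →ₐ[K] L) {W : ValuationSubring L} (hW : S27IsKValU K W) :
    S27IsKValU K (W.comap (τ : L →+* L)) := by
  intro a
  rw [ValuationSubring.mem_comap]
  show τ (algebraMap K L a) ∈ W
  rw [AlgHom.commutes]
  exact hW a

/-- **PSI-NAT**, abstract form: transport of the local equation along `τ`. -/
theorem s27pn_nat {N : ℕ} (p q : Fin N → F →ₐ[K] L) (A' : Divisor K F)
    (β : ValuationSubring 𝔉 → 𝔉) (hβ : S27pnBeta p A' β)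
    (ψ : 𝔉 →ₐ[K] 𝔉) (τ : L →ₐ[K] L)
    (hτ : ∀ s : 𝔉, τ (algebraMap 𝔉 L s) = algebraMap 𝔉 L (ψ s))
    (hq : ∀ i f, τ (p i f) = q i f)
    (W : ValuationSubring L) (hW : S27IsKValU K W) :
    S27pnIsEq W q A' (algebraMap 𝔉 L
      (ψ (β ((W.comap (algebraMap 𝔉 L)).comap ((ψ : 𝔉 →ₐ[K] 𝔉) : 𝔉 →+* 𝔉))))) := by
  obtain ⟨x, hx, u, hu, hxu⟩ := hβ (W.comap (τ : L →+* L)) (s27pn_kval_comap τ hW)
  rw [s27pn_comap ψ τ hτ W] at hxu
  have h1 := s27pt_idx_nat τ W hx
  have h2 : (fun i => τ.comp (p i)) = q := by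
    funext i
    exact AlgHom.ext fun f => hq i f
  rw [h2] at h1
  refine ⟨τ x, h1, τ u, (s27nat_unit_iff (τ : L →+* L) W u).1 hu, ?_⟩
  rw [← hτ, hxu, map_mul]

/-- **PSI-NAT** for the functions `B k V` of the induction: `algebraMap (s27indB ψ β k (W ∩ 𝔉))`
is a local equation at `q k` along `W` (`k ≠ 0`). -/
theorem s27pn_indB {N : ℕ} (p : Fin N → F →ₐ[K] L) (q : ℤ → Fin N → F →ₐ[K] L)
    (A' : Divisor K F) (β : ValuationSubring 𝔉 → 𝔉) (hβ : S27pnBeta p A' β)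
    (ψ : ℤ → (𝔉 →ₐ[K] 𝔉)) (k : ℤ) (hk : k ≠ 0)
    (hτ : ∃ τ : L →ₐ[K] L, (∀ s : 𝔉, τ (algebraMap 𝔉 L s) = algebraMap 𝔉 L (ψ k s)) ∧
      ∀ i f, τ (p i f) = q k i f)
    (W : ValuationSubring L) (hW : S27IsKValU K W) :
    S27pnIsEq W (q k) A' (algebraMap 𝔉 L (s27indB ψ β k (W.comap (algebraMap 𝔉 L)))) := by
  obtain ⟨τ, hτ1, hτ2⟩ := hτ
  unfold s27indB
  rw [if_neg hk]
  exact s27pn_nat p (q k) A' β hβ (ψ k) τ hτ1 hτ2 W hW

end Abs

section Model

variable {K : Type u} {F : Type v} [Field K] [IsAlgClosed K] [Field F] [Algebra K F] {g : ℕ}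
variable {L : Type w'} [Field L] [Algebra K L] [Algebra (s27gfOm K F g) L]
  [IsScalarTower K (s27gfOm K F g) L]

/-- the tautological points `ι_i : F → Ω ⊆ L` (`= s27pfTaut` of S27/PsiFam.lean). -/
def s27pnTaut (i : Fin g) : F →ₐ[K] L :=
  (IsScalarTower.toAlgHom K (s27gfOm K F g) L).comp (s27gfIota i)

/-- **PSI-NAT on the model**: if `β` is a local equation of `Θ` at the tautological tuple and
`ψ k` is induced by the evaluation `Ψ_k = s27psiT (q k)` at the generic tuple `q k`, then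
`B k (W ∩ 𝔉)` is a local equation of `Θ` at `q k` along `W`, for every `W ⊇ K` of `L`. -/
theorem s27pn_indB_of_lift [IsAlgClosed L] [Algebra.IsAlgebraic (s27gfOm K F g) L]
    (A' : Divisor K F)
    (β : ValuationSubring (s27gfSym K F g) → s27gfSym K F g)
    (hβ : S27pnBeta (L := L) (s27pnTaut (K := K) (F := F) (g := g) (L := L)) A' β)
    (ψ : ℤ → (s27gfSym K F g →ₐ[K] s27gfSym K F g)) (q : ℤ → Fin g → F →ₐ[K] L)
    (k : ℤ) (hk : k ≠ 0)
    (hspec : ∃ he : Function.Injective (s27gfLiftR (q k)), ∀ s : s27gfSym K F g,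
      algebraMap (s27gfOm K F g) L ((ψ k s : s27gfSym K F g) : s27gfOm K F g) =
        s27psiT (q k) he (s : s27gfOm K F g))
    (W : ValuationSubring L) (hW : S27IsKValU K W) :
    S27pnIsEq W (q k) A' (algebraMap (s27gfSym K F g) L
      (s27indB ψ β k (W.comap (algebraMap (s27gfSym K F g) L)))) := by
  obtain ⟨he, hs⟩ := hspec
  obtain ⟨τ, hτ⟩ := s27pc_exists_lift (s27psiT (q k) he)
  refine s27pn_indB (s27pnTaut (K := K) (F := F) (g := g) (L := L)) q A' β hβ ψ k hk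
    ⟨τ, fun s => ?_, fun i f => ?_⟩ W hW
  · have h1 : algebraMap (s27gfSym K F g) L s =
        algebraMap (s27gfOm K F g) L (s : s27gfOm K F g) := rfl
    have h2 : algebraMap (s27gfSym K F g) L (ψ k s) =
        algebraMap (s27gfOm K F g) L ((ψ k s : s27gfSym K F g) : s27gfOm K F g) := rfl
    rw [h1, h2, hτ, hs]
  · show τ (algebraMap (s27gfOm K F g) L (s27gfIota i f)) = q k i f
    rw [hτ, s27psiT_iota]

end Model

end Fermat.Agent.S27
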