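/-
S27-B — GEOMETRY HUB (helper95): **CRUX on the stage** (the `cube` clause of `s27mt_Stmt`,
S27/ModelTop.lean), from the geometric inputs in CLASS FORM (S27/CubeK.lean):

  stage   : `K, F, g = genusFF K F, Ω = s27gfOm, 𝔉 = s27gfSym, L ⊇ Ω` an algebraic closure,
            `pkg`, a family `q` (`S27pfFam pkg q`), `ψ = s27pfPsi pkg halg hq`;
  (BETA)  : `hβ : S27pnBeta s27pnTaut A' β`            (helper19, S27/Beta.lean);
  (IDX)   : `hIdx`: a local equation at the tuple `q k` w.r.t. `A'` is a local equation at the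
            class `k • η` (definition of the class-indexed `Idx`, `η = cl (taut)`);
  (LE)    : `hLE : S27ckLE K Idx`;
  (CP)    : `hcp k : S27ckCP K Idx (k • η) η (Φ k)`, `Φ k ≠ 0`, for `0 < |k| < n`.

  `s27mc_nat`  : (BETA) + (IDX) ⇒ (PSI-NAT) in class form (through helper84's `s27pn_indB_of_lift`);
  `s27mc_cube` : ⇒ the literal `cube` clause of `s27mt_Stmt`, with `e k = s27nmE 𝔉 (Φ k)⁻¹`,
                 `Φ_𝔉 k = s27nmPhi 𝔉 (Φ k)⁻¹` (NORM of helper89).
-/
import Fermat.Agent.S27.CubeK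
import Fermat.Agent.S27.PsiNat
import Fermat.Agent.S27.PsiFam

set_option autoImplicit false
set_option linter.unusedVariables false
set_option linter.unusedSectionVars false

noncomputable section

namespace Fermat.Agent.S27

open AlgebraicCurve

universe u v x y z

section Stage

variable {K : Type u} {F : Type v} [Field K] [IsAlgClosed K] [Field F] [Algebra K F] {g : ℕ}
variable {L : Type (max u v)} [Field L] [Algebra K L] [Algebra (s27gfOm K F g) L]
  [IsScalarTower K (s27gfOm K F g) L] [IsAlgClosed L] [Algebra.IsAlgebraic (s27gfOm K F g) L]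
variable {t : F} {Pl : Type x} {P : Type y} [AddCommGroup P] (pkg : S27DegPkg K F L t g Pl P)
variable {C : Type z} [AddCommGroup C]
variable [IsGalois (s27gfSym K F g) L]

/-- (PSI-NAT) in class form on the stage. -/
theorem s27mc_nat (halg : ∀ f : F, IsAlgebraic (IntermediateField.adjoin K {t}) f)
    {q : ℤ → Fin g → F →ₐ[K] L} (hq : S27pfFam pkg q) (A' : Divisor K F)
    (β : ValuationSubring (s27gfSym K F g) → s27gfSym K F g)
    (hβ : S27pnBeta (L := L) (s27pnTaut (K := K) (F := F) (g := g) (L := L)) A' β)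
    (Idx : ValuationSubring L → C → L → Prop) (η : C)
    (hIdx : ∀ k : ℤ, k ≠ 0 → ∀ W : ValuationSubring L, S27IsKValU K W → ∀ y : L,
      S27ptIsIdx W (q k) A' y → Idx W (k • η) y)
    (j : ℤ) (hj : j ≠ 0) : S27ckNat K (s27pfPsi pkg halg hq) β Idx η j := by
  intro W hW
  obtain ⟨y, hy, u, hu, hyu⟩ := s27pn_indB_of_lift A' β hβ (s27pfPsi pkg halg hq) q j hj
    ⟨(s27pf_fam_pt pkg halg hq j hj).inj, fun s => s27pfPsi_spec pkg halg hq j hj s⟩ W hW
  exact ⟨y, hIdx j hj W hW y hy, u, hu, hyu⟩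

/-- **CRUX on the stage**: the literal `cube` clause of `s27mt_Stmt`. -/
theorem s27mc_cube (halg : ∀ f : F, IsAlgebraic (IntermediateField.adjoin K {t}) f)
    {q : ℤ → Fin g → F →ₐ[K] L} (hq : S27pfFam pkg q) (A' : Divisor K F)
    (β : ValuationSubring (s27gfSym K F g) → s27gfSym K F g)
    (hβ : S27pnBeta (L := L) (s27pnTaut (K := K) (F := F) (g := g) (L := L)) A' β)
    (Idx : ValuationSubring L → C → L → Prop) (η : C) (hLE : S27ckLE K Idx)
    (hIdx : ∀ k : ℤ, k ≠ 0 → ∀ W : ValuationSubring L, S27IsKValU K W → ∀ y : L,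
      S27ptIsIdx W (q k) A' y → Idx W (k • η) y)
    (n : ℕ) (Φ : ℤ → L) (hΦ : ∀ k : ℤ, k ∈ s27indbRange n → Φ k ≠ 0)
    (hcp : ∀ k : ℤ, k ∈ s27indbRange n → S27ckCP K Idx (k • η) η (Φ k)) :
    (∀ k : ℤ, k ∈ s27indbRange n → 0 < s27nmE (s27gfSym K F g) (Φ k)⁻¹) ∧
    (∀ k : ℤ, k ∈ s27indbRange n → s27nmPhi (s27gfSym K F g) (Φ k)⁻¹ ≠ 0) ∧
    ∀ k : ℤ, k ∈ s27indbRange n → ∀ V : ValuationSubring (s27gfSym K F g), S27IsKValU K V →
      ∃ u, S27IsUnitIn V u ∧
        (s27indB (s27pfPsi pkg halg hq) β (k + 1) V *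
            s27indB (s27pfPsi pkg halg hq) β (k - 1) V) ^ s27nmE (s27gfSym K F g) (Φ k)⁻¹ =
          u * s27nmPhi (s27gfSym K F g) (Φ k)⁻¹ * (s27indB (s27pfPsi pkg halg hq) β k V ^ 2 *
            s27indB (s27pfPsi pkg halg hq) β 1 V *
            s27indB (s27pfPsi pkg halg hq) β (-1) V) ^ s27nmE (s27gfSym K F g) (Φ k)⁻¹ := by
  refine ⟨fun k _ => s27nmE_pos _, fun k hk => s27nmPhi_ne (inv_ne_zero (hΦ k hk)), ?_⟩
  intro k hk
  have hup : S27nmcCubeUp K L (s27pfPsi pkg halg hq) β k (Φ k)⁻¹ :=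
    s27ck_cubeUp (s27pfPsi pkg halg hq) β Idx η hLE
      (fun j hj => s27mc_nat pkg halg hq A' β hβ Idx η hIdx j hj) k (Φ k) (hΦ k hk) (hcp k hk)
  exact s27nmc_cube (s27pfPsi pkg halg hq) β k (Φ k)⁻¹ (inv_ne_zero (hΦ k hk)) hup

end Stage

end Fermat.Agent.S27

end
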