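/-
S27-B, geometry leaf PSI-NAT, part 2 (helper84): the hypothesis `S27pnBeta` of S27/PsiNat.lean from
the specification of `β` on `Ω` (the third clause of `s27beta_main`, S27/Beta.lean, helper19), and
the final form of PSI-NAT on the model.

* `s27pn_beta_of_om`  : `β (W₀ ∩ 𝔉)` is a local equation at `(ι_i)` along every `W₀ ⊇ K` of `Ω`
                        ⇒ `S27pnBeta s27pnTaut A' β` (along every `W ⊇ K` of `L ⊇ Ω`);
* **`s27pn_indB_model`** : `algebraMap (s27indB ψ β k (W ∩ 𝔉))` is a local equation at `q k`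
                        along `W`, for every `k ≠ 0` and every `W ⊇ K` of `L`;
* `s27pn_beta_main`, `s27pn_indB_beta` : the same for `β = s27beta A'` (S27/Beta.lean), under the
                        hypotheses of `s27beta_main`.
-/
import Fermat.Agent.S27.PsiNat
import Fermat.Agent.S27.Beta

set_option autoImplicit false
set_option linter.unusedVariables false
set_option linter.unusedSectionVars false

noncomputable section

namespace Fermat.Agent.S27

open AlgebraicCurve

universe u v w'

section Model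

variable {K : Type u} {F : Type v} [Field K] [IsAlgClosed K] [Field F] [Algebra K F] {g : ℕ}
variable {L : Type w'} [Field L] [Algebra K L] [Algebra (s27gfOm K F g) L]
  [IsScalarTower K (s27gfOm K F g) L]

/-- from the specification of `β` on `Ω` to the specification on `L`. -/
theorem s27pn_beta_of_om (A' : Divisor K F)
    (β : ValuationSubring (s27gfSym K F g) → s27gfSym K F g)
    (hΩ : ∀ W : ValuationSubring (s27gfOm K F g), (∀ a : K, algebraMap K (s27gfOm K F g) a ∈ W) →
      S27ptIsIdx W (fun i => (s27gfIota i : F →ₐ[K] s27gfOm K F g)) A'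
        (algebraMap (s27gfSym K F g) (s27gfOm K F g)
          (β (W.comap (algebraMap (s27gfSym K F g) (s27gfOm K F g)))))) :
    S27pnBeta (L := L) (s27pnTaut (K := K) (F := F) (g := g) (L := L)) A' β := by
  intro W hW
  have hK : ∀ a : K, algebraMap K (s27gfOm K F g) a ∈
      W.comap (algebraMap (s27gfOm K F g) L) := by
    intro a
    rw [ValuationSubring.mem_comap, ← IsScalarTower.algebraMap_apply K (s27gfOm K F g) L]
    exact hW a
  have h1 := hΩ (W.comap (algebraMap (s27gfOm K F g) L)) hK
  have h2 := s27pt_idx_nat (IsScalarTower.toAlgHom K (s27gfOm K F g) L) W h1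
  have h3 : (W.comap (algebraMap (s27gfOm K F g) L)).comap
      (algebraMap (s27gfSym K F g) (s27gfOm K F g)) =
      W.comap (algebraMap (s27gfSym K F g) L) := by
    ext s
    simp only [ValuationSubring.mem_comap]
    rfl
  rw [h3] at h2
  exact s27pn_isEq_of_idx h2

/-- **PSI-NAT on the model, final form.** -/
theorem s27pn_indB_model [IsAlgClosed L] [Algebra.IsAlgebraic (s27gfOm K F g) L]
    (A' : Divisor K F)
    (β : ValuationSubring (s27gfSym K F g) → s27gfSym K F g)
    (hΩ : ∀ W : ValuationSubring (s27gfOm K F g), (∀ a : K, algebraMap K (s27gfOm K F g) a ∈ W) →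
      S27ptIsIdx W (fun i => (s27gfIota i : F →ₐ[K] s27gfOm K F g)) A'
        (algebraMap (s27gfSym K F g) (s27gfOm K F g)
          (β (W.comap (algebraMap (s27gfSym K F g) (s27gfOm K F g))))))
    (ψ : ℤ → (s27gfSym K F g →ₐ[K] s27gfSym K F g)) (q : ℤ → Fin g → F →ₐ[K] L)
    (hspec : ∀ k : ℤ, k ≠ 0 → ∃ he : Function.Injective (s27gfLiftR (q k)),
      ∀ s : s27gfSym K F g,
        algebraMap (s27gfOm K F g) L ((ψ k s : s27gfSym K F g) : s27gfOm K F g) =
          s27psiT (q k) he (s : s27gfOm K F g))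
    (k : ℤ) (hk : k ≠ 0) (W : ValuationSubring L) (hW : S27IsKValU K W) :
    S27pnIsEq W (q k) A' (algebraMap (s27gfSym K F g) L
      (s27indB ψ β k (W.comap (algebraMap (s27gfSym K F g) L)))) :=
  s27pn_indB_of_lift A' β (s27pn_beta_of_om A' β hΩ) ψ q k hk (hspec k hk) W hW

/-- `β = s27beta A'` satisfies `S27pnBeta` (hypotheses of `s27beta_main`). -/
theorem s27pn_beta_main (hconj : s27beta_StmtConj K F g) (A' : Divisor K F)
    (f : Module.Basis (Fin g) K ↥(riemannRochSpace A'))
    (hlat : ∀ W : ValuationSubring (s27gfOm K F g),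
      (∀ a : K, algebraMap K (s27gfOm K F g) a ∈ W) →
        ∃ φ : Fin g → F, S27ptIsLatBasis W (s27betaPt K F g) A' φ) :
    S27pnBeta (L := L) (s27pnTaut (K := K) (F := F) (g := g) (L := L)) A'
      (s27beta (g := g) A') :=
  s27pn_beta_of_om A' _ (fun W hW => s27beta_spec hconj A' f hlat W hW)

/-- **PSI-NAT for `β = s27beta A'`.** -/
theorem s27pn_indB_beta [IsAlgClosed L] [Algebra.IsAlgebraic (s27gfOm K F g) L]
    (hconj : s27beta_StmtConj K F g) (A' : Divisor K F)
    (f : Module.Basis (Fin g) K ↥(riemannRochSpace A'))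
    (hlat : ∀ W : ValuationSubring (s27gfOm K F g),
      (∀ a : K, algebraMap K (s27gfOm K F g) a ∈ W) →
        ∃ φ : Fin g → F, S27ptIsLatBasis W (s27betaPt K F g) A' φ)
    (ψ : ℤ → (s27gfSym K F g →ₐ[K] s27gfSym K F g)) (q : ℤ → Fin g → F →ₐ[K] L)
    (hspec : ∀ k : ℤ, k ≠ 0 → ∃ he : Function.Injective (s27gfLiftR (q k)),
      ∀ s : s27gfSym K F g,
        algebraMap (s27gfOm K F g) L ((ψ k s : s27gfSym K F g) : s27gfOm K F g) =
          s27psiT (q k) he (s : s27gfOm K F g))
    (k : ℤ) (hk : k ≠ 0) (W : ValuationSubring L) (hW : S27IsKValU K W) :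
    S27pnIsEq W (q k) A' (algebraMap (s27gfSym K F g) L
      (s27indB ψ (s27beta (g := g) A') k (W.comap (algebraMap (s27gfSym K F g) L)))) :=
  s27pn_indB_of_lift A' _ (s27pn_beta_main hconj A' f hlat) ψ q k hk (hspec k hk) W hW

end Model

end Fermat.Agent.S27
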