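/-
S27-B — FINAL-CORE (captain helper77): the SIX clauses of `s27fs_Stmt` (FinalShape.lean) on a stage,
from the named inputs — everything else is WIRED here:

  `s27fc_clauses` : for a general genus `0 < g`, a package `pkg`, a family `q` (`S27pfFam pkg q`),
      `ψ := s27pfPsi pkg halg hq`, `β := s27beta A'` (helper19):
      INPUTS
        (LAT-EX)   `hlat` : along every `W ⊇ K` of `Ω_g` there is a lattice basis of the generic points;
        (IDX)      `hIdx` : a local equation at `q k` is a local equation at the class `k • η`;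
        (LE)       `hLE : S27ckLE K Idx`;
        (CP)       `hcp k : S27ckCP K Idx (k • η) η (Φ k)`, `Φ k ≠ 0`, for ALL `k ≠ 0`;
        (POLE-DIV) `hdiv` (literal shape of `s27grb_isGrow`), with `t`, `c₀`;
        constants  `A' ≤ B₁`, `0 ≤ B₁`, a `K`-basis `f₀` of `L_K(A')` indexed by `Fin g`.
      OUTPUT  `∃ β e Φ', β_ne ∧ β_mem ∧ (0 < e k) ∧ (Φ' k ≠ 0) ∧ cube ∧ S27IsGrow K (B 1 · B (−1)) g`
              = the body of `s27fs_Stmt` / `s27mt_Stmt`.
  Wired inside: BETA (`s27betat_main`, `s27pn_beta_main`, `s27betac_conj`), PSI-NAT + NORM + CUBE-K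
  (`s27mc_cube`, helper95), GROW-ASM2 (`s27grb_isGrow`, helper41; the cube at `k = 1` is taken from
  `s27mc_cube` at `n = 2`), DEG-FIN (`s27dgf_finite`).
-/
import Fermat.Agent.S27.FinalShape
import Fermat.Agent.S27.ModelCube
import Fermat.Agent.S27.GrowAsm2
import Fermat.Agent.S27.PsiNatBeta
import Fermat.Agent.S27.BetaTheta

set_option autoImplicit false
set_option linter.unusedVariables false
set_option linter.unusedSectionVars false
set_option linter.style.haveILetI false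

noncomputable section

namespace Fermat.Agent.S27

open AlgebraicCurve Module IntermediateField

universe u v x y z

section Core

variable {K : Type u} {F : Type v} [Field K] [IsAlgClosed K] [CharZero K] [Field F] [Algebra K F]
  [Algebra.EssFiniteType K F] {g : ℕ}
variable {L : Type (max u v)} [Field L] [Algebra K L] [Algebra (s27gfOm K F g) L]
  [IsScalarTower K (s27gfOm K F g) L] [IsAlgClosed L] [Algebra.IsAlgebraic (s27gfOm K F g) L]
variable {t₀ : F} {Pl : Type x} {P : Type y} [AddCommGroup P] (pkg : S27DegPkg K F L t₀ g Pl P)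
variable {C : Type z} [AddCommGroup C]
variable [IsGalois (s27gfSym K F g) L]

theorem s27fc_one_mem_range : (1 : ℤ) ∈ s27indbRange 2 := by
  rw [s27indb_mem_range]
  refine ⟨one_ne_zero, ?_, ?_⟩ <;> norm_num

/-- **FINAL-CORE**: the six clauses from the named inputs. -/
theorem s27fc_clauses (hg : 0 < g)
    (halg : ∀ f : F, IsAlgebraic (IntermediateField.adjoin K {t₀}) f)
    {q : ℤ → Fin g → F →ₐ[K] L} (hq : S27pfFam pkg q)
    -- constants
    (A' B₁ : Divisor K F) (hAB : A' ≤ B₁) (hB₁ : 0 ≤ B₁)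
    (f₀ : Module.Basis (Fin g) K ↥(riemannRochSpace A'))
    {x₀ : F} (hx₀ : Transcendental K x₀) [FiniteDimensional K⟮x₀⟯ F]
    -- (LAT-EX)
    (hlat : ∀ W : ValuationSubring (s27gfOm K F g),
      (∀ a : K, algebraMap K (s27gfOm K F g) a ∈ W) →
        ∃ φ : Fin g → F, S27ptIsLatBasis W (s27betaPt K F g) A' φ)
    -- (IDX) + (LE) + (CP)
    (Idx : ValuationSubring L → C → L → Prop) (η : C) (hLE : S27ckLE K Idx)
    (hIdx : ∀ k : ℤ, k ≠ 0 → ∀ W : ValuationSubring L, S27IsKValU K W → ∀ y : L,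
      S27ptIsIdx W (q k) A' y → Idx W (k • η) y)
    (Φ : ℤ → L) (hΦ : ∀ k : ℤ, k ≠ 0 → Φ k ≠ 0)
    (hcp : ∀ k : ℤ, k ≠ 0 → S27ckCP K Idx (k • η) η (Φ k))
    -- (POLE-DIV)
    (t : F) (ht : Transcendental K t)
    (halgt : Algebra.IsAlgebraic (Algebra.adjoin K ({t} : Set F)) F) (c₀ : ℕ)
    (hdiv : ∀ V : ValuationSubring (s27gfSym K F g), S27IsKValU K V →
      ∃ (W : ValuationSubring (s27gfOm K F g)) (p : Fin g → s27gfOm K F g) (w : s27gfOm K F g),
        (∀ x : s27gfSym K F g, (x : s27gfOm K F g) ∈ W → x ∈ V) ∧ (∀ i, p i ∈ W) ∧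
        (∀ i, s27gfIota (K := K) i t * p i ∈ W) ∧ w ∈ W ∧
        (((s27indB (s27pfPsi pkg halg hq) (s27beta (g := g) A') 1 V *
            s27indB (s27pfPsi pkg halg hq) (s27beta (g := g) A') (-1) V) ^ c₀ :
            s27gfSym K F g) : s27gfOm K F g) = w * ∏ i, p i)
    (n : ℕ) :
    ∃ (β : ValuationSubring (s27gfSym K F g) → s27gfSym K F g)
      (e : ℤ → ℕ) (Φ' : ℤ → s27gfSym K F g),
      (∀ V, S27IsKValU K V → β V ≠ 0) ∧ (∀ V, S27IsKValU K V → β V ∈ V) ∧
      (∀ k : ℤ, k ∈ s27indbRange n → 0 < e k) ∧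
      (∀ k : ℤ, k ∈ s27indbRange n → Φ' k ≠ 0) ∧
      (∀ k : ℤ, k ∈ s27indbRange n → ∀ V, S27IsKValU K V → ∃ u, S27IsUnitIn V u ∧
        (s27indB (s27pfPsi pkg halg hq) β (k + 1) V *
            s27indB (s27pfPsi pkg halg hq) β (k - 1) V) ^ e k =
          u * Φ' k * (s27indB (s27pfPsi pkg halg hq) β k V ^ 2 *
            s27indB (s27pfPsi pkg halg hq) β 1 V *
            s27indB (s27pfPsi pkg halg hq) β (-1) V) ^ e k) ∧
      S27IsGrow K (fun V => s27indB (s27pfPsi pkg halg hq) β 1 V *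
        s27indB (s27pfPsi pkg halg hq) β (-1) V) g := by
  have hrange : ∀ (m : ℕ) (k : ℤ), k ∈ s27indbRange m → k ≠ 0 := fun m k hk =>
    (s27indb_mem_range.1 hk).1
  obtain ⟨bne, bmem, bidx⟩ := s27betat_main (g := g) A' f₀ hlat
  have hβ : S27pnBeta (L := L) (s27pnTaut (K := K) (F := F) (g := g) (L := L)) A'
      (s27beta (g := g) A') := s27pn_beta_main s27betac_conj A' f₀ hlat
  obtain ⟨he, hΦ', hcube⟩ := s27mc_cube pkg halg hq A' (s27beta (g := g) A') hβ Idx η hLE hIdx n Φ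
    (fun k hk => hΦ k (hrange n k hk)) (fun k hk => hcp k (hrange n k hk))
  obtain ⟨he2, hΦ2, hcube2⟩ := s27mc_cube pkg halg hq A' (s27beta (g := g) A') hβ Idx η hLE hIdx 2 Φ
    (fun k hk => hΦ k (hrange 2 k hk)) (fun k hk => hcp k (hrange 2 k hk))
  haveI : Algebra.EssFiniteType K (s27gfSym K F g) := s27dfg_sym g
  refine ⟨s27beta (g := g) A', fun k => s27nmE (s27gfSym K F g) (Φ k)⁻¹,
    fun k => s27nmPhi (s27gfSym K F g) (Φ k)⁻¹, bne, bmem, he, hΦ', hcube, ?_⟩
  exact s27grb_isGrow hg (s27pfPsi pkg halg hq) (s27beta (g := g) A') bne bmem hx₀ A' B₁ hAB hB₁ f₀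
    bidx (s27nmE (s27gfSym K F g) (Φ 1)⁻¹) (he2 1 s27fc_one_mem_range)
    (s27nmPhi (s27gfSym K F g) (Φ 1)⁻¹) (hΦ2 1 s27fc_one_mem_range)
    (hcube2 1 s27fc_one_mem_range) (s27dgf_finite (s27pfPsi pkg halg hq 2)) t ht halgt c₀ hdiv

end Core

end Fermat.Agent.S27

end
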