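/-
S27-B — FINAL-TOP (captain helper77): **the frozen S27 from the FIVE named inputs on the stage.**

Stage (ModelTop.lean): `g = genusFF K F`, `L = s27mtL K F`, `FL = s27mtFL K F`,
`pkg = s27dclPkg hld hgen hx G₀ hG₀`, `η = s27pfCl pkg taut`, `ψ = s27pfPsi pkg halg hq`,
`β = s27beta (G₀ + Ao)` (helper19), `Idx = S27icIdx hld hgen hx Ao` (helper95, IdxCls.lean).

`s27ft_Stmt` : for every curve of genus `> 0` there are `x`, `G₀`, `Ao`, `B₁` with
  (CONST)    `G₀ + Ao ≤ B₁`, `0 ≤ B₁`, `finrank K L_K(G₀ + Ao) = g`;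
  (LAT-EX)   along every `W ⊇ K` of `Ω_g` the generic points have a lattice basis w.r.t. `G₀ + Ao`;
  (LE-TOP)   `S27ckLE K (S27icIdx hld hgen hx Ao)`;
  (CP-TOP)   `∀ k ≠ 0, ∃ Φ ≠ 0, S27ckCP K (S27icIdx hld hgen hx Ao) (k • η) η Φ`;
  (POLE-DIV) for every family `q`: `∃ t c₀`, the literal `hdiv` of `s27grb_isGrow`.
`s27ft_main   : s27ft_Stmt → s27mt_Stmt`,   `s27ft_result : s27ft_Stmt → s27_Stmt` (the frozen S27).
-/
import Fermat.Agent.S27.FinalCore
import Fermat.Agent.S27.IdxCls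

set_option autoImplicit false
set_option linter.unusedVariables false
set_option linter.unusedSectionVars false
set_option linter.style.haveILetI false

noncomputable section

namespace Fermat.Agent.S27

open AlgebraicCurve Module TensorProduct IntermediateField Fermat.Agent.S26

universe u v

section Inputs

variable (K : Type u) (F : Type v) [Field K] [Field F] [Algebra K F] [IsAlgClosed K] [CharZero K]
  [IsCurveOver K F] [Algebra.EssFiniteType K F]

/-- (LAT-EX) at the generic points, w.r.t. the constant divisor `A'`. -/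
def S27ftLatEx (A' : Divisor K F) : Prop :=
  ∀ W : ValuationSubring (s27gfOm K F (genusFF K F)),
    (∀ a : K, algebraMap K (s27gfOm K F (genusFF K F)) a ∈ W) →
      ∃ φ : Fin (genusFF K F) → F, S27ptIsLatBasis W (s27betaPt K F (genusFF K F)) A' φ

variable {K F}
variable {x : F} (hx : Transcendental K x)
  [FiniteDimensional ↥(IntermediateField.adjoin K {x}) F]
  [Algebra.IsSeparable ↥(IntermediateField.adjoin K {x}) F]
  (G₀ : Divisor K F) (hG₀ : Divisor.degree G₀ = (genusFF K F : ℤ))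

/-- the package of the stage. -/
abbrev s27ftPkg : S27DegPkg K F (s27mtL K F) x (genusFF K F) (Place (s27mtL K F) (s27mtFL K F))
    (Pic0 (s27mtL K F) (s27mtFL K F)) :=
  s27dclPkg (FL := s27mtFL K F) (s27stg_hld K F (s27mtL K F)) (s27stg_hgen K F (s27mtL K F))
    hx G₀ hG₀

/-- `η` = the class of the tautological tuple. -/
abbrev s27ftEta : Pic0 (s27mtL K F) (s27mtFL K F) :=
  s27pfCl (s27ftPkg hx G₀ hG₀)
    (s27pfTaut (K := K) (F := F) (g := genusFF K F) (L := s27mtL K F))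

/-- the class-indexed local equation of the stage. -/
abbrev s27ftIdx (Ao : Divisor K F) :
    ValuationSubring (s27mtL K F) → Pic0 (s27mtL K F) (s27mtFL K F) → s27mtL K F → Prop :=
  S27icIdx (FL := s27mtFL K F) (s27stg_hld K F (s27mtL K F)) (s27stg_hgen K F (s27mtL K F)) hx Ao

/-- (LE-TOP) -/
def S27ftLE (Ao : Divisor K F) : Prop := S27ckLE K (s27ftIdx hx Ao)

/-- (CP-TOP) -/
def S27ftCP (Ao : Divisor K F) : Prop :=
  ∀ k : ℤ, k ≠ 0 → ∃ Φ : s27mtL K F, Φ ≠ 0 ∧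
    S27ckCP K (s27ftIdx hx Ao) (k • s27ftEta hx G₀ hG₀) (s27ftEta hx G₀ hG₀) Φ

/-- (POLE-DIV) for the family `q`. -/
def S27ftPoleDiv (A' : Divisor K F)
    (q : ℤ → Fin (genusFF K F) → F →ₐ[K] s27mtL K F) (hq : S27pfFam (s27ftPkg hx G₀ hG₀) q) :
    Prop :=
  ∃ (t : F) (_ : Transcendental K t)
    (_ : Algebra.IsAlgebraic (Algebra.adjoin K ({t} : Set F)) F) (c₀ : ℕ),
    ∀ V : ValuationSubring (s27gfSym K F (genusFF K F)), S27IsKValU K V →
      ∃ (W : ValuationSubring (s27gfOm K F (genusFF K F)))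
        (p : Fin (genusFF K F) → s27gfOm K F (genusFF K F)) (w : s27gfOm K F (genusFF K F)),
        (∀ y : s27gfSym K F (genusFF K F), (y : s27gfOm K F (genusFF K F)) ∈ W → y ∈ V) ∧
        (∀ i, p i ∈ W) ∧ (∀ i, s27gfIota (K := K) i t * p i ∈ W) ∧ w ∈ W ∧
        (((s27indB (s27pfPsi (s27ftPkg hx G₀ hG₀) (s27dcl_halg (x := x)) hq)
              (s27beta (g := genusFF K F) A') 1 V *
            s27indB (s27pfPsi (s27ftPkg hx G₀ hG₀) (s27dcl_halg (x := x)) hq)
              (s27beta (g := genusFF K F) A') (-1) V) ^ c₀ :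
            s27gfSym K F (genusFF K F)) : s27gfOm K F (genusFF K F)) = w * ∏ i, p i

end Inputs

/-- **THE FIVE INPUTS.** -/
def s27ft_Stmt : Prop :=
  ∀ (K : Type u) (F : Type v) [Field K] [Field F] [Algebra K F] [IsAlgClosed K] [CharZero K]
    [IsCurveOver K F] [Algebra.EssFiniteType K F], 0 < genusFF K F →
    ∃ (x : F) (hx : Transcendental K x) (_ : FiniteDimensional ↥(IntermediateField.adjoin K {x}) F)
      (_ : Algebra.IsSeparable ↥(IntermediateField.adjoin K {x}) F)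
      (G₀ : Divisor K F) (hG₀ : Divisor.degree G₀ = (genusFF K F : ℤ)) (Ao B₁ : Divisor K F),
      G₀ + Ao ≤ B₁ ∧ 0 ≤ B₁ ∧
      Module.finrank K ↥(riemannRochSpace (G₀ + Ao)) = genusFF K F ∧
      S27ftLatEx K F (G₀ + Ao) ∧ S27ftLE hx Ao ∧ S27ftCP hx G₀ hG₀ Ao ∧
      ∀ (q : ℤ → Fin (genusFF K F) → F →ₐ[K] s27mtL K F)
        (hq : S27pfFam (s27ftPkg hx G₀ hG₀) q), S27ftPoleDiv hx G₀ hG₀ (G₀ + Ao) q hq

/-- **FINAL-TOP**: the five inputs ⇒ CRUX + GROW on the stage. -/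
theorem s27ft_main (h : s27ft_Stmt.{u, v}) : s27mt_Stmt.{u, v} := by
  intro K F _ _ _ _ _ _ _ hg
  obtain ⟨x, hx, hfin, hsep, G₀, hG₀, Ao, B₁, hAB, hB₁, hl, hlat, hLE, hCP, hPD⟩ := h K F hg
  refine ⟨x, hx, hfin, hsep, G₀, hG₀, fun q hq n hn => ?_⟩
  obtain ⟨t, ht, halgt, c₀, hdiv⟩ := hPD q hq
  have hpos : 0 < Module.finrank K ↥(riemannRochSpace (G₀ + Ao)) := by rw [hl]; exact hg
  haveI : Module.Finite K ↥(riemannRochSpace (G₀ + Ao)) := Module.finite_of_finrank_pos hpos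
  let f₀ : Module.Basis (Fin (genusFF K F)) K ↥(riemannRochSpace (G₀ + Ao)) :=
    Module.finBasisOfFinrankEq K _ hl
  choose Φ hΦ hcp using hCP
  exact s27fc_clauses (L := s27mtL K F) (s27ftPkg hx G₀ hG₀) hg (s27dcl_halg (x := x)) hq
    (G₀ + Ao) B₁ hAB hB₁ f₀ hx hlat (s27ftIdx hx Ao) (s27ftEta hx G₀ hG₀) hLE
    (fun k hk W hW y hy => s27ic_hIdx (FL := s27mtFL K F) (s27stg_hld K F (s27mtL K F))
      (s27stg_hgen K F (s27mtL K F)) hx G₀ hG₀ hq Ao k hk W hW y hy)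
    (fun k => if hk : k = 0 then 1 else Φ k hk)
    (fun k hk => by rw [dif_neg hk]; exact hΦ k hk)
    (fun k hk => by rw [dif_neg hk]; exact hcp k hk)
    t ht halgt c₀ hdiv n

/-- **the five inputs ⇒ the frozen S27.** -/
theorem s27ft_result (h : s27ft_Stmt.{u, v}) : s27_Stmt.{u, v} :=
  s27mt_main (s27ft_main h)

end Fermat.Agent.S27

end
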