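/-
S27-B, LE — leaf **PP-K** (helper48): PRINCIPAL PARTS at a REDUCED constant divisor, on the prelude's
Riemann–Roch spaces (`riemannRochSpace`, `Place`).  `K`-level input of LE1 / LE5 (S27/PfLat.lean):
the exact sequence `0 → L(B) → L(B + G) → ∏_j κ(Q_j)` and its surjectivity by the dimension count.

* `s27ppLc Q π b f`      : the residue of `π ^ b * f` at `Q` (`0` if `π ^ b * f ∉ 𝒪_Q`);
* `s27ppLc_eq_zero_iff`  : for `ord_Q f ≥ -b`: the residue vanishes iff `ord_Q f ≥ -(b - 1)`;
* `s27ppLc_mul`          : `lc (h * f) = res(h) * lc f` for `h ∈ 𝒪_Q` (the UNIT square at one point);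
* `s27ppG Q`             : the reduced divisor `Σ_j Q_j`;
* `s27ppMap B Q π`       : `pp : L(B + G) →ₗ[K] ∏_j κ(Q_j)`, `f ↦ (res_{Q_j}(π_j ^ b_j * f))_j`;
* `s27pp_ker`            : `pp f = 0 ↔ f ∈ L(B)`;
* `s27pp_surjective`     : `pp` is onto as soon as `ℓ(B + G) = ℓ(B) + #G` (places of degree one).
-/
import Fermat.Prelude.Def_AlgebraicCurve_Repartitions
import Fermat.Agent.S24.PlaceBasic

set_option autoImplicit false
set_option linter.style.haveILetI false
set_option linter.unusedSectionVars false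
set_option linter.unusedVariables false

noncomputable section

namespace Fermat.Agent.S27

open AlgebraicCurve Module Fermat.Agent.S24

variable {K F : Type*} [Field K] [Field F] [Algebra K F]

open Classical in
/-- the leading coefficient at `Q` relative to the pole order `b`: the residue of `π ^ b * f`. -/
def s27ppLc (Q : Place K F) (π : F) (b : ℤ) (f : F) : Q.ResidueField :=
  if h : π ^ b * f ∈ Q.toValuationSubring then
    IsLocalRing.residue Q.toValuationSubring ⟨π ^ b * f, h⟩ else 0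

theorem s27pp_unif_ne_zero (Q : Place K F) {π : F} (hπ : Q.ord π = 1) : π ≠ 0 := by
  rintro rfl
  rw [Place.ord_zero] at hπ
  omega

theorem s27pp_ord (Q : Place K F) {π : F} (hπ : Q.ord π = 1) (b : ℤ) {f : F} (hf : f ≠ 0) :
    Q.ord (π ^ b * f) = b + Q.ord f := by
  rw [Q.ord_mul (zpow_ne_zero _ (s27pp_unif_ne_zero Q hπ)) hf, Q.ord_zpow, hπ, mul_one]

theorem s27pp_mem (Q : Place K F) {π : F} (hπ : Q.ord π = 1) {b : ℤ} {f : F}
    (hf : f = 0 ∨ -b ≤ Q.ord f) : π ^ b * f ∈ Q.toValuationSubring := by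
  rcases eq_or_ne f 0 with rfl | hf0
  · rw [mul_zero]
    exact Q.toValuationSubring.zero_mem
  have hf' : -b ≤ Q.ord f := hf.resolve_left hf0
  apply PlaceAux.mem_of_ord_nonneg
  rw [s27pp_ord Q hπ b hf0]
  omega

theorem s27ppLc_eq (Q : Place K F) {π : F} {b : ℤ} {f : F}
    (h : π ^ b * f ∈ Q.toValuationSubring) :
    s27ppLc Q π b f = IsLocalRing.residue Q.toValuationSubring ⟨π ^ b * f, h⟩ := by
  unfold s27ppLc
  rw [dif_pos h]

theorem s27ppLc_zero (Q : Place K F) (π : F) (b : ℤ) : s27ppLc Q π b 0 = 0 := by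
  have h : π ^ b * (0 : F) ∈ Q.toValuationSubring := by
    rw [mul_zero]
    exact Q.toValuationSubring.zero_mem
  rw [s27ppLc_eq Q h]
  have : (⟨π ^ b * (0 : F), h⟩ : Q.toValuationSubring) = 0 := Subtype.ext (mul_zero _)
  rw [this, map_zero]

theorem s27ppLc_add (Q : Place K F) (π : F) (b : ℤ) {f g : F}
    (hf : π ^ b * f ∈ Q.toValuationSubring) (hg : π ^ b * g ∈ Q.toValuationSubring) :
    s27ppLc Q π b (f + g) = s27ppLc Q π b f + s27ppLc Q π b g := by
  have hfg : π ^ b * (f + g) ∈ Q.toValuationSubring := by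
    rw [mul_add]
    exact Q.toValuationSubring.add_mem _ _ hf hg
  rw [s27ppLc_eq Q hfg, s27ppLc_eq Q hf, s27ppLc_eq Q hg, ← map_add]
  congr 1
  exact Subtype.ext (mul_add _ _ _)

/-- **the UNIT square at one point**: `lc (h * f) = res(h) * lc f` for `h ∈ 𝒪_Q`. -/
theorem s27ppLc_mul (Q : Place K F) (π : F) (b : ℤ) {h f : F}
    (hh : h ∈ Q.toValuationSubring) (hf : π ^ b * f ∈ Q.toValuationSubring) :
    s27ppLc Q π b (h * f) =
      IsLocalRing.residue Q.toValuationSubring ⟨h, hh⟩ * s27ppLc Q π b f := by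
  have hhf : π ^ b * (h * f) ∈ Q.toValuationSubring := by
    have : π ^ b * (h * f) = h * (π ^ b * f) := by ring
    rw [this]
    exact Q.toValuationSubring.mul_mem _ _ hh hf
  rw [s27ppLc_eq Q hhf, s27ppLc_eq Q hf, ← map_mul]
  congr 1
  apply Subtype.ext
  show π ^ b * (h * f) = h * (π ^ b * f)
  ring

theorem s27ppLc_smul (Q : Place K F) (π : F) (b : ℤ) (c : K) {f : F}
    (hf : π ^ b * f ∈ Q.toValuationSubring) :
    s27ppLc Q π b (c • f) = c • s27ppLc Q π b f := by
  rw [Algebra.smul_def, s27ppLc_mul Q π b (Q.algebraMap_mem' c) hf, Algebra.smul_def]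
  rfl

theorem s27ppLc_eq_zero_iff (Q : Place K F) {π : F} (hπ : Q.ord π = 1) {b : ℤ} {f : F}
    (hf0 : f ≠ 0) (hf : -b ≤ Q.ord f) :
    s27ppLc Q π b f = 0 ↔ -(b - 1) ≤ Q.ord f := by
  have hmem := s27pp_mem Q hπ (Or.inr hf)
  have hx0 : π ^ b * f ≠ 0 := mul_ne_zero (zpow_ne_zero _ (s27pp_unif_ne_zero Q hπ)) hf0
  have key := PlaceAux.ord_pos_iff_mem_nonunits Q hx0
  rw [ValuationSubring.mem_nonunits_iff_exists_mem_maximalIdeal, s27pp_ord Q hπ b hf0] at key
  rw [s27ppLc_eq Q hmem, IsLocalRing.residue_eq_zero_iff]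
  constructor
  · intro h
    have := key.mpr ⟨hmem, h⟩
    omega
  · intro h
    obtain ⟨_, h2⟩ := key.mp (by omega)
    exact h2

section Map

variable {ι : Type*} [Fintype ι]

open Classical in
/-- the reduced divisor `Σ_j Q_j`. -/
def s27ppG (Q : ι → Place K F) : Divisor K F := ∑ j, Finsupp.single (Q j) 1

theorem s27ppG_apply_self {Q : ι → Place K F} (hQ : Function.Injective Q) (j : ι) :
    s27ppG Q (Q j) = 1 := by
  classical
  unfold s27ppG
  rw [Finsupp.finsetSum_apply, Finset.sum_eq_single j]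
  · simp
  · intro i _ hij
    rw [Finsupp.single_apply, if_neg (fun h => hij (hQ h))]
  · intro h
    exact absurd (Finset.mem_univ j) h

theorem s27ppG_apply_of_notMem {Q : ι → Place K F} {v : Place K F} (hv : ∀ j, Q j ≠ v) :
    s27ppG Q v = 0 := by
  classical
  unfold s27ppG
  rw [Finsupp.finsetSum_apply]
  apply Finset.sum_eq_zero
  intro i _
  rw [Finsupp.single_apply, if_neg (hv i)]

theorem s27ppG_nonneg (Q : ι → Place K F) (v : Place K F) : 0 ≤ s27ppG Q v := by
  classical
  unfold s27ppG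
  rw [Finsupp.finsetSum_apply]
  apply Finset.sum_nonneg
  intro i _
  rw [Finsupp.single_apply]
  split_ifs <;> omega

theorem s27pp_mem_of_mem (B : Divisor K F) (Q : ι → Place K F) {π : ι → F}
    (hπ : ∀ j, (Q j).ord (π j) = 1) {f : F} (hf : f ∈ riemannRochSpace (B + s27ppG Q)) (j : ι) :
    π j ^ ((B + s27ppG Q) (Q j)) * f ∈ (Q j).toValuationSubring :=
  s27pp_mem (Q j) (hπ j) (mem_riemannRochSpace_iff.1 hf (Q j))

/-- **the principal-part map** `pp : L(B + G) → ∏_j κ(Q_j)`. -/
def s27ppMap (B : Divisor K F) (Q : ι → Place K F) (π : ι → F)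
    (hπ : ∀ j, (Q j).ord (π j) = 1) :
    ↥(riemannRochSpace (B + s27ppG Q)) →ₗ[K] (∀ j, (Q j).ResidueField) where
  toFun f j := s27ppLc (Q j) (π j) ((B + s27ppG Q) (Q j)) (f : F)
  map_add' f g := by
    funext j
    exact s27ppLc_add (Q j) (π j) _ (s27pp_mem_of_mem B Q hπ f.2 j)
      (s27pp_mem_of_mem B Q hπ g.2 j)
  map_smul' c f := by
    funext j
    exact s27ppLc_smul (Q j) (π j) _ c (s27pp_mem_of_mem B Q hπ f.2 j)

theorem s27ppMap_apply (B : Divisor K F) (Q : ι → Place K F) (π : ι → F)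
    (hπ : ∀ j, (Q j).ord (π j) = 1) (f : ↥(riemannRochSpace (B + s27ppG Q))) (j : ι) :
    s27ppMap B Q π hπ f j = s27ppLc (Q j) (π j) ((B + s27ppG Q) (Q j)) (f : F) := rfl

theorem s27pp_le (B : Divisor K F) (Q : ι → Place K F) :
    riemannRochSpace B ≤ riemannRochSpace (B + s27ppG Q) := by
  intro f hf
  rw [mem_riemannRochSpace_iff] at hf ⊢
  intro v
  rcases hf v with h | h
  · exact Or.inl h
  · refine Or.inr ?_
    have := s27ppG_nonneg Q v
    rw [Finsupp.add_apply]
    omega

/-- **exactness**: `pp f = 0 ↔ f ∈ L(B)`. -/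
theorem s27pp_ker (B : Divisor K F) {Q : ι → Place K F} (hQ : Function.Injective Q) (π : ι → F)
    (hπ : ∀ j, (Q j).ord (π j) = 1) (f : ↥(riemannRochSpace (B + s27ppG Q))) :
    s27ppMap B Q π hπ f = 0 ↔ (f : F) ∈ riemannRochSpace B := by
  have hf := mem_riemannRochSpace_iff.1 f.2
  constructor
  · intro h
    rw [mem_riemannRochSpace_iff]
    intro v
    by_cases hf0 : (f : F) = 0
    · exact Or.inl hf0
    refine Or.inr ?_
    by_cases hv : ∃ j, Q j = v
    · obtain ⟨j, rfl⟩ := hv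
      have h1 : s27ppLc (Q j) (π j) ((B + s27ppG Q) (Q j)) (f : F) = 0 := congrFun h j
      have h2 := (hf (Q j)).resolve_left hf0
      rw [s27ppLc_eq_zero_iff (Q j) (hπ j) hf0 h2, Finsupp.add_apply,
        s27ppG_apply_self hQ j] at h1
      omega
    · have h2 := (hf v).resolve_left hf0
      rw [Finsupp.add_apply, s27ppG_apply_of_notMem (fun j hj => hv ⟨j, hj⟩)] at h2
      omega
  · intro h
    rw [mem_riemannRochSpace_iff] at h
    funext j
    show s27ppLc (Q j) (π j) ((B + s27ppG Q) (Q j)) (f : F) = 0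
    by_cases hf0 : (f : F) = 0
    · rw [hf0, s27ppLc_zero]
    have h2 := (hf (Q j)).resolve_left hf0
    have h3 := (h (Q j)).resolve_left hf0
    rw [s27ppLc_eq_zero_iff (Q j) (hπ j) hf0 h2, Finsupp.add_apply, s27ppG_apply_self hQ j]
    omega

theorem s27pp_ker_eq (B : Divisor K F) {Q : ι → Place K F} (hQ : Function.Injective Q)
    (π : ι → F) (hπ : ∀ j, (Q j).ord (π j) = 1) :
    LinearMap.ker (s27ppMap B Q π hπ) =
      (riemannRochSpace B).comap (riemannRochSpace (B + s27ppG Q)).subtype := by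
  ext f
  rw [LinearMap.mem_ker, s27pp_ker B hQ π hπ f]
  rfl

/-- **surjectivity by the count**: places of degree one, `ℓ(B + G) = ℓ(B) + #G`. -/
theorem s27pp_surjective (B : Divisor K F) {Q : ι → Place K F} (hQ : Function.Injective Q)
    (π : ι → F) (hπ : ∀ j, (Q j).ord (π j) = 1)
    (hdeg : ∀ j, Module.finrank K (Q j).ResidueField = 1)
    [Module.Finite K ↥(riemannRochSpace (B + s27ppG Q))]
    (hdim : Module.finrank K ↥(riemannRochSpace (B + s27ppG Q)) =
      Module.finrank K ↥(riemannRochSpace B) + Fintype.card ι) :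
    Function.Surjective (s27ppMap B Q π hπ) := by
  haveI : ∀ j, Module.Finite K (Q j).ResidueField := fun j =>
    Module.finite_of_finrank_pos (by rw [hdeg j]; exact Nat.one_pos)
  have hker : Module.finrank K ↥(LinearMap.ker (s27ppMap B Q π hπ)) =
      Module.finrank K ↥(riemannRochSpace B) := by
    rw [s27pp_ker_eq B hQ π hπ]
    exact (Submodule.comapSubtypeEquivOfLe (s27pp_le B Q)).finrank_eq
  have hrn := LinearMap.finrank_range_add_finrank_ker (s27ppMap B Q π hπ)
  have htarget : Module.finrank K (∀ j, (Q j).ResidueField) = Fintype.card ι := by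
    rw [Module.finrank_pi_fintype]
    simp [hdeg]
  have hrange : Module.finrank K ↥(LinearMap.range (s27ppMap B Q π hπ)) =
      Module.finrank K (∀ j, (Q j).ResidueField) := by
    rw [htarget]
    omega
  rw [← LinearMap.range_eq_top]
  exact Submodule.eq_top_of_finrank_eq hrange

end Map

end Fermat.Agent.S27

end
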