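/-
S27 route B, LE(b), leaf **LB2 = LEADING COEFFICIENTS** (helper3; hub helper60, note of 05:00Z).

Setting of `S27/LeDual.lean` (`s27ld_le_core`): `x = (f, q) : ι ⊕ κ → 𝔉` is a basis of
`L(A + G)`, `G = Q_1 + … + Q_M` (`κ` indexes the points `Q_l`), `𝒪 l` the valuation ring of the
point `Q_l` in the big function field `𝔉` (constants `𝔏`), `π l` a local parameter at `Q_l`.

"The value of `y` at `Q_l` is the constant `c`" is written `y - c ∈ (𝒪 l).nonunits`
(`S27llVal`); no residue field, no place API: Mathlib only.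

PART B (coordinates = leading coefficients):
* `S27llAdapted 𝒪 π x` : `π_l · f_i` vanishes at `Q_l`, `π_l · q_j` has the value `δ_{jl}` at `Q_l`;
* `s27ll_coord`        : the `q_l`-coordinate of `p = Σ c_j x_j` (`c_j ∈ 𝔏`) is the value of
                         `π_l · p` at `Q_l`;
* `s27ll_mul`          : if `h` has the value `h(Q_l)` at `Q_l` and `h · Σ c_j x_j = Σ c'_j x'_j`
                         (two adapted families, same `𝒪`, `π`), then `c'_l = h(Q_l) · c_l`;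
* `s27ll_matrix`       : `U'_q = diag(h(Q_l)) · U_q` — the hypothesis `hMU` of `s27ld_le_core`
                         with `M = Matrix.diagonal hQ`;
* `s27ll_det_unit`     : `det M = ∏ h(Q_l)` is a unit of `W` as soon as every `h(Q_l)` is (LB3).

PART A (existence of the adapted basis, linear algebra):
* `s27ll_exists_basis` : `V₀ ≤ V` finite-dimensional, `lam l : V →ₗ[K] K` (`l ∈ κ`) with
  `⋂ ker (lam l) ∩ V = V₀` and `dim V = dim V₀ + |κ|`  ⇒  every basis `b₀` of `V₀` extends to a basis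
  `b : Basis (ι ⊕ κ) K V` with `b (inl i) = b₀ i` and `lam l (b (inr j)) = δ_{jl}`.
-/
import Mathlib

set_option autoImplicit false
set_option linter.unusedSectionVars false
set_option linter.unusedVariables false
set_option linter.style.longLine false

noncomputable section

namespace Fermat.Agent.S27

open Matrix Module

section PartB

variable {𝔏 𝔉 : Type*} [Field 𝔏] [Field 𝔉] [Algebra 𝔏 𝔉]

/-- "the value of `y` at the point of `𝒪` is the constant `c`": `y ≡ c` modulo the maximal ideal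
of `𝒪`. -/
def S27llVal (𝒪 : ValuationSubring 𝔉) (y : 𝔉) (c : 𝔏) : Prop :=
  y - algebraMap 𝔏 𝔉 c ∈ 𝒪.nonunits

theorem s27ll_nonunits_mem {𝒪 : ValuationSubring 𝔉} {y : 𝔉} (hy : y ∈ 𝒪.nonunits) : y ∈ 𝒪 := by
  rw [ValuationSubring.mem_nonunits_iff] at hy
  exact (𝒪.valuation_le_one_iff y).1 (le_of_lt hy)

theorem s27ll_mul_mem_nonunits {𝒪 : ValuationSubring 𝔉} {a y : 𝔉} (ha : a ∈ 𝒪)
    (hy : y ∈ 𝒪.nonunits) : a * y ∈ 𝒪.nonunits := by
  rw [ValuationSubring.mem_nonunits_iff] at hy ⊢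
  rw [map_mul]
  exact mul_lt_of_le_one_of_lt ((𝒪.valuation_le_one_iff a).2 ha) hy

/-- a constant that vanishes at the point is zero -/
theorem s27ll_const_eq_zero {𝒪 : ValuationSubring 𝔉} (hc : ∀ c : 𝔏, algebraMap 𝔏 𝔉 c ∈ 𝒪)
    {a : 𝔏} (ha : algebraMap 𝔏 𝔉 a ∈ 𝒪.nonunits) : a = 0 := by
  by_contra h0
  rcases (ValuationSubring.mem_nonunits_iff_or 𝒪).1 ha with h | h
  · exact h0 ((map_eq_zero (algebraMap 𝔏 𝔉)).1 h)
  · apply h
    rw [← map_inv₀]
    exact hc a⁻¹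

theorem s27ll_val_mem {𝒪 : ValuationSubring 𝔉} (hc : ∀ c : 𝔏, algebraMap 𝔏 𝔉 c ∈ 𝒪)
    {y : 𝔉} {c : 𝔏} (h : S27llVal 𝒪 y c) : y ∈ 𝒪 := by
  have h1 : y = (y - algebraMap 𝔏 𝔉 c) + algebraMap 𝔏 𝔉 c := by ring
  rw [h1]
  exact 𝒪.add_mem _ _ (s27ll_nonunits_mem h) (hc c)

/-- the value at a point is unique -/
theorem s27ll_val_unique {𝒪 : ValuationSubring 𝔉} (hc : ∀ c : 𝔏, algebraMap 𝔏 𝔉 c ∈ 𝒪)
    {y : 𝔉} {c c' : 𝔏} (h : S27llVal 𝒪 y c) (h' : S27llVal 𝒪 y c') : c' = c := by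
  have h1 : algebraMap 𝔏 𝔉 (c' - c) ∈ 𝒪.nonunits := by
    have h2 : algebraMap 𝔏 𝔉 (c' - c) = (y - algebraMap 𝔏 𝔉 c) - (y - algebraMap 𝔏 𝔉 c') := by
      rw [map_sub]
      ring
    rw [h2]
    exact sub_mem h h'
  exact sub_eq_zero.1 (s27ll_const_eq_zero hc h1)

/-- the value of a product -/
theorem s27ll_val_mul {𝒪 : ValuationSubring 𝔉} (hc : ∀ c : 𝔏, algebraMap 𝔏 𝔉 c ∈ 𝒪)
    {h y : 𝔉} {a c : 𝔏} (hh : S27llVal 𝒪 h a) (hy : S27llVal 𝒪 y c) :
    S27llVal 𝒪 (h * y) (a * c) := by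
  have h1 : h * y - algebraMap 𝔏 𝔉 (a * c) =
      h * (y - algebraMap 𝔏 𝔉 c) + algebraMap 𝔏 𝔉 c * (h - algebraMap 𝔏 𝔉 a) := by
    rw [map_mul]
    ring
  unfold S27llVal
  rw [h1]
  exact add_mem (s27ll_mul_mem_nonunits (s27ll_val_mem hc hh) hy)
    (s27ll_mul_mem_nonunits (hc c) hh)

variable {ι ι' κ κ' : Type*} [Fintype ι] [Fintype ι'] [Fintype κ] [DecidableEq κ]

/-- **An adapted family** `x = (f, q)` at the points `(𝒪 l, π l)`, `l ∈ κ`: `π_l f_i` vanishes at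
`Q_l` and `π_l q_j` has the value `δ_{jl}` at `Q_l`. -/
structure S27llAdapted (𝒪 : κ → ValuationSubring 𝔉) (π : κ → 𝔉) (x : ι ⊕ κ → 𝔉) : Prop where
  /-- `π_l f_i` vanishes at `Q_l` -/
  inl : ∀ (l : κ) (i : ι), π l * x (Sum.inl i) ∈ (𝒪 l).nonunits
  /-- `π_l q_j` has the value `δ_{jl}` at `Q_l` -/
  inr : ∀ (l j : κ), S27llVal (𝔏 := 𝔏) (𝒪 l) (π l * x (Sum.inr j)) (if j = l then 1 else 0)

/-- **LB2, the coordinate formula**: the `q_l`-coordinate of `p = Σ c_j x_j` is the value of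
`π_l p` at `Q_l`. -/
theorem s27ll_coord {𝒪 : κ → ValuationSubring 𝔉} {π : κ → 𝔉} {x : ι ⊕ κ → 𝔉}
    (hc : ∀ (l : κ) (c : 𝔏), algebraMap 𝔏 𝔉 c ∈ 𝒪 l)
    (hx : S27llAdapted (𝔏 := 𝔏) 𝒪 π x) (c : ι ⊕ κ → 𝔏) (l : κ) :
    S27llVal (𝒪 l) (π l * ∑ j, algebraMap 𝔏 𝔉 (c j) * x j) (c (Sum.inr l)) := by
  classical
  have h1 : ∀ j : κ, algebraMap 𝔏 𝔉 (c (Sum.inr j)) *
      (π l * x (Sum.inr j) - algebraMap 𝔏 𝔉 (if j = l then 1 else 0)) =
      π l * (algebraMap 𝔏 𝔉 (c (Sum.inr j)) * x (Sum.inr j)) -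
        (if j = l then algebraMap 𝔏 𝔉 (c (Sum.inr j)) else 0) := by
    intro j
    by_cases h : j = l
    · rw [if_pos h, if_pos h, map_one]
      ring
    · rw [if_neg h, if_neg h, map_zero]
      ring
  have h2 : ∀ i : ι, algebraMap 𝔏 𝔉 (c (Sum.inl i)) * (π l * x (Sum.inl i)) =
      π l * (algebraMap 𝔏 𝔉 (c (Sum.inl i)) * x (Sum.inl i)) := fun i => by ring
  have key : π l * (∑ j, algebraMap 𝔏 𝔉 (c j) * x j) - algebraMap 𝔏 𝔉 (c (Sum.inr l)) =
      (∑ i, algebraMap 𝔏 𝔉 (c (Sum.inl i)) * (π l * x (Sum.inl i))) +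
        ∑ j, algebraMap 𝔏 𝔉 (c (Sum.inr j)) *
          (π l * x (Sum.inr j) - algebraMap 𝔏 𝔉 (if j = l then 1 else 0)) := by
    rw [Fintype.sum_sum_type, mul_add, Finset.mul_sum, Finset.mul_sum]
    simp only [h1, h2, Finset.sum_sub_distrib, Fintype.sum_ite_eq']
    ring
  unfold S27llVal
  rw [key]
  refine add_mem ?_ ?_
  · exact sum_mem fun i _ => s27ll_mul_mem_nonunits (hc l _) (hx.inl l i)
  · exact sum_mem fun j _ => s27ll_mul_mem_nonunits (hc l _) (hx.inr l j)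

/-- **LB2, multiplication by `h`**: if `h` has the value `a` at `Q_l` and
`h · Σ c_j x_j = Σ c'_j x'_j` for two adapted families, then `c'_l = a · c_l`. -/
theorem s27ll_mul {𝒪 : κ → ValuationSubring 𝔉} {π : κ → 𝔉} {x : ι ⊕ κ → 𝔉} {x' : ι' ⊕ κ → 𝔉}
    (hc : ∀ (l : κ) (c : 𝔏), algebraMap 𝔏 𝔉 c ∈ 𝒪 l)
    (hx : S27llAdapted (𝔏 := 𝔏) 𝒪 π x) (hx' : S27llAdapted (𝔏 := 𝔏) 𝒪 π x')
    (h : 𝔉) (l : κ) (a : 𝔏) (hh : S27llVal (𝒪 l) h a)
    (c : ι ⊕ κ → 𝔏) (c' : ι' ⊕ κ → 𝔏)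
    (heq : h * ∑ j, algebraMap 𝔏 𝔉 (c j) * x j = ∑ j, algebraMap 𝔏 𝔉 (c' j) * x' j) :
    c' (Sum.inr l) = a * c (Sum.inr l) := by
  have h1 := s27ll_val_mul (hc l) hh (s27ll_coord hc hx c l)
  have h2 := s27ll_coord hc hx' c' l
  have h3 : h * (π l * ∑ j, algebraMap 𝔏 𝔉 (c j) * x j) =
      π l * ∑ j, algebraMap 𝔏 𝔉 (c' j) * x' j := by
    rw [← heq]
    ring
  rw [h3] at h1
  exact s27ll_val_unique (hc l) h1 h2

/-- **LB2, matrix form** (= the hypothesis `hMU` of `s27ld_le_core` with `M = diagonal hQ`): if the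
columns of `U` are the coordinates of sections `u_k` and the columns of `U'` the coordinates of
`h · u_k`, then `U'_q = diag(h(Q_l)) · U_q`. -/
theorem s27ll_matrix {𝒪 : κ → ValuationSubring 𝔉} {π : κ → 𝔉} {x : ι ⊕ κ → 𝔉}
    {x' : ι' ⊕ κ → 𝔉} (hc : ∀ (l : κ) (c : 𝔏), algebraMap 𝔏 𝔉 c ∈ 𝒪 l)
    (hx : S27llAdapted (𝔏 := 𝔏) 𝒪 π x) (hx' : S27llAdapted (𝔏 := 𝔏) 𝒪 π x')
    (h : 𝔉) (hQ : κ → 𝔏) (hh : ∀ l, S27llVal (𝒪 l) h (hQ l))
    (U : Matrix (ι ⊕ κ) κ' 𝔏) (U' : Matrix (ι' ⊕ κ) κ' 𝔏)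
    (heq : ∀ k : κ', h * ∑ j, algebraMap 𝔏 𝔉 (U j k) * x j =
      ∑ j, algebraMap 𝔏 𝔉 (U' j k) * x' j) :
    U'.submatrix Sum.inr id = Matrix.diagonal hQ * U.submatrix Sum.inr id := by
  ext l k
  rw [Matrix.diagonal_mul]
  exact s27ll_mul hc hx hx' h l (hQ l) (hh l) (fun j => U j k) (fun j => U' j k) (heq k)

/-- **LB2 + LB3**: the determinant of `M = diag(h(Q_l))` is a unit of `W` as soon as every
`h(Q_l)` is one (the three conjuncts are `S27ldUnit W (det M)` of `S27/LeDual.lean`). -/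
theorem s27ll_det_unit (W : ValuationSubring 𝔏) (hQ : κ → 𝔏)
    (hu : ∀ l, hQ l ∈ W ∧ (hQ l)⁻¹ ∈ W ∧ hQ l ≠ 0) :
    (Matrix.diagonal hQ).det ∈ W ∧ ((Matrix.diagonal hQ).det)⁻¹ ∈ W ∧
      (Matrix.diagonal hQ).det ≠ 0 := by
  rw [Matrix.det_diagonal]
  refine ⟨prod_mem fun l _ => (hu l).1, ?_, ?_⟩
  · rw [← Finset.prod_inv_distrib]
    exact prod_mem fun l _ => (hu l).2.1
  · exact Finset.prod_ne_zero_iff.2 fun l _ => (hu l).2.2

end PartB

section PartA

variable {K V : Type*} [Field K] [AddCommGroup V] [Module K V]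
variable {ι κ : Type*} [Fintype ι] [Fintype κ] [DecidableEq κ]

/-- **LB2, existence of the adapted basis** (linear algebra): if `V₀ = ⋂ ker (lam l)` and
`dim V = dim V₀ + |κ|`, every basis `b₀` of `V₀` extends to a basis `b` of `V` with
`lam l (b (inr j)) = δ_{jl}`. -/
theorem s27ll_exists_basis [FiniteDimensional K V] (V₀ : Submodule K V) (lam : κ → V →ₗ[K] K)
    (hker : ∀ p : V, p ∈ V₀ ↔ ∀ l, lam l p = 0)
    (hdim : finrank K V = finrank K V₀ + Fintype.card κ) (b₀ : Basis ι K V₀) :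
    ∃ b : Basis (ι ⊕ κ) K V, (∀ i, b (Sum.inl i) = (b₀ i : V)) ∧
      (∀ i l, lam l (b (Sum.inl i)) = 0) ∧
      ∀ j l, lam l (b (Sum.inr j)) = if j = l then 1 else 0 := by
  classical
  -- the combined map
  let Lam : V →ₗ[K] (κ → K) := LinearMap.pi lam
  have hLam : ∀ p l, Lam p l = lam l p := fun p l => rfl
  have hkerL : LinearMap.ker Lam = V₀ := by
    ext p
    rw [LinearMap.mem_ker, hker p]
    constructor
    · intro h l
      rw [← hLam, h]
      rfl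
    · intro h
      funext l
      rw [hLam, h l]
      rfl
  -- surjectivity by the dimension count
  have hrk := LinearMap.finrank_range_add_finrank_ker Lam
  rw [hkerL] at hrk
  have hrange : finrank K (LinearMap.range Lam) = finrank K (κ → K) := by
    rw [Module.finrank_fintype_fun_eq_card]
    omega
  have htop : LinearMap.range Lam = ⊤ := Submodule.eq_top_of_finrank_eq hrange
  have hsurj : Function.Surjective Lam := LinearMap.range_eq_top.1 htop
  -- the lifts of the standard basis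
  choose q hq using fun j : κ => hsurj (Pi.single j (1 : K))
  have hqval : ∀ j l, lam l (q j) = if j = l then 1 else 0 := by
    intro j l
    rw [← hLam, hq j, Pi.single_apply]
    by_cases h : j = l
    · rw [if_pos h, if_pos h.symm]
    · rw [if_neg h, if_neg (fun h' => h h'.symm)]
  -- linear independence
  have hf : LinearIndependent K (fun i : ι => (b₀ i : V)) :=
    b₀.linearIndependent.map' V₀.subtype (Submodule.ker_subtype V₀)
  have hqli : LinearIndependent K q := by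
    have h1 : LinearIndependent K (Lam ∘ q) := by
      have h2 : Lam ∘ q = fun j : κ => Pi.single j (1 : K) := funext hq
      have h3 : (fun j : κ => Pi.single j (1 : K)) = ⇑(Pi.basisFun K κ) := by
        funext j
        rw [Pi.basisFun_apply]
      rw [h2, h3]
      exact (Pi.basisFun K κ).linearIndependent
    exact LinearIndependent.of_comp Lam h1
  have hdisj : Disjoint (Submodule.span K (Set.range fun i : ι => (b₀ i : V)))
      (Submodule.span K (Set.range q)) := by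
    rw [Submodule.disjoint_def]
    intro z hz1 hz2
    have hzV₀ : z ∈ V₀ := by
      have hle : Submodule.span K (Set.range fun i : ι => (b₀ i : V)) ≤ V₀ := by
        rw [Submodule.span_le]
        rintro _ ⟨i, rfl⟩
        exact (b₀ i).2
      exact hle hz1
    have hz0 : Lam z = 0 := by
      rw [← LinearMap.mem_ker, hkerL]
      exact hzV₀
    obtain ⟨a, rfl⟩ := (Submodule.mem_span_range_iff_exists_fun K).1 hz2
    have ha : a = 0 := by
      funext l
      have h3 : Lam (∑ j, a j • q j) l = a l := by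
        rw [map_sum, Finset.sum_apply]
        simp only [map_smul, hLam, hqval, smul_eq_mul, mul_ite, mul_one, mul_zero]
        rw [Fintype.sum_ite_eq']
      rw [← h3, hz0]
    rw [ha]
    simp
  have hli : LinearIndependent K (Sum.elim (fun i : ι => (b₀ i : V)) q) :=
    LinearIndependent.sum_type hf hqli hdisj
  have hcard : Fintype.card (ι ⊕ κ) = finrank K V := by
    rw [Fintype.card_sum, hdim, Module.finrank_eq_card_basis b₀]
  refine ⟨basisOfLinearIndependentOfCardEqFinrank' _ hli hcard, ?_, ?_, ?_⟩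
  · intro i
    rw [coe_basisOfLinearIndependentOfCardEqFinrank']
    rfl
  · intro i l
    rw [coe_basisOfLinearIndependentOfCardEqFinrank']
    exact (hker (b₀ i : V)).1 (b₀ i).2 l
  · intro j l
    rw [coe_basisOfLinearIndependentOfCardEqFinrank']
    exact hqval j l

end PartA

end Fermat.Agent.S27

end
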