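/-
S27 route B, LE(b), leaf **LB2 = LEADING COEFFICIENTS**, the INSTANCE (helper3; frame decision of
helper27, 05:37Z: E-RED frame, abstract over `𝔉 ⊇ 𝔏`, `emb : F → 𝔉`).

`F / K` a function field (prelude `Place K F`), `A` a divisor, `Q : κ → Place K F` DISTINCT places
with residue field `K`, `G = Σ_l Q_l` (`s27llG Q`), `a l ∈ F` a local equation of `A + Q_l` at `Q_l`
(`ord_{Q_l} (a l) = A (Q_l) + 1`; a local parameter if `Q_l ∉ supp A`).

* `s27llRes`             : the leading coefficient `L(A + G) → κ(Q_l)`, `p ↦ (a_l p)(Q_l)`;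
* `s27llRes_eq_zero_iff` : `p ∈ L(A)  ↔  all leading coefficients of p vanish`;
* `s27ll_exists_basis_res` : `s27ll_exists_basis` for functionals with values in lines;
* **`s27ll_place_basis`** : if `dim L(A + G) = dim L(A) + |κ|`, every basis `b₀` of `L(A)` extends to
  a basis `b` of `L(A + G)` with `a_l · b (inl i) ∈ 𝔪_{Q_l}` and `a_l · b (inr j) ≡ δ_{jl} mod 𝔪_{Q_l}`;
* **`s27ll_adapted_of_place`** : THE INSTANCE — for `emb : F →+* 𝔉` and valuation rings `𝒪 l` of `𝔉`
  lying over `Q_l` (`emb 𝔪_{Q_l} ⊆ 𝔪_{𝒪 l}`), the family `emb ∘ b` is `S27llAdapted 𝒪 (emb ∘ a)`.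
-/
import Fermat.Agent.S24.PlaceBasic
import Fermat.Prelude.Def_AlgebraicCurve_Repartitions
import Fermat.Agent.S27.LeLead

set_option autoImplicit false
set_option linter.unusedSectionVars false
set_option linter.unusedVariables false
set_option linter.style.longLine false

noncomputable section

namespace Fermat.Agent.S27

open AlgebraicCurve Module Fermat.Agent.S24

/-! ### Linear algebra: functionals with values in lines -/

section Lines

variable {K V : Type*} [Field K] [AddCommGroup V] [Module K V]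
variable {ι κ : Type*} [Fintype ι] [Fintype κ] [DecidableEq κ]

theorem s27ll_smul_inj {E : Type*} [AddCommGroup E] [Module K E] {e : E} (he : e ≠ 0)
    {c c' : K} (h : c • e = c' • e) : c = c' := by
  have h1 : (c - c') • e = 0 := by rw [sub_smul, h, sub_self]
  rcases smul_eq_zero.1 h1 with h2 | h2
  · exact sub_eq_zero.1 h2
  · exact absurd h2 he

/-- the coordinate on a line `E = K · e` -/
def s27llCoord {E : Type*} [AddCommGroup E] [Module K E] (e : E) (he : e ≠ 0)
    (hE : ∀ y : E, ∃ c : K, y = c • e) : E →ₗ[K] K where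
  toFun y := Classical.choose (hE y)
  map_add' y z := by
    apply s27ll_smul_inj he
    rw [add_smul, ← Classical.choose_spec (hE (y + z)), ← Classical.choose_spec (hE y),
      ← Classical.choose_spec (hE z)]
  map_smul' c y := by
    apply s27ll_smul_inj he
    rw [RingHom.id_apply, smul_eq_mul, mul_smul, ← Classical.choose_spec (hE (c • y)),
      ← Classical.choose_spec (hE y)]

theorem s27llCoord_spec {E : Type*} [AddCommGroup E] [Module K E] (e : E) (he : e ≠ 0)
    (hE : ∀ y : E, ∃ c : K, y = c • e) (y : E) : y = s27llCoord e he hE y • e :=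
  Classical.choose_spec (hE y)

/-- **`s27ll_exists_basis` for functionals with values in lines `E l = K · e l`.** -/
theorem s27ll_exists_basis_res [FiniteDimensional K V] {E : κ → Type*}
    [∀ l, AddCommGroup (E l)] [∀ l, Module K (E l)] (e : ∀ l, E l) (he : ∀ l, e l ≠ 0)
    (hE : ∀ l (y : E l), ∃ c : K, y = c • e l)
    (V₀ : Submodule K V) (lam : ∀ l, V →ₗ[K] E l)
    (hker : ∀ p : V, p ∈ V₀ ↔ ∀ l, lam l p = 0)
    (hdim : finrank K V = finrank K V₀ + Fintype.card κ) (b₀ : Basis ι K V₀) :
    ∃ b : Basis (ι ⊕ κ) K V, (∀ i, b (Sum.inl i) = (b₀ i : V)) ∧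
      (∀ i l, lam l (b (Sum.inl i)) = 0) ∧
      ∀ j l, lam l (b (Sum.inr j)) = if j = l then e l else 0 := by
  classical
  have hker' : ∀ p : V, p ∈ V₀ ↔ ∀ l, ((s27llCoord (e l) (he l) (hE l)).comp (lam l)) p = 0 := by
    intro p
    rw [hker p]
    refine forall_congr' fun l => ?_
    rw [LinearMap.comp_apply]
    constructor
    · intro h
      rw [h, map_zero]
    · intro h
      rw [s27llCoord_spec (e l) (he l) (hE l) (lam l p), h, zero_smul]
  obtain ⟨b, hb1, hb2, hb3⟩ := s27ll_exists_basis V₀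
    (fun l => (s27llCoord (e l) (he l) (hE l)).comp (lam l)) hker' hdim b₀
  refine ⟨b, hb1, fun i l => ?_, fun j l => ?_⟩
  · have h := hb2 i l
    rw [LinearMap.comp_apply] at h
    rw [s27llCoord_spec (e l) (he l) (hE l) (lam l (b (Sum.inl i))), h, zero_smul]
  · have h := hb3 j l
    rw [LinearMap.comp_apply] at h
    rw [s27llCoord_spec (e l) (he l) (hE l) (lam l (b (Sum.inr j))), h]
    by_cases hjl : j = l
    · rw [if_pos hjl, if_pos hjl, one_smul]
    · rw [if_neg hjl, if_neg hjl, zero_smul]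

end Lines

/-! ### The leading coefficients at the points of `G` -/

section Place

variable {K F : Type*} [Field K] [Field F] [Algebra K F]
variable {ι κ : Type*} [Fintype ι] [Fintype κ] [DecidableEq κ]

/-- the reduced divisor `G = Σ_l Q_l` -/
def s27llG (Q : κ → Place K F) : Divisor K F := ∑ l, Finsupp.single (Q l) (1 : ℤ)

open scoped Classical in
theorem s27llG_apply (Q : κ → Place K F) (v : Place K F) :
    s27llG Q v = ∑ l, (if Q l = v then (1 : ℤ) else 0) := by
  classical
  unfold s27llG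
  rw [Finsupp.finsetSum_apply]
  refine Finset.sum_congr rfl fun l _ => ?_
  rw [Finsupp.single_apply]

theorem s27llG_apply_self (Q : κ → Place K F) (hQ : Function.Injective Q) (l : κ) :
    s27llG Q (Q l) = 1 := by
  classical
  rw [s27llG_apply]
  have h : ∀ j : κ, (if Q j = Q l then (1 : ℤ) else 0) = if j = l then 1 else 0 := by
    intro j
    by_cases hj : j = l
    · rw [if_pos hj, if_pos (by rw [hj])]
    · rw [if_neg hj, if_neg (fun h' => hj (hQ h'))]
  rw [Finset.sum_congr rfl (fun j _ => h j), Fintype.sum_ite_eq']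

theorem s27llG_apply_of_ne (Q : κ → Place K F) (v : Place K F) (hv : ∀ l, Q l ≠ v) :
    s27llG Q v = 0 := by
  classical
  rw [s27llG_apply]
  exact Finset.sum_eq_zero fun l _ => if_neg (hv l)

variable (A : Divisor K F) (Q : κ → Place K F) (hQ : Function.Injective Q)
  (a : κ → F) (ha : ∀ l, a l ≠ 0) (hord : ∀ l, (Q l).ord (a l) = A (Q l) + 1)

include hQ ha hord in
/-- `a_l · p` is regular at `Q_l` for `p ∈ L(A + G)` -/
theorem s27ll_mul_mem {p : F} (hp : p ∈ riemannRochSpace (A + s27llG Q)) (l : κ) :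
    a l * p ∈ (Q l).toValuationSubring := by
  rcases eq_or_ne p 0 with rfl | hp0
  · rw [mul_zero]
    exact zero_mem _
  apply PlaceAux.mem_of_ord_nonneg
  have h := (mem_riemannRochSpace_iff.1 hp (Q l)).resolve_left hp0
  rw [Finsupp.add_apply, s27llG_apply_self Q hQ l] at h
  rw [(Q l).ord_mul (ha l) hp0, hord l]
  omega

/-- **the leading coefficient** `L(A + G) → κ(Q_l)`, `p ↦ (a_l p)(Q_l)` -/
def s27llRes (l : κ) : ↥(riemannRochSpace (A + s27llG Q)) →ₗ[K] (Q l).ResidueField where
  toFun p := IsLocalRing.residue (Q l).toValuationSubring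
    ⟨a l * (p : F), s27ll_mul_mem A Q hQ a ha hord p.2 l⟩
  map_add' p q := by
    rw [← map_add]
    congr 1
    apply Subtype.ext
    show a l * ((p : F) + (q : F)) = a l * (p : F) + a l * (q : F)
    rw [mul_add]
  map_smul' c p := by
    rw [RingHom.id_apply, Algebra.smul_def, ← IsLocalRing.ResidueField.algebraMap_eq,
      IsScalarTower.algebraMap_apply K (Q l).toValuationSubring (Q l).ResidueField,
      IsLocalRing.ResidueField.algebraMap_eq, ← map_mul]
    congr 1
    apply Subtype.ext
    show a l * (c • (p : F)) = algebraMap K F c * (a l * (p : F))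
    rw [Algebra.smul_def]
    ring

theorem s27llRes_apply (l : κ) (p : ↥(riemannRochSpace (A + s27llG Q))) :
    s27llRes A Q hQ a ha hord l p = IsLocalRing.residue (Q l).toValuationSubring
      ⟨a l * (p : F), s27ll_mul_mem A Q hQ a ha hord p.2 l⟩ := rfl

/-- the leading coefficient at `Q_l` vanishes iff `a_l p ∈ 𝔪_{Q_l}` -/
theorem s27llRes_eq_zero_iff_nonunits (l : κ) (p : ↥(riemannRochSpace (A + s27llG Q))) :
    s27llRes A Q hQ a ha hord l p = 0 ↔ a l * (p : F) ∈ (Q l).toValuationSubring.nonunits := by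
  rw [s27llRes_apply, IsLocalRing.residue_eq_zero_iff,
    ValuationSubring.mem_nonunits_iff_exists_mem_maximalIdeal]
  exact ⟨fun h => ⟨_, h⟩, fun ⟨_, h⟩ => h⟩

/-- the leading coefficient at `Q_l` vanishes iff `p` has no pole (beyond `A`) at `Q_l` -/
theorem s27llRes_eq_zero_iff_ord (l : κ) (p : ↥(riemannRochSpace (A + s27llG Q))) :
    s27llRes A Q hQ a ha hord l p = 0 ↔ ((p : F) = 0 ∨ -A (Q l) ≤ (Q l).ord (p : F)) := by
  rw [s27llRes_eq_zero_iff_nonunits]
  rcases eq_or_ne (p : F) 0 with hp0 | hp0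
  · rw [hp0, mul_zero]
    exact ⟨fun _ => Or.inl rfl, fun _ => zero_mem _⟩
  · rw [← PlaceAux.ord_pos_iff_mem_nonunits (Q l) (mul_ne_zero (ha l) hp0),
      (Q l).ord_mul (ha l) hp0, hord l]
    constructor
    · intro h
      right
      omega
    · intro h
      have := h.resolve_left hp0
      omega

/-- **the kernel of the leading coefficients is `L(A)`** -/
theorem s27llRes_eq_zero_iff (p : ↥(riemannRochSpace (A + s27llG Q))) :
    (p : F) ∈ riemannRochSpace A ↔ ∀ l, s27llRes A Q hQ a ha hord l p = 0 := by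
  constructor
  · intro h l
    rw [s27llRes_eq_zero_iff_ord]
    exact mem_riemannRochSpace_iff.1 h (Q l)
  · intro h
    rw [mem_riemannRochSpace_iff]
    intro v
    by_cases hv : ∃ l, Q l = v
    · obtain ⟨l, rfl⟩ := hv
      exact (s27llRes_eq_zero_iff_ord A Q hQ a ha hord l p).1 (h l)
    · have hv' : ∀ l, Q l ≠ v := fun l hl => hv ⟨l, hl⟩
      have h1 := mem_riemannRochSpace_iff.1 p.2 v
      rw [Finsupp.add_apply, s27llG_apply_of_ne Q v hv', add_zero] at h1
      exact h1

theorem s27ll_le_add (A : Divisor K F) (Q : κ → Place K F) :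
    riemannRochSpace A ≤ riemannRochSpace (A + s27llG Q) := by
  classical
  intro p hp
  rw [mem_riemannRochSpace_iff] at hp ⊢
  intro v
  rcases hp v with h | h
  · exact Or.inl h
  · right
    have h0 : 0 ≤ s27llG Q v := by
      rw [s27llG_apply]
      exact Finset.sum_nonneg fun l _ => by
        by_cases hl : Q l = v
        · rw [if_pos hl]
          exact zero_le_one
        · rw [if_neg hl]
    rw [Finsupp.add_apply]
    omega

include hQ ha hord in
/-- **LB2, the adapted basis at the places `Q_l`**: if `dim L(A + G) = dim L(A) + |κ|`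
(non-speciality) and the residue fields of the `Q_l` are `K`, every basis `b₀` of `L(A)` extends to a
basis `b` of `L(A + G)` with leading coefficients `0` (on `b₀`) and `δ_{jl}`. -/
theorem s27ll_place_basis
    (hres : ∀ l, Function.Surjective (algebraMap K (Q l).ResidueField))
    [FiniteDimensional K ↥(riemannRochSpace (A + s27llG Q))]
    (hdim : finrank K ↥(riemannRochSpace (A + s27llG Q)) =
      finrank K ↥(riemannRochSpace A) + Fintype.card κ)
    (b₀ : Basis ι K ↥(riemannRochSpace A)) :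
    ∃ b : Basis (ι ⊕ κ) K ↥(riemannRochSpace (A + s27llG Q)),
      (∀ i, ((b (Sum.inl i) : ↥(riemannRochSpace (A + s27llG Q))) : F) = (b₀ i : F)) ∧
      (∀ l i, a l * ((b (Sum.inl i) : ↥(riemannRochSpace (A + s27llG Q))) : F) ∈
        (Q l).toValuationSubring.nonunits) ∧
      ∀ l j, a l * ((b (Sum.inr j) : ↥(riemannRochSpace (A + s27llG Q))) : F) -
        algebraMap K F (if j = l then 1 else 0) ∈ (Q l).toValuationSubring.nonunits := by
  classical
  set V := ↥(riemannRochSpace (A + s27llG Q)) with hV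
  set V₀ : Submodule K V :=
    Submodule.comap (riemannRochSpace (A + s27llG Q)).subtype (riemannRochSpace A) with hV₀
  have hle := s27ll_le_add A Q
  let eqv : ↥V₀ ≃ₗ[K] ↥(riemannRochSpace A) := Submodule.comapSubtypeEquivOfLe hle
  have heqv : ∀ z : ↥V₀, ((eqv z : ↥(riemannRochSpace A)) : F) = ((z : V) : F) := fun z => rfl
  let b₀' : Basis ι K ↥V₀ := b₀.map eqv.symm
  have hb₀' : ∀ i, (((b₀' i : ↥V₀) : V) : F) = (b₀ i : F) := by
    intro i
    rw [← heqv (b₀' i)]
    show ((eqv (b₀.map eqv.symm i) : ↥(riemannRochSpace A)) : F) = _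
    rw [Basis.map_apply, LinearEquiv.apply_symm_apply]
  have hker : ∀ p : V, p ∈ V₀ ↔ ∀ l, s27llRes A Q hQ a ha hord l p = 0 := by
    intro p
    rw [← s27llRes_eq_zero_iff A Q hQ a ha hord p]
    rfl
  have hdim' : finrank K V = finrank K ↥V₀ + Fintype.card κ := by
    rw [hdim, LinearEquiv.finrank_eq eqv]
  have hE : ∀ l (y : (Q l).ResidueField), ∃ c : K, y = c • (1 : (Q l).ResidueField) := by
    intro l y
    obtain ⟨c, hc⟩ := hres l y
    exact ⟨c, by rw [← hc, Algebra.algebraMap_eq_smul_one]⟩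
  obtain ⟨b, hb1, hb2, hb3⟩ := s27ll_exists_basis_res
    (fun l => (1 : (Q l).ResidueField)) (fun l => one_ne_zero) hE V₀
    (fun l => s27llRes A Q hQ a ha hord l) hker hdim' b₀'
  refine ⟨b, fun i => ?_, fun l i => ?_, fun l j => ?_⟩
  · rw [hb1 i]
    exact hb₀' i
  · exact (s27llRes_eq_zero_iff_nonunits A Q hQ a ha hord l (b (Sum.inl i))).1 (hb2 i l)
  · have h := hb3 j l
    rw [s27llRes_apply] at h
    have hmem := s27ll_mul_mem A Q hQ a ha hord (b (Sum.inr j)).2 l
    have hcm : algebraMap K F (if j = l then (1 : K) else 0) ∈ (Q l).toValuationSubring :=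
      (Q l).algebraMap_mem' _
    rw [ValuationSubring.mem_nonunits_iff_exists_mem_maximalIdeal]
    refine ⟨sub_mem hmem hcm, ?_⟩
    rw [← IsLocalRing.residue_eq_zero_iff]
    have h1 : (⟨a l * ((b (Sum.inr j) : V) : F) - algebraMap K F (if j = l then 1 else 0),
        sub_mem hmem hcm⟩ : (Q l).toValuationSubring) =
        ⟨a l * ((b (Sum.inr j) : V) : F), hmem⟩ -
          algebraMap K (Q l).toValuationSubring (if j = l then 1 else 0) := by
      apply Subtype.ext
      rfl
    have h2 : IsLocalRing.residue (Q l).toValuationSubring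
        (algebraMap K (Q l).toValuationSubring (if j = l then 1 else 0)) =
        if j = l then 1 else 0 := by
      by_cases hjl : j = l
      · rw [if_pos hjl, if_pos hjl, map_one, map_one]
      · rw [if_neg hjl, if_neg hjl, map_zero, map_zero]
    rw [h1, map_sub, h, h2, sub_self]

end Place

/-! ### The instance in a frame `emb : F → 𝔉 ⊇ 𝔏` -/

section Instance

variable {K F 𝔏 𝔉 : Type*} [Field K] [Field F] [Algebra K F] [Field 𝔏] [Field 𝔉] [Algebra 𝔏 𝔉]
  [Algebra K 𝔏]
variable {ι κ : Type*} [Fintype ι] [Fintype κ] [DecidableEq κ]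

/-- **LB2, THE INSTANCE (transport)**: a family `x` of `F` with leading coefficients `0` / `δ_{jl}`
at the places `Q_l` is `S27llAdapted` in every frame `emb : F →+* 𝔉` in which the valuation rings
`𝒪 l` lie over the `Q_l`. -/
theorem s27ll_adapted_of_place (Q : κ → Place K F) (a : κ → F) (x : ι ⊕ κ → F)
    (hx1 : ∀ l i, a l * x (Sum.inl i) ∈ (Q l).toValuationSubring.nonunits)
    (hx2 : ∀ l j, a l * x (Sum.inr j) - algebraMap K F (if j = l then 1 else 0) ∈
      (Q l).toValuationSubring.nonunits)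
    (emb : F →+* 𝔉) (hemb : ∀ c : K, emb (algebraMap K F c) = algebraMap 𝔏 𝔉 (algebraMap K 𝔏 c))
    (𝒪 : κ → ValuationSubring 𝔉)
    (hlie : ∀ l (u : F), u ∈ (Q l).toValuationSubring.nonunits → emb u ∈ (𝒪 l).nonunits) :
    S27llAdapted (𝔏 := 𝔏) 𝒪 (fun l => emb (a l)) (fun k => emb (x k)) where
  inl l i := by
    have h := hlie l _ (hx1 l i)
    rwa [map_mul] at h
  inr l j := by
    have h := hlie l _ (hx2 l j)
    rw [map_sub, map_mul, hemb] at h
    have h2 : algebraMap K 𝔏 (if j = l then (1 : K) else 0) = if j = l then (1 : 𝔏) else 0 := by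
      by_cases hjl : j = l
      · rw [if_pos hjl, if_pos hjl, map_one]
      · rw [if_neg hjl, if_neg hjl, map_zero]
    rw [h2] at h
    exact h

/-- **LB2, existence of the adapted basis in the frame**: `s27ll_place_basis` +
`s27ll_adapted_of_place`. -/
theorem s27ll_exists_adapted (A : Divisor K F) (Q : κ → Place K F) (hQ : Function.Injective Q)
    (a : κ → F) (ha : ∀ l, a l ≠ 0) (hord : ∀ l, (Q l).ord (a l) = A (Q l) + 1)
    (hres : ∀ l, Function.Surjective (algebraMap K (Q l).ResidueField))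
    [FiniteDimensional K ↥(riemannRochSpace (A + s27llG Q))]
    (hdim : finrank K ↥(riemannRochSpace (A + s27llG Q)) =
      finrank K ↥(riemannRochSpace A) + Fintype.card κ)
    (b₀ : Basis ι K ↥(riemannRochSpace A))
    (emb : F →+* 𝔉) (hemb : ∀ c : K, emb (algebraMap K F c) = algebraMap 𝔏 𝔉 (algebraMap K 𝔏 c))
    (𝒪 : κ → ValuationSubring 𝔉)
    (hlie : ∀ l (u : F), u ∈ (Q l).toValuationSubring.nonunits → emb u ∈ (𝒪 l).nonunits) :
    ∃ b : Basis (ι ⊕ κ) K ↥(riemannRochSpace (A + s27llG Q)),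
      (∀ i, ((b (Sum.inl i) : ↥(riemannRochSpace (A + s27llG Q))) : F) = (b₀ i : F)) ∧
      S27llAdapted (𝔏 := 𝔏) 𝒪 (fun l => emb (a l))
        (fun k => emb ((b k : ↥(riemannRochSpace (A + s27llG Q))) : F)) := by
  obtain ⟨b, hb1, hb2, hb3⟩ := s27ll_place_basis A Q hQ a ha hord hres hdim b₀
  exact ⟨b, hb1, s27ll_adapted_of_place Q a (fun k => ((b k : ↥(riemannRochSpace (A + s27llG Q))) : F))
    hb2 hb3 emb hemb 𝒪 hlie⟩

end Instance

end Fermat.Agent.S27

end
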