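/-
S27-B, LE-TOP row 5 = `hdim` (helper51, prefix s27rd_): **adding points to a non-special divisor**.

`K` algebraically closed, `F / K` a function field of one variable, `g = genusFF K F`.

* `s27rd_finrank_add`   : `l(A) = deg A + 1 − g`, `M ≥ 0` ⇒ `l(A + M) = l(A) + deg M`
                          (Riemann's inequality ≥, the one-point step ≤);
* `s27rd_nonspecial_add`: then also `l(A + M) = deg (A + M) + 1 − g` (non-speciality propagates);
* `s27rd_degree_ppG`, `s27rd_degree_llG` : `deg (Σ_l Q_l) = #κ` (places of degree one);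
* **`s27rd_hdim`**      : `A` with a `K`-basis of `L_K(A)` indexed by `Fin N`, `deg A = N + g − 1`,
                          `Q : κ → Place K F`:  `l(A + Σ_l Q_l) = l(A) + #κ` and finiteness —
                          the hypothesis `hdim` of `s27lli_exists_basis_con` / `s27pp_surjective`
                          (`s27ppG`) and of `s27ll_place_basis` (`s27llG`);
* `s27rd_hdim_stage`    : the same for `A = B + Ao`, `deg B = N`, `deg Ao = g − 1` (the divisors of
                          `S27icIdx`, S27/IdxCls.lean);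
* `s27rd_finrank_of_nonneg` : `l(Ao) = 0`, `deg Ao = g − 1`, `B ≥ 0` ⇒ `l(B + Ao) = deg B`
                          (every effective constant origin is admissible).
-/
import Fermat.Agent.S27.RR0Const
import Fermat.Agent.S27.LEPP
import Fermat.Agent.S27.LeLeadPlace

set_option autoImplicit false
set_option linter.style.haveILetI false
set_option linter.unusedSectionVars false

open AlgebraicCurve Module IntermediateField

namespace Fermat.Agent.S27

open Fermat.Agent.S24 Fermat.Agent.S26

variable {K : Type*} {F : Type*} [Field K] [Field F] [Algebra K F]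

section Count

variable [HasPrincipalDivisors K F]
  (hfin : ∀ v : Place K F, Module.Finite K v.ResidueField) {g : ℤ}
  (hR : ∀ A : Divisor K F, Divisor.degree A + 1 - g ≤ (finrank K ↥(riemannRochSpace A) : ℤ))

include hfin hR

/-- `l(A) = deg A + 1 − g` and `M ≥ 0` ⇒ `l(A + M) = l(A) + deg M`. -/
theorem s27rd_finrank_add (A M : Divisor K F) (hM : 0 ≤ M)
    (hA : (finrank K ↥(riemannRochSpace A) : ℤ) = Divisor.degree A + 1 - g) :
    (finrank K ↥(riemannRochSpace (A + M)) : ℤ) =
      finrank K ↥(riemannRochSpace A) + Divisor.degree M := by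
  have hlow := hR (A + M)
  have hle : A ≤ A + M := le_add_of_nonneg_right hM
  have hup := s26err_finrank_le hfin hle
  rw [map_add] at hlow hup
  linarith

/-- non-speciality propagates: `l(A + M) = deg (A + M) + 1 − g`. -/
theorem s27rd_nonspecial_add (A M : Divisor K F) (hM : 0 ≤ M)
    (hA : (finrank K ↥(riemannRochSpace A) : ℤ) = Divisor.degree A + 1 - g) :
    (finrank K ↥(riemannRochSpace (A + M)) : ℤ) = Divisor.degree (A + M) + 1 - g := by
  rw [s27rd_finrank_add hfin hR A M hM hA, hA, map_add]
  ring

/-- `l(Ao) = 0`, `deg Ao = g − 1`, `B ≥ 0` ⇒ `l(B + Ao) = deg B`. -/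
theorem s27rd_finrank_of_nonneg (Ao B : Divisor K F) (hB : 0 ≤ B)
    (hAo : finrank K ↥(riemannRochSpace Ao) = 0) (hdeg : Divisor.degree Ao = g - 1) :
    (finrank K ↥(riemannRochSpace (B + Ao)) : ℤ) = Divisor.degree B := by
  have h := s27rd_finrank_add hfin hR Ao B hB (by rw [hAo, hdeg]; simp)
  rw [add_comm B Ao, h, hAo]
  simp

end Count

/-! ### The degree of a reduced divisor -/

section Degree

variable {κ : Type*} [Fintype κ]

theorem s27rd_degree_sum_single (Q : κ → Place K F) (hdeg : ∀ l, (Q l).deg = 1) :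
    Divisor.degree (∑ l, Finsupp.single (Q l) (1 : ℤ)) = Fintype.card κ := by
  rw [map_sum]
  simp only [Divisor.degree_single, hdeg]
  simp

theorem s27rd_sum_single_nonneg (Q : κ → Place K F) :
    (0 : Divisor K F) ≤ ∑ l, Finsupp.single (Q l) (1 : ℤ) :=
  Finset.sum_nonneg fun l _ => by
    intro v
    classical
    rw [Finsupp.single_apply]
    split_ifs <;> simp

theorem s27rd_ppG_eq (Q : κ → Place K F) :
    s27ppG Q = ∑ l, Finsupp.single (Q l) (1 : ℤ) := rfl

theorem s27rd_llG_eq [DecidableEq κ] (Q : κ → Place K F) :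
    s27llG Q = ∑ l, Finsupp.single (Q l) (1 : ℤ) := rfl

theorem s27rd_degree_ppG (Q : κ → Place K F) (hdeg : ∀ l, (Q l).deg = 1) :
    Divisor.degree (s27ppG Q) = Fintype.card κ := by
  rw [s27rd_ppG_eq]
  exact s27rd_degree_sum_single Q hdeg

theorem s27rd_degree_llG [DecidableEq κ] (Q : κ → Place K F) (hdeg : ∀ l, (Q l).deg = 1) :
    Divisor.degree (s27llG Q) = Fintype.card κ := by
  rw [s27rd_llG_eq]
  exact s27rd_degree_sum_single Q hdeg

end Degree

/-! ### The final form over an algebraically closed field -/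

section AlgClosed

variable [IsAlgClosed K] (x : F) (hx : Transcendental K x) [FiniteDimensional K⟮x⟯ F]
  {κ : Type*} [Fintype κ]

include hx

/-- all places have degree one. -/
theorem s27rd_deg_eq_one (v : Place K F) : v.deg = 1 := by
  have hbij := Fermat.Agent.S24.algebraMap_residueField_bijective x hx
    (Algebra.IsAlgebraic.of_finite _ _) v
  have e : K ≃ₗ[K] v.ResidueField :=
    LinearEquiv.ofBijective (Algebra.linearMap K v.ResidueField) hbij
  show Module.finrank K v.ResidueField = 1
  rw [← e.finrank_eq, Module.finrank_self]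

/-- **`hdim`, general form**: `l(A) = deg A + 1 − g` ⇒ `l(A + Σ_l Q_l) = l(A) + #κ`. -/
theorem s27rd_hdim_of_nonspecial (A : Divisor K F)
    (hA : (finrank K ↥(riemannRochSpace A) : ℤ) = Divisor.degree A + 1 - genusFF K F)
    (Q : κ → Place K F) :
    finrank K ↥(riemannRochSpace (A + ∑ l, Finsupp.single (Q l) (1 : ℤ))) =
      finrank K ↥(riemannRochSpace A) + Fintype.card κ := by
  haveI := s26err_hasPrincipalDivisors (K := K) x hx
  have h := s27rd_finrank_add (fun v => s26err_residue_finite x hx v)
    (fun D => s27rr_riemann_final x hx D) A _ (s27rd_sum_single_nonneg Q) hA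
  rw [s27rd_degree_sum_single Q (fun l => s27rd_deg_eq_one x hx (Q l))] at h
  exact_mod_cast h

/-- **`hdim`** (LE-TOP row 5), for `s27ppG`: `A` with a basis of `L_K(A)` indexed by `Fin N`,
`deg A = N + g − 1`. -/
theorem s27rd_hdim (A : Divisor K F) {N : ℕ} (f : Module.Basis (Fin N) K ↥(riemannRochSpace A))
    (hN : Divisor.degree A = N + genusFF K F - 1) (Q : κ → Place K F) :
    Module.Finite K ↥(riemannRochSpace (A + s27ppG Q)) ∧
      finrank K ↥(riemannRochSpace (A + s27ppG Q)) =
        finrank K ↥(riemannRochSpace A) + Fintype.card κ := by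
  refine ⟨s26err_rr_finite' x hx _, ?_⟩
  rw [s27rd_ppG_eq]
  refine s27rd_hdim_of_nonspecial x hx A ?_ Q
  rw [Module.finrank_eq_card_basis f, Fintype.card_fin, hN]
  ring

/-- **`hdim`** for `s27llG`. -/
theorem s27rd_hdim_ll [DecidableEq κ] (A : Divisor K F) {N : ℕ}
    (f : Module.Basis (Fin N) K ↥(riemannRochSpace A))
    (hN : Divisor.degree A = N + genusFF K F - 1) (Q : κ → Place K F) :
    Module.Finite K ↥(riemannRochSpace (A + s27llG Q)) ∧
      finrank K ↥(riemannRochSpace (A + s27llG Q)) =
        finrank K ↥(riemannRochSpace A) + Fintype.card κ := by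
  refine ⟨s26err_rr_finite' x hx _, ?_⟩
  rw [s27rd_llG_eq]
  refine s27rd_hdim_of_nonspecial x hx A ?_ Q
  rw [Module.finrank_eq_card_basis f, Fintype.card_fin, hN]
  ring

/-- **`hdim` on the stage**: `A = B + Ao`, `deg B = N`, `deg Ao = g − 1`. -/
theorem s27rd_hdim_stage (Ao : Divisor K F) (hAo : Divisor.degree Ao = genusFF K F - 1)
    (B : Divisor K F) {N : ℕ} (hB : Divisor.degree B = N)
    (f : Module.Basis (Fin N) K ↥(riemannRochSpace (B + Ao))) (Q : κ → Place K F) :
    Module.Finite K ↥(riemannRochSpace (B + Ao + s27ppG Q)) ∧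
      finrank K ↥(riemannRochSpace (B + Ao + s27ppG Q)) =
        finrank K ↥(riemannRochSpace (B + Ao)) + Fintype.card κ :=
  s27rd_hdim x hx (B + Ao) f (by rw [map_add, hB, hAo]; ring) Q

/-- every effective constant origin `B` of degree `N` is admissible: `l(B + Ao) = N` if
`l(Ao) = 0`, `deg Ao = g − 1`. -/
theorem s27rd_exists_basis (Ao : Divisor K F) (hAo : Divisor.degree Ao = genusFF K F - 1)
    (hAo0 : finrank K ↥(riemannRochSpace Ao) = 0)
    (B : Divisor K F) (hB0 : 0 ≤ B) {N : ℕ} (hB : Divisor.degree B = N) :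
    Nonempty (Module.Basis (Fin N) K ↥(riemannRochSpace (B + Ao))) := by
  haveI := s26err_hasPrincipalDivisors (K := K) x hx
  haveI : Module.Finite K ↥(riemannRochSpace (B + Ao)) := s26err_rr_finite' x hx _
  have h := s27rd_finrank_of_nonneg (fun v => s26err_residue_finite x hx v)
    (fun D => s27rr_riemann_final x hx D) Ao B hB0 hAo0 hAo
  rw [hB] at h
  have h' : finrank K ↥(riemannRochSpace (B + Ao)) = N := by exact_mod_cast h
  exact ⟨Module.finBasisOfFinrankEq K _ h'⟩

end AlgClosed

end Fermat.Agent.S27
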