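/-
# S27 route B, CP-TOP: **class bookkeeping** (helper45)

Additivity of the classes `s27pkgClO hdeg O hO R = [Σ_i R i − O]` (`S27/DegPkgO.lean`) under
concatenation of tuples:

* `s27pka_sum_append`, `s27pka_sum_cast`, `s27pka_sum_empty`, `s27pka_sum_finset`:
  the divisor `Σ_i R i` of a concatenation / a re-indexing / the empty tuple / an enumeration of a
  finite set of indices;
* `s27pka_cl_eq_of_div`, `s27pka_cl_add_of_div`, `s27pka_cl_eq_iff`: the class only depends on the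
  divisor `Σ_i R i − O` (tuples of DIFFERENT lengths allowed);
* `s27pka_cl_append`, `s27pka_cl_append3`: `[Σ (R₁ ++ R₂) − (O₁ + O₂)] = [Σ R₁ − O₁] + [Σ R₂ − O₂]`;
* `s27pka_cl_union`: the same for a family of places indexed by a type `ι` and disjoint finite
  sets of indices `S`, `T` with arbitrary enumerations;
* `s27pka_append_injective`: a concatenation of injective tuples with disjoint ranges is injective;
* `s27pka_con_add`, `s27pka_cl_append_con`, `s27pka_cl_append3_con`: the concrete form on the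
  stage: points `R_i : 𝔠 →ₐ[K] 𝔎`, origins `Con B` (`B` a constant divisor of degree `N`).
-/
import Fermat.Agent.S27.DegPkgO

set_option autoImplicit false

noncomputable section

namespace Fermat.Agent.S27

open AlgebraicCurve IsLocalRing TensorProduct Module IntermediateField
open Fermat.Agent.S26

/-! ### General part -/

section General

variable {L Ω : Type*} [Field L] [Field Ω] [Algebra L Ω]

theorem s27pka_sum_append {g₁ g₂ : ℕ} (R₁ : Fin g₁ → Place L Ω) (R₂ : Fin g₂ → Place L Ω) :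
    s27pkgSum (Fin.append R₁ R₂) = s27pkgSum R₁ + s27pkgSum R₂ := by
  unfold s27pkgSum
  rw [Fin.sum_univ_add]
  simp only [Fin.append_left, Fin.append_right]

theorem s27pka_sum_cast {g g' : ℕ} (h : g = g') (R : Fin g' → Place L Ω) :
    s27pkgSum (fun i => R (Fin.cast h i)) = s27pkgSum R := by
  subst h
  rfl

theorem s27pka_sum_empty (R : Fin 0 → Place L Ω) : s27pkgSum R = 0 := by
  unfold s27pkgSum
  exact Finset.sum_of_isEmpty _

/-- the divisor of a tuple only depends on the underlying enumeration. -/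
theorem s27pka_sum_equiv {g : ℕ} {ι : Type*} [Fintype ι] (e : Fin g ≃ ι) (R : ι → Place L Ω) :
    s27pkgSum (fun i => R (e i)) = ∑ j, Finsupp.single (R j) (1 : ℤ) :=
  Equiv.sum_comp e (fun j => Finsupp.single (R j) (1 : ℤ))

/-- the divisor of an enumeration of a finite set of indices. -/
theorem s27pka_sum_finset {g : ℕ} {ι : Type*} [DecidableEq ι] (S : Finset ι) (e : Fin g → ι)
    (he : Function.Injective e) (hS : Finset.univ.image e = S) (R : ι → Place L Ω) :
    s27pkgSum (fun i => R (e i)) = ∑ j ∈ S, Finsupp.single (R j) (1 : ℤ) := by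
  unfold s27pkgSum
  rw [← hS, Finset.sum_image (fun a _ b _ h => he h)]

/-- the class only depends on the divisor `Σ_i R i − O` (different lengths allowed). -/
theorem s27pka_cl_eq_of_div (hdeg : ∀ w : Place L Ω, w.deg = 1) {g g' : ℕ} (O O' : Divisor L Ω)
    (hO : Divisor.degree O = g) (hO' : Divisor.degree O' = g')
    (R : Fin g → Place L Ω) (R' : Fin g' → Place L Ω)
    (h : s27pkgSum R - O = s27pkgSum R' - O') :
    s27pkgClO hdeg O hO R = s27pkgClO hdeg O' hO' R' := by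
  unfold s27pkgClO
  congr 1
  exact Subtype.ext h

/-- additivity of the class in terms of the divisors. -/
theorem s27pka_cl_add_of_div (hdeg : ∀ w : Place L Ω, w.deg = 1) {g g₁ g₂ : ℕ}
    (O O₁ O₂ : Divisor L Ω)
    (hO : Divisor.degree O = g) (hO₁ : Divisor.degree O₁ = g₁) (hO₂ : Divisor.degree O₂ = g₂)
    (R : Fin g → Place L Ω) (R₁ : Fin g₁ → Place L Ω) (R₂ : Fin g₂ → Place L Ω)
    (h : s27pkgSum R - O = (s27pkgSum R₁ - O₁) + (s27pkgSum R₂ - O₂)) :
    s27pkgClO hdeg O hO R = s27pkgClO hdeg O₁ hO₁ R₁ + s27pkgClO hdeg O₂ hO₂ R₂ := by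
  unfold s27pkgClO
  rw [← Pic0.mk_add]
  congr 1
  exact Subtype.ext h

/-- the class of the negative of a divisor. -/
theorem s27pka_cl_neg_of_div (hdeg : ∀ w : Place L Ω, w.deg = 1) {g g' : ℕ}
    (O O' : Divisor L Ω)
    (hO : Divisor.degree O = g) (hO' : Divisor.degree O' = g')
    (R : Fin g → Place L Ω) (R' : Fin g' → Place L Ω)
    (h : s27pkgSum R - O = -(s27pkgSum R' - O')) :
    s27pkgClO hdeg O hO R = -s27pkgClO hdeg O' hO' R' := by
  rw [eq_neg_iff_add_eq_zero]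
  unfold s27pkgClO
  rw [← Pic0.mk_add, ← Pic0.mk_zero]
  congr 1
  apply Subtype.ext
  show (s27pkgSum R - O) + (s27pkgSum R' - O') = 0
  rw [h]
  abel

/-- the class is `0` iff the divisor is principal. -/
theorem s27pka_cl_eq_zero_iff (hdeg : ∀ w : Place L Ω, w.deg = 1) {g : ℕ} (O : Divisor L Ω)
    (hO : Divisor.degree O = g) (R : Fin g → Place L Ω) :
    s27pkgClO hdeg O hO R = 0 ↔
      ∃ f : Ω, f ≠ 0 ∧ ∀ v : Place L Ω, s27pkgSum R v = O v + v.ord f := by
  unfold s27pkgClO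
  rw [← Pic0.mk_zero, s27pkg_mk_eq_iff]
  refine exists_congr fun f => and_congr_right fun _ => forall_congr' fun v => ?_
  rw [s27pkgDivZeroO_coe, Finsupp.sub_apply]
  simp only [ZeroMemClass.coe_zero, Finsupp.coe_zero, Pi.zero_apply]
  constructor <;> intro h <;> omega

/-- equality of classes of tuples of different lengths: the divisors differ by a principal
divisor. -/
theorem s27pka_cl_eq_iff (hdeg : ∀ w : Place L Ω, w.deg = 1) {g g' : ℕ} (O O' : Divisor L Ω)
    (hO : Divisor.degree O = g) (hO' : Divisor.degree O' = g')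
    (R : Fin g → Place L Ω) (R' : Fin g' → Place L Ω) :
    s27pkgClO hdeg O hO R = s27pkgClO hdeg O' hO' R' ↔
      ∃ f : Ω, f ≠ 0 ∧ ∀ v : Place L Ω,
        s27pkgSum R v + O' v = s27pkgSum R' v + O v + v.ord f := by
  unfold s27pkgClO
  rw [s27pkg_mk_eq_iff]
  refine exists_congr fun f => and_congr_right fun _ => forall_congr' fun v => ?_
  rw [s27pkgDivZeroO_coe, s27pkgDivZeroO_coe, Finsupp.sub_apply, Finsupp.sub_apply]
  constructor <;> intro h <;> omega

/-- **additivity under concatenation.** -/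
theorem s27pka_cl_append (hdeg : ∀ w : Place L Ω, w.deg = 1) {g₁ g₂ : ℕ}
    (O₁ O₂ : Divisor L Ω)
    (hO₁ : Divisor.degree O₁ = g₁) (hO₂ : Divisor.degree O₂ = g₂)
    (hO : Divisor.degree (O₁ + O₂) = ((g₁ + g₂ : ℕ) : ℤ))
    (R₁ : Fin g₁ → Place L Ω) (R₂ : Fin g₂ → Place L Ω) :
    s27pkgClO hdeg (O₁ + O₂) hO (Fin.append R₁ R₂) =
      s27pkgClO hdeg O₁ hO₁ R₁ + s27pkgClO hdeg O₂ hO₂ R₂ := by
  apply s27pka_cl_add_of_div
  rw [s27pka_sum_append]
  abel

/-- the degree of the sum of two origins. -/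
theorem s27pka_degree_add {g₁ g₂ : ℕ} {O₁ O₂ : Divisor L Ω}
    (hO₁ : Divisor.degree O₁ = g₁) (hO₂ : Divisor.degree O₂ = g₂) :
    Divisor.degree (O₁ + O₂) = ((g₁ + g₂ : ℕ) : ℤ) := by
  rw [map_add, hO₁, hO₂, Nat.cast_add]

/-- **additivity under concatenation**, three tuples. -/
theorem s27pka_cl_append3 (hdeg : ∀ w : Place L Ω, w.deg = 1) {g₁ g₂ g₃ : ℕ}
    (O₁ O₂ O₃ : Divisor L Ω)
    (hO₁ : Divisor.degree O₁ = g₁) (hO₂ : Divisor.degree O₂ = g₂)
    (hO₃ : Divisor.degree O₃ = g₃)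
    (hO : Divisor.degree (O₁ + O₂ + O₃) = ((g₁ + g₂ + g₃ : ℕ) : ℤ))
    (R₁ : Fin g₁ → Place L Ω) (R₂ : Fin g₂ → Place L Ω) (R₃ : Fin g₃ → Place L Ω) :
    s27pkgClO hdeg (O₁ + O₂ + O₃) hO (Fin.append (Fin.append R₁ R₂) R₃) =
      s27pkgClO hdeg O₁ hO₁ R₁ + s27pkgClO hdeg O₂ hO₂ R₂ + s27pkgClO hdeg O₃ hO₃ R₃ := by
  rw [s27pka_cl_append hdeg (O₁ + O₂) O₃ (s27pka_degree_add hO₁ hO₂) hO₃ hO,
    s27pka_cl_append hdeg O₁ O₂ hO₁ hO₂]

/-- the class of a re-indexed tuple. -/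
theorem s27pka_cl_cast (hdeg : ∀ w : Place L Ω, w.deg = 1) {g g' : ℕ} (h : g = g')
    (O : Divisor L Ω) (hO : Divisor.degree O = g) (hO' : Divisor.degree O = g')
    (R : Fin g' → Place L Ω) :
    s27pkgClO hdeg O hO (fun i => R (Fin.cast h i)) = s27pkgClO hdeg O hO' R := by
  apply s27pka_cl_eq_of_div
  rw [s27pka_sum_cast]

/-- the class of the empty tuple with origin `0`. -/
theorem s27pka_cl_empty (hdeg : ∀ w : Place L Ω, w.deg = 1)
    (hO : Divisor.degree (0 : Divisor L Ω) = ((0 : ℕ) : ℤ)) (R : Fin 0 → Place L Ω) :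
    s27pkgClO hdeg 0 hO R = 0 := by
  unfold s27pkgClO
  rw [← Pic0.mk_zero]
  refine congrArg Pic0.mk (Subtype.ext ?_)
  show s27pkgSum R - 0 = 0
  rw [s27pka_sum_empty, sub_zero]

/-- **additivity for disjoint sets of indices**, with arbitrary enumerations. -/
theorem s27pka_cl_union (hdeg : ∀ w : Place L Ω, w.deg = 1) {ι : Type*} [DecidableEq ι]
    (P : ι → Place L Ω) {S T : Finset ι} (hST : Disjoint S T) {g g₁ g₂ : ℕ}
    (e : Fin g → ι) (he : Function.Injective e) (heS : Finset.univ.image e = S ∪ T)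
    (e₁ : Fin g₁ → ι) (he₁ : Function.Injective e₁) (heS₁ : Finset.univ.image e₁ = S)
    (e₂ : Fin g₂ → ι) (he₂ : Function.Injective e₂) (heS₂ : Finset.univ.image e₂ = T)
    (O₁ O₂ : Divisor L Ω)
    (hO₁ : Divisor.degree O₁ = g₁) (hO₂ : Divisor.degree O₂ = g₂)
    (hO : Divisor.degree (O₁ + O₂) = g) :
    s27pkgClO hdeg (O₁ + O₂) hO (fun i => P (e i)) =
      s27pkgClO hdeg O₁ hO₁ (fun i => P (e₁ i)) + s27pkgClO hdeg O₂ hO₂ (fun i => P (e₂ i)) := by
  apply s27pka_cl_add_of_div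
  rw [s27pka_sum_finset (S ∪ T) e he heS, s27pka_sum_finset S e₁ he₁ heS₁,
    s27pka_sum_finset T e₂ he₂ heS₂, Finset.sum_union hST]
  abel

end General

/-- a concatenation of injective tuples with disjoint ranges is injective. -/
theorem s27pka_append_injective {α : Type*} {g₁ g₂ : ℕ} {R₁ : Fin g₁ → α} {R₂ : Fin g₂ → α}
    (h₁ : Function.Injective R₁) (h₂ : Function.Injective R₂)
    (h₁₂ : ∀ i j, R₁ i ≠ R₂ j) : Function.Injective (Fin.append R₁ R₂) := by
  intro a b hab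
  induction a using Fin.addCases with
  | left i =>
    induction b using Fin.addCases with
    | left j =>
      rw [Fin.append_left, Fin.append_left] at hab
      rw [h₁ hab]
    | right j =>
      rw [Fin.append_left, Fin.append_right] at hab
      exact absurd hab (h₁₂ i j)
  | right i =>
    induction b using Fin.addCases with
    | left j =>
      rw [Fin.append_right, Fin.append_left] at hab
      exact absurd hab.symm (h₁₂ j i)
    | right j =>
      rw [Fin.append_right, Fin.append_right] at hab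
      rw [h₂ hab]

/-- composition with a concatenation. -/
theorem s27pka_comp_append {α β : Type*} {g₁ g₂ : ℕ} (φ : α → β) (R₁ : Fin g₁ → α)
    (R₂ : Fin g₂ → α) :
    (fun i => φ (Fin.append R₁ R₂ i)) = Fin.append (fun i => φ (R₁ i)) (fun i => φ (R₂ i)) := by
  funext i
  induction i using Fin.addCases with
  | left i => rw [Fin.append_left, Fin.append_left]
  | right i => rw [Fin.append_right, Fin.append_right]

/-! ### The stage: points and constant origins -/

section Stage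

variable {K 𝔠 𝔎 Ω : Type*} [Field K] [Field 𝔠] [Field 𝔎] [Field Ω]
  [Algebra K 𝔠] [Algebra K 𝔎] [Algebra K Ω] [Algebra 𝔠 Ω] [Algebra 𝔎 Ω]
  [IsScalarTower K 𝔠 Ω] [IsScalarTower K 𝔎 Ω]
  [IsAlgClosed K] [CharZero K] [IsAlgClosed 𝔎]
  (hld : Function.Injective (s26gspMu K 𝔠 𝔎 Ω)) (hgen : S26gspGen K 𝔠 𝔎 Ω)
  {x : 𝔠} (hx : Transcendental K x)
  [FiniteDimensional ↥(IntermediateField.adjoin K {x}) 𝔠]
  [Algebra.IsSeparable ↥(IntermediateField.adjoin K {x}) 𝔠]

omit [CharZero K] [IsAlgClosed 𝔎] [Algebra.IsSeparable ↥(IntermediateField.adjoin K {x}) 𝔠] in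
/-- `Con` is additive. -/
theorem s27pka_con_add (B₁ B₂ : Divisor K 𝔠) :
    Finsupp.mapDomain (s26gspCon hld hgen (s26gspf_hall hx)) (B₁ + B₂) =
      Finsupp.mapDomain (s26gspCon hld hgen (s26gspf_hall hx)) B₁ +
        Finsupp.mapDomain (s26gspCon hld hgen (s26gspf_hall hx)) B₂ :=
  Finsupp.mapDomain_add

omit [CharZero K] [IsAlgClosed 𝔎] [Algebra.IsSeparable ↥(IntermediateField.adjoin K {x}) 𝔠] in
/-- `Con 0 = 0`. -/
theorem s27pka_con_zero :
    Finsupp.mapDomain (s26gspCon hld hgen (s26gspf_hall hx)) (0 : Divisor K 𝔠) = 0 :=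
  Finsupp.mapDomain_zero

omit [CharZero K] [IsAlgClosed 𝔎] [Algebra.IsSeparable ↥(IntermediateField.adjoin K {x}) 𝔠] in
/-- the degree of `Con B`. -/
theorem s27pka_con_degree (B : Divisor K 𝔠) {N : ℕ} (hB : Divisor.degree B = (N : ℤ)) :
    Divisor.degree (Finsupp.mapDomain (s26gspCon hld hgen (s26gspf_hall hx)) B) = (N : ℤ) := by
  rw [s26gspc_degree, hB]

omit [CharZero K] in
/-- **class additivity on the stage**: `[Σ pt(R₁ ++ R₂) − Con (B₁ + B₂)] =
[Σ pt R₁ − Con B₁] + [Σ pt R₂ − Con B₂]`. -/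
theorem s27pka_cl_append_con {N₁ N₂ : ℕ} (B₁ B₂ : Divisor K 𝔠)
    (h₁ : Divisor.degree (Finsupp.mapDomain (s26gspCon hld hgen (s26gspf_hall hx)) B₁) = (N₁ : ℤ))
    (h₂ : Divisor.degree (Finsupp.mapDomain (s26gspCon hld hgen (s26gspf_hall hx)) B₂) = (N₂ : ℤ))
    (h₁₂ : Divisor.degree (Finsupp.mapDomain (s26gspCon hld hgen (s26gspf_hall hx)) (B₁ + B₂))
      = ((N₁ + N₂ : ℕ) : ℤ))
    (R₁ : Fin N₁ → 𝔠 →ₐ[K] 𝔎) (R₂ : Fin N₂ → 𝔠 →ₐ[K] 𝔎) :
    s27pkgClO (s27pkg_hdeg hld hgen hx)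
        (Finsupp.mapDomain (s26gspCon hld hgen (s26gspf_hall hx)) (B₁ + B₂)) h₁₂
        (fun i => s27gpPlace hld hgen (Fin.append R₁ R₂ i) hx) =
      s27pkgClO (s27pkg_hdeg hld hgen hx)
          (Finsupp.mapDomain (s26gspCon hld hgen (s26gspf_hall hx)) B₁) h₁
          (fun i => s27gpPlace hld hgen (R₁ i) hx) +
        s27pkgClO (s27pkg_hdeg hld hgen hx)
          (Finsupp.mapDomain (s26gspCon hld hgen (s26gspf_hall hx)) B₂) h₂
          (fun i => s27gpPlace hld hgen (R₂ i) hx) := by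
  apply s27pka_cl_add_of_div
  rw [s27pka_comp_append (fun e => s27gpPlace hld hgen e hx) R₁ R₂, s27pka_sum_append,
    s27pka_con_add hld hgen hx]
  abel

omit [CharZero K] in
/-- **class additivity on the stage**, three tuples. -/
theorem s27pka_cl_append3_con {N₁ N₂ N₃ : ℕ} (B₁ B₂ B₃ : Divisor K 𝔠)
    (h₁ : Divisor.degree (Finsupp.mapDomain (s26gspCon hld hgen (s26gspf_hall hx)) B₁) = (N₁ : ℤ))
    (h₂ : Divisor.degree (Finsupp.mapDomain (s26gspCon hld hgen (s26gspf_hall hx)) B₂) = (N₂ : ℤ))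
    (h₃ : Divisor.degree (Finsupp.mapDomain (s26gspCon hld hgen (s26gspf_hall hx)) B₃) = (N₃ : ℤ))
    (h₁₂₃ : Divisor.degree
      (Finsupp.mapDomain (s26gspCon hld hgen (s26gspf_hall hx)) (B₁ + B₂ + B₃))
      = ((N₁ + N₂ + N₃ : ℕ) : ℤ))
    (R₁ : Fin N₁ → 𝔠 →ₐ[K] 𝔎) (R₂ : Fin N₂ → 𝔠 →ₐ[K] 𝔎) (R₃ : Fin N₃ → 𝔠 →ₐ[K] 𝔎) :
    s27pkgClO (s27pkg_hdeg hld hgen hx)
        (Finsupp.mapDomain (s26gspCon hld hgen (s26gspf_hall hx)) (B₁ + B₂ + B₃)) h₁₂₃
        (fun i => s27gpPlace hld hgen (Fin.append (Fin.append R₁ R₂) R₃ i) hx) =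
      s27pkgClO (s27pkg_hdeg hld hgen hx)
          (Finsupp.mapDomain (s26gspCon hld hgen (s26gspf_hall hx)) B₁) h₁
          (fun i => s27gpPlace hld hgen (R₁ i) hx) +
        s27pkgClO (s27pkg_hdeg hld hgen hx)
          (Finsupp.mapDomain (s26gspCon hld hgen (s26gspf_hall hx)) B₂) h₂
          (fun i => s27gpPlace hld hgen (R₂ i) hx) +
        s27pkgClO (s27pkg_hdeg hld hgen hx)
          (Finsupp.mapDomain (s26gspCon hld hgen (s26gspf_hall hx)) B₃) h₃
          (fun i => s27gpPlace hld hgen (R₃ i) hx) := by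
  have h12 : Divisor.degree
      (Finsupp.mapDomain (s26gspCon hld hgen (s26gspf_hall hx)) (B₁ + B₂))
      = ((N₁ + N₂ : ℕ) : ℤ) := by
    rw [s27pka_con_add hld hgen hx, map_add, h₁, h₂, Nat.cast_add]
  rw [s27pka_cl_append_con hld hgen hx (B₁ + B₂) B₃ h12 h₃ h₁₂₃ (Fin.append R₁ R₂) R₃,
    s27pka_cl_append_con hld hgen hx B₁ B₂ h₁ h₂ h12 R₁ R₂]

omit [IsAlgClosed K] [CharZero K] [IsAlgClosed 𝔎] in
/-- the points of a concatenation of injective tuples of points with disjoint ranges are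
distinct places. -/
theorem s27pka_pt_append_injective {N₁ N₂ : ℕ} {R₁ : Fin N₁ → 𝔠 →ₐ[K] 𝔎}
    {R₂ : Fin N₂ → 𝔠 →ₐ[K] 𝔎} (h₁ : Function.Injective R₁) (h₂ : Function.Injective R₂)
    (h₁₂ : ∀ i j, R₁ i ≠ R₂ j) :
    Function.Injective (fun i => s27gpPlace hld hgen (Fin.append R₁ R₂ i) hx) :=
  (s27pt_gpPlace_injective hld hgen hx).comp (s27pka_append_injective h₁ h₂ h₁₂)

end Stage

end Fermat.Agent.S27
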