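/-
S27-B — GEOMETRY HUB (helper95): **THE concrete class-indexed local equation** `S27icIdx`
(the common target of LE-CLASS and CP-TOP), and the CRUX on the stage in terms of it.

Stage as in S27/ModelPsi.lean (`pkg := s27dclPkg hld hgen hx G₀ hG₀`, `cl R = [Σ R i − Con G₀]`).
`Ao` = a constant divisor of degree `g − 1` with `ℓ(Ao) = 0` (`Ao = G₀ − O″`); the theta divisor is
`Θ = {c : ℓ(Ao − c) > 0}` and a tuple `R` of `N` points with constant origin `B` (`deg B = N`) lies
on `Θ` iff `det [R i (f l)] = 0`, `f` a `K`-basis of `L_K(B + Ao)`.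

* `s27icCl R B hB : Pic0 L FL`  = the class `[Σ_i pt (R i) − Con B]`;
* `S27icIdx Ao W c y`           = `y` is a local equation along `W` at the class `c`:
      `(c = 0 ∧ y ∈ Wˣ) ∨ ∃ N R B hB, R injective ∧ s27icCl R B hB = c ∧ S27ptIsIdx W R (B + Ao) y`;
* `s27ic_hIdx`  : (IDX) the local equations at the tuples `q k` of a family are local equations at
                  `k • η`, `η = cl (taut)`   [`B = G₀`, `A' = G₀ + Ao`];
* `s27ic_cube`  : **CRUX on the stage** = the literal `cube` clause of `s27mt_Stmt` from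
                  (BETA) `hβ`, (LE-CLASS) `S27ckLE K (S27icIdx …)`, (CP-TOP) `S27ckCP K (S27icIdx …) …`.
-/
import Fermat.Agent.S27.ModelCube
import Fermat.Agent.S27.ModelPsi

set_option autoImplicit false
set_option linter.unusedVariables false
set_option linter.unusedSectionVars false
set_option linter.style.haveILetI false

noncomputable section

namespace Fermat.Agent.S27

open AlgebraicCurve Module TensorProduct IntermediateField Fermat.Agent.S26

universe u v y

section Stage

variable {K : Type u} {F : Type v} [Field K] [IsAlgClosed K] [CharZero K] [Field F] [Algebra K F]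
  [IsCurveOver K F] [Algebra.EssFiniteType K F]
  {L : Type (max u v)} [Field L] [Algebra K L]
  [Algebra (s27gfOm K F (genusFF K F)) L] [IsScalarTower K (s27gfOm K F (genusFF K F)) L]
  [IsAlgClosed L] [Algebra.IsAlgebraic (s27gfOm K F (genusFF K F)) L]
  {FL : Type y} [Field FL] [Algebra K FL] [Algebra F FL] [Algebra L FL]
  [IsScalarTower K F FL] [IsScalarTower K L FL]
  (hld : Function.Injective (s26gspMu K F L FL)) (hgen : S26gspGen K F L FL)
  {x : F} (hx : Transcendental K x)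
  [FiniteDimensional ↥(IntermediateField.adjoin K {x}) F]
  [Algebra.IsSeparable ↥(IntermediateField.adjoin K {x}) F]

/-- the class `[Σ_i pt (R i) − Con B]` of a tuple of points w.r.t. the constant origin `B`. -/
def s27icCl {N : ℕ} (R : Fin N → F →ₐ[K] L) (B : Divisor K F) (hB : Divisor.degree B = (N : ℤ)) :
    Pic0 L FL :=
  s27pkgClO (s27pkg_hdeg hld hgen hx)
    (Finsupp.mapDomain (s26gspCon hld hgen (s26gspf_hall hx)) B)
    (by rw [s26gspc_degree, hB]) (fun i => s27gpPlace hld hgen (R i) hx)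

/-- **THE class-indexed local equation** of the theta divisor `Θ_{Ao}` along `W`. -/
def S27icIdx (Ao : Divisor K F) (W : ValuationSubring L) (c : Pic0 L FL) (y : L) : Prop :=
  (c = 0 ∧ S27IsUnitIn W y) ∨
  ∃ (N : ℕ) (R : Fin N → F →ₐ[K] L) (B : Divisor K F) (hB : Divisor.degree B = (N : ℤ)),
    Function.Injective R ∧ s27icCl hld hgen hx R B hB = c ∧ S27ptIsIdx W R (B + Ao) y

theorem s27ic_idx_zero (Ao : Divisor K F) (W : ValuationSubring L) :
    S27icIdx hld hgen hx Ao W 0 1 :=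
  Or.inl ⟨rfl, one_ne_zero, W.one_mem, by rw [inv_one]; exact W.one_mem⟩

/-- a generic tuple is injective. -/
theorem s27ic_generic_injective {N : ℕ} {R : Fin N → F →ₐ[K] L} (hR : S27dgGeneric K x R) :
    Function.Injective R := by
  intro i j hij
  have h : (fun i => R i x) i = (fun i => R i x) j := by
    show R i x = R j x
    rw [hij]
  exact (AlgebraicIndependent.injective hR) h

variable (G₀ : Divisor K F) (hG₀ : Divisor.degree G₀ = (genusFF K F : ℤ))

/-- the class of a `g`-tuple w.r.t. the origin `G₀` is the class of the package. -/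
theorem s27ic_cl_pkg (R : Fin (genusFF K F) → F →ₐ[K] L) :
    s27icCl hld hgen hx R G₀ hG₀ = s27pfCl (s27dclPkg hld hgen hx G₀ hG₀) R := rfl

/-- (IDX) on the stage. -/
theorem s27ic_hIdx {q : ℤ → Fin (genusFF K F) → F →ₐ[K] L}
    (hq : S27pfFam (s27dclPkg hld hgen hx G₀ hG₀) q) (Ao : Divisor K F)
    (k : ℤ) (hk : k ≠ 0) (W : ValuationSubring L) (hW : S27IsKValU K W) (y : L)
    (hy : S27ptIsIdx W (q k) (G₀ + Ao) y) :
    S27icIdx hld hgen hx Ao W
      (k • s27pfCl (s27dclPkg hld hgen hx G₀ hG₀)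
        (s27pfTaut (K := K) (F := F) (g := genusFF K F) (L := L))) y :=
  Or.inr ⟨genusFF K F, q k, G₀, hG₀, s27ic_generic_injective (hq k hk).1,
    (s27ic_cl_pkg hld hgen hx G₀ hG₀ (q k)).trans (hq k hk).2, hy⟩

variable [IsGalois (s27gfSym K F (genusFF K F)) L]

/-- **CRUX on the stage** from (BETA) + (LE-CLASS) + (CP-TOP), all for the concrete `S27icIdx`:
the literal `cube` clause of `s27mt_Stmt` (with `0 < e k`, `Φ k ≠ 0`). -/
theorem s27ic_cube {q : ℤ → Fin (genusFF K F) → F →ₐ[K] L}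
    (hq : S27pfFam (s27dclPkg hld hgen hx G₀ hG₀) q) (Ao : Divisor K F)
    (β : ValuationSubring (s27gfSym K F (genusFF K F)) → s27gfSym K F (genusFF K F))
    (hβ : S27pnBeta (L := L) (s27pnTaut (K := K) (F := F) (g := genusFF K F) (L := L))
      (G₀ + Ao) β)
    (hLE : S27ckLE K (S27icIdx hld hgen hx Ao))
    (n : ℕ) (Φ : ℤ → L) (hΦ : ∀ k : ℤ, k ∈ s27indbRange n → Φ k ≠ 0)
    (hcp : ∀ k : ℤ, k ∈ s27indbRange n → S27ckCP K (S27icIdx hld hgen hx Ao)
      (k • s27pfCl (s27dclPkg hld hgen hx G₀ hG₀)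
        (s27pfTaut (K := K) (F := F) (g := genusFF K F) (L := L)))
      (s27pfCl (s27dclPkg hld hgen hx G₀ hG₀)
        (s27pfTaut (K := K) (F := F) (g := genusFF K F) (L := L))) (Φ k)) :
    ∃ (e : ℤ → ℕ) (Φ' : ℤ → s27gfSym K F (genusFF K F)),
      (∀ k : ℤ, k ∈ s27indbRange n → 0 < e k) ∧
      (∀ k : ℤ, k ∈ s27indbRange n → Φ' k ≠ 0) ∧
      (∀ k : ℤ, k ∈ s27indbRange n → ∀ V, S27IsKValU K V → ∃ u, S27IsUnitIn V u ∧
        (s27indB (s27pfPsi _ (s27dcl_halg (x := x)) hq) β (k + 1) V *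
            s27indB (s27pfPsi _ (s27dcl_halg (x := x)) hq) β (k - 1) V) ^ e k =
          u * Φ' k * (s27indB (s27pfPsi _ (s27dcl_halg (x := x)) hq) β k V ^ 2 *
            s27indB (s27pfPsi _ (s27dcl_halg (x := x)) hq) β 1 V *
            s27indB (s27pfPsi _ (s27dcl_halg (x := x)) hq) β (-1) V) ^ e k) := by
  obtain ⟨h1, h2, h3⟩ := s27mc_cube (s27dclPkg hld hgen hx G₀ hG₀) (s27dcl_halg (x := x)) hq
    (G₀ + Ao) β hβ (S27icIdx hld hgen hx Ao) _ hLE
    (fun k hk W hW y hy => s27ic_hIdx hld hgen hx G₀ hG₀ hq Ao k hk W hW y hy) n Φ hΦ hcp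
  exact ⟨_, _, h1, h2, h3⟩

end Stage

end Fermat.Agent.S27

end
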