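/-
# S27 route B, CP-TOP: **class bookkeeping on the concrete `S27icIdx`** (helper45)

On the stage of `S27/IdxCls.lean` (hub helper95): `s27icCl R B hB = [Σ_i pt (R i) − Con B]`,
`S27icIdx Ao W c y`.

* `s27ica_cl_append`, `s27ica_cl_append3`: additivity of `s27icCl` under `Fin.append`;
* `s27ica_cl_union`: additivity for disjoint finite sets of indices (any enumerations);
* `s27ica_cl_eq_iff`, `s27ica_cl_eq_zero_iff`: equality of classes = principal divisor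
  (the input of BRIDGE for LE-a, LE-0);
* `s27ica_idx`, `s27ica_idx_append`, `s27ica_idx_append3`, `s27ica_idx_union`: a local equation
  (`S27ptIsIdx`) at a concatenation / a union is a local equation at the SUM of the classes;
* `s27ica_cp`: **CP-TOP in class form** — the body of `S27ckCP K (S27icIdx …) c₁ c₂ Φ` at `W`
  from three pairwise disjoint finite sets of indices `S₁, S₂, S₃` of an injective family of
  points, of classes `c₁, c₂, −c₂`, the seven local equations `μ S` (PF) and the cube relation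
  (`s27cpt_cube_unit`);
* `s27ica_cp_cube`: the same with the cube relation taken from `s27cpt_cube_unit` (inputs: PF in
  the form `μ S ≐_W s27cptM x α σ θ S` and `θ ≠ 0` at the three unions of two sets).
-/
import Fermat.Agent.S27.IdxCls
import Fermat.Agent.S27.DegPkgAdd

set_option autoImplicit false
set_option linter.unusedVariables false
set_option linter.unusedSectionVars false
set_option linter.style.haveILetI false

noncomputable section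

namespace Fermat.Agent.S27

open AlgebraicCurve Module TensorProduct IntermediateField Fermat.Agent.S26

universe u v y

section Stage

variable {K : Type u} {F : Type v} [Field K] [IsAlgClosed K] [CharZero K] [Field F] [Algebra K F]
  [IsCurveOver K F] [Algebra.EssFiniteType K F]
  {L : Type (max u v)} [Field L] [Algebra K L]
  [Algebra (s27gfOm K F (genusFF K F)) L] [IsScalarTower K (s27gfOm K F (genusFF K F)) L]
  [IsAlgClosed L] [Algebra.IsAlgebraic (s27gfOm K F (genusFF K F)) L]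
  {FL : Type y} [Field FL] [Algebra K FL] [Algebra F FL] [Algebra L FL]
  [IsScalarTower K F FL] [IsScalarTower K L FL]
  (hld : Function.Injective (s26gspMu K F L FL)) (hgen : S26gspGen K F L FL)
  {x : F} (hx : Transcendental K x)
  [FiniteDimensional ↥(IntermediateField.adjoin K {x}) F]
  [Algebra.IsSeparable ↥(IntermediateField.adjoin K {x}) F]

/-! ### Classes -/

/-- the class does not depend on the proof of the degree. -/
theorem s27ica_cl_congr {N : ℕ} {R R' : Fin N → F →ₐ[K] L} {B B' : Divisor K F}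
    (hB : Divisor.degree B = (N : ℤ)) (hB' : Divisor.degree B' = (N : ℤ))
    (hR : R = R') (hBB : B = B') :
    s27icCl hld hgen hx R B hB = s27icCl hld hgen hx R' B' hB' := by
  subst hR hBB
  rfl

/-- **additivity of the class under concatenation.** -/
theorem s27ica_cl_append {N₁ N₂ : ℕ} (R₁ : Fin N₁ → F →ₐ[K] L) (R₂ : Fin N₂ → F →ₐ[K] L)
    (B₁ B₂ : Divisor K F) (hB₁ : Divisor.degree B₁ = (N₁ : ℤ))
    (hB₂ : Divisor.degree B₂ = (N₂ : ℤ))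
    (hB : Divisor.degree (B₁ + B₂) = ((N₁ + N₂ : ℕ) : ℤ)) :
    s27icCl hld hgen hx (Fin.append R₁ R₂) (B₁ + B₂) hB =
      s27icCl hld hgen hx R₁ B₁ hB₁ + s27icCl hld hgen hx R₂ B₂ hB₂ :=
  s27pka_cl_append_con hld hgen hx B₁ B₂ _ _ _ R₁ R₂

/-- the degree of a sum of two origins. -/
theorem s27ica_degree_add {N₁ N₂ : ℕ} {B₁ B₂ : Divisor K F}
    (hB₁ : Divisor.degree B₁ = (N₁ : ℤ)) (hB₂ : Divisor.degree B₂ = (N₂ : ℤ)) :
    Divisor.degree (B₁ + B₂) = ((N₁ + N₂ : ℕ) : ℤ) := by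
  rw [map_add, hB₁, hB₂, Nat.cast_add]

/-- **additivity of the class under concatenation**, three tuples. -/
theorem s27ica_cl_append3 {N₁ N₂ N₃ : ℕ} (R₁ : Fin N₁ → F →ₐ[K] L) (R₂ : Fin N₂ → F →ₐ[K] L)
    (R₃ : Fin N₃ → F →ₐ[K] L)
    (B₁ B₂ B₃ : Divisor K F) (hB₁ : Divisor.degree B₁ = (N₁ : ℤ))
    (hB₂ : Divisor.degree B₂ = (N₂ : ℤ)) (hB₃ : Divisor.degree B₃ = (N₃ : ℤ))
    (hB : Divisor.degree (B₁ + B₂ + B₃) = ((N₁ + N₂ + N₃ : ℕ) : ℤ)) :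
    s27icCl hld hgen hx (Fin.append (Fin.append R₁ R₂) R₃) (B₁ + B₂ + B₃) hB =
      s27icCl hld hgen hx R₁ B₁ hB₁ + s27icCl hld hgen hx R₂ B₂ hB₂ +
        s27icCl hld hgen hx R₃ B₃ hB₃ :=
  s27pka_cl_append3_con hld hgen hx B₁ B₂ B₃ _ _ _ _ R₁ R₂ R₃

/-- **additivity of the class for disjoint sets of indices**, with arbitrary enumerations. -/
theorem s27ica_cl_union {ι : Type*} [DecidableEq ι] (P : ι → F →ₐ[K] L) {S T : Finset ι}
    (hST : Disjoint S T) {N N₁ N₂ : ℕ}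
    (e : Fin N → ι) (he : Function.Injective e) (heS : Finset.univ.image e = S ∪ T)
    (e₁ : Fin N₁ → ι) (he₁ : Function.Injective e₁) (heS₁ : Finset.univ.image e₁ = S)
    (e₂ : Fin N₂ → ι) (he₂ : Function.Injective e₂) (heS₂ : Finset.univ.image e₂ = T)
    (B₁ B₂ : Divisor K F) (hB₁ : Divisor.degree B₁ = (N₁ : ℤ))
    (hB₂ : Divisor.degree B₂ = (N₂ : ℤ)) (hB : Divisor.degree (B₁ + B₂) = (N : ℤ)) :
    s27icCl hld hgen hx (fun i => P (e i)) (B₁ + B₂) hB =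
      s27icCl hld hgen hx (fun i => P (e₁ i)) B₁ hB₁ +
        s27icCl hld hgen hx (fun i => P (e₂ i)) B₂ hB₂ := by
  unfold s27icCl
  have h := s27pka_cl_union (s27pkg_hdeg hld hgen hx) (fun j => s27gpPlace hld hgen (P j) hx)
    hST e he heS e₁ he₁ heS₁ e₂ he₂ heS₂
    (Finsupp.mapDomain (s26gspCon hld hgen (s26gspf_hall hx)) B₁)
    (Finsupp.mapDomain (s26gspCon hld hgen (s26gspf_hall hx)) B₂)
    (by rw [s26gspc_degree, hB₁]) (by rw [s26gspc_degree, hB₂])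
    (by rw [← s27pka_con_add hld hgen hx, s26gspc_degree, hB])
  rw [← h]
  exact s27pka_cl_eq_of_div _ _ _ _ _ _ _ (by rw [s27pka_con_add hld hgen hx])

/-- equality of the classes of two tuples (of any lengths): the divisors differ by a principal
divisor. -/
theorem s27ica_cl_eq_iff {N N' : ℕ} (R : Fin N → F →ₐ[K] L) (R' : Fin N' → F →ₐ[K] L)
    (B B' : Divisor K F) (hB : Divisor.degree B = (N : ℤ)) (hB' : Divisor.degree B' = (N' : ℤ)) :
    s27icCl hld hgen hx R B hB = s27icCl hld hgen hx R' B' hB' ↔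
      ∃ f : FL, f ≠ 0 ∧ ∀ v : Place L FL,
        s27pkgSum (fun i => s27gpPlace hld hgen (R i) hx) v +
            Finsupp.mapDomain (s26gspCon hld hgen (s26gspf_hall hx)) B' v =
          s27pkgSum (fun i => s27gpPlace hld hgen (R' i) hx) v +
            Finsupp.mapDomain (s26gspCon hld hgen (s26gspf_hall hx)) B v + v.ord f :=
  s27pka_cl_eq_iff _ _ _ _ _ _ _

/-- the class is `0` iff `Σ pt (R i) − Con B` is principal. -/
theorem s27ica_cl_eq_zero_iff {N : ℕ} (R : Fin N → F →ₐ[K] L)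
    (B : Divisor K F) (hB : Divisor.degree B = (N : ℤ)) :
    s27icCl hld hgen hx R B hB = 0 ↔
      ∃ f : FL, f ≠ 0 ∧ ∀ v : Place L FL,
        s27pkgSum (fun i => s27gpPlace hld hgen (R i) hx) v =
          Finsupp.mapDomain (s26gspCon hld hgen (s26gspf_hall hx)) B v + v.ord f :=
  s27pka_cl_eq_zero_iff _ _ _ _

/-! ### Local equations -/

/-- a local equation at a tuple is a local equation at its class. -/
theorem s27ica_idx (Ao : Divisor K F) (W : ValuationSubring L) {N : ℕ} {R : Fin N → F →ₐ[K] L}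
    (hR : Function.Injective R) {B : Divisor K F} (hB : Divisor.degree B = (N : ℤ))
    {c : Pic0 L FL} (hc : s27icCl hld hgen hx R B hB = c) {y : L}
    (hy : S27ptIsIdx W R (B + Ao) y) : S27icIdx hld hgen hx Ao W c y :=
  Or.inr ⟨N, R, B, hB, hR, hc, hy⟩

/-- a local equation at a concatenation is a local equation at the sum of the classes. -/
theorem s27ica_idx_append (Ao : Divisor K F) (W : ValuationSubring L) {N₁ N₂ : ℕ}
    {R₁ : Fin N₁ → F →ₐ[K] L} {R₂ : Fin N₂ → F →ₐ[K] L}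
    (h₁ : Function.Injective R₁) (h₂ : Function.Injective R₂) (h₁₂ : ∀ i j, R₁ i ≠ R₂ j)
    {B₁ B₂ : Divisor K F} (hB₁ : Divisor.degree B₁ = (N₁ : ℤ))
    (hB₂ : Divisor.degree B₂ = (N₂ : ℤ))
    {c₁ c₂ : Pic0 L FL} (hc₁ : s27icCl hld hgen hx R₁ B₁ hB₁ = c₁)
    (hc₂ : s27icCl hld hgen hx R₂ B₂ hB₂ = c₂) {y : L}
    (hy : S27ptIsIdx W (Fin.append R₁ R₂) (B₁ + B₂ + Ao) y) :
    S27icIdx hld hgen hx Ao W (c₁ + c₂) y :=
  s27ica_idx hld hgen hx Ao W (s27pka_append_injective h₁ h₂ h₁₂)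
    (s27ica_degree_add hB₁ hB₂)
    (by rw [s27ica_cl_append hld hgen hx R₁ R₂ B₁ B₂ hB₁ hB₂, hc₁, hc₂]) hy

/-- a local equation at a concatenation of three tuples is a local equation at the sum of the
classes. -/
theorem s27ica_idx_append3 (Ao : Divisor K F) (W : ValuationSubring L) {N₁ N₂ N₃ : ℕ}
    {R₁ : Fin N₁ → F →ₐ[K] L} {R₂ : Fin N₂ → F →ₐ[K] L} {R₃ : Fin N₃ → F →ₐ[K] L}
    (h₁ : Function.Injective R₁) (h₂ : Function.Injective R₂) (h₃ : Function.Injective R₃)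
    (h₁₂ : ∀ i j, R₁ i ≠ R₂ j) (h₁₃ : ∀ i j, R₁ i ≠ R₃ j) (h₂₃ : ∀ i j, R₂ i ≠ R₃ j)
    {B₁ B₂ B₃ : Divisor K F} (hB₁ : Divisor.degree B₁ = (N₁ : ℤ))
    (hB₂ : Divisor.degree B₂ = (N₂ : ℤ)) (hB₃ : Divisor.degree B₃ = (N₃ : ℤ))
    {c₁ c₂ c₃ : Pic0 L FL} (hc₁ : s27icCl hld hgen hx R₁ B₁ hB₁ = c₁)
    (hc₂ : s27icCl hld hgen hx R₂ B₂ hB₂ = c₂) (hc₃ : s27icCl hld hgen hx R₃ B₃ hB₃ = c₃)
    {y : L} (hy : S27ptIsIdx W (Fin.append (Fin.append R₁ R₂) R₃) (B₁ + B₂ + B₃ + Ao) y) :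
    S27icIdx hld hgen hx Ao W (c₁ + c₂ + c₃) y := by
  refine s27ica_idx hld hgen hx Ao W
    (s27pka_append_injective (s27pka_append_injective h₁ h₂ h₁₂) h₃ ?_)
    (s27ica_degree_add (s27ica_degree_add hB₁ hB₂) hB₃)
    (by rw [s27ica_cl_append3 hld hgen hx R₁ R₂ R₃ B₁ B₂ B₃ hB₁ hB₂ hB₃, hc₁, hc₂, hc₃]) hy
  intro i j
  induction i using Fin.addCases with
  | left i => rw [Fin.append_left]; exact h₁₃ i j
  | right i => rw [Fin.append_right]; exact h₂₃ i j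

/-- a local equation at the union of two disjoint sets of indices is a local equation at the
sum of the classes. -/
theorem s27ica_idx_union (Ao : Divisor K F) (W : ValuationSubring L)
    {ι : Type*} [DecidableEq ι] (P : ι → F →ₐ[K] L) (hP : Function.Injective P)
    {S T : Finset ι} (hST : Disjoint S T) {N N₁ N₂ : ℕ}
    (e : Fin N → ι) (he : Function.Injective e) (heS : Finset.univ.image e = S ∪ T)
    (e₁ : Fin N₁ → ι) (he₁ : Function.Injective e₁) (heS₁ : Finset.univ.image e₁ = S)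
    (e₂ : Fin N₂ → ι) (he₂ : Function.Injective e₂) (heS₂ : Finset.univ.image e₂ = T)
    {B₁ B₂ : Divisor K F} (hB₁ : Divisor.degree B₁ = (N₁ : ℤ))
    (hB₂ : Divisor.degree B₂ = (N₂ : ℤ)) (hB : Divisor.degree (B₁ + B₂) = (N : ℤ))
    {c₁ c₂ : Pic0 L FL} (hc₁ : s27icCl hld hgen hx (fun i => P (e₁ i)) B₁ hB₁ = c₁)
    (hc₂ : s27icCl hld hgen hx (fun i => P (e₂ i)) B₂ hB₂ = c₂) {y : L}
    (hy : S27ptIsIdx W (fun i => P (e i)) (B₁ + B₂ + Ao) y) :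
    S27icIdx hld hgen hx Ao W (c₁ + c₂) y :=
  s27ica_idx hld hgen hx Ao W (R := fun i => P (e i)) (fun a b h => he (hP h)) hB
    (by rw [s27ica_cl_union hld hgen hx P hST e he heS e₁ he₁ heS₁ e₂ he₂ heS₂ B₁ B₂ hB₁ hB₂,
      hc₁, hc₂]) hy

/-! ### CP-TOP in class form -/

/-- **CP-TOP in class form** (one `W`): three pairwise disjoint finite sets of indices of an
injective family of points, of classes `c₁`, `c₂`, `−c₂` w.r.t. the origins `B S₁`, `B S₂`,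
`B S₃` (`B` additive on the disjoint unions), local equations `μ S` at the seven unions and the
cube relation. -/
theorem s27ica_cp (Ao : Divisor K F) (W : ValuationSubring L)
    {ι : Type*} [DecidableEq ι] (P : ι → F →ₐ[K] L) (hP : Function.Injective P)
    {S₁ S₂ S₃ : Finset ι} (h12 : Disjoint S₁ S₂) (h13 : Disjoint S₁ S₃) (h23 : Disjoint S₂ S₃)
    (en : ∀ S : Finset ι, Fin S.card → ι) (hen : ∀ S, Function.Injective (en S))
    (hen' : ∀ S, Finset.univ.image (en S) = S)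
    (B : Finset ι → Divisor K F) (hB : ∀ S, Divisor.degree (B S) = (S.card : ℤ))
    (hB12 : B (S₁ ∪ S₂) = B S₁ + B S₂) (hB13 : B (S₁ ∪ S₃) = B S₁ + B S₃)
    (hB23 : B (S₂ ∪ S₃) = B S₂ + B S₃) (hB123 : B (S₁ ∪ S₂ ∪ S₃) = B (S₁ ∪ S₂) + B S₃)
    {c₁ c₂ : Pic0 L FL}
    (hc₁ : s27icCl hld hgen hx (fun i => P (en S₁ i)) (B S₁) (hB S₁) = c₁)
    (hc₂ : s27icCl hld hgen hx (fun i => P (en S₂ i)) (B S₂) (hB S₂) = c₂)
    (hc₃ : s27icCl hld hgen hx (fun i => P (en S₃ i)) (B S₃) (hB S₃) = -c₂)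
    (μ : Finset ι → L)
    (hμ : ∀ S : Finset ι, S27ptIsIdx W (fun i => P (en S i)) (B S + Ao) (μ S))
    (Φ : L)
    (hrel : s27cptEq W (μ (S₁ ∪ S₂ ∪ S₃) * μ S₁ * μ S₂ * μ S₃)
      (Φ * (μ (S₁ ∪ S₂) * μ (S₁ ∪ S₃) * μ (S₂ ∪ S₃)))) :
    ∃ y₁ y₂ y₃ y₁₂ y₁₃ y₂₃ y₁₂₃ : L,
      S27icIdx hld hgen hx Ao W c₁ y₁ ∧ S27icIdx hld hgen hx Ao W c₂ y₂ ∧
      S27icIdx hld hgen hx Ao W (-c₂) y₃ ∧ S27icIdx hld hgen hx Ao W (c₁ + c₂) y₁₂ ∧
      S27icIdx hld hgen hx Ao W (c₁ - c₂) y₁₃ ∧ S27icIdx hld hgen hx Ao W 0 y₂₃ ∧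
      S27icIdx hld hgen hx Ao W c₁ y₁₂₃ ∧
      s27cptEq W (y₁₂₃ * y₁ * y₂ * y₃) (Φ * (y₁₂ * y₁₃ * y₂₃)) := by
  have key : ∀ (S : Finset ι) (c : Pic0 L FL),
      s27icCl hld hgen hx (fun i => P (en S i)) (B S) (hB S) = c →
        S27icIdx hld hgen hx Ao W c (μ S) := fun S c hc =>
    s27ica_idx hld hgen hx Ao W (R := fun i => P (en S i)) (fun a b h => hen S (hP h)) (hB S) hc
      (hμ S)
  have hcl : ∀ (S T : Finset ι) (hST : Disjoint S T) (hBST : B (S ∪ T) = B S + B T),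
      s27icCl hld hgen hx (fun i => P (en (S ∪ T) i)) (B (S ∪ T)) (hB (S ∪ T)) =
        s27icCl hld hgen hx (fun i => P (en S i)) (B S) (hB S) +
          s27icCl hld hgen hx (fun i => P (en T i)) (B T) (hB T) := by
    intro S T hST hBST
    rw [← s27ica_cl_union hld hgen hx P hST (en (S ∪ T)) (hen _) (hen' _) (en S) (hen S)
      (hen' S) (en T) (hen T) (hen' T) (B S) (B T) (hB S) (hB T) (by rw [← hBST]; exact hB _)]
    exact s27ica_cl_congr hld hgen hx _ _ rfl hBST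
  have h123 : Disjoint (S₁ ∪ S₂) S₃ := Finset.disjoint_union_left.2 ⟨h13, h23⟩
  refine ⟨μ S₁, μ S₂, μ S₃, μ (S₁ ∪ S₂), μ (S₁ ∪ S₃), μ (S₂ ∪ S₃), μ (S₁ ∪ S₂ ∪ S₃),
    key _ _ hc₁, key _ _ hc₂, key _ _ hc₃, key _ _ ?_, key _ _ ?_, key _ _ ?_, key _ _ ?_, hrel⟩
  · rw [hcl S₁ S₂ h12 hB12, hc₁, hc₂]
  · rw [hcl S₁ S₃ h13 hB13, hc₁, hc₃, sub_eq_add_neg]
  · rw [hcl S₂ S₃ h23 hB23, hc₂, hc₃, add_neg_cancel]
  · rw [hcl (S₁ ∪ S₂) S₃ h123 hB123, hcl S₁ S₂ h12 hB12, hc₁, hc₂, hc₃, add_neg_cancel_right]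

/-- **CP-TOP in class form from PF + CUBE-PT** (one `W`): as `s27ica_cp`, the cube relation coming
from the point formula `μ S ≐_W θ S / (V(S) · P(S))` (`s27cptM`) by `s27cpt_cube_unit`; `Φ` is
`s27cptPhi θ S₁ S₂ S₃`. -/
theorem s27ica_cp_cube (Ao : Divisor K F) (W : ValuationSubring L)
    {ι : Type*} [LinearOrder ι] (P : ι → F →ₐ[K] L) (hP : Function.Injective P)
    {S₁ S₂ S₃ : Finset ι} (h12 : Disjoint S₁ S₂) (h13 : Disjoint S₁ S₃) (h23 : Disjoint S₂ S₃)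
    (en : ∀ S : Finset ι, Fin S.card → ι) (hen : ∀ S, Function.Injective (en S))
    (hen' : ∀ S, Finset.univ.image (en S) = S)
    (B : Finset ι → Divisor K F) (hB : ∀ S, Divisor.degree (B S) = (S.card : ℤ))
    (hB12 : B (S₁ ∪ S₂) = B S₁ + B S₂) (hB13 : B (S₁ ∪ S₃) = B S₁ + B S₃)
    (hB23 : B (S₂ ∪ S₃) = B S₂ + B S₃) (hB123 : B (S₁ ∪ S₂ ∪ S₃) = B (S₁ ∪ S₂) + B S₃)
    {c₁ c₂ : Pic0 L FL}
    (hc₁ : s27icCl hld hgen hx (fun i => P (en S₁ i)) (B S₁) (hB S₁) = c₁)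
    (hc₂ : s27icCl hld hgen hx (fun i => P (en S₂ i)) (B S₂) (hB S₂) = c₂)
    (hc₃ : s27icCl hld hgen hx (fun i => P (en S₃ i)) (B S₃) (hB S₃) = -c₂)
    (μ : Finset ι → L)
    (hμ : ∀ S : Finset ι, S27ptIsIdx W (fun i => P (en S i)) (B S + Ao) (μ S))
    (xx α σ : ι → L) (θ : Finset ι → L)
    (t12 : θ (S₁ ∪ S₂) ≠ 0) (t13 : θ (S₁ ∪ S₃) ≠ 0) (t23 : θ (S₂ ∪ S₃) ≠ 0)
    (m1 : s27cptEq W (μ S₁) (s27cptM xx α σ θ S₁))
    (m2 : s27cptEq W (μ S₂) (s27cptM xx α σ θ S₂))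
    (m3 : s27cptEq W (μ S₃) (s27cptM xx α σ θ S₃))
    (m12 : s27cptEq W (μ (S₁ ∪ S₂)) (s27cptM xx α σ θ (S₁ ∪ S₂)))
    (m13 : s27cptEq W (μ (S₁ ∪ S₃)) (s27cptM xx α σ θ (S₁ ∪ S₃)))
    (m23 : s27cptEq W (μ (S₂ ∪ S₃)) (s27cptM xx α σ θ (S₂ ∪ S₃)))
    (m123 : s27cptEq W (μ (S₁ ∪ S₂ ∪ S₃)) (s27cptM xx α σ θ (S₁ ∪ S₂ ∪ S₃))) :
    ∃ y₁ y₂ y₃ y₁₂ y₁₃ y₂₃ y₁₂₃ : L,
      S27icIdx hld hgen hx Ao W c₁ y₁ ∧ S27icIdx hld hgen hx Ao W c₂ y₂ ∧
      S27icIdx hld hgen hx Ao W (-c₂) y₃ ∧ S27icIdx hld hgen hx Ao W (c₁ + c₂) y₁₂ ∧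
      S27icIdx hld hgen hx Ao W (c₁ - c₂) y₁₃ ∧ S27icIdx hld hgen hx Ao W 0 y₂₃ ∧
      S27icIdx hld hgen hx Ao W c₁ y₁₂₃ ∧
      s27cptEq W (y₁₂₃ * y₁ * y₂ * y₃) (s27cptPhi θ S₁ S₂ S₃ * (y₁₂ * y₁₃ * y₂₃)) :=
  s27ica_cp hld hgen hx Ao W P hP h12 h13 h23 en hen hen' B hB hB12 hB13 hB23 hB123 hc₁ hc₂ hc₃
    μ hμ _ (s27cpt_cube_unit W xx α σ θ h12 h13 h23 t12 t13 t23 μ m1 m2 m3 m12 m13 m23 m123)

end Stage

end Fermat.Agent.S27
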