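/-
S27-B, leaf **REP-INST** (helper18; hub helper95, for CP-TOP), part B: THE STAGE.

Setting: the model `Ω_g = s27gfOm K F g ⊆ L` (`L` algebraically closed), a function field
`FL ⊇ F, L` with `hld`, `hgen` (on the stage: `FL = s27stgFL K F L`), point places
`pt e = s27gpPlace hld hgen e hx`, classes `[Σ pt R − Con B] = s27pkgClO hdeg (Con B) hB (pt ∘ R)`,
the degree package `pkg` with `pkg.pt = pt` (`hpt`) and `pkg.cl R = [Σ R − Con G₀]` (`hcl`), a family
`q` (`S27pfFam pkg q`), `η = s27pfCl pkg s27pfTaut`.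

* `s27ris_theta_pt`      : `θ(e; v) = det [e i (v l)] ≠ 0` for a generic tuple `e` (`s27gfLiftR e`
                           injective) and a `K`-linearly independent family `v`;
* `s27ris_generic_inj`   : a generic tuple is injective;
* `s27ris_tau`           : `0 < g` ⇒ `L ≠ K` (the `τ` of the moving lemma);
* **`s27ris_theta_ne`**  : for EVERY injective tuple `R` of `M` points, every constant `B` of degree
                           `M` with `[Σ pt R − Con B] = j • η` (`j : ℤ` ARBITRARY, `j = 0` included),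
                           every `A = B + Ao` and every `K`-basis `f` of `L_K(A)` indexed by `Fin M`:
                           `det [R i (f l)] ≠ 0`.        (inputs: `L_K(Ao) = 0`, a basis of `L_K(G₀ + Ao)`)
* **`s27ris_tuples`**    : `∃ N₀, ∀ N ≥ N₀`, `B` of degree `N`, `S` finite, `k : ℤ`: three injective
                           `N`-tuples `R₁, R₂, R₃` of points, off `S`, pairwise disjoint, of classes
                           `k • η`, `η`, `−η` with respect to the origin `Con B`.
-/
import Fermat.Agent.S27.RepInst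
import Fermat.Agent.S27.PsiFam
import Fermat.Agent.S27.BetaTheta

set_option autoImplicit false
set_option linter.style.haveILetI false
set_option linter.unusedSectionVars false
set_option linter.unusedVariables false

noncomputable section

namespace Fermat.Agent.S27

open AlgebraicCurve Module IntermediateField TensorProduct
open Fermat.Agent.S26 Fermat.Agent.S24

universe u v x y

section Pt

variable {K : Type u} {F : Type v} [Field K] [IsAlgClosed K] [Field F] [Algebra K F] {g : ℕ}
variable {L : Type (max u v)} [Field L] [Algebra K L]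

/-- the matrix of values at a generic tuple is the image of the generic matrix of values. -/
theorem s27ris_val_map (e : Fin g → F →ₐ[K] L) (he : Function.Injective (s27gfLiftR e))
    (v : Fin g → F) :
    s27ptVal e v = (s27ptVal (s27betaPt K F g) v).map (s27psiT e he) := by
  ext i l
  rw [Matrix.map_apply, s27ptVal_apply, s27ptVal_apply, s27betaPt_apply, s27psiT_iota]

/-- **`θ ≠ 0` at a generic tuple.** -/
theorem s27ris_theta_pt (e : Fin g → F →ₐ[K] L) (he : Function.Injective (s27gfLiftR e))
    (v : Fin g → F) (hv : LinearIndependent K v) : (s27ptVal e v).det ≠ 0 := by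
  rw [s27ris_val_map e he v]
  have h1 : ((s27ptVal (s27betaPt K F g) v).map (s27psiT e he)).det =
      s27psiT e he (s27ptVal (s27betaPt K F g) v).det :=
    (RingHom.map_det ((s27psiT e he : s27gfOm K F g →ₐ[K] L) : s27gfOm K F g →+* L) _).symm
  rw [h1]
  intro h0
  exact s27betat_det_ne_zero v hv (s27psiT_injective e he (h0.trans (map_zero _).symm))

/-- `θ ≠ 0` at a generic tuple, for a basis of `L_K(A')`. -/
theorem s27ris_theta_pt_basis (e : Fin g → F →ₐ[K] L) (he : Function.Injective (s27gfLiftR e))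
    (A' : Divisor K F) (f : Module.Basis (Fin g) K ↥(riemannRochSpace A')) :
    (s27ptValB e f).det ≠ 0 :=
  s27ris_theta_pt e he _
    (f.linearIndependent.map' (riemannRochSpace A').subtype (Submodule.ker_subtype _))

omit [IsAlgClosed K] in
/-- a generic tuple is injective. -/
theorem s27ris_generic_inj {t : F} (e : Fin g → F →ₐ[K] L) (he : S27dgGeneric K t e) :
    Function.Injective e := by
  intro i j hij
  have h := AlgebraicIndependent.injective he
  exact h (show e i t = e j t by rw [hij])

end Pt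

/-! ### The stage -/

section Stage

variable {K : Type u} {F : Type v} [Field K] [IsAlgClosed K] [CharZero K] [Field F] [Algebra K F]
  {g : ℕ}
variable {L : Type (max u v)} [Field L] [Algebra K L] [Algebra (s27gfOm K F g) L]
  [IsScalarTower K (s27gfOm K F g) L] [IsAlgClosed L]
variable {FL : Type*} [Field FL] [Algebra K FL] [Algebra F FL] [Algebra L FL]
  [IsScalarTower K F FL] [IsScalarTower K L FL]
variable (hld : Function.Injective (s26gspMu K F L FL)) (hgen : S26gspGen K F L FL)
  {t : F} (hx : Transcendental K t) [FiniteDimensional K⟮t⟯ F] [Algebra.IsSeparable K⟮t⟯ F]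

include hx in
/-- `0 < g` ⇒ `L ≠ K`: the image of `t` under a tautological point is not a constant. -/
theorem s27ris_tau (hg : 0 < g) :
    ∃ τ : L, τ ∉ Set.range (algebraMap K L) := by
  refine ⟨s27pfTaut (K := K) (F := F) (g := g) (L := L) ⟨0, hg⟩ t, ?_⟩
  rintro ⟨a, ha⟩
  have h1 : s27pfTaut (K := K) (F := F) (g := g) (L := L) ⟨0, hg⟩ (algebraMap K F a) =
      s27pfTaut (K := K) (F := F) (g := g) (L := L) ⟨0, hg⟩ t := by
    rw [AlgHom.commutes, ha]
  have h2 : algebraMap K F a = t :=
    (s27pfTaut (K := K) (F := F) (g := g) (L := L) ⟨0, hg⟩).toRingHom.injective h1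
  have h3 : IsAlgebraic K t := by
    rw [← h2]
    exact isAlgebraic_algebraMap a
  exact hx h3

variable [Algebra.IsAlgebraic (s27gfOm K F g) L] [IsGalois (s27gfSym K F g) L]
variable (pkg : S27DegPkg K F L t g (Place L FL) (Pic0 L FL))
  (G₀ : Divisor K F)
  (hO : Divisor.degree (Finsupp.mapDomain (s26gspCon hld hgen (s26gspf_hall hx)) G₀) = (g : ℤ))
  (hpt : ∀ e : F →ₐ[K] L, pkg.pt e = s27gpPlace hld hgen e hx)
  (hcl : ∀ R : Fin g → Place L FL, pkg.cl R =
    s27pkgClO (s27pkg_hdeg hld hgen hx)
      (Finsupp.mapDomain (s26gspCon hld hgen (s26gspf_hall hx)) G₀) hO R)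

include hpt hcl in
/-- the class of a `g`-tuple in the package is the class with origin `Con G₀`. -/
theorem s27ris_pfCl (e : Fin g → F →ₐ[K] L) :
    s27pfCl pkg e = s27pkgClO (s27pkg_hdeg hld hgen hx)
      (Finsupp.mapDomain (s26gspCon hld hgen (s26gspf_hall hx)) G₀) hO
      (fun i => s27gpPlace hld hgen (e i) hx) := by
  unfold s27pfCl
  rw [hcl]
  congr 1
  funext i
  exact hpt (e i)

include hpt hcl in
/-- **REP-INST, `θ ≠ 0`**: every injective tuple of points whose class (origin `Con B`) is a multiple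
`j • η` of the generic class has `θ(R; B + Ao) ≠ 0`. -/
theorem s27ris_theta_ne (halg : ∀ f : F, IsAlgebraic (IntermediateField.adjoin K {t}) f)
    {q : ℤ → Fin g → F →ₐ[K] L} (hq : S27pfFam pkg q)
    (Ao : Divisor K F) (hAo : riemannRochSpace Ao = ⊥)
    (f₀ : Module.Basis (Fin g) K ↥(riemannRochSpace (G₀ + Ao)))
    (j : ℤ) {M : ℕ} (B A : Divisor K F) (hA : A = B + Ao)
    (hB : Divisor.degree (Finsupp.mapDomain (s26gspCon hld hgen (s26gspf_hall hx)) B) = (M : ℤ))
    (R : Fin M → F →ₐ[K] L) (hR : Function.Injective R)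
    (hclR : s27pkgClO (s27pkg_hdeg hld hgen hx)
        (Finsupp.mapDomain (s26gspCon hld hgen (s26gspf_hall hx)) B) hB
        (fun i => s27gpPlace hld hgen (R i) hx) =
      j • s27pfCl pkg (s27pfTaut (K := K) (F := F) (g := g) (L := L)))
    (f : Module.Basis (Fin M) K ↥(riemannRochSpace A)) :
    (s27ptValB R f).det ≠ 0 := by
  subst hA
  by_cases hj : j = 0
  · subst hj
    rw [zero_zsmul] at hclR
    exact s27ri_det_ne_zero_class hld hgen hx Ao B hAo hB R hR hclR f
  · have h1 := (hq j hj).2
    rw [s27ris_pfCl hld hgen hx pkg G₀ hO hpt hcl (q j)] at h1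
    have h2 := hclR.trans h1.symm
    refine (s27ri_det_ne_of_class hld hgen hx Ao B G₀ hB hO R (q j) hR
      (s27ris_generic_inj (q j) (hq j hj).1) h2 f f₀).2 ?_
    exact s27ris_theta_pt_basis (q j) (s27pf_fam_pt pkg halg hq j hj).inj _ f₀

include hpt hcl in
/-- **REP-INST, tuples on the stage**: three pairwise disjoint injective `N`-tuples of points of
classes `k • η`, `η`, `−η` with respect to the origin `Con B`, off a given finite set. -/
theorem s27ris_tuples (hg : 0 < g) :
    ∃ N₀ : ℕ, ∀ N : ℕ, N₀ ≤ N → ∀ (B : Divisor K F)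
      (hB : Divisor.degree (Finsupp.mapDomain (s26gspCon hld hgen (s26gspf_hall hx)) B) =
        (N : ℤ))
      (S : Finset (F →ₐ[K] L)) (k : ℤ),
      ∃ R₁ R₂ R₃ : Fin N → (F →ₐ[K] L),
        Function.Injective R₁ ∧ Function.Injective R₂ ∧ Function.Injective R₃ ∧
        (∀ j, R₁ j ∉ S) ∧ (∀ j, R₂ j ∉ S) ∧ (∀ j, R₃ j ∉ S) ∧
        (∀ j j', R₁ j ≠ R₂ j') ∧ (∀ j j', R₁ j ≠ R₃ j') ∧ (∀ j j', R₂ j ≠ R₃ j') ∧
        s27pkgClO (s27pkg_hdeg hld hgen hx)
            (Finsupp.mapDomain (s26gspCon hld hgen (s26gspf_hall hx)) B) hB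
            (fun i => s27gpPlace hld hgen (R₁ i) hx) =
          k • s27pfCl pkg (s27pfTaut (K := K) (F := F) (g := g) (L := L)) ∧
        s27pkgClO (s27pkg_hdeg hld hgen hx)
            (Finsupp.mapDomain (s26gspCon hld hgen (s26gspf_hall hx)) B) hB
            (fun i => s27gpPlace hld hgen (R₂ i) hx) =
          s27pfCl pkg (s27pfTaut (K := K) (F := F) (g := g) (L := L)) ∧
        s27pkgClO (s27pkg_hdeg hld hgen hx)
            (Finsupp.mapDomain (s26gspCon hld hgen (s26gspf_hall hx)) B) hB
            (fun i => s27gpPlace hld hgen (R₃ i) hx) =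
          -s27pfCl pkg (s27pfTaut (K := K) (F := F) (g := g) (L := L)) := by
  obtain ⟨τ, hτ⟩ := s27ris_tau (K := K) (F := F) (g := g) (L := L) hx hg
  obtain ⟨N₀, hN₀⟩ := s27ri_tuples hld hgen hx τ hτ
  refine ⟨N₀, fun N hN B hB S k => ?_⟩
  obtain ⟨R, h1, h2, h3, h4⟩ := hN₀ N hN _ hB
    ![k • s27pfCl pkg (s27pfTaut (K := K) (F := F) (g := g) (L := L)),
      s27pfCl pkg (s27pfTaut (K := K) (F := F) (g := g) (L := L)),
      -s27pfCl pkg (s27pfTaut (K := K) (F := F) (g := g) (L := L))] S
  refine ⟨R 0, R 1, R 2, h1 0, h1 1, h1 2, h2 0, h2 1, h2 2,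
    h3 0 1 (by decide), h3 0 2 (by decide), h3 1 2 (by decide), ?_, ?_, ?_⟩
  · exact h4 0
  · exact h4 1
  · exact h4 2

end Stage

end Fermat.Agent.S27

end
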