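/-
S27-B, leaf **REP-INST** (helper18; hub helper95, for CP-TOP), part C: the deliverables in the
language of `S27/IdxCls.lean` (`s27icCl hld hgen hx R B hB = [Σ pt (R i) − Con B]`), on the stage
(`g = genusFF K F`, `pkg = s27dclPkg hld hgen hx G₀ hG₀`, `η = s27pfCl pkg s27pfTaut`).

* **`s27ric_theta_ne`** : every injective tuple `R` of `M` points, `B` constant of degree `M`, with
      `s27icCl R B hB = j • η` (`j : ℤ` arbitrary): `det [R i (f l)] ≠ 0` for every `K`-basis `f` of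
      `L_K(A)`, `A = B + Ao`.   Inputs: `L_K(Ao) = 0`, a `K`-basis `f₀` of `L_K(G₀ + Ao)`.
* **`s27ric_tuples`**   : `0 < genusFF K F` ⇒ `∃ N₀, ∀ N ≥ N₀, ∀ B` of degree `N`, `S` finite, `k`:
      three injective `N`-tuples `R₁ R₂ R₃`, off `S`, pairwise disjoint, with
      `s27icCl R₁ B hB = k • η`, `s27icCl R₂ B hB = η`, `s27icCl R₃ B hB = −η`.
* **`s27ric_seven`**    : for such tuples (any `k`), the SEVEN determinants are nonzero, in the
      `Fin.append` convention of `S27/IdxClsAdd.lean` (origins `B`, `B + B`, `B + B + B`).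
-/
import Fermat.Agent.S27.RepInstStage
import Fermat.Agent.S27.IdxClsAdd

set_option autoImplicit false
set_option linter.style.haveILetI false
set_option linter.unusedSectionVars false
set_option linter.unusedVariables false

noncomputable section

namespace Fermat.Agent.S27

open AlgebraicCurve Module TensorProduct IntermediateField Fermat.Agent.S26

universe u v y

section Stage

variable {K : Type u} {F : Type v} [Field K] [IsAlgClosed K] [CharZero K] [Field F] [Algebra K F]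
  [IsCurveOver K F] [Algebra.EssFiniteType K F]
  {L : Type (max u v)} [Field L] [Algebra K L]
  [Algebra (s27gfOm K F (genusFF K F)) L] [IsScalarTower K (s27gfOm K F (genusFF K F)) L]
  [IsAlgClosed L] [Algebra.IsAlgebraic (s27gfOm K F (genusFF K F)) L]
  {FL : Type y} [Field FL] [Algebra K FL] [Algebra F FL] [Algebra L FL]
  [IsScalarTower K F FL] [IsScalarTower K L FL]
  (hld : Function.Injective (s26gspMu K F L FL)) (hgen : S26gspGen K F L FL)
  {x : F} (hx : Transcendental K x)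
  [FiniteDimensional ↥(IntermediateField.adjoin K {x}) F]
  [Algebra.IsSeparable ↥(IntermediateField.adjoin K {x}) F]
  [IsGalois (s27gfSym K F (genusFF K F)) L]
  (G₀ : Divisor K F) (hG₀ : Divisor.degree G₀ = (genusFF K F : ℤ))

/-- **REP-INST, `θ ≠ 0`** in the language of `S27/IdxCls.lean`. -/
theorem s27ric_theta_ne {q : ℤ → Fin (genusFF K F) → F →ₐ[K] L}
    (hq : S27pfFam (s27dclPkg hld hgen hx G₀ hG₀) q)
    (Ao : Divisor K F) (hAo : riemannRochSpace Ao = ⊥)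
    (f₀ : Module.Basis (Fin (genusFF K F)) K ↥(riemannRochSpace (G₀ + Ao)))
    (j : ℤ) {M : ℕ} (B A : Divisor K F) (hA : A = B + Ao) (hB : Divisor.degree B = (M : ℤ))
    (R : Fin M → F →ₐ[K] L) (hR : Function.Injective R)
    (hclR : s27icCl hld hgen hx R B hB =
      j • s27pfCl (s27dclPkg hld hgen hx G₀ hG₀)
        (s27pfTaut (K := K) (F := F) (g := genusFF K F) (L := L)))
    (f : Module.Basis (Fin M) K ↥(riemannRochSpace A)) :
    (s27ptValB R f).det ≠ 0 :=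
  s27ris_theta_ne hld hgen hx (s27dclPkg hld hgen hx G₀ hG₀) G₀
    (s27pkgO_degree hld hgen hx G₀ hG₀) (fun _ => rfl) (fun _ => rfl)
    (s27dcl_halg (x := x)) hq Ao hAo f₀ j B A hA (by rw [s26gspc_degree, hB]) R hR hclR f

/-- **REP-INST, tuples** in the language of `S27/IdxCls.lean`. -/
theorem s27ric_tuples (hg : 0 < genusFF K F) :
    ∃ N₀ : ℕ, ∀ N : ℕ, N₀ ≤ N → ∀ (B : Divisor K F) (hB : Divisor.degree B = (N : ℤ))
      (S : Finset (F →ₐ[K] L)) (k : ℤ),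
      ∃ R₁ R₂ R₃ : Fin N → (F →ₐ[K] L),
        Function.Injective R₁ ∧ Function.Injective R₂ ∧ Function.Injective R₃ ∧
        (∀ j, R₁ j ∉ S) ∧ (∀ j, R₂ j ∉ S) ∧ (∀ j, R₃ j ∉ S) ∧
        (∀ j j', R₁ j ≠ R₂ j') ∧ (∀ j j', R₁ j ≠ R₃ j') ∧ (∀ j j', R₂ j ≠ R₃ j') ∧
        s27icCl hld hgen hx R₁ B hB =
          k • s27pfCl (s27dclPkg hld hgen hx G₀ hG₀)
            (s27pfTaut (K := K) (F := F) (g := genusFF K F) (L := L)) ∧
        s27icCl hld hgen hx R₂ B hB =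
          s27pfCl (s27dclPkg hld hgen hx G₀ hG₀)
            (s27pfTaut (K := K) (F := F) (g := genusFF K F) (L := L)) ∧
        s27icCl hld hgen hx R₃ B hB =
          -s27pfCl (s27dclPkg hld hgen hx G₀ hG₀)
            (s27pfTaut (K := K) (F := F) (g := genusFF K F) (L := L)) := by
  obtain ⟨N₀, hN₀⟩ := s27ris_tuples hld hgen hx (s27dclPkg hld hgen hx G₀ hG₀) G₀
    (s27pkgO_degree hld hgen hx G₀ hG₀) (fun _ => rfl) (fun _ => rfl) hg
  refine ⟨N₀, fun N hN B hB S k => ?_⟩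
  exact hN₀ N hN B (by rw [s26gspc_degree, hB]) S k

/-- **REP-INST, the seven determinants**: for three pairwise disjoint injective tuples of classes
`k • η`, `η`, `−η` (origins `B₁`, `B₂`, `B₃`), the determinants `θ` of the seven concatenations are
nonzero (`Fin.append` convention, origins `B₁ + B₂`, …, `B₁ + B₂ + B₃`). -/
theorem s27ric_seven {q : ℤ → Fin (genusFF K F) → F →ₐ[K] L}
    (hq : S27pfFam (s27dclPkg hld hgen hx G₀ hG₀) q)
    (Ao : Divisor K F) (hAo : riemannRochSpace Ao = ⊥)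
    (f₀ : Module.Basis (Fin (genusFF K F)) K ↥(riemannRochSpace (G₀ + Ao)))
    (k : ℤ) {N₁ N₂ N₃ : ℕ} (B₁ B₂ B₃ : Divisor K F)
    (hB₁ : Divisor.degree B₁ = (N₁ : ℤ)) (hB₂ : Divisor.degree B₂ = (N₂ : ℤ))
    (hB₃ : Divisor.degree B₃ = (N₃ : ℤ))
    (R₁ : Fin N₁ → F →ₐ[K] L) (R₂ : Fin N₂ → F →ₐ[K] L) (R₃ : Fin N₃ → F →ₐ[K] L)
    (h₁ : Function.Injective R₁) (h₂ : Function.Injective R₂) (h₃ : Function.Injective R₃)
    (h₁₂ : ∀ i j, R₁ i ≠ R₂ j) (h₁₃ : ∀ i j, R₁ i ≠ R₃ j) (h₂₃ : ∀ i j, R₂ i ≠ R₃ j)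
    (hc₁ : s27icCl hld hgen hx R₁ B₁ hB₁ =
      k • s27pfCl (s27dclPkg hld hgen hx G₀ hG₀)
        (s27pfTaut (K := K) (F := F) (g := genusFF K F) (L := L)))
    (hc₂ : s27icCl hld hgen hx R₂ B₂ hB₂ =
      s27pfCl (s27dclPkg hld hgen hx G₀ hG₀)
        (s27pfTaut (K := K) (F := F) (g := genusFF K F) (L := L)))
    (hc₃ : s27icCl hld hgen hx R₃ B₃ hB₃ =
      -s27pfCl (s27dclPkg hld hgen hx G₀ hG₀)
        (s27pfTaut (K := K) (F := F) (g := genusFF K F) (L := L))) :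
    (∀ f : Module.Basis (Fin N₁) K ↥(riemannRochSpace (B₁ + Ao)), (s27ptValB R₁ f).det ≠ 0) ∧
    (∀ f : Module.Basis (Fin N₂) K ↥(riemannRochSpace (B₂ + Ao)), (s27ptValB R₂ f).det ≠ 0) ∧
    (∀ f : Module.Basis (Fin N₃) K ↥(riemannRochSpace (B₃ + Ao)), (s27ptValB R₃ f).det ≠ 0) ∧
    (∀ f : Module.Basis (Fin (N₁ + N₂)) K ↥(riemannRochSpace (B₁ + B₂ + Ao)),
      (s27ptValB (Fin.append R₁ R₂) f).det ≠ 0) ∧
    (∀ f : Module.Basis (Fin (N₁ + N₃)) K ↥(riemannRochSpace (B₁ + B₃ + Ao)),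
      (s27ptValB (Fin.append R₁ R₃) f).det ≠ 0) ∧
    (∀ f : Module.Basis (Fin (N₂ + N₃)) K ↥(riemannRochSpace (B₂ + B₃ + Ao)),
      (s27ptValB (Fin.append R₂ R₃) f).det ≠ 0) ∧
    (∀ f : Module.Basis (Fin (N₁ + N₂ + N₃)) K ↥(riemannRochSpace (B₁ + B₂ + B₃ + Ao)),
      (s27ptValB (Fin.append (Fin.append R₁ R₂) R₃) f).det ≠ 0) := by
  set η := s27pfCl (s27dclPkg hld hgen hx G₀ hG₀)
    (s27pfTaut (K := K) (F := F) (g := genusFF K F) (L := L)) with hη
  have key := fun (j : ℤ) (M : ℕ) (B : Divisor K F) (hB : Divisor.degree B = (M : ℤ))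
      (R : Fin M → F →ₐ[K] L) (hR : Function.Injective R)
      (hcl : s27icCl hld hgen hx R B hB = j • η)
      (f : Module.Basis (Fin M) K ↥(riemannRochSpace (B + Ao))) =>
    s27ric_theta_ne hld hgen hx G₀ hG₀ hq Ao hAo f₀ j B (B + Ao) rfl hB R hR hcl f
  have h₁₂' : Function.Injective (Fin.append R₁ R₂) := s27pka_append_injective h₁ h₂ h₁₂
  have h₁₃' : Function.Injective (Fin.append R₁ R₃) := s27pka_append_injective h₁ h₃ h₁₃
  have h₂₃' : Function.Injective (Fin.append R₂ R₃) := s27pka_append_injective h₂ h₃ h₂₃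
  have h₁₂₃' : Function.Injective (Fin.append (Fin.append R₁ R₂) R₃) := by
    refine s27pka_append_injective h₁₂' h₃ ?_
    intro i j
    induction i using Fin.addCases with
    | left i => rw [Fin.append_left]; exact h₁₃ i j
    | right i => rw [Fin.append_right]; exact h₂₃ i j
  refine ⟨fun f => key k _ B₁ hB₁ R₁ h₁ hc₁ f,
    fun f => key 1 _ B₂ hB₂ R₂ h₂ (by rw [hc₂, one_zsmul]) f,
    fun f => key (-1) _ B₃ hB₃ R₃ h₃ (by rw [hc₃, neg_zsmul, one_zsmul]) f,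
    fun f => key (k + 1) _ (B₁ + B₂) (s27ica_degree_add hB₁ hB₂) _ h₁₂' ?_ f,
    fun f => key (k - 1) _ (B₁ + B₃) (s27ica_degree_add hB₁ hB₃) _ h₁₃' ?_ f,
    fun f => key 0 _ (B₂ + B₃) (s27ica_degree_add hB₂ hB₃) _ h₂₃' ?_ f,
    fun f => key k _ (B₁ + B₂ + B₃)
      (s27ica_degree_add (s27ica_degree_add hB₁ hB₂) hB₃) _ h₁₂₃' ?_ f⟩
  · rw [s27ica_cl_append hld hgen hx R₁ R₂ B₁ B₂ hB₁ hB₂, hc₁, hc₂, add_zsmul, one_zsmul]
  · rw [s27ica_cl_append hld hgen hx R₁ R₃ B₁ B₃ hB₁ hB₃, hc₁, hc₃, sub_zsmul, one_zsmul]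
  · rw [s27ica_cl_append hld hgen hx R₂ R₃ B₂ B₃ hB₂ hB₃, hc₂, hc₃, zero_zsmul, add_neg_cancel]
  · rw [s27ica_cl_append3 hld hgen hx R₁ R₂ R₃ B₁ B₂ B₃ hB₁ hB₂ hB₃, hc₁, hc₂, hc₃,
      add_neg_cancel_right]

end Stage

end Fermat.Agent.S27

end
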