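/-
S27-B — **CP-TOP, final assembly** (helper18): the input `S27ftCP hx G₀ hG₀ Ao` of the captain's
`s27ft_Stmt` / `s27ft2_Stmt` (S27/FinalTop.lean), UNCONDITIONALLY on the constants
(`Ao` of degree `g − 1` with `L_K(Ao) = 0`, a place `O` of `F / K`, `0 < g`), from

* REP-INST (`s27ric_tuples`, `s27ric_seven`, S27/RepInstIc.lean): three pairwise disjoint injective
  `N`-tuples of points of classes `k • η`, `η`, `−η` (origin `B = N • O`), the seven `θ ≠ 0`;
* LAT-7 + CUBE-ASM (`s27cplat_cp`, helper48, S27/CpLat.lean);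
* the class bookkeeping (`s27ica_idx`, `s27ica_idx_append`, `s27ica_idx_append3`, helper45);
* the bases of `L_K(B_S + Ao)` (`s27rd_exists_basis`, helper51) and a family `q` (`s27mp_exists_fam`).

  `s27cpf_cp : … → S27ftCP hx G₀ hG₀ Ao`.
-/
import Fermat.Agent.S27.RepInstIc
import Fermat.Agent.S27.CpLat
import Fermat.Agent.S27.RR0Dim
import Fermat.Agent.S27.FinalTop

set_option autoImplicit false
set_option linter.style.haveILetI false
set_option linter.unusedSectionVars false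
set_option linter.unusedVariables false

noncomputable section

namespace Fermat.Agent.S27

open AlgebraicCurve Module TensorProduct IntermediateField Fermat.Agent.S26

universe u v

section CP

variable {K : Type u} {F : Type v} [Field K] [Field F] [Algebra K F] [IsAlgClosed K] [CharZero K]
  [IsCurveOver K F] [Algebra.EssFiniteType K F]
variable {x : F} (hx : Transcendental K x)
  [FiniteDimensional ↥(IntermediateField.adjoin K {x}) F]
  [Algebra.IsSeparable ↥(IntermediateField.adjoin K {x}) F]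
  (G₀ : Divisor K F) (hG₀ : Divisor.degree G₀ = (genusFF K F : ℤ))

include hx in
omit [Algebra.IsSeparable ↥(IntermediateField.adjoin K {x}) F] [CharZero K] [IsCurveOver K F]
  [Algebra.EssFiniteType K F] in
/-- the origin `N • O`. -/
theorem s27cpf_origin (O : Place K F) (N : ℕ) :
    0 ≤ (Finsupp.single O (N : ℤ) : Divisor K F) ∧
      Divisor.degree (Finsupp.single O (N : ℤ) : Divisor K F) = (N : ℤ) := by
  refine ⟨?_, ?_⟩
  · intro P
    by_cases hP : O = P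
    · subst hP
      simp
    · simp [hP]
  · rw [Divisor.degree_single, s27rd_deg_eq_one x hx O]
    simp

/-- **CP-TOP**: the input `S27ftCP` of the last statement. -/
theorem s27cpf_cp (hg : 0 < genusFF K F) (Ao : Divisor K F)
    (hAo : riemannRochSpace Ao = ⊥) (hAod : Divisor.degree Ao = (genusFF K F : ℤ) - 1)
    (O : Place K F)
    (f₀ : Module.Basis (Fin (genusFF K F)) K ↥(riemannRochSpace (G₀ + Ao))) :
    S27ftCP hx G₀ hG₀ Ao := by
  intro k hk
  obtain ⟨q, hq⟩ := s27mp_exists_fam (FL := s27mtFL K F) (s27stg_hld K F (s27mtL K F))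
    (s27stg_hgen K F (s27mtL K F)) hx G₀ hG₀
  obtain ⟨N, hN₀⟩ := s27ric_tuples (FL := s27mtFL K F) (s27stg_hld K F (s27mtL K F))
    (s27stg_hgen K F (s27mtL K F)) hx G₀ hG₀ hg
  obtain ⟨hB0, hB⟩ := s27cpf_origin hx O N
  set B : Divisor K F := Finsupp.single O (N : ℤ) with hBdef
  obtain ⟨R₁, R₂, R₃, h1, h2, h3, -, -, -, d12, d13, d23, hc₁, hc₂, hc₃⟩ :=
    hN₀ N le_rfl B hB ∅ k
  have hAo0 : finrank K ↥(riemannRochSpace Ao) = 0 := by
    rw [hAo]
    exact finrank_bot K F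
  have hBB : Divisor.degree (B + B) = ((N + N : ℕ) : ℤ) := s27ica_degree_add hB hB
  have hBBB : Divisor.degree (B + B + B) = ((N + N + N : ℕ) : ℤ) := s27ica_degree_add hBB hB
  obtain ⟨f₁⟩ := s27rd_exists_basis x hx Ao hAod hAo0 B hB0 hB
  obtain ⟨f₁₂⟩ := s27rd_exists_basis x hx Ao hAod hAo0 (B + B) (add_nonneg hB0 hB0) hBB
  obtain ⟨f₁₂₃⟩ := s27rd_exists_basis x hx Ao hAod hAo0 (B + B + B)
    (add_nonneg (add_nonneg hB0 hB0) hB0) hBBB
  obtain ⟨t1, t2, t3, t12, t13, t23, t123⟩ := s27ric_seven (FL := s27mtFL K F)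
    (s27stg_hld K F (s27mtL K F)) (s27stg_hgen K F (s27mtL K F)) hx G₀ hG₀ hq Ao hAo f₀ k
    B B B hB hB hB R₁ R₂ R₃ h1 h2 h3 d12 d13 d23 hc₁ hc₂ hc₃
  refine ⟨_, s27caPhi_ne_zero (t1 f₁) (t2 f₁) (t3 f₁) (t12 f₁₂) (t13 f₁₂) (t23 f₁₂) (t123 f₁₂₃),
    s27cplat_cp (s27ftIdx hx Ao) (k • s27ftEta hx G₀ hG₀) (s27ftEta hx G₀ hG₀) R₁ R₂ R₃
      h1 h2 h3 d12 d13 d23 Ao B B B f₁ f₁ f₁ f₁₂ f₁₂ f₁₂ f₁₂₃ (t12 f₁₂) (t13 f₁₂) (t23 f₁₂)
      ?_ ?_ ?_ ?_ ?_ ?_ ?_⟩
  · intro W hW y hy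
    exact s27ica_idx _ _ hx Ao W h1 hB hc₁ hy
  · intro W hW y hy
    exact s27ica_idx _ _ hx Ao W h2 hB hc₂ hy
  · intro W hW y hy
    exact s27ica_idx _ _ hx Ao W h3 hB hc₃ hy
  · intro W hW y hy
    exact s27ica_idx_append _ _ hx Ao W h1 h2 d12 hB hB hc₁ hc₂ hy
  · intro W hW y hy
    have := s27ica_idx_append _ _ hx Ao W h1 h3 d13 hB hB hc₁ hc₃ hy
    rwa [← sub_eq_add_neg] at this
  · intro W hW y hy
    have := s27ica_idx_append _ _ hx Ao W h2 h3 d23 hB hB hc₂ hc₃ hy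
    rwa [add_neg_cancel] at this
  · intro W hW y hy
    have := s27ica_idx_append3 _ _ hx Ao W h1 h2 h3 d12 d13 d23 hB hB hB hc₁ hc₂ hc₃ hy
    rwa [add_neg_cancel_right] at this

end CP

end Fermat.Agent.S27

end
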