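/-
S27 route B, geometry leaf BETA concrete (helper19), part 4: **the generic points are pairwise
distinct and are separated by every non-constant function**; the Newton family `a · t ^ j` has a
nonzero determinant of values at the generic points.  (Inputs of LAT-EX for `R = ι`.)

* `s27betas_li_pow`    : `t` transcendental, `a ≠ 0` ⇒ `(a · t ^ j)_{j < g}` is `K`-linearly independent;
* **`s27betas_det_ne`** : `det [ι_i (a · t ^ j)] ≠ 0`;
* **`s27betas_sep`**    : `i ≠ j → ι_i t ≠ ι_j t` (`t` transcendental over `K`);
* `s27betas_pt_injective` : the generic points are pairwise distinct (as soon as `F ≠ K` has a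
                         transcendental element).
-/
import Fermat.Agent.S27.BetaTheta

set_option autoImplicit false
set_option linter.unusedSectionVars false

noncomputable section

namespace Fermat.Agent.S27

open AlgebraicCurve Fermat.Agent.S26 Polynomial

universe u v

section LI

variable {K : Type u} {F : Type v} [Field K] [Field F] [Algebra K F]

/-- the powers of a transcendental element, times a nonzero element, are linearly independent. -/
theorem s27betas_li_pow (g : ℕ) {t : F} (ht : Transcendental K t) {a : F} (ha : a ≠ 0) :
    LinearIndependent K (fun j : Fin g => a * t ^ (j : ℕ)) := by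
  have h1 : LinearIndependent K (fun n : ℕ => (monomial n (1 : K) : K[X])) := by
    have := (Polynomial.basisMonomials K).linearIndependent
    rwa [Polynomial.coe_basisMonomials] at this
  have h2 : LinearIndependent K (fun j : Fin g => (monomial (j : ℕ) (1 : K) : K[X])) :=
    h1.comp _ Fin.val_injective
  have hinj : Function.Injective (Polynomial.aeval (R := K) t) :=
    transcendental_iff_injective.1 ht
  have h3 : LinearIndependent K
      (fun j : Fin g => (Polynomial.aeval (R := K) t).toLinearMap
        (monomial (j : ℕ) (1 : K) : K[X])) :=
    h2.map' _ (LinearMap.ker_eq_bot.2 hinj)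
  have h4 : LinearIndependent K
      (fun j : Fin g => (LinearMap.mulLeft K a)
        ((Polynomial.aeval (R := K) t).toLinearMap (monomial (j : ℕ) (1 : K) : K[X]))) := by
    refine h3.map' _ (LinearMap.ker_eq_bot.2 ?_)
    intro x y hxy
    exact mul_left_cancel₀ ha hxy
  have h5 : (fun j : Fin g => (LinearMap.mulLeft K a)
        ((Polynomial.aeval (R := K) t).toLinearMap (monomial (j : ℕ) (1 : K) : K[X]))) =
      fun j : Fin g => a * t ^ (j : ℕ) := by
    funext j
    show a * Polynomial.aeval t (monomial (j : ℕ) (1 : K)) = a * t ^ (j : ℕ)
    rw [Polynomial.aeval_monomial, map_one, one_mul]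
  rw [h5] at h4
  exact h4

end LI

section Model

variable {K : Type u} {F : Type v} [Field K] [IsAlgClosed K] [Field F] [Algebra K F] {g : ℕ}

/-- **the Newton family `a · t ^ j` has a nonzero determinant of values at the generic points.** -/
theorem s27betas_det_ne {t : F} (ht : Transcendental K t) {a : F} (ha : a ≠ 0) :
    (s27ptVal (s27betaPt K F g) (fun j : Fin g => a * t ^ (j : ℕ))).det ≠ 0 :=
  s27betat_det_ne_zero _ (s27betas_li_pow g ht ha)

/-- **a non-constant function separates the generic points.** -/
theorem s27betas_sep {t : F} (ht : Transcendental K t) {i j : Fin g} (hij : i ≠ j) :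
    s27gfIota (K := K) (F := F) (g := g) i t ≠ s27gfIota j t := by
  intro h
  refine s27betas_det_ne (g := g) ht (one_ne_zero (α := F)) ?_
  refine Matrix.det_zero_of_row_eq hij ?_
  funext l
  show s27gfIota i (1 * t ^ (l : ℕ)) = s27gfIota j (1 * t ^ (l : ℕ))
  rw [one_mul, map_pow, map_pow, h]

/-- the generic points are pairwise distinct. -/
theorem s27betas_pt_injective {t : F} (ht : Transcendental K t) :
    Function.Injective (s27betaPt K F g) := by
  intro i j h
  by_contra hij
  refine s27betas_sep ht hij ?_
  have := congrArg (fun R : F →ₐ[K] s27gfOm K F g => R t) h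
  exact this

end Model

end Fermat.Agent.S27

end
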