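/-
S27-B — FIT, input (LAT-EX) of `s27ft_Stmt` (captain helper77): DISCHARGED.

`s27flx_latEx : S27ftLatEx K F A'` for EVERY constant divisor `A'`, from helper50's unconditional
`s27eil_exists` (LAT-EX for every adapted pair + AD-EX of helper6) and helper19's
`s27betas_pt_injective` (the generic points are pairwise distinct).
-/
import Fermat.Agent.S27.FinalTop
import Fermat.Agent.S27.EffInstLat
import Fermat.Agent.S27.BetaSep

set_option autoImplicit false
set_option linter.unusedVariables false
set_option linter.unusedSectionVars false

noncomputable section

namespace Fermat.Agent.S27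

open AlgebraicCurve Module IntermediateField

universe u v

/-- **(LAT-EX), input of `s27ft_Stmt`: closed.** -/
theorem s27flx_latEx (K : Type u) (F : Type v) [Field K] [Field F] [Algebra K F] [IsAlgClosed K]
    [CharZero K] [IsCurveOver K F] [Algebra.EssFiniteType K F] {x : F}
    (hx : Transcendental K x) (A' : Divisor K F) : S27ftLatEx K F A' := fun W hW =>
  s27eil_exists W hW (s27betaPt K F (genusFF K F)) (s27betas_pt_injective hx) A'

end Fermat.Agent.S27

end
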