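/-
S27-B — FINAL-TOP2 (captain helper77): the same as FinalTop.lean with the GROW input in its most
flexible form (whatever the GROW owners prove fits):

  `S27ftGrow hx G₀ hG₀ A' q hq` := for all `e > 0`, `Φ ≠ 0`: (the cube at `k = 1` with `e`, `Φ`, literal
        clause of `s27mt_Stmt`) → `S27IsGrow K (B 1 · B (−1)) g`,
        `B = s27indB (s27pfPsi pkg halg hq) (s27beta A')`.
  `s27ft2_Stmt` := (CONST) ∧ (LE-TOP) `S27ftLE` ∧ (CP-TOP) `S27ftCP` ∧ ∀ q hq, `S27ftGrow`.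
  `s27ft2_main : s27ft2_Stmt → s27mt_Stmt`,  `s27ft2_result : s27ft2_Stmt → s27_Stmt` (frozen S27).
  `s27ft2_grow_of_poleDiv : S27ftPoleDiv … → S27ftGrow …` (so FinalTop's input is a special case).
(LAT-EX) is already discharged (`s27flx_latEx`).
-/
import Fermat.Agent.S27.FinalTop
import Fermat.Agent.S27.FitLatEx

set_option autoImplicit false
set_option linter.unusedVariables false
set_option linter.unusedSectionVars false
set_option linter.style.haveILetI false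

noncomputable section

namespace Fermat.Agent.S27

open AlgebraicCurve Module TensorProduct IntermediateField Fermat.Agent.S26

universe u v

section Inputs

variable {K : Type u} {F : Type v} [Field K] [Field F] [Algebra K F] [IsAlgClosed K] [CharZero K]
  [IsCurveOver K F] [Algebra.EssFiniteType K F]
variable {x : F} (hx : Transcendental K x)
  [FiniteDimensional ↥(IntermediateField.adjoin K {x}) F]
  [Algebra.IsSeparable ↥(IntermediateField.adjoin K {x}) F]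
  (G₀ : Divisor K F) (hG₀ : Divisor.degree G₀ = (genusFF K F : ℤ))

/-- (GROW) for the family `q`, given the cube at `k = 1`. -/
def S27ftGrow (A' : Divisor K F)
    (q : ℤ → Fin (genusFF K F) → F →ₐ[K] s27mtL K F) (hq : S27pfFam (s27ftPkg hx G₀ hG₀) q) :
    Prop :=
  ∀ (e : ℕ), 0 < e → ∀ Φ : s27gfSym K F (genusFF K F), Φ ≠ 0 →
    (∀ V, S27IsKValU K V → ∃ u, S27IsUnitIn V u ∧
      (s27indB (s27pfPsi (s27ftPkg hx G₀ hG₀) (s27dcl_halg (x := x)) hq)
            (s27beta (g := genusFF K F) A') (1 + 1) V *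
          s27indB (s27pfPsi (s27ftPkg hx G₀ hG₀) (s27dcl_halg (x := x)) hq)
            (s27beta (g := genusFF K F) A') (1 - 1) V) ^ e =
        u * Φ * (s27indB (s27pfPsi (s27ftPkg hx G₀ hG₀) (s27dcl_halg (x := x)) hq)
            (s27beta (g := genusFF K F) A') 1 V ^ 2 *
          s27indB (s27pfPsi (s27ftPkg hx G₀ hG₀) (s27dcl_halg (x := x)) hq)
            (s27beta (g := genusFF K F) A') 1 V *
          s27indB (s27pfPsi (s27ftPkg hx G₀ hG₀) (s27dcl_halg (x := x)) hq)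
            (s27beta (g := genusFF K F) A') (-1) V) ^ e) →
    S27IsGrow K (fun V =>
      s27indB (s27pfPsi (s27ftPkg hx G₀ hG₀) (s27dcl_halg (x := x)) hq)
          (s27beta (g := genusFF K F) A') 1 V *
        s27indB (s27pfPsi (s27ftPkg hx G₀ hG₀) (s27dcl_halg (x := x)) hq)
          (s27beta (g := genusFF K F) A') (-1) V) (genusFF K F)

/-- the POLE-DIV input of FinalTop.lean gives (GROW). -/
theorem s27ft2_grow_of_poleDiv (hg : 0 < genusFF K F) (A' B₁ : Divisor K F) (hAB : A' ≤ B₁)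
    (hB₁ : 0 ≤ B₁) (f₀ : Module.Basis (Fin (genusFF K F)) K ↥(riemannRochSpace A'))
    (q : ℤ → Fin (genusFF K F) → F →ₐ[K] s27mtL K F) (hq : S27pfFam (s27ftPkg hx G₀ hG₀) q)
    (h : S27ftPoleDiv hx G₀ hG₀ A' q hq) : S27ftGrow hx G₀ hG₀ A' q hq := by
  intro e he Φ hΦ hcube
  obtain ⟨t, ht, halgt, c₀, hdiv⟩ := h
  obtain ⟨bne, bmem, bidx⟩ := s27betat_main (g := genusFF K F) A' f₀ (s27flx_latEx K F hx A')
  haveI : Algebra.EssFiniteType K (s27gfSym K F (genusFF K F)) := s27dfg_sym (genusFF K F)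
  exact s27grb_isGrow hg (s27pfPsi (s27ftPkg hx G₀ hG₀) (s27dcl_halg (x := x)) hq)
    (s27beta (g := genusFF K F) A') bne bmem hx A' B₁ hAB hB₁ f₀ bidx e he Φ hΦ hcube
    (s27dgf_finite (s27pfPsi (s27ftPkg hx G₀ hG₀) (s27dcl_halg (x := x)) hq 2)) t ht halgt c₀ hdiv

end Inputs

/-- **THE FOUR INPUTS LEFT** (LAT-EX is closed). -/
def s27ft2_Stmt : Prop :=
  ∀ (K : Type u) (F : Type v) [Field K] [Field F] [Algebra K F] [IsAlgClosed K] [CharZero K]
    [IsCurveOver K F] [Algebra.EssFiniteType K F], 0 < genusFF K F →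
    ∃ (x : F) (hx : Transcendental K x) (_ : FiniteDimensional ↥(IntermediateField.adjoin K {x}) F)
      (_ : Algebra.IsSeparable ↥(IntermediateField.adjoin K {x}) F)
      (G₀ : Divisor K F) (hG₀ : Divisor.degree G₀ = (genusFF K F : ℤ)) (Ao : Divisor K F),
      Module.finrank K ↥(riemannRochSpace (G₀ + Ao)) = genusFF K F ∧
      S27ftLE hx Ao ∧ S27ftCP hx G₀ hG₀ Ao ∧
      ∀ (q : ℤ → Fin (genusFF K F) → F →ₐ[K] s27mtL K F)
        (hq : S27pfFam (s27ftPkg hx G₀ hG₀) q), S27ftGrow hx G₀ hG₀ (G₀ + Ao) q hq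

/-- **FINAL-TOP2**: the four inputs ⇒ CRUX + GROW on the stage. -/
theorem s27ft2_main (h : s27ft2_Stmt.{u, v}) : s27mt_Stmt.{u, v} := by
  intro K F _ _ _ _ _ _ _ hg
  obtain ⟨x, hx, hfin, hsep, G₀, hG₀, Ao, hl, hLE, hCP, hGR⟩ := h K F hg
  refine ⟨x, hx, hfin, hsep, G₀, hG₀, fun q hq n hn => ?_⟩
  have hpos : 0 < Module.finrank K ↥(riemannRochSpace (G₀ + Ao)) := by rw [hl]; exact hg
  haveI : Module.Finite K ↥(riemannRochSpace (G₀ + Ao)) := Module.finite_of_finrank_pos hpos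
  let f₀ : Module.Basis (Fin (genusFF K F)) K ↥(riemannRochSpace (G₀ + Ao)) :=
    Module.finBasisOfFinrankEq K _ hl
  choose Φ hΦ hcp using hCP
  have hrange : ∀ (m : ℕ) (k : ℤ), k ∈ s27indbRange m → k ≠ 0 := fun m k hk =>
    (s27indb_mem_range.1 hk).1
  have hlat := s27flx_latEx K F hx (G₀ + Ao)
  obtain ⟨bne, bmem, bidx⟩ := s27betat_main (g := genusFF K F) (G₀ + Ao) f₀ hlat
  have hβ : S27pnBeta (L := s27mtL K F)
      (s27pnTaut (K := K) (F := F) (g := genusFF K F) (L := s27mtL K F)) (G₀ + Ao)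
      (s27beta (g := genusFF K F) (G₀ + Ao)) := s27pn_beta_main s27betac_conj (G₀ + Ao) f₀ hlat
  have hIdx : ∀ k : ℤ, k ≠ 0 → ∀ W : ValuationSubring (s27mtL K F), S27IsKValU K W →
      ∀ y : s27mtL K F, S27ptIsIdx W (q k) (G₀ + Ao) y →
        s27ftIdx hx Ao W (k • s27ftEta hx G₀ hG₀) y :=
    fun k hk W hW y hy => s27ic_hIdx (FL := s27mtFL K F) (s27stg_hld K F (s27mtL K F))
      (s27stg_hgen K F (s27mtL K F)) hx G₀ hG₀ hq Ao k hk W hW y hy
  set Φ' : ℤ → s27mtL K F := fun k => if hk : k = 0 then 1 else Φ k hk with hΦ'def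
  have hΦ' : ∀ k : ℤ, k ≠ 0 → Φ' k ≠ 0 := fun k hk => by
    rw [hΦ'def]; simp only [dif_neg hk]; exact hΦ k hk
  have hcp' : ∀ k : ℤ, k ≠ 0 →
      S27ckCP K (s27ftIdx hx Ao) (k • s27ftEta hx G₀ hG₀) (s27ftEta hx G₀ hG₀) (Φ' k) :=
    fun k hk => by rw [hΦ'def]; simp only [dif_neg hk]; exact hcp k hk
  obtain ⟨he, hΦn, hcube⟩ := s27mc_cube (s27ftPkg hx G₀ hG₀) (s27dcl_halg (x := x)) hq (G₀ + Ao)
    (s27beta (g := genusFF K F) (G₀ + Ao)) hβ (s27ftIdx hx Ao) (s27ftEta hx G₀ hG₀) hLE hIdx n Φ'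
    (fun k hk => hΦ' k (hrange n k hk)) (fun k hk => hcp' k (hrange n k hk))
  obtain ⟨he2, hΦ2, hcube2⟩ := s27mc_cube (s27ftPkg hx G₀ hG₀) (s27dcl_halg (x := x)) hq (G₀ + Ao)
    (s27beta (g := genusFF K F) (G₀ + Ao)) hβ (s27ftIdx hx Ao) (s27ftEta hx G₀ hG₀) hLE hIdx 2 Φ'
    (fun k hk => hΦ' k (hrange 2 k hk)) (fun k hk => hcp' k (hrange 2 k hk))
  refine ⟨s27beta (g := genusFF K F) (G₀ + Ao),
    fun k => s27nmE (s27gfSym K F (genusFF K F)) (Φ' k)⁻¹,
    fun k => s27nmPhi (s27gfSym K F (genusFF K F)) (Φ' k)⁻¹, bne, bmem, he, hΦn, hcube, ?_⟩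
  exact hGR q hq _ (he2 1 s27fc_one_mem_range) _ (hΦ2 1 s27fc_one_mem_range)
    (hcube2 1 s27fc_one_mem_range)

/-- **the four inputs ⇒ the frozen S27.** -/
theorem s27ft2_result (h : s27ft2_Stmt.{u, v}) : s27_Stmt.{u, v} :=
  s27mt_main (s27ft2_main h)

end Fermat.Agent.S27

end
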