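/-
S27-B, piece DOM (helper86), part MODEL: **DOM on the model**, in the shapes consumed by
PSI-FAM-EX (`s27pfx_exists`, helper15) and DEG-CLOSED (`s27dcl_isDeg`, helper18).

Setting of `S27/DegClosed.lean`: `K` algebraically closed of characteristic `0`, `F / K` a curve,
`g = genusFF K F`, `L` an algebraic closure of `Ω_g = s27gfOm K F g`, `FL = Frac (F ⊗[K] L)`
(`hld`, `hgen`), `x ∈ F` separating, `G₀` a divisor of degree `g` of `F / K` (the origin),
`pkg = s27dclPkg hld hgen hx G₀ hG₀`, `p = s27pfTaut` the tautological points.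

* `s27dom_taut_generic` : `p` is generic;
* `s27dom_modelZ` : for every `k ≠ 0` there is a generic `q` with `cl (pt ∘ q) = k • cl (pt ∘ p)`;
* `s27dom_model`  : the hypothesis `hDOM` of `s27pfx_exists` / `s27pfx_exists_with`;
* `s27dom_fam`    : `∃ q, S27pfFam pkg q`  (no GS needed);
* `s27dom_fam_isDeg` : for such a family, `S27IsDeg K (s27psi (q n) _) #Pic0(F)[n]` (`n ≥ 1`).
-/
import Mathlib
import Fermat.Agent.S27.DomZ
import Fermat.Agent.S27.DegClosed
import Fermat.Agent.S27.PsiFamEx

set_option autoImplicit false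
set_option linter.unusedVariables false
set_option linter.unusedSectionVars false
set_option linter.style.haveILetI false

noncomputable section

namespace Fermat.Agent.S27

open AlgebraicCurve Module TensorProduct IntermediateField Fermat.Agent.S26

universe u v y

section Model

variable {K : Type u} {F : Type v} [Field K] [IsAlgClosed K] [CharZero K] [Field F] [Algebra K F]
  [IsCurveOver K F] [Algebra.EssFiniteType K F]
  {L : Type (max u v)} [Field L] [Algebra K L]
  [Algebra (s27gfOm K F (genusFF K F)) L] [IsScalarTower K (s27gfOm K F (genusFF K F)) L]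
  [IsAlgClosed L] [Algebra.IsAlgebraic (s27gfOm K F (genusFF K F)) L]
  {FL : Type y} [Field FL] [Algebra K FL] [Algebra F FL] [Algebra L FL]
  [IsScalarTower K F FL] [IsScalarTower K L FL]
  (hld : Function.Injective (s26gspMu K F L FL)) (hgen : S26gspGen K F L FL)
  {x : F} (hx : Transcendental K x)
  [FiniteDimensional ↥(IntermediateField.adjoin K {x}) F]
  [Algebra.IsSeparable ↥(IntermediateField.adjoin K {x}) F]

include hx in
/-- the tautological points are generic. -/
theorem s27dom_taut_generic :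
    S27dgGeneric K x (s27pfTaut (K := K) (F := F) (g := genusFF K F) (L := L)) := by
  unfold S27dgGeneric
  have hinj : Function.Injective (IsScalarTower.toAlgHom K (s27gfOm K F (genusFF K F)) L) :=
    (algebraMap (s27gfOm K F (genusFF K F)) L).injective
  exact AlgebraicIndependent.map' (s27dclFld (L := L) hx).ι_gen hinj

/-- **DOM on the model**: for every `k ≠ 0` the class `k • cl (pt ∘ p)` is the class of a generic
tuple of points. -/
theorem s27dom_modelZ (G₀ : Divisor K F) (hG₀ : Divisor.degree G₀ = (genusFF K F : ℤ))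
    (k : ℤ) (hk : k ≠ 0) :
    ∃ q : Fin (genusFF K F) → F →ₐ[K] L, S27dgGeneric K x q ∧
      s27pfCl (s27dclPkg hld hgen hx G₀ hG₀) q =
        k • s27pfCl (s27dclPkg hld hgen hx G₀ hG₀)
          (s27pfTaut (K := K) (F := F) (g := genusFF K F) (L := L)) := by
  obtain ⟨q, hq, h⟩ := s27dom_pkgOZ hld hgen hx (s27dwAct hld hgen) G₀ hG₀
    (s27dcl_hns hld hgen hx) (s27pfTaut (K := K) (F := F) (g := genusFF K F) (L := L))
    (s27dom_taut_generic hx) k hk
  exact ⟨q, hq, h.symm⟩

/-- **`hDOM` of `s27pfx_exists`**. -/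
theorem s27dom_model (G₀ : Divisor K F) (hG₀ : Divisor.degree G₀ = (genusFF K F : ℤ)) :
    ∀ n : ℕ, 0 < n → ∃ q : Fin (genusFF K F) → F →ₐ[K] L, S27dgGeneric K x q ∧
      (n : ℤ) • s27pfCl (s27dclPkg hld hgen hx G₀ hG₀)
          (s27pfTaut (K := K) (F := F) (g := genusFF K F) (L := L))
        = s27pfCl (s27dclPkg hld hgen hx G₀ hG₀) q := by
  intro n hn
  obtain ⟨q, hq, h⟩ := s27dom_modelZ hld hgen hx G₀ hG₀ (n : ℤ) (by exact_mod_cast hn.ne')
  exact ⟨q, hq, h.symm⟩

/-- **the family of generic tuples exists**. -/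
theorem s27dom_fam (G₀ : Divisor K F) (hG₀ : Divisor.degree G₀ = (genusFF K F : ℤ)) :
    ∃ q : ℤ → Fin (genusFF K F) → F →ₐ[K] L, S27pfFam (s27dclPkg hld hgen hx G₀ hG₀) q := by
  classical
  have hex : ∀ k : ℤ, ∃ q : Fin (genusFF K F) → F →ₐ[K] L, k ≠ 0 → S27dgGeneric K x q ∧
      s27pfCl (s27dclPkg hld hgen hx G₀ hG₀) q =
        k • s27pfCl (s27dclPkg hld hgen hx G₀ hG₀)
          (s27pfTaut (K := K) (F := F) (g := genusFF K F) (L := L)) := by
    intro k
    by_cases hk : k = 0
    · exact ⟨s27pfTaut (K := K) (F := F) (g := genusFF K F) (L := L), fun h => absurd hk h⟩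
    · obtain ⟨q, hq⟩ := s27dom_modelZ hld hgen hx G₀ hG₀ k hk
      exact ⟨q, fun _ => hq⟩
  choose q hq using hex
  exact ⟨q, fun k hk => hq k hk⟩

/-- **DEG for a member of the family**: `𝔉 / ψ_n 𝔉` is finite of degree `#Pic0(F)[n]`. -/
theorem s27dom_fam_isDeg (G₀ : Divisor K F) (hG₀ : Divisor.degree G₀ = (genusFF K F : ℤ))
    [IsGalois (s27gfSym K F (genusFF K F)) L]
    (q : ℤ → Fin (genusFF K F) → F →ₐ[K] L) (hq : S27pfFam (s27dclPkg hld hgen hx G₀ hG₀) q)
    (n : ℕ) (hn : 0 < n) (hqpt : S27PsiPt (q n)) :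
    S27IsDeg K (s27psi (q n) hqpt) (Nat.card (Pic0.torsion K F n)) ∧
      Finite (Pic0.torsion L FL n) := by
  have hn0 : (n : ℤ) ≠ 0 := by exact_mod_cast hn.ne'
  exact s27dcl_isDeg hld hgen hx G₀ hG₀ n (q n) (hq n hn0).1 hqpt (hq n hn0).2.symm

end Model

end Fermat.Agent.S27

end
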