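/-
S27-B, piece DOM (helper86), part DISJ: **the generic tuple of class `k • η` (`k ≠ 0, 1`) has no
point in common with the tautological tuple**.

Setting of `S27/DomZ.lean`.

* `s27dom_prin_of_clO` : `cl_O R' = k • cl_O R` ⇒ `k • Σ R − Σ R' + (O − k • O)` is principal;
* `s27dom_disj_app`  : divisor form: `k • Σ pt (e i) − Σ pt (q j) + C` principal, `e`, `q` generic,
  `k ≠ 0, 1`, `C` without point places ⇒ `∀ i j, e i ≠ q j`;
* `s27dom_disj_clO`  : class form, arbitrary origin;
* `s27dom_disj_model`: on the model (`pkg = s27dclPkg …`, `p = s27pfTaut`);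
* `s27dom_disj_fam`  : for a family `S27pfFam pkg q`: `q k j ≠ p i` for `k ≠ 0, 1`.

Proof: `s27dom_final` with `N' = K(q j x : q j ∉ {e i})`: `ord_{P i} h ∈ {k, k − 1}` is `≠ 0`,
the other zeros and poles are constant places or `pt (q j)` with `q j ∉ {e i}`; so all the
`e i x` are algebraic over `N'`, and TRDEG shows that no `q j` is an `e i`.
-/
import Mathlib
import Fermat.Agent.S27.DomModel

set_option autoImplicit false
set_option linter.unusedVariables false
set_option linter.unusedSectionVars false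
set_option linter.style.haveILetI false

noncomputable section

namespace Fermat.Agent.S27

open AlgebraicCurve TensorProduct Fermat.Agent.S26 Fermat.Agent.S24

section DomDisj

variable {K 𝔠 𝔎 Ω : Type*} [Field K] [Field 𝔠] [Field 𝔎] [Field Ω]
  [Algebra K 𝔠] [Algebra K 𝔎] [Algebra K Ω] [Algebra 𝔠 Ω] [Algebra 𝔎 Ω]
  [IsScalarTower K 𝔠 Ω] [IsScalarTower K 𝔎 Ω]

/-- a class equality `cl_O R' = k • cl_O R` as a principal divisor. -/
theorem s27dom_prin_of_clO {g : ℕ} (hdeg : ∀ w : Place 𝔎 Ω, w.deg = 1) (O : Divisor 𝔎 Ω)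
    (hO : Divisor.degree O = g) (R R' : Fin g → Place 𝔎 Ω) (k : ℤ)
    (hR' : s27pkgClO hdeg O hO R' = k • s27pkgClO hdeg O hO R) :
    Divisor.IsPrincipal (k • ∑ i, Finsupp.single (R i) (1 : ℤ)
        - ∑ j, Finsupp.single (R' j) (1 : ℤ) + (O - k • O)) := by
  have hmk : k • s27pkgClO hdeg O hO R = Pic0.mk (k • s27pkgDivZeroO hdeg O hO R) := rfl
  rw [hmk] at hR'
  unfold s27pkgClO at hR'
  obtain ⟨f, hf, hfv⟩ := (s27pkg_mk_eq_iff _ _).1 hR'
  have hfv' : ∀ v : Place 𝔎 Ω, v.ord f =
      (∑ j, Finsupp.single (R' j) (1 : ℤ)) v - O v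
        - k * ((∑ i, Finsupp.single (R i) (1 : ℤ)) v - O v) := by
    intro v
    have h1 := hfv v
    have h2 : ((s27pkgDivZeroO hdeg O hO R' : Divisor.degZero (K := 𝔎) (F := Ω)) :
        Divisor 𝔎 Ω) v = (∑ j, Finsupp.single (R' j) (1 : ℤ)) v - O v := by
      rw [s27pkgDivZeroO_coe, Finsupp.sub_apply]; rfl
    have h3 : ((k • s27pkgDivZeroO hdeg O hO R :
        Divisor.degZero (K := 𝔎) (F := Ω)) : Divisor 𝔎 Ω) v
        = k * ((∑ i, Finsupp.single (R i) (1 : ℤ)) v - O v) := by
      show (k • (s27pkgSum R - O)) v = _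
      rw [Finsupp.smul_apply, Finsupp.sub_apply, smul_eq_mul]; rfl
    rw [h2, h3] at h1
    omega
  refine ⟨f⁻¹, inv_ne_zero hf, fun v => ?_⟩
  rw [Place.ord_inv, hfv' v]
  simp only [Finsupp.coe_add, Finsupp.coe_sub, Finsupp.coe_smul, Pi.add_apply, Pi.sub_apply,
    Pi.smul_apply, smul_eq_mul]
  ring

variable (hld : Function.Injective (s26gspMu K 𝔠 𝔎 Ω)) (hgen : S26gspGen K 𝔠 𝔎 Ω)
  (hall : ∀ P : Place K 𝔠, Function.Surjective (algebraMap K P.ResidueField))
  {x : 𝔠} (hx : Transcendental K x)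
  [FiniteDimensional ↥(IntermediateField.adjoin K {x}) 𝔠]
  [Algebra.IsSeparable ↥(IntermediateField.adjoin K {x}) 𝔠]

include hall in
/-- **DISJ, divisor form.** -/
theorem s27dom_disj_app [CharZero K] [IsAlgClosed 𝔎] {g : ℕ} (e : Fin g → 𝔠 →ₐ[K] 𝔎)
    (he : AlgebraicIndependent K (fun i => e i x))
    (hns : ∀ f : Ω,
      (∀ w : Place 𝔎 Ω, (∀ i, w ≠ s27gpPlace hld hgen (e i) hx) → f ∈ w.toValuationSubring) →
      (∀ i, f * (algebraMap 𝔠 Ω x - algebraMap 𝔎 Ω (e i x)) ∈
        (s27gpPlace hld hgen (e i) hx).toValuationSubring) →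
      ∃ a : 𝔎, f = algebraMap 𝔎 Ω a)
    (k : ℤ) (hk0 : k ≠ 0) (hk1 : k ≠ 1) (q : Fin g → 𝔠 →ₐ[K] 𝔎)
    (hq : AlgebraicIndependent K (fun j => q j x)) (C : Divisor 𝔎 Ω)
    (hC : ∀ p : 𝔠 →ₐ[K] 𝔎, C (s27gpPlace hld hgen p hx) = 0)
    (hprin : Divisor.IsPrincipal (k • ∑ i, Finsupp.single (s27gpPlace hld hgen (e i) hx) (1 : ℤ)
      - ∑ j, Finsupp.single (s27gpPlace hld hgen (q j) hx) (1 : ℤ) + C)) :
    ∀ i j, e i ≠ q j := by
  classical
  have hres : ∀ w : Place 𝔎 Ω, Function.Surjective (algebraMap 𝔎 w.ResidueField) :=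
    fun w => s27pt_hres hld hgen hx w
  have heinj : Function.Injective e := by
    intro i j hij
    exact he.injective (show e i x = e j x by rw [hij])
  have hqinj : Function.Injective q := by
    intro i j hij
    exact hq.injective (show q i x = q j x by rw [hij])
  have hPinj : Function.Injective (fun i => s27gpPlace hld hgen (e i) hx) := fun i j hij =>
    heinj (s27pt_gpPlace_injective hld hgen hx hij)
  have hQinj : Function.Injective (fun j => s27gpPlace hld hgen (q j) hx) := fun i j hij =>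
    hqinj (s27pt_gpPlace_injective hld hgen hx hij)
  obtain ⟨h, hh, hD⟩ := hprin
  have hDw : ∀ w : Place 𝔎 Ω, w.ord h =
      k * (∑ i, Finsupp.single (s27gpPlace hld hgen (e i) hx) (1 : ℤ)) w
        - (∑ j, Finsupp.single (s27gpPlace hld hgen (q j) hx) (1 : ℤ)) w + C w := by
    intro w
    rw [← hD w]
    simp only [Finsupp.coe_add, Finsupp.coe_sub, Finsupp.coe_smul, Pi.add_apply, Pi.sub_apply,
      Pi.smul_apply, smul_eq_mul]
  -- the value of `Σ Q` is `0` or `1`
  have hB : ∀ w : Place 𝔎 Ω,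
      (∑ j, Finsupp.single (s27gpPlace hld hgen (q j) hx) (1 : ℤ)) w = 0 ∨
      (∑ j, Finsupp.single (s27gpPlace hld hgen (q j) hx) (1 : ℤ)) w = 1 := by
    intro w
    by_cases hw : (∑ j, Finsupp.single (s27gpPlace hld hgen (q j) hx) (1 : ℤ)) w = 0
    · exact Or.inl hw
    · obtain ⟨j, hj⟩ := s27dom_sum_single_pos (fun j => s27gpPlace hld hgen (q j) hx) w hw
      right
      rw [← hj]
      exact s27dom_sum_single_inj (fun j => s27gpPlace hld hgen (q j) hx) hQinj j
  -- the points of `q` which are not points of `e`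
  set I : Set (Fin g) := {j | ∀ i, e i ≠ q j} with hI
  set b : Fin g → 𝔎 := fun j => q j x with hb
  set N : IntermediateField K 𝔎 := IntermediateField.adjoin K (b '' I) with hN
  have hkey : ∀ i, IsAlgebraic N (e i x) := by
    refine s27dom_final hld hgen hx hall hres
      (fun i => s27gpPlace hld hgen (e i) hx) (fun _ => x) (fun i => e i x)
      (fun i => s27gpPlace_ord_unif hld hgen (e i) hx) h hh ?_ N ?_ hns
    · -- the orders at the `P i`
      intro i
      have h1 := hDw (s27gpPlace hld hgen (e i) hx)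
      rw [hC, s27dom_sum_single_inj (fun i => s27gpPlace hld hgen (e i) hx) hPinj i] at h1
      rcases hB (s27gpPlace hld hgen (e i) hx) with h2 | h2
      · rw [h2] at h1; omega
      · rw [h2] at h1; omega
    · -- the other zeros and poles
      intro w hw hw0
      rcases s27pt_classify hld hgen hall hx w with ⟨Q, rfl⟩ | ⟨p, rfl⟩
      · obtain ⟨s, hs⟩ := place_exists_ord_eq_one Q
        refine ⟨s, 0, ?_, N.zero_mem⟩
        rw [map_zero, sub_zero, s26gspc_ord_algebraMap, hs]
      · refine ⟨x, p x, s27gpPlace_ord_unif hld hgen p hx, ?_⟩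
        have hA : (∑ i, Finsupp.single (s27gpPlace hld hgen (e i) hx) (1 : ℤ))
            (s27gpPlace hld hgen p hx) = 0 := by
          by_contra hne
          obtain ⟨i, hi⟩ := s27dom_sum_single_pos
            (fun i => s27gpPlace hld hgen (e i) hx) _ hne
          exact hw i hi.symm
        have h1 := hDw (s27gpPlace hld hgen p hx)
        rw [hA, hC, mul_zero, zero_sub, add_zero] at h1
        have h2 : (∑ j, Finsupp.single (s27gpPlace hld hgen (q j) hx) (1 : ℤ))
            (s27gpPlace hld hgen p hx) ≠ 0 := by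
          intro h3
          rw [h3, neg_zero] at h1
          exact hw0 h1
        obtain ⟨j, hj⟩ := s27dom_sum_single_pos
          (fun j => s27gpPlace hld hgen (q j) hx) _ h2
        have hqp : q j = p := s27pt_gpPlace_injective hld hgen hx hj
        have hjI : j ∈ I := by
          intro i hei
          apply hw i
          show s27gpPlace hld hgen p hx = s27gpPlace hld hgen (e i) hx
          rw [← hqp, hei]
        have := IntermediateField.subset_adjoin K (b '' I) ⟨j, hjI, rfl⟩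
        rw [hb] at this
        simpa [hqp] using this
  have hIuniv := s27dgt_eq_univ he I b hkey
  intro i j
  have : j ∈ I := by rw [hIuniv]; exact Set.mem_univ j
  exact this i

/-- **DISJ, class form, arbitrary origin.** -/
theorem s27dom_disj_clO [IsAlgClosed K] [CharZero K] [IsAlgClosed 𝔎] {g : ℕ}
    (hdeg : ∀ w : Place 𝔎 Ω, w.deg = 1) (O : Divisor 𝔎 Ω) (hO : Divisor.degree O = g)
    (hOpt : ∀ p : 𝔠 →ₐ[K] 𝔎, O (s27gpPlace hld hgen p hx) = 0)
    (e : Fin g → 𝔠 →ₐ[K] 𝔎) (he : AlgebraicIndependent K (fun i => e i x))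
    (hS : ∀ f ∈ riemannRochSpace (s27pkgSum fun i => s27gpPlace hld hgen (e i) hx),
      ∃ c : 𝔎, f = algebraMap 𝔎 Ω c)
    (k : ℤ) (hk0 : k ≠ 0) (hk1 : k ≠ 1) (q : Fin g → 𝔠 →ₐ[K] 𝔎)
    (hq : AlgebraicIndependent K (fun j => q j x))
    (hcl : s27pkgClO hdeg O hO (fun j => s27gpPlace hld hgen (q j) hx) =
      k • s27pkgClO hdeg O hO (fun i => s27gpPlace hld hgen (e i) hx)) :
    ∀ i j, e i ≠ q j := by
  have heinj : Function.Injective e := by
    intro i j hij
    exact he.injective (show e i x = e j x by rw [hij])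
  have hPinj : Function.Injective (fun i => s27gpPlace hld hgen (e i) hx) := fun i j hij =>
    heinj (s27pt_gpPlace_injective hld hgen hx hij)
  refine s27dom_disj_app hld hgen (fun P => s26gspf_hall hx P) hx e he ?_ k hk0 hk1 q hq
    (O - k • O) ?_ (s27dom_prin_of_clO hdeg O hO _ _ k hcl)
  · exact s27dom_hns_of_rr (fun i => s27gpPlace hld hgen (e i) hx) hPinj
      (fun i => algebraMap 𝔠 Ω x - algebraMap 𝔎 Ω (e i x))
      (fun i => s27gpPlace_ord_unif hld hgen (e i) hx) hS
  · intro p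
    rw [Finsupp.sub_apply, Finsupp.smul_apply, hOpt p]
    simp

end DomDisj

section Model

universe u v y

variable {K : Type u} {F : Type v} [Field K] [IsAlgClosed K] [CharZero K] [Field F] [Algebra K F]
  [IsCurveOver K F] [Algebra.EssFiniteType K F]
  {L : Type (max u v)} [Field L] [Algebra K L]
  [Algebra (s27gfOm K F (genusFF K F)) L] [IsScalarTower K (s27gfOm K F (genusFF K F)) L]
  [IsAlgClosed L] [Algebra.IsAlgebraic (s27gfOm K F (genusFF K F)) L]
  {FL : Type y} [Field FL] [Algebra K FL] [Algebra F FL] [Algebra L FL]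
  [IsScalarTower K F FL] [IsScalarTower K L FL]
  (hld : Function.Injective (s26gspMu K F L FL)) (hgen : S26gspGen K F L FL)
  {x : F} (hx : Transcendental K x)
  [FiniteDimensional ↥(IntermediateField.adjoin K {x}) F]
  [Algebra.IsSeparable ↥(IntermediateField.adjoin K {x}) F]

/-- **DISJ on the model**: a generic tuple of class `k • cl p`, `k ≠ 0, 1`, has no point in common
with the tautological tuple `p`. -/
theorem s27dom_disj_model (G₀ : Divisor K F) (hG₀ : Divisor.degree G₀ = (genusFF K F : ℤ))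
    (k : ℤ) (hk0 : k ≠ 0) (hk1 : k ≠ 1) (q : Fin (genusFF K F) → F →ₐ[K] L)
    (hq : S27dgGeneric K x q)
    (hcl : s27pfCl (s27dclPkg hld hgen hx G₀ hG₀) q =
      k • s27pfCl (s27dclPkg hld hgen hx G₀ hG₀)
        (s27pfTaut (K := K) (F := F) (g := genusFF K F) (L := L))) :
    ∀ i j, s27pfTaut (K := K) (F := F) (g := genusFF K F) (L := L) i ≠ q j :=
  s27dom_disj_clO hld hgen hx (s27pkg_hdeg hld hgen hx)
    (Finsupp.mapDomain (s26gspCon hld hgen (s26gspf_hall hx)) G₀)
    (s27pkgO_degree hld hgen hx G₀ hG₀)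
    (fun p => s26gspc_mapDomain_apply_of_trivial hld hgen (s26gspf_hall hx) G₀ _
      (s27pt_gpPlace_trivial hld hgen hx p))
    (s27pfTaut (K := K) (F := F) (g := genusFF K F) (L := L)) (s27dom_taut_generic hx)
    (s27dcl_hns hld hgen hx _ (s27dom_taut_generic hx)) k hk0 hk1 q hq hcl

/-- **DISJ for a family**. -/
theorem s27dom_disj_fam (G₀ : Divisor K F) (hG₀ : Divisor.degree G₀ = (genusFF K F : ℤ))
    (q : ℤ → Fin (genusFF K F) → F →ₐ[K] L) (hq : S27pfFam (s27dclPkg hld hgen hx G₀ hG₀) q)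
    (k : ℤ) (hk0 : k ≠ 0) (hk1 : k ≠ 1) :
    ∀ i j, s27pfTaut (K := K) (F := F) (g := genusFF K F) (L := L) i ≠ q k j :=
  s27dom_disj_model hld hgen hx G₀ hG₀ k hk0 hk1 (q k) (hq k hk0).1 (hq k hk0).2

end Model

end Fermat.Agent.S27

end
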