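/-
S27-B, piece **GROW-TOP** (helper41): the GROWTH clause of `s27fs_Stmt` / `s27mt_Stmt` for the
CONCRETE `β = s27beta A'` (helper19), general genus `0 < g`, abstract `ψ`, reduced to FOUR inputs:

  (f₀)     a `K`-basis of `L_K(A')` indexed by `Fin g`        (`ℓ(A') = g`: Riemann–Roch, NONSPECIAL);
  (LAT-EX) `hlat`: a lattice basis along every `W ⊇ K` of `Ω_g` (helper6 / helper13);
  (CUBE₁)  the cube at `k = 1` (literal clause of `s27fs_Stmt` at `k = 1`; needed ALSO for `n = 1`);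
  (H2)     POLE-DIV in centre form, for every local parameter `s` at `O`:
           `B 1 V · B (−1) V = w · ∏_{i : ι_i ↦ O along W} ι_i s`, `w ∈ W` (helper46).

Everything else is discharged here: `β_ne`, `β_mem`, idx (`s27betat_main`), (U1) (`s27u1_main`),
UP-SYM (`s27ups_main`), `[𝔉 : ψ₂ 𝔉] < ∞` (`s27dgf_finite`), POINT-T (`s27pt2_exists`),
the glue (`s27pdg_hdiv_centre`).
-/
import Fermat.Agent.S27.GrowAsm2
import Fermat.Agent.S27.BetaTheta
import Fermat.Agent.S27.PoleDivGlue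
import Fermat.Agent.S27.DegFin
import Fermat.Agent.S27.DegFG

set_option autoImplicit false
set_option linter.unusedVariables false
set_option linter.unusedSectionVars false
set_option linter.style.haveILetI false

noncomputable section

namespace Fermat.Agent.S27

open AlgebraicCurve Module IntermediateField

universe u v

section GrowTop

variable {K : Type u} {F : Type v} [Field K] [IsAlgClosed K] [Field F] [Algebra K F] {g : ℕ}

/-- `[𝔉 : ψ 𝔉] < ∞` for EVERY `K`-endomorphism of the model (`𝔉 / K` finitely generated). -/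
theorem s27grt_finite [Algebra.EssFiniteType K F]
    (φ : s27gfSym K F g →ₐ[K] s27gfSym K F g) :
    Module.Finite φ.fieldRange (s27gfSym K F g) := by
  haveI : Algebra.EssFiniteType K (s27gfSym K F g) := s27dfg_sym g
  exact s27dgf_finite φ

/-- **GROW-ASM2 without the DEG input**: `s27grb_isGrow` with `hfin2` discharged. -/
theorem s27grt_isGrow_abs [CharZero K] [Algebra.EssFiniteType K F] (hg : 0 < g)
    (ψ : ℤ → (s27gfSym K F g →ₐ[K] s27gfSym K F g))
    (β : ValuationSubring (s27gfSym K F g) → s27gfSym K F g)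
    (β_ne : ∀ V, S27IsKValU K V → β V ≠ 0) (β_mem : ∀ V, S27IsKValU K V → β V ∈ V)
    {x₀ : F} (hx₀ : Transcendental K x₀) [FiniteDimensional K⟮x₀⟯ F]
    (A' B₁ : Divisor K F) (hAB : A' ≤ B₁) (hB₁ : 0 ≤ B₁)
    (f₀ : Module.Basis (Fin g) K ↥(riemannRochSpace A'))
    (hβ : ∀ W : ValuationSubring (s27gfOm K F g),
      (∀ a : K, algebraMap K (s27gfOm K F g) a ∈ W) →
      S27ptIsIdx W (fun k => s27gfIota (K := K) (F := F) k) A'
        ((β (W.comap (algebraMap (s27gfSym K F g) (s27gfOm K F g))) :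
          s27gfSym K F g) : s27gfOm K F g))
    (e : ℕ) (he : 0 < e) (Φ : s27gfSym K F g) (hΦ : Φ ≠ 0)
    (hcube : ∀ V, S27IsKValU K V → ∃ u, S27IsUnitIn V u ∧
      (s27indB ψ β (1 + 1) V * s27indB ψ β (1 - 1) V) ^ e =
        u * Φ * (s27indB ψ β 1 V ^ 2 * s27indB ψ β 1 V * s27indB ψ β (-1) V) ^ e)
    (t : F) (ht : Transcendental K t)
    (halg : Algebra.IsAlgebraic (Algebra.adjoin K ({t} : Set F)) F) (c₀ : ℕ)
    (hdiv : ∀ V : ValuationSubring (s27gfSym K F g), S27IsKValU K V →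
      ∃ (W : ValuationSubring (s27gfOm K F g)) (p : Fin g → s27gfOm K F g) (w : s27gfOm K F g),
        (∀ x : s27gfSym K F g, (x : s27gfOm K F g) ∈ W → x ∈ V) ∧ (∀ i, p i ∈ W) ∧
        (∀ i, s27gfIota (K := K) i t * p i ∈ W) ∧ w ∈ W ∧
        (((s27indB ψ β 1 V * s27indB ψ β (-1) V) ^ c₀ : s27gfSym K F g) : s27gfOm K F g) =
          w * ∏ i, p i) :
    S27IsGrow K (fun V => s27indB ψ β 1 V * s27indB ψ β (-1) V) g :=
  s27grb_isGrow hg ψ β β_ne β_mem hx₀ A' B₁ hAB hB₁ f₀ hβ e he Φ hΦ hcube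
    (s27grt_finite (ψ 2)) t ht halg c₀ hdiv

/-- **GROW-TOP**: the GROWTH clause for `β = s27beta A'`, from (f₀), (LAT-EX), (CUBE₁), (H2). -/
theorem s27grt_isGrow [CharZero K] [Algebra.EssFiniteType K F] (hg : 0 < g)
    {x : F} (hx : Transcendental K x) [FiniteDimensional K⟮x⟯ F] (O : Place K F)
    (ψ : ℤ → (s27gfSym K F g →ₐ[K] s27gfSym K F g))
    (A' B₁ : Divisor K F) (hAB : A' ≤ B₁) (hB₁ : 0 ≤ B₁)
    (f₀ : Module.Basis (Fin g) K ↥(riemannRochSpace A'))
    (hlat : ∀ W : ValuationSubring (s27gfOm K F g),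
      (∀ a : K, algebraMap K (s27gfOm K F g) a ∈ W) →
        ∃ φ : Fin g → F, S27ptIsLatBasis W (s27betaPt K F g) A' φ)
    (e : ℕ) (he : 0 < e) (Φ : s27gfSym K F g) (hΦ : Φ ≠ 0)
    (hcube : ∀ V, S27IsKValU K V → ∃ u, S27IsUnitIn V u ∧
      (s27indB ψ (s27beta (g := g) A') (1 + 1) V *
          s27indB ψ (s27beta (g := g) A') (1 - 1) V) ^ e =
        u * Φ * (s27indB ψ (s27beta (g := g) A') 1 V ^ 2 *
          s27indB ψ (s27beta (g := g) A') 1 V *
          s27indB ψ (s27beta (g := g) A') (-1) V) ^ e)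
    (H2 : ∀ s : F, O.ord s = 1 →
      ∀ V : ValuationSubring (s27gfSym K F g), S27IsKValU K V →
      ∃ (W : ValuationSubring (s27gfOm K F g)) (w : s27gfOm K F g),
        (∀ a : K, algebraMap K (s27gfOm K F g) a ∈ W) ∧
        (∀ x : s27gfSym K F g, (x : s27gfOm K F g) ∈ W → x ∈ V) ∧ w ∈ W ∧
        ((s27indB ψ (s27beta (g := g) A') 1 V * s27indB ψ (s27beta (g := g) A') (-1) V :
            s27gfSym K F g) : s27gfOm K F g) =
          w * ∏ i ∈ s27pdgI O W, s27gfIota (K := K) (g := g) i s) :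
    S27IsGrow K (fun V => s27indB ψ (s27beta (g := g) A') 1 V *
      s27indB ψ (s27beta (g := g) A') (-1) V) g := by
  obtain ⟨N, t, s, ht, halg, hs0, hs1, hoff, hN, hts⟩ := s27pt2_exists x hx O
  obtain ⟨β_ne, β_mem, hβ⟩ := s27betat_main (g := g) A' f₀ hlat
  have hs : 0 ≤ O.ord s := by rw [hs1]; norm_num
  exact s27grt_isGrow_abs hg ψ (s27beta (g := g) A') β_ne β_mem hx A' B₁ hAB hB₁ f₀ hβ
    e he Φ hΦ hcube t ht halg N
    (s27pdg_hdiv_centre x hx O ψ (s27beta (g := g) A') t s N hs hoff hts (H2 s hs1))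

end GrowTop

end Fermat.Agent.S27

end
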