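/-
S27-B, piece **H2-TOP** (helper41): the (H2) input of GROW-TOP (`s27grt_isGrow`, S27/GrowTop.lean)
— a factorisation on `Ω = s27gfOm K F g` — from the POLE-DIV statement on `L ⊇ Ω`
(helper46's `s27pda_main`: a local equation `x` at `q (−1)` along `W_L ⊇ K` is divisible in `W_L`
by `∏_{i : taut_i ↦ O} taut_i s`) and PSI-NAT at `k = −1` (helper84).

* `s27gh2_centre_iff` : the centre of `taut_i` along `W_L` is `O` iff `i ∈ s27pdgI O (W_L ∩ Ω)`;
* **`s27gh2_main`**   : (PSI-NAT at `−1`) + (POLE-DIV on `L`) ⇒ the literal (H2) of `s27grt_isGrow`;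
* **`s27gh2_isGrow`** : GROW-TOP with (H2) replaced by (POLE-DIV on `L`) + the spec of `ψ (−1)`.
-/
import Fermat.Agent.S27.GrowTop
import Fermat.Agent.S27.PsiNatBeta

set_option autoImplicit false
set_option linter.unusedVariables false
set_option linter.unusedSectionVars false
set_option linter.style.haveILetI false

noncomputable section

namespace Fermat.Agent.S27

open AlgebraicCurve Module IntermediateField Fermat.Agent.S26

universe u v w'

section H2

variable {K : Type u} {F : Type v} [Field K] [IsAlgClosed K] [Field F] [Algebra K F] {g : ℕ}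
variable {L : Type w'} [Field L] [Algebra K L] [Algebra (s27gfOm K F g) L]
  [IsScalarTower K (s27gfOm K F g) L]

/-- the centre of `taut_i` along `W_L` is `O` iff `i ∈ s27pdgI O (W_L ∩ Ω)`. -/
theorem s27gh2_centre_iff (W : ValuationSubring L) (O : Place K F) (i : Fin g) :
    S27ptIsCentre W (s27pnTaut (K := K) (F := F) (g := g) (L := L) i) O ↔
      i ∈ s27pdgI O (W.comap (algebraMap (s27gfOm K F g) L)) := by
  rw [s27pdgI_mem]
  exact Iff.rfl

/-- **H2-TOP**: (PSI-NAT at `k = −1`) + (POLE-DIV on `L`) ⇒ the literal (H2) of GROW-TOP. -/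
theorem s27gh2_main (ψ : ℤ → (s27gfSym K F g →ₐ[K] s27gfSym K F g))
    (β : ValuationSubring (s27gfSym K F g) → s27gfSym K F g)
    (β_mem : ∀ V, S27IsKValU K V → β V ∈ V)
    (q : Fin g → F →ₐ[K] L) (A' : Divisor K F) (O : Place K F)
    (hNat : ∀ W : ValuationSubring L, S27IsKValU K W →
      S27pnIsEq W q A' (algebraMap (s27gfSym K F g) L
        (s27indB ψ β (-1) (W.comap (algebraMap (s27gfSym K F g) L)))))
    (hPDA : ∀ s : F, O.ord s = 1 → ∀ W : ValuationSubring L, S27IsKValU K W → ∀ x : L,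
      S27ptIsIdx W q A' x →
      ∃ (I : Finset (Fin g)) (w : L),
        (∀ i, i ∈ I ↔ S27ptIsCentre W (s27pnTaut (K := K) (F := F) (g := g) (L := L) i) O) ∧
        w ∈ W ∧ x = w * ∏ i ∈ I, s27pnTaut (K := K) (F := F) (g := g) (L := L) i s) :
    ∀ s : F, O.ord s = 1 →
      ∀ V : ValuationSubring (s27gfSym K F g), S27IsKValU K V →
      ∃ (W : ValuationSubring (s27gfOm K F g)) (w : s27gfOm K F g),
        (∀ a : K, algebraMap K (s27gfOm K F g) a ∈ W) ∧
        (∀ x : s27gfSym K F g, (x : s27gfOm K F g) ∈ W → x ∈ V) ∧ w ∈ W ∧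
        ((s27indB ψ β 1 V * s27indB ψ β (-1) V : s27gfSym K F g) : s27gfOm K F g) =
          w * ∏ i ∈ s27pdgI O W, s27gfIota (K := K) (g := g) i s := by
  intro s hs V hV
  obtain ⟨WL, hWL⟩ := s26er_exists_comap_eq (Ω' := L) V
  have hKWL : S27IsKValU K WL := by
    intro a
    have h1 := hV a
    rw [← hWL, ValuationSubring.mem_comap] at h1
    have h2 : algebraMap (s27gfSym K F g) L (algebraMap K (s27gfSym K F g) a) =
        algebraMap K L a := by
      show algebraMap (s27gfOm K F g) L (algebraMap K (s27gfOm K F g) a) = algebraMap K L a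
      rw [← IsScalarTower.algebraMap_apply]
    rw [← h2]
    exact h1
  have hKW : ∀ a : K, algebraMap K (s27gfOm K F g) a ∈
      WL.comap (algebraMap (s27gfOm K F g) L) := by
    intro a
    rw [ValuationSubring.mem_comap, ← IsScalarTower.algebraMap_apply]
    exact hKWL a
  have hmemV : ∀ y : s27gfSym K F g,
      (y : s27gfOm K F g) ∈ WL.comap (algebraMap (s27gfOm K F g) L) ↔ y ∈ V := by
    intro y
    rw [← hWL]
    exact Iff.rfl
  obtain ⟨x, hx, u, hu, hxu⟩ := hNat WL hKWL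
  rw [hWL] at hxu
  obtain ⟨I, w', hI, hw', hxw⟩ := hPDA s hs WL hKWL x hx
  have hIeq : I = s27pdgI O (WL.comap (algebraMap (s27gfOm K F g) L)) :=
    Finset.ext fun i => (hI i).trans (s27gh2_centre_iff WL O i)
  have hs0 : s ≠ 0 := by
    rintro rfl
    rw [Place.ord_zero] at hs
    exact zero_ne_one hs
  have hP0 : (∏ i ∈ s27pdgI O (WL.comap (algebraMap (s27gfOm K F g) L)),
      s27gfIota (K := K) (g := g) i s) ≠ 0 :=
    Finset.prod_ne_zero_iff.2 fun i _ => (map_ne_zero _).2 hs0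
  have hmap : algebraMap (s27gfOm K F g) L
      (∏ i ∈ s27pdgI O (WL.comap (algebraMap (s27gfOm K F g) L)),
        s27gfIota (K := K) (g := g) i s) =
      ∏ i ∈ I, s27pnTaut (K := K) (F := F) (g := g) (L := L) i s := by
    rw [hIeq, map_prod]
    rfl
  have h1 : algebraMap (s27gfOm K F g) L
      ((s27indB ψ β (-1) V : s27gfSym K F g) : s27gfOm K F g) =
      u * w' * algebraMap (s27gfOm K F g) L
        (∏ i ∈ s27pdgI O (WL.comap (algebraMap (s27gfOm K F g) L)),
          s27gfIota (K := K) (g := g) i s) := by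
    rw [hmap, mul_assoc, ← hxw]
    exact hxu
  have h2 : ((s27indB ψ β (-1) V : s27gfSym K F g) : s27gfOm K F g) /
      (∏ i ∈ s27pdgI O (WL.comap (algebraMap (s27gfOm K F g) L)),
        s27gfIota (K := K) (g := g) i s) ∈ WL.comap (algebraMap (s27gfOm K F g) L) := by
    rw [ValuationSubring.mem_comap, map_div₀, h1, mul_div_assoc,
      div_self ((map_ne_zero _).2 hP0), mul_one]
    exact WL.mul_mem _ _ hu.2.1 hw'
  refine ⟨WL.comap (algebraMap (s27gfOm K F g) L),
    ((s27indB ψ β 1 V : s27gfSym K F g) : s27gfOm K F g) *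
      (((s27indB ψ β (-1) V : s27gfSym K F g) : s27gfOm K F g) /
        (∏ i ∈ s27pdgI O (WL.comap (algebraMap (s27gfOm K F g) L)),
          s27gfIota (K := K) (g := g) i s)),
    hKW, fun y hy => (hmemV y).1 hy, ?_, ?_⟩
  · exact ValuationSubring.mul_mem _ _ _ ((hmemV _).2 (s27indB_mem ψ β β_mem 1 hV)) h2
  · have h3 : ((s27indB ψ β 1 V * s27indB ψ β (-1) V : s27gfSym K F g) : s27gfOm K F g) =
        ((s27indB ψ β 1 V : s27gfSym K F g) : s27gfOm K F g) *
          ((s27indB ψ β (-1) V : s27gfSym K F g) : s27gfOm K F g) := rfl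
    rw [h3, mul_assoc, div_mul_cancel₀ _ hP0]

/-- **GROW-TOP on the stage**: the GROWTH clause for `β = s27beta A'` from (f₀), (LAT-EX),
(CUBE₁), the spec of `ψ (−1)` (evaluation at the tuple `q (−1)`), and (POLE-DIV on `L`). -/
theorem s27gh2_isGrow [CharZero K] [Algebra.EssFiniteType K F] [IsAlgClosed L]
    [Algebra.IsAlgebraic (s27gfOm K F g) L] (hg : 0 < g)
    {x : F} (hx : Transcendental K x) [FiniteDimensional K⟮x⟯ F] (O : Place K F)
    (ψ : ℤ → (s27gfSym K F g →ₐ[K] s27gfSym K F g)) (q : ℤ → Fin g → F →ₐ[K] L)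
    (hspec : ∃ he : Function.Injective (s27gfLiftR (q (-1))), ∀ s : s27gfSym K F g,
      algebraMap (s27gfOm K F g) L ((ψ (-1) s : s27gfSym K F g) : s27gfOm K F g) =
        s27psiT (q (-1)) he (s : s27gfOm K F g))
    (A' B₁ : Divisor K F) (hAB : A' ≤ B₁) (hB₁ : 0 ≤ B₁)
    (f₀ : Module.Basis (Fin g) K ↥(riemannRochSpace A'))
    (hlat : ∀ W : ValuationSubring (s27gfOm K F g),
      (∀ a : K, algebraMap K (s27gfOm K F g) a ∈ W) →
        ∃ φ : Fin g → F, S27ptIsLatBasis W (s27betaPt K F g) A' φ)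
    (e : ℕ) (he : 0 < e) (Φ : s27gfSym K F g) (hΦ : Φ ≠ 0)
    (hcube : ∀ V, S27IsKValU K V → ∃ u, S27IsUnitIn V u ∧
      (s27indB ψ (s27beta (g := g) A') (1 + 1) V *
          s27indB ψ (s27beta (g := g) A') (1 - 1) V) ^ e =
        u * Φ * (s27indB ψ (s27beta (g := g) A') 1 V ^ 2 *
          s27indB ψ (s27beta (g := g) A') 1 V *
          s27indB ψ (s27beta (g := g) A') (-1) V) ^ e)
    (hPDA : ∀ s : F, O.ord s = 1 → ∀ W : ValuationSubring L, S27IsKValU K W → ∀ x : L,
      S27ptIsIdx W (q (-1)) A' x →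
      ∃ (I : Finset (Fin g)) (w : L),
        (∀ i, i ∈ I ↔ S27ptIsCentre W (s27pnTaut (K := K) (F := F) (g := g) (L := L) i) O) ∧
        w ∈ W ∧ x = w * ∏ i ∈ I, s27pnTaut (K := K) (F := F) (g := g) (L := L) i s) :
    S27IsGrow K (fun V => s27indB ψ (s27beta (g := g) A') 1 V *
      s27indB ψ (s27beta (g := g) A') (-1) V) g := by
  obtain ⟨β_ne, β_mem, hβ⟩ := s27betat_main (g := g) A' f₀ hlat
  have hNat : ∀ W : ValuationSubring L, S27IsKValU K W →
      S27pnIsEq W (q (-1)) A' (algebraMap (s27gfSym K F g) L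
        (s27indB ψ (s27beta (g := g) A') (-1) (W.comap (algebraMap (s27gfSym K F g) L)))) :=
    fun W hW => s27pn_indB_of_lift A' (s27beta (g := g) A')
      (s27pn_beta_of_om A' (s27beta (g := g) A') hβ) ψ q (-1) (by norm_num) hspec W hW
  exact s27grt_isGrow hg hx O ψ A' B₁ hAB hB₁ f₀ hlat e he Φ hΦ hcube
    (s27gh2_main ψ (s27beta (g := g) A') β_mem (q (-1)) A' O hNat hPDA)

end H2

end Fermat.Agent.S27

end
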