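import Fermat.Agent.S27.DetMin

/-!
# S27 route B, LE-ALG: the DUAL presentation of the local equation, and the core of LE(b)

`𝔏` a field, `W` a valuation subring.  `E : Matrix ι (ι ⊕ κ) 𝔏` is the evaluation matrix of
a basis `x = (f, q)` of `L(A_N + G)` (`f` = basis of `L(A_N)`, `ι` also indexes the points of
`D`), `U : Matrix (ι ⊕ κ) κ 𝔏` the coordinates of a `W`-basis of the sections of
`L(A_N + G) ⊗ W` vanishing on `D`.

* `s27ld_dual` : `det U_q ≐_W det E_f / (minimal minor of E)`: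
  the determinant of the principal parts of the sections vanishing on `D` is the point formula
  `θ(D) / idx_W(D)`.
* `s27ld_le_core` : two divisors `D`, `D'` whose kernel lattices are related by a matrix of
  unit determinant on the principal parts have the same local equation up to a unit of `W`.
-/

namespace Fermat.Agent.S27

open Matrix

section dual

variable {𝔏 : Type*} [Field 𝔏] (W : ValuationSubring 𝔏)

/-- `c` is a unit of `W`. -/
def S27ldUnit (c : 𝔏) : Prop := c ∈ W ∧ c⁻¹ ∈ W ∧ c ≠ 0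

theorem s27ld_unit_one : S27ldUnit W (1 : 𝔏) := ⟨W.one_mem, by simp [W.one_mem], one_ne_zero⟩

theorem s27ld_unit_mul {a b : 𝔏} (ha : S27ldUnit W a) (hb : S27ldUnit W b) :
    S27ldUnit W (a * b) :=
  ⟨W.mul_mem _ _ ha.1 hb.1, by rw [mul_inv]; exact W.mul_mem _ _ ha.2.1 hb.2.1,
    mul_ne_zero ha.2.2 hb.2.2⟩

theorem s27ld_unit_inv {a : 𝔏} (ha : S27ldUnit W a) : S27ldUnit W a⁻¹ :=
  ⟨ha.2.1, by rw [inv_inv]; exact ha.1, inv_ne_zero ha.2.2⟩

theorem s27ld_det_mem {n : Type*} [Fintype n] [DecidableEq n] (A : Matrix n n 𝔏)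
    (h : ∀ i j, A i j ∈ W) : A.det ∈ W := by
  let A' : Matrix n n W.toSubring := Matrix.of fun i j => ⟨A i j, h i j⟩
  have hA : A = (W.toSubring.subtype).mapMatrix A' := by
    ext i j
    rfl
  rw [hA, ← RingHom.map_det]
  exact (A'.det).2

theorem s27ld_unit_of_mul_eq_one {n : Type*} [Fintype n] [DecidableEq n] (A B : Matrix n n 𝔏)
    (hA : ∀ i j, A i j ∈ W) (hB : ∀ i j, B i j ∈ W) (hAB : A * B = 1) :
    S27ldUnit W A.det := by
  have h1 : A.det * B.det = 1 := by rw [← det_mul, hAB, det_one]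
  have hne : A.det ≠ 0 := left_ne_zero_of_mul_eq_one h1
  refine ⟨s27ld_det_mem W A hA, ?_, hne⟩
  have h2 : (A.det)⁻¹ = B.det := inv_eq_of_mul_eq_one_right h1
  rw [h2]
  exact s27ld_det_mem W B hB

variable {ι κ : Type*} [Fintype ι] [DecidableEq ι] [Fintype κ] [DecidableEq κ]

/-- **DUAL.**  The determinant of the `q`-coordinates of a `W`-basis of the kernel lattice is,
up to a unit of `W`, the quotient of the `f`-minor by the minimal minor. -/
theorem s27ld_dual (E : Matrix ι (ι ⊕ κ) 𝔏) (U : Matrix (ι ⊕ κ) κ 𝔏)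
    (hUW : ∀ j l, U j l ∈ W)
    (hsat : ∀ p : ι ⊕ κ → 𝔏, E *ᵥ p = 0 → (∀ j, p j ∈ W) →
      ∃ a : κ → 𝔏, (∀ l, a l ∈ W) ∧ p = U *ᵥ a)
    (σ₀ : ι → ι ⊕ κ) (h0 : (E.submatrix id σ₀).det ≠ 0)
    (hmin : ∀ σ : ι → ι ⊕ κ, (E.submatrix id σ).det / (E.submatrix id σ₀).det ∈ W) :
    ∃ c : 𝔏, S27ldUnit W c ∧
      (U.submatrix Sum.inr id).det
        = c * ((E.submatrix id Sum.inl).det / (E.submatrix id σ₀).det) := by
  classical
  set A₀ : Matrix ι ι 𝔏 := E.submatrix id σ₀ with hA₀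
  -- Cramer
  have hcr : ∀ j : ι ⊕ κ, ∃ c : ι → 𝔏, (∀ k, c k ∈ W) ∧
      (fun i => E i j) = ∑ k, c k • (fun i => E i (σ₀ k)) :=
    fun j => s27dm_span W (fun j i => E i j) σ₀ h0 hmin j
  choose c hcW hc using hcr
  let Cm : Matrix ι (ι ⊕ κ) 𝔏 := Matrix.of fun k j => c j k
  have hE : E = A₀ * Cm := by
    ext i j
    have h1 := congrFun (hc j) i
    simp only [Finset.sum_apply, Pi.smul_apply, smul_eq_mul] at h1
    rw [h1, Matrix.mul_apply]
    refine Finset.sum_congr rfl fun k _ => ?_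
    simp [hA₀, Cm, mul_comm]
  let P₀ : Matrix (ι ⊕ κ) ι 𝔏 := Matrix.of fun j k => if j = σ₀ k then 1 else 0
  have hEP₀ : E * P₀ = A₀ := by
    ext i k
    simp [P₀, Matrix.mul_apply, hA₀]
  have hCmW : ∀ k j, Cm k j ∈ W := fun k j => hcW j k
  have hP₀W : ∀ j k, P₀ j k ∈ W := by
    intro j k
    simp only [P₀, Matrix.of_apply]
    split_ifs
    · exact W.one_mem
    · exact W.zero_mem
  -- kernel vectors
  have hker : ∀ j : ι ⊕ κ, ∃ a : κ → 𝔏, (∀ l, a l ∈ W) ∧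
      (fun j' => (1 - P₀ * Cm : Matrix (ι ⊕ κ) (ι ⊕ κ) 𝔏) j' j) = U *ᵥ a := by
    intro j
    apply hsat
    · have h1 : E * (1 - P₀ * Cm) = 0 := by
        rw [Matrix.mul_sub, Matrix.mul_one, ← Matrix.mul_assoc, hEP₀, ← hE, sub_self]
      ext i
      have h2 := congrFun (congrFun h1 i) j
      simpa [Matrix.mul_apply, Matrix.mulVec, dotProduct] using h2
    · intro j'
      rw [Matrix.sub_apply]
      refine sub_mem ?_ ?_
      · rw [Matrix.one_apply]
        split_ifs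
        · exact W.one_mem
        · exact W.zero_mem
      · rw [Matrix.mul_apply]
        exact Subring.sum_mem W.toSubring fun k _ => W.mul_mem _ _ (hP₀W j' k) (hCmW k j)
  choose a haW ha using hker
  let Am : Matrix κ (ι ⊕ κ) 𝔏 := Matrix.of fun l j => a j l
  have hAmW : ∀ l j, Am l j ∈ W := fun l j => haW j l
  have hone : P₀ * Cm + U * Am = 1 := by
    have h1 : U * Am = 1 - P₀ * Cm := by
      ext j' j
      have h2 := congrFun (ha j) j'
      simp only [Matrix.mulVec, dotProduct] at h2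
      rw [h2, Matrix.mul_apply]
      rfl
    rw [h1]
    abel
  let T : Matrix (ι ⊕ κ) (ι ⊕ κ) 𝔏 := Matrix.fromCols P₀ U
  let T' : Matrix (ι ⊕ κ) (ι ⊕ κ) 𝔏 := Matrix.fromRows Cm Am
  have hTT' : T * T' = 1 := by
    rw [Matrix.fromCols_mul_fromRows]
    exact hone
  have hT'T : T' * T = 1 := mul_eq_one_comm.mp hTT'
  have hblocks : Matrix.fromBlocks (Cm * P₀) (Cm * U) (Am * P₀) (Am * U)
      = Matrix.fromBlocks (1 : Matrix ι ι 𝔏) 0 0 (1 : Matrix κ κ 𝔏) := by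
    rw [← Matrix.fromRows_mul_fromCols, Matrix.fromBlocks_one]
    exact hT'T
  obtain ⟨-, h12, -, h22⟩ := Matrix.fromBlocks_inj.mp hblocks
  let If : Matrix (ι ⊕ κ) ι 𝔏 := Matrix.of fun j i => if j = Sum.inl i then 1 else 0
  let S : Matrix (ι ⊕ κ) (ι ⊕ κ) 𝔏 := Matrix.fromCols If U
  have hS : S = Matrix.fromBlocks 1 (U.submatrix Sum.inl id) 0 (U.submatrix Sum.inr id) := by
    ext j i
    rcases j with j | j <;> rcases i with i | i <;>
      simp [S, If, Matrix.one_apply]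
  have hdetS : S.det = (U.submatrix Sum.inr id).det := by
    rw [hS, Matrix.det_fromBlocks_zero₂₁, det_one, one_mul]
  have hT'S : T' * S = Matrix.fromBlocks (Cm * If) 0 (Am * If) 1 := by
    rw [Matrix.fromRows_mul_fromCols, h12, h22]
  have hdetT'S : (T' * S).det = (Cm * If).det := by
    rw [hT'S, det_fromBlocks_zero₁₂, det_one, mul_one]
  have hEIf : E * If = E.submatrix id Sum.inl := by
    ext i i'
    simp [If, Matrix.mul_apply]
  have hCmIf : A₀ * (Cm * If) = E.submatrix id Sum.inl := by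
    rw [← Matrix.mul_assoc, ← hE, hEIf]
  have hθ : (Cm * If).det = (E.submatrix id Sum.inl).det / A₀.det := by
    rw [← hCmIf, det_mul, mul_div_cancel_left₀ _ h0]
  have hTW : ∀ i j, T i j ∈ W := by
    intro i j
    rcases j with j | j
    · simpa [T] using hP₀W i j
    · simpa [T] using hUW i j
  have hT'W : ∀ i j, T' i j ∈ W := by
    intro i j
    rcases i with i | i
    · simpa [T'] using hCmW i j
    · simpa [T'] using hAmW i j
  refine ⟨T.det, s27ld_unit_of_mul_eq_one W T T' hTW hT'W hTT', ?_⟩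
  have hST : S = T * (T' * S) := by
    rw [← Matrix.mul_assoc, hTT', Matrix.one_mul]
  rw [← hdetS, ← hθ, ← hdetT'S, ← det_mul, ← hST]

/-- Existence of a `W`-basis of the kernel lattice (so that `s27ld_dual` is never vacuous):
the vectors `x_j − ∑_k c_{jk} x_{σ₀ k}` span the `W`-points of the kernel. -/
theorem s27ld_ker_span (E : Matrix ι (ι ⊕ κ) 𝔏)
    (σ₀ : ι → ι ⊕ κ) (h0 : (E.submatrix id σ₀).det ≠ 0)
    (hmin : ∀ σ : ι → ι ⊕ κ, (E.submatrix id σ).det / (E.submatrix id σ₀).det ∈ W) :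
    ∃ Z : Matrix (ι ⊕ κ) (ι ⊕ κ) 𝔏, E * Z = 0 ∧ (∀ j l, Z j l ∈ W) ∧
      ∀ p : ι ⊕ κ → 𝔏, E *ᵥ p = 0 → (∀ j, p j ∈ W) → p = Z *ᵥ p := by
  classical
  set A₀ : Matrix ι ι 𝔏 := E.submatrix id σ₀ with hA₀
  have hcr : ∀ j : ι ⊕ κ, ∃ c : ι → 𝔏, (∀ k, c k ∈ W) ∧
      (fun i => E i j) = ∑ k, c k • (fun i => E i (σ₀ k)) :=
    fun j => s27dm_span W (fun j i => E i j) σ₀ h0 hmin j
  choose c hcW hc using hcr
  let Cm : Matrix ι (ι ⊕ κ) 𝔏 := Matrix.of fun k j => c j k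
  have hE : E = A₀ * Cm := by
    ext i j
    have h1 := congrFun (hc j) i
    simp only [Finset.sum_apply, Pi.smul_apply, smul_eq_mul] at h1
    rw [h1, Matrix.mul_apply]
    refine Finset.sum_congr rfl fun k _ => ?_
    simp [hA₀, Cm, mul_comm]
  let P₀ : Matrix (ι ⊕ κ) ι 𝔏 := Matrix.of fun j k => if j = σ₀ k then 1 else 0
  have hEP₀ : E * P₀ = A₀ := by
    ext i k
    simp [P₀, Matrix.mul_apply, hA₀]
  have hP₀W : ∀ j k, P₀ j k ∈ W := by
    intro j k
    simp only [P₀, Matrix.of_apply]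
    split_ifs
    · exact W.one_mem
    · exact W.zero_mem
  refine ⟨1 - P₀ * Cm, ?_, ?_, ?_⟩
  · rw [Matrix.mul_sub, Matrix.mul_one, ← Matrix.mul_assoc, hEP₀, ← hE, sub_self]
  · intro j' j
    rw [Matrix.sub_apply]
    refine sub_mem ?_ ?_
    · rw [Matrix.one_apply]
      split_ifs
      · exact W.one_mem
      · exact W.zero_mem
    · rw [Matrix.mul_apply]
      exact Subring.sum_mem W.toSubring fun k _ => W.mul_mem _ _ (hP₀W j' k) (hcW j k)
  · intro p hp _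
    have hA₀inv : Cm *ᵥ p = 0 := by
      have h1 : A₀ *ᵥ (Cm *ᵥ p) = 0 := by
        rw [Matrix.mulVec_mulVec, ← hE, hp]
      have hu : IsUnit A₀.det := isUnit_iff_ne_zero.mpr h0
      have h2 : A₀⁻¹ *ᵥ (A₀ *ᵥ (Cm *ᵥ p)) = 0 := by rw [h1, Matrix.mulVec_zero]
      rwa [Matrix.mulVec_mulVec, Matrix.nonsing_inv_mul _ hu, Matrix.one_mulVec] at h2
    rw [Matrix.sub_mulVec, Matrix.one_mulVec, ← Matrix.mulVec_mulVec, hA₀inv,
      Matrix.mulVec_zero, sub_zero]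

/-- **Core of LE (general form, degrees `N = |ι|`, `N' = |ι'|` may differ).**
`E`, `E'` the evaluation matrices at `D`, `D'` of bases of `L(A₁ + G)`, `L(A₂ + G)`; `U`, `U'`
coordinates of `W`-bases of the two kernel lattices; if the principal parts at `G` are related
by a matrix `M` with `det M` a unit of `W` (multiplication by the Gauss-normalised `h`,
`div h = (A₁ − D) − (A₂ − D')`, at the points of `G`), then the two point formulas agree up
to a unit of `W`. -/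
theorem s27ld_le_core {ι' : Type*} [Fintype ι'] [DecidableEq ι']
    (E : Matrix ι (ι ⊕ κ) 𝔏) (E' : Matrix ι' (ι' ⊕ κ) 𝔏)
    (U : Matrix (ι ⊕ κ) κ 𝔏) (U' : Matrix (ι' ⊕ κ) κ 𝔏)
    (hUW : ∀ j l, U j l ∈ W)
    (hsat : ∀ p : ι ⊕ κ → 𝔏, E *ᵥ p = 0 → (∀ j, p j ∈ W) →
      ∃ a : κ → 𝔏, (∀ l, a l ∈ W) ∧ p = U *ᵥ a)
    (hUW' : ∀ j l, U' j l ∈ W)
    (hsat' : ∀ p : ι' ⊕ κ → 𝔏, E' *ᵥ p = 0 → (∀ j, p j ∈ W) →
      ∃ a : κ → 𝔏, (∀ l, a l ∈ W) ∧ p = U' *ᵥ a)
    (σ₀ : ι → ι ⊕ κ) (σ₀' : ι' → ι' ⊕ κ) (h0 : (E.submatrix id σ₀).det ≠ 0)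
    (hmin : ∀ σ : ι → ι ⊕ κ, (E.submatrix id σ).det / (E.submatrix id σ₀).det ∈ W)
    (h0' : (E'.submatrix id σ₀').det ≠ 0)
    (hmin' : ∀ σ : ι' → ι' ⊕ κ, (E'.submatrix id σ).det / (E'.submatrix id σ₀').det ∈ W)
    (M : Matrix κ κ 𝔏) (hM : S27ldUnit W M.det)
    (hMU : U'.submatrix Sum.inr id = M * U.submatrix Sum.inr id) :
    ∃ c : 𝔏, S27ldUnit W c ∧
      (E'.submatrix id Sum.inl).det / (E'.submatrix id σ₀').det
        = c * ((E.submatrix id Sum.inl).det / (E.submatrix id σ₀).det) := by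
  obtain ⟨c₁, hc₁, h₁⟩ := s27ld_dual W E U hUW hsat σ₀ h0 hmin
  obtain ⟨c₂, hc₂, h₂⟩ := s27ld_dual W E' U' hUW' hsat' σ₀' h0' hmin'
  refine ⟨c₂⁻¹ * (M.det * c₁), s27ld_unit_mul W (s27ld_unit_inv W hc₂)
    (s27ld_unit_mul W hM hc₁), ?_⟩
  have h3 : (U'.submatrix Sum.inr id).det = M.det * (U.submatrix Sum.inr id).det := by
    rw [hMU, det_mul]
  rw [h₂, h₁] at h3
  have hc₂ne : c₂ ≠ 0 := hc₂.2.2
  have h4 : (E'.submatrix id Sum.inl).det / (E'.submatrix id σ₀').det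
      = c₂⁻¹ * (M.det * (c₁ * ((E.submatrix id Sum.inl).det / (E.submatrix id σ₀).det))) := by
    rw [← h3, ← mul_assoc, inv_mul_cancel₀ hc₂ne, one_mul]
  rw [h4]
  ring

end dual

end Fermat.Agent.S27
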