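/-
S27-B, leaf POLE-DIV (C3), twin with ONE function τ and the existence of τ (helper4): THE SECTION `p₀`.
(helper33 landed the same leaf first as S27/PoleDivSec.lean, prefix s27pd3_; this file has its own prefix s27pds_.)

Setting of NOTES/S27-LE.md / helper46's POLE-DIV plan: `W ⊇ K` a valuation subring of `𝔏`,
points `R i : F →ₐ[K] 𝔏` (`i < n`), `O` a place of `F / K` (the constant point `O″`), `s` a local
parameter at `O`.

    `p₀ := ∏_i (τ_i ⊗ 1 − 1 ⊗ R_i τ_i)  ∈  F ⊗_K 𝔏`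

vanishes at every point `R k`, has `W`-integral coordinates, and its value at `O` is
`∏_i (τ_i(O) − R_i τ_i)`, which is `γ · (unit of W)`, `γ := ∏_{i ↦ O} R_i s`, as soon as `τ_i` is a
local parameter at `O` and a unit at the other closed centres.

COORDINATES: `x : J → F` any family (a `K`-basis of `L_K(A⁺ + G)`), `a S : J → K` the coordinates
of the monomial `∏_{i ∈ S} τ_i` (`hx`), `j₀ : J` the index whose coordinate is the value at `O`
(`hj₀ : a S j₀ = ∏_{i ∈ S} ε_i`, `ε_i = τ_i(O)`).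

* `s27pdsP R τ a`        : the coordinates of `p₀`;
* `s27pds_mem`           : `p₀ j ∈ W`;
* `s27pds_eval`          : `Σ_j ρ (x j) · p₀ j = ∏_i (ρ τ_i − R_i τ_i)` for every point `ρ`;
* `s27pds_vanish`        : `Σ_j R k (x j) · p₀ j = 0`  (`p₀ ∈ S⁺`);
* `s27pds_value`         : `p₀ j₀ = ∏_i (ε_i − R_i τ_i)`;
* `s27pdsGamma W R O s`  : `γ = ∏_{i ↦ O} R_i s`;
* `s27pds_gamma`         : `∏_i (0 − R_i τ_i) = u · γ`, `u` a unit of `W`;
* `s27pds_exists_tau`    : weak approximation: `τ` with `ord_O τ = 1`, `ord_Q τ = 0` on a finite set;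
* `s27pds_centres_finite`: the closed centres of finitely many points form a finite set;
* **`s27pds_main`**      : ONE `τ` for all points: `∃ τ`, regular at `O`, at the closed centres and on
                           a given finite set `T`, such that for every coordinate system `(x, j₀, a)`
                           of the powers `1, τ, …, τⁿ` the section `p₀` has `p₀ j ∈ W`,
                           `Σ_j R k (x j) p₀ j = 0`, `p₀ j₀ = u · γ` (`u ∈ Wˣ`), `p₀ j₀ ≠ 0`.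
-/
import Fermat.Agent.S27.PtDef
import Fermat.Agent.S27.AdExPred
import Fermat.Agent.S27.LeDual

set_option autoImplicit false
set_option linter.unusedVariables false
set_option linter.unusedSectionVars false
set_option linter.style.haveILetI false

noncomputable section

namespace Fermat.Agent.S27

open AlgebraicCurve WithZero
open Fermat.Agent.S24.PlaceAux

universe u v w x

section Core

variable {K : Type u} {F : Type v} [Field K] [Field F] [Algebra K F]
variable {𝔏 : Type w} [Field 𝔏] [Algebra K 𝔏]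
variable {n : ℕ} {J : Type x} [Fintype J]

/-- the coordinates of the section `p₀ = ∏_i (τ_i ⊗ 1 − 1 ⊗ R_i τ_i)`; `a S` = the coordinates of
the monomial `∏_{i ∈ S} τ_i`. -/
def s27pdsP (R : Fin n → F →ₐ[K] 𝔏) (τ : Fin n → F) (a : Finset (Fin n) → J → K) (j : J) : 𝔏 :=
  ∑ S ∈ (Finset.univ : Finset (Fin n)).powerset,
    algebraMap K 𝔏 (a S j) * ∏ i ∈ Finset.univ \ S, (-(R i (τ i)))

/-- `p₀` has `W`-integral coordinates. -/
theorem s27pds_mem (W : ValuationSubring 𝔏) (hW : ∀ c : K, algebraMap K 𝔏 c ∈ W)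
    (R : Fin n → F →ₐ[K] 𝔏) (τ : Fin n → F) (hτ : ∀ i, R i (τ i) ∈ W)
    (a : Finset (Fin n) → J → K) (j : J) : s27pdsP R τ a j ∈ W := by
  unfold s27pdsP
  exact W.toSubring.sum_mem fun S _ =>
    W.mul_mem _ _ (hW _) (W.toSubring.prod_mem fun i _ => W.neg_mem _ (hτ i))

/-- the value of `p₀` at a point `ρ`. -/
theorem s27pds_eval (R : Fin n → F →ₐ[K] 𝔏) (τ : Fin n → F) (x : J → F)
    (a : Finset (Fin n) → J → K) (hx : ∀ S, ∏ i ∈ S, τ i = ∑ j, a S j • x j)
    (ρ : F →ₐ[K] 𝔏) :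
    ∑ j, ρ (x j) * s27pdsP R τ a j = ∏ i, (ρ (τ i) - R i (τ i)) := by
  have hmono : ∀ S : Finset (Fin n),
      ∑ j, ρ (x j) * algebraMap K 𝔏 (a S j) = ∏ i ∈ S, ρ (τ i) := by
    intro S
    rw [← map_prod, hx S, map_sum]
    refine Finset.sum_congr rfl fun j _ => ?_
    rw [Algebra.smul_def, map_mul, AlgHom.commutes, mul_comm]
  have hR : ∏ i, (ρ (τ i) - R i (τ i)) =
      ∑ S ∈ (Finset.univ : Finset (Fin n)).powerset,
        (∏ i ∈ S, ρ (τ i)) * ∏ i ∈ Finset.univ \ S, (-(R i (τ i))) := by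
    rw [← Finset.prod_add]
    exact Finset.prod_congr rfl fun i _ => sub_eq_add_neg _ _
  rw [hR]
  unfold s27pdsP
  simp_rw [Finset.mul_sum]
  rw [Finset.sum_comm]
  refine Finset.sum_congr rfl fun S _ => ?_
  rw [← hmono S, Finset.sum_mul]
  exact Finset.sum_congr rfl fun j _ => (mul_assoc _ _ _).symm

/-- `p₀` vanishes at the points: `p₀ ∈ S⁺`. -/
theorem s27pds_vanish (R : Fin n → F →ₐ[K] 𝔏) (τ : Fin n → F) (x : J → F)
    (a : Finset (Fin n) → J → K) (hx : ∀ S, ∏ i ∈ S, τ i = ∑ j, a S j • x j) (k : Fin n) :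
    ∑ j, R k (x j) * s27pdsP R τ a j = 0 := by
  rw [s27pds_eval R τ x a hx (R k)]
  exact Finset.prod_eq_zero (Finset.mem_univ k) (sub_self _)

/-- the value of `p₀` at `O`: the coordinate `j₀`. -/
theorem s27pds_value (R : Fin n → F →ₐ[K] 𝔏) (τ : Fin n → F) (a : Finset (Fin n) → J → K)
    (j₀ : J) (ε : Fin n → K) (hj₀ : ∀ S, a S j₀ = ∏ i ∈ S, ε i) :
    s27pdsP R τ a j₀ = ∏ i, (algebraMap K 𝔏 (ε i) - R i (τ i)) := by
  have hR : ∏ i, (algebraMap K 𝔏 (ε i) - R i (τ i)) =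
      ∑ S ∈ (Finset.univ : Finset (Fin n)).powerset,
        (∏ i ∈ S, algebraMap K 𝔏 (ε i)) * ∏ i ∈ Finset.univ \ S, (-(R i (τ i))) := by
    rw [← Finset.prod_add]
    exact Finset.prod_congr rfl fun i _ => sub_eq_add_neg _ _
  rw [hR]
  unfold s27pdsP
  refine Finset.sum_congr rfl fun S _ => ?_
  rw [hj₀ S, map_prod]

end Core

section Gamma

variable {K : Type u} {F : Type v} [Field K] [Field F] [Algebra K F]
variable {𝔏 : Type w} [Field 𝔏] [Algebra K 𝔏]
variable {n : ℕ}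

open Classical in
/-- `γ = ∏_{i ↦ O} R_i s`: the product of the values of the local parameter `s` of `O` at the
points whose centre along `W` is `O`. -/
def s27pdsGamma (W : ValuationSubring 𝔏) (R : Fin n → F →ₐ[K] 𝔏) (O : Place K F) (s : F) : 𝔏 :=
  ∏ i, if S27ptIsCentre W (R i) O then R i s else 1

theorem s27pds_gamma_ne_zero (W : ValuationSubring 𝔏) (R : Fin n → F →ₐ[K] 𝔏) (O : Place K F)
    {s : F} (hs0 : s ≠ 0) : s27pdsGamma W R O s ≠ 0 := by
  classical
  unfold s27pdsGamma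
  refine Finset.prod_ne_zero_iff.mpr fun i _ => ?_
  split_ifs
  · exact (map_ne_zero (R i)).mpr hs0
  · exact one_ne_zero

theorem s27pds_unit_prod (W : ValuationSubring 𝔏) {ι : Type*} (t : Finset ι) (f : ι → 𝔏)
    (h : ∀ i ∈ t, S27ldUnit W (f i)) : S27ldUnit W (∏ i ∈ t, f i) :=
  Finset.prod_induction f (S27ldUnit W) (fun _ _ ha hb => s27ld_unit_mul W ha hb)
    (s27ld_unit_one W) h

/-- an element of order `0` at the centre `Q` of `R₀` is mapped to a unit of `W`. -/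
theorem s27pds_unit_of_ord_zero (W : ValuationSubring 𝔏) (R₀ : F →ₐ[K] 𝔏) (Q : Place K F)
    (hQ : S27ptIsCentre W R₀ Q) {t : F} (ht0 : t ≠ 0) (ht : Q.ord t = 0) :
    S27ldUnit W (R₀ t) := by
  have hQ' : W.comap (R₀ : F →+* 𝔏) = Q.toValuationSubring := hQ
  have h1 : t ∈ Q.toValuationSubring := mem_of_ord_nonneg Q (by rw [ht])
  have h2 : t⁻¹ ∈ Q.toValuationSubring := mem_of_ord_nonneg Q (by rw [Q.ord_inv, ht, neg_zero])
  rw [← hQ'] at h1 h2
  refine ⟨h1, ?_, (map_ne_zero R₀).mpr ht0⟩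
  rw [← map_inv₀]
  exact h2

/-- one factor: `0 − R₀ t = u · (R₀ s` or `1)`. -/
theorem s27pds_factor (W : ValuationSubring 𝔏) (R₀ : F →ₐ[K] 𝔏) (O : Place K F)
    {s : F} (hs0 : s ≠ 0) (hs : O.ord s = 1) {t : F} (ht0 : t ≠ 0)
    (hO : S27ptIsCentre W R₀ O → O.ord t = 1)
    (hQ : ∀ Q : Place K F, Q ≠ O → S27ptIsCentre W R₀ Q → Q.ord t = 0)
    (hred : (∀ f : F, R₀ f ∈ W) ∨ ∃ Q : Place K F, S27ptIsCentre W R₀ Q)
    [Decidable (S27ptIsCentre W R₀ O)] :
    ∃ u : 𝔏, S27ldUnit W u ∧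
      (0 - R₀ t) = u * (if S27ptIsCentre W R₀ O then R₀ s else 1) := by
  by_cases hc : S27ptIsCentre W R₀ O
  · rw [if_pos hc]
    have hv0 : t / s ≠ 0 := div_ne_zero ht0 hs0
    have hord : O.ord (t / s) = 0 := by
      rw [div_eq_mul_inv, O.ord_mul ht0 (inv_ne_zero hs0), O.ord_inv, hO hc, hs]
      norm_num
    have hu := s27pds_unit_of_ord_zero W R₀ O hc hv0 hord
    refine ⟨-(R₀ (t / s)), ⟨W.neg_mem _ hu.1, ?_, neg_ne_zero.mpr hu.2.2⟩, ?_⟩
    · rw [inv_neg]
      exact W.neg_mem _ hu.2.1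
    · rw [zero_sub, neg_mul, ← map_mul, div_mul_cancel₀ t hs0]
  · rw [if_neg hc]
    have key : S27ldUnit W (R₀ t) := by
      rcases hred with hgen | ⟨Q, hQc⟩
      · refine ⟨hgen t, ?_, (map_ne_zero R₀).mpr ht0⟩
        rw [← map_inv₀]
        exact hgen _
      · have hQO : Q ≠ O := fun h => hc (h ▸ hQc)
        exact s27pds_unit_of_ord_zero W R₀ Q hQc ht0 (hQ Q hQO hQc)
    refine ⟨0 - R₀ t, ⟨?_, ?_, ?_⟩, (mul_one _).symm⟩
    · rw [zero_sub]
      exact W.neg_mem _ key.1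
    · rw [zero_sub, inv_neg]
      exact W.neg_mem _ key.2.1
    · rw [zero_sub]
      exact neg_ne_zero.mpr key.2.2

/-- **the value of `p₀` at `O` is `γ` up to a unit of `W`.** -/
theorem s27pds_gamma (W : ValuationSubring 𝔏) (R : Fin n → F →ₐ[K] 𝔏) (O : Place K F)
    {s : F} (hs0 : s ≠ 0) (hs : O.ord s = 1) (τ : Fin n → F) (hτ0 : ∀ i, τ i ≠ 0)
    (hO : ∀ i, S27ptIsCentre W (R i) O → O.ord (τ i) = 1)
    (hQ : ∀ i (Q : Place K F), Q ≠ O → S27ptIsCentre W (R i) Q → Q.ord (τ i) = 0)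
    (hred : ∀ i, (∀ f : F, R i f ∈ W) ∨ ∃ Q : Place K F, S27ptIsCentre W (R i) Q) :
    ∃ u : 𝔏, S27ldUnit W u ∧ ∏ i, (0 - R i (τ i)) = u * s27pdsGamma W R O s := by
  classical
  choose u hu1 hu2 using fun i =>
    s27pds_factor W (R i) O hs0 hs (hτ0 i) (hO i) (hQ i) (hred i)
  refine ⟨∏ i, u i, s27pds_unit_prod W _ u fun i _ => hu1 i, ?_⟩
  unfold s27pdsGamma
  rw [← Finset.prod_mul_distrib]
  exact Finset.prod_congr rfl fun i _ => hu2 i

end Gamma

section Tau

variable {K : Type u} {F : Type v} [Field K] [Field F] [Algebra K F]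
variable {𝔏 : Type w} [Field 𝔏] [Algebra K 𝔏]
variable {n : ℕ}

/-- approximation to a precision finer than the order keeps the order. -/
theorem s27pds_ord_of_approx (v : Place K F) (z y : F) (hy : y ≠ 0) (N : ℕ)
    (hN : v.ord y < N) (h : v.adicValuation (z - y) ≤ exp (-(N : ℤ))) : v.ord z = v.ord y := by
  rcases eq_or_ne (z - y) 0 with h0 | h0
  · rw [sub_eq_zero.mp h0]
  · have h1 : (N : ℤ) ≤ v.ord (z - y) := by
      rw [adicValuation_eq_exp_neg_ord v h0, WithZero.exp_le_exp] at h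
      omega
    have h2 := ord_add_eq_of_lt v hy h0 (lt_of_lt_of_le hN h1)
    rwa [add_sub_cancel] at h2

/-- **weak approximation**: a function with a simple zero at `O` and of order `0` on a finite
set of other places. -/
theorem s27pds_exists_tau (O : Place K F) (T : Finset (Place K F)) :
    ∃ τ : F, τ ≠ 0 ∧ O.ord τ = 1 ∧ ∀ Q ∈ T, Q ≠ O → Q.ord τ = 0 := by
  classical
  obtain ⟨s, hs0, hs1⟩ := s27adex_exists_unif O
  let u : ↥(insert O T) → Place K F := fun q => q.1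
  have hu : Function.Injective u := fun a b h => Subtype.ext h
  obtain ⟨z, hz⟩ := s27adex_approx u hu (fun q => if q.1 = O then s else 1) 2
  have hzO : O.ord z = 1 := by
    have h := hz ⟨O, Finset.mem_insert_self O T⟩
    simp only [u, if_true] at h
    rw [s27pds_ord_of_approx O z s hs0 2 (by rw [hs1]; norm_num) h, hs1]
  refine ⟨z, ?_, hzO, fun Q hQT hQO => ?_⟩
  · rintro rfl
    rw [Place.ord_zero] at hzO
    exact zero_ne_one hzO
  · have h := hz ⟨Q, Finset.mem_insert_of_mem hQT⟩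
    simp only [u, if_neg hQO] at h
    rw [s27pds_ord_of_approx Q z 1 one_ne_zero 2 (by rw [Place.ord_one]; norm_num) h,
      Place.ord_one]

/-- the closed centres of finitely many points form a finite set. -/
theorem s27pds_exists_centres (W : ValuationSubring 𝔏) (R : Fin n → F →ₐ[K] 𝔏) :
    ∃ T : Finset (Place K F), ∀ i Q, S27ptIsCentre W (R i) Q → Q ∈ T := by
  classical
  refine ⟨Finset.univ.biUnion fun i =>
    if h : ∃ Q, S27ptIsCentre W (R i) Q then {Classical.choose h} else ∅, fun i Q hQ => ?_⟩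
  rw [Finset.mem_biUnion]
  refine ⟨i, Finset.mem_univ i, ?_⟩
  have h : ∃ Q, S27ptIsCentre W (R i) Q := ⟨Q, hQ⟩
  rw [dif_pos h, Finset.mem_singleton]
  have h1 : W.comap (R i : F →+* 𝔏) = (Classical.choose h).toValuationSubring :=
    Classical.choose_spec h
  have h2 : W.comap (R i : F →+* 𝔏) = Q.toValuationSubring := hQ
  exact Place.ext (h2.symm.trans h1)

end Tau

section Main

variable {K : Type u} {F : Type v} [Field K] [Field F] [Algebra K F]
variable {𝔏 : Type w} [Field 𝔏] [Algebra K 𝔏]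
variable {n : ℕ}

/-- **POLE-DIV (C3), abstract reduction**: ONE function `τ`, a local parameter at `O` and a unit at
the other closed centres, gives the section `p₀ = ∏_i (τ ⊗ 1 − 1 ⊗ R_i τ)` in EVERY coordinate
system `(x, j₀, a)` of the powers `1, τ, …, τⁿ` (`a k` = the coordinates of `τ ^ k`, the coordinate
`j₀` = the value at `O`). -/
theorem s27pds_of_tau (W : ValuationSubring 𝔏) (hW : ∀ c : K, algebraMap K 𝔏 c ∈ W)
    (R : Fin n → F →ₐ[K] 𝔏) (O : Place K F) {s : F} (hs0 : s ≠ 0) (hs : O.ord s = 1)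
    (hred : ∀ i, (∀ f : F, R i f ∈ W) ∨ ∃ Q : Place K F, S27ptIsCentre W (R i) Q)
    {τ : F} (hτ0 : τ ≠ 0) (hτO : O.ord τ = 1)
    (hτQ : ∀ i (Q : Place K F), Q ≠ O → S27ptIsCentre W (R i) Q → Q.ord τ = 0)
    {J : Type x} [Fintype J] (x : J → F) (j₀ : J) (a : ℕ → J → K)
    (hx : ∀ k, k ≤ n → τ ^ k = ∑ j, a k j • x j)
    (hj₀ : ∀ k, k ≤ n → a k j₀ = if k = 0 then 1 else 0) :
    ∃ p₀ : J → 𝔏, (∀ j, p₀ j ∈ W) ∧ (∀ i, ∑ j, R i (x j) * p₀ j = 0) ∧ p₀ j₀ ≠ 0 ∧
      ∃ u : 𝔏, S27ldUnit W u ∧ p₀ j₀ = u * s27pdsGamma W R O s := by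
  classical
  have hcard : ∀ S : Finset (Fin n), S.card ≤ n := fun S => by
    have h := Finset.card_le_univ S
    rwa [Fintype.card_fin] at h
  have hτW : ∀ i, R i τ ∈ W := by
    intro i
    rcases hred i with hgen | ⟨Q, hQ⟩
    · exact hgen τ
    · have hQ' : W.comap (R i : F →+* 𝔏) = Q.toValuationSubring := hQ
      have hmem : τ ∈ Q.toValuationSubring := by
        apply mem_of_ord_nonneg
        by_cases hQO : Q = O
        · rw [hQO, hτO]
          norm_num
        · rw [hτQ i Q hQO hQ]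
      rw [← hQ'] at hmem
      exact hmem
  have hx' : ∀ S : Finset (Fin n), ∏ i ∈ S, (fun _ : Fin n => τ) i =
      ∑ j, (fun S : Finset (Fin n) => a S.card) S j • x j := by
    intro S
    rw [Finset.prod_const]
    exact hx S.card (hcard S)
  have hj₀' : ∀ S : Finset (Fin n), (fun S : Finset (Fin n) => a S.card) S j₀ =
      ∏ i ∈ S, (fun _ : Fin n => (0 : K)) i := by
    intro S
    rw [Finset.prod_const, zero_pow_eq]
    exact hj₀ S.card (hcard S)
  have hval := s27pds_value R (fun _ => τ) (fun S : Finset (Fin n) => a S.card) j₀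
    (fun _ => (0 : K)) hj₀'
  simp only [map_zero] at hval
  obtain ⟨u, hu, hgam⟩ := s27pds_gamma W R O hs0 hs (fun _ => τ) (fun _ => hτ0)
    (fun i _ => hτO) (fun i Q hQO hQ => hτQ i Q hQO hQ) hred
  refine ⟨s27pdsP R (fun _ => τ) (fun S : Finset (Fin n) => a S.card),
    fun j => s27pds_mem W hW R _ hτW _ j,
    fun i => s27pds_vanish R _ x _ hx' i, ?_, u, hu, ?_⟩
  · rw [hval, hgam]
    exact mul_ne_zero hu.2.2 (s27pds_gamma_ne_zero W R O hs0)
  · rw [hval, hgam]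

/-- **POLE-DIV (C3)** on a curve: `∃ τ`, a local parameter at `O`, of order `0` on the given finite
set `T` of places and at the closed centres `≠ O` of the points `R i`, such that the section
`p₀ = ∏_i (τ ⊗ 1 − 1 ⊗ R_i τ)` exists in every coordinate system of the powers of `τ`:
`p₀ j ∈ W`, `p₀ ∈ S⁺` (vanishes at the points), `p₀(O) = p₀ j₀ = u · γ ≠ 0`, `u ∈ Wˣ`. -/
theorem s27pds_main (x₀ : F) (hx₀ : Transcendental K x₀)
    [FiniteDimensional ↥(IntermediateField.adjoin K {x₀}) F]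
    (W : ValuationSubring 𝔏) (hW : ∀ c : K, algebraMap K 𝔏 c ∈ W)
    (R : Fin n → F →ₐ[K] 𝔏) (O : Place K F) {s : F} (hs0 : s ≠ 0) (hs : O.ord s = 1)
    (T : Finset (Place K F)) :
    ∃ τ : F, τ ≠ 0 ∧ O.ord τ = 1 ∧ (∀ Q ∈ T, Q ≠ O → Q.ord τ = 0) ∧
      (∀ i (Q : Place K F), Q ≠ O → S27ptIsCentre W (R i) Q → Q.ord τ = 0) ∧
      (∀ i, R i τ ∈ W) ∧
      ∀ {J : Type x} [Fintype J] (x : J → F) (j₀ : J) (a : ℕ → J → K),
        (∀ k, k ≤ n → τ ^ k = ∑ j, a k j • x j) →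
        (∀ k, k ≤ n → a k j₀ = if k = 0 then 1 else 0) →
        ∃ p₀ : J → 𝔏, (∀ j, p₀ j ∈ W) ∧ (∀ i, ∑ j, R i (x j) * p₀ j = 0) ∧ p₀ j₀ ≠ 0 ∧
          ∃ u : 𝔏, S27ldUnit W u ∧ p₀ j₀ = u * s27pdsGamma W R O s := by
  classical
  obtain ⟨T₁, hT₁⟩ := s27pds_exists_centres W R
  obtain ⟨τ, hτ0, hτO, hτT⟩ := s27pds_exists_tau O (T ∪ T₁)
  have hred : ∀ i, (∀ f : F, R i f ∈ W) ∨ ∃ Q : Place K F, S27ptIsCentre W (R i) Q :=
    fun i => s27adex_hred_curve x₀ hx₀ W hW (R i)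
  have hτQ : ∀ i (Q : Place K F), Q ≠ O → S27ptIsCentre W (R i) Q → Q.ord τ = 0 :=
    fun i Q hQO hQ => hτT Q (Finset.mem_union_right _ (hT₁ i Q hQ)) hQO
  have hτW : ∀ i, R i τ ∈ W := by
    intro i
    rcases hred i with hgen | ⟨Q, hQ⟩
    · exact hgen τ
    · have hQ' : W.comap (R i : F →+* 𝔏) = Q.toValuationSubring := hQ
      have hmem : τ ∈ Q.toValuationSubring := by
        apply mem_of_ord_nonneg
        by_cases hQO : Q = O
        · rw [hQO, hτO]
          norm_num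
        · rw [hτQ i Q hQO hQ]
      rw [← hQ'] at hmem
      exact hmem
  refine ⟨τ, hτ0, hτO, fun Q hQ hQO => hτT Q (Finset.mem_union_left _ hQ) hQO, hτQ, hτW, ?_⟩
  intro J _ x j₀ a hx hj₀
  exact s27pds_of_tau W hW R O hs0 hs hred hτ0 hτO hτQ x j₀ a hx hj₀

end Main

end Fermat.Agent.S27

end
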