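/-
S27-B, piece **H2-TOP, Γ-form** (helper41): the (POLE-DIV on `L`) input `hPDA` of `s27gh2_isGrow`
(S27/GrowH2.lean) in the LITERAL conclusion shape of helper46's `s27pda_main`
(`x = w * s27pdsGamma W p O s`, `s27pdsGamma` of helper4's S27/PoleDivSecT.lean).

* `s27gh3_gamma_eq` : `s27pdsGamma W R O s = ∏ i ∈ {i | R i ↦ O}, R i s`;
* `s27gh3_pda`      : the Γ-form ⇒ `hPDA`;
* **`s27gh3_isGrow`** : the GROWTH clause for `β = s27beta A'` from (f₀), (LAT-EX), (CUBE₁), the spec
                      of `ψ (−1)` and (POLE-DIV on `L`) in Γ-form.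
-/
import Fermat.Agent.S27.GrowH2
import Fermat.Agent.S27.PoleDivSecT

set_option autoImplicit false
set_option linter.unusedVariables false
set_option linter.unusedSectionVars false
set_option linter.style.haveILetI false

noncomputable section

namespace Fermat.Agent.S27

open AlgebraicCurve Module IntermediateField Fermat.Agent.S26

universe u v w'

section Gamma

variable {K : Type u} {F : Type v} [Field K] [Field F] [Algebra K F]
variable {𝔏 : Type w'} [Field 𝔏] [Algebra K 𝔏] {n : ℕ}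

open Classical in
/-- `γ` as a product over the centre set. -/
theorem s27gh3_gamma_eq (W : ValuationSubring 𝔏) (R : Fin n → F →ₐ[K] 𝔏) (O : Place K F)
    (s : F) :
    s27pdsGamma W R O s =
      ∏ i ∈ Finset.univ.filter (fun i : Fin n => S27ptIsCentre W (R i) O), R i s := by
  unfold s27pdsGamma
  rw [Finset.prod_filter]

end Gamma

section H3

variable {K : Type u} {F : Type v} [Field K] [IsAlgClosed K] [Field F] [Algebra K F] {g : ℕ}
variable {L : Type w'} [Field L] [Algebra K L] [Algebra (s27gfOm K F g) L]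
  [IsScalarTower K (s27gfOm K F g) L]

/-- the Γ-form of (POLE-DIV on `L`) gives the input `hPDA` of `s27gh2_main` / `s27gh2_isGrow`. -/
theorem s27gh3_pda (q : Fin g → F →ₐ[K] L) (A' : Divisor K F) (O : Place K F)
    (hΓ : ∀ s : F, O.ord s = 1 → ∀ W : ValuationSubring L, S27IsKValU K W → ∀ x : L,
      S27ptIsIdx W q A' x →
      ∃ w ∈ W, x = w * s27pdsGamma W (s27pnTaut (K := K) (F := F) (g := g) (L := L)) O s) :
    ∀ s : F, O.ord s = 1 → ∀ W : ValuationSubring L, S27IsKValU K W → ∀ x : L,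
      S27ptIsIdx W q A' x →
      ∃ (I : Finset (Fin g)) (w : L),
        (∀ i, i ∈ I ↔ S27ptIsCentre W (s27pnTaut (K := K) (F := F) (g := g) (L := L) i) O) ∧
        w ∈ W ∧ x = w * ∏ i ∈ I, s27pnTaut (K := K) (F := F) (g := g) (L := L) i s := by
  classical
  intro s hs W hW x hx
  obtain ⟨w, hw, hxw⟩ := hΓ s hs W hW x hx
  refine ⟨Finset.univ.filter (fun i : Fin g =>
      S27ptIsCentre W (s27pnTaut (K := K) (F := F) (g := g) (L := L) i) O), w, fun i => ?_, hw, ?_⟩
  · simp only [Finset.mem_filter, Finset.mem_univ, true_and]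
  · rw [hxw, s27gh3_gamma_eq]

/-- **GROW-TOP on the stage, Γ-form**: the GROWTH clause for `β = s27beta A'` from (f₀),
(LAT-EX), (CUBE₁), the spec of `ψ (−1)`, and (POLE-DIV on `L`) in the literal conclusion shape
of `s27pda_main`. -/
theorem s27gh3_isGrow [CharZero K] [Algebra.EssFiniteType K F] [IsAlgClosed L]
    [Algebra.IsAlgebraic (s27gfOm K F g) L] (hg : 0 < g)
    {x : F} (hx : Transcendental K x) [FiniteDimensional K⟮x⟯ F] (O : Place K F)
    (ψ : ℤ → (s27gfSym K F g →ₐ[K] s27gfSym K F g)) (q : ℤ → Fin g → F →ₐ[K] L)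
    (hspec : ∃ he : Function.Injective (s27gfLiftR (q (-1))), ∀ s : s27gfSym K F g,
      algebraMap (s27gfOm K F g) L ((ψ (-1) s : s27gfSym K F g) : s27gfOm K F g) =
        s27psiT (q (-1)) he (s : s27gfOm K F g))
    (A' B₁ : Divisor K F) (hAB : A' ≤ B₁) (hB₁ : 0 ≤ B₁)
    (f₀ : Module.Basis (Fin g) K ↥(riemannRochSpace A'))
    (hlat : ∀ W : ValuationSubring (s27gfOm K F g),
      (∀ a : K, algebraMap K (s27gfOm K F g) a ∈ W) →
        ∃ φ : Fin g → F, S27ptIsLatBasis W (s27betaPt K F g) A' φ)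
    (e : ℕ) (he : 0 < e) (Φ : s27gfSym K F g) (hΦ : Φ ≠ 0)
    (hcube : ∀ V, S27IsKValU K V → ∃ u, S27IsUnitIn V u ∧
      (s27indB ψ (s27beta (g := g) A') (1 + 1) V *
          s27indB ψ (s27beta (g := g) A') (1 - 1) V) ^ e =
        u * Φ * (s27indB ψ (s27beta (g := g) A') 1 V ^ 2 *
          s27indB ψ (s27beta (g := g) A') 1 V *
          s27indB ψ (s27beta (g := g) A') (-1) V) ^ e)
    (hΓ : ∀ s : F, O.ord s = 1 → ∀ W : ValuationSubring L, S27IsKValU K W → ∀ x : L,
      S27ptIsIdx W (q (-1)) A' x →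
      ∃ w ∈ W, x = w * s27pdsGamma W (s27pnTaut (K := K) (F := F) (g := g) (L := L)) O s) :
    S27IsGrow K (fun V => s27indB ψ (s27beta (g := g) A') 1 V *
      s27indB ψ (s27beta (g := g) A') (-1) V) g :=
  s27gh2_isGrow hg hx O ψ q hspec A' B₁ hAB hB₁ f₀ hlat e he Φ hΦ hcube
    (s27gh3_pda (q (-1)) A' O hΓ)

end H3

end Fermat.Agent.S27

end
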