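/-
S27-B, piece **POLE-DIV** (= ALG-bound, the input `hdiv` of S27/GrowAsm.lean), abstract cores
(helper46).  Pure algebra over a valuation subring `W` of a field `𝔏`, Mathlib only.

SITUATION (NOTES: board note "S27-B POLE-DIV: decomposition").  `A = 2G₀ − O″`, `A⁺ = 2G₀`,
`D′` the residual divisor of the generic divisor `D_gen` (`D′ + D_gen ~ 2G₀`).  In the coordinates
of a `K`-basis `(f_l, 1, q_j)` of `L_K(A⁺ + G)` (`f_l ∈ L_K(A)`, `q_j ∈ L_K(A + G)`), `Z` = the
sections vanishing on `D′`, `j₀` = the coordinate of `1` (= the value at `O″`), `κ` = the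
principal parts at `G`; `u` a `W`-basis of `S = {p ∈ Z ∩ W^J : p j₀ = 0}`; `h` = the
Gauss-normalised function with divisor `D′ + D_gen − 2G₀` (no principal part: `h|κ = 0`).

* `s27pdc_cramer` (**C1**) : for every integral `p₀ ∈ Z`:
      `p₀ j₀ · det [(u k) j]_{j k ∈ κ} ∈ W · h j₀`;
* `s27pdc_newton_last` (**C2**, abstract) : values in Newton form which vanish at the nodes
      `i < n` have the value at the node `n` in `W · ∏_{j < n} (z n − z j)`;
* `s27pdc_combine` : (C1) + (C2) + (C3) ⇒ `m ∈ W · γ`.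
-/
import Mathlib
import Fermat.Agent.S27.EffLat

set_option autoImplicit false
set_option linter.unusedVariables false
set_option linter.unusedSectionVars false
set_option linter.style.haveILetI false

noncomputable section

namespace Fermat.Agent.S27

open Matrix

section Cramer

variable {𝔏 : Type*} [Field 𝔏] (W : ValuationSubring 𝔏)

/-- the determinant of a matrix with entries in `W` lies in `W` -/
theorem s27pdc_det_mem {κ : Type*} [Fintype κ] [DecidableEq κ] (U : Matrix κ κ 𝔏)
    (hU : ∀ j k, U j k ∈ W) : U.det ∈ W := by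
  have h : U = (Matrix.of fun j k => (⟨U j k, hU j k⟩ : W)).map W.subtype := by
    ext j k
    rfl
  rw [h, ← RingHom.mapMatrix_apply, ← RingHom.map_det]
  exact Subtype.property _

/-- the entries of `adjugate U *ᵥ b` lie in `W` if those of `U` and `b` do -/
theorem s27pdc_adj_mulVec_mem {κ : Type*} [Fintype κ] [DecidableEq κ] (U : Matrix κ κ 𝔏)
    (hU : ∀ j k, U j k ∈ W) (b : κ → 𝔏) (hb : ∀ j, b j ∈ W) (k : κ) :
    (U.adjugate *ᵥ b) k ∈ W := by
  have h : U = (Matrix.of fun j k => (⟨U j k, hU j k⟩ : W)).map W.subtype := by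
    ext j k
    rfl
  have hadj : ∀ i j, U.adjugate i j ∈ W := by
    intro i j
    rw [h, ← RingHom.mapMatrix_apply, ← RingHom.map_adjugate]
    exact Subtype.property _
  rw [Matrix.mulVec]
  exact W.toSubring.sum_mem fun j _ => W.mul_mem _ _ (hadj k j) (hb j)

/-- **(C1) CRAMER.**  `Z` the sections vanishing on `D′` (an `𝔏`-subspace of `J → 𝔏`), `u` a
family spanning over `W` the integral sections with `p j₀ = 0`, `h` an integral section without
principal part and with a unit coordinate, `p₀` any integral section.  Then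
`p₀ j₀ · det [(u k) (inκ j)] ∈ W · h j₀`. -/
theorem s27pdc_cramer {J κ : Type*} [Fintype κ] [DecidableEq κ] (inκ : κ → J) (j₀ : J)
    (Z : Submodule 𝔏 (J → 𝔏)) (u : κ → J → 𝔏)
    (huW : ∀ k j, u k j ∈ W)
    (hspan : ∀ p ∈ Z, (∀ j, p j ∈ W) → p j₀ = 0 →
      ∃ c : κ → 𝔏, (∀ k, c k ∈ W) ∧ p = ∑ k, c k • u k)
    (h : J → 𝔏) (hZ : h ∈ Z) (hW : ∀ j, h j ∈ W) (hκ : ∀ k, h (inκ k) = 0)
    (hunit : ∃ j, W.valuation (h j) = 1)
    (p₀ : J → 𝔏) (hp₀Z : p₀ ∈ Z) (hp₀W : ∀ j, p₀ j ∈ W) :
    ∃ w ∈ W, p₀ j₀ * (Matrix.of fun (j : κ) (k : κ) => u k (inκ j)).det = h j₀ * w := by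
  classical
  set U : Matrix κ κ 𝔏 := Matrix.of fun (j : κ) (k : κ) => u k (inκ j) with hUdef
  have hUW : ∀ j k, U j k ∈ W := fun j k => huW k (inκ j)
  have hm : U.det ∈ W := s27pdc_det_mem W U hUW
  obtain ⟨j₁, hj₁⟩ := hunit
  -- coordinates of a combination
  have hcomb : ∀ (c : κ → 𝔏) (j : J), (∑ k, c k • u k) j = ∑ k, c k * u k j := by
    intro c j
    rw [Finset.sum_apply]
    rfl
  have hmulVec : ∀ (c : κ → 𝔏) (j : κ), (U *ᵥ c) j = (∑ k, c k • u k) (inκ j) := by
    intro c j
    rw [hcomb]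
    show ∑ k, U j k * c k = _
    refine Finset.sum_congr rfl fun k _ => ?_
    show u k (inκ j) * c k = _
    exact mul_comm _ _
  by_cases hc0 : h j₀ = 0
  · -- `h ∈ S` without principal part: the determinant vanishes
    obtain ⟨c, hcW, hc⟩ := hspan h hZ hW hc0
    have hcne : c ≠ 0 := by
      rintro rfl
      have : h = 0 := by rw [hc]; simp
      rw [this] at hj₁
      simp at hj₁
    have hUc : U *ᵥ c = 0 := by
      ext j
      rw [hmulVec, ← hc, hκ]
      rfl
    have hdet : U.det = 0 := Matrix.exists_mulVec_eq_zero_iff.mp ⟨c, hcne, hUc⟩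
    exact ⟨0, W.zero_mem, by rw [hdet, hc0]; ring⟩
  · rcases W.mem_or_inv_mem (p₀ j₀ * (h j₀)⁻¹) with hle | hgt
    · refine ⟨p₀ j₀ * (h j₀)⁻¹ * U.det, W.mul_mem _ _ hle hm, ?_⟩
      field_simp
    · -- `r = h j₀ / p₀ j₀ ∈ W`
      by_cases hr1 : W.valuation (p₀ j₀ * (h j₀)⁻¹) ≤ 1
      · have := (W.valuation_le_one_iff _).mp hr1
        refine ⟨p₀ j₀ * (h j₀)⁻¹ * U.det, W.mul_mem _ _ this hm, ?_⟩
        field_simp
      have hr1' : 1 < W.valuation (p₀ j₀ * (h j₀)⁻¹) := not_le.mp hr1
      have he0 : p₀ j₀ ≠ 0 := by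
        intro h0
        rw [h0, zero_mul, map_zero] at hr1'
        exact absurd hr1' (by simp)
      set r : 𝔏 := h j₀ * (p₀ j₀)⁻¹ with hrdef
      have hrinv : r = (p₀ j₀ * (h j₀)⁻¹)⁻¹ := by
        rw [hrdef, mul_inv, inv_inv, mul_comm]
      have hrlt : W.valuation r < 1 := by
        rw [hrinv, map_inv₀]
        exact inv_lt_one_of_one_lt₀ hr1'
      have hrW : r ∈ W := (W.valuation_le_one_iff _).mp hrlt.le
      -- `q = h − r p₀ ∈ S`
      set q : J → 𝔏 := h - r • p₀ with hqdef
      have hqZ : q ∈ Z := Z.sub_mem hZ (Z.smul_mem r hp₀Z)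
      have hqW : ∀ j, q j ∈ W := fun j => by
        rw [hqdef, Pi.sub_apply, Pi.smul_apply, smul_eq_mul]
        exact sub_mem (hW j) (W.mul_mem _ _ hrW (hp₀W j))
      have hq0 : q j₀ = 0 := by
        rw [hqdef, Pi.sub_apply, Pi.smul_apply, smul_eq_mul, hrdef]
        field_simp
        ring
      obtain ⟨c, hcW, hc⟩ := hspan q hqZ hqW hq0
      set b : κ → 𝔏 := fun j => p₀ (inκ j) with hbdef
      have hbW : ∀ j, b j ∈ W := fun j => hp₀W _
      have hUc : U *ᵥ c = -(r • b) := by
        ext j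
        rw [hmulVec, ← hc, hqdef, Pi.sub_apply, Pi.smul_apply, smul_eq_mul, hκ, zero_sub]
        rfl
      have hadj : ∀ k, U.det * c k = -(r * (U.adjugate *ᵥ b) k) := by
        intro k
        have h1 : U.adjugate *ᵥ (U *ᵥ c) = U.det • c := by
          rw [Matrix.mulVec_mulVec, Matrix.adjugate_mul, Matrix.smul_mulVec, Matrix.one_mulVec]
        have h2 := congrFun h1 k
        rw [hUc, Matrix.mulVec_neg, Matrix.mulVec_smul] at h2
        rw [Pi.smul_apply, smul_eq_mul] at h2
        rw [← h2]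
        rfl
      -- some `c k` is a unit
      have hex : ∃ k, W.valuation (c k) = 1 := by
        by_contra hno
        push Not at hno
        have hlt : ∀ k, W.valuation (c k) < 1 := fun k =>
          lt_of_le_of_ne ((W.valuation_le_one_iff _).mpr (hcW k)) (hno k)
        have hh : h j₁ = ∑ k, c k * u k j₁ + r * p₀ j₁ := by
          have e1 : q j₁ = ∑ k, c k * u k j₁ := by rw [hc, hcomb]
          have e2 : q j₁ = h j₁ - r * p₀ j₁ := by
            rw [hqdef, Pi.sub_apply, Pi.smul_apply, smul_eq_mul]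
          rw [← e1, e2]
          ring
        have hsum : W.valuation (∑ k, c k * u k j₁) < 1 := by
          refine Valuation.map_sum_lt _ one_ne_zero fun k _ => ?_
          rw [map_mul]
          calc W.valuation (c k) * W.valuation (u k j₁)
              ≤ W.valuation (c k) * 1 :=
                mul_le_mul_right ((W.valuation_le_one_iff _).mpr (huW k j₁)) _
            _ = W.valuation (c k) := mul_one _
            _ < 1 := hlt k
        have hrp : W.valuation (r * p₀ j₁) < 1 := by
          rw [map_mul]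
          calc W.valuation r * W.valuation (p₀ j₁)
              ≤ W.valuation r * 1 :=
                mul_le_mul_right ((W.valuation_le_one_iff _).mpr (hp₀W j₁)) _
            _ = W.valuation r := mul_one _
            _ < 1 := hrlt
        have : W.valuation (h j₁) < 1 := by
          rw [hh]
          exact Valuation.map_add_lt _ hsum hrp
        rw [hj₁] at this
        exact lt_irrefl _ this
      obtain ⟨k, hk⟩ := hex
      have hck0 : c k ≠ 0 := by
        intro h0
        rw [h0, map_zero] at hk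
        exact zero_ne_one hk
      have hckinv : (c k)⁻¹ ∈ W := by
        rw [← W.valuation_le_one_iff, map_inv₀, hk, inv_one]
      refine ⟨-((U.adjugate *ᵥ b) k * (c k)⁻¹),
        W.neg_mem _ (W.mul_mem _ _ (s27pdc_adj_mulVec_mem W U hUW b hbW k) hckinv), ?_⟩
      have h3 : U.det = -(r * (U.adjugate *ᵥ b) k) * (c k)⁻¹ := by
        rw [← hadj k]
        field_simp
      rw [h3, hrdef]
      field_simp

end Cramer

/-! ### (C2), abstract: the value at the last node of a Newton system -/

section Newton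

/-- a lower triangular system with nonzero diagonal (except possibly at the last index): if all
values but the last one vanish, the last value is `L_{nn} · c_n`. -/
theorem s27pdc_lower_last {V : Type*} [CommRing V] [IsDomain V] {n : ℕ}
    (L : Matrix (Fin (n + 1)) (Fin (n + 1)) V) (hL : ∀ i k, i < k → L i k = 0)
    (hd : ∀ k, k ≠ Fin.last n → L k k ≠ 0) (c : Fin (n + 1) → V)
    (hy : ∀ i, i ≠ Fin.last n → (L *ᵥ c) i = 0) :
    (L *ᵥ c) (Fin.last n) = L (Fin.last n) (Fin.last n) * c (Fin.last n) := by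
  classical
  have hc : ∀ m : ℕ, ∀ k : Fin (n + 1), (k : ℕ) = m → k ≠ Fin.last n → c k = 0 := by
    intro m
    induction m using Nat.strong_induction_on with
    | _ m ih =>
      intro k hkm hk
      have hrow := hy k hk
      rw [Matrix.mulVec, dotProduct, Finset.sum_eq_single k] at hrow
      · exact (mul_eq_zero.mp hrow).resolve_left (hd k hk)
      · intro j _ hjk
        rcases lt_or_gt_of_ne hjk with hlt | hgt
        · have hj : j ≠ Fin.last n := ne_of_lt (lt_of_lt_of_le hlt (Fin.le_last k))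
          rw [ih (j : ℕ) (by rw [← hkm]; exact hlt) j rfl hj, mul_zero]
        · rw [hL k j hgt, zero_mul]
      · intro h
        exact absurd (Finset.mem_univ k) h
  rw [Matrix.mulVec, dotProduct, Finset.sum_eq_single (Fin.last n)]
  · intro j _ hj
    rw [hc (j : ℕ) j rfl hj, mul_zero]
  · intro h
    exact absurd (Finset.mem_univ _) h

/-- **(C2), abstract.**  In the setting of S27/Eff.lean (`e i : R →ₐ[V] V` the evaluations at
the nodes, coordinate `π`, (DIV)), with pairwise distinct nodes over a domain `V`: a function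
which vanishes at all nodes but the last has its last value in
`V · ∏_{j < last} (z last − z j)`. -/
theorem s27pdc_newton_last {V : Type*} [CommRing V] [IsDomain V] {R : Type*} [CommRing R]
    [Algebra V R] {n : ℕ} (e : Fin (n + 1) → (R →ₐ[V] V)) (π : R) (h : S27effDivFin e π)
    (hz : ∀ i j : Fin (n + 1), i ≠ j → e i π ≠ e j π) (φ : R)
    (hφ : ∀ i, i ≠ Fin.last n → e i φ = 0) :
    ∃ c : V, e (Fin.last n) φ =
      (∏ j ∈ Finset.univ.filter (fun j : Fin (n + 1) => j < Fin.last n),
        (e (Fin.last n) π - e j π)) * c := by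
  classical
  obtain ⟨c, hc⟩ := s27efl_coeffs e π h φ
  refine ⟨c (Fin.last n), ?_⟩
  rw [hc, s27pdc_lower_last (s27eflL e π) (fun i k hik => s27eflL_upper e π hik) ?_ c
    (fun i hi => by rw [← hc, hφ i hi]), s27eflL_apply]
  intro k _
  rw [s27eflL_apply, Finset.prod_ne_zero_iff]
  intro j hj
  rw [Finset.mem_filter] at hj
  exact sub_ne_zero.mpr (hz k j (ne_of_gt hj.2))

end Newton

/-! ### the combination -/

section Combine

variable {𝔏 : Type*} [Field 𝔏] (W : ValuationSubring 𝔏)

/-- **(C1) + (C2) + (C3) ⇒ POLE-DIV**: `e m ∈ W c₀`, `c₀ ∈ W γ γ′`, `γ′ ∈ W e`, `e ≠ 0`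
give `m ∈ W γ`. -/
theorem s27pdc_combine (m c₀ e γ γ' : 𝔏) (he : e ≠ 0)
    (h1 : ∃ w ∈ W, e * m = c₀ * w) (h2 : ∃ w ∈ W, c₀ = γ * γ' * w)
    (h3 : ∃ w ∈ W, γ' = e * w) : ∃ w ∈ W, m = γ * w := by
  obtain ⟨w₁, hw₁, e1⟩ := h1
  obtain ⟨w₂, hw₂, e2⟩ := h2
  obtain ⟨w₃, hw₃, e3⟩ := h3
  refine ⟨w₃ * w₂ * w₁, W.mul_mem _ _ (W.mul_mem _ _ hw₃ hw₂) hw₁, ?_⟩
  have : e * m = e * (γ * (w₃ * w₂ * w₁)) := by
    rw [e1, e2, e3]
    ring
  exact mul_left_cancel₀ he this

end Combine

end Fermat.Agent.S27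

end
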