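/-
S27-B, piece **POLE-DIV ASM** (helper46): the ALG-bound (H) in the lattice-of-values form.

`W ⊇ K` a valuation subring of `𝔏`, `O` a `K`-point of `F` with local parameter `s`,
`A` a divisor with `A O = -1` and `0 ≤ A Q` for `Q ≠ O` (`A = 2G₀ − O`, `G₀ ≥ 0`, `O ∉ supp G₀`),
`p, q : Fin g → F →ₐ[K] 𝔏` two tuples of points, OPPOSITE: for every `K`-basis `f` of `L_K(A)` there
is `h̃ = c₀·1 + Σ c_l f_l ≠ 0` vanishing at all `p i` and all `q i` (`S27pdaOpp`).  Then every local
equation `x` of the theta divisor at `q` along `W` (`S27ptIsIdx W q A x`) is divisible in `W` by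
`γ(p) = ∏_{i : p i ↦ O} p i s`:

  **`s27pda_main`** : `∃ w ∈ W, x = w * s27pdsGamma W p O s`.

Proof: `x = det C`, `[q i (f l)] = Φ · C` (`s27pt_exists_coeff`); `h̃` primitive over `W`
(`s27pda_primitive`), so `Φ C c = −c₀ 𝟙`; C2 (`s27pdv_value_curve`, helper39) on the nodes of centre
`O` among the `p i`, `q i` gives `c₀ ∈ W γ(p) γ(q)`; ONE `τ` (`s27pds_main`, helper4) gives
`e 𝟙 = Φ d`, `d ∈ W^g`, `e ≐ γ(q)`; DET-π (`s27pda_detpi`) concludes.
-/
import Fermat.Agent.S27.PoleDivVal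
import Fermat.Agent.S27.PoleDivSecT
import Fermat.Agent.S27.PoleDivCore

set_option autoImplicit false
set_option linter.unusedVariables false
set_option linter.unusedSectionVars false
set_option linter.style.haveILetI false

noncomputable section

namespace Fermat.Agent.S27

open AlgebraicCurve Matrix

universe u v w

section Algebra

variable {𝔏 : Type w} [Field 𝔏] (W : ValuationSubring 𝔏)

/-- a nonzero finite family can be scaled to a primitive family over `W`. -/
theorem s27pda_primitive {J : Type*} [Fintype J] (h : J → 𝔏) (hne : ∃ j, h j ≠ 0) :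
    ∃ a : 𝔏, a ≠ 0 ∧ (∀ j, a * h j ∈ W) ∧ ∃ j, W.valuation (a * h j) = 1 := by
  classical
  obtain ⟨j₀, hj₀⟩ := hne
  obtain ⟨j₁, -, hmax⟩ := Finset.exists_max_image Finset.univ (fun j => W.valuation (h j))
    ⟨j₀, Finset.mem_univ _⟩
  have hj₁ : h j₁ ≠ 0 := by
    intro h0
    have h1 := hmax j₀ (Finset.mem_univ _)
    simp only [h0, map_zero] at h1
    exact hj₀ ((map_eq_zero _).1 (le_antisymm h1 zero_le))
  have hv : W.valuation (h j₁) ≠ 0 := (Valuation.ne_zero_iff _).2 hj₁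
  refine ⟨(h j₁)⁻¹, inv_ne_zero hj₁, fun j => ?_, j₁, ?_⟩
  · rw [← W.valuation_le_one_iff, map_mul, map_inv₀]
    calc (W.valuation (h j₁))⁻¹ * W.valuation (h j)
        ≤ (W.valuation (h j₁))⁻¹ * W.valuation (h j₁) :=
          mul_le_mul' le_rfl (hmax j (Finset.mem_univ _))
      _ = 1 := inv_mul_cancel₀ hv
  · rw [inv_mul_cancel₀ hj₁, map_one]

/-- **DET-π**: `Φ · C · c = π • Φ · d`, `C`, `d` over `W`, `c l₀` a unit of `W`, `det Φ ≠ 0`
⇒ `det C ∈ π · W`. -/
theorem s27pda_detpi {N : ℕ} (Φ C : Matrix (Fin N) (Fin N) 𝔏) (hΦ : Φ.det ≠ 0)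
    (hC : ∀ i j, C i j ∈ W) (c d : Fin N → 𝔏) (hd : ∀ j, d j ∈ W) (l₀ : Fin N)
    (hl₀ : W.valuation (c l₀) = 1) (π : 𝔏)
    (heq : (Φ * C) *ᵥ c = π • (Φ *ᵥ d)) :
    ∃ w ∈ W, C.det = w * π := by
  classical
  have h1 : Φ *ᵥ (C *ᵥ c - π • d) = 0 := by
    rw [Matrix.mulVec_sub, Matrix.mulVec_mulVec, heq, Matrix.mulVec_smul, sub_self]
  have h2 : C *ᵥ c - π • d = 0 := Matrix.eq_zero_of_mulVec_eq_zero hΦ h1
  have h3 : C *ᵥ c = π • d := sub_eq_zero.1 h2
  have h4 : C.det • c = π • (C.adjugate *ᵥ d) := by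
    have h5 : C.adjugate *ᵥ (C *ᵥ c) = C.det • c := by
      rw [Matrix.mulVec_mulVec, Matrix.adjugate_mul, Matrix.smul_mulVec, Matrix.one_mulVec]
    rw [← h5, h3, Matrix.mulVec_smul]
  have h5 := congrFun h4 l₀
  simp only [Pi.smul_apply, smul_eq_mul] at h5
  have hc : c l₀ ≠ 0 := by
    intro h0
    rw [h0, map_zero] at hl₀
    exact zero_ne_one hl₀
  have hcinv : (c l₀)⁻¹ ∈ W := by
    rw [← W.valuation_le_one_iff, map_inv₀, hl₀, inv_one]
  refine ⟨(C.adjugate *ᵥ d) l₀ * (c l₀)⁻¹,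
    W.mul_mem _ _ (s27pdc_adj_mulVec_mem W C hC d hd l₀) hcinv, ?_⟩
  have h6 : C.det = π * (C.adjugate *ᵥ d) l₀ * (c l₀)⁻¹ := by
    rw [← h5, mul_assoc, mul_inv_cancel₀ hc, mul_one]
  rw [h6]
  ring

end Algebra

section Points

variable {K : Type u} {F : Type v} [Field K] [Field F] [Algebra K F]
variable {𝔏 : Type w} [Field 𝔏] [Algebra K 𝔏]

/-- **(OPP)** the opposite relation in coordinates: for every `K`-basis `f` of `L_K(A)` a nonzero
`h̃ = c₀·1 + Σ c_l f_l` with coefficients in `𝔏` vanishes at all the points `p i` and `q i`. -/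
def S27pdaOpp {g : ℕ} (p q : Fin g → F →ₐ[K] 𝔏) (A : Divisor K F) : Prop :=
  ∀ f : Module.Basis (Fin g) K ↥(riemannRochSpace A),
    ∃ (c₀ : 𝔏) (c : Fin g → 𝔏), (c₀ ≠ 0 ∨ ∃ l, c l ≠ 0) ∧
      (∀ i, c₀ + ∑ l, c l * p i ((f l : ↥(riemannRochSpace A)) : F) = 0) ∧
      (∀ i, c₀ + ∑ l, c l * q i ((f l : ↥(riemannRochSpace A)) : F) = 0)

/-- `γ(p) ∈ W`. -/
theorem s27pda_gamma_mem (W : ValuationSubring 𝔏) {g : ℕ} (p : Fin g → F →ₐ[K] 𝔏)
    (O : Place K F) (s : F) (hs : 0 ≤ O.ord s) : s27pdsGamma W p O s ∈ W := by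
  classical
  unfold s27pdsGamma
  refine W.toSubring.prod_mem fun i _ => ?_
  split_ifs with hi
  · have h1 : s ∈ O.toValuationSubring := Fermat.Agent.S24.PlaceAux.mem_of_ord_nonneg O hs
    have hi' : W.comap ((p i : F →ₐ[K] 𝔏) : F →+* 𝔏) = O.toValuationSubring := hi
    rw [← hi', ValuationSubring.mem_comap] at h1
    exact h1
  · exact W.one_mem

/-- the powers `τ ^ j`, `j ≥ 1`, lie in `𝓕(q, A)`. -/
theorem s27pda_tau_mem_F (W : ValuationSubring 𝔏) {g : ℕ} (q : Fin g → F →ₐ[K] 𝔏)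
    (O : Place K F) (A : Divisor K F) (hAO : A O = -1)
    (hApos : ∀ Q : Place K F, Q ≠ O → 0 ≤ A Q) (τ : F) (hτ0 : τ ≠ 0) (hτO : O.ord τ = 1)
    (hτQ : ∀ i (Q : Place K F), Q ≠ O → S27ptIsCentre W (q i) Q → Q.ord τ = 0)
    (j : ℕ) (hj : 1 ≤ j) : τ ^ j ∈ s27ptF W q A := by
  intro Q i hQ
  rw [map_pow, Fermat.Agent.S24.PlaceAux.adicValuation_eq_exp_neg_ord Q hτ0]
  by_cases hQO : Q = O
  · rw [hQO, hτO, hAO]
    obtain ⟨k, rfl⟩ : ∃ k, j = k + 1 := ⟨j - 1, by omega⟩
    rw [pow_succ]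
    have h1 : (WithZero.exp (-1 : ℤ)) ^ k ≤ 1 := by
      refine pow_le_one' ?_ k
      rw [← WithZero.exp_zero, WithZero.exp_le_exp]
      norm_num
    calc (WithZero.exp (-1 : ℤ)) ^ k * WithZero.exp (-1 : ℤ)
        ≤ 1 * WithZero.exp (-1 : ℤ) := mul_le_mul' h1 le_rfl
      _ = WithZero.exp (-1 : ℤ) := one_mul _
  · rw [hτQ i Q hQO hQ, neg_zero, WithZero.exp_zero, one_pow, ← WithZero.exp_zero,
      WithZero.exp_le_exp]
    exact hApos Q hQO

/-- **POLE-DIV ASM = the ALG-bound (H).** -/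
theorem s27pda_main [IsAlgClosed K] [CharZero K] [IsCurveOver K F] [Algebra.EssFiniteType K F]
    (x₀ : F) (hx₀ : Transcendental K x₀) [FiniteDimensional ↥(IntermediateField.adjoin K {x₀}) F]
    (W : ValuationSubring 𝔏) (hKW : ∀ a : K, algebraMap K 𝔏 a ∈ W)
    (O : Place K F) (hres : Function.Surjective (algebraMap K O.ResidueField))
    (s : F) (hs : O.ord s = 1)
    (A : Divisor K F) (hAO : A O = -1) (hApos : ∀ Q : Place K F, Q ≠ O → 0 ≤ A Q)
    {g : ℕ} (p q : Fin g → F →ₐ[K] 𝔏) (hp : Function.Injective p) (hq : Function.Injective q)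
    (hpq : ∀ i j, p i ≠ q j) (hopp : S27pdaOpp p q A)
    (x : 𝔏) (hx : S27ptIsIdx W q A x) :
    ∃ w ∈ W, x = w * s27pdsGamma W p O s := by
  classical
  have hs0 : s ≠ 0 := by
    rintro rfl
    rw [Place.ord_zero] at hs
    exact zero_ne_one hs
  have hγp : s27pdsGamma W p O s ∈ W := s27pda_gamma_mem W p O s (by rw [hs]; norm_num)
  have hγq : s27pdsGamma W q O s ∈ W := s27pda_gamma_mem W q O s (by rw [hs]; norm_num)
  have hγp0 : s27pdsGamma W p O s ≠ 0 := s27pds_gamma_ne_zero W p O hs0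
  -- step 1: `x = det C`
  obtain ⟨f, φ, hφ, rfl⟩ := hx
  have hfF : ∀ l, ((f l : ↥(riemannRochSpace A)) : F) ∈ s27ptF W q A := fun l =>
    s27pt_rr_le W q A (f l).2
  obtain ⟨C, hC, hval⟩ := s27pt_exists_coeff hφ _ hfF
  have hxC : (s27ptValB q f).det / (s27ptVal q φ).det = C.det := by
    unfold s27ptValB
    rw [hval, Matrix.det_mul, mul_comm, mul_div_assoc, div_self hφ.det_ne, mul_one]
  rw [hxC]
  have hCdet : C.det ∈ W := s27pdc_det_mem W C hC
  -- step 2: `h̃`, primitive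
  obtain ⟨c₀', c', hne', hvp', hvq'⟩ := hopp f
  have hne'' : ∃ j : Option (Fin g), (j.elim c₀' c') ≠ 0 := by
    rcases hne' with h0 | ⟨l, hl⟩
    · exact ⟨none, h0⟩
    · exact ⟨some l, hl⟩
  obtain ⟨a, ha, haW, j₁, hj₁⟩ := s27pda_primitive W (fun j : Option (Fin g) => j.elim c₀' c') hne''
  have hc₀W : a * c₀' ∈ W := haW none
  have hcW : ∀ l, a * c' l ∈ W := fun l => haW (some l)
  have hvp : ∀ i, a * c₀' + ∑ l, a * c' l * p i ((f l : ↥(riemannRochSpace A)) : F) = 0 := by
    intro i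
    have h1 := congrArg (fun z => a * z) (hvp' i)
    simp only [mul_add, Finset.mul_sum, mul_zero] at h1
    rw [← h1]
    congr 1
    exact Finset.sum_congr rfl fun l _ => mul_assoc _ _ _
  have hvq : ∀ i, a * c₀' + ∑ l, a * c' l * q i ((f l : ↥(riemannRochSpace A)) : F) = 0 := by
    intro i
    have h1 := congrArg (fun z => a * z) (hvq' i)
    simp only [mul_add, Finset.mul_sum, mul_zero] at h1
    rw [← h1]
    congr 1
    exact Finset.sum_congr rfl fun l _ => mul_assoc _ _ _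
  -- step 3: C2 on the nodes of centre `O`
  have hC2 : ∃ r ∈ W, a * c₀' = r * (s27pdsGamma W p O s * s27pdsGamma W q O s) := by
    let pts : {i : Fin g // S27ptIsCentre W (p i) O} ⊕ {i : Fin g // S27ptIsCentre W (q i) O} →
        (F →ₐ[K] 𝔏) := Sum.elim (fun i => p i.1) (fun i => q i.1)
    have hpts_inj : Function.Injective pts := by
      rintro (i | i) (j | j) hij
      · exact congrArg Sum.inl (Subtype.ext (hp hij))
      · exact absurd hij (hpq _ _)
      · exact absurd hij.symm (hpq _ _)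
      · exact congrArg Sum.inr (Subtype.ext (hq hij))
    have hpts_c : ∀ t, S27ptIsCentre W (pts t) O := by
      rintro (i | i)
      · exact i.2
      · exact i.2
    let e := Fintype.equivFin
      ({i : Fin g // S27ptIsCentre W (p i) O} ⊕ {i : Fin g // S27ptIsCentre W (q i) O})
    have hPinj : Function.Injective (fun k => pts (e.symm k)) :=
      hpts_inj.comp e.symm.injective
    have hfO : ∀ l, ((f l : ↥(riemannRochSpace A)) : F) = 0 ∨
        1 ≤ O.ord ((f l : ↥(riemannRochSpace A)) : F) := by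
      intro l
      have h1 := (mem_riemannRochSpace_iff.1 (f l).2) O
      rw [hAO] at h1
      simpa using h1
    have hb : ∀ j : Option (Fin g),
        (j.elim (1 : F) (fun l => ((f l : ↥(riemannRochSpace A)) : F))) ∈
          O.toValuationSubring := by
      rintro (_ | l)
      · exact O.toValuationSubring.one_mem
      · rcases hfO l with h0 | h1
        · show ((f l : ↥(riemannRochSpace A)) : F) ∈ O.toValuationSubring
          rw [h0]
          exact O.toValuationSubring.zero_mem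
        · exact Fermat.Agent.S24.PlaceAux.mem_of_ord_nonneg O (by
            show 0 ≤ O.ord ((f l : ↥(riemannRochSpace A)) : F)
            omega)
    have hcv : ∀ j : Option (Fin g), O.toValuationSubring.valuation
        ((j.elim (1 : F) (fun l => ((f l : ↥(riemannRochSpace A)) : F))) -
          algebraMap K F (j.elim (1 : K) (fun _ => 0))) < 1 := by
      rintro (_ | l)
      · show O.toValuationSubring.valuation ((1 : F) - algebraMap K F 1) < 1
        rw [map_one, sub_self, map_zero]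
        exact zero_lt_one
      · show O.toValuationSubring.valuation
          (((f l : ↥(riemannRochSpace A)) : F) - algebraMap K F 0) < 1
        rw [map_zero, sub_zero]
        rcases hfO l with h0 | h1
        · rw [h0, map_zero]
          exact zero_lt_one
        · have hne : ((f l : ↥(riemannRochSpace A)) : F) ≠ 0 := by
            intro h0
            rw [h0, Place.ord_zero] at h1
            omega
          have h2 := (Fermat.Agent.S24.PlaceAux.ord_pos_iff_mem_nonunits O hne).1 (by omega)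
          exact (ValuationSubring.mem_nonunits_iff O.toValuationSubring).1 h2
    have hhW : ∀ j : Option (Fin g), (j.elim (a * c₀') (fun l => a * c' l)) ∈ W := by
      rintro (_ | l)
      · exact hc₀W
      · exact hcW l
    have hvan : ∀ k, ∑ j : Option (Fin g), (j.elim (a * c₀') (fun l => a * c' l)) *
        (pts (e.symm k)) (j.elim (1 : F) (fun l => ((f l : ↥(riemannRochSpace A)) : F))) = 0 := by
      intro k
      rw [Fintype.sum_option]
      simp only [Option.elim_none, Option.elim_some, map_one, mul_one]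
      rcases e.symm k with i | i
      · exact hvp i.1
      · exact hvq i.1
    obtain ⟨r, hr, hrc⟩ := s27pdv_value_curve O hres s hs W hKW (fun k => pts (e.symm k))
      (fun k => hpts_c _) hPinj _ hb _ hcv _ hhW hvan
    refine ⟨r, hr, ?_⟩
    have hsum : ∑ j : Option (Fin g), (j.elim (a * c₀') (fun l => a * c' l)) *
        algebraMap K 𝔏 (j.elim (1 : K) (fun _ => 0)) = a * c₀' := by
      rw [Fintype.sum_option]
      simp
    rw [hsum] at hrc
    rw [hrc]
    congr 1
    rw [Equiv.prod_comp e.symm (fun t => pts t s), Fintype.prod_sum_type]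
    unfold s27pdsGamma
    congr 1
    · rw [← Finset.prod_filter]
      exact (Finset.prod_subtype (Finset.univ.filter fun i => S27ptIsCentre W (p i) O)
        (by simp) (fun i => p i s)).symm
    · rw [← Finset.prod_filter]
      exact (Finset.prod_subtype (Finset.univ.filter fun i => S27ptIsCentre W (q i) O)
        (by simp) (fun i => q i s)).symm
  obtain ⟨r, hr, hrc⟩ := hC2
  -- step 4: ONE `τ`
  obtain ⟨τ, hτ0, hτO, -, hτQ, hτW, hτmain⟩ := s27pds_main x₀ hx₀ W hKW q O hs0 hs ∅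
  obtain ⟨p₀, hp₀W, hp₀van, hp₀ne, u, hu, hp₀γ⟩ := hτmain (J := Fin (g + 1))
    (fun j => τ ^ (j : ℕ)) 0 (fun k j => if (j : ℕ) = k then 1 else 0)
    (by
      intro k hk
      rw [Finset.sum_eq_single (⟨k, by omega⟩ : Fin (g + 1))]
      · simp
      · intro j _ hj
        have : (j : ℕ) ≠ k := fun h => hj (Fin.ext h)
        simp [this]
      · intro h
        exact absurd (Finset.mem_univ _) h)
    (by
      intro k hk
      simp only [Fin.val_zero]
      by_cases hk0 : k = 0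
      · simp [hk0]
      · have : (0 : ℕ) ≠ k := fun h => hk0 h.symm
        simp [hk0, this])
  -- step 5: `e 𝟙 = Φ d`
  have hspan : ∀ j : Fin (g + 1), ∃ dj : Fin g → 𝔏, (∀ m, dj m ∈ W) ∧
      (j ≠ 0 → ∀ i, q i (τ ^ (j : ℕ)) = ∑ m, q i (φ m) * dj m) := by
    intro j
    by_cases hj : j = 0
    · exact ⟨fun _ => 0, fun _ => W.zero_mem, fun h => absurd hj h⟩
    · have hj1 : 1 ≤ (j : ℕ) := Nat.one_le_iff_ne_zero.2 fun h => hj (Fin.ext h)
      obtain ⟨dj, h1, h2⟩ := hφ.span _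
        (s27pda_tau_mem_F W q O A hAO hApos τ hτ0 hτO hτQ (j : ℕ) hj1)
      exact ⟨dj, h1, fun _ => h2⟩
  choose dd hddW hdd using hspan
  have hΦd : ∀ i, ∑ m, q i (φ m) * (-∑ j : Fin (g + 1), if j = 0 then 0 else dd j m * p₀ j) =
      p₀ 0 := by
    intro i
    have h1 : ∑ m, q i (φ m) * (-∑ j : Fin (g + 1), if j = 0 then 0 else dd j m * p₀ j) =
        -∑ j : Fin (g + 1), if j = 0 then 0 else q i (τ ^ (j : ℕ)) * p₀ j := by
      simp only [mul_neg, Finset.sum_neg_distrib, Finset.mul_sum]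
      rw [Finset.sum_comm]
      congr 1
      refine Finset.sum_congr rfl fun j _ => ?_
      by_cases hj : j = 0
      · simp [hj]
      · simp only [if_neg hj]
        rw [hdd j hj i, Finset.sum_mul]
        exact Finset.sum_congr rfl fun m _ => (mul_assoc _ _ _).symm
    have h2 := hp₀van i
    have h3 : ∑ j : Fin (g + 1), q i (τ ^ (j : ℕ)) * p₀ j =
        p₀ 0 + ∑ j : Fin (g + 1), if j = 0 then 0 else q i (τ ^ (j : ℕ)) * p₀ j := by
      rw [Fin.sum_univ_succ, Fin.sum_univ_succ]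
      simp [Fin.succ_ne_zero]
    rw [h1]
    rw [h3] at h2
    linear_combination (-1 : 𝔏) * h2
  -- step 6: combine
  have hdW : ∀ m, (-∑ j : Fin (g + 1), if j = 0 then 0 else dd j m * p₀ j) ∈ W := by
    intro m
    refine W.neg_mem _ (W.toSubring.sum_mem fun j _ => ?_)
    split_ifs
    · exact W.zero_mem
    · exact W.mul_mem _ _ (hddW j m) (hp₀W j)
  have hu0 : u ≠ 0 := hu.2.2
  have huinv : u⁻¹ ∈ W := hu.2.1
  rcases j₁ with _ | l₀
  · -- `c₀` is a unit: `γ(p)` is a unit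
    have hj₁' : W.valuation (a * c₀') = 1 := hj₁
    have hc₀ne : a * c₀' ≠ 0 := by
      intro h0
      rw [h0, map_zero] at hj₁'
      exact zero_ne_one hj₁'
    have hc₀inv : (a * c₀')⁻¹ ∈ W := by
      rw [← W.valuation_le_one_iff, map_inv₀, hj₁', inv_one]
    have hγinv : (s27pdsGamma W p O s)⁻¹ ∈ W := by
      have h1 : (s27pdsGamma W p O s)⁻¹ = r * s27pdsGamma W q O s * (a * c₀')⁻¹ := by
        rw [hrc] at hc₀ne ⊢
        have hr0 : r ≠ 0 := fun h => hc₀ne (by rw [h, zero_mul])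
        have hq0 : s27pdsGamma W q O s ≠ 0 := fun h => hc₀ne (by rw [h, mul_zero, mul_zero])
        field_simp
      rw [h1]
      exact W.mul_mem _ _ (W.mul_mem _ _ hr hγq) hc₀inv
    refine ⟨C.det * (s27pdsGamma W p O s)⁻¹, W.mul_mem _ _ hCdet hγinv, ?_⟩
    rw [mul_assoc, inv_mul_cancel₀ hγp0, mul_one]
  · -- some `c l₀` is a unit: DET-π
    have hl₀ : W.valuation (a * c' l₀) = 1 := hj₁
    refine s27pda_detpi W (s27ptVal q φ) C hφ.det_ne hC (fun l => a * c' l)
      (fun m => (-(r * u⁻¹)) * (-∑ j : Fin (g + 1), if j = 0 then 0 else dd j m * p₀ j))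
      (fun m => W.mul_mem _ _ (W.neg_mem _ (W.mul_mem _ _ hr huinv)) (hdW m)) l₀ hl₀
      (s27pdsGamma W p O s) ?_
    rw [← hval]
    funext i
    show ∑ l, q i ((f l : ↥(riemannRochSpace A)) : F) * (a * c' l) =
      s27pdsGamma W p O s * ∑ m, q i (φ m) *
        ((-(r * u⁻¹)) * (-∑ j : Fin (g + 1), if j = 0 then 0 else dd j m * p₀ j))
    have h1 : ∑ m, q i (φ m) *
        ((-(r * u⁻¹)) * (-∑ j : Fin (g + 1), if j = 0 then 0 else dd j m * p₀ j)) =
        (-(r * u⁻¹)) * p₀ 0 := by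
      rw [← hΦd i, Finset.mul_sum]
      exact Finset.sum_congr rfl fun m _ => by ring
    have h2 : ∑ l, q i ((f l : ↥(riemannRochSpace A)) : F) * (a * c' l) = -(a * c₀') := by
      have h3 := hvq i
      have h4 : ∑ l, q i ((f l : ↥(riemannRochSpace A)) : F) * (a * c' l) =
          ∑ l, a * c' l * q i ((f l : ↥(riemannRochSpace A)) : F) :=
        Finset.sum_congr rfl fun l _ => mul_comm _ _
      rw [h4]
      linear_combination h3
    rw [h1, h2, hrc, hp₀γ]
    field_simp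

end Points

end Fermat.Agent.S27

end
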