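/-
S27-B, leaf **BRIDGE** (helper24): places ↔ points on a constant extension.

Setting of `S27/GenPlaceV.lean` / `S27/DegPt.lean`: `K ⊆ 𝔠` a function field, `K ⊆ 𝔎` a field,
`Ω = Frac (𝔠 ⊗[K] 𝔎)` (`hld`, `hgen`), `Con Q := s26gspCon hld hgen hall Q` the constant places,
`pt e := s27gpPlace hld hgen e hx` the point place of a point `e : 𝔠 →ₐ[K] 𝔎`.

* `s27brg_mul`          : `div h = E` ⇒ (`s ∈ L(D) ↔ h * s ∈ L(D − E)`)   (any field);
* `s27brgCon B`         : the conorm `Con B` of a constant divisor;  `s27brgPts R = Σ_i pt (R i)`;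
* `s27brg_con_pt`       : `(Con B) (pt e) = 0`;
* `s27brg_pts_pt`       : `(Σ_i pt (R i)) (pt (R i)) = 1` for distinct points;
* `s27brg_pt_mem_iff`   : for `μ A ∈ L_𝔎(Con B)`:
                          `μ A ∈ L_𝔎(Con B − Σ_i pt (R i)) ↔ ∀ i, ev_{R i} A = 0`;
* `s27brgLin x c`       : the element `Σ_j c_j · x_j` of `Ω` (`x j ∈ 𝔠`, `c j ∈ 𝔎`);
* `s27brg_lin_mem_iff`  : for `x j ∈ L_K(B)`:
                          `Σ_j c_j x_j ∈ L_𝔎(Con B − Σ pt (R i)) ↔ ∀ i, Σ_j R i (x j) * c j = 0`;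
* `s27brg_exists_lin`   : for a `K`-basis `x` of `L_K(B)`, every element of `L_𝔎(Con B)` is a
                          `Σ_j c_j x_j` (RR-D);
* `s27brg_linEq`        : **(LinEq)** of NOTES/S27-LE.md: if
                          `div h = Σ pt (R' i) + Con M' − Σ pt (R i)`, then `h ·` maps the kernel
                          vectors of `(R, x)` (`x` in `L_K(B + M')`) to kernel vectors of
                          `(R', x')` (`x'` a basis of `L_K(B)`), and `h⁻¹ ·` back.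
-/
import Fermat.Agent.S27.DegPt
import Fermat.Agent.S27.DegPkg
import Fermat.Agent.S26.ERRD5

set_option autoImplicit false
set_option linter.style.haveILetI false
set_option linter.unusedSectionVars false
set_option linter.unusedVariables false

noncomputable section

namespace Fermat.Agent.S27

open AlgebraicCurve TensorProduct Fermat.Agent.S26

/-! ### Multiplication by a function with known divisor -/

section Mul

variable {L Ω : Type*} [Field L] [Field Ω] [Algebra L Ω]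

/-- `div h = E` ⇒ (`s ∈ L(D) ↔ h * s ∈ L(D − E)`). -/
theorem s27brg_mul (D E : Divisor L Ω) {h : Ω} (hh : h ≠ 0)
    (hE : ∀ v : Place L Ω, v.ord h = E v) (s : Ω) :
    s ∈ riemannRochSpace D ↔ h * s ∈ riemannRochSpace (D - E) := by
  rw [mem_riemannRochSpace_iff, mem_riemannRochSpace_iff]
  refine forall_congr' fun v => ?_
  by_cases hs : s = 0
  · subst hs
    simp
  · have hhs : h * s ≠ 0 := mul_ne_zero hh hs
    rw [or_iff_right hs, or_iff_right hhs, v.ord_mul hh hs, hE v]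
    have h1 : (D - E) v = D v - E v := rfl
    rw [h1]
    constructor <;> intro h2 <;> omega

/-- the same with `h⁻¹`. -/
theorem s27brg_mul_inv (D E : Divisor L Ω) {h : Ω} (hh : h ≠ 0)
    (hE : ∀ v : Place L Ω, v.ord h = E v) (s : Ω) :
    s ∈ riemannRochSpace (D - E) ↔ h⁻¹ * s ∈ riemannRochSpace D := by
  rw [s27brg_mul D E hh hE (h⁻¹ * s), ← mul_assoc, mul_inv_cancel₀ hh, one_mul]

end Mul

variable {K 𝔠 𝔎 Ω : Type*} [Field K] [Field 𝔠] [Field 𝔎] [Field Ω]
  [Algebra K 𝔠] [Algebra K 𝔎] [Algebra K Ω] [Algebra 𝔠 Ω] [Algebra 𝔎 Ω]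
  [IsScalarTower K 𝔠 Ω] [IsScalarTower K 𝔎 Ω]

section Pt

variable (hld : Function.Injective (s26gspMu K 𝔠 𝔎 Ω)) (hgen : S26gspGen K 𝔠 𝔎 Ω)
  (hall : ∀ P : Place K 𝔠, Function.Surjective (algebraMap K P.ResidueField))
  {x : 𝔠} (hx : Transcendental K x)
  [FiniteDimensional ↥(IntermediateField.adjoin K {x}) 𝔠]
  [Algebra.IsSeparable ↥(IntermediateField.adjoin K {x}) 𝔠]

/-- the conorm of a constant divisor. -/
def s27brgCon (B : Divisor K 𝔠) : Divisor 𝔎 Ω :=
  Finsupp.mapDomain (s26gspCon hld hgen hall) B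

/-- the divisor `Σ_i pt (R i)` of a tuple of points. -/
def s27brgPts {N : ℕ} (R : Fin N → 𝔠 →ₐ[K] 𝔎) : Divisor 𝔎 Ω :=
  s27pkgSum fun i => s27gpPlace hld hgen (R i) hx

/-- a constant divisor does not meet a point place. -/
theorem s27brg_con_pt (B : Divisor K 𝔠) (e : 𝔠 →ₐ[K] 𝔎) :
    s27brgCon hld hgen hall B (s27gpPlace hld hgen e hx) = 0 := by
  unfold s27brgCon
  apply Finsupp.mapDomain_of_notMem_range
  rintro ⟨Q, hQ⟩
  exact s27pt_gpPlace_ne_con hld hgen hall hx e Q hQ.symm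

/-- the conorm at a constant place. -/
theorem s27brg_con_con (B : Divisor K 𝔠) (Q : Place K 𝔠) :
    s27brgCon hld hgen hall B (s26gspCon hld hgen hall Q) = B Q :=
  Finsupp.mapDomain_apply (s26gspCon_injective hld hgen hall) B Q

theorem s27brg_con_add (B B' : Divisor K 𝔠) :
    s27brgCon hld hgen hall (B + B') = s27brgCon hld hgen hall B + s27brgCon hld hgen hall B' :=
  Finsupp.mapDomain_add

/-- `Σ_i pt (R i)` at a point of the tuple (distinct points). -/
theorem s27brg_pts_pt {N : ℕ} (R : Fin N → 𝔠 →ₐ[K] 𝔎) (hR : Function.Injective R) (i : Fin N) :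
    s27brgPts hld hgen hx R (s27gpPlace hld hgen (R i) hx) = 1 := by
  classical
  unfold s27brgPts
  rw [s27pkgSum_apply]
  have h1 : (Finset.univ.filter fun j : Fin N =>
      s27gpPlace hld hgen (R j) hx = s27gpPlace hld hgen (R i) hx) = {i} := by
    ext j
    simp only [Finset.mem_filter, Finset.mem_univ, true_and, Finset.mem_singleton]
    constructor
    · intro h
      exact hR (s27pt_gpPlace_injective hld hgen hx h)
    · rintro rfl
      rfl
  rw [h1, Finset.card_singleton]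
  rfl

/-- `Σ_i pt (R i)` at a place which is none of the points. -/
theorem s27brg_pts_of_ne {N : ℕ} (R : Fin N → 𝔠 →ₐ[K] 𝔎) (v : Place 𝔎 Ω)
    (hv : ∀ i, s27gpPlace hld hgen (R i) hx ≠ v) : s27brgPts hld hgen hx R v = 0 := by
  classical
  unfold s27brgPts
  rw [s27pkgSum_apply]
  have h1 : (Finset.univ.filter fun j : Fin N => s27gpPlace hld hgen (R j) hx = v) = ∅ := by
    ext j
    simp only [Finset.mem_filter, Finset.mem_univ, true_and, Finset.notMem_empty, iff_false]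
    exact hv j
  rw [h1, Finset.card_empty]
  rfl

/-- **(B1)** for `μ A ∈ L_𝔎(Con B)`: `μ A` vanishes at the points `R i` iff `ev_{R i} A = 0`. -/
theorem s27brg_pt_mem_iff (B : Divisor K 𝔠) {N : ℕ} (R : Fin N → 𝔠 →ₐ[K] 𝔎)
    (hR : Function.Injective R) (A : 𝔠 ⊗[K] 𝔎)
    (hA : s26gspMu K 𝔠 𝔎 Ω A ∈ riemannRochSpace (s27brgCon hld hgen hall B)) :
    s26gspMu K 𝔠 𝔎 Ω A ∈
        riemannRochSpace (s27brgCon hld hgen hall B - s27brgPts hld hgen hx R) ↔
      ∀ i, s27gpEv (R i) A = 0 := by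
  by_cases hA0 : A = 0
  · subst hA0
    simp
  have hμ0 : s26gspMu K 𝔠 𝔎 Ω A ≠ 0 := fun h0 => hA0 (hld (by rw [h0, map_zero]))
  rw [mem_riemannRochSpace_iff] at hA ⊢
  constructor
  · intro h i
    have h1 := (h (s27gpPlace hld hgen (R i) hx)).resolve_left hμ0
    have h2 : (s27brgCon hld hgen hall B - s27brgPts hld hgen hx R)
        (s27gpPlace hld hgen (R i) hx) = -1 := by
      show s27brgCon hld hgen hall B (s27gpPlace hld hgen (R i) hx) -
        s27brgPts hld hgen hx R (s27gpPlace hld hgen (R i) hx) = -1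
      rw [s27brg_con_pt, s27brg_pts_pt hld hgen hx R hR]
      rfl
    rw [h2] at h1
    exact (s27gpPlace_ord_mu_pos_iff hld hgen (R i) hx hA0).mp (by omega)
  · intro h v
    right
    by_cases hv : ∃ i, s27gpPlace hld hgen (R i) hx = v
    · obtain ⟨i, rfl⟩ := hv
      have h2 : (s27brgCon hld hgen hall B - s27brgPts hld hgen hx R)
          (s27gpPlace hld hgen (R i) hx) = -1 := by
        show s27brgCon hld hgen hall B (s27gpPlace hld hgen (R i) hx) -
          s27brgPts hld hgen hx R (s27gpPlace hld hgen (R i) hx) = -1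
        rw [s27brg_con_pt, s27brg_pts_pt hld hgen hx R hR]
        rfl
      rw [h2]
      have h3 := (s27gpPlace_ord_mu_pos_iff hld hgen (R i) hx hA0).mpr (h i)
      omega
    · have hv' : ∀ i, s27gpPlace hld hgen (R i) hx ≠ v := fun i hi => hv ⟨i, hi⟩
      have h2 : (s27brgCon hld hgen hall B - s27brgPts hld hgen hx R) v =
          s27brgCon hld hgen hall B v := by
        show s27brgCon hld hgen hall B v - s27brgPts hld hgen hx R v = _
        rw [s27brg_pts_of_ne hld hgen hx R v hv', sub_zero]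
      rw [h2]
      exact (hA v).resolve_left hμ0

/-! ### Coordinates -/

/-- the tensor `Σ_j x_j ⊗ c_j`. -/
def s27brgTens {J : Type*} [Fintype J] (x : J → 𝔠) (c : J → 𝔎) : 𝔠 ⊗[K] 𝔎 :=
  ∑ j, x j ⊗ₜ[K] c j

/-- the element `Σ_j c_j · x_j` of `Ω`. -/
def s27brgLin {J : Type*} [Fintype J] (x : J → 𝔠) (c : J → 𝔎) : Ω :=
  ∑ j, algebraMap 𝔎 Ω (c j) * algebraMap 𝔠 Ω (x j)

omit [FiniteDimensional ↥(IntermediateField.adjoin K {x}) 𝔠]
  [Algebra.IsSeparable ↥(IntermediateField.adjoin K {x}) 𝔠] in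
theorem s27brg_mu_tens {J : Type*} [Fintype J] (x : J → 𝔠) (c : J → 𝔎) :
    s26gspMu K 𝔠 𝔎 Ω (s27brgTens (K := K) x c) = s27brgLin (Ω := Ω) x c := by
  unfold s27brgTens s27brgLin
  rw [map_sum]
  refine Finset.sum_congr rfl fun j _ => ?_
  rw [s26gspMu_tmul, mul_comm]

omit [FiniteDimensional ↥(IntermediateField.adjoin K {x}) 𝔠]
  [Algebra.IsSeparable ↥(IntermediateField.adjoin K {x}) 𝔠] in
theorem s27brg_ev_tens {J : Type*} [Fintype J] (e : 𝔠 →ₐ[K] 𝔎) (x : J → 𝔠) (c : J → 𝔎) :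
    s27gpEv e (s27brgTens (K := K) x c) = ∑ j, e (x j) * c j := by
  unfold s27brgTens
  rw [map_sum]
  refine Finset.sum_congr rfl fun j _ => ?_
  rw [s27gpEv_tmul]

include hx in
/-- `Σ_j c_j x_j ∈ L_𝔎(Con B)` for `x j ∈ L_K(B)`. -/
theorem s27brg_lin_mem_con (B : Divisor K 𝔠) {J : Type*} [Fintype J] (x' : J → 𝔠)
    (hx' : ∀ j, x' j ∈ riemannRochSpace B) (c : J → 𝔎) :
    s27brgLin (Ω := Ω) x' c ∈ riemannRochSpace (s27brgCon hld hgen hall B) := by
  unfold s27brgCon s27brgLin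
  rw [s26errd_rr_eq' hld hgen hall ⟨x, hx, inferInstance, inferInstance⟩ B]
  refine Submodule.sum_mem _ fun j _ => ?_
  rw [← Algebra.smul_def]
  exact Submodule.smul_mem _ _ (Submodule.subset_span ⟨x' j, hx' j, rfl⟩)

/-- **(B2)** in coordinates: `Σ_j c_j x_j` (`x j ∈ L_K(B)`) lies in `L_𝔎(Con B − Σ pt (R i))`
iff `c` is a kernel vector of the matrix of values `[R i (x j)]`. -/
theorem s27brg_lin_mem_iff (B : Divisor K 𝔠) {N : ℕ} (R : Fin N → 𝔠 →ₐ[K] 𝔎)
    (hR : Function.Injective R) {J : Type*} [Fintype J] (x' : J → 𝔠)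
    (hx' : ∀ j, x' j ∈ riemannRochSpace B) (c : J → 𝔎) :
    s27brgLin (Ω := Ω) x' c ∈
        riemannRochSpace (s27brgCon hld hgen hall B - s27brgPts hld hgen hx R) ↔
      ∀ i, ∑ j, R i (x' j) * c j = 0 := by
  have h1 := s27brg_lin_mem_con hld hgen hall hx B x' hx' c
  rw [← s27brg_mu_tens (K := K)] at h1 ⊢
  rw [s27brg_pt_mem_iff hld hgen hall hx B R hR _ h1]
  refine forall_congr' fun i => ?_
  rw [s27brg_ev_tens]

include hx in
/-- **(RR-D) in coordinates**: for a `K`-basis `x'` of `L_K(B)`, every element of `L_𝔎(Con B)`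
is a `Σ_j c_j x'_j`. -/
theorem s27brg_exists_lin (B : Divisor K 𝔠) {J : Type*} [Fintype J]
    (x' : Module.Basis J K ↥(riemannRochSpace B)) {s : Ω}
    (hs : s ∈ riemannRochSpace (s27brgCon hld hgen hall B)) :
    ∃ c : J → 𝔎, s = s27brgLin (Ω := Ω) (fun j => ((x' j : ↥(riemannRochSpace B)) : 𝔠)) c := by
  classical
  unfold s27brgCon at hs
  rw [s26errd_rr_eq' hld hgen hall ⟨x, hx, inferInstance, inferInstance⟩ B] at hs
  induction hs using Submodule.span_induction with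
  | mem y hy =>
    obtain ⟨f, hf, rfl⟩ := hy
    refine ⟨fun j => algebraMap K 𝔎 (x'.repr ⟨f, hf⟩ j), ?_⟩
    have h1 : (⟨f, hf⟩ : ↥(riemannRochSpace B)) = ∑ j, x'.repr ⟨f, hf⟩ j • x' j :=
      (x'.sum_repr ⟨f, hf⟩).symm
    have h2 : f = ∑ j, x'.repr ⟨f, hf⟩ j • ((x' j : ↥(riemannRochSpace B)) : 𝔠) := by
      have h3 := congrArg (fun z : ↥(riemannRochSpace B) => (z : 𝔠)) h1
      simp only [Submodule.coe_sum, Submodule.coe_smul] at h3
      exact h3
    unfold s27brgLin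
    conv_lhs => rw [h2]
    rw [map_sum]
    refine Finset.sum_congr rfl fun j _ => ?_
    rw [Algebra.smul_def, map_mul, ← IsScalarTower.algebraMap_apply K 𝔠 Ω,
      ← IsScalarTower.algebraMap_apply K 𝔎 Ω]
  | zero =>
    refine ⟨fun _ => 0, ?_⟩
    unfold s27brgLin
    simp
  | add y z _ _ hy hz =>
    obtain ⟨c, rfl⟩ := hy
    obtain ⟨d, rfl⟩ := hz
    refine ⟨fun j => c j + d j, ?_⟩
    unfold s27brgLin
    rw [← Finset.sum_add_distrib]
    refine Finset.sum_congr rfl fun j _ => ?_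
    rw [map_add, add_mul]
  | smul a y _ hy =>
    obtain ⟨c, rfl⟩ := hy
    refine ⟨fun j => a * c j, ?_⟩
    unfold s27brgLin
    rw [Algebra.smul_def, Finset.mul_sum]
    refine Finset.sum_congr rfl fun j _ => ?_
    rw [map_mul, mul_assoc]

/-- `L(D − E) ⊆ L(D)` for `E ≥ 0` of the form `Σ pt (R i)`. -/
theorem s27brg_sub_pts_le (D : Divisor 𝔎 Ω) {N : ℕ} (R : Fin N → 𝔠 →ₐ[K] 𝔎) :
    riemannRochSpace (D - s27brgPts hld hgen hx R) ≤ riemannRochSpace D := by
  intro s hs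
  rw [mem_riemannRochSpace_iff] at hs ⊢
  intro v
  rcases hs v with h | h
  · exact Or.inl h
  · right
    have h1 : (D - s27brgPts hld hgen hx R) v = D v - s27brgPts hld hgen hx R v := rfl
    have h2 : 0 ≤ s27brgPts hld hgen hx R v := s27pkgSum_nonneg _ v
    rw [h1] at h
    omega

/-- **(LinEq)**: if `div h = Σ pt (R' i) + Con M' − Σ pt (R i)`, multiplication by `h` carries
the kernel vectors of `(R, x₁)`, `x₁ j ∈ L_K(B + M')`, to kernel vectors of `(R', x₂)`, `x₂` a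
`K`-basis of `L_K(B)`:  `Σ c'_j x₂_j = h · Σ c_j x₁_j`.  (`M'` is ANY constant divisor; the inverse
direction is the same statement for `h⁻¹`, `B + M'`, `−M'`.) -/
theorem s27brg_linEq (B M' : Divisor K 𝔠) {N N' : ℕ} (R : Fin N → 𝔠 →ₐ[K] 𝔎)
    (R' : Fin N' → 𝔠 →ₐ[K] 𝔎) (hR : Function.Injective R) (hR' : Function.Injective R')
    {h : Ω} (hh : h ≠ 0)
    (hdiv : ∀ v : Place 𝔎 Ω, v.ord h =
      (s27brgPts hld hgen hx R' + s27brgCon hld hgen hall M' - s27brgPts hld hgen hx R) v)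
    {J J' : Type*} [Fintype J] [Fintype J'] (x₁ : J → 𝔠)
    (hx₁ : ∀ j, x₁ j ∈ riemannRochSpace (B + M'))
    (x₂ : Module.Basis J' K ↥(riemannRochSpace B))
    (c : J → 𝔎) (hc : ∀ i, ∑ j, R i (x₁ j) * c j = 0) :
    ∃ c' : J' → 𝔎, (∀ i, ∑ j, R' i ((x₂ j : ↥(riemannRochSpace B)) : 𝔠) * c' j = 0) ∧
      s27brgLin (Ω := Ω) (fun j => ((x₂ j : ↥(riemannRochSpace B)) : 𝔠)) c' =
        h * s27brgLin (Ω := Ω) x₁ c := by
  have h1 := (s27brg_lin_mem_iff hld hgen hall hx (B + M') R hR x₁ hx₁ c).mpr hc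
  have h2 := (s27brg_mul _ _ hh hdiv _).mp h1
  have h3 : s27brgCon hld hgen hall (B + M') - s27brgPts hld hgen hx R -
      (s27brgPts hld hgen hx R' + s27brgCon hld hgen hall M' - s27brgPts hld hgen hx R) =
      s27brgCon hld hgen hall B - s27brgPts hld hgen hx R' := by
    rw [s27brg_con_add]
    abel
  rw [h3] at h2
  obtain ⟨c', hc'⟩ := s27brg_exists_lin hld hgen hall hx B x₂
    (s27brg_sub_pts_le hld hgen hx _ R' h2)
  refine ⟨c', ?_, hc'.symm⟩
  rw [hc'] at h2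
  exact (s27brg_lin_mem_iff hld hgen hall hx B R' hR' _ (fun j => (x₂ j).2) c').mp h2

/-- **(LinEq), both directions, from a linear equivalence** in the prelude's sense:
`Σ pt (R' i) + Con M' − Σ pt (R i)` principal.  There is `h ≠ 0` such that `h ·` carries the kernel
vectors of `(R, x₁)` to those of `(R', x₂)` and `h⁻¹ ·` carries them back
(`x₁` a `K`-basis of `L_K(B + M')`, `x₂` a `K`-basis of `L_K(B)`). -/
theorem s27brg_linEq_of_principal (B M' : Divisor K 𝔠) {N N' : ℕ} (R : Fin N → 𝔠 →ₐ[K] 𝔎)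
    (R' : Fin N' → 𝔠 →ₐ[K] 𝔎) (hR : Function.Injective R) (hR' : Function.Injective R')
    (hprin : Divisor.IsPrincipal
      (s27brgPts hld hgen hx R' + s27brgCon hld hgen hall M' - s27brgPts hld hgen hx R))
    {J J' : Type*} [Fintype J] [Fintype J']
    (x₁ : Module.Basis J K ↥(riemannRochSpace (B + M')))
    (x₂ : Module.Basis J' K ↥(riemannRochSpace B)) :
    ∃ h : Ω, h ≠ 0 ∧
      (∀ c : J → 𝔎, (∀ i, ∑ j, R i ((x₁ j : ↥(riemannRochSpace (B + M'))) : 𝔠) * c j = 0) →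
        ∃ c' : J' → 𝔎, (∀ i, ∑ j, R' i ((x₂ j : ↥(riemannRochSpace B)) : 𝔠) * c' j = 0) ∧
          s27brgLin (Ω := Ω) (fun j => ((x₂ j : ↥(riemannRochSpace B)) : 𝔠)) c' =
            h * s27brgLin (Ω := Ω) (fun j => ((x₁ j : ↥(riemannRochSpace (B + M'))) : 𝔠)) c) ∧
      (∀ c' : J' → 𝔎, (∀ i, ∑ j, R' i ((x₂ j : ↥(riemannRochSpace B)) : 𝔠) * c' j = 0) →
        ∃ c : J → 𝔎, (∀ i, ∑ j, R i ((x₁ j : ↥(riemannRochSpace (B + M'))) : 𝔠) * c j = 0) ∧
          s27brgLin (Ω := Ω) (fun j => ((x₁ j : ↥(riemannRochSpace (B + M'))) : 𝔠)) c =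
            h⁻¹ * s27brgLin (Ω := Ω) (fun j => ((x₂ j : ↥(riemannRochSpace B)) : 𝔠)) c') := by
  obtain ⟨h, hh, hdiv⟩ := hprin
  refine ⟨h, hh, fun c hc => ?_, fun c' hc' => ?_⟩
  · exact s27brg_linEq hld hgen hall hx B M' R R' hR hR' hh (fun v => (hdiv v).symm) _
      (fun j => (x₁ j).2) x₂ c hc
  · -- the same statement for `h⁻¹`, `B + M'`, `-M'`
    have hB : B + M' + -M' = B := by abel
    have hdiv' : ∀ v : Place 𝔎 Ω, v.ord h⁻¹ =
        (s27brgPts hld hgen hx R + s27brgCon hld hgen hall (-M') - s27brgPts hld hgen hx R') v := by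
      intro v
      rw [v.ord_inv, ← hdiv v]
      have h1 : s27brgCon hld hgen hall (-M') = -s27brgCon hld hgen hall M' := by
        unfold s27brgCon
        exact map_neg (Finsupp.mapDomain.addMonoidHom (s26gspCon hld hgen hall)) M'
      rw [h1]
      simp only [Finsupp.coe_sub, Finsupp.coe_add, Finsupp.coe_neg, Pi.sub_apply, Pi.add_apply,
        Pi.neg_apply]
      ring
    have hx₂ : ∀ j, ((x₂ j : ↥(riemannRochSpace B)) : 𝔠) ∈ riemannRochSpace (B + M' + -M') := by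
      intro j
      rw [hB]
      exact (x₂ j).2
    exact s27brg_linEq hld hgen hall hx (B + M') (-M') R' R hR' hR (inv_ne_zero hh) hdiv' _
      hx₂ x₁ c' hc'

end Pt

end Fermat.Agent.S27

end
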