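/-
S27-B, GROW side, leaf **OPP** of helper46's POLE-DIV ASM (helper14): the function `h̃` in
coordinates.

Setting of S27/Bridge.lean: `K ⊆ 𝔠` the function field, `K ⊆ 𝔎`, `Ω = Frac (𝔠 ⊗[K] 𝔎)`
(`hld`, `hgen`), `Con B` the conorm of a constant divisor, `pt e` the place of a point
`e : 𝔠 →ₐ[K] 𝔎`.  Two `g`-tuples of points `p`, `q` whose classes w.r.t. the origin `Con G₀` are
OPPOSITE (`[Σ pt q − Con G₀] = −[Σ pt p − Con G₀]`, e.g. `p` = the tautological tuple and
`q = q (−1)`): then `Σ pt p + Σ pt q − 2 Con G₀` is principal, `= div h̃`, and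
`h̃ ∈ L_𝔎(Con (2 G₀)) = L_K(2 G₀) ⊗ 𝔎` (RR-D) vanishes at all the points `p i`, `q i`.

* `s27opp_exists_lin` : (RR-D) in coordinates for a SPANNING family of `L_K(B)`;
* `s27opp_principal`  : opposite classes ⇒ `∃ h ≠ 0, div h = Σ pt p + Σ pt q − Con (G₀ + G₀)`;
* **`s27opp_core`**   : for a spanning family `x'` of `L_K(G₀ + G₀)`:
      `∃ c ≠ 0, (∀ i, Σ_j p i (x' j) * c j = 0) ∧ (∀ i, Σ_j q i (x' j) * c j = 0)`;
* **`s27opp_split`**  : the same in the coordinates `(1, f_l)` (SPLIT as a hypothesis):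
      `∃ c₀ c, (c₀ ≠ 0 ∨ ∃ l, c l ≠ 0) ∧ (∀ i, c₀ + Σ_l c l * p i (f l) = 0) ∧
        (∀ i, c₀ + Σ_l c l * q i (f l) = 0)`   (the literal shape of helper46's note);
* `s27opp_inj_of_generic` : a generic tuple of points is injective;
* **`s27opp_stage`**  : ON THE STAGE (any `L ⊇ Ω_g`, `pkg` with `hpt`, `hcl` as in
      `s27fs_Stmt`, `q` with `hq : S27pfFam pkg q`): for `p := s27pfTaut`, `q := q (−1)`, a
      divisor `A ≤ G₀ + G₀` and a basis `f` of `L_K(A)` with SPLIT: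
      the body of helper46's `S27pdaOpp s27pfTaut (q (−1)) A` at `f`.
-/
import Fermat.Agent.S27.Bridge
import Fermat.Agent.S27.DegPkgO
import Fermat.Agent.S27.PsiFam

set_option autoImplicit false
set_option linter.style.haveILetI false
set_option linter.unusedSectionVars false
set_option linter.unusedVariables false

noncomputable section

namespace Fermat.Agent.S27

open AlgebraicCurve TensorProduct Fermat.Agent.S26

section Core

variable {K 𝔠 𝔎 Ω : Type*} [Field K] [Field 𝔠] [Field 𝔎] [Field Ω]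
  [Algebra K 𝔠] [Algebra K 𝔎] [Algebra K Ω] [Algebra 𝔠 Ω] [Algebra 𝔎 Ω]
  [IsScalarTower K 𝔠 Ω] [IsScalarTower K 𝔎 Ω]

variable (hld : Function.Injective (s26gspMu K 𝔠 𝔎 Ω)) (hgen : S26gspGen K 𝔠 𝔎 Ω)
  (hall : ∀ P : Place K 𝔠, Function.Surjective (algebraMap K P.ResidueField))
  {x : 𝔠} (hx : Transcendental K x)
  [FiniteDimensional ↥(IntermediateField.adjoin K {x}) 𝔠]
  [Algebra.IsSeparable ↥(IntermediateField.adjoin K {x}) 𝔠]

include hx in
/-- **(RR-D) in coordinates, for a spanning family**: if every element of `L_K(B)` is a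
`K`-combination of the `x' j`, every element of `L_𝔎(Con B)` is a `𝔎`-combination of them. -/
theorem s27opp_exists_lin (B : Divisor K 𝔠) {J : Type*} [Fintype J] (x' : J → 𝔠)
    (hspan : ∀ b ∈ riemannRochSpace B, ∃ a : J → K, b = ∑ j, a j • x' j) {s : Ω}
    (hs : s ∈ riemannRochSpace (s27brgCon hld hgen hall B)) :
    ∃ c : J → 𝔎, s = s27brgLin (Ω := Ω) x' c := by
  classical
  unfold s27brgCon at hs
  rw [s26errd_rr_eq' hld hgen hall ⟨x, hx, inferInstance, inferInstance⟩ B] at hs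
  induction hs using Submodule.span_induction with
  | mem y hy =>
    obtain ⟨f, hf, rfl⟩ := hy
    obtain ⟨a, ha⟩ := hspan f hf
    refine ⟨fun j => algebraMap K 𝔎 (a j), ?_⟩
    unfold s27brgLin
    conv_lhs => rw [ha]
    rw [map_sum]
    refine Finset.sum_congr rfl fun j _ => ?_
    rw [Algebra.smul_def, map_mul, ← IsScalarTower.algebraMap_apply K 𝔠 Ω,
      ← IsScalarTower.algebraMap_apply K 𝔎 Ω]
  | zero =>
    refine ⟨fun _ => 0, ?_⟩
    unfold s27brgLin
    simp
  | add y z _ _ hy hz =>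
    obtain ⟨c, hc⟩ := hy
    obtain ⟨d, hd⟩ := hz
    refine ⟨fun j => c j + d j, ?_⟩
    rw [hc, hd]
    unfold s27brgLin
    rw [← Finset.sum_add_distrib]
    refine Finset.sum_congr rfl fun j _ => ?_
    rw [map_add]
    ring
  | smul a y _ hy =>
    obtain ⟨c, hc⟩ := hy
    refine ⟨fun j => a * c j, ?_⟩
    rw [hc]
    unfold s27brgLin
    rw [Algebra.smul_def, Finset.mul_sum]
    refine Finset.sum_congr rfl fun j _ => ?_
    rw [map_mul]
    ring

/-- opposite classes w.r.t. the origin `O`: the sum `Σ R + Σ S − 2 O` is principal. -/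
theorem s27opp_principal_abs {L' Ω' : Type*} [Field L'] [Field Ω'] [Algebra L' Ω']
    (hdeg : ∀ w : Place L' Ω', w.deg = 1) {g : ℕ} (O : Divisor L' Ω')
    (hO : Divisor.degree O = g) (R S : Fin g → Place L' Ω')
    (hcl : s27pkgClO hdeg O hO S = -s27pkgClO hdeg O hO R) :
    ∃ h : Ω', h ≠ 0 ∧ ∀ v : Place L' Ω',
      v.ord h = s27pkgSum R v + s27pkgSum S v - (O v + O v) := by
  unfold s27pkgClO at hcl
  have h1 : -Pic0.mk (s27pkgDivZeroO hdeg O hO R) = Pic0.mk (-s27pkgDivZeroO hdeg O hO R) := rfl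
  rw [h1, s27pkg_mk_eq_iff] at hcl
  obtain ⟨f, hf, hfv⟩ := hcl
  refine ⟨f, hf, fun v => ?_⟩
  have h2 := hfv v
  rw [AddSubgroup.coe_neg, Finsupp.neg_apply, s27pkgDivZeroO_coe, s27pkgDivZeroO_coe,
    Finsupp.sub_apply, Finsupp.sub_apply] at h2
  omega

include hx in
/-- opposite classes ⇒ `∃ h ≠ 0, div h = Σ pt p + Σ pt q − Con (G₀ + G₀)`. -/
theorem s27opp_principal (hdeg : ∀ w : Place 𝔎 Ω, w.deg = 1) {g : ℕ} (G₀ : Divisor K 𝔠)
    (hO : Divisor.degree (s27brgCon hld hgen hall G₀) = g)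
    (p q : Fin g → 𝔠 →ₐ[K] 𝔎)
    (hcl : s27pkgClO hdeg (s27brgCon hld hgen hall G₀) hO
        (fun i => s27gpPlace hld hgen (q i) hx) =
      -s27pkgClO hdeg (s27brgCon hld hgen hall G₀) hO
        (fun i => s27gpPlace hld hgen (p i) hx)) :
    ∃ h : Ω, h ≠ 0 ∧ ∀ v : Place 𝔎 Ω,
      v.ord h = s27brgPts hld hgen hx p v + s27brgPts hld hgen hx q v -
        s27brgCon hld hgen hall (G₀ + G₀) v := by
  obtain ⟨h, hh, hdiv⟩ := s27opp_principal_abs hdeg _ hO _ _ hcl
  refine ⟨h, hh, fun v => ?_⟩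
  rw [hdiv v, s27brg_con_add, Finsupp.add_apply]
  rfl

include hx in
/-- **OPP, core**: two injective `g`-tuples of points `p`, `q` of OPPOSITE classes w.r.t. the
origin `Con G₀`, `x'` a spanning family of `L_K(G₀ + G₀)`: there is a non-zero coordinate vector
`c` (`h̃ = Σ_j c_j x'_j`) vanishing at all the points `p i` and `q i`. -/
theorem s27opp_core (hdeg : ∀ w : Place 𝔎 Ω, w.deg = 1) {g : ℕ} (G₀ : Divisor K 𝔠)
    (hO : Divisor.degree (s27brgCon hld hgen hall G₀) = g)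
    (p q : Fin g → 𝔠 →ₐ[K] 𝔎) (hp : Function.Injective p) (hq : Function.Injective q)
    (hcl : s27pkgClO hdeg (s27brgCon hld hgen hall G₀) hO
        (fun i => s27gpPlace hld hgen (q i) hx) =
      -s27pkgClO hdeg (s27brgCon hld hgen hall G₀) hO
        (fun i => s27gpPlace hld hgen (p i) hx))
    {J : Type*} [Fintype J] (x' : J → 𝔠) (hx' : ∀ j, x' j ∈ riemannRochSpace (G₀ + G₀))
    (hspan : ∀ b ∈ riemannRochSpace (G₀ + G₀), ∃ a : J → K, b = ∑ j, a j • x' j) :
    ∃ c : J → 𝔎, (∃ j, c j ≠ 0) ∧ (∀ i, ∑ j, p i (x' j) * c j = 0) ∧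
      (∀ i, ∑ j, q i (x' j) * c j = 0) := by
  classical
  obtain ⟨h, hh, hdiv⟩ := s27opp_principal hld hgen hall hx hdeg G₀ hO p q hcl
  have hP0 : ∀ v : Place 𝔎 Ω, 0 ≤ s27brgPts hld hgen hx p v := fun v => s27pkgSum_nonneg _ v
  have hQ0 : ∀ v : Place 𝔎 Ω, 0 ≤ s27brgPts hld hgen hx q v := fun v => s27pkgSum_nonneg _ v
  have hmemP : h ∈ riemannRochSpace
      (s27brgCon hld hgen hall (G₀ + G₀) - s27brgPts hld hgen hx p) := by
    rw [mem_riemannRochSpace_iff]
    intro v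
    right
    rw [hdiv v, Finsupp.sub_apply]
    have := hQ0 v
    omega
  have hmemQ : h ∈ riemannRochSpace
      (s27brgCon hld hgen hall (G₀ + G₀) - s27brgPts hld hgen hx q) := by
    rw [mem_riemannRochSpace_iff]
    intro v
    right
    rw [hdiv v, Finsupp.sub_apply]
    have := hP0 v
    omega
  have hmem : h ∈ riemannRochSpace (s27brgCon hld hgen hall (G₀ + G₀)) :=
    s27brg_sub_pts_le hld hgen hx _ p hmemP
  obtain ⟨c, hc⟩ := s27opp_exists_lin hld hgen hall hx (G₀ + G₀) x' hspan hmem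
  refine ⟨c, ?_, ?_, ?_⟩
  · by_contra hne
    simp only [not_exists, ne_eq, not_not] at hne
    apply hh
    rw [hc]
    unfold s27brgLin
    refine Finset.sum_eq_zero fun j _ => ?_
    rw [hne j]
    simp
  · rw [hc] at hmemP
    exact (s27brg_lin_mem_iff hld hgen hall hx (G₀ + G₀) p hp x' hx' c).mp hmemP
  · rw [hc] at hmemQ
    exact (s27brg_lin_mem_iff hld hgen hall hx (G₀ + G₀) q hq x' hx' c).mp hmemQ

include hx in
/-- **OPP in the coordinates `(1, f_l)`** (the literal shape of helper46's POLE-DIV ASM):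
`f` any family in `L_K(G₀ + G₀)` such that `1` and the `f l` span `L_K(G₀ + G₀)` (SPLIT: `f` a
basis of `L_K(2G₀ − O)`, `G₀ ≥ 0`, `O ∉ supp G₀`).  Then `h̃ = c₀ · 1 + Σ_l c_l f_l ≠ 0` vanishes
at all the points `p i`, `q i`. -/
theorem s27opp_split (hdeg : ∀ w : Place 𝔎 Ω, w.deg = 1) {g : ℕ} (G₀ : Divisor K 𝔠)
    (hO : Divisor.degree (s27brgCon hld hgen hall G₀) = g)
    (p q : Fin g → 𝔠 →ₐ[K] 𝔎) (hp : Function.Injective p) (hq : Function.Injective q)
    (hcl : s27pkgClO hdeg (s27brgCon hld hgen hall G₀) hO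
        (fun i => s27gpPlace hld hgen (q i) hx) =
      -s27pkgClO hdeg (s27brgCon hld hgen hall G₀) hO
        (fun i => s27gpPlace hld hgen (p i) hx))
    {ι : Type*} [Fintype ι] (f : ι → 𝔠) (hf : ∀ l, f l ∈ riemannRochSpace (G₀ + G₀))
    (h1 : (1 : 𝔠) ∈ riemannRochSpace (G₀ + G₀))
    (hsplit : ∀ b ∈ riemannRochSpace (G₀ + G₀), ∃ (a₀ : K) (a : ι → K),
      b = a₀ • (1 : 𝔠) + ∑ l, a l • f l) :
    ∃ (c₀ : 𝔎) (c : ι → 𝔎), (c₀ ≠ 0 ∨ ∃ l, c l ≠ 0) ∧
      (∀ i, c₀ + ∑ l, c l * p i (f l) = 0) ∧ (∀ i, c₀ + ∑ l, c l * q i (f l) = 0) := by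
  classical
  let x' : Option ι → 𝔠 := fun j => j.elim 1 f
  have hx' : ∀ j, x' j ∈ riemannRochSpace (G₀ + G₀) := by
    rintro (_ | l)
    · exact h1
    · exact hf l
  have hspan : ∀ b ∈ riemannRochSpace (G₀ + G₀), ∃ a : Option ι → K, b = ∑ j, a j • x' j := by
    intro b hb
    obtain ⟨a₀, a, hba⟩ := hsplit b hb
    refine ⟨fun j => j.elim a₀ a, ?_⟩
    rw [Fintype.sum_option]
    exact hba
  obtain ⟨c, ⟨j, hj⟩, hcp, hcq⟩ :=
    s27opp_core hld hgen hall hx hdeg G₀ hO p q hp hq hcl x' hx' hspan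
  refine ⟨c none, fun l => c (some l), ?_, fun i => ?_, fun i => ?_⟩
  · rcases j with _ | l
    · exact Or.inl hj
    · exact Or.inr ⟨l, hj⟩
  · have h2 := hcp i
    rw [Fintype.sum_option] at h2
    have h3 : p i (x' none) = 1 := map_one (p i)
    rw [h3, one_mul] at h2
    rw [← h2]
    congr 1
    refine Finset.sum_congr rfl fun l _ => ?_
    exact mul_comm _ _
  · have h2 := hcq i
    rw [Fintype.sum_option] at h2
    have h3 : q i (x' none) = 1 := map_one (q i)
    rw [h3, one_mul] at h2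
    rw [← h2]
    congr 1
    refine Finset.sum_congr rfl fun l _ => ?_
    exact mul_comm _ _

end Core

section Stage

universe u v w

variable {K : Type u} {F : Type v} [Field K] [IsAlgClosed K] [Field F] [Algebra K F] {g : ℕ}
variable {L : Type (max u v)} [Field L] [Algebra K L] [Algebra (s27gfOm K F g) L]
  [IsScalarTower K (s27gfOm K F g) L]
variable {FL : Type w} [Field FL] [Algebra K FL] [Algebra F FL] [Algebra L FL]
  [IsScalarTower K F FL] [IsScalarTower K L FL]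

/-- a generic tuple of points is injective. -/
theorem s27opp_inj_of_generic {L' : Type*} [Field L'] [Algebra K L'] {t : F} {n : ℕ}
    (e : Fin n → F →ₐ[K] L') (he : S27dgGeneric K t e) : Function.Injective e := by
  intro i j hij
  have h1 : Function.Injective fun i => e i t := AlgebraicIndependent.injective he
  exact h1 (by show e i t = e j t; rw [hij])

variable (hld : Function.Injective (s26gspMu K F L FL)) (hgen : S26gspGen K F L FL)
  (hall : ∀ P : Place K F, Function.Surjective (algebraMap K P.ResidueField))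
  {t : F} (ht : Transcendental K t)
  [FiniteDimensional ↥(IntermediateField.adjoin K {t}) F]
  [Algebra.IsSeparable ↥(IntermediateField.adjoin K {t}) F]

include ht in
/-- **OPP on the stage** (`p` = the tautological tuple, `q (−1)` the opposite tuple of the
family): for `A ≤ G₀ + G₀`, `1 ∈ L_K(G₀ + G₀)` and a basis `f` of `L_K(A)` such that `1` and `f`
span `L_K(G₀ + G₀)` (SPLIT), there is `h̃ = c₀ · 1 + Σ_l c_l f_l ≠ 0` vanishing at all the points
`s27pfTaut i` and `q (−1) i`.  (= the body of `S27pdaOpp s27pfTaut (q (−1)) A` at `f`.) -/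
theorem s27opp_stage (hdeg : ∀ w : Place L FL, w.deg = 1) (G₀ : Divisor K F)
    (hO : Divisor.degree (Finsupp.mapDomain (s26gspCon hld hgen hall) G₀) = (g : ℤ))
    (pkg : S27DegPkg K F L t g (Place L FL) (Pic0 L FL))
    (hpt : ∀ e : F →ₐ[K] L, pkg.pt e = s27gpPlace hld hgen e ht)
    (hcl : ∀ R : Fin g → Place L FL, pkg.cl R =
      s27pkgClO hdeg (Finsupp.mapDomain (s26gspCon hld hgen hall) G₀) hO R)
    (q : ℤ → Fin g → F →ₐ[K] L) (hq : S27pfFam pkg q)
    (hp : Function.Injective (s27pfTaut (K := K) (F := F) (g := g) (L := L)))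
    (A : Divisor K F) (hA : A ≤ G₀ + G₀) (h1 : (1 : F) ∈ riemannRochSpace (G₀ + G₀))
    (f : Module.Basis (Fin g) K ↥(riemannRochSpace A))
    (hsplit : ∀ b ∈ riemannRochSpace (G₀ + G₀), ∃ (a₀ : K) (a : Fin g → K),
      b = a₀ • (1 : F) + ∑ l, a l • ((f l : ↥(riemannRochSpace A)) : F)) :
    ∃ (c₀ : L) (c : Fin g → L), (c₀ ≠ 0 ∨ ∃ l, c l ≠ 0) ∧
      (∀ i, c₀ + ∑ l, c l * s27pfTaut (K := K) (F := F) (g := g) (L := L) i ((f l : ↥(riemannRochSpace A)) : F) = 0) ∧
      (∀ i, c₀ + ∑ l, c l * q (-1) i ((f l : ↥(riemannRochSpace A)) : F) = 0) := by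
  have hq1 := hq (-1) (by norm_num)
  have hqinj : Function.Injective (q (-1)) := s27opp_inj_of_generic _ hq1.1
  have hclq : s27pkgClO hdeg (s27brgCon hld hgen hall G₀) hO
        (fun i => s27gpPlace hld hgen (q (-1) i) ht) =
      -s27pkgClO hdeg (s27brgCon hld hgen hall G₀) hO
        (fun i => s27gpPlace hld hgen (s27pfTaut (K := K) (F := F) (g := g) (L := L) i) ht) := by
    have h2 := hq1.2
    unfold s27pfCl at h2
    rw [hcl, hcl, neg_one_zsmul] at h2
    have e1 : (fun i => pkg.pt (q (-1) i)) = fun i => s27gpPlace hld hgen (q (-1) i) ht :=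
      funext fun i => hpt _
    have e2 : (fun i => pkg.pt (s27pfTaut (K := K) (F := F) (g := g) (L := L) i)) =
        fun i => s27gpPlace hld hgen (s27pfTaut (K := K) (F := F) (g := g) (L := L) i) ht :=
      funext fun i => hpt _
    rw [e1, e2] at h2
    exact h2
  have hf : ∀ l, ((f l : ↥(riemannRochSpace A)) : F) ∈ riemannRochSpace (G₀ + G₀) := by
    intro l
    have h3 := (f l).2
    rw [mem_riemannRochSpace_iff] at h3 ⊢
    intro v
    rcases h3 v with h4 | h4
    · exact Or.inl h4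
    · right
      have h5 : A v ≤ (G₀ + G₀) v := Finsupp.le_def.mp hA v
      omega
  exact s27opp_split hld hgen hall ht hdeg G₀ hO (s27pfTaut (K := K) (F := F) (g := g) (L := L)) (q (-1)) hp hqinj
    hclq (fun l => ((f l : ↥(riemannRochSpace A)) : F)) hf h1 hsplit

end Stage

end Fermat.Agent.S27

end
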