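/-
S27-B, GROW side, leaf **OPP** (helper14), part 2: the tautological tuple for a GENERAL `g`, and
the `∀ f` form of OPP on the stage.

* `s27oppt_taut_generic` : the tautological tuple `s27pfTaut` is generic (any `g`, any field
  `L ⊇ Ω_g`);
* `s27oppt_taut_inj`     : `Function.Injective s27pfTaut` (= the `hp` of `s27pda_main` and of
  `s27opp_stage`);
* `s27oppt_fam_inj`      : `Function.Injective (q k)` for a family `hq : S27pfFam pkg q`, `k ≠ 0`
  (= the `hq` of `s27pda_main`);
* **`s27oppt_stage`**    : `s27opp_stage` without `hp`, for ALL bases `f` at once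
  (= `S27pdaOpp s27pfTaut (q (−1)) A`, unfolded), from SPLIT for `A`.
-/
import Fermat.Agent.S27.PoleDivOpp
import Fermat.Agent.S27.GenTB

set_option autoImplicit false
set_option linter.style.haveILetI false
set_option linter.unusedSectionVars false
set_option linter.unusedVariables false

noncomputable section

namespace Fermat.Agent.S27

open AlgebraicCurve TensorProduct Fermat.Agent.S26

universe u v w x y

variable {K : Type u} {F : Type v} [Field K] [IsAlgClosed K] [Field F] [Algebra K F] {g : ℕ}
variable {L : Type (max u v)} [Field L] [Algebra K L] [Algebra (s27gfOm K F g) L]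
  [IsScalarTower K (s27gfOm K F g) L]

/-- the tautological tuple is generic (general `g`). -/
theorem s27oppt_taut_generic (t : F) (ht : Transcendental K t) :
    S27dgGeneric K t (s27pfTaut (K := K) (F := F) (g := g) (L := L)) := by
  unfold S27dgGeneric
  have hinj : Function.Injective (IsScalarTower.toAlgHom K (s27gfOm K F g) L) :=
    (algebraMap (s27gfOm K F g) L).injective
  exact AlgebraicIndependent.map' (s27tb_algebraicIndependent (K := K) (g := g) t ht) hinj

/-- the tautological tuple is injective (general `g`). -/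
theorem s27oppt_taut_inj (t : F) (ht : Transcendental K t) :
    Function.Injective (s27pfTaut (K := K) (F := F) (g := g) (L := L)) :=
  s27opp_inj_of_generic _ (s27oppt_taut_generic t ht)

/-- the tuples of a family are injective. -/
theorem s27oppt_fam_inj {t : F} {Pl : Type x} {P : Type y} [AddCommGroup P]
    (pkg : S27DegPkg K F L t g Pl P) (q : ℤ → Fin g → F →ₐ[K] L) (hq : S27pfFam pkg q)
    (k : ℤ) (hk : k ≠ 0) : Function.Injective (q k) :=
  s27opp_inj_of_generic _ (hq k hk).1

variable {FL : Type w} [Field FL] [Algebra K FL] [Algebra F FL] [Algebra L FL]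
  [IsScalarTower K F FL] [IsScalarTower K L FL]

variable (hld : Function.Injective (s26gspMu K F L FL)) (hgen : S26gspGen K F L FL)
  (hall : ∀ P : Place K F, Function.Surjective (algebraMap K P.ResidueField))
  {t : F} (ht : Transcendental K t)
  [FiniteDimensional ↥(IntermediateField.adjoin K {t}) F]
  [Algebra.IsSeparable ↥(IntermediateField.adjoin K {t}) F]

include ht in
/-- **OPP on the stage, for all bases at once** (the unfolded `S27pdaOpp s27pfTaut (q (−1)) A`),
from SPLIT for `A ≤ G₀ + G₀`. -/
theorem s27oppt_stage (hdeg : ∀ w : Place L FL, w.deg = 1) (G₀ : Divisor K F)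
    (hO : Divisor.degree (Finsupp.mapDomain (s26gspCon hld hgen hall) G₀) = (g : ℤ))
    (pkg : S27DegPkg K F L t g (Place L FL) (Pic0 L FL))
    (hpt : ∀ e : F →ₐ[K] L, pkg.pt e = s27gpPlace hld hgen e ht)
    (hcl : ∀ R : Fin g → Place L FL, pkg.cl R =
      s27pkgClO hdeg (Finsupp.mapDomain (s26gspCon hld hgen hall) G₀) hO R)
    (q : ℤ → Fin g → F →ₐ[K] L) (hq : S27pfFam pkg q)
    (A : Divisor K F) (hA : A ≤ G₀ + G₀) (h1 : (1 : F) ∈ riemannRochSpace (G₀ + G₀))
    (hsplit : ∀ f : Module.Basis (Fin g) K ↥(riemannRochSpace A),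
      ∀ b ∈ riemannRochSpace (G₀ + G₀), ∃ (a₀ : K) (a : Fin g → K),
        b = a₀ • (1 : F) + ∑ l, a l • ((f l : ↥(riemannRochSpace A)) : F)) :
    ∀ f : Module.Basis (Fin g) K ↥(riemannRochSpace A),
      ∃ (c₀ : L) (c : Fin g → L), (c₀ ≠ 0 ∨ ∃ l, c l ≠ 0) ∧
        (∀ i, c₀ + ∑ l, c l *
          s27pfTaut (K := K) (F := F) (g := g) (L := L) i ((f l : ↥(riemannRochSpace A)) : F) = 0) ∧
        (∀ i, c₀ + ∑ l, c l * q (-1) i ((f l : ↥(riemannRochSpace A)) : F) = 0) :=
  fun f => s27opp_stage hld hgen hall ht hdeg G₀ hO pkg hpt hcl q hq (s27oppt_taut_inj t ht)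
    A hA h1 f (hsplit f)

end Fermat.Agent.S27

end
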