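/-
S27-B, GROW side, leaf **OPP** (helper14), part 3 = THE WIRING: helper46's `S27pdaOpp`
(S27/PoleDivAsm.lean) for `p := s27pfTaut`, `q := q (−1)`, `A := 2 • G₀ − single O 1`, on the
stage, with SPLIT (helper31, S27/PoleDivSplit.lean) built in.  Nothing is left open here.

* **`s27oppf_opp`** : `0 ≤ G₀`, `G₀ O = 0`, `pkg` with `hpt`, `hcl` (as in `s27fs_Stmt`),
  `hq : S27pfFam pkg q`  ⇒  `S27pdaOpp s27pfTaut (q (−1)) (2 • G₀ − single O 1)`.
-/
import Fermat.Agent.S27.PoleDivOppT
import Fermat.Agent.S27.PoleDivSplit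
import Fermat.Agent.S27.PoleDivAsm

set_option autoImplicit false
set_option linter.style.haveILetI false
set_option linter.unusedSectionVars false
set_option linter.unusedVariables false

noncomputable section

namespace Fermat.Agent.S27

open AlgebraicCurve TensorProduct Fermat.Agent.S26

universe u v w

variable {K : Type u} {F : Type v} [Field K] [IsAlgClosed K] [Field F] [Algebra K F] {g : ℕ}
variable {L : Type (max u v)} [Field L] [Algebra K L] [Algebra (s27gfOm K F g) L]
  [IsScalarTower K (s27gfOm K F g) L]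
variable {FL : Type w} [Field FL] [Algebra K FL] [Algebra F FL] [Algebra L FL]
  [IsScalarTower K F FL] [IsScalarTower K L FL]

variable (hld : Function.Injective (s26gspMu K F L FL)) (hgen : S26gspGen K F L FL)
  (hall : ∀ P : Place K F, Function.Surjective (algebraMap K P.ResidueField))
  {t : F} (ht : Transcendental K t)
  [FiniteDimensional ↥(IntermediateField.adjoin K {t}) F]
  [Algebra.IsSeparable ↥(IntermediateField.adjoin K {t}) F]

include ht in
/-- **OPP, closed**: the (OPP) input of `s27pda_main` for the tautological tuple and `q (−1)`. -/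
theorem s27oppf_opp (hdeg : ∀ w : Place L FL, w.deg = 1) (G₀ : Divisor K F)
    (hO : Divisor.degree (Finsupp.mapDomain (s26gspCon hld hgen hall) G₀) = (g : ℤ))
    (pkg : S27DegPkg K F L t g (Place L FL) (Pic0 L FL))
    (hpt : ∀ e : F →ₐ[K] L, pkg.pt e = s27gpPlace hld hgen e ht)
    (hcl : ∀ R : Fin g → Place L FL, pkg.cl R =
      s27pkgClO hdeg (Finsupp.mapDomain (s26gspCon hld hgen hall) G₀) hO R)
    (q : ℤ → Fin g → F →ₐ[K] L) (hq : S27pfFam pkg q)
    (hG₀ : 0 ≤ G₀) (O : Place K F) (hOG : G₀ O = 0) :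
    S27pdaOpp (s27pfTaut (K := K) (F := F) (g := g) (L := L)) (q (-1))
      (2 • G₀ - Finsupp.single O 1) := by
  have h2 : (2 : ℕ) • G₀ = G₀ + G₀ := two_nsmul G₀
  have hA : (2 • G₀ - Finsupp.single O 1 : Divisor K F) ≤ G₀ + G₀ := by
    rw [← h2]
    rw [Finsupp.le_def]
    intro v
    rw [Finsupp.sub_apply]
    have h3 : (0 : ℤ) ≤ (Finsupp.single O (1 : ℤ) : Divisor K F) v := by
      classical
      rw [Finsupp.single_apply]
      split_ifs <;> norm_num
    omega
  have hpos : (0 : Divisor K F) ≤ G₀ + G₀ := add_nonneg hG₀ hG₀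
  have h1 : (1 : F) ∈ riemannRochSpace (G₀ + G₀) := by
    have h4 := s27pdsp_const_mem (K := K) (F := F) hpos 1
    rwa [map_one] at h4
  refine s27oppt_stage hld hgen hall ht hdeg G₀ hO pkg hpt hcl q hq
    (2 • G₀ - Finsupp.single O 1) hA h1 fun f b hb => ?_
  rw [← h2] at hb
  obtain ⟨c₀, c, hc⟩ := s27pdsp_split G₀ hG₀ O hOG (hall O) f b hb
  refine ⟨c₀, c, ?_⟩
  rw [hc, Algebra.algebraMap_eq_smul_one]

end Fermat.Agent.S27

end
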