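/-
S27-B, piece **GROW-CLOSED** (helper41): the (GROW) input `S27ftGrow` of the captain's FINAL-TOP2
(`s27ft2_Stmt`, S27/FinalTop2.lean) with NO open leaf: for `A' = 2 G₀ − O`, `0 ≤ G₀`, `G₀ O = 0`
and a basis `f₀` of `L_K(A')` indexed by `Fin g`.

Inputs used (all landed): BETA + LAT-EX, (U1), UP-SYM, `deg_fin`, POINT-T, glue, Chevalley,
PSI-NAT (GrowTop / GrowH2 / GrowH3), POLE-DIV ASM `s27pda_main` (helper46), OPP `s27oppf_opp`
(helper14), DISJ `s27dom_disj_fam` (helper26 / DomDisj).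
-/
import Fermat.Agent.S27.FinalTop2
import Fermat.Agent.S27.GrowH3
import Fermat.Agent.S27.PoleDivAsm
import Fermat.Agent.S27.PoleDivOppFin
import Fermat.Agent.S27.DomDisj

set_option autoImplicit false
set_option linter.unusedVariables false
set_option linter.unusedSectionVars false
set_option linter.style.haveILetI false

noncomputable section

namespace Fermat.Agent.S27

open AlgebraicCurve Module TensorProduct IntermediateField Fermat.Agent.S26

universe u v

section GrowClosed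

variable {K : Type u} {F : Type v} [Field K] [Field F] [Algebra K F] [IsAlgClosed K] [CharZero K]
  [IsCurveOver K F] [Algebra.EssFiniteType K F]
variable {x : F} (hx : Transcendental K x)
  [FiniteDimensional ↥(IntermediateField.adjoin K {x}) F]
  [Algebra.IsSeparable ↥(IntermediateField.adjoin K {x}) F]
  (G₀ : Divisor K F) (hG₀ : Divisor.degree G₀ = (genusFF K F : ℤ))

/-- the numerical facts about `A' = 2 G₀ − O`. -/
theorem s27grc_const (O : Place K F) (hG0 : 0 ≤ G₀) (hOG : G₀ O = 0) :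
    (2 • G₀ - Finsupp.single O 1 : Divisor K F) O = -1 ∧
      (∀ Q : Place K F, Q ≠ O → 0 ≤ (2 • G₀ - Finsupp.single O 1 : Divisor K F) Q) ∧
      (2 • G₀ - Finsupp.single O 1 : Divisor K F) ≤ G₀ + G₀ := by
  classical
  refine ⟨?_, fun Q hQ => ?_, ?_⟩
  · rw [Finsupp.sub_apply, Finsupp.smul_apply, hOG, Finsupp.single_eq_same]
    simp
  · rw [Finsupp.sub_apply, Finsupp.smul_apply, Finsupp.single_apply, if_neg (Ne.symm hQ)]
    have h0 : (0 : ℤ) ≤ G₀ Q := Finsupp.le_def.mp hG0 Q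
    simp only [nsmul_eq_mul, Nat.cast_ofNat, sub_zero]
    positivity
  · rw [Finsupp.le_def]
    intro v
    rw [Finsupp.sub_apply, Finsupp.smul_apply, Finsupp.add_apply, Finsupp.single_apply]
    simp only [nsmul_eq_mul, Nat.cast_ofNat]
    split_ifs <;> omega

/-- **GROW-CLOSED**: `S27ftGrow` for `A' = 2 G₀ − O`, no open leaf. -/
theorem s27grc_grow (hg : 0 < genusFF K F) (O : Place K F) (hG0 : 0 ≤ G₀) (hOG : G₀ O = 0)
    (A' : Divisor K F) (hA' : A' = 2 • G₀ - Finsupp.single O 1)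
    (f₀ : Module.Basis (Fin (genusFF K F)) K ↥(riemannRochSpace A'))
    (q : ℤ → Fin (genusFF K F) → F →ₐ[K] s27mtL K F) (hq : S27pfFam (s27ftPkg hx G₀ hG₀) q) :
    S27ftGrow hx G₀ hG₀ A' q hq := by
  subst hA'
  obtain ⟨hAO, hApos, hA⟩ := s27grc_const G₀ O hG0 hOG
  intro e he Φ hΦ hcube
  have hm1 : (-1 : ℤ) ≠ 0 := by norm_num
  have hm1' : (-1 : ℤ) ≠ 1 := by norm_num
  refine s27gh3_isGrow (L := s27mtL K F) hg hx O
    (s27pfPsi (s27ftPkg hx G₀ hG₀) (s27dcl_halg (x := x)) hq) q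
    ⟨(s27pf_fam_pt (s27ftPkg hx G₀ hG₀) (s27dcl_halg (x := x)) hq (-1) hm1).inj,
      fun s => s27pfPsi_spec (s27ftPkg hx G₀ hG₀) (s27dcl_halg (x := x)) hq (-1) hm1 s⟩
    (2 • G₀ - Finsupp.single O 1) (G₀ + G₀) hA (add_nonneg hG0 hG0) f₀
    (s27flx_latEx K F hx _) e he Φ hΦ hcube ?_
  intro s hs W hW y hy
  exact s27pda_main x hx W hW O (s26gspf_hall hx O) s hs _ hAO hApos
    (s27pfTaut (K := K) (F := F) (g := genusFF K F) (L := s27mtL K F)) (q (-1))
    (s27oppt_taut_inj x hx) (s27oppt_fam_inj (s27ftPkg hx G₀ hG₀) q hq (-1) hm1)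
    (s27dom_disj_fam (FL := s27mtFL K F) (s27stg_hld K F (s27mtL K F))
      (s27stg_hgen K F (s27mtL K F)) hx G₀ hG₀ q hq (-1) hm1 hm1')
    (s27oppf_opp (FL := s27mtFL K F) (s27stg_hld K F (s27mtL K F))
      (s27stg_hgen K F (s27mtL K F)) (s26gspf_hall hx) hx
      (s27pkg_hdeg (s27stg_hld K F (s27mtL K F)) (s27stg_hgen K F (s27mtL K F)) hx) G₀
      (s27pkgO_degree (s27stg_hld K F (s27mtL K F)) (s27stg_hgen K F (s27mtL K F)) hx G₀ hG₀)
      (s27ftPkg hx G₀ hG₀) (fun e => rfl) (fun R => rfl) q hq hG0 O hOG) y hy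

end GrowClosed

end Fermat.Agent.S27

end
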