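/-
S27-B — GEOMETRY HUB (helper95): **LE-CLASS, formal part**: the class invariance `S27ckLE` of the
concrete class-indexed local equation `S27icIdx` (S27/IdxCls.lean) from

  (LE-a) `S27lecLEa` : two tuples `(R, B)`, `(R', B')` of points (ANY lengths `N`, `N'`, also `0`)
         of the SAME class have local equations which differ by a unit of `W`;
  (Ao)   `riemannRochSpace Ao = ⊥`  (`ℓ(Ao) = 0`, `Ao = G₀ − O″`).

The unit clause of `S27icIdx` is the local equation of the EMPTY tuple (`N = 0`, `B = 0`):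
`s27lec_idx_empty : S27ptIsIdx W Fin.elim0 (0 + Ao) 1`.

  `s27lec_le : riemannRochSpace Ao = ⊥ → S27lecLEa hld hgen hx Ao → S27ckLE K (S27icIdx hld hgen hx Ao)`.
-/
import Fermat.Agent.S27.IdxCls
import Fermat.Agent.S27.DegPkgAdd

set_option autoImplicit false
set_option linter.unusedVariables false
set_option linter.unusedSectionVars false
set_option linter.style.haveILetI false

noncomputable section

namespace Fermat.Agent.S27

open AlgebraicCurve Module TensorProduct IntermediateField Fermat.Agent.S26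

universe u v y

section Empty

variable {K : Type u} {F : Type v} [Field K] [Field F] [Algebra K F]
variable {𝔏 : Type*} [Field 𝔏] [Algebra K 𝔏]

/-- the local equation of the EMPTY tuple is `1` (when `ℓ(A') = 0`). -/
theorem s27lec_idx_empty (W : ValuationSubring 𝔏) (R : Fin 0 → F →ₐ[K] 𝔏) (A' : Divisor K F)
    (hA' : riemannRochSpace A' = ⊥) : S27ptIsIdx W R A' 1 := by
  haveI : Subsingleton ↥(riemannRochSpace A') := by
    rw [hA']
    infer_instance
  refine ⟨Module.Basis.empty _, Fin.elim0, ⟨fun j => j.elim0, ?_, fun ψ _ => ?_⟩, ?_⟩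
  · rw [Matrix.det_isEmpty]
    exact one_ne_zero
  · exact ⟨Fin.elim0, fun j => j.elim0, fun i => i.elim0⟩
  · rw [Matrix.det_isEmpty, Matrix.det_isEmpty, div_one]

end Empty

section Stage

variable {K : Type u} {F : Type v} [Field K] [IsAlgClosed K] [CharZero K] [Field F] [Algebra K F]
  [IsCurveOver K F] [Algebra.EssFiniteType K F]
  {L : Type (max u v)} [Field L] [Algebra K L]
  [Algebra (s27gfOm K F (genusFF K F)) L] [IsScalarTower K (s27gfOm K F (genusFF K F)) L]
  [IsAlgClosed L] [Algebra.IsAlgebraic (s27gfOm K F (genusFF K F)) L]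
  {FL : Type y} [Field FL] [Algebra K FL] [Algebra F FL] [Algebra L FL]
  [IsScalarTower K F FL] [IsScalarTower K L FL]
  (hld : Function.Injective (s26gspMu K F L FL)) (hgen : S26gspGen K F L FL)
  {x : F} (hx : Transcendental K x)
  [FiniteDimensional ↥(IntermediateField.adjoin K {x}) F]
  [Algebra.IsSeparable ↥(IntermediateField.adjoin K {x}) F]

/-- **(LE-a)**: class invariance of the local equation, for tuples of points. -/
def S27lecLEa (Ao : Divisor K F) : Prop :=
  ∀ W : ValuationSubring L, S27IsKValU K W →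
    ∀ (N : ℕ) (R : Fin N → F →ₐ[K] L) (B : Divisor K F) (hB : Divisor.degree B = (N : ℤ))
      (N' : ℕ) (R' : Fin N' → F →ₐ[K] L) (B' : Divisor K F)
      (hB' : Divisor.degree B' = (N' : ℤ)) (y y' : L),
      Function.Injective R → Function.Injective R' →
      s27icCl hld hgen hx R B hB = s27icCl hld hgen hx R' B' hB' →
      S27ptIsIdx W R (B + Ao) y → S27ptIsIdx W R' (B' + Ao) y' → s27cptEq W y y'

/-- the class of the empty tuple is `0`. -/
theorem s27lec_cl_empty (R : Fin 0 → F →ₐ[K] L)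
    (hB : Divisor.degree (0 : Divisor K F) = ((0 : ℕ) : ℤ)) :
    s27icCl hld hgen hx R 0 hB = 0 := by
  unfold s27icCl
  have h0 : Finsupp.mapDomain (s26gspCon hld hgen (s26gspf_hall hx)) (0 : Divisor K F) = 0 :=
    Finsupp.mapDomain_zero
  have hO : Divisor.degree (0 : Divisor L FL) = ((0 : ℕ) : ℤ) := by simp
  rw [← s27pka_cl_empty (s27pkg_hdeg hld hgen hx) hO (fun i => s27gpPlace hld hgen (R i) hx)]
  apply s27pka_cl_eq_of_div
  rw [h0]

/-- a tuple of class `0` has a unit local equation. -/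
theorem s27lec_unit_of_zero (Ao : Divisor K F) (hAo : riemannRochSpace Ao = ⊥)
    (hLEa : S27lecLEa hld hgen hx Ao) (W : ValuationSubring L) (hW : S27IsKValU K W)
    (N : ℕ) (R : Fin N → F →ₐ[K] L) (B : Divisor K F) (hB : Divisor.degree B = (N : ℤ))
    (hinj : Function.Injective R) (hcl : s27icCl hld hgen hx R B hB = 0) (y : L)
    (hy : S27ptIsIdx W R (B + Ao) y) : S27IsUnitIn W y := by
  have hB0 : Divisor.degree (0 : Divisor K F) = ((0 : ℕ) : ℤ) := by simp
  have hE : S27ptIsIdx W (Fin.elim0 : Fin 0 → F →ₐ[K] L) (0 + Ao) 1 :=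
    s27lec_idx_empty W _ _ (by rw [zero_add]; exact hAo)
  obtain ⟨u, hu, hyu⟩ := hLEa W hW N R B hB 0 Fin.elim0 0 hB0 y 1 hinj
    (fun i => i.elim0) (hcl.trans (s27lec_cl_empty hld hgen hx _ hB0).symm) hy hE
  rw [mul_one] at hyu
  rw [hyu]
  exact hu

/-- **LE-CLASS, formal part.** -/
theorem s27lec_le (Ao : Divisor K F) (hAo : riemannRochSpace Ao = ⊥)
    (hLEa : S27lecLEa hld hgen hx Ao) : S27ckLE K (S27icIdx hld hgen hx Ao) := by
  intro W hW
  refine ⟨s27ic_idx_zero hld hgen hx Ao W, ?_⟩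
  have hunit : ∀ c y, S27icIdx hld hgen hx Ao W c y → c = 0 → S27IsUnitIn W y := by
    intro c y hy hc
    rcases hy with ⟨_, hu⟩ | ⟨N, R, B, hB, hinj, hcl, hidx⟩
    · exact hu
    · exact s27lec_unit_of_zero hld hgen hx Ao hAo hLEa W hW N R B hB hinj (hcl.trans hc) y hidx
  have huu : ∀ y y' : L, S27IsUnitIn W y → S27IsUnitIn W y' → s27cptEq W y y' := by
    intro y y' hy hy'
    refine ⟨y * y'⁻¹, ⟨mul_ne_zero hy.1 (inv_ne_zero hy'.1), W.mul_mem _ _ hy.2.1 hy'.2.2, ?_⟩, ?_⟩
    · rw [mul_inv, inv_inv]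
      exact W.mul_mem _ _ hy.2.2 hy'.2.1
    · rw [mul_assoc, inv_mul_cancel₀ hy'.1, mul_one]
  intro c y y' hy hy'
  rcases hy with ⟨hc, hu⟩ | ⟨N, R, B, hB, hinj, hcl, hidx⟩
  · exact huu y y' hu (hunit c y' hy' hc)
  · rcases hy' with ⟨hc', hu'⟩ | ⟨N', R', B', hB', hinj', hcl', hidx'⟩
    · exact huu y y' (hunit c y (Or.inr ⟨N, R, B, hB, hinj, hcl, hidx⟩) hc') hu'
    · exact hLEa W hW N R B hB N' R' B' hB' y y' hinj hinj' (hcl.trans hcl'.symm) hidx hidx'

end Stage

end Fermat.Agent.S27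

end
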