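/-
S27-B — FINAL-PROOF (captain helper77): `s27ft2_Stmt` from the SINGLE open input (LE-a).

Wired: CONST (helper11 `s27cst_exists`), LAT-EX (`s27flx_latEx`), CP-TOP (helper18 `s27cpf_cp`),
GROW (helper41/36/46 `s27grc_grow`), LE-CLASS formal part (helper95 `s27lec_le`).

  `s27fp_StmtLEa` : for every curve of genus `> 0` and EVERY admissible choice of constants
        (`S27cstIsConst x G₀ O`): `S27lecLEa hld hgen hx (s27cstAo G₀ O)` on the stage
        (`L = s27mtL K F`, `FL = s27mtFL K F`).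
  `s27fp_main   : s27fp_StmtLEa → s27ft2_Stmt`,
  `s27fp_result : s27fp_StmtLEa → s27_Stmt`   (the frozen S27).
-/
import Fermat.Agent.S27.FinalTop2
import Fermat.Agent.S27.ConstsFacts
import Fermat.Agent.S27.CpFinal
import Fermat.Agent.S27.GrowClosed
import Fermat.Agent.S27.LEClass

set_option autoImplicit false
set_option linter.unusedVariables false
set_option linter.unusedSectionVars false
set_option linter.style.haveILetI false

noncomputable section

namespace Fermat.Agent.S27

open AlgebraicCurve Module TensorProduct IntermediateField Fermat.Agent.S26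

universe u v

/-- **THE SINGLE OPEN INPUT: (LE-a) on the stage**, for every admissible choice of constants. -/
def s27fp_StmtLEa : Prop :=
  ∀ (K : Type u) (F : Type v) [Field K] [Field F] [Algebra K F] [IsAlgClosed K] [CharZero K]
    [IsCurveOver K F] [Algebra.EssFiniteType K F], 0 < genusFF K F →
    ∀ (x : F) (hx : Transcendental K x) [FiniteDimensional ↥(IntermediateField.adjoin K {x}) F]
      [Algebra.IsSeparable ↥(IntermediateField.adjoin K {x}) F]
      (G₀ : Divisor K F) (O : Place K F), S27cstIsConst x G₀ O →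
      S27lecLEa (FL := s27mtFL K F) (s27stg_hld K F (s27mtL K F))
        (s27stg_hgen K F (s27mtL K F)) hx (s27cstAo G₀ O)

/-- **FINAL-PROOF**: (LE-a) ⇒ the four inputs. -/
theorem s27fp_main (h : s27fp_StmtLEa.{u, v}) : s27ft2_Stmt.{u, v} := by
  intro K F _ _ _ _ _ _ _ hg
  obtain ⟨x, G₀, O, hc⟩ := s27cst_exists K F
  have hx := hc.trans
  haveI := hc.fin
  haveI := hc.sep
  have hl := hc.l_A
  have hpos : 0 < Module.finrank K ↥(riemannRochSpace (G₀ + s27cstAo G₀ O)) := by
    rw [hl]; exact hg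
  haveI : Module.Finite K ↥(riemannRochSpace (G₀ + s27cstAo G₀ O)) :=
    Module.finite_of_finrank_pos hpos
  let f₀ : Module.Basis (Fin (genusFF K F)) K ↥(riemannRochSpace (G₀ + s27cstAo G₀ O)) :=
    Module.finBasisOfFinrankEq K _ hl
  refine ⟨x, hx, hc.fin, hc.sep, G₀, hc.deg, s27cstAo G₀ O, hl, ?_, ?_, ?_⟩
  · exact s27lec_le (FL := s27mtFL K F) (s27stg_hld K F (s27mtL K F))
      (s27stg_hgen K F (s27mtL K F)) hx (s27cstAo G₀ O) hc.bot (h K F hg x hx G₀ O hc)
  · exact s27cpf_cp hx G₀ hc.deg hg (s27cstAo G₀ O) hc.bot hc.deg_Ao O f₀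
  · intro q hq
    exact s27grc_grow hx G₀ hc.deg hg O hc.nonneg hc.off (G₀ + s27cstAo G₀ O)
      (s27cstf_A_eq_two G₀ O) f₀ q hq

/-- **(LE-a) ⇒ the frozen S27.** -/
theorem s27fp_result (h : s27fp_StmtLEa.{u, v}) : s27_Stmt.{u, v} :=
  s27ft2_result (s27fp_main h)

end Fermat.Agent.S27

end
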