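import Fermat.Agent.S27.LE5Asm

/-!
# S27 route B, crux LE(b): **LE5 assembly, with the Gauss normalisation inside** (helper27)

As `s27le5_asm` (`S27/LE5Asm.lean`), but the function `h` is NOT assumed Gauss-normalised and the
hypotheses are literally the outputs of the providers:

* BRIDGE (`s27brg_linEq_of_principal`, helper24): `h ≠ 0`, forward `Σ c'_j x'_j = h · Σ c_j x_j`,
  backward `Σ c_j x_j = h⁻¹ · Σ c'_j x'_j`;
* LE3: for EVERY Gauss-normalised multiple `c · h` the value at every point of `G` is a unit of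
  `W`.

`s27le5_asm_scale` : any two local equations at `(R, A₁)`, `(R', A₂)` differ by a unit of `W`.
-/

set_option autoImplicit false

noncomputable section

namespace Fermat.Agent.S27

open Matrix AlgebraicCurve Fermat.Agent.DEU

universe u v w

variable {K : Type u} {F : Type v} [Field K] [Field F] [Algebra K F]
variable {𝔏 : Type w} [Field 𝔏] [Algebra K 𝔏]
variable {𝔉 k Fb : Type*} [Field 𝔉] [Algebra 𝔏 𝔉] [Field k] [Field Fb] [Algebra k Fb]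
variable {N N' : ℕ} {κ : Type*} [Fintype κ] [DecidableEq κ]
variable {W : ValuationSubring 𝔏} {R : Fin N → F →ₐ[K] 𝔏} {R' : Fin N' → F →ₐ[K] 𝔏}
  {A₁ A₂ : Divisor K F}

theorem s27le5_lin_smul {J : Type*} [Fintype J] (X : J → 𝔉) (c : 𝔏) (p : J → 𝔏) :
    s27legrLin X (fun j => c * p j) = algebraMap 𝔏 𝔉 c * s27legrLin X p := by
  unfold s27legrLin
  rw [Finset.mul_sum]
  refine Finset.sum_congr rfl fun j _ => ?_
  rw [map_mul, mul_assoc]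

theorem s27le5_mulVec_smul {ι J : Type*} [Fintype J] (E : Matrix ι J 𝔏) (c : 𝔏) (p : J → 𝔏)
    (hp : E *ᵥ p = 0) : E *ᵥ (fun j => c * p j) = 0 := by
  have : (fun j => c * p j) = c • p := rfl
  rw [this, Matrix.mulVec_smul, hp, smul_zero]

/-- **LE5, assembly with the Gauss normalisation inside.** -/
theorem s27le5_asm_scale (Rd : RedData 𝔏 𝔉 k Fb) (hA : Rd.A = W) (emb : F → 𝔉)
    (hW : ∀ a : K, algebraMap K 𝔏 a ∈ W)
    (f : Module.Basis (Fin N) K ↥(riemannRochSpace A₁)) (q : κ → F)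
    (f' : Module.Basis (Fin N') K ↥(riemannRochSpace A₂)) (q' : κ → F)
    (hq : ∀ l, q l ∈ s27ptF W R A₁) (hq' : ∀ l, q' l ∈ s27ptF W R' A₂)
    (hsurj : ∀ ψ ∈ s27ptF W R A₁, ∃ c : Fin N ⊕ κ → 𝔏, (∀ j, c j ∈ W) ∧
      ∀ i, R i ψ = ∑ j, R i (s27le5X f q j) * c j)
    (hsurj' : ∀ ψ ∈ s27ptF W R' A₂, ∃ c : Fin N' ⊕ κ → 𝔏, (∀ j, c j ∈ W) ∧
      ∀ i, R' i ψ = ∑ j, R' i (s27le5X f' q' j) * c j)
    (hlat : S27legrLat Rd (fun j => emb (s27le5X f q j)))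
    (hlat' : S27legrLat Rd (fun j => emb (s27le5X f' q' j)))
    (h : 𝔉) (hh0 : h ≠ 0)
    (hlin12 : ∀ p : Fin N ⊕ κ → 𝔏, s27le5E R (s27le5X f q) *ᵥ p = 0 →
      ∃ p' : Fin N' ⊕ κ → 𝔏, s27le5E R' (s27le5X f' q') *ᵥ p' = 0 ∧
        s27legrLin (fun j => emb (s27le5X f' q' j)) p'
          = h * s27legrLin (fun j => emb (s27le5X f q j)) p)
    (hlin21 : ∀ p' : Fin N' ⊕ κ → 𝔏, s27le5E R' (s27le5X f' q') *ᵥ p' = 0 →
      ∃ p : Fin N ⊕ κ → 𝔏, s27le5E R (s27le5X f q) *ᵥ p = 0 ∧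
        s27legrLin (fun j => emb (s27le5X f q j)) p
          = h⁻¹ * s27legrLin (fun j => emb (s27le5X f' q' j)) p')
    (𝒪 : κ → ValuationSubring 𝔉) (π : κ → 𝔉)
    (hc : ∀ (l : κ) (c : 𝔏), algebraMap 𝔏 𝔉 c ∈ 𝒪 l)
    (hx : S27llAdapted (𝔏 := 𝔏) 𝒪 π (fun j => emb (s27le5X f q j)))
    (hx' : S27llAdapted (𝔏 := 𝔏) 𝒪 π (fun j => emb (s27le5X f' q' j)))
    (hval : ∀ c : 𝔏, c ≠ 0 → S27legrNorm Rd (algebraMap 𝔏 𝔉 c * h) →
      ∀ l, ∃ a : 𝔏, S27llVal (𝒪 l) (algebraMap 𝔏 𝔉 c * h) a ∧ a ∈ W ∧ a⁻¹ ∈ W ∧ a ≠ 0)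
    {x₁ x₂ : 𝔏} (h₁ : S27ptIsIdx W R A₁ x₁) (h₂ : S27ptIsIdx W R' A₂ x₂) :
    ∃ c : 𝔏, S27ldUnit W c ∧ x₂ = c * x₁ := by
  obtain ⟨c, hc0, hnorm⟩ := s27legr_exists_norm (R := Rd) h hh0
  choose hQ hhQ hQW hQi hQ0 using hval c hc0 hnorm
  have hcF : algebraMap 𝔏 𝔉 c ≠ 0 := fun e => hc0 ((map_eq_zero _).1 e)
  refine s27le5_asm Rd hA emb hW f q f' q' hq hq' hsurj hsurj' hlat hlat'
    (algebraMap 𝔏 𝔉 c * h) hnorm ?_ ?_ 𝒪 π hc hx hx' hQ hhQ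
    (fun l => ⟨hQW l, hQi l, hQ0 l⟩) h₁ h₂
  · intro p hpE
    obtain ⟨p', hp'E, e⟩ := hlin12 p hpE
    refine ⟨fun j => c * p' j, s27le5_mulVec_smul _ c p' hp'E, ?_⟩
    rw [s27le5_lin_smul, e]
    ring
  · intro p' hp'E
    obtain ⟨p, hpE, e⟩ := hlin21 p' hp'E
    refine ⟨fun j => c⁻¹ * p j, s27le5_mulVec_smul _ c⁻¹ p hpE, ?_⟩
    rw [s27le5_lin_smul, e, map_inv₀]
    field_simp

end Fermat.Agent.S27
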