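/-
S27-B, crux LE(b), leaf **BRIDGE-TOP** (helper24): the BRIDGE input of `s27le5_asm`
(`S27/LE5Asm.lean`) in its LITERAL shape, from an equality of classes.

Frame of `S27/Bridge.lean`: `K ⊆ 𝔠` the constant curve, `K ⊆ 𝔎` the field of the points,
`Ω = Frac (𝔠 ⊗[K] 𝔎)`, `Con Q = s26gspCon hld hgen hall Q`, `pt e = s27gpPlace hld hgen e hx`.

* `s27brt_exists_h`   : `[Σ pt (R i) − Con B] = [Σ pt (R' i) − Con B']` in `Pic0` (any `N`, `N'`)
                        ⇒ `∃ h ≠ 0, div h = Σ pt (R' i) + Con (B − B') − Σ pt (R i)`;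
* `s27brt_exists_h'`  : the same with `A₁ − A₂`, `A₁ = B + Ao`, `A₂ = B' + Ao`;
* `s27brt_ord_smul`   : the divisor of `h` does not change under `h ↦ c · h`, `c ∈ 𝔎ˣ`
                        (Gauss normalisation of `h`);
* `s27brt_mulVec_iff` : `s27le5E R x *ᵥ p = 0 ↔ ∀ i, Σ_j R i (x j) * p j = 0`;
* `s27brt_hlin12`, `s27brt_hlin21` : **the hypotheses `hlin12`, `hlin21` of `s27le5_asm_scale`** (`S27/LE5Scale.lean`), for
                        ANY `h ≠ 0` with `div h = Σ pt (R' i) + Con (A₁ − A₂) − Σ pt (R i)`,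
                        bases `b` of `L_K(A₁ + G)`, `b'` of `L_K(A₂ + G)` extending `f`, `f'`
                        (as LB2 gives them) and tails `q l = b (inr l)`, `q' l = b' (inr l)`;
* `s27brt_icCl`       : on the stage of `S27/IdxCls.lean`: `s27icCl R B = s27icCl R' B'` ⇒ `∃ h`.
-/
import Fermat.Agent.S27.Bridge
import Fermat.Agent.S27.LE5Scale
import Fermat.Agent.S27.IdxCls

set_option autoImplicit false
set_option linter.style.haveILetI false
set_option linter.unusedSectionVars false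
set_option linter.unusedVariables false
set_option linter.style.longLine false

noncomputable section

namespace Fermat.Agent.S27

open AlgebraicCurve TensorProduct Module Matrix Fermat.Agent.S26

variable {K 𝔠 𝔎 Ω : Type*} [Field K] [Field 𝔠] [Field 𝔎] [Field Ω]
  [Algebra K 𝔠] [Algebra K 𝔎] [Algebra K Ω] [Algebra 𝔠 Ω] [Algebra 𝔎 Ω]
  [IsScalarTower K 𝔠 Ω] [IsScalarTower K 𝔎 Ω]

/-! ### Coordinates -/

section Coord

theorem s27brt_mulVec_iff {N : ℕ} {J : Type*} [Fintype J] (R : Fin N → 𝔠 →ₐ[K] 𝔎) (x : J → 𝔠)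
    (p : J → 𝔎) : s27le5E R x *ᵥ p = 0 ↔ ∀ i, ∑ j, R i (x j) * p j = 0 := by
  constructor
  · intro h i
    have := congrFun h i
    simpa [Matrix.mulVec, dotProduct] using this
  · intro h
    funext i
    simpa [Matrix.mulVec, dotProduct] using h i

theorem s27brt_lin {J : Type*} [Fintype J] (x : J → 𝔠) (p : J → 𝔎) :
    s27legrLin (fun j => algebraMap 𝔠 Ω (x j)) p = s27brgLin (Ω := Ω) x p := rfl

/-- the family of `s27le5_asm` is the family of the basis `b`. -/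
theorem s27brt_X {N : ℕ} {κ : Type*} {A G : Divisor K 𝔠}
    (f : Basis (Fin N) K ↥(riemannRochSpace A))
    (b : Basis (Fin N ⊕ κ) K ↥(riemannRochSpace (A + G)))
    (hb : ∀ i, ((b (Sum.inl i) : ↥(riemannRochSpace (A + G))) : 𝔠) = f i) :
    s27le5X f (fun l => ((b (Sum.inr l) : ↥(riemannRochSpace (A + G))) : 𝔠)) =
      fun j => ((b j : ↥(riemannRochSpace (A + G))) : 𝔠) := by
  funext j
  rcases j with i | l
  · rw [s27le5X_inl, hb i]
  · rw [s27le5X_inr]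

end Coord

section Pt

variable (hld : Function.Injective (s26gspMu K 𝔠 𝔎 Ω)) (hgen : S26gspGen K 𝔠 𝔎 Ω)
  (hall : ∀ P : Place K 𝔠, Function.Surjective (algebraMap K P.ResidueField))
  {x : 𝔠} (hx : Transcendental K x)
  [FiniteDimensional ↥(IntermediateField.adjoin K {x}) 𝔠]
  [Algebra.IsSeparable ↥(IntermediateField.adjoin K {x}) 𝔠]

theorem s27brt_con_sub (B B' : Divisor K 𝔠) :
    s27brgCon hld hgen hall (B - B') = s27brgCon hld hgen hall B - s27brgCon hld hgen hall B' := by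
  unfold s27brgCon
  exact map_sub (Finsupp.mapDomain.addMonoidHom (s26gspCon hld hgen hall)) B B'

/-- **class equality ⇒ the function `h`** (`N`, `N'` arbitrary). -/
theorem s27brt_exists_h (hdeg : ∀ w : Place 𝔎 Ω, w.deg = 1) {N N' : ℕ}
    (R : Fin N → 𝔠 →ₐ[K] 𝔎) (R' : Fin N' → 𝔠 →ₐ[K] 𝔎) (B B' : Divisor K 𝔠)
    (hB : Divisor.degree (Finsupp.mapDomain (s26gspCon hld hgen hall) B) = (N : ℤ))
    (hB' : Divisor.degree (Finsupp.mapDomain (s26gspCon hld hgen hall) B') = (N' : ℤ))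
    (hcl : s27pkgClO hdeg (Finsupp.mapDomain (s26gspCon hld hgen hall) B) hB
        (fun i => s27gpPlace hld hgen (R i) hx) =
      s27pkgClO hdeg (Finsupp.mapDomain (s26gspCon hld hgen hall) B') hB'
        (fun i => s27gpPlace hld hgen (R' i) hx)) :
    ∃ h : Ω, h ≠ 0 ∧ ∀ v : Place 𝔎 Ω, v.ord h =
      (s27brgPts hld hgen hx R' + s27brgCon hld hgen hall (B - B') - s27brgPts hld hgen hx R) v := by
  unfold s27pkgClO at hcl
  obtain ⟨f, hf, hfv⟩ := (s27pkg_mk_eq_iff _ _).1 hcl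
  refine ⟨f⁻¹, inv_ne_zero hf, fun v => ?_⟩
  have h1 := hfv v
  rw [s27pkgDivZeroO_coe, s27pkgDivZeroO_coe, Finsupp.sub_apply, Finsupp.sub_apply] at h1
  rw [v.ord_inv, s27brt_con_sub]
  simp only [Finsupp.coe_sub, Finsupp.coe_add, Pi.sub_apply, Pi.add_apply]
  unfold s27brgPts s27brgCon
  omega

/-- the same for `A₁ = B + Ao`, `A₂ = B' + Ao`. -/
theorem s27brt_exists_h' (hdeg : ∀ w : Place 𝔎 Ω, w.deg = 1) {N N' : ℕ}
    (R : Fin N → 𝔠 →ₐ[K] 𝔎) (R' : Fin N' → 𝔠 →ₐ[K] 𝔎) (B B' Ao : Divisor K 𝔠)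
    (hB : Divisor.degree (Finsupp.mapDomain (s26gspCon hld hgen hall) B) = (N : ℤ))
    (hB' : Divisor.degree (Finsupp.mapDomain (s26gspCon hld hgen hall) B') = (N' : ℤ))
    (hcl : s27pkgClO hdeg (Finsupp.mapDomain (s26gspCon hld hgen hall) B) hB
        (fun i => s27gpPlace hld hgen (R i) hx) =
      s27pkgClO hdeg (Finsupp.mapDomain (s26gspCon hld hgen hall) B') hB'
        (fun i => s27gpPlace hld hgen (R' i) hx)) :
    ∃ h : Ω, h ≠ 0 ∧ ∀ v : Place 𝔎 Ω, v.ord h =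
      (s27brgPts hld hgen hx R' + s27brgCon hld hgen hall ((B + Ao) - (B' + Ao))
        - s27brgPts hld hgen hx R) v := by
  have e : (B + Ao) - (B' + Ao) = B - B' := by abel
  rw [e]
  exact s27brt_exists_h hld hgen hall hx hdeg R R' B B' hB hB' hcl

omit [FiniteDimensional ↥(IntermediateField.adjoin K {x}) 𝔠]
  [Algebra.IsSeparable ↥(IntermediateField.adjoin K {x}) 𝔠] in
/-- scaling `h` by a nonzero constant of `𝔎` does not change its divisor. -/
theorem s27brt_ord_smul {c : 𝔎} (hc : c ≠ 0) {h : Ω} (hh : h ≠ 0) (v : Place 𝔎 Ω) :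
    v.ord (algebraMap 𝔎 Ω c * h) = v.ord h := by
  have hc' : algebraMap 𝔎 Ω c ≠ 0 := fun e => hc ((algebraMap 𝔎 Ω).injective (by rw [e, map_zero]))
  rw [v.ord_mul hc' hh, Fermat.Agent.S24.PlaceAux.ord_algebraMap, zero_add]

/-- **`hlin12` of `s27le5_asm_scale`.** -/
theorem s27brt_hlin12 (A₁ A₂ G : Divisor K 𝔠) {N N' : ℕ} (R : Fin N → 𝔠 →ₐ[K] 𝔎)
    (R' : Fin N' → 𝔠 →ₐ[K] 𝔎) (hR : Function.Injective R) (hR' : Function.Injective R')
    {h : Ω} (hh : h ≠ 0)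
    (hdiv : ∀ v : Place 𝔎 Ω, v.ord h =
      (s27brgPts hld hgen hx R' + s27brgCon hld hgen hall (A₁ - A₂) - s27brgPts hld hgen hx R) v)
    {κ : Type*} [Fintype κ]
    (f : Basis (Fin N) K ↥(riemannRochSpace A₁))
    (b : Basis (Fin N ⊕ κ) K ↥(riemannRochSpace (A₁ + G)))
    (hb : ∀ i, ((b (Sum.inl i) : ↥(riemannRochSpace (A₁ + G))) : 𝔠) = f i)
    (f' : Basis (Fin N') K ↥(riemannRochSpace A₂))
    (b' : Basis (Fin N' ⊕ κ) K ↥(riemannRochSpace (A₂ + G)))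
    (hb' : ∀ i, ((b' (Sum.inl i) : ↥(riemannRochSpace (A₂ + G))) : 𝔠) = f' i) :
    ∀ p : Fin N ⊕ κ → 𝔎,
      s27le5E R (s27le5X f (fun l => ((b (Sum.inr l) : ↥(riemannRochSpace (A₁ + G))) : 𝔠))) *ᵥ p
        = 0 →
      ∃ p' : Fin N' ⊕ κ → 𝔎,
        s27le5E R' (s27le5X f' (fun l => ((b' (Sum.inr l) : ↥(riemannRochSpace (A₂ + G))) : 𝔠)))
          *ᵥ p' = 0 ∧
        s27legrLin (fun j => algebraMap 𝔠 Ω
            (s27le5X f' (fun l => ((b' (Sum.inr l) : ↥(riemannRochSpace (A₂ + G))) : 𝔠)) j)) p'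
          = h * s27legrLin (fun j => algebraMap 𝔠 Ω
            (s27le5X f (fun l => ((b (Sum.inr l) : ↥(riemannRochSpace (A₁ + G))) : 𝔠)) j)) p := by
  intro p hp
  rw [s27brt_X f b hb] at hp ⊢
  rw [s27brt_X f' b' hb']
  rw [s27brt_mulVec_iff] at hp
  have e : A₂ + G + (A₁ - A₂) = A₁ + G := by abel
  have hx₁ : ∀ j, ((b j : ↥(riemannRochSpace (A₁ + G))) : 𝔠) ∈
      riemannRochSpace (A₂ + G + (A₁ - A₂)) := by
    intro j
    rw [e]
    exact (b j).2
  obtain ⟨c', hc', hlin⟩ := s27brg_linEq hld hgen hall hx (A₂ + G) (A₁ - A₂) R R' hR hR' hh hdiv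
    (fun j => ((b j : ↥(riemannRochSpace (A₁ + G))) : 𝔠)) hx₁ b' p hp
  refine ⟨c', (s27brt_mulVec_iff R' _ c').2 hc', ?_⟩
  rw [s27brt_lin, s27brt_lin]
  exact hlin

/-- **`hlin21` of `s27le5_asm_scale`.** -/
theorem s27brt_hlin21 (A₁ A₂ G : Divisor K 𝔠) {N N' : ℕ} (R : Fin N → 𝔠 →ₐ[K] 𝔎)
    (R' : Fin N' → 𝔠 →ₐ[K] 𝔎) (hR : Function.Injective R) (hR' : Function.Injective R')
    {h : Ω} (hh : h ≠ 0)
    (hdiv : ∀ v : Place 𝔎 Ω, v.ord h =
      (s27brgPts hld hgen hx R' + s27brgCon hld hgen hall (A₁ - A₂) - s27brgPts hld hgen hx R) v)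
    {κ : Type*} [Fintype κ]
    (f : Basis (Fin N) K ↥(riemannRochSpace A₁))
    (b : Basis (Fin N ⊕ κ) K ↥(riemannRochSpace (A₁ + G)))
    (hb : ∀ i, ((b (Sum.inl i) : ↥(riemannRochSpace (A₁ + G))) : 𝔠) = f i)
    (f' : Basis (Fin N') K ↥(riemannRochSpace A₂))
    (b' : Basis (Fin N' ⊕ κ) K ↥(riemannRochSpace (A₂ + G)))
    (hb' : ∀ i, ((b' (Sum.inl i) : ↥(riemannRochSpace (A₂ + G))) : 𝔠) = f' i) :
    ∀ p' : Fin N' ⊕ κ → 𝔎,
      s27le5E R' (s27le5X f' (fun l => ((b' (Sum.inr l) : ↥(riemannRochSpace (A₂ + G))) : 𝔠)))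
        *ᵥ p' = 0 →
      ∃ p : Fin N ⊕ κ → 𝔎,
        s27le5E R (s27le5X f (fun l => ((b (Sum.inr l) : ↥(riemannRochSpace (A₁ + G))) : 𝔠)))
          *ᵥ p = 0 ∧
        s27legrLin (fun j => algebraMap 𝔠 Ω
            (s27le5X f (fun l => ((b (Sum.inr l) : ↥(riemannRochSpace (A₁ + G))) : 𝔠)) j)) p
          = h⁻¹ * s27legrLin (fun j => algebraMap 𝔠 Ω
            (s27le5X f' (fun l => ((b' (Sum.inr l) : ↥(riemannRochSpace (A₂ + G))) : 𝔠)) j)) p' := by
  intro p' hp'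
  rw [s27brt_X f' b' hb'] at hp' ⊢
  rw [s27brt_X f b hb]
  rw [s27brt_mulVec_iff] at hp'
  have e : A₁ + G + (A₂ - A₁) = A₂ + G := by abel
  have hx₁ : ∀ j, ((b' j : ↥(riemannRochSpace (A₂ + G))) : 𝔠) ∈
      riemannRochSpace (A₁ + G + (A₂ - A₁)) := by
    intro j
    rw [e]
    exact (b' j).2
  have hdiv' : ∀ v : Place 𝔎 Ω, v.ord h⁻¹ =
      (s27brgPts hld hgen hx R + s27brgCon hld hgen hall (A₂ - A₁)
        - s27brgPts hld hgen hx R') v := by
    intro v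
    rw [v.ord_inv, hdiv v, s27brt_con_sub, s27brt_con_sub]
    simp only [Finsupp.coe_sub, Finsupp.coe_add, Pi.sub_apply, Pi.add_apply]
    ring
  obtain ⟨c, hc, hlin⟩ := s27brg_linEq hld hgen hall hx (A₁ + G) (A₂ - A₁) R' R hR' hR
    (inv_ne_zero hh) hdiv'
    (fun j => ((b' j : ↥(riemannRochSpace (A₂ + G))) : 𝔠)) hx₁ b p' hp'
  refine ⟨c, (s27brt_mulVec_iff R _ c).2 hc, ?_⟩
  rw [s27brt_lin, s27brt_lin]
  exact hlin

end Pt

/-! ### On the stage of `S27/IdxCls.lean` -/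

section Stage

universe u v y

variable {K : Type u} {F : Type v} [Field K] [IsAlgClosed K] [CharZero K] [Field F] [Algebra K F]
  [IsCurveOver K F] [Algebra.EssFiniteType K F]
  {L : Type (max u v)} [Field L] [Algebra K L]
  [Algebra (s27gfOm K F (genusFF K F)) L] [IsScalarTower K (s27gfOm K F (genusFF K F)) L]
  [IsAlgClosed L] [Algebra.IsAlgebraic (s27gfOm K F (genusFF K F)) L]
  {FL : Type y} [Field FL] [Algebra K FL] [Algebra F FL] [Algebra L FL]
  [IsScalarTower K F FL] [IsScalarTower K L FL]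
  (hld : Function.Injective (s26gspMu K F L FL)) (hgen : S26gspGen K F L FL)
  {x : F} (hx : Transcendental K x)
  [FiniteDimensional ↥(IntermediateField.adjoin K {x}) F]
  [Algebra.IsSeparable ↥(IntermediateField.adjoin K {x}) F]

/-- **class equality on the stage ⇒ the function `h`**, `div h = Σ pt R' + Con (A₁ − A₂) − Σ pt R`
with `A₁ = B + Ao`, `A₂ = B' + Ao`. -/
theorem s27brt_icCl (Ao : Divisor K F) {N N' : ℕ} (R : Fin N → F →ₐ[K] L)
    (R' : Fin N' → F →ₐ[K] L) (B B' : Divisor K F) (hB : Divisor.degree B = (N : ℤ))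
    (hB' : Divisor.degree B' = (N' : ℤ))
    (hcl : s27icCl hld hgen hx R B hB = s27icCl hld hgen hx R' B' hB') :
    ∃ h : FL, h ≠ 0 ∧ ∀ v : Place L FL, v.ord h =
      (s27brgPts hld hgen hx R' + s27brgCon hld hgen (s26gspf_hall hx) ((B + Ao) - (B' + Ao))
        - s27brgPts hld hgen hx R) v :=
  s27brt_exists_h' hld hgen (s26gspf_hall hx) hx (s27pkg_hdeg hld hgen hx) R R' B B' Ao _ _ hcl

end Stage

end Fermat.Agent.S27

end
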