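/-
S27 route B, crux LE(b), leaf INT-SURJ / IDX(⊇), the ALGEBRA (helper61): the CAUCHY BASIS of the
Newton (= Vandermonde) lattice.

`V` a domain (application: a valuation subring `W ⊇ K` of `𝔏`), nodes `z i ∈ V` (`z i = R_i t`, they may
collide modulo the maximal ideal), poles `q j ∈ V` (`q j ∈ K` generic) with

  `(z i − q j) · u i j = 1`   (so `u i j = 1 / (z i − q j) ∈ V`),     `q j − q l ∈ Vˣ` for `j ≠ l`.

* `s27cau_poly`  : every Cauchy vector `(u i j)_i` is the vector of values `(p (z i))_i` of a polynomial
  `p ∈ V[X]` of degree `< N`                                        (Cauchy ⊆ Newton lattice);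
* `s27cau_span`  : the vector of values of ANY polynomial `p ∈ V[X]` is a `V`-linear combination of the
  Cauchy vectors                                                   (Newton lattice ⊆ span of Cauchy);
* `s27cau_det`   : `det [u i j] ~ det (vandermonde z) = ∏_{i<j} (z j − z i)`.

Application: `φ_j = a / (t − q_j) ∈ L_K(A' + G)` for a constant `G`, so the `W`-span of the values of
`L_K(A' + G)` at the points `R_i` CONTAINS the Newton lattice (times `diag (R_i a)`): no Riemann
theorem over the residue field, no Nakayama.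
Mathlib only.
-/
import Mathlib

set_option autoImplicit false

namespace Fermat.Agent.S27

open Polynomial

section Cauchy

variable {V : Type*} [CommRing V] {N : ℕ}

/-- the node polynomial `∏ (X − z i)`. -/
noncomputable def s27cauP (z : Fin N → V) : V[X] := ∏ i, (X - C (z i))

theorem s27cauP_monic (z : Fin N → V) : (s27cauP z).Monic :=
  monic_prod_of_monic _ _ fun i _ => monic_X_sub_C (z i)

theorem s27cauP_eval (z : Fin N → V) (i : Fin N) : (s27cauP z).eval (z i) = 0 := by
  unfold s27cauP
  rw [eval_prod]
  exact Finset.prod_eq_zero (Finset.mem_univ i) (by simp)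

theorem s27cauP_eval_eq (z : Fin N → V) (x : V) : (s27cauP z).eval x = ∏ i, (x - z i) := by
  unfold s27cauP
  rw [eval_prod]
  simp

theorem s27cauP_natDegree [Nontrivial V] (z : Fin N → V) : (s27cauP z).natDegree = N := by
  unfold s27cauP
  rw [natDegree_prod_of_monic _ _ fun i _ => monic_X_sub_C (z i)]
  simp

/-- reduction modulo the node polynomial does not change the values at the nodes. -/
theorem s27cau_mod_eval (z : Fin N → V) (p : V[X]) (i : Fin N) :
    (p %ₘ s27cauP z).eval (z i) = p.eval (z i) := by
  have h := congrArg (fun f => f.eval (z i)) (modByMonic_add_div p (s27cauP z))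
  simp only [eval_add, eval_mul, s27cauP_eval, zero_mul, add_zero] at h
  exact h

/-- **values of polynomials = Vandermonde lattice**: the values of any polynomial at the nodes are
the values of a polynomial of degree `< N`, i.e. a combination of the columns `(z i ^ k)_i`. -/
theorem s27cau_vand [Nontrivial V] (z : Fin N → V) (p : V[X]) :
    ∃ c : Fin N → V, ∀ i, p.eval (z i) = ∑ k : Fin N, z i ^ (k : ℕ) * c k := by
  rcases Nat.eq_zero_or_pos N with hN | hN
  · subst hN
    exact ⟨fun _ => 0, fun i => i.elim0⟩
  have hP1 : s27cauP z ≠ 1 := by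
    intro h
    have := s27cauP_natDegree z
    rw [h, natDegree_one] at this
    omega
  have hdeg : (p %ₘ s27cauP z).natDegree < N := by
    have := natDegree_modByMonic_lt p (s27cauP_monic z) hP1
    rwa [s27cauP_natDegree] at this
  refine ⟨fun k => (p %ₘ s27cauP z).coeff k, fun i => ?_⟩
  rw [← s27cau_mod_eval z p i, eval_eq_sum_range' hdeg, Finset.sum_range]
  exact Finset.sum_congr rfl fun k _ => mul_comm _ _

/-- **Cauchy ⊆ Newton**: `1/(z i − q)` is the value at `z i` of a polynomial with coefficients in
`V`, as soon as all `z i − q` are invertible. -/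
theorem s27cau_poly (z : Fin N → V) (q : V) (u : Fin N → V) (hu : ∀ i, (z i - q) * u i = 1) :
    ∃ p : V[X], ∀ i, p.eval (z i) = u i := by
  -- `P − P(q) = (X − q) · S`
  obtain ⟨S, hS⟩ := X_sub_C_dvd_sub_C_eval (a := q) (p := s27cauP z)
  -- `P(q) = ∏ (q − z i)` is a unit with inverse `w = ∏ (− u i)`
  have hw : (s27cauP z).eval q * ∏ i, (-u i) = 1 := by
    rw [s27cauP_eval_eq, ← Finset.prod_mul_distrib]
    refine Finset.prod_eq_one fun i _ => ?_
    have := hu i
    linear_combination this
  refine ⟨C (-(∏ i, (-u i))) * S, fun i => ?_⟩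
  have h1 := congrArg (fun f => f.eval (z i)) hS
  simp only [eval_sub, eval_C, s27cauP_eval, eval_mul, eval_X] at h1
  -- `(z i − q) · S(z i) = − P(q)`
  rw [eval_mul, eval_C]
  have h2 : (z i - q) * (-(∏ i, (-u i)) * S.eval (z i)) = 1 := by
    have : (z i - q) * S.eval (z i) = -(s27cauP z).eval q := by rw [← h1]; ring
    calc (z i - q) * (-(∏ i, (-u i)) * S.eval (z i))
        = -(∏ i, (-u i)) * ((z i - q) * S.eval (z i)) := by ring
      _ = (s27cauP z).eval q * ∏ i, (-u i) := by rw [this]; ring
      _ = 1 := hw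
  -- uniqueness of the inverse
  calc -(∏ i, (-u i)) * S.eval (z i)
      = ((z i - q) * u i) * (-(∏ i, (-u i)) * S.eval (z i)) := by rw [hu i, one_mul]
    _ = u i * ((z i - q) * (-(∏ i, (-u i)) * S.eval (z i))) := by ring
    _ = u i := by rw [h2, mul_one]

variable [IsDomain V]

/-- Lagrange interpolation over `V` at nodes with invertible differences. -/
theorem s27cau_lagrange (q : Fin N → V) (d : Fin N → V)
    (hd : ∀ j, (∏ l ∈ Finset.univ.erase j, (q j - q l)) * d j = 1)
    (hq : Function.Injective q) (r : V[X]) (hr : r.degree < N) :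
    r = ∑ j, C (r.eval (q j) * d j) * ∏ l ∈ Finset.univ.erase j, (X - C (q l)) := by
  classical
  have hcard : (Finset.univ : Finset (Fin N)).card = N := by simp
  refine eq_of_degrees_lt_of_eval_index_eq (s := Finset.univ) (v := q) (hq.injOn)
    (by rw [hcard]; exact hr) ?_ ?_
  · rw [hcard]
    refine lt_of_le_of_lt (degree_sum_le _ _) ?_
    rw [Finset.sup_lt_iff (by
      rcases Nat.eq_zero_or_pos N with hN | hN
      · subst hN
        exact lt_of_le_of_lt bot_le hr
      · exact WithBot.bot_lt_coe N)]
    intro j _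
    rw [← smul_eq_C_mul]
    refine lt_of_le_of_lt (degree_smul_le _ _) ?_
    have hmon : (∏ l ∈ Finset.univ.erase j, (X - C (q l))).Monic :=
      monic_prod_of_monic _ _ fun l _ => monic_X_sub_C (q l)
    rw [degree_eq_natDegree hmon.ne_zero,
      natDegree_prod_of_monic _ _ fun l _ => monic_X_sub_C (q l)]
    simp only [natDegree_X_sub_C, Finset.sum_const, smul_eq_mul, mul_one]
    rw [Finset.card_erase_of_mem (Finset.mem_univ j), hcard]
    have hN : 0 < N := Fin.pos j
    exact_mod_cast Nat.sub_lt hN Nat.one_pos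
  · intro m _
    rw [eval_finsetSum]
    rw [Finset.sum_eq_single m]
    · rw [eval_mul, eval_C, eval_prod]
      simp only [eval_sub, eval_X, eval_C]
      rw [mul_assoc, mul_comm (d m), hd m, mul_one]
    · intro j _ hjm
      rw [eval_mul, eval_prod]
      rw [Finset.prod_eq_zero (Finset.mem_erase.2 ⟨Ne.symm hjm, Finset.mem_univ m⟩) (by simp),
        mul_zero]
    · intro h
      exact absurd (Finset.mem_univ m) h

/-- **Newton ⊆ span of Cauchy**: the values of any polynomial at the nodes `z i` are a
`V`-combination of the Cauchy vectors `(u i j)_i = (1/(z i − q j))_i`. -/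
theorem s27cau_span (z q : Fin N → V) (u : Fin N → Fin N → V)
    (hu : ∀ i j, (z i - q j) * u i j = 1)
    (d : Fin N → V) (hd : ∀ j, (∏ l ∈ Finset.univ.erase j, (q j - q l)) * d j = 1)
    (hq : Function.Injective q) (p : V[X]) :
    ∃ c : Fin N → V, ∀ i, p.eval (z i) = ∑ j, c j * u i j := by
  classical
  rcases Nat.eq_zero_or_pos N with hN | hN
  · subst hN
    exact ⟨fun _ => 0, fun i => i.elim0⟩
  -- `r := (p · Pq) mod P`
  set Pq : V[X] := ∏ l, (X - C (q l)) with hPq
  set r : V[X] := (p * Pq) %ₘ s27cauP z with hr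
  have hP1 : s27cauP z ≠ 1 := by
    intro h
    have := s27cauP_natDegree z
    rw [h, natDegree_one] at this
    omega
  have hdeg : r.degree < N := by
    have h1 := degree_modByMonic_lt (p * Pq) (s27cauP_monic z)
    have h2 : (s27cauP z).degree = N := by
      rw [degree_eq_natDegree (s27cauP_monic z).ne_zero, s27cauP_natDegree]
    rw [h2] at h1
    exact h1
  have hL := s27cau_lagrange q d hd hq r hdeg
  refine ⟨fun j => r.eval (q j) * d j, fun i => ?_⟩
  -- evaluate at `z i`
  have hPqi : Pq.eval (z i) = ∏ l, (z i - q l) := by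
    rw [hPq, eval_prod]
    simp
  have hunit : (Pq.eval (z i)) * ∏ l, u i l = 1 := by
    rw [hPqi, ← Finset.prod_mul_distrib]
    exact Finset.prod_eq_one fun l _ => hu i l
  have hri : r.eval (z i) = p.eval (z i) * Pq.eval (z i) := by
    rw [hr, s27cau_mod_eval, eval_mul]
  have hsum : r.eval (z i) = ∑ j, (r.eval (q j) * d j) *
      ∏ l ∈ Finset.univ.erase j, (z i - q l) := by
    conv_lhs => rw [hL]
    rw [eval_finsetSum]
    refine Finset.sum_congr rfl fun j _ => ?_
    rw [eval_mul, eval_C, eval_prod]
    simp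
  have hprod : ∀ j, ∏ l ∈ Finset.univ.erase j, (z i - q l) = Pq.eval (z i) * u i j := by
    intro j
    rw [hPqi, ← Finset.mul_prod_erase Finset.univ _ (Finset.mem_univ j)]
    have := hu i j
    calc ∏ l ∈ Finset.univ.erase j, (z i - q l)
        = ((z i - q j) * u i j) * ∏ l ∈ Finset.univ.erase j, (z i - q l) := by
          rw [this, one_mul]
      _ = (z i - q j) * (∏ l ∈ Finset.univ.erase j, (z i - q l)) * u i j := by ring
  have key : Pq.eval (z i) * p.eval (z i) = Pq.eval (z i) * ∑ j, (r.eval (q j) * d j) * u i j := by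
    rw [mul_comm, ← hri, hsum, Finset.mul_sum]
    refine Finset.sum_congr rfl fun j _ => ?_
    rw [hprod j]
    ring
  have hne : Pq.eval (z i) ≠ 0 := by
    intro h0
    rw [h0, zero_mul] at hunit
    exact zero_ne_one hunit
  exact mul_left_cancel₀ hne key

/-- **the Cauchy determinant, up to a unit**: `det [1/(z i − q j)] ~ ∏_{i<j} (z j − z i)`. -/
theorem s27cau_det (z q : Fin N → V) (u : Fin N → Fin N → V)
    (hu : ∀ i j, (z i - q j) * u i j = 1)
    (d : Fin N → V) (hd : ∀ j, (∏ l ∈ Finset.univ.erase j, (q j - q l)) * d j = 1)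
    (hq : Function.Injective q) :
    Associated (Matrix.of u).det (Matrix.vandermonde z).det := by
  classical
  -- `U = Vand · C`
  have h1 : ∀ j, ∃ c : Fin N → V, ∀ i, u i j = ∑ k : Fin N, z i ^ (k : ℕ) * c k := by
    intro j
    obtain ⟨p, hp⟩ := s27cau_poly z (q j) (fun i => u i j) (fun i => hu i j)
    obtain ⟨c, hc⟩ := s27cau_vand z p
    exact ⟨c, fun i => by rw [← hp i, hc i]⟩
  choose Cm hCm using h1
  have hU : Matrix.of u = Matrix.vandermonde z * Matrix.of (fun k j => Cm j k) := by
    ext i j
    rw [Matrix.of_apply, Matrix.mul_apply, hCm j i]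
    refine Finset.sum_congr rfl fun k _ => ?_
    rw [Matrix.vandermonde_apply, Matrix.of_apply]
  -- `Vand = U · C'`
  have h2 : ∀ k : Fin N, ∃ c : Fin N → V, ∀ i, z i ^ (k : ℕ) = ∑ j, c j * u i j := by
    intro k
    obtain ⟨c, hc⟩ := s27cau_span z q u hu d hd hq (X ^ (k : ℕ))
    exact ⟨c, fun i => by rw [← hc i, eval_pow, eval_X]⟩
  choose Cm' hCm' using h2
  have hV : Matrix.vandermonde z = Matrix.of u * Matrix.of (fun j k => Cm' k j) := by
    ext i k
    rw [Matrix.vandermonde_apply, Matrix.mul_apply, hCm' k i]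
    refine Finset.sum_congr rfl fun j _ => ?_
    rw [Matrix.of_apply, Matrix.of_apply, mul_comm]
  have dU : (Matrix.of u).det =
      (Matrix.vandermonde z).det * (Matrix.of (fun k j => Cm j k)).det := by
    conv_lhs => rw [hU]
    exact Matrix.det_mul _ _
  have dV : (Matrix.vandermonde z).det =
      (Matrix.of u).det * (Matrix.of (fun j k => Cm' k j)).det := by
    conv_lhs => rw [hV]
    exact Matrix.det_mul _ _
  by_cases h0 : (Matrix.vandermonde z).det = 0
  · rw [dU, h0, zero_mul]
  · have hone : (Matrix.of (fun k j => Cm j k)).det * (Matrix.of (fun j k => Cm' k j)).det = 1 := by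
      have : (Matrix.vandermonde z).det * ((Matrix.of (fun k j => Cm j k)).det *
          (Matrix.of (fun j k => Cm' k j)).det) = (Matrix.vandermonde z).det * 1 := by
        rw [mul_one, ← mul_assoc, ← dU, ← dV]
      exact mul_left_cancel₀ h0 this
    have hunit : IsUnit (Matrix.of (fun k j => Cm j k)).det := IsUnit.of_mul_eq_one _ hone
    rw [dU]
    exact (associated_mul_unit_left _ _ hunit).symm.symm

end Cauchy

end Fermat.Agent.S27
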