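/-
S27 route B, crux LE(b), leaf INT-SURJ on the CONCRETE point side (helper61), on S27/PtDef.lean.

`W ⊇ K` a valuation subring of `𝔏`, points `R i : F →ₐ[K] 𝔏`, `A'` a constant divisor, `(t, a)` an
adapted pair such that `φ⁰_j = a · t^j` (`j < N`) is a lattice basis (EFF / NEWTON).

* `s27cpt_latBasis`  : for `q_1, …, q_N ∈ K` pairwise distinct with `1/(R_i t − q_j) ∈ W`, the CAUCHY
  family `φ_j = a / (t − q_j)` is a lattice basis too (`S27ptIsLatBasis W R A' φ`);
* `s27cpt_intSurj`   : **INT-SURJ**: if `x : J → F` is a family with `φ_j ∈ K-span x` for a lattice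
  basis `φ` (e.g. `x` a `K`-basis of `L_K(A' + G)`, `G ≥` the zeros of the `t − q_j` + the poles of `a`
  outside `A'`), then the values of every `ψ ∈ 𝓕` are a `W`-combination of the values of the `x j`:
  the hypothesis `hsurj` of LE5.
No special fibre, no Riemann theorem over the residue field.
-/
import Fermat.Agent.S27.PtDef
import Fermat.Agent.S27.Cauchy

set_option autoImplicit false

noncomputable section

namespace Fermat.Agent.S27

open AlgebraicCurve Polynomial

universe u v w

variable {K : Type u} {F : Type v} [Field K] [Field F] [Algebra K F]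
variable {𝔏 : Type w} [Field 𝔏] [Algebra K 𝔏]
variable {N : ℕ} {W : ValuationSubring 𝔏} {R : Fin N → F →ₐ[K] 𝔏} {A' : Divisor K F}

/-- **INT-SURJ** from a lattice basis inside the `K`-span of the family `x`. -/
theorem s27cpt_intSurj (hW : ∀ a : K, algebraMap K 𝔏 a ∈ W) {φ : Fin N → F}
    (hφ : S27ptIsLatBasis W R A' φ) {J : Type*} [Fintype J] (x : J → F)
    (hx : ∀ j, φ j ∈ Submodule.span K (Set.range x)) :
    ∀ ψ ∈ s27ptF W R A', ∃ c : J → 𝔏, (∀ m, c m ∈ W) ∧ ∀ i, R i ψ = ∑ m, R i (x m) * c m := by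
  classical
  intro ψ hψ
  obtain ⟨c, hc, hval⟩ := hφ.span ψ hψ
  -- coordinates of `φ j` in the family `x`
  have hk : ∀ j, ∃ k : J → K, φ j = ∑ m, k m • x m := by
    intro j
    obtain ⟨k, hk⟩ := (Submodule.mem_span_range_iff_exists_fun K).1 (hx j)
    exact ⟨k, hk.symm⟩
  choose k hk using hk
  refine ⟨fun m => ∑ j, algebraMap K 𝔏 (k j m) * c j, fun m => ?_, fun i => ?_⟩
  · exact W.toSubring.sum_mem fun j _ => W.mul_mem _ _ (hW _) (hc j)
  · rw [hval i]
    have h1 : ∀ j, R i (φ j) = ∑ m, algebraMap K 𝔏 (k j m) * R i (x m) := by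
      intro j
      conv_lhs => rw [hk j]
      rw [map_sum]
      refine Finset.sum_congr rfl fun m _ => ?_
      rw [Algebra.smul_def, map_mul, AlgHom.commutes]
    simp only [h1, Finset.sum_mul, Finset.mul_sum]
    rw [Finset.sum_comm]
    refine Finset.sum_congr rfl fun m _ => ?_
    refine Finset.sum_congr rfl fun j _ => ?_
    ring

/-- the values of the Cauchy family: `R i (a / (t − q)) = R i a · (R i t − q)⁻¹`. -/
theorem s27cpt_val (R₁ : F →ₐ[K] 𝔏) (a t : F) (q : K) :
    R₁ (a / (t - algebraMap K F q)) = R₁ a * (R₁ t - algebraMap K 𝔏 q)⁻¹ := by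
  rw [map_div₀, map_sub, AlgHom.commutes, div_eq_mul_inv]

/-- **the Cauchy family is a lattice basis** as soon as the monomial family `a · t^j` is one. -/
theorem s27cpt_latBasis (hW : ∀ a : K, algebraMap K 𝔏 a ∈ W) (a t : F)
    (h0 : S27ptIsLatBasis W R A' (fun j : Fin N => a * t ^ (j : ℕ)))
    (hz : ∀ i, R i t ∈ W) (q : Fin N → K) (hq : Function.Injective q)
    (hu : ∀ i j, (R i t - algebraMap K 𝔏 (q j))⁻¹ ∈ W)
    (hne : ∀ i j, R i t - algebraMap K 𝔏 (q j) ≠ 0)
    (hmem : ∀ j, a / (t - algebraMap K F (q j)) ∈ s27ptF W R A') :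
    S27ptIsLatBasis W R A' (fun j : Fin N => a / (t - algebraMap K F (q j))) := by
  classical
  -- the data over the domain `W`
  let z : Fin N → W := fun i => ⟨R i t, hz i⟩
  let qW : Fin N → W := fun j => ⟨algebraMap K 𝔏 (q j), hW _⟩
  let uW : Fin N → Fin N → W := fun i j => ⟨(R i t - algebraMap K 𝔏 (q j))⁻¹, hu i j⟩
  have huW : ∀ i j, (z i - qW j) * uW i j = 1 := by
    intro i j
    apply Subtype.ext
    show (R i t - algebraMap K 𝔏 (q j)) * (R i t - algebraMap K 𝔏 (q j))⁻¹ = 1
    exact mul_inv_cancel₀ (hne i j)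
  have hqW : Function.Injective qW := by
    intro j l h
    have h1 : algebraMap K 𝔏 (q j) = algebraMap K 𝔏 (q l) := congrArg Subtype.val h
    exact hq ((algebraMap K 𝔏).injective h1)
  -- the Lagrange units
  let dK : Fin N → K := fun j => (∏ l ∈ Finset.univ.erase j, (q j - q l))⁻¹
  let dW : Fin N → W := fun j => ⟨algebraMap K 𝔏 (dK j), hW _⟩
  have hdW : ∀ j, (∏ l ∈ Finset.univ.erase j, (qW j - qW l)) * dW j = 1 := by
    intro j
    apply Subtype.ext
    have hprod : (∏ l ∈ Finset.univ.erase j, (q j - q l)) ≠ 0 := by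
      refine Finset.prod_ne_zero_iff.2 fun l hl => ?_
      have hlj : l ≠ j := (Finset.mem_erase.1 hl).1
      exact sub_ne_zero.2 fun h => hlj (hq h).symm
    have h1 : (((∏ l ∈ Finset.univ.erase j, (qW j - qW l)) * dW j : W) : 𝔏) =
        algebraMap K 𝔏 ((∏ l ∈ Finset.univ.erase j, (q j - q l)) * dK j) := by
      rw [map_mul, map_prod]
      push_cast
      congr 1
    rw [h1]
    show algebraMap K 𝔏 ((∏ l ∈ Finset.univ.erase j, (q j - q l)) *
      (∏ l ∈ Finset.univ.erase j, (q j - q l))⁻¹) = 1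
    rw [mul_inv_cancel₀ hprod, map_one]
  -- the two matrices of values
  have hval0 : s27ptVal R (fun j : Fin N => a * t ^ (j : ℕ)) =
      Matrix.diagonal (fun i => R i a) * (Matrix.vandermonde (fun i => R i t)) := by
    ext i j
    rw [s27ptVal_apply, Matrix.diagonal_mul, Matrix.vandermonde_apply, map_mul, map_pow]
  have hval1 : s27ptVal R (fun j : Fin N => a / (t - algebraMap K F (q j))) =
      Matrix.diagonal (fun i => R i a) *
        (Matrix.of fun i j => (R i t - algebraMap K 𝔏 (q j))⁻¹) := by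
    ext i j
    rw [s27ptVal_apply, Matrix.diagonal_mul, Matrix.of_apply, s27cpt_val]
  have hdet0 := h0.det_ne
  rw [hval0, Matrix.det_mul, Matrix.det_diagonal] at hdet0
  have hα : (∏ i, R i a) ≠ 0 := left_ne_zero_of_mul hdet0
  have hvd : (Matrix.vandermonde (fun i => R i t)).det ≠ 0 := right_ne_zero_of_mul hdet0
  -- the Cauchy determinant over `W`
  have hass := s27cau_det z qW uW huW dW hdW hqW
  have hmapV : (Matrix.vandermonde z).det.1 = (Matrix.vandermonde (fun i => R i t)).det := by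
    have h := RingHom.map_det W.subtype (Matrix.vandermonde z)
    rw [ValuationSubring.subtype_apply] at h
    rw [h]
    congr 1
  have hmapU : (Matrix.of uW).det.1 =
      (Matrix.of fun i j => (R i t - algebraMap K 𝔏 (q j))⁻¹).det := by
    have h := RingHom.map_det W.subtype (Matrix.of uW)
    rw [ValuationSubring.subtype_apply] at h
    rw [h]
    congr 1
  have hud : (Matrix.of fun i j => (R i t - algebraMap K 𝔏 (q j))⁻¹).det ≠ 0 := by
    rw [← hmapU]
    intro h0'
    have hz0 : (Matrix.of uW).det = 0 := Subtype.ext h0'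
    rw [hz0] at hass
    have hv0 : (Matrix.vandermonde z).det = 0 := (associated_zero_iff_eq_zero _).1 hass.symm
    apply hvd
    rw [← hmapV, hv0]
    rfl
  refine ⟨hmem, ?_, ?_⟩
  · rw [hval1, Matrix.det_mul, Matrix.det_diagonal]
    exact mul_ne_zero hα hud
  · intro ψ hψ
    obtain ⟨c, hc, hval⟩ := h0.span ψ hψ
    -- the polynomial of the Newton coefficients
    let p : W[X] := ∑ j : Fin N, C (⟨c j, hc j⟩ : W) * X ^ (j : ℕ)
    obtain ⟨c', hc'⟩ := s27cau_span z qW uW huW dW hdW hqW p
    refine ⟨fun j => (c' j : 𝔏), fun j => (c' j).2, fun i => ?_⟩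
    have hp : ((p.eval (z i) : W) : 𝔏) = ∑ j : Fin N, R i t ^ (j : ℕ) * c j := by
      show ((eval (z i) (∑ j : Fin N, C (⟨c j, hc j⟩ : W) * X ^ (j : ℕ)) : W) : 𝔏) = _
      rw [eval_finsetSum]
      rw [← ValuationSubring.subtype_apply, map_sum]
      refine Finset.sum_congr rfl fun j _ => ?_
      rw [eval_mul, eval_C, eval_pow, eval_X, map_mul, map_pow]
      simp only [ValuationSubring.subtype_apply]
      rw [mul_comm]
    have hp' : ((p.eval (z i) : W) : 𝔏) = ∑ j : Fin N, (c' j : 𝔏) * (R i t - algebraMap K 𝔏 (q j))⁻¹ := by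
      rw [hc' i, ← ValuationSubring.subtype_apply, map_sum]
      refine Finset.sum_congr rfl fun j _ => ?_
      rw [map_mul]
      rfl
    rw [hval i]
    calc ∑ j : Fin N, R i (a * t ^ (j : ℕ)) * c j
        = R i a * ∑ j : Fin N, R i t ^ (j : ℕ) * c j := by
          rw [Finset.mul_sum]
          refine Finset.sum_congr rfl fun j _ => ?_
          rw [map_mul, map_pow]
          ring
      _ = R i a * ∑ j : Fin N, (c' j : 𝔏) * (R i t - algebraMap K 𝔏 (q j))⁻¹ := by
          rw [← hp, hp']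
      _ = ∑ j : Fin N, R i (a / (t - algebraMap K F (q j))) * (c' j : 𝔏) := by
          rw [Finset.mul_sum]
          refine Finset.sum_congr rfl fun j _ => ?_
          rw [s27cpt_val]
          ring

/-- a function whose values at all the points lie in `W` is regular at every centre. -/
theorem s27cpt_mul_mem {a g : F} (ha : a ∈ s27ptF W R A') (hg : ∀ i, R i g ∈ W) :
    a * g ∈ s27ptF W R A' := by
  intro Q i hQ
  have hgQ : g ∈ Q.toValuationSubring := by
    rw [← hQ]
    exact hg i
  have h1 : Q.adicValuation g ≤ 1 := by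
    have h2 := Q.adicValuation_coe ⟨g, hgQ⟩
    have h3 : Q.heightOneSpectrum.valuation F
        (algebraMap Q.toValuationSubring F ⟨g, hgQ⟩) ≤ 1 :=
      Q.heightOneSpectrum.valuation_le_one _
    exact h3
  rw [map_mul]
  calc Q.adicValuation a * Q.adicValuation g
      ≤ WithZero.exp (A' Q) * 1 := mul_le_mul' (ha Q i hQ) h1
    _ = WithZero.exp (A' Q) := mul_one _

/-- **the Cauchy family is a lattice basis**, short form: `t` non-constant, `R i t ∈ W`,
`1 / (R i t − q j) ∈ W`, `q` injective. -/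
theorem s27cpt_latBasis' (hW : ∀ a : K, algebraMap K 𝔏 a ∈ W) (a t : F)
    (h0 : S27ptIsLatBasis W R A' (fun j : Fin N => a * t ^ (j : ℕ)))
    (ht : ∀ c : K, t ≠ algebraMap K F c)
    (hz : ∀ i, R i t ∈ W) (q : Fin N → K) (hq : Function.Injective q)
    (hu : ∀ i j, (R i t - algebraMap K 𝔏 (q j))⁻¹ ∈ W) :
    S27ptIsLatBasis W R A' (fun j : Fin N => a / (t - algebraMap K F (q j))) := by
  have hne : ∀ i j, R i t - algebraMap K 𝔏 (q j) ≠ 0 := by
    intro i j h
    have h1 : R i (t - algebraMap K F (q j)) = 0 := by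
      rw [map_sub, AlgHom.commutes, h]
    have h2 : t - algebraMap K F (q j) = 0 :=
      (map_eq_zero_iff (R i) (R i).toRingHom.injective).1 h1
    exact ht (q j) (sub_eq_zero.1 h2)
  refine s27cpt_latBasis hW a t h0 hz q hq hu hne fun j => ?_
  have ha : a ∈ s27ptF W R A' := by
    have h1 := h0.mem ⟨0, Fin.pos j⟩
    simpa using h1
  rw [div_eq_mul_inv]
  refine s27cpt_mul_mem ha fun i => ?_
  rw [map_inv₀, map_sub, AlgHom.commutes]
  exact hu i j

end Fermat.Agent.S27

end
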