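/-
S27-B, leaf REP (moving lemma), part 2 (helper79): ALMOST ALL FIBRES ARE SIMPLE (characteristic `0`).

`F / K` a function field, `t ∈ F` transcendental over `K`, `[F : K(t)] < ∞`, `char K = 0`.  Then for
all but finitely many `c ∈ K` every zero of `t − c` is simple:

    `s27rep_simple : ∃ B : Set K, B.Finite ∧ ∀ c ∉ B, ∀ v : Place K F,
        0 < v.ord (t − c) → v.ord (t − c) = 1`.

Proof: `R` = integral closure of `K[t]` in `F` (Dedekind, S24/PolyClosure), places with `t ∈ O_v` =
nonzero primes `w` of `R` (S24/PlaceDict).  If `ord_v (t − c) ≥ 2` then `w² ∣ (t − c) R`, hence `w`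
divides the different of `R / K[t]` (Mathlib, `pow_sub_one_dvd_differentIdeal_aux`), which is a
nonzero ideal: finitely many such `w`, and each `w` contains `t − c` for at most one `c`.
-/
import Fermat.Agent.S24.Places
import Mathlib.RingTheory.DedekindDomain.Different

set_option autoImplicit false
set_option linter.style.haveILetI false

open AlgebraicCurve IntermediateField Polynomial IsDedekindDomain

namespace Fermat.Agent.S27

open Fermat.Agent.S24 Fermat.Agent.S24.PlacesAux

variable {K F : Type*} [Field K] [Field F] [Algebra K F]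

/-- **Almost all fibres of a non-constant function are simple** (characteristic `0`). -/
theorem s27rep_simple [CharZero K] (t : F) (ht : Transcendental K t)
    [FiniteDimensional K⟮t⟯ F] :
    ∃ B : Set K, B.Finite ∧ ∀ c : K, c ∉ B → ∀ v : Place K F,
      0 < v.ord (t - algebraMap K F c) → v.ord (t - algebraMap K F c) = 1 := by
  classical
  letI := polyAlgebra (K := K) t
  letI := polyAlgebraAdjoin (K := K) t
  haveI := polyAlgebraAdjoin_tower (K := K) t
  haveI := polyAlgebraAdjoin_isFractionRing (K := K) t ht
  obtain ⟨hD, hF, hfin⟩ := intClosure_facts (K := K) t ht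
  haveI := hD
  haveI := hF
  haveI := hfin
  haveI : CharZero K⟮t⟯ := charZero_of_injective_algebraMap (algebraMap K K⟮t⟯).injective
  haveI hTF : Module.IsTorsionFree K[X] F :=
    Module.isTorsionFree_iff_algebraMap_injective.mpr
      (fun p q hpq => (transcendental_iff_injective.mp ht) hpq)
  haveI hTB : Module.IsTorsionFree K[X] (intClosure (K := K) t) :=
    IsIntegralClosure.isTorsionFree K[X] F
  -- the different is a nonzero ideal
  have h4 : (↑(differentIdeal K[X] (intClosure (K := K) t)) :
      FractionalIdeal (nonZeroDivisors (intClosure (K := K) t)) F)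
     = (FractionalIdeal.dual K[X] K⟮t⟯
        (1 : FractionalIdeal (nonZeroDivisors (intClosure (K := K) t)) F))⁻¹ :=
    coeIdeal_differentIdeal K[X] K⟮t⟯ F (intClosure (K := K) t)
  have hne : differentIdeal K[X] (intClosure (K := K) t) ≠ ⊥ := by
    rw [ne_eq, ← FractionalIdeal.coeIdeal_inj (K := F), h4]
    simp
  -- a prime whose square divides `(t − c)` divides the different
  have hkey : ∀ (c : K) (w : HeightOneSpectrum (intClosure (K := K) t)),
      w.asIdeal ^ 2 ∣ (Ideal.span {(X - C c : K[X])}).map
        (algebraMap K[X] (intClosure (K := K) t)) →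
      w.asIdeal ∣ differentIdeal K[X] (intClosure (K := K) t) := by
    intro c w h
    haveI : (Ideal.span {(X - C c : K[X])}).IsMaximal :=
      PrincipalIdealRing.isMaximal_of_irreducible (Polynomial.irreducible_X_sub_C c)
    have hp : Ideal.span {(X - C c : K[X])} ≠ ⊥ := by
      rw [Ne, Ideal.span_singleton_eq_bot]
      exact Polynomial.X_sub_C_ne_zero c
    have := pow_sub_one_dvd_differentIdeal_aux K[X] K⟮t⟯ F
      (p := Ideal.span {(X - C c : K[X])}) w.asIdeal (e := 2) (by norm_num) hp h
    simpa using this
  -- the element `t − c` of `R`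
  let r : K → intClosure (K := K) t := fun c =>
    algebraMap K[X] (intClosure (K := K) t) (X - C c)
  have hr : ∀ c, algebraMap (intClosure (K := K) t) F (r c) = t - algebraMap K F c := by
    intro c
    show aeval t (X - C c : K[X]) = _
    simp
  -- the finite set of primes dividing the different
  have hSfin : {w : HeightOneSpectrum (intClosure (K := K) t) |
      w.asIdeal ∣ differentIdeal K[X] (intClosure (K := K) t)}.Finite :=
    Ideal.finite_factors hne
  -- each prime contains `t − c` for at most one `c`
  have huniq : ∀ (w : HeightOneSpectrum (intClosure (K := K) t)) (c c' : K),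
      r c ∈ w.asIdeal → r c' ∈ w.asIdeal → c = c' := by
    intro w c c' h1 h2
    by_contra hcc
    have h3 : r c' - r c ∈ w.asIdeal := w.asIdeal.sub_mem h2 h1
    have h4 : r c' - r c = algebraMap K[X] (intClosure (K := K) t) (C (c - c')) := by
      show algebraMap K[X] (intClosure (K := K) t) (X - C c') -
        algebraMap K[X] (intClosure (K := K) t) (X - C c) = _
      rw [← map_sub]
      congr 1
      rw [C_sub]
      ring
    have h5 : algebraMap K[X] (intClosure (K := K) t) (C (c - c')) *
        algebraMap K[X] (intClosure (K := K) t) (C (c - c')⁻¹) = 1 := by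
      rw [← map_mul, ← C_mul, mul_inv_cancel₀ (sub_ne_zero.mpr hcc), C_1, map_one]
    have h6 : (1 : intClosure (K := K) t) ∈ w.asIdeal := by
      rw [← h5, ← h4]
      exact w.asIdeal.mul_mem_right _ h3
    exact w.isPrime.ne_top ((Ideal.eq_top_iff_one _).mpr h6)
  refine ⟨{c : K | ∃ w : HeightOneSpectrum (intClosure (K := K) t),
      w.asIdeal ∣ differentIdeal K[X] (intClosure (K := K) t) ∧ r c ∈ w.asIdeal}, ?_, ?_⟩
  · -- finiteness
    have hsub : {c : K | ∃ w : HeightOneSpectrum (intClosure (K := K) t),
        w.asIdeal ∣ differentIdeal K[X] (intClosure (K := K) t) ∧ r c ∈ w.asIdeal} ⊆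
        ⋃ w ∈ {w : HeightOneSpectrum (intClosure (K := K) t) |
          w.asIdeal ∣ differentIdeal K[X] (intClosure (K := K) t)}, {c : K | r c ∈ w.asIdeal} := by
      rintro c ⟨w, hw1, hw2⟩
      exact Set.mem_iUnion₂.mpr ⟨w, hw1, hw2⟩
    refine Set.Finite.subset (Set.Finite.biUnion hSfin ?_) hsub
    intro w _
    exact Set.Subsingleton.finite (fun c hc c' hc' => huniq w c c' hc hc')
  · intro c hc v hv
    have hf0 : t - algebraMap K F c ≠ 0 := by
      intro h0
      rw [h0, Place.ord_zero] at hv
      exact lt_irrefl _ hv
    have htc : t - algebraMap K F c ∈ v.toValuationSubring :=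
      PlaceAux.mem_of_ord_nonneg v hv.le
    have htv : t ∈ v.toValuationSubring := by
      have := v.toValuationSubring.add_mem _ _ htc (v.algebraMap_mem' c)
      simpa using this
    obtain ⟨w, hw⟩ := exists_placeOfPrime_eq (hK t) v (le_place t v htv)
    have hord : v.ord (t - algebraMap K F c) = - WithZero.log (w.intValuation (r c)) := by
      rw [← hw, placeOfPrime_ord (hK t) w hf0, ← hr c,
        HeightOneSpectrum.valuation_of_algebraMap]
    have hr0 : r c ≠ 0 := by
      intro h0
      apply hf0
      rw [← hr c, h0, map_zero]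
    have hval0 : w.intValuation (r c) ≠ 0 := w.intValuation_ne_zero (r c) hr0
    by_contra hne1
    have h2 : 2 ≤ v.ord (t - algebraMap K F c) := by omega
    rw [hord] at h2 hv
    have hle : w.intValuation (r c) ≤ WithZero.exp (-((2 : ℕ) : ℤ)) := by
      rw [← WithZero.exp_log hval0, WithZero.exp_le_exp]
      push_cast
      omega
    have hdvd : w.asIdeal ^ 2 ∣ Ideal.span {r c} :=
      (HeightOneSpectrum.intValuation_le_pow_iff_dvd w (r c) 2).mp hle
    have hmap : (Ideal.span {(X - C c : K[X])}).map
        (algebraMap K[X] (intClosure (K := K) t)) = Ideal.span {r c} := by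
      rw [Ideal.map_span, Set.image_singleton]
    have hmem : r c ∈ w.asIdeal := by
      rw [← HeightOneSpectrum.intValuation_lt_one_iff_mem]
      rw [← WithZero.exp_log hval0, ← WithZero.exp_zero, WithZero.exp_lt_exp]
      omega
    exact hc ⟨w, hkey c w (hmap ▸ hdvd), hmem⟩

end Fermat.Agent.S27
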