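/-
S27 route B, crux LE(b), leaf INT-SURJ: the `K`-ONLY half (helper13), on `S27/PtDef.lean`,
`S27/AdExPred.lean` (helper6), `S27/RR0Final.lean` (helper51), `S27/RepSimple.lean` (helper79).

`F / K` a curve over an algebraically closed field of characteristic `0`, `W ⊇ K` a valuation
subring of `𝔏`, points `R i : F →ₐ[K] 𝔏` (`i < N`), `A'` a divisor, `T` a finite set of places.
THEN there are an ADAPTED pair `(t, a)` for `(W, R, −A')`, pairwise distinct constants
`q_1, …, q_N ∈ K` and a finite set `Z` of places, disjoint from `T` and from the closed centres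
of the `R i`, such that

* `1 / (R i t − q j) ∈ W` for all `i, j` (the hypothesis `hu` of `s27cpt_latBasis'`);
* the CAUCHY functions `a / (t − q j)` lie in `L_K(A' + G)` for EVERY divisor `G ≥ 0` with
  `G ≥ 1` on `Z` — in particular for the REDUCED divisor `G = Σ_{P ∈ Z} P`.

Construction: `G₁` reduced of large degree off `T ∪ centres ∪ supp A'`; `a ∈ L_K(A' + G₁)` with
exact order `−A'(Q)` at the closed centres (Riemann for large degree + `K` infinite: a vector
space is not a finite union of proper subspaces); `t` from AD-EX; `q j` generic (all fibres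
`t = q j` simple, off `T ∪ centres ∪ supp A' ∪ supp G₁`); `Z = supp G₁ ∪ ⋃_j (zeros of t − q j)`.

* `s27isk_zero_unique`, `s27isk_bad_finite`, `s27isk_centres_finite` : finiteness of the bad sets;
* `s27isk_exists_exact` : `∃ a ∈ L(D)`, `a ≠ 0`, `ord_Q a = −D(Q)` for `Q ∈ S` (`deg D` large);
* `s27isk_main`         : the statement above (`Z`-form);
* `s27isk_main_div`     : the same with the reduced divisor `G` (values in `{0, 1}`).
-/
import Fermat.Agent.S27.AdExPred
import Fermat.Agent.S27.RR0Final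
import Fermat.Agent.S27.RepSimple
import Fermat.Agent.S27.PtDef

set_option autoImplicit false
set_option linter.style.haveILetI false
set_option linter.unusedSectionVars false

noncomputable section

namespace Fermat.Agent.S27

open AlgebraicCurve IntermediateField Module
open Fermat.Agent.S24.PlaceAux Fermat.Agent.S26

universe u v w

variable {K : Type u} {F : Type v} [Field K] [Field F] [Algebra K F]

section Bad

/-- a place is a zero of `t − c` for at most one constant `c`. -/
theorem s27isk_zero_unique (v : Place K F) (t : F) {c c' : K}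
    (h : 0 < v.ord (t - algebraMap K F c)) (h' : 0 < v.ord (t - algebraMap K F c')) :
    c = c' := by
  by_contra hne
  have h0 : t - algebraMap K F c ≠ 0 := fun h0 => by
    rw [h0, Place.ord_zero] at h; exact lt_irrefl _ h
  have h0' : t - algebraMap K F c' ≠ 0 := fun h0 => by
    rw [h0, Place.ord_zero] at h'; exact lt_irrefl _ h'
  have hd : (t - algebraMap K F c') + -(t - algebraMap K F c) = algebraMap K F (c - c') := by
    rw [map_sub]; ring
  have hcc : algebraMap K F (c - c') ≠ 0 := (map_ne_zero _).2 (sub_ne_zero.2 hne)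
  have h1 := le_ord_add v h0' (neg_ne_zero.2 h0) (by rw [hd]; exact hcc)
  rw [hd, ord_algebraMap, ord_neg] at h1
  rcases min_le_iff.1 h1 with h2 | h2 <;> omega

/-- the constants `c` such that `t − c` vanishes somewhere on a finite set of places. -/
theorem s27isk_bad_finite (t : F) (S : Set (Place K F)) (hS : S.Finite) :
    {c : K | ∃ P ∈ S, 0 < P.ord (t - algebraMap K F c)}.Finite := by
  have h1 : {c : K | ∃ P ∈ S, 0 < P.ord (t - algebraMap K F c)}
      = ⋃ P ∈ S, {c : K | 0 < P.ord (t - algebraMap K F c)} := by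
    ext c
    simp only [Set.mem_ofPred_eq, Set.mem_iUnion, exists_prop]
  rw [h1]
  refine Set.Finite.biUnion hS fun P _ => Set.Subsingleton.finite ?_
  intro c hc c' hc'
  exact s27isk_zero_unique P t hc hc'

variable {𝔏 : Type w} [Field 𝔏] [Algebra K 𝔏]

/-- the closed centres of finitely many points. -/
theorem s27isk_centres_finite {N : ℕ} (W : ValuationSubring 𝔏) (R : Fin N → F →ₐ[K] 𝔏) :
    {Q : Place K F | ∃ i, S27ptIsCentre W (R i) Q}.Finite := by
  have h1 : {Q : Place K F | ∃ i, S27ptIsCentre W (R i) Q}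
      = ⋃ i, {Q : Place K F | S27ptIsCentre W (R i) Q} := by
    ext Q
    simp only [Set.mem_ofPred_eq, Set.mem_iUnion]
  rw [h1]
  refine Set.finite_iUnion fun i => Set.Subsingleton.finite ?_
  intro Q hQ Q' hQ'
  exact Place.ext (hQ.symm.trans hQ')

end Bad

section Exact

variable [IsAlgClosed K] (x : F) (hx : Transcendental K x) [FiniteDimensional K⟮x⟯ F]

include hx

/-- the degree of a reduced divisor. -/
theorem s27isk_degree_sum (Z : Finset (Place K F)) :
    Divisor.degree (∑ P ∈ Z, Finsupp.single P (1 : ℤ)) = Z.card := by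
  rw [map_sum]
  have h : ∀ P ∈ Z, Divisor.degree (Finsupp.single P (1 : ℤ)) = 1 := by
    intro P _
    rw [Divisor.degree_single, s26errg_deg_eq_one x hx P]
    norm_num
  rw [Finset.sum_congr rfl h]
  simp

omit hx in
/-- the values of a reduced divisor. -/
theorem s27isk_sum_apply [DecidableEq (Place K F)] (Z : Finset (Place K F)) (P : Place K F) :
    (∑ Q ∈ Z, Finsupp.single Q (1 : ℤ) : Divisor K F) P = if P ∈ Z then 1 else 0 := by
  rw [Finsupp.finsetSum_apply]
  simp only [Finsupp.single_apply]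
  rw [Finset.sum_ite_eq' Z P (fun _ => (1 : ℤ))]

/-- **functions with exact orders**: if `deg D` is large, there is `a ∈ L(D)`, `a ≠ 0`, with
`ord_Q a = −D(Q)` at every place `Q` of a given finite set. -/
theorem s27isk_exists_exact {c : ℤ}
    (hc : ∀ A : Divisor K F, c ≤ Divisor.degree A →
      (finrank K ↥(riemannRochSpace A) : ℤ) = Divisor.degree A + 1 - genusFF K F)
    (D : Divisor K F) (hD : c + 1 ≤ Divisor.degree D) (hDg : (genusFF K F : ℤ) ≤ Divisor.degree D)
    (S : Finset (Place K F)) :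
    ∃ a : F, a ∈ riemannRochSpace D ∧ a ≠ 0 ∧ ∀ Q ∈ S, Q.ord a = -D Q := by
  classical
  haveI : Infinite K := IsAlgClosed.instInfinite
  haveI hfinD : ∀ A : Divisor K F, Module.Finite K ↥(riemannRochSpace A) :=
    fun A => s26err_rr_finite' x hx A
  -- the subspaces `L(D − Q)` of `L(D)`
  let sub : Place K F → Submodule K ↥(riemannRochSpace D) := fun Q =>
    Submodule.comap (riemannRochSpace D).subtype (riemannRochSpace (D - Finsupp.single Q 1))
  have hsub : ∀ Q, sub Q ≠ ⊤ := by
    intro Q htop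
    have hle : riemannRochSpace D ≤ riemannRochSpace (D - Finsupp.single Q 1) := by
      intro f hf
      have : (⟨f, hf⟩ : ↥(riemannRochSpace D)) ∈ sub Q := by rw [htop]; exact Submodule.mem_top
      exact this
    have h1 := Submodule.finrank_mono hle
    have h2 := hc D (by omega)
    have hdeg : Divisor.degree (D - Finsupp.single Q 1) = Divisor.degree D - 1 := by
      rw [map_sub, Divisor.degree_single, s26errg_deg_eq_one x hx Q]
      norm_num
    have h3 := hc (D - Finsupp.single Q 1) (by rw [hdeg]; omega)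
    rw [hdeg] at h3
    omega
  have hbot : (⊥ : Submodule K ↥(riemannRochSpace D)) ≠ ⊤ := by
    intro h
    have h2 := hc D (by omega)
    have h3 : finrank K ↥(riemannRochSpace D) = 0 := by
      have h4 : finrank K ↥(⊤ : Submodule K ↥(riemannRochSpace D)) = 0 := by
        rw [← h]; exact finrank_bot K _
      rwa [finrank_top] at h4
    rw [h3] at h2
    push_cast at h2
    omega
  let s : Finset (Submodule K ↥(riemannRochSpace D)) := insert ⊥ (S.image sub)
  have hs : (⊤ : Submodule K ↥(riemannRochSpace D)) ∉ s := by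
    intro h
    rcases Finset.mem_insert.1 h with h | h
    · exact hbot h.symm
    · obtain ⟨Q, -, hQ⟩ := Finset.mem_image.1 h
      exact hsub Q hQ
  have hne := Subspace.biUnion_ne_univ_of_top_notMem hs
  obtain ⟨a, ha⟩ : ∃ a : ↥(riemannRochSpace D), a ∉ ⋃ p ∈ s, (p : Set ↥(riemannRochSpace D)) := by
    by_contra hall
    push Not at hall
    exact hne (Set.eq_univ_of_forall hall)
  have ha' : ∀ p ∈ s, a ∉ p := by
    intro p hp hap
    exact ha (Set.mem_biUnion hp hap)
  have ha0 : (a : F) ≠ 0 := by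
    intro h0
    apply ha' ⊥ (Finset.mem_insert_self _ _)
    rw [Submodule.mem_bot]
    exact Subtype.ext h0
  refine ⟨a, a.2, ha0, fun Q hQ => ?_⟩
  have hmem := mem_riemannRochSpace_iff.1 a.2
  have hQ1 : (a : F) ∉ riemannRochSpace (D - Finsupp.single Q 1) := by
    intro h
    exact ha' (sub Q) (Finset.mem_insert_of_mem (Finset.mem_image_of_mem _ hQ)) h
  rw [mem_riemannRochSpace_iff] at hQ1
  push Not at hQ1
  obtain ⟨v, -, hv⟩ := hQ1
  have hvD := (hmem v).resolve_left ha0
  rw [Finsupp.sub_apply, Finsupp.single_apply] at hv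
  by_cases hvQ : Q = v
  · subst hvQ
    rw [if_pos rfl] at hv
    omega
  · rw [if_neg hvQ] at hv
    omega

end Exact

section Main

variable {𝔏 : Type w} [Field 𝔏] [Algebra K 𝔏]
variable [IsAlgClosed K] [CharZero K] (x : F) (hx : Transcendental K x)
  [FiniteDimensional K⟮x⟯ F]

include hx

/-- **INT-SURJ, the `K`-only half** (`Z`-form): an adapted pair `(t, a)`, distinct constants
`q j` and a finite set `Z` of places off `T` and off the closed centres, with
`1 / (R i t − q j) ∈ W` and `a / (t − q j) ∈ L_K(A' + G)` for every `G ≥ 0` with `G ≥ 1` on `Z`. -/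
theorem s27isk_main {N : ℕ} (W : ValuationSubring 𝔏) (hW : ∀ c : K, algebraMap K 𝔏 c ∈ W)
    (R : Fin N → F →ₐ[K] 𝔏) (A' : Divisor K F) (T : Finset (Place K F)) :
    ∃ (t a : F) (q : Fin N → K) (Z : Finset (Place K F)),
      S27IsAdapted W R (fun Q => -A' Q) t a ∧ Function.Injective q ∧
      (∀ i j, (R i t - algebraMap K 𝔏 (q j))⁻¹ ∈ W) ∧
      (∀ P ∈ Z, P ∉ T) ∧ (∀ P ∈ Z, ∀ i, ¬ S27ptIsCentre W (R i) P) ∧
      (∀ G : Divisor K F, (∀ P, 0 ≤ G P) → (∀ P ∈ Z, 1 ≤ G P) →
        ∀ j, a / (t - algebraMap K F (q j)) ∈ riemannRochSpace (A' + G)) := by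
  classical
  haveI : Infinite K := IsAlgClosed.instInfinite
  haveI := s26err_hasPrincipalDivisors (K := K) x hx
  haveI : Infinite (Place K F) := s26errg_infinite_place x hx
  -- the adapted coordinate
  obtain ⟨t, a₀, had⟩ := s27adex_exists_curve x hx W hW R (fun Q => -A' Q)
  have htc : ∀ c : K, t ≠ algebraMap K F c := had.2.1
  have htr : Transcendental K t := by
    intro halg
    have hint : IsIntegral K t := halg.isIntegral
    have hdeg := IsAlgClosed.degree_eq_one_of_irreducible K (minpoly.irreducible hint)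
    obtain ⟨c, hc⟩ := RingHom.mem_range.mp (minpoly.mem_range_of_degree_eq_one K t hdeg)
    exact htc c hc.symm
  haveI : FiniteDimensional K⟮t⟯ F :=
    Fermat.Agent.S24.pd_finiteDimensional_adjoin_of_transcendental x hx t htr
  -- the closed centres
  have hCfin := s27isk_centres_finite W R
  set C₀ : Finset (Place K F) := hCfin.toFinset with hC₀
  have hC₀mem : ∀ Q, Q ∈ C₀ ↔ ∃ i, S27ptIsCentre W (R i) Q := by
    intro Q
    rw [hC₀, Set.Finite.mem_toFinset]
    rfl
  set T' : Finset (Place K F) := T ∪ C₀ ∪ A'.support with hT'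
  -- the reduced divisor `G₁` of large degree off `T'`
  obtain ⟨c, hc⟩ := s27rr_large x hx
  set m : ℕ := (max (c + 1 - Divisor.degree A') ((genusFF K F : ℤ) - Divisor.degree A')).toNat
    with hm
  have hinfT : ((↑T' : Set (Place K F))ᶜ).Infinite :=
    Set.Finite.infinite_compl (Finset.finite_toSet T')
  obtain ⟨Z₁, hZ₁sub, hZ₁card⟩ := hinfT.exists_subset_card_eq m
  have hZ₁T : ∀ P ∈ Z₁, P ∉ T' := fun P hP => hZ₁sub (Finset.mem_coe.2 hP)
  set G₁ : Divisor K F := ∑ P ∈ Z₁, Finsupp.single P (1 : ℤ) with hG₁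
  have hG₁app : ∀ P, G₁ P = if P ∈ Z₁ then 1 else 0 := fun P => s27isk_sum_apply Z₁ P
  have hdegD : Divisor.degree (A' + G₁) = Divisor.degree A' + m := by
    rw [map_add, hG₁, s27isk_degree_sum x hx, hZ₁card]
  have hm1 : c + 1 - Divisor.degree A' ≤ m := by
    rw [hm]
    exact (le_max_left _ _).trans (Int.self_le_toNat _)
  have hm2 : (genusFF K F : ℤ) - Divisor.degree A' ≤ m := by
    rw [hm]
    exact (le_max_right _ _).trans (Int.self_le_toNat _)
  -- the pole factor `a`
  obtain ⟨a, haD, ha0, haS⟩ := s27isk_exists_exact x hx hc (A' + G₁)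
    (by rw [hdegD]; omega) (by rw [hdegD]; omega) C₀
  have haord : ∀ i (Q : Place K F), W.comap (R i : F →+* 𝔏) = Q.toValuationSubring →
      Q.ord a = -A' Q := by
    intro i Q hQ
    have hQC : Q ∈ C₀ := (hC₀mem Q).2 ⟨i, hQ⟩
    have hQZ : Q ∉ Z₁ := fun h => hZ₁T Q h (by
      rw [hT']
      exact Finset.mem_union_left _ (Finset.mem_union_right _ hQC))
    rw [haS Q hQC, Finsupp.add_apply, hG₁app, if_neg hQZ, add_zero]
  have had' : S27IsAdapted W R (fun Q => -A' Q) t a :=
    ⟨ha0, had.2.1, had.2.2.1, fun i Q hQ => ⟨(had.2.2.2.1 i Q hQ).1, haord i Q hQ⟩,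
      had.2.2.2.2⟩
  -- the bad constants
  obtain ⟨B₂, hB₂fin, hB₂⟩ := s27rep_simple t htr
  have hB₁fin := s27isk_bad_finite t (↑(T' ∪ Z₁) : Set (Place K F)) (Finset.finite_toSet _)
  set B : Set K := B₂ ∪ {c : K | ∃ P ∈ (↑(T' ∪ Z₁) : Set (Place K F)),
    0 < P.ord (t - algebraMap K F c)} with hB
  have hBfin : B.Finite := hB₂fin.union hB₁fin
  have hBinf : Bᶜ.Infinite := Set.Finite.infinite_compl hBfin
  set e := Set.Infinite.natEmbedding Bᶜ hBinf with he
  set q : Fin N → K := fun j => ((e (j : ℕ) : ↥Bᶜ) : K) with hq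
  have hqinj : Function.Injective q := by
    intro j j' hjj
    have h1 : e (j : ℕ) = e (j' : ℕ) := Subtype.ext hjj
    exact Fin.ext (e.injective h1)
  have hqB : ∀ j, q j ∉ B := fun j => (e (j : ℕ)).2
  have hqB₂ : ∀ j, q j ∉ B₂ := fun j h => hqB j (Or.inl h)
  have hqT : ∀ j, ∀ P ∈ T' ∪ Z₁, ¬ 0 < P.ord (t - algebraMap K F (q j)) := by
    intro j P hP hpos
    exact hqB j (Or.inr ⟨P, Finset.mem_coe.2 hP, hpos⟩)
  have htq : ∀ j, t - algebraMap K F (q j) ≠ 0 := fun j h => htc (q j) (sub_eq_zero.1 h)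
  -- the zeros of `t − q j`
  have hdiv : ∀ j, ∃ Dj : Divisor K F, ∀ v : Place K F,
      Dj v = v.ord (t - algebraMap K F (q j)) := by
    intro j
    obtain ⟨Dj, hDj, -⟩ := HasPrincipalDivisors.exists_divisor (K := K) _ (htq j)
    exact ⟨Dj, hDj⟩
  choose Dq hDq using hdiv
  set Z : Finset (Place K F) := Z₁ ∪ Finset.univ.biUnion (fun j => (Dq j).support) with hZ
  have hzero_mem : ∀ j (v : Place K F), 0 < v.ord (t - algebraMap K F (q j)) → v ∈ Z := by
    intro j v hv
    rw [hZ]
    refine Finset.mem_union_right _ (Finset.mem_biUnion.2 ⟨j, Finset.mem_univ _, ?_⟩)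
    rw [Finsupp.mem_support_iff, hDq j v]
    omega
  -- `Z` avoids `T'` ... but only the ZEROS matter: we shrink `Z` to the zeros
  set Z' : Finset (Place K F) := Z₁ ∪ (Finset.univ.biUnion (fun j => (Dq j).support)).filter
    (fun v => ∃ j, 0 < v.ord (t - algebraMap K F (q j))) with hZ'
  have hZ'T : ∀ P ∈ Z', P ∉ T' := by
    intro P hP hPT
    rw [hZ'] at hP
    rcases Finset.mem_union.1 hP with h | h
    · exact hZ₁T P h hPT
    · obtain ⟨j, hj⟩ := (Finset.mem_filter.1 h).2
      exact hqT j P (Finset.mem_union_left _ hPT) hj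
  have hzero_mem' : ∀ j (v : Place K F), 0 < v.ord (t - algebraMap K F (q j)) → v ∈ Z' := by
    intro j v hv
    rw [hZ']
    refine Finset.mem_union_right _ (Finset.mem_filter.2 ⟨?_, j, hv⟩)
    have := hzero_mem j v hv
    rw [hZ] at this
    rcases Finset.mem_union.1 this with h | h
    · exact absurd hv (hqT j v (Finset.mem_union_right _ h))
    · exact h
  refine ⟨t, a, q, Z', had', hqinj, ?_, ?_, ?_, ?_⟩
  · -- `1 / (R i t − q j) ∈ W`
    intro i j
    have hval : (R i t - algebraMap K 𝔏 (q j))⁻¹ = R i (t - algebraMap K F (q j))⁻¹ := by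
      rw [map_inv₀, map_sub, AlgHom.commutes]
    rw [hval]
    rcases s27adex_hred_curve x hx W hW (R i) with hgen | ⟨Q, hQ⟩
    · exact hgen _
    · have hQC : Q ∈ C₀ := (hC₀mem Q).2 ⟨i, hQ⟩
      have hQT : Q ∈ T' ∪ Z₁ := by
        rw [hT']
        exact Finset.mem_union_left _ (Finset.mem_union_left _ (Finset.mem_union_right _ hQC))
      have hnp := hqT j Q hQT
      have hmem : (t - algebraMap K F (q j))⁻¹ ∈ Q.toValuationSubring := by
        refine mem_of_ord_nonneg Q ?_
        rw [Place.ord_inv]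
        omega
      have : (t - algebraMap K F (q j))⁻¹ ∈ W.comap (R i : F →+* 𝔏) := by rw [hQ]; exact hmem
      exact this
  · intro P hP hPT
    apply hZ'T P hP
    rw [hT']
    exact Finset.mem_union_left _ (Finset.mem_union_left _ hPT)
  · intro P hP i hPi
    apply hZ'T P hP
    rw [hT']
    exact Finset.mem_union_left _ (Finset.mem_union_right _ ((hC₀mem P).2 ⟨i, hPi⟩))
  · -- the Cauchy functions lie in `L(A' + G)`
    intro G hG0 hGZ j
    rw [mem_riemannRochSpace_iff]
    intro v
    right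
    have hne : (t - algebraMap K F (q j))⁻¹ ≠ 0 := inv_ne_zero (htq j)
    rw [div_eq_mul_inv, Place.ord_mul v ha0 hne, Place.ord_inv, Finsupp.add_apply]
    have haD' := (mem_riemannRochSpace_iff.1 haD v).resolve_left ha0
    rw [Finsupp.add_apply, hG₁app] at haD'
    by_cases hpos : 0 < v.ord (t - algebraMap K F (q j))
    · have hvZ : v ∈ Z' := hzero_mem' j v hpos
      have hvZ₁ : v ∉ Z₁ := fun h => hqT j v (Finset.mem_union_right _ h) hpos
      have h1 : v.ord (t - algebraMap K F (q j)) = 1 := hB₂ (q j) (hqB₂ j) v hpos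
      have hG1 := hGZ v hvZ
      rw [if_neg hvZ₁] at haD'
      omega
    · have hG1 : (if v ∈ Z₁ then (1 : ℤ) else 0) ≤ G v := by
        split_ifs with h
        · exact hGZ v (by rw [hZ']; exact Finset.mem_union_left _ h)
        · exact hG0 v
      omega

/-- **INT-SURJ, the `K`-only half** (divisor form): the same with the REDUCED divisor
`G = Σ_{P ∈ Z} P`. -/
theorem s27isk_main_div {N : ℕ} (W : ValuationSubring 𝔏) (hW : ∀ c : K, algebraMap K 𝔏 c ∈ W)
    (R : Fin N → F →ₐ[K] 𝔏) (A' : Divisor K F) (T : Finset (Place K F)) :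
    ∃ (t a : F) (q : Fin N → K) (G : Divisor K F),
      S27IsAdapted W R (fun Q => -A' Q) t a ∧ Function.Injective q ∧
      (∀ i j, (R i t - algebraMap K 𝔏 (q j))⁻¹ ∈ W) ∧
      (∀ P, G P = 0 ∨ G P = 1) ∧ (∀ P ∈ T, G P = 0) ∧
      (∀ i Q, S27ptIsCentre W (R i) Q → G Q = 0) ∧
      (∀ j, a / (t - algebraMap K F (q j)) ∈ riemannRochSpace (A' + G)) := by
  classical
  obtain ⟨t, a, q, Z, had, hq, hu, hZT, hZC, hmem⟩ := s27isk_main x hx W hW R A' T
  have happ : ∀ P, (∑ Q ∈ Z, Finsupp.single Q (1 : ℤ) : Divisor K F) P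
      = if P ∈ Z then 1 else 0 := fun P => s27isk_sum_apply Z P
  refine ⟨t, a, q, ∑ Q ∈ Z, Finsupp.single Q (1 : ℤ), had, hq, hu, fun P => ?_, fun P hP => ?_,
    fun i Q hQ => ?_, hmem _ (fun P => ?_) (fun P hP => ?_)⟩
  · rw [happ]
    split_ifs
    · exact Or.inr rfl
    · exact Or.inl rfl
  · rw [happ, if_neg (fun h => hZT P h hP)]
  · rw [happ, if_neg (fun h => hZC Q h i hQ)]
  · rw [happ]
    split_ifs <;> norm_num
  · rw [happ, if_pos hP]

end Main

end Fermat.Agent.S27

end
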