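/-
S27 route B, crux LE(b), leaf INT-SURJ / G-EX (helper13): ONE reduced divisor `G` for the TWO
sides of LE5, on `S27/IntSurjK.lean` (the `K`-only half) and `S27/CauchyPt.lean` (helper61).

`F / K` a curve over an algebraically closed field of characteristic `0`, `W ⊇ K` a valuation
subring of `𝔏`, points `R i` (`i < N`) and `R' i` (`i < N'`), divisors `A₁`, `A₂`, a finite set `T`
of places, `d : ℕ`.

* `s27isk_two`     : **G-EX**: there is a REDUCED divisor `G` (values in `{0, 1}`) with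
  `deg G ≥ d`, `G = 0` on `T`, on `supp A₁ ∪ supp A₂` and at the closed centres of all the points,
  and for each side an adapted pair, distinct constants `q j` with `1 / (R i t − q j) ∈ W` and
  Cauchy functions `a / (t − q j) ∈ L_K(A + G)`;
* `s27isk_intSurj` : **INT-SURJ** (the hypotheses `hsurj`, `hsurj'` of LE5) for EVERY pair of
  families `x`, `x'` whose `K`-spans contain `L_K(A₁ + G)`, `L_K(A₂ + G)`, from LAT-EX (the monomial
  family `a · t^j` of every adapted pair is a lattice basis).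
-/
import Fermat.Agent.S27.IntSurjK
import Fermat.Agent.S27.CauchyPt

set_option autoImplicit false
set_option linter.style.haveILetI false
set_option linter.unusedSectionVars false

noncomputable section

namespace Fermat.Agent.S27

open AlgebraicCurve IntermediateField Module
open Fermat.Agent.S24.PlaceAux Fermat.Agent.S26

universe u v w

variable {K : Type u} {F : Type v} [Field K] [Field F] [Algebra K F]
variable {𝔏 : Type w} [Field 𝔏] [Algebra K 𝔏]
variable [IsAlgClosed K] [CharZero K] (x : F) (hx : Transcendental K x)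
  [FiniteDimensional K⟮x⟯ F]

include hx

/-- **G-EX**: one reduced divisor `G` of large degree, off `T`, off the supports of `A₁`, `A₂` and
off the closed centres, serving both sides. -/
theorem s27isk_two {N N' : ℕ} (W : ValuationSubring 𝔏) (hW : ∀ c : K, algebraMap K 𝔏 c ∈ W)
    (R : Fin N → F →ₐ[K] 𝔏) (R' : Fin N' → F →ₐ[K] 𝔏) (A₁ A₂ : Divisor K F)
    (T : Finset (Place K F)) (d : ℕ) :
    ∃ (G : Divisor K F) (t a : F) (q : Fin N → K) (t' a' : F) (q' : Fin N' → K),
      (∀ P, G P = 0 ∨ G P = 1) ∧ (d : ℤ) ≤ Divisor.degree G ∧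
      (∀ P ∈ T, G P = 0) ∧ (∀ P, A₁ P ≠ 0 → G P = 0) ∧ (∀ P, A₂ P ≠ 0 → G P = 0) ∧
      (∀ i Q, S27ptIsCentre W (R i) Q → G Q = 0) ∧
      (∀ i Q, S27ptIsCentre W (R' i) Q → G Q = 0) ∧
      (S27IsAdapted W R (fun Q => -A₁ Q) t a ∧ Function.Injective q ∧
        (∀ i j, (R i t - algebraMap K 𝔏 (q j))⁻¹ ∈ W) ∧
        ∀ j, a / (t - algebraMap K F (q j)) ∈ riemannRochSpace (A₁ + G)) ∧
      (S27IsAdapted W R' (fun Q => -A₂ Q) t' a' ∧ Function.Injective q' ∧
        (∀ i j, (R' i t' - algebraMap K 𝔏 (q' j))⁻¹ ∈ W) ∧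
        ∀ j, a' / (t' - algebraMap K F (q' j)) ∈ riemannRochSpace (A₂ + G)) := by
  classical
  haveI : Infinite (Place K F) := s26errg_infinite_place x hx
  -- the forbidden places
  set C : Finset (Place K F) := (s27isk_centres_finite W R).toFinset with hC
  set C' : Finset (Place K F) := (s27isk_centres_finite W R').toFinset with hC'
  have hCmem : ∀ Q, Q ∈ C ↔ ∃ i, S27ptIsCentre W (R i) Q := by
    intro Q
    rw [hC, Set.Finite.mem_toFinset]
    rfl
  have hC'mem : ∀ Q, Q ∈ C' ↔ ∃ i, S27ptIsCentre W (R' i) Q := by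
    intro Q
    rw [hC', Set.Finite.mem_toFinset]
    rfl
  set T₀ : Finset (Place K F) := T ∪ A₁.support ∪ A₂.support ∪ C ∪ C' with hT₀
  obtain ⟨t, a, q, Z₁, had, hq, hu, hZ₁T, -, hmem⟩ := s27isk_main x hx W hW R A₁ T₀
  obtain ⟨t', a', q', Z₂, had', hq', hu', hZ₂T, -, hmem'⟩ := s27isk_main x hx W hW R' A₂ T₀
  -- extra places, to make the degree large
  have hinf : ((↑(T₀ ∪ Z₁ ∪ Z₂) : Set (Place K F))ᶜ).Infinite :=
    Set.Finite.infinite_compl (Finset.finite_toSet _)
  obtain ⟨Z₃, hZ₃sub, hZ₃card⟩ := hinf.exists_subset_card_eq d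
  have hZ₃T : ∀ P ∈ Z₃, P ∉ T₀ := by
    intro P hP hPT
    exact hZ₃sub (Finset.mem_coe.2 hP)
      (Finset.mem_coe.2 (Finset.mem_union_left _ (Finset.mem_union_left _ hPT)))
  set Z : Finset (Place K F) := Z₁ ∪ Z₂ ∪ Z₃ with hZ
  have hZT : ∀ P ∈ Z, P ∉ T₀ := by
    intro P hP
    rw [hZ] at hP
    rcases Finset.mem_union.1 hP with h | h
    · rcases Finset.mem_union.1 h with h | h
      · exact hZ₁T P h
      · exact hZ₂T P h
    · exact hZ₃T P h
  set G : Divisor K F := ∑ Q ∈ Z, Finsupp.single Q (1 : ℤ) with hG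
  have happ : ∀ P, G P = if P ∈ Z then 1 else 0 := fun P => s27isk_sum_apply Z P
  have hG0 : ∀ P, P ∈ T₀ → G P = 0 := by
    intro P hP
    rw [happ, if_neg (fun h => hZT P h hP)]
  have hGnn : ∀ P, 0 ≤ G P := by
    intro P
    rw [happ]
    split_ifs <;> norm_num
  have hGZ : ∀ P ∈ Z, 1 ≤ G P := by
    intro P hP
    rw [happ, if_pos hP]
  refine ⟨G, t, a, q, t', a', q', fun P => ?_, ?_, fun P hP => ?_, fun P hP => ?_,
    fun P hP => ?_, fun i Q hQ => ?_, fun i Q hQ => ?_,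
    ⟨had, hq, hu, hmem G hGnn fun P hP => hGZ P ?_⟩,
    ⟨had', hq', hu', hmem' G hGnn fun P hP => hGZ P ?_⟩⟩
  · rw [happ]
    split_ifs
    · exact Or.inr rfl
    · exact Or.inl rfl
  · rw [hG, s27isk_degree_sum x hx]
    have h1 : Z₃.card ≤ Z.card := Finset.card_le_card (by
      rw [hZ]; exact Finset.subset_union_right)
    rw [hZ₃card] at h1
    exact_mod_cast h1
  · apply hG0
    rw [hT₀]
    simp only [Finset.mem_union]
    tauto
  · apply hG0
    rw [hT₀]
    simp only [Finset.mem_union, Finsupp.mem_support_iff]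
    tauto
  · apply hG0
    rw [hT₀]
    simp only [Finset.mem_union, Finsupp.mem_support_iff]
    tauto
  · apply hG0
    rw [hT₀]
    have := (hCmem Q).2 ⟨i, hQ⟩
    simp only [Finset.mem_union]
    tauto
  · apply hG0
    rw [hT₀]
    have := (hC'mem Q).2 ⟨i, hQ⟩
    simp only [Finset.mem_union]
    tauto
  · rw [hZ]
    exact Finset.mem_union_left _ (Finset.mem_union_left _ hP)
  · rw [hZ]
    exact Finset.mem_union_left _ (Finset.mem_union_right _ hP)

/-- **INT-SURJ for the two sides of LE5**, from LAT-EX: there is a reduced divisor `G` of large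
degree, off `T`, off the supports of `A₁`, `A₂` and off the closed centres, such that for EVERY
family `x` (resp. `x'`) whose `K`-span contains `L_K(A₁ + G)` (resp. `L_K(A₂ + G)`) the values of
every `ψ ∈ 𝓕` are a `W`-combination of the values of the family. -/
theorem s27isk_intSurj {N N' : ℕ} (W : ValuationSubring 𝔏)
    (hW : ∀ c : K, algebraMap K 𝔏 c ∈ W)
    (R : Fin N → F →ₐ[K] 𝔏) (R' : Fin N' → F →ₐ[K] 𝔏) (A₁ A₂ : Divisor K F)
    (hlat : ∀ t a : F, S27IsAdapted W R (fun Q => -A₁ Q) t a →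
      S27ptIsLatBasis W R A₁ (fun j : Fin N => a * t ^ (j : ℕ)))
    (hlat' : ∀ t a : F, S27IsAdapted W R' (fun Q => -A₂ Q) t a →
      S27ptIsLatBasis W R' A₂ (fun j : Fin N' => a * t ^ (j : ℕ)))
    (T : Finset (Place K F)) (d : ℕ) :
    ∃ G : Divisor K F,
      (∀ P, G P = 0 ∨ G P = 1) ∧ (d : ℤ) ≤ Divisor.degree G ∧
      (∀ P ∈ T, G P = 0) ∧ (∀ P, A₁ P ≠ 0 → G P = 0) ∧ (∀ P, A₂ P ≠ 0 → G P = 0) ∧
      (∀ i Q, S27ptIsCentre W (R i) Q → G Q = 0) ∧
      (∀ i Q, S27ptIsCentre W (R' i) Q → G Q = 0) ∧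
      (∀ (J : Type) [Fintype J] (y : J → F),
        (riemannRochSpace (A₁ + G) ≤ Submodule.span K (Set.range y)) →
        ∀ ψ ∈ s27ptF W R A₁, ∃ c : J → 𝔏, (∀ m, c m ∈ W) ∧
          ∀ i, R i ψ = ∑ m, R i (y m) * c m) ∧
      (∀ (J : Type) [Fintype J] (y : J → F),
        (riemannRochSpace (A₂ + G) ≤ Submodule.span K (Set.range y)) →
        ∀ ψ ∈ s27ptF W R' A₂, ∃ c : J → 𝔏, (∀ m, c m ∈ W) ∧
          ∀ i, R' i ψ = ∑ m, R' i (y m) * c m) := by
  obtain ⟨G, t, a, q, t', a', q', hred, hdeg, hT, hA₁, hA₂, hC, hC', ⟨had, hq, hu, hmem⟩,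
    ⟨had', hq', hu', hmem'⟩⟩ := s27isk_two x hx W hW R R' A₁ A₂ T d
  refine ⟨G, hred, hdeg, hT, hA₁, hA₂, hC, hC', ?_, ?_⟩
  · intro J _ y hy
    have hφ := s27cpt_latBasis' hW a t (hlat t a had) had.t_not_const had.t_mem q hq hu
    exact s27cpt_intSurj hW hφ y fun j => hy (hmem j)
  · intro J _ y hy
    have hφ := s27cpt_latBasis' hW a' t' (hlat' t' a' had') had'.t_not_const had'.t_mem q' hq' hu'
    exact s27cpt_intSurj hW hφ y fun j => hy (hmem' j)

end Fermat.Agent.S27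

end
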