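/-
S27 route B, crux LE(b): **G-EX with lattice bases, UNCONDITIONAL, two sides** (helper13).
On `S27/IntSurjK2.lean` (G-EX), `S27/CauchyPt.lean` (helper61) and `S27/EffInstLat.lean` (helper50).

`F / K` a curve over an algebraically closed field of characteristic `0`, `W ⊇ K` a valuation
subring of `𝔏`, DISTINCT points `R i` (`i < N`), DISTINCT points `R' i` (`i < N'`), divisors `A₁`,
`A₂`, a finite set `T` of places, `d : ℕ`.

* `s27isu_cauchy_two` : there are a REDUCED divisor `G` (values in `{0, 1}`), `deg G ≥ d`, `G = 0`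
  on `T`, on `supp A₁ ∪ supp A₂` and at the closed centres of all the points, a lattice basis `φ`
  of `(W, R, A₁)` INSIDE `L_K(A₁ + G)` and a lattice basis `φ'` of `(W, R', A₂)` INSIDE
  `L_K(A₂ + G)`  (the input "lattice basis ⊂ L(A + G)" of LE5; INT-SURJ follows by
  `s27cpt_intSurj`, for families in any universe);
* `s27isu_hsurj`      : INT-SURJ from a lattice basis inside `L_K(A' + G)` for a `K`-basis `b` of
  `L_K(A' + G)` — literally the hypothesis `hsurj` of `s27le5_frame`.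
-/
import Fermat.Agent.S27.IntSurjK2
import Fermat.Agent.S27.EffInstLat

set_option autoImplicit false
set_option linter.style.haveILetI false
set_option linter.unusedSectionVars false

noncomputable section

namespace Fermat.Agent.S27

open AlgebraicCurve IntermediateField Module

universe u v w

variable {K : Type u} {F : Type v} [Field K] [Field F] [Algebra K F]
variable {𝔏 : Type w} [Field 𝔏] [Algebra K 𝔏]

/-- INT-SURJ for a `K`-basis of `L_K(A' + G)` from a lattice basis inside `L_K(A' + G)`: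
literally `hsurj` of `s27le5_frame`. -/
theorem s27isu_hsurj {N : ℕ} {W : ValuationSubring 𝔏} (hW : ∀ c : K, algebraMap K 𝔏 c ∈ W)
    {R : Fin N → F →ₐ[K] 𝔏} {A' G : Divisor K F} {φ : Fin N → F}
    (hφ : S27ptIsLatBasis W R A' φ) (hmem : ∀ j, φ j ∈ riemannRochSpace (A' + G))
    {J : Type*} [Fintype J] (b : Module.Basis J K ↥(riemannRochSpace (A' + G))) :
    ∀ ψ ∈ s27ptF W R A', ∃ c : J → 𝔏, (∀ j, c j ∈ W) ∧
      ∀ i, R i ψ = ∑ j, R i ((b j : ↥(riemannRochSpace (A' + G))) : F) * c j := by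
  refine s27cpt_intSurj hW hφ (fun j => ((b j : ↥(riemannRochSpace (A' + G))) : F)) fun j => ?_
  have h1 : (⟨φ j, hmem j⟩ : ↥(riemannRochSpace (A' + G))) ∈
      Submodule.span K (Set.range b) := by
    rw [b.span_eq]
    exact Submodule.mem_top
  have h2 := Submodule.apply_mem_span_image_of_mem_span (riemannRochSpace (A' + G)).subtype h1
  have h3 : (riemannRochSpace (A' + G)).subtype '' Set.range b
      = Set.range fun j => ((b j : ↥(riemannRochSpace (A' + G))) : F) := by
    rw [← Set.range_comp]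
    rfl
  rw [h3] at h2
  exact h2

variable [IsAlgClosed K] [CharZero K] [IsCurveOver K F] [Algebra.EssFiniteType K F]

/-- **G-EX with lattice bases, two sides, one reduced `G`.** -/
theorem s27isu_cauchy_two {N N' : ℕ} (W : ValuationSubring 𝔏)
    (hW : ∀ c : K, algebraMap K 𝔏 c ∈ W)
    (R : Fin N → F →ₐ[K] 𝔏) (hR : Function.Injective R)
    (R' : Fin N' → F →ₐ[K] 𝔏) (hR' : Function.Injective R') (A₁ A₂ : Divisor K F)
    (T : Finset (Place K F)) (d : ℕ) :
    ∃ (G : Divisor K F) (φ : Fin N → F) (φ' : Fin N' → F),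
      (∀ P, G P = 0 ∨ G P = 1) ∧ (d : ℤ) ≤ Divisor.degree G ∧
      (∀ P ∈ T, G P = 0) ∧ (∀ P, A₁ P ≠ 0 → G P = 0) ∧ (∀ P, A₂ P ≠ 0 → G P = 0) ∧
      (∀ i Q, S27ptIsCentre W (R i) Q → G Q = 0) ∧
      (∀ i Q, S27ptIsCentre W (R' i) Q → G Q = 0) ∧
      (∀ j, φ j ∈ riemannRochSpace (A₁ + G)) ∧ S27ptIsLatBasis W R A₁ φ ∧
      (∀ j, φ' j ∈ riemannRochSpace (A₂ + G)) ∧ S27ptIsLatBasis W R' A₂ φ' := by
  obtain ⟨x, hx, hfin⟩ := s27td_exists_of_isCurveOver (K := K) (F := F)
  haveI := hfin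
  obtain ⟨G, t, a, q, t', a', q', hred, hdeg, hT, hA₁, hA₂, hC, hC', ⟨had, hq, hu, hmem⟩,
    ⟨had', hq', hu', hmem'⟩⟩ := s27isk_two x hx W hW R R' A₁ A₂ T d
  exact ⟨G, fun j => a / (t - algebraMap K F (q j)), fun j => a' / (t' - algebraMap K F (q' j)),
    hred, hdeg, hT, hA₁, hA₂, hC, hC', hmem,
    s27cpt_latBasis' hW a t (s27eil_latBasis W hW R hR A₁ t a had) had.t_not_const had.t_mem
      q hq hu,
    hmem',
    s27cpt_latBasis' hW a' t' (s27eil_latBasis W hW R' hR' A₂ t' a' had') had'.t_not_const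
      had'.t_mem q' hq' hu'⟩

end Fermat.Agent.S27

end
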