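/-
S27 route B, crux LE(b), LE-TOP rows 3 + 4 (helper13): the two-sided reduced divisor `G` in the
ENUMERATED form `G = Σ_l Q l`, `Q : Fin m → Place K F` injective.  On `S27/IntSurjU2.lean`.

* `s27isq_enum` : a divisor with values in `{0, 1}` is `Σ_l Q l` for an injective enumeration `Q`
  of its support;
* `s27isq_two`  : **rows 3 + 4**: for DISTINCT points `R i`, DISTINCT points `R' i`, divisors `A₁`,
  `A₂`, a finite set `T` of places and `d : ℕ` there are `m ≥ d` and `Q : Fin m → Place K F`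
  injective, OFF `T`, off `supp A₁ ∪ supp A₂` and off the closed centres of all the points along
  `W`, and lattice bases `φ ⊂ L_K(A₁ + Σ Q)`, `φ' ⊂ L_K(A₂ + Σ Q)` of the two sides;
* `s27isq_mem_F` : `L_K(A' + G) ⊆ 𝓕_W(R, A')` when `G` vanishes at the closed centres (`hq`).
-/
import Fermat.Agent.S27.IntSurjU2

set_option autoImplicit false
set_option linter.style.haveILetI false
set_option linter.unusedSectionVars false

noncomputable section

namespace Fermat.Agent.S27

open AlgebraicCurve IntermediateField Module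

universe u v w

variable {K : Type u} {F : Type v} [Field K] [Field F] [Algebra K F]
variable {𝔏 : Type w} [Field 𝔏] [Algebra K 𝔏]

/-- a reduced divisor is the sum of an injective enumeration of its support. -/
theorem s27isq_enum (G : Divisor K F) (hG : ∀ P, G P = 0 ∨ G P = 1) :
    ∃ (m : ℕ) (Q : Fin m → Place K F), Function.Injective Q ∧
      (∀ P, G P = 1 ↔ ∃ l, Q l = P) ∧ G = ∑ l, Finsupp.single (Q l) (1 : ℤ) := by
  classical
  set e := G.support.equivFin with he
  refine ⟨G.support.card, fun l => ((e.symm l : ↥G.support) : Place K F), ?_, ?_, ?_⟩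
  · intro l l' h
    exact e.symm.injective (Subtype.ext h)
  · intro P
    constructor
    · intro h
      have hP : P ∈ G.support := by
        rw [Finsupp.mem_support_iff, h]
        norm_num
      exact ⟨e ⟨P, hP⟩, by simp only [Equiv.symm_apply_apply]⟩
    · rintro ⟨l, rfl⟩
      have h1 : G ((e.symm l : ↥G.support) : Place K F) ≠ 0 :=
        Finsupp.mem_support_iff.1 (e.symm l).2
      exact (hG _).resolve_left h1
  · ext P
    rw [Finsupp.finsetSum_apply]
    simp only [Finsupp.single_apply]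
    by_cases hP : P ∈ G.support
    · have h1 : G P = 1 := (hG P).resolve_left (Finsupp.mem_support_iff.1 hP)
      rw [h1, Finset.sum_eq_single (e ⟨P, hP⟩)]
      · rw [if_pos (by simp only [Equiv.symm_apply_apply])]
      · intro l _ hl
        rw [if_neg]
        intro h
        apply hl
        have : e.symm l = ⟨P, hP⟩ := Subtype.ext h
        rw [← this, Equiv.apply_symm_apply]
      · intro h
        exact absurd (Finset.mem_univ _) h
    · have h1 : G P = 0 := by
        by_contra h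
        exact hP (Finsupp.mem_support_iff.2 h)
      rw [h1, Finset.sum_eq_zero]
      intro l _
      rw [if_neg]
      intro h
      exact hP (h ▸ (e.symm l).2)

/-- `L_K(A' + G) ⊆ 𝓕_W(R, A')` when `G` vanishes at the closed centres: the hypothesis `hq` of
LE5. -/
theorem s27isq_mem_F {N : ℕ} {W : ValuationSubring 𝔏} {R : Fin N → F →ₐ[K] 𝔏}
    {A' G : Divisor K F} (hC : ∀ i Q, S27ptIsCentre W (R i) Q → G Q = 0) {f : F}
    (hf : f ∈ riemannRochSpace (A' + G)) : f ∈ s27ptF W R A' := by
  intro Q i hQ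
  have h := hf Q
  rw [Finsupp.add_apply, hC i Q hQ, add_zero] at h
  exact h

variable [IsAlgClosed K] [CharZero K] [IsCurveOver K F] [Algebra.EssFiniteType K F]

/-- **LE-TOP rows 3 + 4**: the two-sided `G` in enumerated form, with the lattice bases. -/
theorem s27isq_two {N N' : ℕ} (W : ValuationSubring 𝔏)
    (hW : ∀ c : K, algebraMap K 𝔏 c ∈ W)
    (R : Fin N → F →ₐ[K] 𝔏) (hR : Function.Injective R)
    (R' : Fin N' → F →ₐ[K] 𝔏) (hR' : Function.Injective R') (A₁ A₂ : Divisor K F)
    (T : Finset (Place K F)) (d : ℕ) :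
    ∃ (m : ℕ) (Q : Fin m → Place K F) (φ : Fin N → F) (φ' : Fin N' → F),
      Function.Injective Q ∧ d ≤ m ∧
      (∀ l, Q l ∉ T) ∧ (∀ l, A₁ (Q l) = 0) ∧ (∀ l, A₂ (Q l) = 0) ∧
      (∀ l i, ¬ S27ptIsCentre W (R i) (Q l)) ∧ (∀ l i, ¬ S27ptIsCentre W (R' i) (Q l)) ∧
      (∀ j, φ j ∈ riemannRochSpace (A₁ + ∑ l, Finsupp.single (Q l) (1 : ℤ))) ∧
      S27ptIsLatBasis W R A₁ φ ∧
      (∀ j, φ' j ∈ riemannRochSpace (A₂ + ∑ l, Finsupp.single (Q l) (1 : ℤ))) ∧
      S27ptIsLatBasis W R' A₂ φ' := by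
  classical
  obtain ⟨x, hx, hfin⟩ := s27td_exists_of_isCurveOver (K := K) (F := F)
  haveI := hfin
  obtain ⟨G, φ, φ', hred, hdeg, hT, hA₁, hA₂, hC, hC', hφm, hφ, hφ'm, hφ'⟩ :=
    s27isu_cauchy_two W hW R hR R' hR' A₁ A₂ T d
  obtain ⟨m, Q, hQinj, hQmem, hGQ⟩ := s27isq_enum G hred
  have hQ1 : ∀ l, G (Q l) = 1 := fun l => (hQmem _).2 ⟨l, rfl⟩
  have hne : ∀ l, G (Q l) ≠ 0 := fun l => by rw [hQ1 l]; norm_num
  have hdegm : Divisor.degree G = (m : ℤ) := by
    rw [hGQ, map_sum]
    have h : ∀ l ∈ (Finset.univ : Finset (Fin m)),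
        Divisor.degree (Finsupp.single (Q l) (1 : ℤ)) = 1 := by
      intro l _
      rw [Divisor.degree_single, Fermat.Agent.S26.s26errg_deg_eq_one x hx (Q l)]
      norm_num
    rw [Finset.sum_congr rfl h]
    simp
  refine ⟨m, Q, φ, φ', hQinj, ?_, fun l h => hne l (hT _ h), fun l => ?_, fun l => ?_,
    fun l i h => hne l (hC i _ h), fun l i h => hne l (hC' i _ h), ?_, hφ, ?_, hφ'⟩
  · rw [hdegm] at hdeg
    exact_mod_cast hdeg
  · by_contra h
    exact hne l (hA₁ _ h)
  · by_contra h
    exact hne l (hA₂ _ h)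
  · rw [← hGQ]
    exact hφm
  · rw [← hGQ]
    exact hφ'm

end Fermat.Agent.S27

end
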