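/-
S27-B, LE-TOP row 5 (helper70; table of the LE-ALG hub helper60): **`hdim`** — adding points to a
NON-SPECIAL divisor adds exactly their number to `ℓ`.

`K` algebraically closed, `F / K` a function field of one variable (`x ∈ F` transcendental,
`[F : K(x)] < ∞`), `g = genusFF K F`.  A divisor `A` is non-special when
`ℓ(A) = deg A + 1 − g` (e.g. `A = B + Ao`, `deg Ao = g − 1`, with a `K`-basis of `L_K(A)` indexed
by `Fin N`, `N = deg B`).

* `s27ldm_hres`        : the residue fields of the places are `K` (`K` algebraically closed);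
* `s27ldm_add_nonneg`  : `A` non-special, `G ≥ 0`  ⇒  `ℓ(A + G) = ℓ(A) + deg G`
                         (`≤`: the one-point bound `ES.R.rr_finrank_le`; `≥`: Riemann's inequality
                         `s27rr_riemann_final`);  `s27ldm_nonspecial_add` : `A + G` is non-special;
* `s27ldm_degree_ppG`, `s27ldm_degree_llG` : `deg (Σ_l Q_l) = #κ`;
* **`s27ldm_hdim`**    : `finrank L_K(A + s27ppG Q) = finrank L_K(A) + #κ` — LITERALLY the
                         hypothesis `hdim` of `s27lli_exists_basis` / `s27lli_exists_basis_con`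
                         (S27/LeLeadInst.lean) and of `s27pp_surjective` (S27/LEPP.lean);
* **`s27ldm_hdim_llG`**: the same for `s27llG Q` (hypothesis `hdim` of `s27ll_place_basis`,
                         S27/LeLeadPlace.lean);
* `s27ldm_finite`      : the instance `Module.Finite K L_K(D)` of these statements;
* `s27ldm_nonspecial_of_basis`, `s27ldm_hdim_basis`, `s27ldm_hdim_llG_basis` : the same with
  the non-speciality given by a basis `Fin N` of `L_K(B + Ao)`, `deg B = N`, `deg Ao = g − 1`.
No injectivity of `Q` is needed.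
-/
import Fermat.Agent.S27.RR0Final
import Fermat.Agent.S27.LEPP
import Fermat.Agent.S27.LeLeadPlace
import Fermat.Agent.ES.RiemannGeneric

set_option autoImplicit false
set_option linter.style.haveILetI false
set_option linter.unusedSectionVars false
set_option linter.unusedVariables false

open AlgebraicCurve Module IntermediateField

namespace Fermat.Agent.S27

open Fermat.Agent.S26 Fermat.Agent.ES.R

variable {K : Type*} {F : Type*} [Field K] [Field F] [Algebra K F]

section Gen

variable [HasPrincipalDivisors K F]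

/-- **Abstract form**: Riemann's inequality with a constant `g`, all places of degree one, `A`
non-special, `G ≥ 0`  ⇒  `ℓ(A + G) = ℓ(A) + deg G`. -/
theorem s27ldm_add_nonneg_abs
    (hres : ∀ v : Place K F, Function.Bijective (algebraMap K v.ResidueField)) (g : ℤ)
    (hRI : ∀ D : Divisor K F,
      Divisor.degree D + 1 - g ≤ (finrank K ↥(riemannRochSpace D) : ℤ))
    (A G : Divisor K F) (hG : 0 ≤ G)
    (hA : (finrank K ↥(riemannRochSpace A) : ℤ) = Divisor.degree A + 1 - g) :
    (finrank K ↥(riemannRochSpace (A + G)) : ℤ) =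
      finrank K ↥(riemannRochSpace A) + Divisor.degree G := by
  have hle : A ≤ A + G := le_add_of_nonneg_right hG
  have h1 := rr_finrank_le hres hle
  have h2 := hRI (A + G)
  rw [map_add] at h1 h2
  linarith

end Gen

/-- the degree of `Σ_l Q_l` when the places have degree one. -/
theorem s27ldm_degree_sum
    (hres : ∀ v : Place K F, Function.Bijective (algebraMap K v.ResidueField))
    {κ : Type*} [Fintype κ] (Q : κ → Place K F) :
    Divisor.degree (∑ l, Finsupp.single (Q l) (1 : ℤ) : Divisor K F) = Fintype.card κ := by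
  classical
  rw [map_sum]
  have : ∀ l ∈ (Finset.univ : Finset κ),
      Divisor.degree (Finsupp.single (Q l) (1 : ℤ) : Divisor K F) = 1 := by
    intro l _
    rw [Divisor.degree_single, place_deg_eq_one (Q l) (hres (Q l))]
    norm_num
  rw [Finset.sum_congr rfl this]
  simp

theorem s27ldm_sum_nonneg {κ : Type*} [Fintype κ] (Q : κ → Place K F) :
    (0 : Divisor K F) ≤ ∑ l, Finsupp.single (Q l) (1 : ℤ) := by
  classical
  refine Finset.sum_nonneg fun l _ => ?_
  rw [Finsupp.le_def]
  intro v
  rw [Finsupp.single_apply]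
  split_ifs <;> simp

theorem s27ldm_ppG_eq {κ : Type*} [Fintype κ] (Q : κ → Place K F) :
    s27ppG Q = ∑ l, Finsupp.single (Q l) (1 : ℤ) := rfl

theorem s27ldm_llG_eq {κ : Type*} [Fintype κ] (Q : κ → Place K F) :
    s27llG Q = ∑ l, Finsupp.single (Q l) (1 : ℤ) := rfl

section Curve

variable [IsAlgClosed K] (x : F) (hx : Transcendental K x) [FiniteDimensional K⟮x⟯ F]

include hx

/-- over an algebraically closed field the residue fields of the places are `K`. -/
theorem s27ldm_hres (v : Place K F) : Function.Bijective (algebraMap K v.ResidueField) := by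
  haveI : Module.Finite K v.ResidueField := s26err_residue_finite x hx v
  haveI : Algebra.IsIntegral K v.ResidueField := Algebra.IsIntegral.of_finite K v.ResidueField
  exact IsAlgClosed.algebraMap_bijective_of_isIntegral

/-- the Riemann–Roch spaces are finite-dimensional. -/
theorem s27ldm_finite (D : Divisor K F) : Module.Finite K ↥(riemannRochSpace D) :=
  s26err_rr_finite' x hx D

/-- **`A` non-special, `G ≥ 0` ⇒ `ℓ(A + G) = ℓ(A) + deg G`.** -/
theorem s27ldm_add_nonneg (A G : Divisor K F) (hG : 0 ≤ G)
    (hA : (finrank K ↥(riemannRochSpace A) : ℤ) = Divisor.degree A + 1 - genusFF K F) :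
    (finrank K ↥(riemannRochSpace (A + G)) : ℤ) =
      finrank K ↥(riemannRochSpace A) + Divisor.degree G := by
  haveI := s26err_hasPrincipalDivisors (K := K) x hx
  exact s27ldm_add_nonneg_abs (s27ldm_hres x hx) (genusFF K F)
    (fun D => s27rr_riemann_final x hx D) A G hG hA

/-- `A` non-special, `G ≥ 0` ⇒ `A + G` is non-special. -/
theorem s27ldm_nonspecial_add (A G : Divisor K F) (hG : 0 ≤ G)
    (hA : (finrank K ↥(riemannRochSpace A) : ℤ) = Divisor.degree A + 1 - genusFF K F) :
    (finrank K ↥(riemannRochSpace (A + G)) : ℤ) =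
      Divisor.degree (A + G) + 1 - genusFF K F := by
  rw [s27ldm_add_nonneg x hx A G hG hA, hA, map_add]
  ring

theorem s27ldm_degree_ppG {κ : Type*} [Fintype κ] (Q : κ → Place K F) :
    Divisor.degree (s27ppG Q) = Fintype.card κ :=
  s27ldm_degree_sum (s27ldm_hres x hx) Q

theorem s27ldm_degree_llG {κ : Type*} [Fintype κ] (Q : κ → Place K F) :
    Divisor.degree (s27llG Q) = Fintype.card κ :=
  s27ldm_degree_sum (s27ldm_hres x hx) Q

/-- **LE-TOP row 5, `hdim`** (for `s27ppG`): `ℓ(A + Σ_l Q_l) = ℓ(A) + #κ` for a non-special `A`. -/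
theorem s27ldm_hdim (A : Divisor K F)
    (hA : (finrank K ↥(riemannRochSpace A) : ℤ) = Divisor.degree A + 1 - genusFF K F)
    {κ : Type*} [Fintype κ] (Q : κ → Place K F) :
    finrank K ↥(riemannRochSpace (A + s27ppG Q)) =
      finrank K ↥(riemannRochSpace A) + Fintype.card κ := by
  have h := s27ldm_add_nonneg x hx A (s27ppG Q) (s27ldm_sum_nonneg Q) hA
  rw [s27ldm_degree_ppG x hx Q] at h
  exact_mod_cast h

/-- **LE-TOP row 5, `hdim`** (for `s27llG`). -/
theorem s27ldm_hdim_llG (A : Divisor K F)
    (hA : (finrank K ↥(riemannRochSpace A) : ℤ) = Divisor.degree A + 1 - genusFF K F)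
    {κ : Type*} [Fintype κ] (Q : κ → Place K F) :
    finrank K ↥(riemannRochSpace (A + s27llG Q)) =
      finrank K ↥(riemannRochSpace A) + Fintype.card κ := by
  have h := s27ldm_add_nonneg x hx A (s27llG Q) (s27ldm_sum_nonneg Q) hA
  rw [s27ldm_degree_llG x hx Q] at h
  exact_mod_cast h

/-- non-speciality from a basis: `A = B + Ao`, `deg B = N`, `deg Ao = g − 1`, and a `K`-basis of
`L_K(A)` indexed by `Fin N`. -/
theorem s27ldm_nonspecial_of_basis {N : ℕ} (B Ao : Divisor K F)
    (hB : Divisor.degree B = N) (hAo : Divisor.degree Ao = (genusFF K F : ℤ) - 1)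
    (f : Module.Basis (Fin N) K ↥(riemannRochSpace (B + Ao))) :
    (finrank K ↥(riemannRochSpace (B + Ao)) : ℤ) =
      Divisor.degree (B + Ao) + 1 - genusFF K F := by
  rw [Module.finrank_eq_card_basis f, Fintype.card_fin, map_add, hB, hAo]
  ring

/-- **`hdim` on the stage** (for `s27ppG`): `A = B + Ao` with a basis `Fin N` of `L_K(A)`. -/
theorem s27ldm_hdim_basis {N : ℕ} (B Ao : Divisor K F)
    (hB : Divisor.degree B = N) (hAo : Divisor.degree Ao = (genusFF K F : ℤ) - 1)
    (f : Module.Basis (Fin N) K ↥(riemannRochSpace (B + Ao)))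
    {κ : Type*} [Fintype κ] (Q : κ → Place K F) :
    finrank K ↥(riemannRochSpace (B + Ao + s27ppG Q)) =
      finrank K ↥(riemannRochSpace (B + Ao)) + Fintype.card κ :=
  s27ldm_hdim x hx (B + Ao) (s27ldm_nonspecial_of_basis x hx B Ao hB hAo f) Q

/-- **`hdim` on the stage** (for `s27llG`). -/
theorem s27ldm_hdim_llG_basis {N : ℕ} (B Ao : Divisor K F)
    (hB : Divisor.degree B = N) (hAo : Divisor.degree Ao = (genusFF K F : ℤ) - 1)
    (f : Module.Basis (Fin N) K ↥(riemannRochSpace (B + Ao)))
    {κ : Type*} [Fintype κ] (Q : κ → Place K F) :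
    finrank K ↥(riemannRochSpace (B + Ao + s27llG Q)) =
      finrank K ↥(riemannRochSpace (B + Ao)) + Fintype.card κ :=
  s27ldm_hdim_llG x hx (B + Ao) (s27ldm_nonspecial_of_basis x hx B Ao hB hAo f) Q

end Curve

end Fermat.Agent.S27
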