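/-
S27-B, leaf **LE2 (GAUSS)** of NOTES/S27-LE.md (hub helper95) = leaf **LB1** of helper60's LE(b)
decomposition (helper21).  On helper12's Gauss reduction of a constant curve
(S26/ERedGauss.lean: `K ⊆ Γ` the function field, `K ⊆ V ⊂ L` a valuation ring of the field of
coefficients, `F = Frac (L ⊗[K] Γ)`, `O = s26ergO`, `red = s26ergRed`):

(a) **the Gauss lattice**: for `s ∈ L ⊗[K] Γ`, `s ∈ O ↔ s` comes from `V ⊗[K] Γ`
    (`s27leg_mem_O_iff_range`); in coordinates, for a `K`-linearly independent family `x : ι → Γ`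
    and `c : ι →₀ L`:  `∑ c i ⊗ x i ∈ O ↔ ∀ i, c i ∈ V`  (`s27leg_sum_mem_O_iff`), and the reduction
    of such a sum is nonzero iff some `c i` is a unit (`s27leg_sum_red_ne_zero_iff`);
    `L ∩ O = V` (`s27leg_algebraMap_mem_iff`);
(b) **normalised elements** `s27legNorm` (`∈ O`, `red ≠ 0`) `=` the units of `O`
    (`s27leg_norm_iff`): products and inverses of normalised elements are normalised, every
    `f ≠ 0` is `c · (normalised)`, `c ∈ Lˣ`, and `c` is unique up to `Vˣ`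
    (`s27leg_norm_mul`, `s27leg_norm_inv`, `s27leg_exists_norm`, `s27leg_norm_unique`);
(c) **the lattice transport**: `h` normalised, `S, S′ ⊆ F` with `p ∈ S ↔ h p ∈ S′`, both inside
    the `L`-span `X_L` of the `x i` ⇒ `p ∈ S ∩ X_V ↔ h p ∈ S′ ∩ X_V` (`s27leg_transport`).
-/
import Fermat.Agent.S26.ERedGauss

set_option autoImplicit false
set_option linter.unusedSectionVars false

noncomputable section

namespace Fermat.Agent.S27

open TensorProduct Module Fermat.Agent.S26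

variable {K : Type*} [Field K] {L : Type*} [Field L] [Algebra K L]
  {Γ : Type*} [Field Γ] [Algebra K Γ]
  {V : ValuationSubring L} [Algebra K ↥V] [IsScalarTower K ↥V L]
  {k : Type*} [Field k] [Algebra K k] {res : ↥V →ₐ[K] k}
  {F : Type*} [Field F] [Algebra L F] [Algebra (L ⊗[K] Γ) F]
  [IsScalarTower L (L ⊗[K] Γ) F] [IsFractionRing (L ⊗[K] Γ) F]
  {Fb : Type*} [Field Fb] [Algebra k Fb] [Algebra (k ⊗[K] Γ) Fb]
  [IsScalarTower k (k ⊗[K] Γ) Fb]

/-! ### the residue map kills the non-units -/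

/-- a surjective ring homomorphism from a valuation ring onto a field kills the non-units -/
theorem s27leg_res_eq_zero {k' : Type*} [Field k'] (r : ↥V →+* k') (hr : Function.Surjective r)
    (v : ↥V) (hv : (v : L)⁻¹ ∉ V) : r v = 0 := by
  by_contra h0
  obtain ⟨w, hw⟩ := hr (r v)⁻¹
  have h1 : r (v * w) = 1 := by rw [map_mul, hw, mul_inv_cancel₀ h0]
  rcases IsLocalRing.isUnit_or_isUnit_one_sub_self (v * w) with h | h
  · have hu : IsUnit v := isUnit_of_mul_isUnit_left h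
    obtain ⟨u, hu'⟩ := hu.exists_right_inv
    apply hv
    have h2 : (v : L) * (u : L) = 1 := by
      have := congrArg (fun z : ↥V => (z : L)) hu'
      simpa using this
    have h3 : (v : L)⁻¹ = (u : L) := by
      rw [inv_eq_iff_eq_inv]
      exact eq_inv_of_mul_eq_one_left h2
    rw [h3]
    exact u.2
  · have h2 : r (1 - v * w) = 0 := by rw [map_sub, map_one, h1, sub_self]
    exact (h.map r).ne_zero h2

/-! ### (a) the Gauss lattice -/

/-- `J ((v ⊗ 1) * t) = v • J t` -/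
theorem s27leg_J_const_mul (v : ↥V) (t : ↥V ⊗[K] Γ) :
    s26ergJ K Γ V ((v ⊗ₜ[K] (1 : Γ)) * t) = (v : L) • s26ergJ K Γ V t := by
  rw [map_mul, s26ergJ_tmul, Algebra.smul_def, Algebra.TensorProduct.algebraMap_apply]
  rfl

/-- **(a), one direction**: an element of `L ⊗[K] Γ` which is Gauss-integral comes from
`V ⊗[K] Γ`. -/
theorem s27leg_exists_J_of_mem (hres : Function.Surjective res)
    (hFb : Function.Injective (algebraMap (k ⊗[K] Γ) Fb)) (s : L ⊗[K] Γ)
    (hs : algebraMap (L ⊗[K] Γ) F s ∈ s26ergO K Γ V res F Fb) :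
    ∃ t : ↥V ⊗[K] Γ, s26ergJ K Γ V t = s := by
  rcases eq_or_ne s 0 with rfl | hs0
  · exact ⟨0, map_zero _⟩
  obtain ⟨c, t, hc, ht, hρ⟩ := s26erg_scale_tensor K Γ V res s hs0
  obtain ⟨a, b, hb, hab⟩ := hs
  by_cases hcV : c⁻¹ ∈ V
  · refine ⟨((⟨c⁻¹, hcV⟩ : ↥V) ⊗ₜ[K] (1 : Γ)) * t, ?_⟩
    rw [s27leg_J_const_mul, ht, smul_smul]
    show (c⁻¹ * c) • s = s
    rw [inv_mul_cancel₀ hc, one_smul]
  · exfalso
    have hcV' : c ∈ V := by
      rcases V.mem_or_inv_mem c with h | h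
      · exact h
      · exact absurd h hcV
    have hres0 : res ⟨c, hcV'⟩ = 0 :=
      s27leg_res_eq_zero (res : ↥V →+* k) hres ⟨c, hcV'⟩ hcV
    -- `ι (t * b) = ι ((c ⊗ 1) * a)`
    have h1 : s26ergIota K Γ V F (t * b) =
        s26ergIota K Γ V F (((⟨c, hcV'⟩ : ↥V) ⊗ₜ[K] (1 : Γ)) * a) := by
      rw [map_mul, map_mul, s26ergIota_const, s26ergIota_of_J ht, ← hab]
      ring
    have h2 : t * b = ((⟨c, hcV'⟩ : ↥V) ⊗ₜ[K] (1 : Γ)) * a := s26ergIota_injective K Γ V F h1
    have h3 : s26ergBar K Γ V res Fb t * s26ergBar K Γ V res Fb b = 0 := by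
      rw [← map_mul, h2, map_mul, s26ergBar_const, hres0, map_zero, zero_mul]
    have ht' : s26ergBar K Γ V res Fb t ≠ 0 := fun h =>
      hρ ((s26ergBar_eq_zero_iff K Γ V res hFb t).mp h)
    exact mul_ne_zero ht' hb h3

/-- **(a)**: `(L ⊗[K] Γ) ∩ O = V ⊗[K] Γ`. -/
theorem s27leg_mem_O_iff_range (hres : Function.Surjective res)
    (hFb : Function.Injective (algebraMap (k ⊗[K] Γ) Fb)) (s : L ⊗[K] Γ) :
    algebraMap (L ⊗[K] Γ) F s ∈ s26ergO K Γ V res F Fb ↔ ∃ t : ↥V ⊗[K] Γ, s26ergJ K Γ V t = s := by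
  constructor
  · exact s27leg_exists_J_of_mem hres hFb s
  · rintro ⟨t, rfl⟩
    exact s26ergIota_mem_O t

/-- `L ∩ O = V` -/
theorem s27leg_algebraMap_mem_iff (hres : Function.Surjective res)
    (hFb : Function.Injective (algebraMap (k ⊗[K] Γ) Fb)) (c : L) :
    algebraMap L F c ∈ s26ergO K Γ V res F Fb ↔ c ∈ V := by
  constructor
  · intro h
    rw [IsScalarTower.algebraMap_apply L (L ⊗[K] Γ) F] at h
    obtain ⟨t, ht⟩ := s27leg_exists_J_of_mem hres hFb _ h
    by_contra hc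
    -- scale: `c⁻¹ ∈ V` is a non-unit, so `1 = c⁻¹ * c` reduces to `0`
    have hc0 : c ≠ 0 := by
      rintro rfl
      exact hc V.zero_mem
    have hci : c⁻¹ ∈ V := by
      rcases V.mem_or_inv_mem c with h' | h'
      · exact absurd h' hc
      · exact h'
    have hres0 : res ⟨c⁻¹, hci⟩ = 0 :=
      s27leg_res_eq_zero (res : ↥V →+* k) hres ⟨c⁻¹, hci⟩ (by rw [inv_inv]; exact hc)
    have h1 : s26ergJ K Γ V (((⟨c⁻¹, hci⟩ : ↥V) ⊗ₜ[K] (1 : Γ)) * t) = s26ergJ K Γ V 1 := by
      rw [s27leg_J_const_mul, ht, Algebra.TensorProduct.algebraMap_apply, map_one,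
        TensorProduct.smul_tmul']
      show (c⁻¹ * c) ⊗ₜ[K] (1 : Γ) = 1
      rw [inv_mul_cancel₀ hc0]
      rfl
    have h2 := s26ergJ_injective K Γ V h1
    have h3 := congrArg (s26ergBar K Γ V res Fb) h2
    rw [map_mul, s26ergBar_const, hres0, map_zero, zero_mul, map_one] at h3
    exact zero_ne_one h3
  · intro h
    exact s26erg_algebraMap_mem (K := K) (Γ := Γ) (res := res) (Fb := Fb) ⟨c, h⟩

/-! ### (a) in coordinates -/

section Coord

variable {ι : Type*} (x : ι → Γ)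

/-- the element `∑ c i ⊗ x i` of `L ⊗[K] Γ` -/
def s27legSum (c : ι →₀ L) : L ⊗[K] Γ := c.sum fun i a => a ⊗ₜ[K] x i

/-- the element `∑ c i ⊗ x i` of `V ⊗[K] Γ` -/
def s27legSumV (c : ι →₀ ↥V) : ↥V ⊗[K] Γ := c.sum fun i a => a ⊗ₜ[K] x i

theorem s27legSum_zero : s27legSum (K := K) x (0 : ι →₀ L) = 0 := Finsupp.sum_zero_index

theorem s27leg_J_sumV (c : ι →₀ ↥V) :
    s26ergJ K Γ V (s27legSumV x c) = s27legSum x (s26ergUp V c) := by
  classical
  rw [s27legSumV, s27legSum, Finsupp.sum, map_sum, s26ergUp, Finsupp.sum_mapRange_index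
    (fun i => by rw [zero_tmul])]
  rfl

theorem s27leg_rho_sumV (c : ι →₀ ↥V) :
    s26ergRho K Γ V res (s27legSumV x c) =
      (s26ergDown V (res : ↥V →+* k) c).sum fun i a => a ⊗ₜ[K] x i := by
  classical
  rw [s27legSumV, Finsupp.sum, map_sum, s26ergDown, Finsupp.sum_mapRange_index
    (fun i => by rw [zero_tmul])]
  rfl

/-- the coordinates of `∑ c i ⊗ x i` in a basis extending `x` -/
theorem s27leg_repr_sum (hx : LinearIndependent K x) (A : Type*) [CommRing A] [Algebra K A]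
    (c : ι →₀ A) (j : ι) :
    (Algebra.TensorProduct.basis A (Basis.extend hx.linearIndepOn_id)).repr
      (c.sum fun i a => a ⊗ₜ[K] x i)
      ⟨x j, Basis.subset_extend hx.linearIndepOn_id (Set.mem_range_self j)⟩ = c j := by
  classical
  set b := Basis.extend hx.linearIndepOn_id with hb
  have hmem : ∀ i, x i ∈ hx.linearIndepOn_id.extend (Set.subset_univ _) := fun i =>
    Basis.subset_extend hx.linearIndepOn_id (Set.mem_range_self i)
  have hbx : ∀ i, b ⟨x i, hmem i⟩ = x i := fun i => Basis.extend_apply_self _ _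
  have key : ∀ (i : ι) (a : A), (Algebra.TensorProduct.basis A b).repr (a ⊗ₜ[K] x i)
      ⟨x j, hmem j⟩ = if i = j then a else 0 := by
    intro i a
    rw [Algebra.TensorProduct.basis_repr_tmul, ← hbx i, Basis.repr_self, Finsupp.smul_apply,
      Finsupp.mapRange_apply, Finsupp.single_apply, smul_eq_mul]
    by_cases hij : i = j
    · subst hij
      rw [if_pos rfl, if_pos rfl, map_one, mul_one]
    · rw [if_neg hij, if_neg, map_zero, mul_zero]
      intro h
      apply hij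
      apply hx.injective
      exact congrArg Subtype.val h
  rw [Finsupp.sum, map_sum, Finsupp.finsetSum_apply]
  simp_rw [key]
  rw [Finset.sum_ite_eq' c.support j]
  split_ifs with h
  · rfl
  · exact (Finsupp.notMem_support_iff.mp h).symm

/-- **(a) in coordinates**: for a `K`-linearly independent family `x`, the sum `∑ c i ⊗ x i` is
Gauss-integral iff all the coefficients lie in `V`. -/
theorem s27leg_sum_mem_O_iff (hres : Function.Surjective res)
    (hFb : Function.Injective (algebraMap (k ⊗[K] Γ) Fb)) (hx : LinearIndependent K x)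
    (c : ι →₀ L) :
    algebraMap (L ⊗[K] Γ) F (s27legSum x c) ∈ s26ergO K Γ V res F Fb ↔ ∀ i, c i ∈ V := by
  constructor
  · intro h j
    obtain ⟨t, ht⟩ := s27leg_exists_J_of_mem hres hFb _ h
    have h1 := s27leg_repr_sum x hx L c j
    rw [← s27legSum, ← ht, s26erg_repr_J K Γ V (Basis.extend hx.linearIndepOn_id) t,
      s26ergUp_apply] at h1
    rw [← h1]
    exact Subtype.property _
  · intro h
    obtain ⟨e, he⟩ := s26erg_exists_up V c h
    rw [← he, ← s27leg_J_sumV]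
    exact s26ergIota_mem_O _

/-- the sum with coefficients in `V`, as an element of `O` -/
theorem s27leg_sumV_mem (c : ι →₀ ↥V) :
    algebraMap (L ⊗[K] Γ) F (s27legSum x (s26ergUp V c)) ∈ s26ergO K Γ V res F Fb := by
  rw [← s27leg_J_sumV]
  exact s26ergIota_mem_O _

/-- the reduction of `∑ c i ⊗ x i`, `c i ∈ V` -/
theorem s27leg_sum_red (c : ι →₀ ↥V) :
    s26ergRed K Γ V res F Fb ⟨_, s27leg_sumV_mem (res := res) (Fb := Fb) x c⟩ =
      algebraMap (k ⊗[K] Γ) Fb
        ((s26ergDown V (res : ↥V →+* k) c).sum fun i a => a ⊗ₜ[K] x i) := by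
  rw [← s27leg_rho_sumV]
  have h := s26erg_red_iota (K := K) (Γ := Γ) (V := V) (res := res) (F := F) (Fb := Fb)
    (s27legSumV x c)
  have e : (⟨algebraMap (L ⊗[K] Γ) F (s27legSum x (s26ergUp V c)),
      s27leg_sumV_mem (res := res) (Fb := Fb) x c⟩ : s26ergO K Γ V res F Fb) =
      ⟨s26ergIota K Γ V F (s27legSumV x c), s26ergIota_mem_O _⟩ := by
    apply Subtype.ext
    show algebraMap (L ⊗[K] Γ) F (s27legSum x (s26ergUp V c)) =
      algebraMap (L ⊗[K] Γ) F (s26ergJ K Γ V (s27legSumV x c))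
    rw [s27leg_J_sumV]
  rw [e, h]
  rfl

/-- **normalisation in coordinates**: the reduction of `∑ c i ⊗ x i` (`c i ∈ V`) is nonzero iff
some `c i` has nonzero residue. -/
theorem s27leg_sum_red_ne_zero_iff (hFb : Function.Injective (algebraMap (k ⊗[K] Γ) Fb))
    (hx : LinearIndependent K x) (c : ι →₀ ↥V) :
    s26ergRed K Γ V res F Fb ⟨_, s27leg_sumV_mem (res := res) (Fb := Fb) x c⟩ ≠ 0 ↔
      ∃ i, res (c i) ≠ 0 := by
  rw [s27leg_sum_red, Ne, map_eq_zero_iff _ hFb]
  constructor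
  · intro h
    by_contra hne
    apply h
    have : s26ergDown V (res : ↥V →+* k) c = 0 := by
      ext i
      rw [s26ergDown_apply, Finsupp.zero_apply]
      by_contra hi
      exact hne ⟨i, hi⟩
    rw [this, Finsupp.sum_zero_index]
  · rintro ⟨j, hj⟩ h0
    have h1 := s27leg_repr_sum x hx k (s26ergDown V (res : ↥V →+* k) c) j
    rw [h0, map_zero, Finsupp.zero_apply, s26ergDown_apply] at h1
    exact hj h1.symm

end Coord

/-! ### (b) normalised elements -/

variable (K Γ V res Fb) in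
/-- `f ∈ F` is **Gauss-normalised**: `f ∈ O` and `red f ≠ 0`. -/
def s27legNorm (f : F) : Prop :=
  ∃ h : f ∈ s26ergO K Γ V res F Fb, s26ergRed K Γ V res F Fb ⟨f, h⟩ ≠ 0

theorem s27leg_norm_mem {f : F} (hf : s27legNorm K Γ V res Fb f) :
    f ∈ s26ergO K Γ V res F Fb := hf.1

theorem s27leg_norm_ne_zero {f : F} (hf : s27legNorm K Γ V res Fb f) : f ≠ 0 := by
  rintro rfl
  obtain ⟨h, hr⟩ := hf
  apply hr
  exact map_zero (s26ergRed K Γ V res F Fb)

theorem s27leg_norm_one : s27legNorm K Γ V res Fb (1 : F) :=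
  ⟨Subring.one_mem _, by
    rw [show (⟨1, Subring.one_mem _⟩ : s26ergO K Γ V res F Fb) = 1 from rfl, map_one]
    exact one_ne_zero⟩

/-- **(b)** products of normalised elements are normalised -/
theorem s27leg_norm_mul {f g : F} (hf : s27legNorm K Γ V res Fb f)
    (hg : s27legNorm K Γ V res Fb g) : s27legNorm K Γ V res Fb (f * g) := by
  obtain ⟨hf1, hf2⟩ := hf
  obtain ⟨hg1, hg2⟩ := hg
  refine ⟨Subring.mul_mem _ hf1 hg1, ?_⟩
  rw [show (⟨f * g, Subring.mul_mem _ hf1 hg1⟩ : s26ergO K Γ V res F Fb) =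
    ⟨f, hf1⟩ * ⟨g, hg1⟩ from rfl, map_mul]
  exact mul_ne_zero hf2 hg2

/-- **(b)** the inverse of a normalised element is normalised -/
theorem s27leg_norm_inv {f : F} (hf : s27legNorm K Γ V res Fb f) :
    s27legNorm K Γ V res Fb f⁻¹ := by
  have hf0 := s27leg_norm_ne_zero hf
  obtain ⟨hf1, hf2⟩ := hf
  have hi : f⁻¹ ∈ s26ergO K Γ V res F Fb := s26erg_inv_mem ⟨f, hf1⟩ hf2
  refine ⟨hi, fun h0 => ?_⟩
  have h1 : (⟨f, hf1⟩ : s26ergO K Γ V res F Fb) * ⟨f⁻¹, hi⟩ = 1 := by
    apply Subtype.ext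
    show f * f⁻¹ = 1
    exact mul_inv_cancel₀ hf0
  have h2 := congrArg (s26ergRed K Γ V res F Fb) h1
  rw [map_mul, h0, mul_zero, map_one] at h2
  exact zero_ne_one h2

/-- **normalised `=` unit of `O`** -/
theorem s27leg_norm_iff {f : F} :
    s27legNorm K Γ V res Fb f ↔
      f ∈ s26ergO K Γ V res F Fb ∧ f⁻¹ ∈ s26ergO K Γ V res F Fb ∧ f ≠ 0 := by
  constructor
  · intro hf
    exact ⟨hf.1, (s27leg_norm_inv hf).1, s27leg_norm_ne_zero hf⟩
  · rintro ⟨h1, h2, h0⟩
    refine ⟨h1, fun hr => ?_⟩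
    have h3 : (⟨f, h1⟩ : s26ergO K Γ V res F Fb) * ⟨f⁻¹, h2⟩ = 1 := by
      apply Subtype.ext
      show f * f⁻¹ = 1
      exact mul_inv_cancel₀ h0
    have h4 := congrArg (s26ergRed K Γ V res F Fb) h3
    rw [map_mul, hr, zero_mul, map_one] at h4
    exact zero_ne_one h4

/-- **(b)** every nonzero element is a constant multiple of a normalised element -/
theorem s27leg_exists_norm (hFb : Function.Injective (algebraMap (k ⊗[K] Γ) Fb))
    (f : F) (hf : f ≠ 0) :
    ∃ c : L, c ≠ 0 ∧ s27legNorm K Γ V res Fb (algebraMap L F c * f) := by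
  obtain ⟨c, hc, h, hr⟩ := s26erg_exists_scale_F (K := K) (Γ := Γ) (V := V) (res := res)
    (Fb := Fb) hFb f hf
  exact ⟨c, hc, h, hr⟩

/-- a constant is normalised iff it is a unit of `V` -/
theorem s27leg_norm_algebraMap_iff (hres : Function.Surjective res)
    (hFb : Function.Injective (algebraMap (k ⊗[K] Γ) Fb)) (c : L) :
    s27legNorm K Γ V res Fb (algebraMap L F c) ↔ c ∈ V ∧ c⁻¹ ∈ V ∧ c ≠ 0 := by
  rw [s27leg_norm_iff, s27leg_algebraMap_mem_iff hres hFb, ← map_inv₀,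
    s27leg_algebraMap_mem_iff hres hFb, map_ne_zero]

/-- **(b)** the normalising constant is unique up to a unit of `V` -/
theorem s27leg_norm_unique (hres : Function.Surjective res)
    (hFb : Function.Injective (algebraMap (k ⊗[K] Γ) Fb)) {f : F} {c d : L}
    (hc : s27legNorm K Γ V res Fb (algebraMap L F c * f))
    (hd : s27legNorm K Γ V res Fb (algebraMap L F d * f)) :
    c / d ∈ V ∧ d / c ∈ V := by
  have hcf := s27leg_norm_ne_zero hc
  have hdf := s27leg_norm_ne_zero hd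
  have hf0 : f ≠ 0 := right_ne_zero_of_mul hcf
  have hc0 : algebraMap L F c ≠ 0 := left_ne_zero_of_mul hcf
  have hd0 : algebraMap L F d ≠ 0 := left_ne_zero_of_mul hdf
  have h1 : s27legNorm K Γ V res Fb (algebraMap L F (c / d)) := by
    have := s27leg_norm_mul hc (s27leg_norm_inv hd)
    have e : algebraMap L F c * f * (algebraMap L F d * f)⁻¹ = algebraMap L F (c / d) := by
      rw [map_div₀]
      field_simp
    rwa [e] at this
  have h2 := (s27leg_norm_algebraMap_iff hres hFb (c / d)).mp h1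
  refine ⟨h2.1, ?_⟩
  have := h2.2.1
  rwa [inv_div] at this

/-! ### (c) the transport of lattices -/

/-- **(c)**: multiplication by a normalised `h` preserves Gauss-integrality. -/
theorem s27leg_norm_mul_mem_iff {h : F} (hh : s27legNorm K Γ V res Fb h) (p : F) :
    h * p ∈ s26ergO K Γ V res F Fb ↔ p ∈ s26ergO K Γ V res F Fb := by
  constructor
  · intro hp
    have h1 := Subring.mul_mem _ (s27leg_norm_inv hh).1 hp
    rwa [← mul_assoc, inv_mul_cancel₀ (s27leg_norm_ne_zero hh), one_mul] at h1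
  · intro hp
    exact Subring.mul_mem _ hh.1 hp

/-- **(c) the transport of lattices**: let `X ⊆ F` (the `L`-span of `K`-independent functions),
`S, S′ ⊆ X` with `p ∈ S ↔ h p ∈ S′`, `h` normalised.  Then multiplication by `h` identifies the
lattices `S ∩ O` and `S′ ∩ O`. -/
theorem s27leg_transport {h : F} (hh : s27legNorm K Γ V res Fb h) (S S' : Set F)
    (hS : ∀ p, p ∈ S ↔ h * p ∈ S') (p : F) :
    (p ∈ S ∧ p ∈ s26ergO K Γ V res F Fb) ↔ (h * p ∈ S' ∧ h * p ∈ s26ergO K Γ V res F Fb) := by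
  rw [hS p, s27leg_norm_mul_mem_iff hh p]

/-- **(c), onto**: every element of `S′ ∩ O` is `h · p` with `p ∈ S ∩ O`. -/
theorem s27leg_transport_surj {h : F} (hh : s27legNorm K Γ V res Fb h) (S S' : Set F)
    (hS : ∀ p, p ∈ S ↔ h * p ∈ S') (q : F) (hq : q ∈ S')
    (hqO : q ∈ s26ergO K Γ V res F Fb) :
    ∃ p, p ∈ S ∧ p ∈ s26ergO K Γ V res F Fb ∧ h * p = q := by
  have h0 := s27leg_norm_ne_zero hh
  have e : h * (h⁻¹ * q) = q := by rw [← mul_assoc, mul_inv_cancel₀ h0, one_mul]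
  refine ⟨h⁻¹ * q, ?_, ?_, e⟩
  · rw [hS, e]
    exact hq
  · exact Subring.mul_mem _ (s27leg_norm_inv hh).1 hqO

end Fermat.Agent.S27
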