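/-
S27-B, leaf **LE2 (GAUSS)**, generic part (helper21): the calculus of **normalised elements** and
the **transport of lattices** for an arbitrary reduction datum `R : DEU.RedData L F k Fb`
(`R.A = W ⊂ L` the valuation ring of the constants, `R.O ⊂ F` the Gauss-integral elements).
No geometry: only the fields of `RedData`.

* `S27legrNorm R f` : `f ∈ R.O` and `R.red f ≠ 0` (`f` is Gauss-normalised); products, inverses,
  `s27legr_norm_iff` (normalised `=` unit of `R.O`), `s27legr_exists_norm` (every `f ≠ 0` is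
  `c · normalised`), `s27legr_norm_mul_mem_iff`;
* `s27legrLin x p = ∑ j, p j · x j` (`x : J → F`, `p : J → L`) and the **Gauss lattice property**
  `S27legrLat R x : ∀ p, ∑ p j · x j ∈ R.O ↔ ∀ j, p j ∈ R.A`
  (proved for the Gauss reduction of a constant curve and `K`-independent functions in
  S27/LEGauss.lean, S27/LEGaussI.lean);
* `s27legr_coord_transport` : `h` normalised, `h · ∑ p j x j = ∑ p′ j x′ j` ⇒
  (`p` integral `↔` `p′` integral);
* `s27legr_h12`, `s27legr_h21` : the hypotheses `h12`, `h21` of the LE5 assembly (helper27), from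
  (LinEq in coordinates) + (tails).
-/
import Fermat.Agent.DEU.Defs

set_option autoImplicit false
set_option linter.unusedSectionVars false

noncomputable section

namespace Fermat.Agent.S27

open Fermat.Agent.DEU

variable {L F k Fb : Type*} [Field L] [Field F] [Algebra L F] [Field k] [Field Fb] [Algebra k Fb]
  (R : RedData L F k Fb)

/-! ### normalised elements -/

/-- `f` is **Gauss-normalised** for `R`: `f ∈ R.O` and `R.red f ≠ 0`. -/
def S27legrNorm (f : F) : Prop := ∃ h : f ∈ R.O, R.red ⟨f, h⟩ ≠ 0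

variable {R}

theorem s27legr_norm_mem {f : F} (hf : S27legrNorm R f) : f ∈ R.O := hf.1

theorem s27legr_norm_ne_zero {f : F} (hf : S27legrNorm R f) : f ≠ 0 := by
  rintro rfl
  obtain ⟨h, hr⟩ := hf
  exact hr (map_zero R.red)

theorem s27legr_norm_one : S27legrNorm R (1 : F) :=
  ⟨Subring.one_mem _, by
    rw [show (⟨1, Subring.one_mem _⟩ : R.O) = 1 from rfl, map_one]
    exact one_ne_zero⟩

/-- products of normalised elements are normalised -/
theorem s27legr_norm_mul {f g : F} (hf : S27legrNorm R f) (hg : S27legrNorm R g) :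
    S27legrNorm R (f * g) := by
  obtain ⟨hf1, hf2⟩ := hf
  obtain ⟨hg1, hg2⟩ := hg
  refine ⟨Subring.mul_mem _ hf1 hg1, ?_⟩
  rw [show (⟨f * g, Subring.mul_mem _ hf1 hg1⟩ : R.O) = ⟨f, hf1⟩ * ⟨g, hg1⟩ from rfl, map_mul]
  exact mul_ne_zero hf2 hg2

/-- the inverse of a normalised element is normalised -/
theorem s27legr_norm_inv {f : F} (hf : S27legrNorm R f) : S27legrNorm R f⁻¹ := by
  have hf0 := s27legr_norm_ne_zero hf
  obtain ⟨hf1, hf2⟩ := hf
  have hi : f⁻¹ ∈ R.O := R.inv_mem ⟨f, hf1⟩ hf2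
  refine ⟨hi, fun h0 => ?_⟩
  have h1 : (⟨f, hf1⟩ : R.O) * ⟨f⁻¹, hi⟩ = 1 := by
    apply Subtype.ext
    show f * f⁻¹ = 1
    exact mul_inv_cancel₀ hf0
  have h2 := congrArg R.red h1
  rw [map_mul, h0, mul_zero, map_one] at h2
  exact zero_ne_one h2

/-- **normalised `=` unit of `R.O`** -/
theorem s27legr_norm_iff {f : F} :
    S27legrNorm R f ↔ f ∈ R.O ∧ f⁻¹ ∈ R.O ∧ f ≠ 0 := by
  constructor
  · intro hf
    exact ⟨hf.1, (s27legr_norm_inv hf).1, s27legr_norm_ne_zero hf⟩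
  · rintro ⟨h1, h2, h0⟩
    refine ⟨h1, fun hr => ?_⟩
    have h3 : (⟨f, h1⟩ : R.O) * ⟨f⁻¹, h2⟩ = 1 := by
      apply Subtype.ext
      show f * f⁻¹ = 1
      exact mul_inv_cancel₀ h0
    have h4 := congrArg R.red h3
    rw [map_mul, hr, zero_mul, map_one] at h4
    exact zero_ne_one h4

theorem s27legr_norm_div {f g : F} (hf : S27legrNorm R f) (hg : S27legrNorm R g) :
    S27legrNorm R (f / g) := by
  rw [div_eq_mul_inv]
  exact s27legr_norm_mul hf (s27legr_norm_inv hg)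

variable (R) in
/-- every nonzero element is a constant multiple of a normalised element -/
theorem s27legr_exists_norm (f : F) (hf : f ≠ 0) :
    ∃ c : L, c ≠ 0 ∧ S27legrNorm R (algebraMap L F c * f) := by
  obtain ⟨c, hc, h, hr⟩ := R.exists_scale f hf
  exact ⟨c, hc, h, hr⟩

/-- the units of `R.A` are normalised -/
theorem s27legr_norm_algebraMap {c : L} (hc : c ∈ R.A) (hci : c⁻¹ ∈ R.A) (hc0 : c ≠ 0) :
    S27legrNorm R (algebraMap L F c) := by
  rw [s27legr_norm_iff]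
  refine ⟨R.algebraMap_mem ⟨c, hc⟩, ?_, (map_ne_zero _).mpr hc0⟩
  rw [← map_inv₀]
  exact R.algebraMap_mem ⟨c⁻¹, hci⟩

/-- multiplication by a normalised `h` preserves Gauss-integrality -/
theorem s27legr_norm_mul_mem_iff {h : F} (hh : S27legrNorm R h) (p : F) :
    h * p ∈ R.O ↔ p ∈ R.O := by
  constructor
  · intro hp
    have h1 := Subring.mul_mem _ (s27legr_norm_inv hh).1 hp
    rwa [← mul_assoc, inv_mul_cancel₀ (s27legr_norm_ne_zero hh), one_mul] at h1
  · intro hp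
    exact Subring.mul_mem _ hh.1 hp

/-- **the transport of lattices**: `p ∈ S ↔ h p ∈ S′`, `h` normalised ⇒ multiplication by `h`
identifies `S ∩ R.O` with `S′ ∩ R.O`. -/
theorem s27legr_transport {h : F} (hh : S27legrNorm R h) (S S' : Set F)
    (hS : ∀ p, p ∈ S ↔ h * p ∈ S') (p : F) :
    (p ∈ S ∧ p ∈ R.O) ↔ (h * p ∈ S' ∧ h * p ∈ R.O) := by
  rw [hS p, s27legr_norm_mul_mem_iff hh p]

/-- … and it is onto -/
theorem s27legr_transport_surj {h : F} (hh : S27legrNorm R h) (S S' : Set F)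
    (hS : ∀ p, p ∈ S ↔ h * p ∈ S') (q : F) (hq : q ∈ S') (hqO : q ∈ R.O) :
    ∃ p, p ∈ S ∧ p ∈ R.O ∧ h * p = q := by
  have h0 := s27legr_norm_ne_zero hh
  have e : h * (h⁻¹ * q) = q := by rw [← mul_assoc, mul_inv_cancel₀ h0, one_mul]
  refine ⟨h⁻¹ * q, ?_, ?_, e⟩
  · rw [hS, e]
    exact hq
  · exact Subring.mul_mem _ (s27legr_norm_inv hh).1 hqO

/-! ### coordinates -/

section Coord

variable {J J' : Type*} [Fintype J] [Fintype J']

/-- `∑ j, p j · x j` -/
def s27legrLin (x : J → F) (p : J → L) : F := ∑ j, algebraMap L F (p j) * x j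

variable (R) in
/-- **the Gauss lattice property** of a family `x` of functions: a combination `∑ p j · x j` with
coefficients in `L` is Gauss-integral iff all the coefficients lie in `W = R.A`. -/
def S27legrLat (x : J → F) : Prop :=
  ∀ p : J → L, s27legrLin x p ∈ R.O ↔ ∀ j, p j ∈ R.A

/-- **LE2 in coordinates**: `h` normalised and `h · ∑ p j x j = ∑ p′ j x′ j` ⇒ `p` is integral iff
`p′` is. -/
theorem s27legr_coord_transport {x : J → F} {x' : J' → F} (hx : S27legrLat R x)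
    (hx' : S27legrLat R x') {h : F} (hh : S27legrNorm R h) (p : J → L) (p' : J' → L)
    (e : h * s27legrLin x p = s27legrLin x' p') :
    (∀ j, p j ∈ R.A) ↔ (∀ j, p' j ∈ R.A) := by
  rw [← hx p, ← hx' p', ← e, s27legr_norm_mul_mem_iff hh]

/-- **`h12` of the LE5 assembly**: from (LinEq ⊆, in coordinates) and (tails). -/
theorem s27legr_h12 {ι κ ι' : Type*} [Fintype ι] [Fintype κ] [Fintype ι']
    {x : ι ⊕ κ → F} {x' : ι' ⊕ κ → F} (hx : S27legrLat R x) (hx' : S27legrLat R x')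
    {h : F} (hh : S27legrNorm R h)
    (Ker : (ι ⊕ κ → L) → Prop) (Ker' : (ι' ⊕ κ → L) → Prop)
    (hlin : ∀ p, Ker p → ∃ p', Ker' p' ∧ h * s27legrLin x p = s27legrLin x' p')
    (T : (κ → L) → (κ → L))
    (hT : ∀ p p', Ker p → Ker' p' → (∀ j, p j ∈ R.A) → (∀ j, p' j ∈ R.A) →
      h * s27legrLin x p = s27legrLin x' p' → p' ∘ Sum.inr = T (p ∘ Sum.inr))
    (p : ι ⊕ κ → L) (hp : ∀ j, p j ∈ R.A) (hk : Ker p) :
    ∃ p' : ι' ⊕ κ → L, (∀ j, p' j ∈ R.A) ∧ Ker' p' ∧ p' ∘ Sum.inr = T (p ∘ Sum.inr) := by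
  obtain ⟨p', hk', e⟩ := hlin p hk
  have hp' : ∀ j, p' j ∈ R.A := (s27legr_coord_transport hx hx' hh p p' e).mp hp
  exact ⟨p', hp', hk', hT p p' hk hk' hp hp' e⟩

/-- **`h21` of the LE5 assembly**: from (LinEq ⊇, in coordinates) and (tails). -/
theorem s27legr_h21 {ι κ ι' : Type*} [Fintype ι] [Fintype κ] [Fintype ι']
    {x : ι ⊕ κ → F} {x' : ι' ⊕ κ → F} (hx : S27legrLat R x) (hx' : S27legrLat R x')
    {h : F} (hh : S27legrNorm R h)
    (Ker : (ι ⊕ κ → L) → Prop) (Ker' : (ι' ⊕ κ → L) → Prop)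
    (hlin : ∀ p', Ker' p' → ∃ p, Ker p ∧ h * s27legrLin x p = s27legrLin x' p')
    (T : (κ → L) → (κ → L))
    (hT : ∀ p p', Ker p → Ker' p' → (∀ j, p j ∈ R.A) → (∀ j, p' j ∈ R.A) →
      h * s27legrLin x p = s27legrLin x' p' → p' ∘ Sum.inr = T (p ∘ Sum.inr))
    (p' : ι' ⊕ κ → L) (hp' : ∀ j, p' j ∈ R.A) (hk' : Ker' p') :
    ∃ p : ι ⊕ κ → L, (∀ j, p j ∈ R.A) ∧ Ker p ∧ p' ∘ Sum.inr = T (p ∘ Sum.inr) := by
  obtain ⟨p, hk, e⟩ := hlin p' hk'
  have hp : ∀ j, p j ∈ R.A := (s27legr_coord_transport hx hx' hh p p' e).mpr hp'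
  exact ⟨p, hp, hk, hT p p' hk hk' hp hp' e⟩

end Coord

end Fermat.Agent.S27
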