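/-
S27-B, leaf **LE2 (GAUSS)** (helper21): the **Gauss lattice property** `S27legrLat`
(S27/LEGaussR.lean) for helper12's Gauss reduction `s26ergData` of a constant curve and a
`K`-linearly independent family of functions `x : J → Γ` (raw shape: `F = Frac (L ⊗[K] Γ)`,
the function `x j` is `algebraMap (L ⊗[K] Γ) F (1 ⊗ₜ x j)`).
-/
import Fermat.Agent.S27.LEGauss
import Fermat.Agent.S27.LEGaussR

set_option autoImplicit false
set_option linter.unusedSectionVars false

noncomputable section

namespace Fermat.Agent.S27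

open TensorProduct Module Fermat.Agent.S26 Fermat.Agent.DEU

variable {K : Type*} [Field K] {L : Type*} [Field L] [Algebra K L]
  {Γ : Type*} [Field Γ] [Algebra K Γ]
  {V : ValuationSubring L} [Algebra K ↥V] [IsScalarTower K ↥V L]
  {k : Type*} [Field k] [Algebra K k] {res : ↥V →ₐ[K] k}
  {F : Type*} [Field F] [Algebra L F] [Algebra (L ⊗[K] Γ) F]
  [IsScalarTower L (L ⊗[K] Γ) F] [IsFractionRing (L ⊗[K] Γ) F]
  {Fb : Type*} [Field Fb] [Algebra k Fb] [Algebra (k ⊗[K] Γ) Fb]
  [IsScalarTower k (k ⊗[K] Γ) Fb]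

/-- the function `γ ∈ Γ`, as an element of `F = Frac (L ⊗[K] Γ)` -/
def s27legFun (F : Type*) [Field F] [Algebra (L ⊗[K] Γ) F] (γ : Γ) : F :=
  algebraMap (L ⊗[K] Γ) F ((1 : L) ⊗ₜ[K] γ)

theorem s27leg_const_mul_fun (c : L) (γ : Γ) :
    algebraMap L F c * s27legFun (K := K) (L := L) F γ =
      algebraMap (L ⊗[K] Γ) F (c ⊗ₜ[K] γ) := by
  rw [s27legFun, IsScalarTower.algebraMap_apply L (L ⊗[K] Γ) F,
    Algebra.TensorProduct.algebraMap_apply, ← map_mul, Algebra.TensorProduct.tmul_mul_tmul,
    mul_one, one_mul]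
  rfl

/-- `∑ j, p j · x j` is the image of `∑ p j ⊗ x j` -/
theorem s27leg_lin_eq {J : Type*} [Fintype J] (x : J → Γ) (p : J → L) :
    s27legrLin (fun j => s27legFun (K := K) (L := L) F (x j)) p =
      algebraMap (L ⊗[K] Γ) F (s27legSum x (Finsupp.equivFunOnFinite.symm p)) := by
  classical
  rw [s27legrLin, s27legSum, Finsupp.sum_fintype _ _ (fun i => by rw [zero_tmul]), map_sum]
  refine Finset.sum_congr rfl fun j _ => ?_
  rw [s27leg_const_mul_fun]
  rfl

/-- **LE2 (a) / LB1, raw shape**: the Gauss lattice property of a `K`-independent family of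
functions, for the Gauss reduction `s26ergData`. -/
theorem s27leg_lat (hres : Function.Surjective res)
    (hFb : Function.Injective (algebraMap (k ⊗[K] Γ) Fb)) {J : Type*} [Fintype J] (x : J → Γ)
    (hx : LinearIndependent K x) :
    S27legrLat (s26ergData K Γ V res F Fb hres hFb)
      (fun j => s27legFun (K := K) (L := L) F (x j)) := by
  intro p
  rw [s27leg_lin_eq]
  show algebraMap (L ⊗[K] Γ) F (s27legSum x (Finsupp.equivFunOnFinite.symm p)) ∈
    s26ergO K Γ V res F Fb ↔ ∀ j, p j ∈ V
  rw [s27leg_sum_mem_O_iff x hres hFb hx]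
  rfl

/-- the two notions of normalised element agree -/
theorem s27leg_norm_iff_legr (hres : Function.Surjective res)
    (hFb : Function.Injective (algebraMap (k ⊗[K] Γ) Fb)) (f : F) :
    S27legrNorm (s26ergData K Γ V res F Fb hres hFb) f ↔ s27legNorm K Γ V res Fb f := Iff.rfl

end Fermat.Agent.S27
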