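/-
S27-B, leaf **LE2 (GAUSS)** (helper21), **THE shape** (helper96 / helper93's adapter
`s26eriData`, S26/ERedInst.lean): fields `K ⊆ Γ`, `K ⊆ L`, `F ⊇ Γ, L` with `[Algebra Γ F]`
`[Algebra L F]`, `hld`, `hgen` (`F = Frac (Γ ⊗[K] L)`), `V ⊂ L` a valuation ring containing `K`,
`res : V →+* k` onto and `K`-linear, `Γ ⊗[K] k ↪ Fb` (`hldk`), `R := s26eriData …`.

* `s27legi_lat`  : the **Gauss lattice property** `S27legrLat R (fun j => algebraMap Γ F (x j))`
  of a `K`-linearly independent family `x : J → Γ`:
  `∑ j, p j · x j ∈ R.O ↔ ∀ j, p j ∈ V`  (LE2 (a) = LB1);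
* `s27legi_const_mem_iff` : `L ∩ R.O = V`;
* `s27legi_coord_transport` : `h` normalised, `h · ∑ p j x j = ∑ p′ j x′ j` ⇒ (`p` integral `↔`
  `p′` integral)  (LE2 (b), in the coordinates of the LE5 assembly).
The generic calculus of normalised elements is in S27/LEGaussR.lean.
-/
import Fermat.Agent.S26.ERedInst
import Fermat.Agent.S27.LEGaussL

set_option autoImplicit false
set_option linter.unusedSectionVars false
set_option linter.unusedVariables false
set_option linter.style.haveILetI false

noncomputable section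

namespace Fermat.Agent.S27

open TensorProduct Module Fermat.Agent.S26 Fermat.Agent.DEU

variable {K Γ L F k Fb : Type*} [Field K] [Field Γ] [Field L] [Field F] [Field k] [Field Fb]
  [Algebra K Γ] [Algebra K L] [Algebra K F] [Algebra Γ F] [Algebra L F]
  [IsScalarTower K Γ F] [IsScalarTower K L F]
  [Algebra K k] [Algebra K Fb] [Algebra Γ Fb] [Algebra k Fb]
  [IsScalarTower K Γ Fb] [IsScalarTower K k Fb]

variable (hld : Function.Injective (s26gspMu K Γ L F)) (hgen : S26gspGen K Γ L F)
  (hldk : Function.Injective (s26gspMu K Γ k Fb))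
  (V : ValuationSubring L) (hKV : ∀ c : K, algebraMap K L c ∈ V) (res : ↥V →+* k)
  (hresK : ∀ c : K, res ⟨algebraMap K L c, hKV c⟩ = algebraMap K k c)
  (hres : Function.Surjective res)

/-- **LE2 (a) = LB1, THE shape**: the Gauss lattice property of a `K`-linearly independent family
of functions. -/
theorem s27legi_lat {J : Type*} [Fintype J] (x : J → Γ) (hx : LinearIndependent K x) :
    S27legrLat (s26eriData hld hgen hldk V hKV res hresK hres)
      (fun j => algebraMap Γ F (x j)) := by
  letI := s26erkAlgebra K V hKV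
  haveI := s26erk_isScalarTower K V hKV
  letI := s26eriAlg K Γ L F
  haveI := s26eri_tower K Γ L F
  haveI := s26eri_isFractionRing hld hgen
  letI := s26eriAlg K Γ k Fb
  haveI := s26eri_tower K Γ k Fb
  have h := s27leg_lat (K := K) (Γ := Γ) (V := V) (res := s26eriRes V hKV res hresK)
    (F := F) (Fb := Fb) hres (s26eriNu_injective hldk) x hx
  have e : (fun j => s27legFun (K := K) (L := L) F (x j)) = fun j => algebraMap Γ F (x j) := by
    funext j
    show s26eriNu K Γ L F ((1 : L) ⊗ₜ[K] x j) = _
    rw [s26eriNu_tmul, map_one, one_mul]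
  rw [e] at h
  exact h

/-- the same, unfolded: `∑ j, p j · x j ∈ R.O ↔ ∀ j, p j ∈ V`. -/
theorem s27legi_sum_mem_iff {J : Type*} [Fintype J] (x : J → Γ) (hx : LinearIndependent K x)
    (p : J → L) :
    (∑ j, algebraMap L F (p j) * algebraMap Γ F (x j)) ∈
      (s26eriData hld hgen hldk V hKV res hresK hres).O ↔ ∀ j, p j ∈ V :=
  s27legi_lat hld hgen hldk V hKV res hresK hres x hx p

/-- `L ∩ R.O = V` -/
theorem s27legi_const_mem_iff (c : L) :
    algebraMap L F c ∈ (s26eriData hld hgen hldk V hKV res hresK hres).O ↔ c ∈ V := by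
  have h := s27legi_sum_mem_iff hld hgen hldk V hKV res hresK hres (J := Unit)
    (fun _ => (1 : Γ)) (by
      rw [linearIndependent_unique_iff]
      exact one_ne_zero) (fun _ => c)
  simp only [Finset.univ_unique, Finset.sum_singleton, map_one, mul_one] at h
  rw [h]
  exact ⟨fun hh => hh (), fun hh _ => hh⟩

/-- **LE2 (b) in the coordinates of the LE5 assembly**: `h` normalised and
`h · ∑ p j x j = ∑ p′ j x′ j` (`x`, `x′` `K`-independent families of functions) ⇒ `p` has
coefficients in `V` iff `p′` has. -/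
theorem s27legi_coord_transport {J J' : Type*} [Fintype J] [Fintype J'] (x : J → Γ)
    (hx : LinearIndependent K x) (x' : J' → Γ) (hx' : LinearIndependent K x') {h : F}
    (hh : S27legrNorm (s26eriData hld hgen hldk V hKV res hresK hres) h)
    (p : J → L) (p' : J' → L)
    (e : h * ∑ j, algebraMap L F (p j) * algebraMap Γ F (x j) =
      ∑ j, algebraMap L F (p' j) * algebraMap Γ F (x' j)) :
    (∀ j, p j ∈ V) ↔ (∀ j, p' j ∈ V) :=
  s27legr_coord_transport (s27legi_lat hld hgen hldk V hKV res hresK hres x hx)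
    (s27legi_lat hld hgen hldk V hKV res hresK hres x' hx') hh p p' e

end Fermat.Agent.S27
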