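/-
S27-B, crux LE, leaf **LE3 (LOC-UNIT)** (helper87; plan NOTES/S27-LE.md of helper95), abstract core.

SETTING.  `K ⊂ 𝔏` fields, `W ⊂ 𝔏` a valuation subring, `F / K` a field (the function field),
`𝒪 ⊂ F` a `K`-subalgebra (the local ring of a constant point `Q`), `ρ : 𝒪 →ₐ[K] 𝔏` a point of `𝒪`
with values in `W` (the evaluation at `Q`: `ρ = algebraMap K 𝔏 ∘ e`), `Ω` a field with an injective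
ring homomorphism `ι : 𝔏 ⊗[K] F → Ω` (`Ω = F_𝔏 = Frac (𝔏 ⊗ F)`), `h ∈ Ω` (the Gauss-normalised function
with `h · S_D = S_{D'}`).

* `s27le3Ev ρ : 𝔏 ⊗[K] B →ₐ[𝔏] 𝔏`, `c ⊗ b ↦ c · ρ b` : the evaluation at a point `ρ : B →ₐ[K] 𝔏`;
* `s27le3Int W B` : the subring of the `W`-integral elements of `𝔏 ⊗[K] B` (generated by `W ⊗ 1`, `1 ⊗ B`);
* `s27le3W τ r = ∏ i, (1 ⊗ τ − r i ⊗ 1)` : for `r i = R i τ` it vanishes at the points `R i`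
  (`s27le3Ev_W_self`), it is `W`-integral if `R i τ ∈ W` (`s27le3W_mem`), and its value at `ρ` is
  `∏ i, (ρ τ − R i τ)` (`s27le3Ev_W`), a unit of `W` as soon as `τ` separates `Q` from the centres;
* `s27le3J 𝔏 𝒪 : 𝔏 ⊗[K] 𝒪 → 𝔏 ⊗[K] F`, injective (`s27le3J_injective`);
* **`s27le3_unit`** : `h · w₁ = u₁`, `h · u₂ = w₂` with `u₁, u₂` integral and `w₁(Q), w₂(Q) ∈ Wˣ`
  ⇒ `u₁(Q) ∈ Wˣ`;
* **`s27le3_square`** : `h · s = s₂` ⇒ `s₂(Q) = (u₁(Q) / w₁(Q)) · s(Q)`;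
* **`s27le3_main`** : `∃ c ∈ Wˣ, ∀ s s₂ ∈ 𝔏 ⊗ 𝒪, h · s = s₂ → s₂(Q) = c · s(Q)`  (LOC-UNIT);
* **`s27le3_coord`** : the same in COORDINATE form: `h · Σ a_j x_j = Σ a'_k x'_k` (`x_j, x'_k ∈ 𝒪`)
  ⇒ `Σ a'_k ρ(x'_k) = c · Σ a_j ρ(x_j)`.
Mathlib only.
-/
import Mathlib

set_option autoImplicit false

noncomputable section

namespace Fermat.Agent.S27

open TensorProduct

universe u v w x y

variable {K : Type u} [Field K] {𝔏 : Type w} [Field 𝔏] [Algebra K 𝔏]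

section Ev

variable {B : Type v} [CommRing B] [Algebra K B]

/-- the evaluation `𝔏 ⊗[K] B → 𝔏`, `c ⊗ b ↦ c · ρ b`, at a point `ρ : B →ₐ[K] 𝔏`. -/
def s27le3Ev (ρ : B →ₐ[K] 𝔏) : 𝔏 ⊗[K] B →ₐ[𝔏] 𝔏 :=
  Algebra.TensorProduct.lift (AlgHom.id 𝔏 𝔏) ρ (fun _ _ => Commute.all _ _)

@[simp] theorem s27le3Ev_tmul (ρ : B →ₐ[K] 𝔏) (c : 𝔏) (b : B) :
    s27le3Ev ρ (c ⊗ₜ[K] b) = c * ρ b := by
  simp [s27le3Ev]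

/-- the subring of the `W`-integral elements of `𝔏 ⊗[K] B`. -/
def s27le3Int (W : ValuationSubring 𝔏) (B : Type v) [CommRing B] [Algebra K B] :
    Subring (𝔏 ⊗[K] B) :=
  Subring.closure {z | (∃ c ∈ W, z = c ⊗ₜ[K] (1 : B)) ∨ ∃ b : B, z = (1 : 𝔏) ⊗ₜ[K] b}

variable (W : ValuationSubring 𝔏)

theorem s27le3_left_mem {c : 𝔏} (hc : c ∈ W) : c ⊗ₜ[K] (1 : B) ∈ s27le3Int (K := K) W B :=
  Subring.subset_closure (Or.inl ⟨c, hc, rfl⟩)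

theorem s27le3_right_mem (b : B) : (1 : 𝔏) ⊗ₜ[K] b ∈ s27le3Int (K := K) W B :=
  Subring.subset_closure (Or.inr ⟨b, rfl⟩)

theorem s27le3_tmul_mem {c : 𝔏} (hc : c ∈ W) (b : B) : c ⊗ₜ[K] b ∈ s27le3Int (K := K) W B := by
  have h : c ⊗ₜ[K] b = (c ⊗ₜ[K] (1 : B)) * ((1 : 𝔏) ⊗ₜ[K] b) := by
    rw [Algebra.TensorProduct.tmul_mul_tmul, mul_one, one_mul]
  rw [h]
  exact Subring.mul_mem _ (s27le3_left_mem W hc) (s27le3_right_mem W b)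

theorem s27le3_sum_mem {n : ℕ} (a : Fin n → 𝔏) (ha : ∀ j, a j ∈ W) (b : Fin n → B) :
    (∑ j, a j ⊗ₜ[K] b j) ∈ s27le3Int (K := K) W B :=
  Subring.sum_mem _ fun j _ => s27le3_tmul_mem W (ha j) (b j)

/-- the value of a `W`-integral element at a point with values in `W` lies in `W`. -/
theorem s27le3Ev_mem (ρ : B →ₐ[K] 𝔏) (hρ : ∀ b, ρ b ∈ W) {z : 𝔏 ⊗[K] B}
    (hz : z ∈ s27le3Int (K := K) W B) : s27le3Ev ρ z ∈ W := by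
  have hle : s27le3Int (K := K) W B ≤ W.toSubring.comap (s27le3Ev ρ : 𝔏 ⊗[K] B →+* 𝔏) := by
    refine Subring.closure_le.mpr ?_
    rintro z (⟨c, hc, rfl⟩ | ⟨b, rfl⟩)
    · change s27le3Ev ρ (c ⊗ₜ[K] (1 : B)) ∈ W
      rw [s27le3Ev_tmul, map_one, mul_one]
      exact hc
    · change s27le3Ev ρ ((1 : 𝔏) ⊗ₜ[K] b) ∈ W
      rw [s27le3Ev_tmul, one_mul]
      exact hρ b
  exact hle hz

/-- `∏ i, (1 ⊗ τ − r i ⊗ 1)`: for `r i = R i τ` the function vanishing at the points `R i`. -/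
def s27le3W {N : ℕ} (τ : B) (r : Fin N → 𝔏) : 𝔏 ⊗[K] B :=
  ∏ i, ((1 : 𝔏) ⊗ₜ[K] τ - r i ⊗ₜ[K] (1 : B))

theorem s27le3W_mem {N : ℕ} (τ : B) (r : Fin N → 𝔏) (hr : ∀ i, r i ∈ W) :
    s27le3W (K := K) τ r ∈ s27le3Int (K := K) W B :=
  Subring.prod_mem _ fun i _ =>
    Subring.sub_mem _ (s27le3_right_mem W τ) (s27le3_left_mem W (hr i))

theorem s27le3Ev_W {N : ℕ} (ρ : B →ₐ[K] 𝔏) (τ : B) (r : Fin N → 𝔏) :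
    s27le3Ev ρ (s27le3W (K := K) τ r) = ∏ i, (ρ τ - r i) := by
  unfold s27le3W
  rw [map_prod]
  refine Finset.prod_congr rfl fun i _ => ?_
  rw [map_sub, s27le3Ev_tmul, s27le3Ev_tmul, one_mul, map_one, mul_one]

/-- `w` vanishes at the points `R j`. -/
theorem s27le3Ev_W_self {N : ℕ} (R : Fin N → B →ₐ[K] 𝔏) (τ : B) (j : Fin N) :
    s27le3Ev (R j) (s27le3W (K := K) τ fun i => R i τ) = 0 := by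
  rw [s27le3Ev_W]
  exact Finset.prod_eq_zero (Finset.mem_univ j) (sub_self _)

/-- the value of `w` at `ρ` is a unit of `W` if `τ` separates `ρ` from the points `R i` along `W`. -/
theorem s27le3Ev_W_unit {N : ℕ} (ρ : B →ₐ[K] 𝔏) (τ : B) (r : Fin N → 𝔏)
    (h1 : ∀ i, ρ τ - r i ∈ W) (h2 : ∀ i, (ρ τ - r i)⁻¹ ∈ W) (h3 : ∀ i, ρ τ - r i ≠ 0) :
    s27le3Ev ρ (s27le3W (K := K) τ r) ∈ W ∧ (s27le3Ev ρ (s27le3W (K := K) τ r))⁻¹ ∈ W ∧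
      s27le3Ev ρ (s27le3W (K := K) τ r) ≠ 0 := by
  rw [s27le3Ev_W]
  refine ⟨W.toSubring.prod_mem fun i _ => h1 i, ?_, Finset.prod_ne_zero_iff.mpr fun i _ => h3 i⟩
  rw [← Finset.prod_inv_distrib]
  exact W.toSubring.prod_mem fun i _ => h2 i

end Ev

section J

variable {F : Type v} [Field F] [Algebra K F]

variable (𝔏) in
/-- `𝔏 ⊗[K] 𝒪 → 𝔏 ⊗[K] F`. -/
def s27le3J (𝒪 : Subalgebra K F) : 𝔏 ⊗[K] 𝒪 →ₐ[𝔏] 𝔏 ⊗[K] F :=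
  Algebra.TensorProduct.map (AlgHom.id 𝔏 𝔏) 𝒪.val

@[simp] theorem s27le3J_tmul (𝒪 : Subalgebra K F) (c : 𝔏) (b : 𝒪) :
    s27le3J 𝔏 𝒪 (c ⊗ₜ[K] b) = c ⊗ₜ[K] (b : F) := by
  simp [s27le3J]

theorem s27le3J_injective (𝒪 : Subalgebra K F) : Function.Injective (s27le3J 𝔏 𝒪) := by
  have h := Module.Flat.lTensor_preserves_injective_linearMap (M := 𝔏) 𝒪.val.toLinearMap
    Subtype.val_injective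
  have e : ∀ z, s27le3J 𝔏 𝒪 z = LinearMap.lTensor 𝔏 𝒪.val.toLinearMap z := by
    intro z
    induction z using TensorProduct.induction_on with
    | zero => simp
    | tmul c b => simp
    | add a b ha hb => rw [map_add, map_add, ha, hb]
  intro a b hab
  rw [e, e] at hab
  exact h hab

theorem s27le3Ev_J (𝒪 : Subalgebra K F) (R : F →ₐ[K] 𝔏) (z : 𝔏 ⊗[K] 𝒪) :
    s27le3Ev R (s27le3J 𝔏 𝒪 z) = s27le3Ev (R.comp 𝒪.val) z := by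
  induction z using TensorProduct.induction_on with
  | zero => simp
  | tmul c b => simp
  | add a b ha hb => rw [map_add, map_add, map_add, ha, hb]

theorem s27le3J_W {N : ℕ} (𝒪 : Subalgebra K F) (τ : 𝒪) (r : Fin N → 𝔏) :
    s27le3J 𝔏 𝒪 (s27le3W (K := K) τ r) = s27le3W (K := K) (τ : F) r := by
  unfold s27le3W
  rw [map_prod]
  refine Finset.prod_congr rfl fun i _ => ?_
  rw [map_sub, s27le3J_tmul, s27le3J_tmul]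
  rfl

theorem s27le3J_mem (W : ValuationSubring 𝔏) (𝒪 : Subalgebra K F) {z : 𝔏 ⊗[K] 𝒪}
    (hz : z ∈ s27le3Int (K := K) W 𝒪) : s27le3J 𝔏 𝒪 z ∈ s27le3Int (K := K) W F := by
  have hle : s27le3Int (K := K) W 𝒪 ≤
      (s27le3Int (K := K) W F).comap (s27le3J 𝔏 𝒪 : 𝔏 ⊗[K] 𝒪 →+* 𝔏 ⊗[K] F) := by
    refine Subring.closure_le.mpr ?_
    rintro z (⟨c, hc, rfl⟩ | ⟨b, rfl⟩)
    · show s27le3J 𝔏 𝒪 (c ⊗ₜ[K] (1 : 𝒪)) ∈ s27le3Int (K := K) W F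
      rw [s27le3J_tmul]
      exact s27le3_tmul_mem W hc _
    · show s27le3J 𝔏 𝒪 ((1 : 𝔏) ⊗ₜ[K] b) ∈ s27le3Int (K := K) W F
      rw [s27le3J_tmul]
      exact s27le3_right_mem W _
  exact hle hz

end J

section Unit

variable {F : Type v} [Field F] [Algebra K F] {Ω : Type x} [Field Ω]
  (W : ValuationSubring 𝔏) (𝒪 : Subalgebra K F) (ρ : 𝒪 →ₐ[K] 𝔏)
  (ι : 𝔏 ⊗[K] F →+* Ω)

/-- **LOC-UNIT, units.**  `h · w₁ = u₁` and `h · u₂ = w₂` with `u₁, u₂` `W`-integral and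
`w₁(Q), w₂(Q) ∈ Wˣ`: then `u₁(Q) ∈ Wˣ`. -/
theorem s27le3_unit (hι : Function.Injective ι) (hρ : ∀ b, ρ b ∈ W) (h : Ω)
    (u₁ w₁ u₂ w₂ : 𝔏 ⊗[K] 𝒪)
    (h1 : h * ι (s27le3J 𝔏 𝒪 w₁) = ι (s27le3J 𝔏 𝒪 u₁))
    (h2 : h * ι (s27le3J 𝔏 𝒪 u₂) = ι (s27le3J 𝔏 𝒪 w₂))
    (hu₁ : u₁ ∈ s27le3Int (K := K) W 𝒪) (hu₂ : u₂ ∈ s27le3Int (K := K) W 𝒪)
    (hw₁ : (s27le3Ev ρ w₁)⁻¹ ∈ W) (hw₁0 : s27le3Ev ρ w₁ ≠ 0)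
    (hw₂ : (s27le3Ev ρ w₂)⁻¹ ∈ W) (hw₂0 : s27le3Ev ρ w₂ ≠ 0) :
    s27le3Ev ρ u₁ ∈ W ∧ (s27le3Ev ρ u₁)⁻¹ ∈ W ∧ s27le3Ev ρ u₁ ≠ 0 := by
  have key : u₁ * u₂ = w₁ * w₂ := by
    apply s27le3J_injective 𝒪
    apply hι
    rw [map_mul, map_mul, map_mul, map_mul, ← h1, ← h2]
    ring
  have hE : s27le3Ev ρ u₁ * s27le3Ev ρ u₂ = s27le3Ev ρ w₁ * s27le3Ev ρ w₂ := by
    rw [← map_mul, ← map_mul, key]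
  have hu₁W := s27le3Ev_mem W ρ hρ hu₁
  have hu₂W := s27le3Ev_mem W ρ hρ hu₂
  have hne : s27le3Ev ρ u₁ ≠ 0 := by
    intro h0
    rw [h0, zero_mul] at hE
    exact mul_ne_zero hw₁0 hw₂0 hE.symm
  refine ⟨hu₁W, ?_, hne⟩
  have hprod : s27le3Ev ρ w₁ * s27le3Ev ρ w₂ ≠ 0 := mul_ne_zero hw₁0 hw₂0
  have hu2 : s27le3Ev ρ u₂ ≠ 0 := by
    intro h0
    rw [h0, mul_zero] at hE
    exact hprod hE.symm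
  have hinv : (s27le3Ev ρ u₁)⁻¹ = s27le3Ev ρ u₂ * ((s27le3Ev ρ w₁)⁻¹ * (s27le3Ev ρ w₂)⁻¹) := by
    rw [← mul_inv, ← hE]
    field_simp
  rw [hinv]
  exact W.mul_mem _ _ hu₂W (W.mul_mem _ _ hw₁ hw₂)

/-- **LOC-UNIT, the square.**  `h · w₁ = u₁`, `h · s = s₂` ⇒ `s₂(Q) = (u₁(Q) / w₁(Q)) · s(Q)`. -/
theorem s27le3_square (hι : Function.Injective ι) (h : Ω) (u₁ w₁ s s₂ : 𝔏 ⊗[K] 𝒪)
    (h1 : h * ι (s27le3J 𝔏 𝒪 w₁) = ι (s27le3J 𝔏 𝒪 u₁))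
    (hs : h * ι (s27le3J 𝔏 𝒪 s) = ι (s27le3J 𝔏 𝒪 s₂))
    (hw₁0 : s27le3Ev ρ w₁ ≠ 0) :
    s27le3Ev ρ s₂ = s27le3Ev ρ u₁ / s27le3Ev ρ w₁ * s27le3Ev ρ s := by
  have key : w₁ * s₂ = u₁ * s := by
    apply s27le3J_injective 𝒪
    apply hι
    rw [map_mul, map_mul, map_mul, map_mul, ← h1, ← hs]
    ring
  have hE : s27le3Ev ρ w₁ * s27le3Ev ρ s₂ = s27le3Ev ρ u₁ * s27le3Ev ρ s := by
    rw [← map_mul, ← map_mul, key]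
  field_simp
  rw [mul_comm, hE]

/-- **LE3 = LOC-UNIT.**  There is a unit `c` of `W` such that multiplication by `h` multiplies the
values at `Q` by `c`. -/
theorem s27le3_main (hι : Function.Injective ι) (hρ : ∀ b, ρ b ∈ W) (h : Ω)
    (u₁ w₁ u₂ w₂ : 𝔏 ⊗[K] 𝒪)
    (h1 : h * ι (s27le3J 𝔏 𝒪 w₁) = ι (s27le3J 𝔏 𝒪 u₁))
    (h2 : h * ι (s27le3J 𝔏 𝒪 u₂) = ι (s27le3J 𝔏 𝒪 w₂))
    (hu₁ : u₁ ∈ s27le3Int (K := K) W 𝒪) (hu₂ : u₂ ∈ s27le3Int (K := K) W 𝒪)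
    (hw₁ : (s27le3Ev ρ w₁)⁻¹ ∈ W) (hw₁0 : s27le3Ev ρ w₁ ≠ 0)
    (hw₂ : (s27le3Ev ρ w₂)⁻¹ ∈ W) (hw₂0 : s27le3Ev ρ w₂ ≠ 0)
    (hw₁W : s27le3Ev ρ w₁ ∈ W) :
    ∃ c : 𝔏, c ∈ W ∧ c⁻¹ ∈ W ∧ c ≠ 0 ∧ ∀ s s₂ : 𝔏 ⊗[K] 𝒪,
      h * ι (s27le3J 𝔏 𝒪 s) = ι (s27le3J 𝔏 𝒪 s₂) → s27le3Ev ρ s₂ = c * s27le3Ev ρ s := by
  obtain ⟨a1, a2, a3⟩ := s27le3_unit W 𝒪 ρ ι hι hρ h u₁ w₁ u₂ w₂ h1 h2 hu₁ hu₂ hw₁ hw₁0 hw₂ hw₂0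
  refine ⟨s27le3Ev ρ u₁ / s27le3Ev ρ w₁, ?_, ?_, div_ne_zero a3 hw₁0, ?_⟩
  · rw [div_eq_mul_inv]
    exact W.mul_mem _ _ a1 hw₁
  · rw [inv_div, div_eq_mul_inv]
    exact W.mul_mem _ _ hw₁W a2
  · intro s s₂ hs
    exact s27le3_square 𝒪 ρ ι hι h u₁ w₁ s s₂ h1 hs hw₁0

/-- **LE3 with the explicit denominators** `w₁ = ∏ (1 ⊗ τ − r i ⊗ 1)`, `w₂ = ∏ (1 ⊗ τ − r' i ⊗ 1)`
(`r i = R i τ`, `r' i = R' i τ`), `τ ∈ 𝒪` separating `Q` from the centres of the points: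
`ρ τ − r i ∈ Wˣ`, `ρ τ − r' i ∈ Wˣ`. -/
theorem s27le3_main_tau (hι : Function.Injective ι) (hρ : ∀ b, ρ b ∈ W) (h : Ω) (τ : 𝒪)
    {N N' : ℕ} (r : Fin N → 𝔏) (r' : Fin N' → 𝔏)
    (hr1 : ∀ i, ρ τ - r i ∈ W) (hr2 : ∀ i, (ρ τ - r i)⁻¹ ∈ W) (hr3 : ∀ i, ρ τ - r i ≠ 0)
    (hr1' : ∀ i, ρ τ - r' i ∈ W) (hr2' : ∀ i, (ρ τ - r' i)⁻¹ ∈ W) (hr3' : ∀ i, ρ τ - r' i ≠ 0)
    (u₁ u₂ : 𝔏 ⊗[K] 𝒪)
    (h1 : h * ι (s27le3J 𝔏 𝒪 (s27le3W (K := K) τ r)) = ι (s27le3J 𝔏 𝒪 u₁))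
    (h2 : h * ι (s27le3J 𝔏 𝒪 u₂) = ι (s27le3J 𝔏 𝒪 (s27le3W (K := K) τ r')))
    (hu₁ : u₁ ∈ s27le3Int (K := K) W 𝒪) (hu₂ : u₂ ∈ s27le3Int (K := K) W 𝒪) :
    ∃ c : 𝔏, c ∈ W ∧ c⁻¹ ∈ W ∧ c ≠ 0 ∧ ∀ s s₂ : 𝔏 ⊗[K] 𝒪,
      h * ι (s27le3J 𝔏 𝒪 s) = ι (s27le3J 𝔏 𝒪 s₂) → s27le3Ev ρ s₂ = c * s27le3Ev ρ s := by
  obtain ⟨a1, a2, a3⟩ := s27le3Ev_W_unit (K := K) W ρ τ r hr1 hr2 hr3
  obtain ⟨b1, b2, b3⟩ := s27le3Ev_W_unit (K := K) W ρ τ r' hr1' hr2' hr3'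
  exact s27le3_main W 𝒪 ρ ι hι hρ h u₁ _ u₂ _ h1 h2 hu₁ hu₂ a2 a3 b2 b3 a1

/-- coordinates: `J (Σ a_j ⊗ x_j) = Σ a_j ⊗ x_j`. -/
theorem s27le3J_sum {n : ℕ} (a : Fin n → 𝔏) (x : Fin n → 𝒪) :
    s27le3J 𝔏 𝒪 (∑ j, a j ⊗ₜ[K] x j) = ∑ j, a j ⊗ₜ[K] ((x j : 𝒪) : F) := by
  rw [map_sum]
  exact Finset.sum_congr rfl fun j _ => s27le3J_tmul 𝒪 _ _

/-- coordinates: the value of `Σ a_j ⊗ x_j` is `Σ a_j ρ(x_j)`. -/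
theorem s27le3Ev_sum {n : ℕ} (a : Fin n → 𝔏) (x : Fin n → 𝒪) :
    s27le3Ev ρ (∑ j, a j ⊗ₜ[K] x j) = ∑ j, a j * ρ (x j) := by
  rw [map_sum]
  exact Finset.sum_congr rfl fun j _ => s27le3Ev_tmul ρ _ _

/-- **LE3 in COORDINATE form**: the conclusion of `s27le3_main` for elements given by coordinates
`Σ a_j x_j`, `x_j ∈ 𝒪`, `a_j ∈ 𝔏` (no integrality of `s`, `s₂` is needed). -/
theorem s27le3_coord {c : 𝔏} {h : Ω}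
    (hc : ∀ s s₂ : 𝔏 ⊗[K] 𝒪,
      h * ι (s27le3J 𝔏 𝒪 s) = ι (s27le3J 𝔏 𝒪 s₂) → s27le3Ev ρ s₂ = c * s27le3Ev ρ s)
    {n m : ℕ} (a : Fin n → 𝔏) (x : Fin n → 𝒪) (a' : Fin m → 𝔏) (x' : Fin m → 𝒪)
    (hs : h * ι (∑ j, a j ⊗ₜ[K] ((x j : 𝒪) : F)) = ι (∑ k, a' k ⊗ₜ[K] ((x' k : 𝒪) : F))) :
    ∑ k, a' k * ρ (x' k) = c * ∑ j, a j * ρ (x j) := by
  have := hc (∑ j, a j ⊗ₜ[K] x j) (∑ k, a' k ⊗ₜ[K] x' k) (by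
    rw [s27le3J_sum, s27le3J_sum]; exact hs)
  rwa [s27le3Ev_sum, s27le3Ev_sum] at this

end Unit

end Fermat.Agent.S27

end
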