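/-
S27-B, crux LE, leaf **LE3 (LOC-UNIT)**, instantiation on the prelude's places (helper87).

* `s27le3_exists_tau` : `Q` a place of `F / K` which is not a centre of the points `R i` along `W`
  (`hred`: every point has generic reduction or a place as centre, as in `s27adex_exists`):
  there is `τ ∈ F` with `ord_Q τ = 1` and `R i τ ∈ Wˣ` for all `i`  (weak approximation).
* **`s27le3_place`** : LOC-UNIT at `Q`: if for every `τ ∈ 𝒪_Q` with `R i τ ∈ W` the products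
  `h · ∏ (1 ⊗ τ − R i τ ⊗ 1)` and `h⁻¹ · ∏ (1 ⊗ τ − R' i τ ⊗ 1)` are `W`-integral elements of
  `𝔏 ⊗ 𝒪_Q` (this is (LinEq) + LE2(a)), then there is `c ∈ Wˣ` with
  `h · s = s₂ ⇒ s₂(Q) = c · s(Q)` for all `s, s₂ ∈ 𝔏 ⊗ 𝒪_Q`.
-/
import Fermat.Agent.S27.LE3Unit
import Fermat.Agent.S27.AdEx

set_option autoImplicit false

noncomputable section

namespace Fermat.Agent.S27

open TensorProduct AlgebraicCurve WithZero
open Fermat.Agent.S24.PlaceAux

universe u v w x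

variable {K : Type u} [Field K] {𝔏 : Type w} [Field 𝔏] [Algebra K 𝔏]
  {F : Type v} [Field F] [Algebra K F]

/-- an element of valuation `1` at a place is a unit of its valuation ring. -/
theorem s27le3_unit_of_val_one (v : Place K F) {x : F} (hx : v.adicValuation x = 1) :
    x ∈ v.toValuationSubring ∧ x⁻¹ ∈ v.toValuationSubring ∧ x ≠ 0 := by
  have hx0 : x ≠ 0 := by
    rintro rfl
    rw [map_zero] at hx
    exact zero_ne_one hx
  refine ⟨(mem_iff_adicValuation_le_one v x).mpr hx.le, ?_, hx0⟩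
  rw [mem_iff_adicValuation_le_one, map_inv₀, hx, inv_one]

/-- **the separating function**: `τ` is a uniformiser at `Q` and a unit of `W` at all the
points `R i` (none of which has centre `Q`). -/
theorem s27le3_exists_tau {ι : Type*} [Finite ι] (W : ValuationSubring 𝔏)
    (R : ι → F →ₐ[K] 𝔏) (Q : Place K F)
    (hred : ∀ i, (∀ f : F, R i f ∈ W) ∨
      ∃ Q' : Place K F, W.comap (R i : F →+* 𝔏) = Q'.toValuationSubring)
    (hQ : ∀ i, W.comap (R i : F →+* 𝔏) ≠ Q.toValuationSubring) :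
    ∃ τ : F, τ ≠ 0 ∧ Q.ord τ = 1 ∧ ∀ i, R i τ ∈ W ∧ (R i τ)⁻¹ ∈ W ∧ R i τ ≠ 0 := by
  classical
  let C : Set (Place K F) := {Q' | ∃ i, W.comap (R i : F →+* 𝔏) = Q'.toValuationSubring}
  have hCfin : C.Finite := by
    have hC : C = ⋃ i, {Q' : Place K F | W.comap (R i : F →+* 𝔏) = Q'.toValuationSubring} := by
      ext Q'
      simp [C]
    rw [hC]
    exact Set.finite_iUnion fun i =>
      Set.Subsingleton.finite (fun Q₁ hQ₁ Q₂ hQ₂ => Place.ext (hQ₁.symm.trans hQ₂))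
  have : Finite C := hCfin.to_subtype
  have hQC : Q ∉ C := fun ⟨i, hi⟩ => hQ i hi
  let u : Option C → Place K F := fun o => o.elim Q Subtype.val
  have hu : Function.Injective u := by
    rintro (_ | a) (_ | b) hab
    · rfl
    · exact absurd (show Q = b.1 from hab) (fun h => hQC (h ▸ b.2))
    · exact absurd (show a.1 = Q from hab) (fun h => hQC (h ▸ a.2))
    · exact congrArg some (Subtype.ext hab)
  obtain ⟨π, hπ0, hπ⟩ := s27adex_exists_unif Q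
  obtain ⟨τ, hτ⟩ := s27adex_approx u hu (fun o => o.elim π (fun _ => 1)) 2
  -- at `Q`
  have hπv : Q.adicValuation π = exp (-1) := by
    rw [adicValuation_eq_exp_neg_ord Q hπ0, hπ]
  have hQv : Q.adicValuation τ = exp (-1) := by
    have h1 : Q.adicValuation (τ - π) ≤ exp (-((2 : ℕ) : ℤ)) := hτ none
    have h2 : Q.adicValuation (τ - π) < Q.adicValuation π := by
      rw [hπv]
      refine lt_of_le_of_lt h1 ?_
      rw [WithZero.exp_lt_exp]
      norm_num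
    rw [← hπv]
    exact Valuation.map_eq_of_sub_lt _ h2
  obtain ⟨hτ0, hτord⟩ := s27adex_ord_eq_of_val Q (k := 1) hQv
  refine ⟨τ, hτ0, hτord, fun i => ?_⟩
  have hinv : (R i τ)⁻¹ = R i τ⁻¹ := (map_inv₀ (R i) τ).symm
  have hne : R i τ ≠ 0 := (map_ne_zero (R i)).mpr hτ0
  rcases hred i with hg | ⟨Q', hQ'⟩
  · exact ⟨hg τ, hinv ▸ hg τ⁻¹, hne⟩
  · have hmem : Q' ∈ C := ⟨i, hQ'⟩
    have h1 : Q'.adicValuation (τ - 1) ≤ exp (-((2 : ℕ) : ℤ)) := hτ (some ⟨Q', hmem⟩)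
    have h2 : Q'.adicValuation (τ - 1) < Q'.adicValuation 1 := by
      rw [map_one]
      refine lt_of_le_of_lt h1 ?_
      rw [← WithZero.exp_zero, WithZero.exp_lt_exp]
      norm_num
    have hv : Q'.adicValuation τ = 1 := by
      rw [← map_one Q'.adicValuation]
      exact Valuation.map_eq_of_sub_lt _ h2
    obtain ⟨a1, a2, -⟩ := s27le3_unit_of_val_one Q' hv
    refine ⟨?_, ?_, hne⟩
    · rw [← hQ'] at a1
      exact a1
    · rw [hinv]
      rw [← hQ'] at a2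
      exact a2

section Place

variable {Ω : Type x} [Field Ω]

/-- **LE3 = LOC-UNIT at a place `Q`** which is not a centre of the points `R i`, `R' i`. -/
theorem s27le3_place {N N' : ℕ} (W : ValuationSubring 𝔏) (Q : Place K F)
    (𝒪 : Subalgebra K F) (h𝒪 : ∀ f : F, f ∈ Q.toValuationSubring → f ∈ 𝒪)
    (ρ : 𝒪 →ₐ[K] 𝔏) (hρ : ∀ b, ρ b ∈ W)
    (hρm : ∀ b : 𝒪, 0 < Q.ord (b : F) → ρ b = 0)
    (ι : 𝔏 ⊗[K] F →+* Ω) (hι : Function.Injective ι) (h : Ω)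
    (R : Fin N → F →ₐ[K] 𝔏) (R' : Fin N' → F →ₐ[K] 𝔏)
    (hred : ∀ i, (∀ f : F, R i f ∈ W) ∨
      ∃ Q' : Place K F, W.comap (R i : F →+* 𝔏) = Q'.toValuationSubring)
    (hred' : ∀ i, (∀ f : F, R' i f ∈ W) ∨
      ∃ Q' : Place K F, W.comap (R' i : F →+* 𝔏) = Q'.toValuationSubring)
    (hQ : ∀ i, W.comap (R i : F →+* 𝔏) ≠ Q.toValuationSubring)
    (hQ' : ∀ i, W.comap (R' i : F →+* 𝔏) ≠ Q.toValuationSubring)
    (hLin : ∀ τ : 𝒪, (∀ i, R i τ ∈ W) → ∃ u₁ ∈ s27le3Int (K := K) W 𝒪,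
      h * ι (s27le3J 𝔏 𝒪 (s27le3W (K := K) τ fun i => R i τ)) = ι (s27le3J 𝔏 𝒪 u₁))
    (hLin' : ∀ τ : 𝒪, (∀ i, R' i τ ∈ W) → ∃ u₂ ∈ s27le3Int (K := K) W 𝒪,
      h * ι (s27le3J 𝔏 𝒪 u₂) = ι (s27le3J 𝔏 𝒪 (s27le3W (K := K) τ fun i => R' i τ))) :
    ∃ c : 𝔏, c ∈ W ∧ c⁻¹ ∈ W ∧ c ≠ 0 ∧ ∀ s s₂ : 𝔏 ⊗[K] 𝒪,
      h * ι (s27le3J 𝔏 𝒪 s) = ι (s27le3J 𝔏 𝒪 s₂) → s27le3Ev ρ s₂ = c * s27le3Ev ρ s := by
  obtain ⟨τ, hτ0, hτord, hτ⟩ := s27le3_exists_tau W (Sum.elim R R') Q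
    (fun i => by
      rcases i with i | i
      · exact hred i
      · exact hred' i)
    (fun i => by
      rcases i with i | i
      · exact hQ i
      · exact hQ' i)
  have hτQ : τ ∈ Q.toValuationSubring := mem_of_ord_nonneg Q (by rw [hτord]; norm_num)
  let t : 𝒪 := ⟨τ, h𝒪 τ hτQ⟩
  have ht0 : ρ t = 0 := hρm t (by show 0 < Q.ord τ; rw [hτord]; norm_num)
  have hR : ∀ i, R i (t : F) ∈ W ∧ (R i (t : F))⁻¹ ∈ W ∧ R i (t : F) ≠ 0 :=
    fun i => hτ (Sum.inl i)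
  have hR' : ∀ i, R' i (t : F) ∈ W ∧ (R' i (t : F))⁻¹ ∈ W ∧ R' i (t : F) ≠ 0 :=
    fun i => hτ (Sum.inr i)
  obtain ⟨u₁, hu₁, h1⟩ := hLin t fun i => (hR i).1
  obtain ⟨u₂, hu₂, h2⟩ := hLin' t fun i => (hR' i).1
  refine s27le3_main_tau W 𝒪 ρ ι hι hρ h t (fun i => R i t) (fun i => R' i t)
    ?_ ?_ ?_ ?_ ?_ ?_ u₁ u₂ h1 h2 hu₁ hu₂
  · intro i
    rw [ht0, zero_sub]
    exact W.neg_mem _ (hR i).1
  · intro i
    rw [ht0, zero_sub, inv_neg]
    exact W.neg_mem _ (hR i).2.1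
  · intro i
    rw [ht0, zero_sub]
    exact neg_ne_zero.mpr (hR i).2.2
  · intro i
    rw [ht0, zero_sub]
    exact W.neg_mem _ (hR' i).1
  · intro i
    rw [ht0, zero_sub, inv_neg]
    exact W.neg_mem _ (hR' i).2.1
  · intro i
    rw [ht0, zero_sub]
    exact neg_ne_zero.mpr (hR' i).2.2

end Place

end Fermat.Agent.S27

end
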