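/-
S27-B, LE(b), leaf **LB2 INSTANCE** (helper24): helper3's adapted families (`S27/LeLead.lean`)
on the model `Ω = Frac (𝔠 ⊗[K] 𝔎)`.

`B` a divisor of `𝔠 / K`, `Q : κ → Place K 𝔠` distinct places with residue field `K`,
`G = Σ_l Q_l = s27ppG Q`, `π l` a local parameter at `Q l`,
`a l := π l ^ ((B + G) (Q l))` the local equation of `B + G` at `Q l`.

* `s27lli_exists_val`     : at a place with residue field `𝔏` every element of the valuation ring
                            has a value in `𝔏` (`S27llVal`);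
* `s27lli_val_iff_residue`: `S27llVal 𝒪_P y c ↔ residue y = c`;
* `s27lli_exists_basis`   : (non-speciality `ℓ(B + G) = ℓ(B) + #G`) every `K`-basis `f` of `L_K(B)`
                            extends to a `K`-basis `b` of `L_K(B + G)` which is ADAPTED at the
                            places `Q l` of `𝔠 / K` (`a_l f_i` vanishes at `Q_l`, `a_l q_j` has the
                            value `δ_{jl}`);
* `s27lli_adapted_con`    : an adapted family of `𝔠 / K` at the `Q l` is an adapted family of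
                            `Ω / 𝔎` at the constant places `Con (Q l)`  (`x ↦ algebraMap 𝔠 Ω ∘ x`);
* `s27lli_exists_basis_con` : both together: the shape `S27llAdapted` consumed by `s27ll_mul` /
                            `s27ll_matrix`;
* `s27lli_const_mem`      : the hypothesis `hc` of `s27ll_coord`;
* `s27lli_exists_val_con` : `h` regular at `Con Q` ⇒ `h` has a value `h(Q) ∈ 𝔎` at `Con Q`;
* `s27lli_val_ne_zero`    : `ord_{Con Q} h = 0` ⇒ `h(Q) ≠ 0`.
-/
import Fermat.Agent.S27.LeLead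
import Fermat.Agent.S27.LEPP
import Fermat.Agent.S26.ERRGaussCon

set_option autoImplicit false
set_option linter.style.haveILetI false
set_option linter.unusedSectionVars false
set_option linter.unusedVariables false

noncomputable section

namespace Fermat.Agent.S27

open AlgebraicCurve Module Fermat.Agent.S24 Fermat.Agent.S26

/-! ### Values at a place with residue field the constants -/

section Val

variable {𝔏 𝔉 : Type*} [Field 𝔏] [Field 𝔉] [Algebra 𝔏 𝔉]

/-- `S27llVal 𝒪_P y c ↔ residue y = c`. -/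
theorem s27lli_val_iff_residue (P : Place 𝔏 𝔉) {y : 𝔉} (hy : y ∈ P.toValuationSubring) (c : 𝔏) :
    S27llVal (𝔏 := 𝔏) P.toValuationSubring y c ↔
      IsLocalRing.residue P.toValuationSubring ⟨y, hy⟩ = algebraMap 𝔏 P.ResidueField c := by
  have hc : algebraMap 𝔏 𝔉 c ∈ P.toValuationSubring := P.algebraMap_mem' c
  have hsub : y - algebraMap 𝔏 𝔉 c ∈ P.toValuationSubring :=
    sub_mem hy hc
  have h1 : algebraMap 𝔏 P.ResidueField c =
      IsLocalRing.residue P.toValuationSubring ⟨algebraMap 𝔏 𝔉 c, hc⟩ := rfl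
  have h2 : (⟨y - algebraMap 𝔏 𝔉 c, hsub⟩ : P.toValuationSubring) =
      ⟨y, hy⟩ - ⟨algebraMap 𝔏 𝔉 c, hc⟩ := rfl
  unfold S27llVal
  rw [ValuationSubring.mem_nonunits_iff_exists_mem_maximalIdeal, h1, ← sub_eq_zero, ← map_sub,
    IsLocalRing.residue_eq_zero_iff, ← h2]
  constructor
  · rintro ⟨_, h⟩
    exact h
  · intro h
    exact ⟨hsub, h⟩

/-- at a place with residue field `𝔏`, every element of the valuation ring has a value. -/
theorem s27lli_exists_val (P : Place 𝔏 𝔉)
    (hres : Function.Surjective (algebraMap 𝔏 P.ResidueField)) {y : 𝔉}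
    (hy : y ∈ P.toValuationSubring) : ∃ c : 𝔏, S27llVal (𝔏 := 𝔏) P.toValuationSubring y c := by
  obtain ⟨c, hc⟩ := hres (IsLocalRing.residue P.toValuationSubring ⟨y, hy⟩)
  exact ⟨c, (s27lli_val_iff_residue P hy c).2 hc.symm⟩

/-- the value of a unit is nonzero. -/
theorem s27lli_val_ne_zero (P : Place 𝔏 𝔉) {y : 𝔉} (hy0 : y ≠ 0) (hy : P.ord y = 0) {c : 𝔏}
    (h : S27llVal (𝔏 := 𝔏) P.toValuationSubring y c) : c ≠ 0 := by
  rintro rfl
  unfold S27llVal at h
  rw [map_zero, sub_zero] at h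
  have h1 := (PlaceAux.ord_pos_iff_mem_nonunits P hy0).2 h
  omega

end Val

/-! ### The adapted basis of `L_K(B + G)` -/

section KLevel

variable {K F : Type*} [Field K] [Field F] [Algebra K F]
variable {ι κ : Type*} [Fintype ι] [Fintype κ] [DecidableEq κ]

/-- the local equation of `B + G` at `Q l`. -/
def s27lliEq (B : Divisor K F) (Q : κ → Place K F) (π : κ → F) (l : κ) : F :=
  π l ^ ((B + s27ppG Q) (Q l))

/-- **LB2 instance, `K`-level**: under non-speciality `ℓ(B + G) = ℓ(B) + #G`, every `K`-basis of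
`L_K(B)` extends to a `K`-basis of `L_K(B + G)` adapted at the places `Q l`. -/
theorem s27lli_exists_basis (B : Divisor K F) {Q : κ → Place K F} (hQ : Function.Injective Q)
    (π : κ → F) (hπ : ∀ l, (Q l).ord (π l) = 1)
    (hres : ∀ l, Function.Surjective (algebraMap K (Q l).ResidueField))
    [Module.Finite K ↥(riemannRochSpace (B + s27ppG Q))]
    (hdim : Module.finrank K ↥(riemannRochSpace (B + s27ppG Q)) =
      Module.finrank K ↥(riemannRochSpace B) + Fintype.card κ)
    (f : Module.Basis ι K ↥(riemannRochSpace B)) :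
    ∃ b : Module.Basis (ι ⊕ κ) K ↥(riemannRochSpace (B + s27ppG Q)),
      (∀ i, ((b (Sum.inl i) : ↥(riemannRochSpace (B + s27ppG Q))) : F) =
        ((f i : ↥(riemannRochSpace B)) : F)) ∧
      S27llAdapted (𝔏 := K) (fun l => (Q l).toValuationSubring) (s27lliEq B Q π)
        (fun j => ((b j : ↥(riemannRochSpace (B + s27ppG Q))) : F)) := by
  classical
  -- the residue fields are `K`
  let e : ∀ l, K ≃ₗ[K] (Q l).ResidueField := fun l =>
    LinearEquiv.ofBijective (Algebra.linearMap K (Q l).ResidueField)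
      ⟨(algebraMap K (Q l).ResidueField).injective, hres l⟩
  have he : ∀ l (c : K), e l c = algebraMap K (Q l).ResidueField c := fun l c => rfl
  let lam : κ → ↥(riemannRochSpace (B + s27ppG Q)) →ₗ[K] K := fun l =>
    ((e l).symm : (Q l).ResidueField →ₗ[K] K) ∘ₗ
      (LinearMap.proj l ∘ₗ s27ppMap B Q π hπ)
  have hlam : ∀ l p, e l (lam l p) = s27ppMap B Q π hπ p l := fun l p =>
    (e l).apply_symm_apply _
  let V₀ : Submodule K ↥(riemannRochSpace (B + s27ppG Q)) :=
    (riemannRochSpace B).comap (riemannRochSpace (B + s27ppG Q)).subtype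
  have hker : ∀ p : ↥(riemannRochSpace (B + s27ppG Q)), p ∈ V₀ ↔ ∀ l, lam l p = 0 := by
    intro p
    have h1 : p ∈ V₀ ↔ (p : F) ∈ riemannRochSpace B := Iff.rfl
    rw [h1, ← s27pp_ker B hQ π hπ p]
    constructor
    · intro h l
      apply (e l).injective
      rw [hlam, h, map_zero]
      rfl
    · intro h
      funext l
      rw [← hlam, h l, map_zero]
      rfl
  let e₀ : ↥V₀ ≃ₗ[K] ↥(riemannRochSpace B) :=
    Submodule.comapSubtypeEquivOfLe (s27pp_le B Q)
  have hdim' : Module.finrank K ↥(riemannRochSpace (B + s27ppG Q)) =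
      Module.finrank K ↥V₀ + Fintype.card κ := by
    rw [hdim, e₀.finrank_eq]
  obtain ⟨b, hb1, hb2, hb3⟩ := s27ll_exists_basis V₀ lam hker hdim' (f.map e₀.symm)
  have hmemE : ∀ l (p : ↥(riemannRochSpace (B + s27ppG Q))),
      s27lliEq B Q π l * (p : F) ∈ (Q l).toValuationSubring := fun l p =>
    s27pp_mem_of_mem B Q hπ p.2 l
  have hval : ∀ l (p : ↥(riemannRochSpace (B + s27ppG Q))) (c : K), lam l p = c →
      S27llVal (𝔏 := K) (Q l).toValuationSubring (s27lliEq B Q π l * (p : F)) c := by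
    intro l p c hc
    rw [s27lli_val_iff_residue (Q l) (hmemE l p) c, ← he, ← hc, hlam, s27ppMap_apply,
      s27ppLc_eq (Q l) (hmemE l p)]
    rfl
  refine ⟨b, fun i => ?_, ⟨fun l i => ?_, fun l j => ?_⟩⟩
  · rw [hb1 i]
    rfl
  · have h := hval l (b (Sum.inl i)) 0 (hb2 i l)
    unfold S27llVal at h
    rwa [map_zero, sub_zero] at h
  · exact hval l (b (Sum.inr j)) _ (hb3 j l)

end KLevel

/-! ### Transfer to the constant places of `Ω = Frac (𝔠 ⊗[K] 𝔎)` -/

section Con

variable {K 𝔠 𝔎 Ω : Type*} [Field K] [Field 𝔠] [Field 𝔎] [Field Ω]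
  [Algebra K 𝔠] [Algebra K 𝔎] [Algebra K Ω] [Algebra 𝔠 Ω] [Algebra 𝔎 Ω]
  [IsScalarTower K 𝔠 Ω] [IsScalarTower K 𝔎 Ω]
variable (hld : Function.Injective (s26gspMu K 𝔠 𝔎 Ω)) (hgen : S26gspGen K 𝔠 𝔎 Ω)
  (hall : ∀ P : Place K 𝔠, Function.Surjective (algebraMap K P.ResidueField))
variable {ι κ : Type*} [Fintype ι] [Fintype κ] [DecidableEq κ]

/-- the maximal ideal of `Q` goes into the maximal ideal of `Con Q`. -/
theorem s27lli_nonunits_con (Q : Place K 𝔠) {u : 𝔠} (hu : u ∈ Q.toValuationSubring.nonunits) :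
    algebraMap 𝔠 Ω u ∈ (s26gspCon hld hgen hall Q).toValuationSubring.nonunits := by
  by_cases hu0 : u = 0
  · rw [hu0, map_zero]
    exact (ValuationSubring.mem_nonunits_iff_or _).2 (Or.inl rfl)
  · have h1 := (PlaceAux.ord_pos_iff_mem_nonunits Q hu0).2 hu
    have h2 : algebraMap 𝔠 Ω u ≠ 0 := fun h => hu0 ((map_eq_zero (algebraMap 𝔠 Ω)).1 h)
    rw [← PlaceAux.ord_pos_iff_mem_nonunits _ h2, s26gspc_ord_algebraMap]
    exact h1

/-- a value in `K` at `Q` is the same value (in `𝔎`) at `Con Q`. -/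
theorem s27lli_val_con (Q : Place K 𝔠) {y : 𝔠} {c : K}
    (h : S27llVal (𝔏 := K) Q.toValuationSubring y c) :
    S27llVal (𝔏 := 𝔎) (s26gspCon hld hgen hall Q).toValuationSubring (algebraMap 𝔠 Ω y)
      (algebraMap K 𝔎 c) := by
  have h1 := s27lli_nonunits_con hld hgen hall Q h
  unfold S27llVal
  rw [map_sub, ← IsScalarTower.algebraMap_apply K 𝔠 Ω, IsScalarTower.algebraMap_apply K 𝔎 Ω] at h1
  exact h1

/-- **an adapted family at the places `Q l` is adapted at the constant places `Con (Q l)`.** -/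
theorem s27lli_adapted_con (Q : κ → Place K 𝔠) (a : κ → 𝔠) (x' : ι ⊕ κ → 𝔠)
    (h : S27llAdapted (𝔏 := K) (fun l => (Q l).toValuationSubring) a x') :
    S27llAdapted (𝔏 := 𝔎) (fun l => (s26gspCon hld hgen hall (Q l)).toValuationSubring)
      (fun l => algebraMap 𝔠 Ω (a l)) (fun j => algebraMap 𝔠 Ω (x' j)) := by
  refine ⟨fun l i => ?_, fun l j => ?_⟩
  · have h1 := s27lli_nonunits_con hld hgen hall (Q l) (h.inl l i)
    rwa [map_mul] at h1
  · have h1 := s27lli_val_con (𝔎 := 𝔎) hld hgen hall (Q l) (h.inr l j)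
    rw [map_mul] at h1
    have h2 : algebraMap K 𝔎 (if j = l then (1 : K) else 0) = if j = l then (1 : 𝔎) else 0 := by
      split_ifs
      · exact map_one _
      · exact map_zero _
    rwa [h2] at h1

/-- the hypothesis `hc` of `s27ll_coord`: the constants are regular at `Con (Q l)`. -/
theorem s27lli_const_mem (Q : κ → Place K 𝔠) (l : κ) (c : 𝔎) :
    algebraMap 𝔎 Ω c ∈ (s26gspCon hld hgen hall (Q l)).toValuationSubring :=
  (s26gspCon hld hgen hall (Q l)).algebraMap_mem' c

/-- **LB2 instance on the model**: under non-speciality, every `K`-basis `f` of `L_K(B)` extends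
to a `K`-basis `b` of `L_K(B + G)` whose image in `Ω` is adapted at the constant places
`Con (Q l)`, with the local equations `algebraMap (π l ^ (B + G)(Q l))`. -/
theorem s27lli_exists_basis_con (B : Divisor K 𝔠) {Q : κ → Place K 𝔠}
    (hQ : Function.Injective Q) (π : κ → 𝔠) (hπ : ∀ l, (Q l).ord (π l) = 1)
    [Module.Finite K ↥(riemannRochSpace (B + s27ppG Q))]
    (hdim : Module.finrank K ↥(riemannRochSpace (B + s27ppG Q)) =
      Module.finrank K ↥(riemannRochSpace B) + Fintype.card κ)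
    (f : Module.Basis ι K ↥(riemannRochSpace B)) :
    ∃ b : Module.Basis (ι ⊕ κ) K ↥(riemannRochSpace (B + s27ppG Q)),
      (∀ i, ((b (Sum.inl i) : ↥(riemannRochSpace (B + s27ppG Q))) : 𝔠) =
        ((f i : ↥(riemannRochSpace B)) : 𝔠)) ∧
      S27llAdapted (𝔏 := 𝔎) (fun l => (s26gspCon hld hgen hall (Q l)).toValuationSubring)
        (fun l => algebraMap 𝔠 Ω (s27lliEq B Q π l))
        (fun j => algebraMap 𝔠 Ω ((b j : ↥(riemannRochSpace (B + s27ppG Q))) : 𝔠)) := by
  obtain ⟨b, hb1, hb2⟩ := s27lli_exists_basis B hQ π hπ (fun l => hall (Q l)) hdim f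
  exact ⟨b, hb1, s27lli_adapted_con hld hgen hall Q _ _ hb2⟩

/-- `h` regular at `Con Q` ⇒ `h` has a value `h(Q) ∈ 𝔎` at `Con Q`. -/
theorem s27lli_exists_val_con (Q : Place K 𝔠) {h : Ω}
    (hh : h ∈ (s26gspCon hld hgen hall Q).toValuationSubring) :
    ∃ c : 𝔎, S27llVal (𝔏 := 𝔎) (s26gspCon hld hgen hall Q).toValuationSubring h c :=
  s27lli_exists_val _ (s26gspPlace_residue_surjective Q (hall Q) hld hgen) hh

/-- the values `h(Q_l) ∈ 𝔎ˣ` of a function `h` which is a unit at every `Con (Q l)`. -/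
theorem s27lli_exists_values (Q : κ → Place K 𝔠) {h : Ω} (hh0 : h ≠ 0)
    (hh : ∀ l, (s26gspCon hld hgen hall (Q l)).ord h = 0) :
    ∃ hQ : κ → 𝔎, (∀ l, hQ l ≠ 0) ∧
      ∀ l, S27llVal (𝔏 := 𝔎) (s26gspCon hld hgen hall (Q l)).toValuationSubring h (hQ l) := by
  have h1 : ∀ l, ∃ c : 𝔎,
      S27llVal (𝔏 := 𝔎) (s26gspCon hld hgen hall (Q l)).toValuationSubring h c := fun l =>
    s27lli_exists_val_con hld hgen hall (Q l)
      (PlaceAux.mem_of_ord_nonneg _ (by rw [hh l]))
  choose hQ hQv using h1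
  exact ⟨hQ, fun l => s27lli_val_ne_zero _ hh0 (hh l) (hQv l), hQv⟩

end Con

end Fermat.Agent.S27

end
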