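/-
S27-B — leaf **LE3 (LOC-UNIT)**, in the shape consumed by helper27's `s27le5_asm`
(S27/LE5Asm.lean, hypotheses `hhQ`, `hu`), helper99.

Generic E-RED frame (helper21's S27/LEGaussR.lean, helper3's S27/LeLead.lean):
`Rd : DEU.RedData L F k Fb` (`Rd.A = W ⊂ L` the valuation ring of the constants, `Rd.O ⊂ F` the
Gauss-integral functions), `𝒪 ⊂ F` the valuation ring of a constant point `Q`, and
`S27llVal 𝒪 y c` : "`y` has the value `c` at `Q`".

* `s27luv_val_zero/_const/_add/_sum/_lin/_pow/_inv/_div` : the calculus of values;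
* **`s27luv_main`** : `h` Gauss-normalised; `h · w = u` with `w = ∑ p j • y j` (`p` integral, the
  value of `w` at `Q` a unit of `W`), `u = ∑ p' j • y' j`; `h · u₂ = w₂` with
  `w₂ = ∑ q j • z j` (`q` integral, unit value), `u₂ = ∑ q' j • z' j`; the four families have the
  Gauss lattice property and values in `W` at `Q`.  Then `h` has a value `a` at `Q` and
  `a ∈ Wˣ`:  `∃ a, S27llVal 𝒪 h a ∧ a ∈ W ∧ a⁻¹ ∈ W ∧ a ≠ 0`;
* `s27luvCoef c j` : the coefficients of `∏ i, (X − c i)` — the coordinates of the denominator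
  `w = ∏ i, (τ − R i τ)` in the family `1, τ, …, τ^N`: `s27luvCoef_mem` (integral),
  `s27luvCoef_sum` (`∑ j, coef j · a ^ j = ∏ i, (a − c i)`), `s27luvCoef_ker` (the kernel condition
  of the BRIDGE, `∑ j, (R i τ) ^ j · coef j = 0`), `s27luvCoef_lin`, `s27luvCoef_unit`.
-/
import Fermat.Agent.S27.LEGaussR
import Fermat.Agent.S27.LeLead

set_option autoImplicit false
set_option linter.unusedSectionVars false
set_option linter.unusedVariables false

noncomputable section

namespace Fermat.Agent.S27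

open Fermat.Agent.DEU Polynomial

variable {L F k Fb : Type*} [Field L] [Field F] [Algebra L F] [Field k] [Field Fb] [Algebra k Fb]
  {R : RedData L F k Fb}

/-! ### the calculus of values -/

section Val

variable {𝒪 : ValuationSubring F}

theorem s27luv_nonunits_add {a b : F} (ha : a ∈ 𝒪.nonunits) (hb : b ∈ 𝒪.nonunits) :
    a + b ∈ 𝒪.nonunits := by
  rw [ValuationSubring.mem_nonunits_iff] at ha hb ⊢
  exact 𝒪.valuation.map_add_lt ha hb

theorem s27luv_nonunits_zero : (0 : F) ∈ 𝒪.nonunits := by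
  rw [ValuationSubring.mem_nonunits_iff, map_zero]
  exact zero_lt_one

theorem s27luv_nonunits_neg {a : F} (ha : a ∈ 𝒪.nonunits) : -a ∈ 𝒪.nonunits := by
  rw [ValuationSubring.mem_nonunits_iff] at ha ⊢
  rwa [Valuation.map_neg]

theorem s27luv_val_zero : S27llVal (𝔏 := L) 𝒪 (0 : F) (0 : L) := by
  unfold S27llVal
  rw [map_zero, sub_zero]
  exact s27luv_nonunits_zero

theorem s27luv_val_const (c : L) : S27llVal 𝒪 (algebraMap L F c) c := by
  unfold S27llVal
  rw [sub_self]
  exact s27luv_nonunits_zero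

theorem s27luv_val_add {y y' : F} {c c' : L} (h : S27llVal 𝒪 y c) (h' : S27llVal 𝒪 y' c') :
    S27llVal 𝒪 (y + y') (c + c') := by
  unfold S27llVal at *
  have e : y + y' - algebraMap L F (c + c') = (y - algebraMap L F c) + (y' - algebraMap L F c') := by
    rw [map_add]
    ring
  rw [e]
  exact s27luv_nonunits_add h h'

theorem s27luv_val_sum {J : Type*} (s : Finset J) (y : J → F) (c : J → L)
    (h : ∀ j ∈ s, S27llVal 𝒪 (y j) (c j)) :
    S27llVal 𝒪 (∑ j ∈ s, y j) (∑ j ∈ s, c j) := by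
  classical
  induction s using Finset.induction_on with
  | empty =>
    rw [Finset.sum_empty, Finset.sum_empty]
    exact s27luv_val_zero
  | insert j s hj ih =>
    rw [Finset.sum_insert hj, Finset.sum_insert hj]
    exact s27luv_val_add (h j (Finset.mem_insert_self j s))
      (ih fun i hi => h i (Finset.mem_insert_of_mem hi))

/-- the value of a linear combination -/
theorem s27luv_val_lin (hc : ∀ c : L, algebraMap L F c ∈ 𝒪) {J : Type*} [Fintype J]
    (y : J → F) (v : J → L) (hv : ∀ j, S27llVal 𝒪 (y j) (v j)) (p : J → L) :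
    S27llVal 𝒪 (s27legrLin y p) (∑ j, p j * v j) := by
  unfold s27legrLin
  exact s27luv_val_sum _ _ _ fun j _ => s27ll_val_mul hc (s27luv_val_const (p j)) (hv j)

theorem s27luv_val_one : S27llVal (𝔏 := L) 𝒪 (1 : F) (1 : L) := by
  have := s27luv_val_const (𝒪 := 𝒪) (F := F) (1 : L)
  rwa [map_one] at this

/-- the value of a power -/
theorem s27luv_val_pow (hc : ∀ c : L, algebraMap L F c ∈ 𝒪) {y : F} {c : L}
    (h : S27llVal 𝒪 y c) (n : ℕ) : S27llVal 𝒪 (y ^ n) (c ^ n) := by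
  induction n with
  | zero =>
    rw [pow_zero, pow_zero]
    exact s27luv_val_one
  | succ n ih =>
    rw [pow_succ, pow_succ]
    exact s27ll_val_mul hc ih h

/-- the value of the inverse -/
theorem s27luv_val_inv (hc : ∀ c : L, algebraMap L F c ∈ 𝒪) {y : F} {c : L}
    (h : S27llVal 𝒪 y c) (hc0 : c ≠ 0) : S27llVal 𝒪 y⁻¹ c⁻¹ := by
  have hy : y ∈ 𝒪 := s27ll_val_mem hc h
  have hcF : algebraMap L F c ≠ 0 := (_root_.map_ne_zero _).2 hc0
  -- `y` is not in the maximal ideal
  have hyn : y ∉ 𝒪.nonunits := by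
    intro hyn
    have h1 : algebraMap L F c ∈ 𝒪.nonunits := by
      have e : algebraMap L F c = y + -(y - algebraMap L F c) := by ring
      rw [e]
      exact s27luv_nonunits_add hyn (s27luv_nonunits_neg h)
    exact hc0 (s27ll_const_eq_zero hc h1)
  have hy0 : y ≠ 0 := by
    rintro rfl
    exact hyn s27luv_nonunits_zero
  have hyi : y⁻¹ ∈ 𝒪 := by
    rw [ValuationSubring.mem_nonunits_iff, not_lt] at hyn
    rw [← ValuationSubring.valuation_le_one_iff, map_inv₀]
    exact inv_le_one_of_one_le₀ hyn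
  unfold S27llVal
  have e : y⁻¹ - algebraMap L F c⁻¹ =
      (y⁻¹ * algebraMap L F c⁻¹) * -(y - algebraMap L F c) := by
    rw [map_inv₀]
    field_simp
    ring
  rw [e]
  exact s27ll_mul_mem_nonunits (𝒪.mul_mem _ _ hyi (hc c⁻¹)) (s27luv_nonunits_neg h)

/-- the value of a quotient -/
theorem s27luv_val_div (hc : ∀ c : L, algebraMap L F c ∈ 𝒪) {y y' : F} {c c' : L}
    (h : S27llVal 𝒪 y c) (h' : S27llVal 𝒪 y' c') (hc0 : c' ≠ 0) :
    S27llVal 𝒪 (y / y') (c / c') := by
  rw [div_eq_mul_inv, div_eq_mul_inv]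
  exact s27ll_val_mul hc h (s27luv_val_inv hc h' hc0)

/-- a function with a nonzero value is nonzero -/
theorem s27luv_ne_zero (hc : ∀ c : L, algebraMap L F c ∈ 𝒪) {y : F} {c : L}
    (h : S27llVal 𝒪 y c) (hc0 : c ≠ 0) : y ≠ 0 := by
  rintro rfl
  exact hc0 (s27ll_val_unique hc s27luv_val_zero h)

end Val

/-! ### LE3 in the shape of `s27le5_asm` -/

/-- a sum of products of elements of `W` lies in `W` -/
theorem s27luv_sum_mem (W : ValuationSubring L) {J : Type*} [Fintype J] (p v : J → L)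
    (hp : ∀ j, p j ∈ W) (hv : ∀ j, v j ∈ W) : ∑ j, p j * v j ∈ W :=
  Subring.sum_mem W.toSubring fun j _ => W.mul_mem _ _ (hp j) (hv j)

/-- **LE3 (LOC-UNIT), generic E-RED frame**: the Gauss-normalised `h` has a value at `Q` which
is a unit of `W = R.A`. -/
theorem s27luv_main {𝒪 : ValuationSubring F} (hc : ∀ c : L, algebraMap L F c ∈ 𝒪)
    {h : F} (hh : S27legrNorm R h)
    {J J' I I' : Type*} [Fintype J] [Fintype J'] [Fintype I] [Fintype I']
    -- forward: `h · w = u`
    (y : J → F) (v : J → L) (hv : ∀ j, S27llVal 𝒪 (y j) (v j)) (hlat : S27legrLat R y)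
    (y' : J' → F) (v' : J' → L) (hv' : ∀ j, S27llVal 𝒪 (y' j) (v' j))
    (hvA' : ∀ j, v' j ∈ R.A) (hlat' : S27legrLat R y')
    (p : J → L) (hp : ∀ j, p j ∈ R.A) (p' : J' → L)
    (hpu : (∑ j, p j * v j) ∈ R.A ∧ (∑ j, p j * v j)⁻¹ ∈ R.A ∧ (∑ j, p j * v j) ≠ 0)
    (e : h * s27legrLin y p = s27legrLin y' p')
    -- backward: `h · u₂ = w₂`
    (z : I → F) (t : I → L) (ht : ∀ j, S27llVal 𝒪 (z j) (t j)) (hzlat : S27legrLat R z)
    (z' : I' → F) (t' : I' → L) (ht' : ∀ j, S27llVal 𝒪 (z' j) (t' j))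
    (htA' : ∀ j, t' j ∈ R.A) (hzlat' : S27legrLat R z')
    (q : I → L) (hq : ∀ j, q j ∈ R.A) (q' : I' → L)
    (hqu : (∑ j, q j * t j) ∈ R.A ∧ (∑ j, q j * t j)⁻¹ ∈ R.A ∧ (∑ j, q j * t j) ≠ 0)
    (e₂ : h * s27legrLin z' q' = s27legrLin z q) :
    ∃ a : L, S27llVal 𝒪 h a ∧ a ∈ R.A ∧ a⁻¹ ∈ R.A ∧ a ≠ 0 := by
  have h0 : h ≠ 0 := s27legr_norm_ne_zero hh
  -- integrality of the new coordinates
  have hp' : ∀ j, p' j ∈ R.A := (s27legr_coord_transport hlat hlat' hh p p' e).mp hp
  have hq' : ∀ j, q' j ∈ R.A := (s27legr_coord_transport hzlat' hzlat hh q' q e₂).mpr hq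
  -- the four values
  set b : L := ∑ j, p j * v j with hb
  set a₁ : L := ∑ j, p' j * v' j with ha₁
  set d : L := ∑ j, q j * t j with hd
  set b₁ : L := ∑ j, q' j * t' j with hb₁
  have hw : S27llVal 𝒪 (s27legrLin y p) b := s27luv_val_lin hc y v hv p
  have hu : S27llVal 𝒪 (s27legrLin y' p') a₁ := s27luv_val_lin hc y' v' hv' p'
  have hw₂ : S27llVal 𝒪 (s27legrLin z q) d := s27luv_val_lin hc z t ht q
  have hu₂ : S27llVal 𝒪 (s27legrLin z' q') b₁ := s27luv_val_lin hc z' t' ht' q'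
  have ha₁A : a₁ ∈ R.A := s27luv_sum_mem R.A p' v' hp' hvA'
  have hb₁A : b₁ ∈ R.A := s27luv_sum_mem R.A q' t' hq' htA'
  -- `u · u₂ = w · w₂`
  have key : s27legrLin y' p' * s27legrLin z' q' = s27legrLin y p * s27legrLin z q := by
    rw [← e, ← e₂]
    ring
  have hprod : a₁ * b₁ = b * d := by
    have h1 := s27ll_val_mul hc hu hu₂
    have h2 := s27ll_val_mul hc hw hw₂
    rw [key] at h1
    exact s27ll_val_unique hc h2 h1
  have hbd : (b * d)⁻¹ ∈ R.A := by
    rw [mul_inv]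
    exact R.A.mul_mem _ _ hpu.2.1 hqu.2.1
  have hbd0 : b * d ≠ 0 := mul_ne_zero hpu.2.2 hqu.2.2
  have ha₁0 : a₁ ≠ 0 := by
    intro h1
    rw [h1, zero_mul] at hprod
    exact hbd0 hprod.symm
  have hb₁0 : b₁ ≠ 0 := by
    intro h1
    rw [h1, mul_zero] at hprod
    exact hbd0 hprod.symm
  have ha₁i : a₁⁻¹ ∈ R.A := by
    have e1 : a₁⁻¹ = b₁ * (b * d)⁻¹ := by
      rw [← hprod]
      field_simp
    rw [e1]
    exact R.A.mul_mem _ _ hb₁A hbd
  -- the value of `h = u / w`
  have hw0 : s27legrLin y p ≠ 0 := s27luv_ne_zero hc hw hpu.2.2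
  have hval : S27llVal 𝒪 h (a₁ / b) := by
    have h1 := s27luv_val_div hc hu hw hpu.2.2
    have e1 : s27legrLin y' p' / s27legrLin y p = h := by
      rw [← e]
      field_simp
    rwa [e1] at h1
  refine ⟨a₁ / b, hval, ?_, ?_, div_ne_zero ha₁0 hpu.2.2⟩
  · rw [div_eq_mul_inv]
    exact R.A.mul_mem _ _ ha₁A hpu.2.1
  · rw [inv_div, div_eq_mul_inv]
    exact R.A.mul_mem _ _ hpu.1 ha₁i

/-! ### the coordinates of the denominator `∏ (τ − R i τ)` in the family `1, τ, …, τ ^ N` -/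

section Coef

variable {N : ℕ}

/-- the polynomial `∏ i, (X − c i)` -/
def s27luvPoly (c : Fin N → L) : L[X] := ∏ i, (X - C (c i))

theorem s27luvPoly_natDegree (c : Fin N → L) : (s27luvPoly c).natDegree = N := by
  unfold s27luvPoly
  rw [Polynomial.natDegree_prod_of_monic _ _ fun i _ => Polynomial.monic_X_sub_C (c i)]
  simp

/-- the coefficients of `∏ i, (X − c i)`: the coordinates of `∏ i, (τ − c i)` in
`1, τ, …, τ ^ N` -/
def s27luvCoef (c : Fin N → L) : Fin (N + 1) → L := fun j => (s27luvPoly c).coeff (j : ℕ)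

/-- the coefficients are integral if the `c i` are -/
theorem s27luvCoef_mem (W : ValuationSubring L) (c : Fin N → L) (hc : ∀ i, c i ∈ W)
    (j : Fin (N + 1)) : s27luvCoef c j ∈ W := by
  have h1 : s27luvPoly c ∈ Polynomial.lifts W.subtype := by
    unfold s27luvPoly
    refine Subsemiring.prod_mem _ fun i _ => ?_
    have h2 : (X - C (c i) : L[X]) = Polynomial.map W.subtype (X - C (⟨c i, hc i⟩ : ↥W)) := by
      rw [Polynomial.map_sub, Polynomial.map_X, Polynomial.map_C]
      rfl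
    rw [h2]
    exact (Polynomial.mem_lifts _).2 ⟨_, rfl⟩
  rw [Polynomial.lifts_iff_coeff_lifts] at h1
  obtain ⟨w, hw⟩ := h1 (j : ℕ)
  unfold s27luvCoef
  rw [← hw]
  exact w.2

/-- `∑ j, coef j · a ^ j = ∏ i, (a − c i)`, in any `L`-algebra -/
theorem s27luvCoef_sum {A : Type*} [CommRing A] [Algebra L A] (c : Fin N → L) (a : A) :
    ∑ j : Fin (N + 1), algebraMap L A (s27luvCoef c j) * a ^ (j : ℕ) =
      ∏ i, (a - algebraMap L A (c i)) := by
  have h1 : Polynomial.aeval a (s27luvPoly c) = ∏ i, (a - algebraMap L A (c i)) := by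
    unfold s27luvPoly
    rw [map_prod]
    refine Finset.prod_congr rfl fun i _ => ?_
    rw [map_sub, Polynomial.aeval_X, Polynomial.aeval_C]
  rw [← h1, Polynomial.aeval_eq_sum_range, s27luvPoly_natDegree,
    Finset.sum_range fun j => (s27luvPoly c).coeff j • a ^ j]
  refine Finset.sum_congr rfl fun j _ => ?_
  rw [Algebra.smul_def]
  rfl

/-- the same in `L` itself -/
theorem s27luvCoef_sum_self (c : Fin N → L) (a : L) :
    ∑ j : Fin (N + 1), s27luvCoef c j * a ^ (j : ℕ) = ∏ i, (a - c i) := by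
  have := s27luvCoef_sum (A := L) c a
  simpa using this

/-- **the kernel condition of the BRIDGE**: the coordinates of `∏ (τ − R i τ)` in
`1, τ, …, τ ^ N` are a kernel vector of the evaluations at the points `R i`. -/
theorem s27luvCoef_ker (c : Fin N → L) (i : Fin N) :
    ∑ j : Fin (N + 1), c i ^ (j : ℕ) * s27luvCoef c j = 0 := by
  have h1 := s27luvCoef_sum_self c (c i)
  rw [Finset.prod_eq_zero (Finset.mem_univ i) (sub_self _)] at h1
  rw [← h1]
  exact Finset.sum_congr rfl fun j _ => mul_comm _ _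

/-- the denominator as a linear combination of `1, τ, …, τ ^ N` -/
theorem s27luvCoef_lin (c : Fin N → L) (τ : F) :
    s27legrLin (fun j : Fin (N + 1) => τ ^ (j : ℕ)) (s27luvCoef c) =
      ∏ i, (τ - algebraMap L F (c i)) := by
  unfold s27legrLin
  exact s27luvCoef_sum c τ

/-- the value of the denominator at `Q` is a unit of `W` if all the differences
`τ(Q) − c i` are -/
theorem s27luvCoef_unit (W : ValuationSubring L) (c : Fin N → L) (a : L)
    (hu : ∀ i, (a - c i) ∈ W ∧ (a - c i)⁻¹ ∈ W ∧ a - c i ≠ 0) :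
    (∑ j : Fin (N + 1), s27luvCoef c j * a ^ (j : ℕ)) ∈ W ∧
      (∑ j : Fin (N + 1), s27luvCoef c j * a ^ (j : ℕ))⁻¹ ∈ W ∧
      (∑ j : Fin (N + 1), s27luvCoef c j * a ^ (j : ℕ)) ≠ 0 := by
  rw [s27luvCoef_sum_self]
  refine ⟨Subring.prod_mem W.toSubring fun i _ => (hu i).1, ?_,
    Finset.prod_ne_zero_iff.2 fun i _ => (hu i).2.2⟩
  rw [← Finset.prod_inv_distrib]
  exact Subring.prod_mem W.toSubring fun i _ => (hu i).2.1

end Coef

end Fermat.Agent.S27

end
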