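/-
S27-B — leaf **LE3 (LOC-UNIT)**, INSTANCE on the model `Ω = Frac (𝔠 ⊗[K] 𝔎)` at a constant place
`Con Q` (helper99).  Frame of helper24's S27/Bridge.lean / S27/LeLeadInst.lean (`hld`, `hgen`,
`hall`, `Con Q = s26gspCon hld hgen hall Q`) with a Gauss reduction datum
`Rd : DEU.RedData 𝔎 Ω k Fb` (`Rd.A = W`), as in helper27's `s27le5_asm`.

* `s27lui_linInd_pow`  : `1, τ, …, τ ^ n` are `K`-linearly independent (`τ` transcendental);
  `s27lui_linInd_pow_ord` : the same from `ord_Q τ ≠ 0`;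
* `s27lui_val_pow`     : `0 < ord_Q τ` ⇒ `τ ^ j` has the value `0 ^ j` at `Con Q`;
* `s27lui_val_fun`     : `x ∈ 𝒪_Q` ⇒ `x` has a value in `K ⊆ W` at `Con Q`;
* **`s27lui_main`**    : LOC-UNIT at `Con Q` from LinEq at ONE separating function `τ`
  (`0 < ord_Q τ`, `c i = R i τ ∈ Wˣ`, `c' i = R' i τ ∈ Wˣ`):
    `h · ∏ (τ − c i) = Σ p' j · x₂ j`,  `h⁻¹ · ∏ (τ − c' i) = Σ q' j · x₁ j`,
  `x₁`, `x₂` `K`-independent families regular at `Q`, `h` Gauss-normalised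
  ⇒ `∃ a, S27llVal 𝒪_{Con Q} h a ∧ a ∈ W ∧ a⁻¹ ∈ W ∧ a ≠ 0`  — the hypotheses `hhQ l`, `hu l` of
  `s27le5_asm`.
-/
import Fermat.Agent.S27.LocUnitVal
import Fermat.Agent.S27.LeLeadInst
import Fermat.Agent.S24.DiffSpan

set_option autoImplicit false
set_option linter.style.haveILetI false
set_option linter.unusedSectionVars false
set_option linter.unusedVariables false

noncomputable section

namespace Fermat.Agent.S27

open AlgebraicCurve Module Fermat.Agent.S24 Fermat.Agent.S26 Fermat.Agent.DEU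

/-! ### linear independence of the powers -/

section Pow

variable {K E : Type*} [Field K] [Field E] [Algebra K E]

/-- the powers `1, τ, …, τ ^ (n − 1)` of a transcendental element are linearly independent -/
theorem s27lui_linInd_pow {τ : E} (hτ : Transcendental K τ) (n : ℕ) :
    LinearIndependent K (fun j : Fin n => τ ^ (j : ℕ)) := by
  have h := (Polynomial.basisMonomials K).linearIndependent.map'
    (Polynomial.aeval τ).toLinearMap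
    (LinearMap.ker_eq_bot.mpr (transcendental_iff_injective.mp hτ))
  have hfun : (fun m : ℕ => τ ^ m) =
      (Polynomial.aeval τ).toLinearMap ∘ (Polynomial.basisMonomials K) := by
    funext m
    simp
  rw [← hfun] at h
  exact h.comp (fun j : Fin n => (j : ℕ)) Fin.val_injective

/-- the same for a function with `ord_Q τ ≠ 0` -/
theorem s27lui_linInd_pow_ord (Q : Place K E) {τ : E} (hτ : Q.ord τ ≠ 0) (n : ℕ) :
    LinearIndependent K (fun j : Fin n => τ ^ (j : ℕ)) :=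
  s27lui_linInd_pow (DiffSpan.transcendental_of_ord_ne_zero Q hτ) n

end Pow

/-! ### values at `Con Q` -/

section Con

variable {K 𝔠 𝔎 Ω : Type*} [Field K] [Field 𝔠] [Field 𝔎] [Field Ω]
  [Algebra K 𝔠] [Algebra K 𝔎] [Algebra K Ω] [Algebra 𝔠 Ω] [Algebra 𝔎 Ω]
  [IsScalarTower K 𝔠 Ω] [IsScalarTower K 𝔎 Ω]
variable (hld : Function.Injective (s26gspMu K 𝔠 𝔎 Ω)) (hgen : S26gspGen K 𝔠 𝔎 Ω)
  (hall : ∀ P : Place K 𝔠, Function.Surjective (algebraMap K P.ResidueField))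
variable {k Fb : Type*} [Field k] [Field Fb] [Algebra k Fb]

/-- a function regular at `Q` has a value in `K` at `Con Q` -/
theorem s27lui_val_fun (Q : Place K 𝔠) {x : 𝔠} (hx : x ∈ Q.toValuationSubring) :
    ∃ c : K, S27llVal (𝔏 := 𝔎) (s26gspCon hld hgen hall Q).toValuationSubring
      (algebraMap 𝔠 Ω x) (algebraMap K 𝔎 c) := by
  obtain ⟨c, hc⟩ := s27lli_exists_val Q (hall Q) hx
  exact ⟨c, s27lli_val_con hld hgen hall Q hc⟩

/-- a function vanishing at `Q` has the value `0` at `Con Q` -/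
theorem s27lui_val_zero (Q : Place K 𝔠) {τ : 𝔠} (hτ : 0 < Q.ord τ) :
    S27llVal (𝔏 := 𝔎) (s26gspCon hld hgen hall Q).toValuationSubring
      (algebraMap 𝔠 Ω τ) (0 : 𝔎) := by
  have hτ0 : τ ≠ 0 := by
    rintro rfl
    rw [Place.ord_zero] at hτ
    exact lt_irrefl _ hτ
  have h1 : τ ∈ Q.toValuationSubring.nonunits := (PlaceAux.ord_pos_iff_mem_nonunits Q hτ0).1 hτ
  have h2 := s27lli_nonunits_con hld hgen hall Q h1
  unfold S27llVal
  rwa [map_zero, sub_zero]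

/-- the powers of a function vanishing at `Q` have the values `0 ^ j` at `Con Q` -/
theorem s27lui_val_pow (Q : Place K 𝔠) {τ : 𝔠} (hτ : 0 < Q.ord τ) (j : ℕ) :
    S27llVal (𝔏 := 𝔎) (s26gspCon hld hgen hall Q).toValuationSubring
      (algebraMap 𝔠 Ω (τ ^ j)) ((0 : 𝔎) ^ j) := by
  rw [map_pow]
  exact s27luv_val_pow (fun c => (s26gspCon hld hgen hall Q).algebraMap_mem' c)
    (s27lui_val_zero hld hgen hall Q hτ) j

/-- **LE3 (LOC-UNIT) at `Con Q`**, from LinEq at one separating function `τ`. -/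
theorem s27lui_main (Rd : RedData 𝔎 Ω k Fb) (hKA : ∀ a : K, algebraMap K 𝔎 a ∈ Rd.A)
    (Q : Place K 𝔠) {h : Ω} (hh : S27legrNorm Rd h)
    {N N' : ℕ} (c : Fin N → 𝔎) (c' : Fin N' → 𝔎)
    (hc : ∀ i, c i ∈ Rd.A ∧ (c i)⁻¹ ∈ Rd.A ∧ c i ≠ 0)
    (hc' : ∀ i, c' i ∈ Rd.A ∧ (c' i)⁻¹ ∈ Rd.A ∧ c' i ≠ 0)
    (τ : 𝔠) (hτQ : 0 < Q.ord τ)
    (hlatτ : S27legrLat Rd (fun j : Fin (N + 1) => algebraMap 𝔠 Ω (τ ^ (j : ℕ))))
    (hlatτ' : S27legrLat Rd (fun j : Fin (N' + 1) => algebraMap 𝔠 Ω (τ ^ (j : ℕ))))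
    -- forward
    {J₂ : Type*} [Fintype J₂] (x₂ : J₂ → 𝔠) (hx₂Q : ∀ j, x₂ j ∈ Q.toValuationSubring)
    (hlat₂ : S27legrLat Rd (fun j => algebraMap 𝔠 Ω (x₂ j))) (p' : J₂ → 𝔎)
    (e : s27legrLin (fun j => algebraMap 𝔠 Ω (x₂ j)) p' =
      h * s27legrLin (fun j : Fin (N + 1) => algebraMap 𝔠 Ω (τ ^ (j : ℕ))) (s27luvCoef c))
    -- backward
    {J₁ : Type*} [Fintype J₁] (x₁ : J₁ → 𝔠) (hx₁Q : ∀ j, x₁ j ∈ Q.toValuationSubring)
    (hlat₁ : S27legrLat Rd (fun j => algebraMap 𝔠 Ω (x₁ j))) (q' : J₁ → 𝔎)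
    (e' : s27legrLin (fun j => algebraMap 𝔠 Ω (x₁ j)) q' =
      h⁻¹ * s27legrLin (fun j : Fin (N' + 1) => algebraMap 𝔠 Ω (τ ^ (j : ℕ))) (s27luvCoef c')) :
    ∃ a : 𝔎, S27llVal (s26gspCon hld hgen hall Q).toValuationSubring h a ∧
      a ∈ Rd.A ∧ a⁻¹ ∈ Rd.A ∧ a ≠ 0 := by
  classical
  have h0 : h ≠ 0 := s27legr_norm_ne_zero hh
  have hcon : ∀ a : 𝔎, algebraMap 𝔎 Ω a ∈ (s26gspCon hld hgen hall Q).toValuationSubring :=
    fun a => (s26gspCon hld hgen hall Q).algebraMap_mem' a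
  -- the values of the two families regular at `Q`
  choose v₂ hv₂ using fun j => s27lui_val_fun (𝔎 := 𝔎) hld hgen hall Q (hx₂Q j)
  choose v₁ hv₁ using fun j => s27lui_val_fun (𝔎 := 𝔎) hld hgen hall Q (hx₁Q j)
  -- the unit values of the denominators
  have hneg : ∀ {M : ℕ} (d : Fin M → 𝔎), (∀ i, d i ∈ Rd.A ∧ (d i)⁻¹ ∈ Rd.A ∧ d i ≠ 0) →
      ∀ i, ((0 : 𝔎) - d i) ∈ Rd.A ∧ ((0 : 𝔎) - d i)⁻¹ ∈ Rd.A ∧ (0 : 𝔎) - d i ≠ 0 := by
    intro M d hd i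
    rw [zero_sub]
    refine ⟨Rd.A.neg_mem _ (hd i).1, ?_, neg_ne_zero.2 (hd i).2.2⟩
    rw [inv_neg]
    exact Rd.A.neg_mem _ (hd i).2.1
  have hpu := s27luvCoef_unit Rd.A c (0 : 𝔎) (hneg c hc)
  have hqu := s27luvCoef_unit Rd.A c' (0 : 𝔎) (hneg c' hc')
  have e₂ : h * s27legrLin (fun j => algebraMap 𝔠 Ω (x₁ j)) q' =
      s27legrLin (fun j : Fin (N' + 1) => algebraMap 𝔠 Ω (τ ^ (j : ℕ))) (s27luvCoef c') := by
    rw [e', ← mul_assoc, mul_inv_cancel₀ h0, one_mul]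
  exact s27luv_main hcon hh
    (fun j : Fin (N + 1) => algebraMap 𝔠 Ω (τ ^ (j : ℕ))) (fun j => (0 : 𝔎) ^ (j : ℕ))
    (fun j => s27lui_val_pow hld hgen hall Q hτQ j) hlatτ
    (fun j => algebraMap 𝔠 Ω (x₂ j)) (fun j => algebraMap K 𝔎 (v₂ j)) hv₂
    (fun j => hKA _) hlat₂
    (s27luvCoef c) (s27luvCoef_mem Rd.A c fun i => (hc i).1) p' hpu e.symm
    (fun j : Fin (N' + 1) => algebraMap 𝔠 Ω (τ ^ (j : ℕ))) (fun j => (0 : 𝔎) ^ (j : ℕ))
    (fun j => s27lui_val_pow hld hgen hall Q hτQ j) hlatτ'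
    (fun j => algebraMap 𝔠 Ω (x₁ j)) (fun j => algebraMap K 𝔎 (v₁ j)) hv₁
    (fun j => hKA _) hlat₁
    (s27luvCoef c') (s27luvCoef_mem Rd.A c' fun i => (hc' i).1) q' hqu e₂

end Con

end Fermat.Agent.S27

end
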