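/-
S27-B — leaf **LE3 (LOC-UNIT)**, TOP on the model `Ω = Frac (𝔠 ⊗[K] 𝔎)` (helper99): the hypothesis
`hval` of helper27's `s27le5_asm_scale` (row 7 of helper60's LE-TOP table), LITERALLY, at a
constant place `Con Q`, from the divisor of `h`.

Frame of helper24's S27/Bridge.lean (`hld`, `hgen`, `hall`, `hx`; `Con`, `pt`), a Gauss reduction
datum `Rd : DEU.RedData 𝔎 Ω k Fb` (`Rd.A = W`) with the Gauss lattice property `hlat`
(helper21, `s27gi_lat`), points `R`, `R'` and `h ≠ 0` with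
    `div h = Σ pt (R' i) + Con M' − Σ pt (R i)`,
`Q` a place of `𝔠 / K` off `supp M'` which is not the centre of any `R i`, `R' i` along `W`.

* `s27lut_exists_B` : `0 < ord_Q τ` ⇒ `∃ B ≥ 0, B Q = 0, τ ^ j ∈ L_K(B)` for `j ≤ n`
  (`B = n ·` pole divisor of `τ`);
* `s27lut_regular`  : `B Q = 0` ⇒ `L_K(B) ⊆ 𝒪_Q`;
* `s27lut_tau`      : the statement for ONE separating function `τ`;
* **`s27lut_hval`** : `∀ c ≠ 0, Norm (c · h) → ∃ a, S27llVal 𝒪_{Con Q} (c · h) a ∧ a ∈ W ∧ a⁻¹ ∈ W ∧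
  a ≠ 0`  (`τ` from helper87's `s27le3_exists_tau`).
-/
import Fermat.Agent.S27.LocUnitInst
import Fermat.Agent.S27.Bridge
import Fermat.Agent.S27.LE3Tau
import Fermat.Agent.S26.ERR2c

set_option autoImplicit false
set_option linter.style.haveILetI false
set_option linter.unusedSectionVars false
set_option linter.unusedVariables false

noncomputable section

namespace Fermat.Agent.S27

open AlgebraicCurve Module IntermediateField Fermat.Agent.S24 Fermat.Agent.S26 Fermat.Agent.DEU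

/-! ### the pole divisor of the separating function -/

section KLevel

variable {K F : Type*} [Field K] [Field F] [Algebra K F]

/-- `n ·` (pole divisor of `τ`): it is `≥ 0`, avoids `Q` (`0 < ord_Q τ`), and `L_K` of it
contains `1, τ, …, τ ^ n`. -/
theorem s27lut_exists_B (x : F) (hx : Transcendental K x) [FiniteDimensional K⟮x⟯ F]
    (Q : Place K F) (τ : F) (hτ : 0 < Q.ord τ) (n : ℕ) :
    ∃ B : Divisor K F, 0 ≤ B ∧ B Q = 0 ∧ ∀ j : ℕ, j ≤ n → τ ^ j ∈ riemannRochSpace B := by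
  obtain ⟨D, hD⟩ := s26err_exists_divisor x hx τ
  refine ⟨n • s26errNegPart D, nsmul_nonneg (s26errNegPart_nonneg D) n, ?_, ?_⟩
  · rw [Finsupp.smul_apply, s26errNegPart_apply, hD Q]
    have : max 0 (-(Q.ord τ)) = 0 := max_eq_left (by omega)
    rw [this, smul_zero]
  · intro j hj
    rw [mem_riemannRochSpace_iff]
    intro v
    right
    rw [place_ord_pow, Finsupp.smul_apply, s26errNegPart_apply, hD v, nsmul_eq_mul]
    have hjn : (j : ℤ) ≤ (n : ℤ) := by exact_mod_cast hj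
    have hj0 : (0 : ℤ) ≤ (j : ℤ) := Int.natCast_nonneg j
    rcases le_or_gt 0 (v.ord τ) with ho | ho
    · rw [max_eq_left (by omega)]
      have := mul_nonneg hj0 ho
      omega
    · rw [max_eq_right (by omega)]
      nlinarith

/-- `B Q = 0` (or `≤ 0`) ⇒ the functions of `L_K(B)` are regular at `Q` -/
theorem s27lut_regular (Q : Place K F) (B : Divisor K F) (hB : B Q ≤ 0) {f : F}
    (hf : f ∈ riemannRochSpace B) : f ∈ Q.toValuationSubring := by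
  rw [mem_riemannRochSpace_iff] at hf
  rcases hf Q with h | h
  · rw [h]
    exact zero_mem _
  · exact PlaceAux.mem_of_ord_nonneg Q (by omega)

/-- a basis of a subspace is a linearly independent family of the ambient space -/
theorem s27lut_basis_linInd {J : Type*} (S : Submodule K F) (b : Basis J K ↥S) :
    LinearIndependent K (fun j => ((b j : ↥S) : F)) :=
  b.linearIndependent.map' S.subtype (Submodule.ker_subtype S)

end KLevel

/-! ### LOC-UNIT at `Con Q` -/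

section Top

variable {K 𝔠 𝔎 Ω : Type*} [Field K] [Field 𝔠] [Field 𝔎] [Field Ω]
  [Algebra K 𝔠] [Algebra K 𝔎] [Algebra K Ω] [Algebra 𝔠 Ω] [Algebra 𝔎 Ω]
  [IsScalarTower K 𝔠 Ω] [IsScalarTower K 𝔎 Ω]
variable (hld : Function.Injective (s26gspMu K 𝔠 𝔎 Ω)) (hgen : S26gspGen K 𝔠 𝔎 Ω)
  (hall : ∀ P : Place K 𝔠, Function.Surjective (algebraMap K P.ResidueField))
  {x : 𝔠} (hx : Transcendental K x)
  [FiniteDimensional ↥(IntermediateField.adjoin K {x}) 𝔠]
  [Algebra.IsSeparable ↥(IntermediateField.adjoin K {x}) 𝔠]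
variable {k Fb : Type*} [Field k] [Field Fb] [Algebra k Fb]

/-- the divisor of `h⁻¹` -/
theorem s27lut_div_inv (M' : Divisor K 𝔠) {N N' : ℕ} (R : Fin N → 𝔠 →ₐ[K] 𝔎)
    (R' : Fin N' → 𝔠 →ₐ[K] 𝔎) {h : Ω}
    (hdiv : ∀ v : Place 𝔎 Ω, v.ord h =
      (s27brgPts hld hgen hx R' + s27brgCon hld hgen hall M' - s27brgPts hld hgen hx R) v) :
    ∀ v : Place 𝔎 Ω, v.ord h⁻¹ =
      (s27brgPts hld hgen hx R + s27brgCon hld hgen hall (-M') - s27brgPts hld hgen hx R') v := by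
  intro v
  rw [v.ord_inv, hdiv v]
  have h1 : s27brgCon hld hgen hall (-M') = -s27brgCon hld hgen hall M' := by
    unfold s27brgCon
    exact map_neg (Finsupp.mapDomain.addMonoidHom (s26gspCon hld hgen hall)) M'
  rw [h1]
  simp only [Finsupp.coe_sub, Finsupp.coe_add, Finsupp.coe_neg, Pi.sub_apply, Pi.add_apply,
    Pi.neg_apply]
  ring

/-- **LE3 on the model, for one separating function `τ`.** -/
theorem s27lut_tau (Rd : RedData 𝔎 Ω k Fb) (hKA : ∀ a : K, algebraMap K 𝔎 a ∈ Rd.A)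
    (hlat : ∀ (n : ℕ) (y : Fin n → 𝔠), LinearIndependent K y →
      S27legrLat Rd (fun j => algebraMap 𝔠 Ω (y j)))
    (M' : Divisor K 𝔠) {N N' : ℕ} (R : Fin N → 𝔠 →ₐ[K] 𝔎) (R' : Fin N' → 𝔠 →ₐ[K] 𝔎)
    (hR : Function.Injective R) (hR' : Function.Injective R')
    {h : Ω} (hh0 : h ≠ 0)
    (hdiv : ∀ v : Place 𝔎 Ω, v.ord h =
      (s27brgPts hld hgen hx R' + s27brgCon hld hgen hall M' - s27brgPts hld hgen hx R) v)
    (Q : Place K 𝔠) (hQM : M' Q = 0)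
    (τ : 𝔠) (hτQ : 0 < Q.ord τ)
    (hτ : ∀ i, R i τ ∈ Rd.A ∧ (R i τ)⁻¹ ∈ Rd.A ∧ R i τ ≠ 0)
    (hτ' : ∀ i, R' i τ ∈ Rd.A ∧ (R' i τ)⁻¹ ∈ Rd.A ∧ R' i τ ≠ 0)
    (c : 𝔎) (hc0 : c ≠ 0) (hnorm : S27legrNorm Rd (algebraMap 𝔎 Ω c * h)) :
    ∃ a : 𝔎, S27llVal (s26gspCon hld hgen hall Q).toValuationSubring (algebraMap 𝔎 Ω c * h) a ∧
      a ∈ Rd.A ∧ a⁻¹ ∈ Rd.A ∧ a ≠ 0 := by
  classical
  have hcF : algebraMap 𝔎 Ω c ≠ 0 := fun e => hc0 ((map_eq_zero _).1 e)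
  have hτne : Q.ord τ ≠ 0 := ne_of_gt hτQ
  -- the divisors
  obtain ⟨B₀, hB₀, hB₀Q, hB₀τ⟩ := s27lut_exists_B x hx Q τ hτQ (max N N')
  set B₁ : Divisor K 𝔠 := B₀ + s26errNegPart M' with hB₁
  have hNQ : s26errNegPart M' Q = 0 := by
    rw [s26errNegPart_apply, hQM]
    simp
  have hB₁Q : B₁ Q = 0 := by
    rw [hB₁, Finsupp.add_apply, hB₀Q, hNQ, add_zero]
  have hle : B₀ ≤ B₁ + M' := by
    rw [Finsupp.le_def]
    intro v
    rw [hB₁, Finsupp.add_apply, Finsupp.add_apply, s26errNegPart_apply]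
    have := le_max_right 0 (-(M' v))
    omega
  have hB₂Q : (B₀ + M') Q = 0 := by
    rw [Finsupp.add_apply, hB₀Q, hQM, add_zero]
  -- finite bases
  haveI : Module.Finite K ↥(riemannRochSpace B₁) := s26err_rr_finite' x hx B₁
  haveI : Module.Finite K ↥(riemannRochSpace (B₀ + M')) := s26err_rr_finite' x hx (B₀ + M')
  let b₂ := Module.finBasis K ↥(riemannRochSpace B₁)
  let b₁ := Module.finBasis K ↥(riemannRochSpace (B₀ + M'))
  -- the kernel conditions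
  have hker : ∀ i, ∑ j : Fin (N + 1), R i (τ ^ (j : ℕ)) * s27luvCoef (fun i => R i τ) j = 0 := by
    intro i
    have := s27luvCoef_ker (fun i => R i τ) i
    simpa only [map_pow] using this
  have hker' : ∀ i, ∑ j : Fin (N' + 1), R' i (τ ^ (j : ℕ)) * s27luvCoef (fun i => R' i τ) j = 0 := by
    intro i
    have := s27luvCoef_ker (fun i => R' i τ) i
    simpa only [map_pow] using this
  -- forward LinEq
  have hx₁ : ∀ j : Fin (N + 1), τ ^ (j : ℕ) ∈ riemannRochSpace (B₁ + M') := fun j =>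
    Fermat.Agent.ES.R.rr_mono hle (hB₀τ j (le_trans (Nat.lt_succ_iff.1 j.2) (le_max_left _ _)))
  obtain ⟨p', -, e⟩ := s27brg_linEq hld hgen hall hx B₁ M' R R' hR hR' hh0 hdiv
    (fun j : Fin (N + 1) => τ ^ (j : ℕ)) hx₁ b₂ (s27luvCoef fun i => R i τ) hker
  -- backward LinEq
  have hBB : B₀ + M' + -M' = B₀ := by abel
  have hx₁' : ∀ j : Fin (N' + 1), τ ^ (j : ℕ) ∈ riemannRochSpace (B₀ + M' + -M') := fun j => by
    rw [hBB]
    exact hB₀τ j (le_trans (Nat.lt_succ_iff.1 j.2) (le_max_right _ _))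
  obtain ⟨q', -, e'⟩ := s27brg_linEq hld hgen hall hx (B₀ + M') (-M') R' R hR' hR
    (inv_ne_zero hh0) (s27lut_div_inv hld hgen hall hx M' R R' hdiv)
    (fun j : Fin (N' + 1) => τ ^ (j : ℕ)) hx₁' b₁ (s27luvCoef fun i => R' i τ) hker'
  -- scaling
  have es : s27legrLin (fun j => algebraMap 𝔠 Ω ((b₂ j : ↥(riemannRochSpace B₁)) : 𝔠))
      (fun j => c * p' j) = (algebraMap 𝔎 Ω c * h) *
      s27legrLin (fun j : Fin (N + 1) => algebraMap 𝔠 Ω (τ ^ (j : ℕ)))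
        (s27luvCoef fun i => R i τ) := by
    have e1 : s27legrLin (fun j => algebraMap 𝔠 Ω ((b₂ j : ↥(riemannRochSpace B₁)) : 𝔠)) p' =
        h * s27legrLin (fun j : Fin (N + 1) => algebraMap 𝔠 Ω (τ ^ (j : ℕ)))
          (s27luvCoef fun i => R i τ) := e
    rw [mul_assoc, ← e1]
    unfold s27legrLin
    rw [Finset.mul_sum]
    refine Finset.sum_congr rfl fun j _ => ?_
    rw [map_mul]
    ring
  have es' : s27legrLin (fun j => algebraMap 𝔠 Ω ((b₁ j : ↥(riemannRochSpace (B₀ + M'))) : 𝔠))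
      (fun j => c⁻¹ * q' j) = (algebraMap 𝔎 Ω c * h)⁻¹ *
      s27legrLin (fun j : Fin (N' + 1) => algebraMap 𝔠 Ω (τ ^ (j : ℕ)))
        (s27luvCoef fun i => R' i τ) := by
    have e1 : s27legrLin (fun j => algebraMap 𝔠 Ω ((b₁ j : ↥(riemannRochSpace (B₀ + M'))) : 𝔠))
        q' = h⁻¹ * s27legrLin (fun j : Fin (N' + 1) => algebraMap 𝔠 Ω (τ ^ (j : ℕ)))
          (s27luvCoef fun i => R' i τ) := e'
    rw [mul_inv, mul_assoc, ← e1]
    unfold s27legrLin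
    rw [Finset.mul_sum]
    refine Finset.sum_congr rfl fun j _ => ?_
    rw [map_mul, map_inv₀]
    ring
  exact s27lui_main hld hgen hall Rd hKA Q hnorm (fun i => R i τ) (fun i => R' i τ) hτ hτ' τ hτQ
    (hlat _ _ (s27lui_linInd_pow_ord Q hτne (N + 1)))
    (hlat _ _ (s27lui_linInd_pow_ord Q hτne (N' + 1)))
    (fun j => ((b₂ j : ↥(riemannRochSpace B₁)) : 𝔠))
    (fun j => s27lut_regular Q B₁ (le_of_eq hB₁Q) (b₂ j).2)
    (hlat _ _ (s27lut_basis_linInd _ b₂)) (fun j => c * p' j) es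
    (fun j => ((b₁ j : ↥(riemannRochSpace (B₀ + M'))) : 𝔠))
    (fun j => s27lut_regular Q (B₀ + M') (le_of_eq hB₂Q) (b₁ j).2)
    (hlat _ _ (s27lut_basis_linInd _ b₁)) (fun j => c⁻¹ * q' j) es'

/-- **LE3 on the model = `hval` of `s27le5_asm_scale`, at the constant place `Con Q`**:
`Q` off `supp M'`, not the centre of any of the points `R i`, `R' i` along `W = Rd.A`. -/
theorem s27lut_hval (Rd : RedData 𝔎 Ω k Fb) (hKA : ∀ a : K, algebraMap K 𝔎 a ∈ Rd.A)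
    (hlat : ∀ (n : ℕ) (y : Fin n → 𝔠), LinearIndependent K y →
      S27legrLat Rd (fun j => algebraMap 𝔠 Ω (y j)))
    (M' : Divisor K 𝔠) {N N' : ℕ} (R : Fin N → 𝔠 →ₐ[K] 𝔎) (R' : Fin N' → 𝔠 →ₐ[K] 𝔎)
    (hR : Function.Injective R) (hR' : Function.Injective R')
    {h : Ω} (hh0 : h ≠ 0)
    (hdiv : ∀ v : Place 𝔎 Ω, v.ord h =
      (s27brgPts hld hgen hx R' + s27brgCon hld hgen hall M' - s27brgPts hld hgen hx R) v)
    (Q : Place K 𝔠) (hQM : M' Q = 0)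
    (hred : ∀ i, (∀ f : 𝔠, R i f ∈ Rd.A) ∨
      ∃ Q' : Place K 𝔠, Rd.A.comap (R i : 𝔠 →+* 𝔎) = Q'.toValuationSubring)
    (hred' : ∀ i, (∀ f : 𝔠, R' i f ∈ Rd.A) ∨
      ∃ Q' : Place K 𝔠, Rd.A.comap (R' i : 𝔠 →+* 𝔎) = Q'.toValuationSubring)
    (hQ : ∀ i, Rd.A.comap (R i : 𝔠 →+* 𝔎) ≠ Q.toValuationSubring)
    (hQ' : ∀ i, Rd.A.comap (R' i : 𝔠 →+* 𝔎) ≠ Q.toValuationSubring) :
    ∀ c : 𝔎, c ≠ 0 → S27legrNorm Rd (algebraMap 𝔎 Ω c * h) →
      ∃ a : 𝔎, S27llVal (s26gspCon hld hgen hall Q).toValuationSubring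
        (algebraMap 𝔎 Ω c * h) a ∧ a ∈ Rd.A ∧ a⁻¹ ∈ Rd.A ∧ a ≠ 0 := by
  intro c hc0 hnorm
  obtain ⟨τ, -, hτord, hτ⟩ := s27le3_exists_tau Rd.A (Sum.elim R R') Q
    (fun i => by
      rcases i with i | i
      · exact hred i
      · exact hred' i)
    (fun i => by
      rcases i with i | i
      · exact hQ i
      · exact hQ' i)
  exact s27lut_tau hld hgen hall hx Rd hKA hlat M' R R' hR hR' hh0 hdiv Q hQM τ
    (by rw [hτord]; exact one_pos) (fun i => hτ (Sum.inl i)) (fun i => hτ (Sum.inr i))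
    c hc0 hnorm

end Top

end Fermat.Agent.S27

end
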