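/-
S27-B — leaf **LE3 (LOC-UNIT)**, FINAL form of row 7 of helper60's LE-TOP table (helper99):
the hypothesis `hval` of helper27's `s27le5_frame` with `𝒪 l = Con (Q l)`, the centre
dichotomy `hred` DISCHARGED (helper6's `s27adex_hred_curve`) and the hypothesis on `G` stated
with `S27ptIsCentre` (S27/PtDef.lean):

  `div h = Σ pt R' + Con (A₁ − A₂) − Σ pt R`,  `(A₁ − A₂) (Q l) = 0`,
  no `Q l` is the centre of a point `R i` or `R' i` along `W`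
  ⇒ `∀ c ≠ 0, Norm (c · h) → ∀ l, ∃ a, S27llVal 𝒪_{Con (Q l)} (c · h) a ∧ a ∈ W ∧ a⁻¹ ∈ W ∧ a ≠ 0`.
-/
import Fermat.Agent.S27.LocUnitEri
import Fermat.Agent.S27.AdExPred
import Fermat.Agent.S27.PtDef

set_option autoImplicit false
set_option linter.style.haveILetI false
set_option linter.unusedSectionVars false
set_option linter.unusedVariables false

noncomputable section

namespace Fermat.Agent.S27

open AlgebraicCurve TensorProduct Fermat.Agent.S26 Fermat.Agent.DEU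

variable {K 𝔠 𝔎 Ω k Fb : Type*} [Field K] [Field 𝔠] [Field 𝔎] [Field Ω] [Field k] [Field Fb]
  [Algebra K 𝔠] [Algebra K 𝔎] [Algebra K Ω] [Algebra 𝔠 Ω] [Algebra 𝔎 Ω]
  [IsScalarTower K 𝔠 Ω] [IsScalarTower K 𝔎 Ω]
  [Algebra K k] [Algebra K Fb] [Algebra 𝔠 Fb] [Algebra k Fb]
  [IsScalarTower K 𝔠 Fb] [IsScalarTower K k Fb]

variable (hld : Function.Injective (s26gspMu K 𝔠 𝔎 Ω)) (hgen : S26gspGen K 𝔠 𝔎 Ω)
  (hall : ∀ P : Place K 𝔠, Function.Surjective (algebraMap K P.ResidueField))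
  {x : 𝔠} (hx : Transcendental K x)
  [FiniteDimensional ↥(IntermediateField.adjoin K {x}) 𝔠]
  [Algebra.IsSeparable ↥(IntermediateField.adjoin K {x}) 𝔠]
  (hldk : Function.Injective (s26gspMu K 𝔠 k Fb))
  (W : ValuationSubring 𝔎) (hKW : ∀ c : K, algebraMap K 𝔎 c ∈ W) (res : ↥W →+* k)
  (hresK : ∀ c : K, res ⟨algebraMap K 𝔎 c, hKW c⟩ = algebraMap K k c)
  (hres : Function.Surjective res)

/-- **row 7 of LE-TOP, final**: `hval` of `s27le5_frame` with `𝒪 l = Con (Q l)`. -/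
theorem s27luf_hval {N N' : ℕ} {κ : Type*}
    (R : Fin N → 𝔠 →ₐ[K] 𝔎) (R' : Fin N' → 𝔠 →ₐ[K] 𝔎)
    (hR : Function.Injective R) (hR' : Function.Injective R')
    (A₁ A₂ : Divisor K 𝔠) (h : Ω) (hh : h ≠ 0)
    (hdiv : ∀ v : Place 𝔎 Ω, v.ord h =
      (s27brgPts hld hgen hx R' + s27brgCon hld hgen hall (A₁ - A₂)
        - s27brgPts hld hgen hx R) v)
    (Q : κ → Place K 𝔠) (hQA : ∀ l, (A₁ - A₂) (Q l) = 0)
    (hQ : ∀ l i, ¬ S27ptIsCentre W (R i) (Q l))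
    (hQ' : ∀ l i, ¬ S27ptIsCentre W (R' i) (Q l)) :
    ∀ c : 𝔎, c ≠ 0 →
      S27legrNorm (s26eriData hld hgen hldk W hKW res hresK hres) (algebraMap 𝔎 Ω c * h) →
      ∀ l, ∃ a : 𝔎, S27llVal (s26gspCon hld hgen hall (Q l)).toValuationSubring
        (algebraMap 𝔎 Ω c * h) a ∧ a ∈ W ∧ a⁻¹ ∈ W ∧ a ≠ 0 :=
  s27lue_hval hld hgen hall hx hldk W hKW res hresK hres R R' hR hR' A₁ A₂ h hh hdiv Q hQA
    (fun i => s27adex_hred_curve x hx W hKW (R i))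
    (fun i => s27adex_hred_curve x hx W hKW (R' i))
    hQ hQ'

end Fermat.Agent.S27

end
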