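import Fermat.Agent.S27.LE5Stage
import Fermat.Agent.S27.LEClass
import Fermat.Agent.S27.BridgeTop
import Fermat.Agent.S27.IntSurjQ
import Fermat.Agent.S27.LeDim
import Fermat.Agent.S27.LocUnitFin

/-!
# S27 route B, crux LE(b): **LE-a, UNCONDITIONAL** (helper27) — the target of LE-CLASS

`s27le5_top : deg Ao = g − 1 → S27lecLEa hld hgen hx Ao` : two injective tuples of points
`(R, B)`, `(R', B')` (ANY lengths `N`, `N'`, also `0`) of the SAME class `s27icCl` have local
equations `S27ptIsIdx W R (B + Ao) y`, `S27ptIsIdx W R' (B' + Ao) y'` which differ by a unit of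
`W`.  Hence (helper95, `s27lec_le`)

  `s27le5_ckLE : deg Ao = g − 1 → ℓ(Ao) = 0 → S27ckLE K (S27icIdx hld hgen hx Ao)`,

which is the input LE-TOP of the captain's `FinalTop.lean`.

Assembly: `s27le5_stage` (S27/LE5Stage.lean; GAUSS, BRIDGE, LB2, INT-SURJ wired inside) with
* row 2   `s27brt_icCl`        (helper24, S27/BridgeTop.lean): `h` from the class equality;
* rows 3+4 `s27isq_two`, `s27isq_mem_F` (helper13, S27/IntSurjQ.lean): the reduced divisor
  `G = Σ Q l` off the supports and the centres, lattice bases inside `L_K(A_i + G)`;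
* row 5   `s27ldm_hdim_basis`  (helper70, S27/LeDim.lean): `ℓ(A_i + G) = ℓ(A_i) + #G`;
* row 7   `s27luf_hval`        (helper99, S27/LocUnitFin.lean): LE3 at `Con (Q l)`.
-/

set_option autoImplicit false
set_option linter.style.haveILetI false
set_option linter.unusedSectionVars false
set_option linter.unusedVariables false

noncomputable section

namespace Fermat.Agent.S27

open AlgebraicCurve Module TensorProduct IntermediateField Fermat.Agent.S26 Fermat.Agent.DEU

universe u v y

/-- the conversion of the unit relation of `s27le5_stage` into `s27cptEq`. -/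
theorem s27le5_cptEq_of_unit {𝔏 : Type*} [Field 𝔏] (W : ValuationSubring 𝔏) {y y' c : 𝔏}
    (hc : S27ldUnit W c) (hy : y' = c * y) : s27cptEq W y y' := by
  refine ⟨c⁻¹, ⟨inv_ne_zero hc.2.2, hc.2.1, ?_⟩, ?_⟩
  · rw [inv_inv]
    exact hc.1
  · rw [hy, ← mul_assoc, inv_mul_cancel₀ hc.2.2, one_mul]

variable {K : Type u} {F : Type v} [Field K] [IsAlgClosed K] [CharZero K] [Field F] [Algebra K F]
  [IsCurveOver K F] [Algebra.EssFiniteType K F]
  {L : Type (max u v)} [Field L] [Algebra K L]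
  [Algebra (s27gfOm K F (genusFF K F)) L] [IsScalarTower K (s27gfOm K F (genusFF K F)) L]
  [IsAlgClosed L] [Algebra.IsAlgebraic (s27gfOm K F (genusFF K F)) L]
  {FL : Type y} [Field FL] [Algebra K FL] [Algebra F FL] [Algebra L FL]
  [IsScalarTower K F FL] [IsScalarTower K L FL]
  (hld : Function.Injective (s26gspMu K F L FL)) (hgen : S26gspGen K F L FL)
  {x : F} (hx : Transcendental K x)
  [FiniteDimensional ↥(IntermediateField.adjoin K {x}) F]
  [Algebra.IsSeparable ↥(IntermediateField.adjoin K {x}) F]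

/-- **LE-a, unconditional**: the local equation of a tuple of points depends, up to a unit of
`W`, only on the class of the tuple. -/
theorem s27le5_top (Ao : Divisor K F)
    (hAo : Divisor.degree Ao = (genusFF K F : ℤ) - 1) : S27lecLEa hld hgen hx Ao := by
  classical
  intro W hW N R B hB N' R' B' hB' y y' hinj hinj' hcl hidx hidx'
  have hKW : ∀ c : K, algebraMap K L c ∈ W := hW
  obtain ⟨f, -, -, -⟩ := id hidx
  obtain ⟨f', -, -, -⟩ := id hidx'
  -- row 2: the function `h`
  obtain ⟨h, hh, hdiv⟩ := s27brt_icCl hld hgen hx Ao R R' B B' hB hB' hcl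
  have hprin : Divisor.IsPrincipal
      (s27brgPts hld hgen hx R' + s27brgCon hld hgen (s26gspf_hall hx) ((B + Ao) - (B' + Ao))
        - s27brgPts hld hgen hx R) := ⟨h, hh, fun v => (hdiv v).symm⟩
  -- rows 3 + 4: the reduced divisor `G`
  obtain ⟨m, Q, φ, φ', hQinj, -, -, hQA₁, hQA₂, hQc, hQc', hφm, hφ, hφ'm, hφ'⟩ :=
    s27isq_two W hKW R hinj R' hinj' (B + Ao) (B' + Ao) ∅ 0
  have hC : ∀ i P, S27ptIsCentre W (R i) P → s27ppG Q P = 0 := fun i P hP =>
    s27ppG_apply_of_notMem fun l hl => hQc l i (hl ▸ hP)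
  have hC' : ∀ i P, S27ptIsCentre W (R' i) P → s27ppG Q P = 0 := fun i P hP =>
    s27ppG_apply_of_notMem fun l hl => hQc' l i (hl ▸ hP)
  -- uniformisers
  choose π hπ0 hπ using fun l => s26err_exists_unif (Q l)
  -- row 5
  haveI : Module.Finite K ↥(riemannRochSpace (B + Ao + s27ppG Q)) := s27ldm_finite x hx _
  haveI : Module.Finite K ↥(riemannRochSpace (B' + Ao + s27ppG Q)) := s27ldm_finite x hx _
  have hdim₁ := s27ldm_hdim_basis x hx B Ao hB hAo f Q
  have hdim₂ := s27ldm_hdim_basis x hx B' Ao hB' hAo f' Q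
  -- LE-a on the stage
  obtain ⟨c, hc, hyc⟩ := s27le5_stage hld hgen (s26gspf_hall hx) hx W hKW R R' hinj hinj'
    (B + Ao) (B' + Ao) hprin Q hQinj (fun l => by rw [hQA₁ l, hQA₂ l]) π hπ
    (fun ψ hψ => s27isq_mem_F hC hψ) (fun ψ hψ => s27isq_mem_F hC' hψ)
    ⟨φ, hφ, hφm⟩ ⟨φ', hφ', hφ'm⟩ hdim₁ hdim₂
    (fun h' hh' hdiv' => s27luf_hval hld hgen (s26gspf_hall hx) hx
      (s27stg_hld K F (s27giRes K W hKW)) W hKW (s27giResMap K W hKW)
      (s27giRes_algebraMap K W hKW) (s27giResMap_surjective K W hKW) R R' hinj hinj'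
      (B + Ao) (B' + Ao) h' hh' hdiv' Q
      (fun l => by rw [Finsupp.sub_apply, hQA₁ l, hQA₂ l, sub_zero]) hQc hQc')
    hidx hidx'
  exact s27le5_cptEq_of_unit W hc hyc

/-- **LE-TOP**: the class invariance `S27ckLE` of the concrete class-indexed local equation. -/
theorem s27le5_ckLE (Ao : Divisor K F) (hAo : Divisor.degree Ao = (genusFF K F : ℤ) - 1)
    (hAo0 : riemannRochSpace Ao = ⊥) : S27ckLE K (S27icIdx hld hgen hx Ao) :=
  s27lec_le hld hgen hx Ao hAo0 (s27le5_top hld hgen hx Ao hAo)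

end Fermat.Agent.S27

end
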