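/-
S27-B — **FINAL** (captain helper77): the frozen statement S27, UNCONDITIONAL.

  `s27final_lea  : s27fp_StmtLEa`   (helper27's `s27le5_top`, LE-a unconditional),
  `s27final_main : s27_Stmt`        = `#Pic0(F)[ℓ^k] = ℓ^(2 g k)` for every curve `F / K`
                                      (`K` algebraically closed of characteristic `0`).

Chain: Final ← FinalProof (CONST helper11, LAT-EX helper50/6/19, CP-TOP helper18, GROW helper41/46/36,
LE-CLASS helper95) ← FinalTop2 ← FinalCore ← ModelTop (stage, ψ, DEG) ← GeoTop2 ← Top2 ← Lift ← Formal
← Root/Reduce/Plan.  See NOTES/S27-pieces.md.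
-/
import Fermat.Agent.S27.FinalProof
import Fermat.Agent.S27.LE5Top

set_option autoImplicit false
set_option linter.unusedVariables false
set_option linter.unusedSectionVars false
set_option linter.style.haveILetI false

noncomputable section

namespace Fermat.Agent.S27

open AlgebraicCurve Module TensorProduct IntermediateField Fermat.Agent.S26

universe u v

/-- (LE-a) on the stage, for every admissible choice of constants. -/
theorem s27final_lea : s27fp_StmtLEa.{u, v} := by
  intro K F _ _ _ _ _ _ _ hg x hx _ _ G₀ O hc
  exact s27le5_top (FL := s27mtFL K F) (s27stg_hld K F (s27mtL K F))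
    (s27stg_hgen K F (s27mtL K F)) hx (s27cstAo G₀ O) hc.deg_Ao

/-- **S27, unconditional.** -/
theorem s27final_main : s27_Stmt.{u, v} :=
  s27fp_result s27final_lea

end Fermat.Agent.S27

end
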