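/-
S27 route B, LE leaf **RED-PT** (helper12): THE CONCRETE REDUCTION OF PLACES `r` of the Gauss
frame, and its values on the POINT places.

Frame (helper96's shape, S26/ERRGaussPlace; helper93's adapter S26/ERedInst): fields `K ⊆ Γ`
(the curve), `K ⊆ L` (the constants, `L = 𝔏`), `F ⊇ Γ, L` with `hld`, `hgen` (`F = Frac (Γ ⊗[K] L)`),
`V = W ⊇ K` a valuation subring of `L`, `res : V →+* k` onto and `K`-linear, `Fb ⊇ Γ, k` with
`hldk`, `hgenk` (`Fb = Frac (Γ ⊗[K] k)`); `R := s26eriData hld hgen hldk V hKV res hresK hres`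
(the Gauss reduction, `R.A = V`), `Con := s26gspCon hld hgen hall`, `Con_k := s26gspCon hldk hgenk hall`.

ABSTRACT part (any `R`, `r` with helper97's package `S26erigRed R r con conk ιk`; all universes free):
* `s27rpt_closed`  : `w` a point place with evaluation `e` (`S27ptIsPt w e`, S27/DegPt), the CENTRE of
  `e` along `R.A` is the closed place `Q` (`S27ptIsCentre R.A e Q`, S27/PtDef) ⇒ `r w = conk Q`;
* `s27rpt_not_con` : `e (Γ) ⊆ R.A` (generic centre) ⇒ `r w ≠ conk Q` for every `Q`;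
* `s27rptBar`      : the reduced point `ē = res ∘ e : Γ →ₐ[K] k`;
* `s27rpt_generic` : `e (Γ) ⊆ R.A` ⇒ `r w` is the point place with evaluation `ē`
  (`S27ptIsPt (r w) ē`);
* `s27rpt_ne_con`  : `Q` is NOT the centre of `e` ⇒ `r w ≠ conk Q`  (the discharge of the
  hypotheses `hno` of LB3 / LE3 at the constant places `Con Q_j`);
* `s27rpt_eq_iff_closed`, `s27rpt_ne_of_generic_closed` : when two point places have the same
  reduction.

GAUSS frame (`K`, `L`, `k` algebraically closed, `x ∈ Γ` transcendental, `[Γ : K(x)] < ∞`;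
ALL universes free — `s26etir_red` of S26 asks `L F k Fb` in ONE universe):
* `s27rpt_exists` : `∃ r, S26erigRed R r Con Con_k (algebraMap Γ Fb) ∧ deg ∧ semicontinuity`;
* **`s27rpt_main`** : `∃ r`, `s26eredev_RDiv R r` ∧ `HasPrincipalDivisors L F` ∧ `r (Con Q) = Con_k Q`
  ∧ closed centres ∧ generic centres ∧ `hno`-discharge ∧ degrees.
-/
import Fermat.Agent.S26.ETiRedAt
import Fermat.Agent.S26.ERedInst
import Fermat.Agent.S26.ERedHres
import Fermat.Agent.S26.ERedEval
import Fermat.Agent.S26.ERRGFinal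
import Fermat.Agent.S27.DegPt
import Fermat.Agent.S27.PtDef

set_option autoImplicit false
set_option linter.unusedSectionVars false
set_option linter.unusedVariables false
set_option linter.style.haveILetI false

noncomputable section

namespace Fermat.Agent.S27

open AlgebraicCurve Module IntermediateField
open Fermat.Agent.S24 Fermat.Agent.S26 Fermat.Agent.DEU

/-! ### Small tools -/

section Tools

variable {L F : Type*} [Field L] [Field F] [Algebra L F]

/-- a pole of `a - b`, `b` regular, is a pole of `a` -/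
theorem s27rpt_ord_neg_of_sub (P : Place L F) {a b : F} (hb : b ∈ P.toValuationSubring)
    (h : P.ord (a - b) < 0) : P.ord a < 0 := by
  by_contra hn
  have ha : a ∈ P.toValuationSubring := s26eredev_mem_of_not_ord_neg P hn
  have := s26eredev_ord_nonneg_of_mem P (sub_mem ha hb)
  omega

/-- a pole of `c * a`, `c` regular, is a pole of `a` -/
theorem s27rpt_ord_neg_of_mul (P : Place L F) {c a : F} (hc : c ∈ P.toValuationSubring)
    (h : P.ord (c * a) < 0) : P.ord a < 0 := by
  by_contra hn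
  have ha : a ∈ P.toValuationSubring := s26eredev_mem_of_not_ord_neg P hn
  have := s26eredev_ord_nonneg_of_mem P (mul_mem hc ha)
  omega

/-- a pole of `1 - c * a`, `c` regular, is a pole of `a` -/
theorem s27rpt_ord_neg_of_one_sub (P : Place L F) {c a : F} (hc : c ∈ P.toValuationSubring)
    (h : P.ord (1 - c * a) < 0) : P.ord a < 0 := by
  by_contra hn
  have ha : a ∈ P.toValuationSubring := s26eredev_mem_of_not_ord_neg P hn
  have := s26eredev_ord_nonneg_of_mem P (sub_mem (one_mem _) (mul_mem hc ha))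
  omega

theorem s27rpt_one_not_mem_nonunits (B : ValuationSubring F) : (1 : F) ∉ B.nonunits := by
  rw [ValuationSubring.mem_nonunits_iff, map_one]
  exact lt_irrefl _

/-- `x ∈ 𝔪 ⇒ 1 - x ∉ 𝔪` -/
theorem s27rpt_one_sub_not_mem_nonunits (B : ValuationSubring F) {x : F}
    (hx : x ∈ B.nonunits) : (1 - x) ∉ B.nonunits := by
  intro h
  have h1 : (1 - x) - (-1 : F) * x ∈ B.nonunits :=
    s26eredev_nonunits_sub h (s26eredev_nonunits_mul_mem (neg_mem (one_mem _)) hx)
  have h2 : (1 - x) - (-1 : F) * x = 1 := by ring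
  rw [h2] at h1
  exact s27rpt_one_not_mem_nonunits B h1

/-- `a ∉ A ⇒ a⁻¹ ∈ 𝔪_A` -/
theorem s27rpt_inv_mem_nonunits (A : ValuationSubring L) {a : L} (ha : a ∉ A) :
    a⁻¹ ∈ A.nonunits := by
  have ha0 : a ≠ 0 := fun h => ha (h ▸ A.zero_mem)
  rw [ValuationSubring.mem_nonunits_iff]
  have h1 : ¬ A.valuation a ≤ 1 := fun h => ha ((A.valuation_le_one_iff a).1 h)
  exact (Valuation.one_lt_val_iff A.valuation ha0).1 (not_le.1 h1)

end Tools

/-! ### The abstract part: any reduction of places with the package `S26erigRed` -/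

section Abs

variable {K Γ L F k Fb : Type*} [Field K] [Field Γ] [Field L] [Field F] [Field k] [Field Fb]
  [Algebra K Γ] [Algebra K L] [Algebra K F] [Algebra Γ F] [Algebra L F]
  [IsScalarTower K Γ F] [IsScalarTower K L F]
  [Algebra K k] [Algebra K Fb] [Algebra Γ Fb] [Algebra k Fb]
  [IsScalarTower K Γ Fb] [IsScalarTower K k Fb]
  {R : RedData L F k Fb} {r : Place L F → Place k Fb}
  {con : Place K Γ → Place L F} {conk : Place K Γ → Place k Fb} {ιk : Γ →+* Fb}

/-- **closed centre**: a point place whose evaluation `e` has the closed centre `Q` along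
`W = R.A` reduces to the constant place `conk Q`. -/
theorem s27rpt_closed (hred : S26erigRed R r con conk ιk)
    (hpole : ∀ Q : Place K Γ, ∃ u : Γ, Q.ord u < 0 ∧ ∀ v : Place K Γ, v ≠ Q → 0 ≤ v.ord u)
    {w : Place L F} {e : Γ →ₐ[K] L} (hw : S27ptIsPt w e) {Q : Place K Γ}
    (hQ : S27ptIsCentre R.A e Q) : r w = conk Q := by
  obtain ⟨t, ht, htu⟩ := hpole Q
  -- `e t ∉ W`
  have het : e t ∉ R.A := by
    intro hmem
    have h1 : t ∈ R.A.comap (e : Γ →+* L) := hmem
    unfold S27ptIsCentre at hQ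
    rw [hQ] at h1
    have := s26eredev_ord_nonneg_of_mem Q h1
    omega
  have het0 : e t ≠ 0 := fun h => het (h ▸ R.A.zero_mem)
  have hcn : (e t)⁻¹ ∈ R.A.nonunits := s27rpt_inv_mem_nonunits R.A het
  have hcA : (e t)⁻¹ ∈ R.A := s26eredev_nonunits_mem hcn
  have hres0 : R.res ⟨(e t)⁻¹, hcA⟩ = 0 := (s26erig_res_eq_zero_iff R ⟨(e t)⁻¹, hcA⟩).2 hcn
  -- the function `f = 1 - (e t)⁻¹ · t`
  set fO : R.O := 1 - R.const ⟨(e t)⁻¹, hcA⟩ * ⟨algebraMap Γ F t, hred.mem_O t⟩ with hfO
  have hcoe : (fO : F) = 1 - algebraMap L F (e t)⁻¹ * algebraMap Γ F t := rfl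
  have hredf : R.red fO = 1 := by
    rw [hfO, map_sub, map_one, map_mul, R.red_const, hres0, map_zero, zero_mul, sub_zero]
  have hu : R.red fO ≠ 0 := by rw [hredf]; exact one_ne_zero
  have hf0 : (fO : F) ≠ 0 := R.coe_ne_zero_of_red_ne_zero hu
  -- `f` vanishes at `w`
  have hfw : (fO : F) = (-algebraMap L F (e t)⁻¹) *
      (algebraMap Γ F t - algebraMap L F (e t)) := by
    rw [hcoe]
    have h1 : algebraMap L F (e t)⁻¹ * algebraMap L F (e t) = 1 := by
      rw [← map_mul, inv_mul_cancel₀ het0, map_one]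
    linear_combination -h1
  have hpos : 0 < w.ord (fO : F) := by
    rw [PlaceAux.ord_pos_iff_mem_nonunits w hf0, hfw]
    exact s26eredev_nonunits_mul_mem (neg_mem (w.algebraMap_mem' _)) (hw t)
  by_contra hne
  have hno : ∀ P' : Place L F, P'.ord (fO : F) < 0 → r P' ≠ r w := by
    intro P' hP' heq
    rw [hcoe] at hP'
    have h1 : P'.ord (algebraMap Γ F t) < 0 :=
      s27rpt_ord_neg_of_one_sub P' (P'.algebraMap_mem' _) hP'
    obtain ⟨Q₃, rfl, hQ₃⟩ := hred.ord_con t P' h1
    have hQQ : Q₃ = Q := by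
      by_contra hQ3
      have := htu Q₃ hQ3
      omega
    rw [hQQ, hred.r_con] at heq
    exact hne heq.symm
  have h2 := s26eredev_ord_pos_of_ord_pos hred.r_principal hred.hpdF hu w hno hpos
  rw [hredf, Place.ord_one] at h2
  exact lt_irrefl _ h2

/-- **generic centre, 1**: a point place whose evaluation has image in `W = R.A` does not reduce
to a constant place. -/
theorem s27rpt_not_con (hred : S26erigRed R r con conk ιk)
    {w : Place L F} {e : Γ →ₐ[K] L} (hw : S27ptIsPt w e) (he : ∀ u, e u ∈ R.A)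
    (Q : Place K Γ) : r w ≠ conk Q := by
  intro hrw
  -- `s` with a zero at `Q`
  obtain ⟨π, hπ⟩ := IsDiscreteValuationRing.exists_irreducible Q.toValuationSubring
  have hs : Q.ord (π : Γ) = 1 := Q.ord_coe_irreducible hπ
  set s : Γ := (π : Γ) with hsdef
  have hs0 : s ≠ 0 := by
    rintro h
    rw [h, Place.ord_zero] at hs
    exact zero_ne_one hs
  -- the function `u = 1 - e (s⁻¹) · s`
  set uO : R.O := 1 - R.const ⟨e s⁻¹, he s⁻¹⟩ * ⟨algebraMap Γ F s, hred.mem_O s⟩ with huO
  have hcoe : (uO : F) = 1 - algebraMap L F (e s⁻¹) * algebraMap Γ F s := rfl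
  have hredu : R.red uO = 1 - algebraMap k Fb (R.res ⟨e s⁻¹, he s⁻¹⟩) * ιk s := by
    rw [huO, map_sub, map_one, map_mul, R.red_const, hred.red_Γ]
  -- `ιk s ∈ 𝔪` at `conk Q`
  have hιpos : 0 < (conk Q).ord (ιk s) := hred.ord_conk Q s (by rw [hs]; exact one_pos)
  have hι0 : ιk s ≠ 0 := by
    intro h
    rw [h, Place.ord_zero] at hιpos
    exact lt_irrefl _ hιpos
  have hιn : ιk s ∈ (conk Q).toValuationSubring.nonunits :=
    (PlaceAux.ord_pos_iff_mem_nonunits (conk Q) hι0).1 hιpos
  have hxn : algebraMap k Fb (R.res ⟨e s⁻¹, he s⁻¹⟩) * ιk s ∈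
      (conk Q).toValuationSubring.nonunits :=
    s26eredev_nonunits_mul_mem ((conk Q).algebraMap_mem' _) hιn
  have hnot : R.red uO ∉ (conk Q).toValuationSubring.nonunits := by
    rw [hredu]
    exact s27rpt_one_sub_not_mem_nonunits _ hxn
  have hu : R.red uO ≠ 0 := by
    intro h
    rw [h] at hnot
    exact hnot (s26eredev_zero_mem_nonunits _)
  have hf0 : (uO : F) ≠ 0 := R.coe_ne_zero_of_red_ne_zero hu
  -- `u` vanishes at `w`
  have hsw : algebraMap Γ F s ∈ w.toValuationSubring :=
    PlaceAux.mem_of_ord_nonneg w (le_of_eq (s27pt_trivial hw s).symm)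
  have hfw : (uO : F) = algebraMap Γ F s *
      (algebraMap Γ F s⁻¹ - algebraMap L F (e s⁻¹)) := by
    rw [hcoe]
    have h1 : algebraMap Γ F s * algebraMap Γ F s⁻¹ = 1 := by
      rw [← map_mul, mul_inv_cancel₀ hs0, map_one]
    linear_combination -h1
  have hpos : 0 < w.ord (uO : F) := by
    rw [PlaceAux.ord_pos_iff_mem_nonunits w hf0, hfw]
    exact s26eredev_nonunits_mul_mem hsw (hw s⁻¹)
  have hno : ∀ P' : Place L F, P'.ord (uO : F) < 0 → r P' ≠ r w := by
    intro P' hP' heq
    rw [hcoe] at hP'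
    have h1 : P'.ord (algebraMap Γ F s) < 0 :=
      s27rpt_ord_neg_of_one_sub P' (P'.algebraMap_mem' _) hP'
    obtain ⟨Q₃, rfl, hQ₃⟩ := hred.ord_con s P' h1
    rw [hred.r_con, hrw] at heq
    have hQQ : Q₃ = Q := hred.conk_inj heq
    rw [hQQ, hs] at hQ₃
    omega
  have h2 := s26eredev_ord_pos_of_ord_pos hred.r_principal hred.hpdF hu w hno hpos
  rw [hrw] at h2
  exact hnot ((PlaceAux.ord_pos_iff_mem_nonunits (conk Q) hu).1 h2)

/-- the reduced point `ē = res ∘ e` of a point `e` with image in `W = R.A`. -/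
def s27rptBar (R : RedData L F k Fb)
    (hresK : ∀ c : K, ∃ h : algebraMap K L c ∈ R.A, R.res ⟨_, h⟩ = algebraMap K k c)
    (e : Γ →ₐ[K] L) (he : ∀ u, e u ∈ R.A) : Γ →ₐ[K] k :=
  { R.res.comp ((e : Γ →+* L).codRestrict R.A he) with
    commutes' := fun c => by
      obtain ⟨h, hc⟩ := hresK c
      show R.res ⟨e (algebraMap K Γ c), he _⟩ = algebraMap K k c
      rw [← hc]
      congr 1
      exact Subtype.ext (e.commutes c) }

@[simp] theorem s27rptBar_apply (R : RedData L F k Fb)
    (hresK : ∀ c : K, ∃ h : algebraMap K L c ∈ R.A, R.res ⟨_, h⟩ = algebraMap K k c)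
    (e : Γ →ₐ[K] L) (he : ∀ u, e u ∈ R.A) (u : Γ) :
    s27rptBar R hresK e he u = R.res ⟨e u, he u⟩ := rfl

/-- **generic centre, 2**: a point place whose evaluation `e` has image in `W = R.A` reduces to
the point place with evaluation `ē = res ∘ e`. -/
theorem s27rpt_generic (hred : S26erigRed R r con conk ιk)
    (hιk : ∀ u, ιk u = algebraMap Γ Fb u)
    {w : Place L F} {e : Γ →ₐ[K] L} (hw : S27ptIsPt w e) (he : ∀ u, e u ∈ R.A)
    (ē : Γ →ₐ[K] k) (hē : ∀ u, ē u = R.res ⟨e u, he u⟩) : S27ptIsPt (r w) ē := by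
  intro u
  set fO : R.O := ⟨algebraMap Γ F u, hred.mem_O u⟩ - R.const ⟨e u, he u⟩ with hfO
  have hcoe : (fO : F) = algebraMap Γ F u - algebraMap L F (e u) := rfl
  have hredf : R.red fO = algebraMap Γ Fb u - algebraMap k Fb (ē u) := by
    rw [hfO, map_sub, hred.red_Γ, R.red_const, hιk, hē]
  rw [← hredf]
  by_cases h0 : R.red fO = 0
  · rw [h0]
    exact s26eredev_zero_mem_nonunits _
  · have hf0 : (fO : F) ≠ 0 := R.coe_ne_zero_of_red_ne_zero h0
    have hpos : 0 < w.ord (fO : F) := by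
      rw [PlaceAux.ord_pos_iff_mem_nonunits w hf0, hcoe]
      exact hw u
    have hno : ∀ P' : Place L F, P'.ord (fO : F) < 0 → r P' ≠ r w := by
      intro P' hP' heq
      rw [hcoe] at hP'
      have h1 : P'.ord (algebraMap Γ F u) < 0 :=
        s27rpt_ord_neg_of_sub P' (P'.algebraMap_mem' _) hP'
      obtain ⟨Q₃, rfl, -⟩ := hred.ord_con u P' h1
      rw [hred.r_con] at heq
      exact s27rpt_not_con hred hw he Q₃ heq.symm
    have h2 := s26eredev_ord_pos_of_ord_pos hred.r_principal hred.hpdF h0 w hno hpos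
    exact (PlaceAux.ord_pos_iff_mem_nonunits (r w) h0).1 h2

/-- the centre of a point along `W ⊇ K` is generic or a closed place. -/
theorem s27rpt_centre_dichotomy (x : Γ) (hx : Transcendental K x) [FiniteDimensional K⟮x⟯ Γ]
    (W : ValuationSubring L) (hKW : ∀ c : K, algebraMap K L c ∈ W) (e : Γ →ₐ[K] L) :
    (∀ u, e u ∈ W) ∨ ∃ Q : Place K Γ, S27ptIsCentre W e Q := by
  by_cases htop : W.comap (e : Γ →+* L) = ⊤
  · left
    intro u
    have h : u ∈ W.comap (e : Γ →+* L) := by
      rw [htop]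
      exact ValuationSubring.mem_top u
    exact h
  · right
    have hK : ∀ a : K, algebraMap K Γ a ∈ W.comap (e : Γ →+* L) := by
      intro a
      show e (algebraMap K Γ a) ∈ W
      rw [e.commutes]
      exact hKW a
    exact ⟨s26errPlaceOf (W.comap (e : Γ →+* L)) hK htop x hx, rfl⟩

/-- **the discharge of `hno`**: if `Q` is NOT the centre of `e` along `W = R.A`, the point place
of `e` does not reduce to `conk Q`. -/
theorem s27rpt_ne_con (hred : S26erigRed R r con conk ιk)
    (hpole : ∀ Q : Place K Γ, ∃ u : Γ, Q.ord u < 0 ∧ ∀ v : Place K Γ, v ≠ Q → 0 ≤ v.ord u)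
    (x : Γ) (hx : Transcendental K x) [FiniteDimensional K⟮x⟯ Γ]
    (hKW : ∀ c : K, algebraMap K L c ∈ R.A)
    {w : Place L F} {e : Γ →ₐ[K] L} (hw : S27ptIsPt w e) {Q : Place K Γ}
    (hQ : ¬ S27ptIsCentre R.A e Q) : r w ≠ conk Q := by
  rcases s27rpt_centre_dichotomy x hx R.A hKW e with he | ⟨Q', hQ'⟩
  · exact s27rpt_not_con hred hw he Q
  · rw [s27rpt_closed hred hpole hw hQ']
    intro h
    exact hQ (hred.conk_inj h ▸ hQ')

/-- two point places with closed centres have the same reduction iff the centres agree. -/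
theorem s27rpt_eq_iff_closed (hred : S26erigRed R r con conk ιk)
    (hpole : ∀ Q : Place K Γ, ∃ u : Γ, Q.ord u < 0 ∧ ∀ v : Place K Γ, v ≠ Q → 0 ≤ v.ord u)
    {w w' : Place L F} {e e' : Γ →ₐ[K] L} (hw : S27ptIsPt w e) (hw' : S27ptIsPt w' e')
    {Q Q' : Place K Γ} (hQ : S27ptIsCentre R.A e Q) (hQ' : S27ptIsCentre R.A e' Q') :
    r w = r w' ↔ Q = Q' := by
  rw [s27rpt_closed hred hpole hw hQ, s27rpt_closed hred hpole hw' hQ']
  exact hred.conk_inj.eq_iff

/-- a point with generic centre and a point with closed centre have different reductions. -/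
theorem s27rpt_ne_of_generic_closed (hred : S26erigRed R r con conk ιk)
    (hpole : ∀ Q : Place K Γ, ∃ u : Γ, Q.ord u < 0 ∧ ∀ v : Place K Γ, v ≠ Q → 0 ≤ v.ord u)
    {w w' : Place L F} {e e' : Γ →ₐ[K] L} (hw : S27ptIsPt w e) (hw' : S27ptIsPt w' e')
    (he : ∀ u, e u ∈ R.A) {Q' : Place K Γ} (hQ' : S27ptIsCentre R.A e' Q') :
    r w ≠ r w' := by
  rw [s27rpt_closed hred hpole hw' hQ']
  exact s27rpt_not_con hred hw he Q'

/-- two points with generic centres and the same reduction have the same reduced point. -/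
theorem s27rpt_bar_eq_of_generic (hred : S26erigRed R r con conk ιk)
    (hιk : ∀ u, ιk u = algebraMap Γ Fb u)
    {w w' : Place L F} {e e' : Γ →ₐ[K] L} (hw : S27ptIsPt w e) (hw' : S27ptIsPt w' e')
    (he : ∀ u, e u ∈ R.A) (he' : ∀ u, e' u ∈ R.A) (h : r w = r w') (u : Γ) :
    R.res ⟨e u, he u⟩ = R.res ⟨e' u, he' u⟩ := by
  have hresK : ∀ c : K, ∃ h : algebraMap K L c ∈ R.A, R.res ⟨_, h⟩ = algebraMap K k c := by
    intro c
    have hc : algebraMap K L c ∈ R.A := by
      have := he (algebraMap K Γ c)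
      rwa [e.commutes] at this
    refine ⟨hc, ?_⟩
    have h1 := hred.red_Γ (algebraMap K Γ c)
    have h2 : (⟨algebraMap Γ F (algebraMap K Γ c), hred.mem_O _⟩ : R.O) = R.const ⟨_, hc⟩ := by
      apply Subtype.ext
      show algebraMap Γ F (algebraMap K Γ c) = algebraMap L F (algebraMap K L c)
      rw [← IsScalarTower.algebraMap_apply, ← IsScalarTower.algebraMap_apply]
    rw [h2, R.red_const, hιk, ← IsScalarTower.algebraMap_apply,
      IsScalarTower.algebraMap_apply K k Fb] at h1
    exact (algebraMap k Fb).injective h1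
  have h1 := s27rpt_generic hred hιk hw he (s27rptBar R hresK e he) (fun _ => rfl)
  have h2 := s27rpt_generic hred hιk hw' he' (s27rptBar R hresK e' he') (fun _ => rfl)
  rw [h] at h1
  have := s27pt_eval_unique h1 h2
  exact congrArg (fun φ : Γ →ₐ[K] k => φ u) this

end Abs

/-! ### The Gauss frame -/

section Gauss

variable {K Γ L F k Fb : Type*} [Field K] [Field Γ] [Field L] [Field F] [Field k] [Field Fb]
  [Algebra K Γ] [Algebra K L] [Algebra K F] [Algebra Γ F] [Algebra L F]
  [IsScalarTower K Γ F] [IsScalarTower K L F]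
  [Algebra K k] [Algebra K Fb] [Algebra Γ Fb] [Algebra k Fb]
  [IsScalarTower K Γ Fb] [IsScalarTower K k Fb]

/-- **THE reduction of places of the Gauss frame exists** (all universes free). -/
theorem s27rpt_exists [IsAlgClosed K] [IsAlgClosed L] [IsAlgClosed k]
    (hld : Function.Injective (s26gspMu K Γ L F)) (hgen : S26gspGen K Γ L F)
    (hldk : Function.Injective (s26gspMu K Γ k Fb)) (hgenk : S26gspGen K Γ k Fb)
    {x : Γ} (hx : Transcendental K x) [FiniteDimensional K⟮x⟯ Γ]
    (hall : ∀ P : Place K Γ, Function.Surjective (algebraMap K P.ResidueField))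
    (V : ValuationSubring L) (hKV : ∀ c : K, algebraMap K L c ∈ V) (res : ↥V →+* k)
    (hresK : ∀ c : K, res ⟨algebraMap K L c, hKV c⟩ = algebraMap K k c)
    (hres : Function.Surjective res) :
    ∃ r : Place L F → Place k Fb,
      S26erigRed (s26eriData hld hgen hldk V hKV res hresK hres) r (s26gspCon hld hgen hall)
        (s26gspCon hldk hgenk hall) (algebraMap Γ Fb) ∧
      (∀ P, (r P).deg = P.deg) ∧
      (∀ D : Divisor L F,
        (s26eriData hld hgen hldk V hKV res hresK hres).redSpace (riemannRochSpace D) ≤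
          riemannRochSpace (Finsupp.mapDomain r D)) := by
  have halg : Algebra.IsAlgebraic K⟮x⟯ Γ := Algebra.IsAlgebraic.of_finite _ _
  haveI : HasPrincipalDivisors K Γ := s26erh_hpdK hx
  obtain ⟨γ, hγ, -, -, -⟩ := s26errg_main (K := K) x hx
  obtain ⟨P₀⟩ := s26err_nonempty_place (K := K) x hx
  have hγ0 : 0 ≤ γ := hγ.1
  lift γ to ℕ using hγ0
  obtain ⟨R₀, -, ⟨hO₀, hred₀⟩, hq2₀, -⟩ :=
    s26eri_exists_data0 (K := K) (Γ := Γ) (L := k) (F := Fb) hldk hgenk
  obtain ⟨n₀, H⟩ := s26era_hyp_gen (s26eriData hld hgen hldk V hKV res hresK hres)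
    (algebraMap Γ F) (algebraMap Γ Fb)
    (s26eri_mem hld hgen hldk V hKV res hresK hres)
    (s26eri_red hld hgen hldk V hKV res hresK hres)
    (s26gspCon hld hgen hall)
    (s26etir_con_injective (algebraMap Γ F) _ (s26eri_ord hld hgen hall))
    (s26eri_ord hld hgen hall)
    (fun u P hP => s26eri_ex hld hgen hall P u (ne_of_lt hP))
    (s26gspCon hldk hgenk hall)
    (s26etir_con_injective (algebraMap Γ Fb) _ (s26eri_ord hldk hgenk hall))
    (s26eri_ord hldk hgenk hall)
    (fun u P hP => s26eri_ex hldk hgenk hall P u (ne_of_lt hP))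
    (fun v => s26erh_hresK hx halg v)
    (fun v => s26erh_hres hld hgen hx halg v)
    (fun v => s26erh_hres hldk hgenk hx halg v)
    (s26erh_hpd hld hgen hx) (s26erh_hpd hldk hgenk hx)
    (s26eri_ld hld) (s26eri_ld hldk)
    (s26eri_q2 hld hgen hldk V hKV res hresK hres)
    R₀ hO₀ hred₀ hq2₀ γ hγ P₀
  exact ⟨H.r, s26ero_red_of_hyp_riemann _ H (s26gspCon hld hgen hall)
    (s26gspCon hldk hgenk hall) (algebraMap Γ Fb)
    (s26eri_mem hld hgen hldk V hKV res hresK hres)
    (s26eri_red hld hgen hldk V hKV res hresK hres)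
    (s26eri_ord hld hgen hall) (s26eri_ex hld hgen hall) (s26eri_ord hldk hgenk hall)
    inferInstance (fun v => s26erh_hresK hx halg v) γ hγ.2.1
    (s26etir_const (algebraMap Γ Fb) (s26eri_ld hldk)), H.deg_r, H.redSpace_rr_le_mapDomain⟩

/-- `hresK` of the Gauss frame in the shape of `s27rptBar`. -/
theorem s27rpt_hresK (hld : Function.Injective (s26gspMu K Γ L F)) (hgen : S26gspGen K Γ L F)
    (hldk : Function.Injective (s26gspMu K Γ k Fb))
    (V : ValuationSubring L) (hKV : ∀ c : K, algebraMap K L c ∈ V) (res : ↥V →+* k)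
    (hresK : ∀ c : K, res ⟨algebraMap K L c, hKV c⟩ = algebraMap K k c)
    (hres : Function.Surjective res) (c : K) :
    ∃ h : algebraMap K L c ∈ (s26eriData hld hgen hldk V hKV res hresK hres).A,
      (s26eriData hld hgen hldk V hKV res hresK hres).res ⟨_, h⟩ = algebraMap K k c :=
  ⟨hKV c, hresK c⟩

/-- **RED-PT, main statement**: the reduction of places `r` of the Gauss frame along `V = W`,
with its values on ALL places: constant places, point places with closed centre, point places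
with generic centre. -/
theorem s27rpt_main [IsAlgClosed K] [IsAlgClosed L] [IsAlgClosed k]
    (hld : Function.Injective (s26gspMu K Γ L F)) (hgen : S26gspGen K Γ L F)
    (hldk : Function.Injective (s26gspMu K Γ k Fb)) (hgenk : S26gspGen K Γ k Fb)
    {x : Γ} (hx : Transcendental K x) [FiniteDimensional K⟮x⟯ Γ]
    (hall : ∀ P : Place K Γ, Function.Surjective (algebraMap K P.ResidueField))
    (V : ValuationSubring L) (hKV : ∀ c : K, algebraMap K L c ∈ V) (res : ↥V →+* k)
    (hresK : ∀ c : K, res ⟨algebraMap K L c, hKV c⟩ = algebraMap K k c)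
    (hres : Function.Surjective res) :
    ∃ r : Place L F → Place k Fb,
      S26erigRed (s26eriData hld hgen hldk V hKV res hresK hres) r (s26gspCon hld hgen hall)
        (s26gspCon hldk hgenk hall) (algebraMap Γ Fb) ∧
      s26eredev_RDiv (s26eriData hld hgen hldk V hKV res hresK hres) r ∧
      HasPrincipalDivisors L F ∧
      (∀ P, (r P).deg = P.deg) ∧
      (∀ Q : Place K Γ, r (s26gspCon hld hgen hall Q) = s26gspCon hldk hgenk hall Q) ∧
      (∀ (w : Place L F) (e : Γ →ₐ[K] L) (Q : Place K Γ), S27ptIsPt w e →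
        S27ptIsCentre V e Q → r w = s26gspCon hldk hgenk hall Q) ∧
      (∀ (w : Place L F) (e : Γ →ₐ[K] L) (he : ∀ u, e u ∈ V), S27ptIsPt w e →
        S27ptIsPt (r w) (s27rptBar (s26eriData hld hgen hldk V hKV res hresK hres)
          (s27rpt_hresK hld hgen hldk V hKV res hresK hres) e he)) ∧
      (∀ (w : Place L F) (e : Γ →ₐ[K] L) (Q : Place K Γ), S27ptIsPt w e →
        ¬ S27ptIsCentre V e Q → r w ≠ s26gspCon hldk hgenk hall Q) := by
  obtain ⟨r, hred, hdeg, -⟩ :=
    s27rpt_exists hld hgen hldk hgenk hx hall V hKV res hresK hres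
  obtain ⟨γ, -, -, -, hpole⟩ := s26errg_main (K := K) x hx
  refine ⟨r, hred, hred.r_principal, hred.hpdF, hdeg, hred.r_con, ?_, ?_, ?_⟩
  · intro w e Q hw hQ
    exact s27rpt_closed hred hpole hw hQ
  · intro w e he hw
    exact s27rpt_generic hred (fun _ => rfl) hw he _ (fun _ => rfl)
  · intro w e Q hw hQ
    exact s27rpt_ne_con hred hpole x hx hKV hw hQ

end Gauss

end Fermat.Agent.S27

end
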