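/-
S27-B, leaf **G0**, final form (helper45): the case of genus `0`, UNCONDITIONAL.

Inputs: `S27/G0.lean` (trivial frame, `Pic0 = 0` from `hR`), helper51's `s27rr_genus_zero`
(`S27/RR0Final.lean`: `genusFF K F = 0 → hR`) and helper39's `s27td_exists_of_isCurveOver`
(`S27/TD.lean`: a transcendental `x` with `F / K(x)` finite).

* `s27g0_base_trivial` : the TRIVIAL base frame `𝔉 = K`, `φ = id`, `b₀ = 1`, `H = 1`
  (`S27IsBase K (AlgHom.id K K) (fun _ => 1) 1 0 n 1`, any field `K`, any `n`);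
* `s27g0_hR`           : genus `0` ⇒ `L(D) ≠ 0` for every divisor `D` of degree `0`;
* `s27g0_pic0_final`   : genus `0` ⇒ `Pic0 K F` is trivial;
* `s27g0_card_final`   : genus `0` ⇒ `Nat.card (Pic0.torsion K F n) = 1`;
* `s27g0_result`       : **the conclusion of S27 when `genusFF K F = 0`**;
* `s27g0_frame_final`  : the conclusion of `s27_StmtFrame` when `genusFF K F = 0`;
* `s27g0_base_final`   : the conclusion of `s27_StmtBase` when `genusFF K F = 0`.
-/
import Fermat.Agent.S27.G0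
import Fermat.Agent.S27.Plan2
import Fermat.Agent.S27.RR0Final
import Fermat.Agent.S27.TD

set_option autoImplicit false

noncomputable section

namespace Fermat.Agent.S27

open AlgebraicCurve

universe u v w

/-- **The trivial base frame** (genus `0`, degree `1`). -/
theorem s27g0_base_trivial (K : Type w) [Field K] (n : ℕ) :
    S27IsBase K (AlgHom.id K K) (fun _ => (1 : K)) (1 : K) 0 n 1 where
  b_ne := fun _ _ => one_ne_zero
  b_mem := fun V _ => V.one_mem
  H_ne := one_ne_zero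
  cube1 := fun V _ => ⟨1, s27g0_unit_one K V, by rw [map_one, one_pow, mul_one, mul_one]⟩
  fin := fun m => by
    rw [s27g0_L_eq_top]
    infer_instance
  growth := ⟨1, 1, fun m _ => by
    rw [s27g0_L_eq_top, finrank_top, Module.finrank_self, pow_zero]
    exact ⟨le_refl _, le_refl _⟩⟩
  gen := fun x => ⟨0, x, by rw [s27g0_L_eq_top]; trivial, 1, by rw [s27g0_L_eq_top]; trivial,
    one_ne_zero, mul_one x⟩
  deg_fin := s27g0_finite_id K
  deg := s27g0_finrank_id K

section Curve

variable (K : Type u) (F : Type v) [Field K] [Field F] [Algebra K F] [IsAlgClosed K] [CharZero K]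
  [IsCurveOver K F] [Algebra.EssFiniteType K F]

/-- genus `0` ⇒ Riemann's inequality in the form `hR` of `s27g0_frame`. -/
theorem s27g0_hR (h0 : genusFF K F = 0) :
    ∀ D : Divisor K F, Divisor.degree D = 0 → ∃ f : F, f ≠ 0 ∧ f ∈ riemannRochSpace D := by
  obtain ⟨x, hx, hfin⟩ := s27td_exists_of_isCurveOver (K := K) (F := F)
  have := hfin
  exact s27rr_genus_zero x hx h0

/-- genus `0` ⇒ `Pic0` is trivial. -/
theorem s27g0_pic0_final (h0 : genusFF K F = 0) (x : Pic0 K F) : x = 0 :=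
  s27g0_pic0_eq_zero IsCurveOver.forall_deg_eq_one_of_isAlgClosed (s27g0_hR K F h0) x

/-- genus `0` ⇒ the torsion of `Pic0` is trivial. -/
theorem s27g0_card_final (h0 : genusFF K F = 0) (n : ℕ) :
    Nat.card (Pic0.torsion K F n) = 1 :=
  s27g0_card_torsion IsCurveOver.forall_deg_eq_one_of_isAlgClosed (s27g0_hR K F h0) n

/-- **S27 in genus `0`.** -/
theorem s27g0_result (h0 : genusFF K F = 0) (ℓ : ℕ) (k : ℕ) :
    Nat.card (Pic0.torsion K F (ℓ ^ k)) = ℓ ^ (2 * genusFF K F * k) := by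
  rw [s27g0_card_final K F h0, h0, Nat.mul_zero, Nat.zero_mul, pow_zero]

/-- **G0, frame form**: the conclusion of `s27_StmtFrame` in genus `0`. -/
theorem s27g0_frame_final (h0 : genusFF K F = 0) (n : ℕ) :
    ∃ (K' : Type (max u v)) (_ : Field K') (_ : CharZero K') (𝔉 : Type (max u v)) (_ : Field 𝔉)
      (_ : Algebra K' 𝔉) (φ : 𝔉 →ₐ[K'] 𝔉) (b : ℕ → ValuationSubring 𝔉 → 𝔉) (H : ℕ → 𝔉),
      S27IsFrame K' φ b H (genusFF K F) n (Nat.card (Pic0.torsion K F n)) :=
  s27g0_frame K F h0 (s27g0_hR K F h0) n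

/-- **G0, base form**: the conclusion of `s27_StmtBase` in genus `0`. -/
theorem s27g0_base_final (h0 : genusFF K F = 0) (n : ℕ) :
    ∃ (K' : Type (max u v)) (_ : Field K') (_ : CharZero K') (𝔉 : Type (max u v)) (_ : Field 𝔉)
      (_ : Algebra K' 𝔉) (φ : 𝔉 →ₐ[K'] 𝔉) (b₀ : ValuationSubring 𝔉 → 𝔉) (H : 𝔉),
      S27IsBase K' φ b₀ H (genusFF K F) n (Nat.card (Pic0.torsion K F n)) := by
  rw [h0, s27g0_card_final K F h0 n]
  exact ⟨ULift.{max u v} ℚ, inferInstance, s27g0_charZero_ulift.{max u v}, ULift.{max u v} ℚ,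
    inferInstance, Algebra.id _, AlgHom.id _ _, fun _ => 1, 1,
    s27g0_base_trivial (ULift.{max u v} ℚ) n⟩

end Curve

end Fermat.Agent.S27

end
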