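/-
S27-B, leaf REP (moving lemma), part 1 (helper79): AVOIDING A FINITE SET.

`K` an infinite constant field, `E` a divisor, `S` a finite set of places at which the complete
linear system `|E|` has no base point (`L(E − P) ≠ L(E)`).  Then there is `f ∈ L(E)`, `f ≠ 0`, with
`ord_P f = − E P` for every `P ∈ S`: the effective divisor `E + div f` does not meet `S`.

* `s27rep_ord_eq_of_notMem` : `f ∈ L(E)`, `f ∉ L(E − P)` ⇒ `ord_P f = − E P`;
* `s27rep_avoid`            : the statement above (a vector space over an infinite field is not a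
                              finite union of proper subspaces);
* `s27rep_bpf_of_finrank_lt`: `ℓ(E − P) < ℓ(E)` ⇒ no base point at `P`;
* `s27rep_bpf_of_riemann`   : Riemann's theorem in degree `≥ N₀` and `deg P = 1` ⇒ no base point at
                              `P` for `deg E ≥ N₀ + 1`;
* `s27rep_avoid_divisor`    : with principal divisors: `∃ D ≥ 0`, `D = E + div f`, `D P = 0` on `S`.
-/
import Fermat.Agent.S26.ERR1
import Mathlib.GroupTheory.CosetCover

set_option autoImplicit false

open AlgebraicCurve Module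

namespace Fermat.Agent.S27

open Fermat.Agent.S26 Fermat.Agent.ES.R

variable {K F : Type*} [Field K] [Field F] [Algebra K F]

theorem s27rep_sub_single_le (E : Divisor K F) (P : Place K F) :
    E - Finsupp.single P (1 : ℤ) ≤ E := by
  intro v
  simp only [Finsupp.coe_sub, Pi.sub_apply]
  have : (0 : ℤ) ≤ (Finsupp.single P (1 : ℤ)) v := by
    classical
    rw [Finsupp.single_apply]
    split_ifs <;> norm_num
  linarith

/-- `f ∈ L(E) ∖ L(E − P)` has pole order exactly `E P` at `P`. -/
theorem s27rep_ord_eq_of_notMem {E : Divisor K F} {P : Place K F} {f : F}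
    (h1 : f ∈ riemannRochSpace E)
    (h2 : f ∉ riemannRochSpace (E - Finsupp.single P (1 : ℤ))) :
    f ≠ 0 ∧ P.ord f = - E P := by
  have hf0 : f ≠ 0 := by
    rintro rfl
    exact h2 (Submodule.zero_mem _)
  refine ⟨hf0, ?_⟩
  rw [mem_riemannRochSpace_iff] at h1 h2
  have hP : - E P ≤ P.ord f := (h1 P).resolve_left hf0
  by_contra hne
  have hlt : - E P + 1 ≤ P.ord f := by
    have : - E P < P.ord f := lt_of_le_of_ne hP (fun h => hne h.symm)
    omega
  apply h2
  intro v
  right
  by_cases hv : v = P
  · subst hv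
    simp only [Finsupp.coe_sub, Pi.sub_apply, Finsupp.single_eq_same]
    linarith
  · classical
    simp only [Finsupp.coe_sub, Pi.sub_apply]
    rw [Finsupp.single_apply, if_neg (fun h' => hv h'.symm)]
    have := (h1 v).resolve_left hf0
    linarith

/-- **Avoiding a finite set.**  `K` infinite, `L(E) ≠ 0`, no base point of `|E|` in `S`. -/
theorem s27rep_avoid [Infinite K] (E : Divisor K F) (S : Finset (Place K F))
    (h0 : ∃ f ∈ riemannRochSpace E, f ≠ 0)
    (hbpf : ∀ P ∈ S, ∃ f ∈ riemannRochSpace E,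
      f ∉ riemannRochSpace (E - Finsupp.single P (1 : ℤ))) :
    ∃ f ∈ riemannRochSpace E, f ≠ 0 ∧ ∀ P ∈ S, P.ord f = - E P := by
  classical
  -- the subspaces of `L(E)`
  let W : Place K F → Subspace K ↥(riemannRochSpace E) := fun P =>
    (riemannRochSpace (E - Finsupp.single P (1 : ℤ))).comap (riemannRochSpace E).subtype
  let s : Finset (Subspace K ↥(riemannRochSpace E)) := insert ⊥ (S.image W)
  have hs : (⊤ : Subspace K ↥(riemannRochSpace E)) ∉ s := by
    intro htop
    rcases Finset.mem_insert.mp htop with h | h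
    · obtain ⟨f, hf, hf0⟩ := h0
      have : (⟨f, hf⟩ : ↥(riemannRochSpace E)) ∈ (⊥ : Subspace K ↥(riemannRochSpace E)) := by
        rw [← h]; trivial
      rw [Submodule.mem_bot] at this
      exact hf0 (congrArg Subtype.val this)
    · obtain ⟨P, hP, hWP⟩ := Finset.mem_image.mp h
      obtain ⟨f, hf, hfn⟩ := hbpf P hP
      have : (⟨f, hf⟩ : ↥(riemannRochSpace E)) ∈ W P := by
        rw [hWP]; trivial
      exact hfn this
  have hne := Subspace.biUnion_ne_univ_of_top_notMem hs
  obtain ⟨x, hx⟩ : ∃ x : ↥(riemannRochSpace E), x ∉ ⋃ p ∈ s, (p : Set ↥(riemannRochSpace E)) := by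
    by_contra hcon
    push Not at hcon
    exact hne (Set.eq_univ_of_forall hcon)
  simp only [Set.mem_iUnion, SetLike.mem_coe, not_exists] at hx
  refine ⟨x.1, x.2, ?_, ?_⟩
  · intro h0'
    apply hx ⊥ (Finset.mem_insert_self _ _)
    rw [Submodule.mem_bot]
    exact Subtype.ext h0'
  · intro P hP
    have hxP : x ∉ W P := hx (W P) (Finset.mem_insert_of_mem (Finset.mem_image_of_mem W hP))
    exact (s27rep_ord_eq_of_notMem x.2 (fun h => hxP h)).2

/-- a strict drop of the dimension gives a function with the exact pole order -/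
theorem s27rep_bpf_of_finrank_lt (E : Divisor K F) (P : Place K F)
    (hfinE : Module.Finite K ↥(riemannRochSpace E))
    (h : finrank K ↥(riemannRochSpace (E - Finsupp.single P (1 : ℤ))) <
      finrank K ↥(riemannRochSpace E)) :
    ∃ f ∈ riemannRochSpace E, f ∉ riemannRochSpace (E - Finsupp.single P (1 : ℤ)) := by
  by_contra hcon
  push Not at hcon
  have hle : riemannRochSpace E ≤ riemannRochSpace (E - Finsupp.single P (1 : ℤ)) := hcon
  have := hfinE
  have hfin' : Module.Finite K ↥(riemannRochSpace (E - Finsupp.single P (1 : ℤ))) := by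
    have heq : riemannRochSpace (E - Finsupp.single P (1 : ℤ)) = riemannRochSpace E :=
      le_antisymm (rr_mono (s27rep_sub_single_le E P)) hle
    rw [heq]
    exact hfinE
  have := Submodule.finrank_mono hle
  omega

/-- **Riemann ⇒ base point free**: Riemann's theorem (`ℓ = deg + 1 − g` in degree `≥ N₀`), `deg P = 1`
and `deg E ≥ N₀ + 1` ⇒ `|E|` has no base point at `P`. -/
theorem s27rep_bpf_of_riemann (g N₀ : ℤ)
    (hfin : ∀ E : Divisor K F, Module.Finite K ↥(riemannRochSpace E))
    (hRT : ∀ E : Divisor K F, N₀ ≤ Divisor.degree E →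
      (finrank K ↥(riemannRochSpace E) : ℤ) = Divisor.degree E + 1 - g)
    (E : Divisor K F) (hE : N₀ + 1 ≤ Divisor.degree E) (P : Place K F) (hP : P.deg = 1) :
    ∃ f ∈ riemannRochSpace E, f ∉ riemannRochSpace (E - Finsupp.single P (1 : ℤ)) := by
  refine s27rep_bpf_of_finrank_lt E P (hfin E) ?_
  have hdeg : Divisor.degree (E - Finsupp.single P (1 : ℤ)) = Divisor.degree E - 1 := by
    rw [map_sub, Divisor.degree_single, hP]
    push_cast
    ring
  have h1 := hRT E (by linarith)
  have h2 := hRT (E - Finsupp.single P (1 : ℤ)) (by rw [hdeg]; linarith)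
  rw [hdeg] at h2
  have : (finrank K ↥(riemannRochSpace (E - Finsupp.single P (1 : ℤ))) : ℤ) <
      (finrank K ↥(riemannRochSpace E) : ℤ) := by linarith
  exact_mod_cast this

/-- **Avoiding a finite set, divisor form.** -/
theorem s27rep_avoid_divisor [Infinite K] [HasPrincipalDivisors K F] (E : Divisor K F)
    (S : Finset (Place K F))
    (h0 : ∃ f ∈ riemannRochSpace E, f ≠ 0)
    (hbpf : ∀ P ∈ S, ∃ f ∈ riemannRochSpace E,
      f ∉ riemannRochSpace (E - Finsupp.single P (1 : ℤ))) :
    ∃ (f : F) (D : Divisor K F), f ≠ 0 ∧ f ∈ riemannRochSpace E ∧ 0 ≤ D ∧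
      (∀ v : Place K F, D v = E v + v.ord f) ∧ Divisor.degree D = Divisor.degree E ∧
      ∀ P ∈ S, D P = 0 := by
  obtain ⟨f, hfE, hf0, hfS⟩ := s27rep_avoid E S h0 hbpf
  obtain ⟨Df, hDf, hDf0⟩ := HasPrincipalDivisors.exists_divisor (K := K) f hf0
  refine ⟨f, E + Df, hf0, hfE, ?_, ?_, ?_, ?_⟩
  · intro v
    simp only [Finsupp.coe_zero, Pi.zero_apply, Finsupp.coe_add, Pi.add_apply]
    rw [hDf v]
    rw [mem_riemannRochSpace_iff] at hfE
    have := (hfE v).resolve_left hf0
    linarith
  · intro v
    simp only [Finsupp.coe_add, Pi.add_apply]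
    rw [hDf v]
  · rw [map_add, hDf0, add_zero]
  · intro P hP
    simp only [Finsupp.coe_add, Pi.add_apply]
    rw [hDf P, hfS P hP]
    ring

end Fermat.Agent.S27
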