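/-
S27-B, leaf REP (moving lemma), part 3 (helper79): REDUCED REPRESENTATIVES AVOIDING A FINITE SET.

`F / K` a function field (`x` transcendental, `[F : K(x)] < ∞`), `char K = 0`, `K` infinite, all
places of degree `1`, Riemann's theorem `ℓ(E) = deg E + 1 − g` for `deg E ≥ N₀`.  For a divisor `E`
with `deg E ≥ max (N₀ + 1) g 1` and a finite set `S` of places:

    `s27rep_reduced` : `∃ f ∈ L(E) ∖ {0}`, `D = E + div f ≥ 0` REDUCED (`D v ≤ 1`), `D P = 0` on `S`.

    `s27rep_three`   : three classes `E₁, E₂, E₃` ⇒ reduced `D₁, D₂, D₃`, pairwise disjoint, off `S`.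

Proof: `D₀ = E + div f₀` off `S` and `D₁ = E + div f₁` off `supp D₀` (`s27rep_avoid_divisor`);
`t = f₁ / f₀` has pole divisor `D₀`; the members `E + div (f₁ − c f₀) = (t − c)₀` of the pencil are
reduced for all but finitely many `c` (`s27rep_simple`) and meet `S` for at most `#S` values of `c`.
-/
import Fermat.Agent.S27.RepAvoid
import Fermat.Agent.S27.RepSimple
import Fermat.Agent.S26.ERR2c

set_option autoImplicit false
set_option linter.style.haveILetI false

open AlgebraicCurve Module IntermediateField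

namespace Fermat.Agent.S27

open Fermat.Agent.S26 Fermat.Agent.S24 Fermat.Agent.ES.R

variable {K F : Type*} [Field K] [Field F] [Algebra K F]

/-- at most one constant `c` with `t − c` vanishing at `v` -/
theorem s27rep_value_unique (v : Place K F) (t : F) (c c' : K)
    (h1 : 0 < v.ord (t - algebraMap K F c)) (h2 : 0 < v.ord (t - algebraMap K F c')) :
    c = c' := by
  by_contra hcc
  have hf : t - algebraMap K F c ≠ 0 := by
    intro h0; rw [h0, Place.ord_zero] at h1; exact lt_irrefl _ h1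
  have hg : -(t - algebraMap K F c') ≠ 0 := by
    intro h0
    rw [neg_eq_zero] at h0
    rw [h0, Place.ord_zero] at h2; exact lt_irrefl _ h2
  have hsum : t - algebraMap K F c + -(t - algebraMap K F c') = algebraMap K F (c' - c) := by
    rw [map_sub]; ring
  have hne : algebraMap K F (c' - c) ≠ 0 := by
    rw [Ne, map_eq_zero, sub_eq_zero]
    exact fun h => hcc h.symm
  have h3 := PlaceAux.le_ord_add v hf hg (by rw [hsum]; exact hne)
  rw [hsum, PlaceAux.ord_algebraMap, PlaceAux.ord_neg] at h3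
  have : 0 < min (v.ord (t - algebraMap K F c)) (v.ord (t - algebraMap K F c')) := lt_min h1 h2
  omega

/-- **Reduced representative off a finite set.** -/
theorem s27rep_reduced [CharZero K] [Infinite K] (x : F) (hx : Transcendental K x)
    [FiniteDimensional K⟮x⟯ F] (hdeg1 : ∀ v : Place K F, v.deg = 1) (g N₀ : ℤ)
    (hRT : ∀ E : Divisor K F, N₀ ≤ Divisor.degree E →
      (finrank K ↥(riemannRochSpace E) : ℤ) = Divisor.degree E + 1 - g)
    (E : Divisor K F) (hE : N₀ + 1 ≤ Divisor.degree E) (hEg : g ≤ Divisor.degree E)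
    (hE1 : 1 ≤ Divisor.degree E) (S : Finset (Place K F)) :
    ∃ (f : F) (D : Divisor K F), f ≠ 0 ∧ f ∈ riemannRochSpace E ∧ 0 ≤ D ∧
      (∀ v : Place K F, D v = E v + v.ord f) ∧ Divisor.degree D = Divisor.degree E ∧
      (∀ v : Place K F, D v ≤ 1) ∧ ∀ P ∈ S, D P = 0 := by
  classical
  haveI := s26err_hasPrincipalDivisors (K := K) x hx
  have hfin : ∀ E : Divisor K F, Module.Finite K ↥(riemannRochSpace E) :=
    fun E => s26err_rr_finite' x hx E
  -- `L(E) ≠ 0`
  have h0 : ∃ f ∈ riemannRochSpace E, f ≠ 0 := by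
    have h1 := hRT E (by linarith)
    have h2 : 0 < finrank K ↥(riemannRochSpace E) := by
      have : (0 : ℤ) < (finrank K ↥(riemannRochSpace E) : ℤ) := by linarith
      exact_mod_cast this
    haveI := hfin E
    obtain ⟨y, hy⟩ := Module.finrank_pos_iff_exists_ne_zero.mp h2
    exact ⟨y.1, y.2, fun h => hy (Subtype.ext h)⟩
  have hbpf : ∀ P : Place K F, ∃ f ∈ riemannRochSpace E,
      f ∉ riemannRochSpace (E - Finsupp.single P (1 : ℤ)) :=
    fun P => s27rep_bpf_of_riemann g N₀ hfin hRT E hE P (hdeg1 P)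
  obtain ⟨f₀, D₀, hf₀, hf₀E, hD₀, hD₀v, hD₀deg, hD₀S⟩ :=
    s27rep_avoid_divisor E S h0 (fun P _ => hbpf P)
  obtain ⟨f₁, D₁, hf₁, hf₁E, hD₁, hD₁v, hD₁deg, hD₁S⟩ :=
    s27rep_avoid_divisor E D₀.support h0 (fun P _ => hbpf P)
  -- the function `t = f₁ / f₀`
  have ht0 : f₁ * f₀⁻¹ ≠ 0 := mul_ne_zero hf₁ (inv_ne_zero hf₀)
  have hordt : ∀ v : Place K F, v.ord (f₁ * f₀⁻¹) = D₁ v - D₀ v := by
    intro v
    rw [v.ord_mul hf₁ (inv_ne_zero hf₀), v.ord_inv, hD₁v v, hD₀v v]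
    ring
  -- `D₀ ≠ 0`
  obtain ⟨v₀, hv₀⟩ : ∃ v₀ : Place K F, D₀ v₀ ≠ 0 := by
    by_contra hcon
    push Not at hcon
    have : D₀ = 0 := Finsupp.ext hcon
    rw [this, map_zero] at hD₀deg
    omega
  have hv₀pos : 0 < D₀ v₀ := lt_of_le_of_ne (hD₀ v₀) (fun h => hv₀ h.symm)
  have hpole : ∀ v : Place K F, 0 < D₀ v → v.ord (f₁ * f₀⁻¹) = - D₀ v := by
    intro v hv
    rw [hordt v, hD₁S v (Finsupp.mem_support_iff.mpr (ne_of_gt hv))]
    ring
  have ht : Transcendental K (f₁ * f₀⁻¹) := by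
    intro halg
    have h1 := s26err_ord_eq_zero_of_isAlgebraic v₀ halg
    rw [hpole v₀ hv₀pos] at h1
    omega
  haveI : FiniteDimensional K⟮f₁ * f₀⁻¹⟯ F :=
    pd_finiteDimensional_adjoin_of_transcendental x hx _ ht
  obtain ⟨B, hBfin, hB⟩ := s27rep_simple (f₁ * f₀⁻¹) ht
  -- the values of `t` on `S`
  have hB'fin : {c : K | ∃ v ∈ S, 0 < v.ord (f₁ * f₀⁻¹ - algebraMap K F c)}.Finite := by
    have hsub : {c : K | ∃ v ∈ S, 0 < v.ord (f₁ * f₀⁻¹ - algebraMap K F c)} ⊆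
        ⋃ v ∈ (S : Set (Place K F)), {c : K | 0 < v.ord (f₁ * f₀⁻¹ - algebraMap K F c)} := by
      rintro c ⟨v, hv, hc⟩
      exact Set.mem_iUnion₂.mpr ⟨v, hv, hc⟩
    refine Set.Finite.subset (Set.Finite.biUnion S.finite_toSet ?_) hsub
    intro v _
    exact Set.Subsingleton.finite (fun c hc c' hc' => s27rep_value_unique v _ c c' hc hc')
  obtain ⟨c, hc⟩ : ∃ c : K, c ∉ B ∪ {c : K | ∃ v ∈ S, 0 < v.ord (f₁ * f₀⁻¹ - algebraMap K F c)} :=
    (hBfin.union hB'fin).exists_notMem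
  have hcB : c ∉ B := fun h => hc (Or.inl h)
  have hcS : ∀ v ∈ S, ¬ 0 < v.ord (f₁ * f₀⁻¹ - algebraMap K F c) :=
    fun v hv h => hc (Or.inr ⟨v, hv, h⟩)
  -- `t − c ≠ 0`
  have htc0 : f₁ * f₀⁻¹ - algebraMap K F c ≠ 0 := by
    intro h0
    apply ht
    rw [sub_eq_zero] at h0
    rw [h0]
    exact isAlgebraic_algebraMap c
  -- the order of `t − c` at a pole of `t`
  have hpolec : ∀ v : Place K F, 0 < D₀ v →
      v.ord (f₁ * f₀⁻¹ - algebraMap K F c) = - D₀ v := by
    intro v hv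
    by_cases hc0 : c = 0
    · rw [hc0, map_zero, sub_zero]
      exact hpole v hv
    · have hcne : -(algebraMap K F c) ≠ 0 := by
        rw [Ne, neg_eq_zero, map_eq_zero]
        exact hc0
      have hlt : v.ord (f₁ * f₀⁻¹) < v.ord (-(algebraMap K F c)) := by
        rw [PlaceAux.ord_neg, PlaceAux.ord_algebraMap, hpole v hv]
        omega
      have := PlaceAux.ord_add_eq_of_lt v ht0 hcne hlt
      rw [← sub_eq_add_neg] at this
      rw [this, hpole v hv]
  -- the member of the pencil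
  obtain ⟨Dt, hDt, hDt0⟩ :=
    HasPrincipalDivisors.exists_divisor (K := K) (f₁ * f₀⁻¹ - algebraMap K F c) htc0
  have hfeq : f₀ * (f₁ * f₀⁻¹ - algebraMap K F c) = f₁ - c • f₀ := by
    rw [Algebra.smul_def]
    field_simp
  have hf0' : f₀ * (f₁ * f₀⁻¹ - algebraMap K F c) ≠ 0 := mul_ne_zero hf₀ htc0
  have hfE : f₀ * (f₁ * f₀⁻¹ - algebraMap K F c) ∈ riemannRochSpace E := by
    rw [hfeq]
    exact Submodule.sub_mem _ hf₁E (Submodule.smul_mem _ c hf₀E)
  have hDv : ∀ v : Place K F,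
      (D₀ + Dt) v = E v + v.ord (f₀ * (f₁ * f₀⁻¹ - algebraMap K F c)) := by
    intro v
    simp only [Finsupp.coe_add, Pi.add_apply]
    rw [hDt v, hD₀v v, v.ord_mul hf₀ htc0]
    ring
  have hD0 : (0 : Divisor K F) ≤ D₀ + Dt := by
    intro v
    rw [hDv v]
    rw [mem_riemannRochSpace_iff] at hfE
    have := (hfE v).resolve_left hf0'
    simp only [Finsupp.coe_zero, Pi.zero_apply]
    linarith
  refine ⟨f₀ * (f₁ * f₀⁻¹ - algebraMap K F c), D₀ + Dt, hf0', hfE, hD0, hDv, ?_, ?_, ?_⟩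
  · rw [map_add, hDt0, add_zero, hD₀deg]
  · intro v
    simp only [Finsupp.coe_add, Pi.add_apply]
    rw [hDt v]
    rcases (hD₀ v).lt_or_eq with hpos | hzero
    · simp only [Finsupp.coe_zero, Pi.zero_apply] at hpos
      rw [hpolec v hpos]
      omega
    · simp only [Finsupp.coe_zero, Pi.zero_apply] at hzero
      rw [← hzero, zero_add]
      by_cases hpos : 0 < v.ord (f₁ * f₀⁻¹ - algebraMap K F c)
      · rw [hB c hcB v hpos]
      · omega
  · intro P hP
    have h1 := hD0 P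
    simp only [Finsupp.coe_zero, Pi.zero_apply, Finsupp.coe_add, Pi.add_apply] at h1 ⊢
    rw [hDt P, hD₀S P hP, zero_add] at h1 ⊢
    have h2 := hcS P hP
    omega

end Fermat.Agent.S27

namespace Fermat.Agent.S27

open Fermat.Agent.S26 Fermat.Agent.S24 Fermat.Agent.ES.R

variable {K F : Type*} [Field K] [Field F] [Algebra K F]

/-- **Moving lemma for three classes**: reduced effective representatives `D₁ ∈ |E₁|`,
`D₂ ∈ |E₂|`, `D₃ ∈ |E₃|`, pairwise disjoint and disjoint from a finite set `S`. -/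
theorem s27rep_three [CharZero K] [Infinite K] (x : F) (hx : Transcendental K x)
    [FiniteDimensional K⟮x⟯ F] (hdeg1 : ∀ v : Place K F, v.deg = 1) (g N₀ : ℤ)
    (hRT : ∀ E : Divisor K F, N₀ ≤ Divisor.degree E →
      (finrank K ↥(riemannRochSpace E) : ℤ) = Divisor.degree E + 1 - g)
    (E : Fin 3 → Divisor K F) (hE : ∀ i, N₀ + 1 ≤ Divisor.degree (E i))
    (hEg : ∀ i, g ≤ Divisor.degree (E i)) (hE1 : ∀ i, 1 ≤ Divisor.degree (E i))
    (S : Finset (Place K F)) :
    ∃ (f : Fin 3 → F) (D : Fin 3 → Divisor K F),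
      (∀ i, f i ≠ 0 ∧ f i ∈ riemannRochSpace (E i) ∧ 0 ≤ D i ∧
        (∀ v : Place K F, D i v = E i v + v.ord (f i)) ∧
        Divisor.degree (D i) = Divisor.degree (E i) ∧
        (∀ v : Place K F, D i v ≤ 1) ∧ ∀ P ∈ S, D i P = 0) ∧
      ∀ i j, i ≠ j → ∀ v : Place K F, D i v = 0 ∨ D j v = 0 := by
  classical
  obtain ⟨f0, D0, h0⟩ := s27rep_reduced x hx hdeg1 g N₀ hRT (E 0) (hE 0) (hEg 0) (hE1 0) S
  obtain ⟨f1, D1, h1⟩ := s27rep_reduced x hx hdeg1 g N₀ hRT (E 1) (hE 1) (hEg 1) (hE1 1)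
    (S ∪ D0.support)
  obtain ⟨f2, D2, h2⟩ := s27rep_reduced x hx hdeg1 g N₀ hRT (E 2) (hE 2) (hEg 2) (hE1 2)
    (S ∪ D0.support ∪ D1.support)
  have d01 : ∀ v : Place K F, D0 v = 0 ∨ D1 v = 0 := by
    intro v
    by_cases hv : D0 v = 0
    · exact Or.inl hv
    · exact Or.inr (h1.2.2.2.2.2.2 v
        (Finset.mem_union_right _ (Finsupp.mem_support_iff.mpr hv)))
  have d02 : ∀ v : Place K F, D0 v = 0 ∨ D2 v = 0 := by
    intro v
    by_cases hv : D0 v = 0
    · exact Or.inl hv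
    · exact Or.inr (h2.2.2.2.2.2.2 v
        (Finset.mem_union_left _ (Finset.mem_union_right _ (Finsupp.mem_support_iff.mpr hv))))
  have d12 : ∀ v : Place K F, D1 v = 0 ∨ D2 v = 0 := by
    intro v
    by_cases hv : D1 v = 0
    · exact Or.inl hv
    · exact Or.inr (h2.2.2.2.2.2.2 v
        (Finset.mem_union_right _ (Finsupp.mem_support_iff.mpr hv)))
  refine ⟨![f0, f1, f2], ![D0, D1, D2], ?_, ?_⟩
  · intro i
    fin_cases i
    · exact ⟨h0.1, h0.2.1, h0.2.2.1, h0.2.2.2.1, h0.2.2.2.2.1, h0.2.2.2.2.2.1, h0.2.2.2.2.2.2⟩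
    · exact ⟨h1.1, h1.2.1, h1.2.2.1, h1.2.2.2.1, h1.2.2.2.2.1, h1.2.2.2.2.2.1,
        fun P hP => h1.2.2.2.2.2.2 P (Finset.mem_union_left _ hP)⟩
    · exact ⟨h2.1, h2.2.1, h2.2.2.1, h2.2.2.2.1, h2.2.2.2.2.1, h2.2.2.2.2.2.1,
        fun P hP => h2.2.2.2.2.2.2 P
          (Finset.mem_union_left _ (Finset.mem_union_left _ hP))⟩
  · intro i j hij v
    fin_cases i <;> fin_cases j
    · exact absurd rfl hij
    · exact d01 v
    · exact d02 v
    · exact (d01 v).symm
    · exact absurd rfl hij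
    · exact d12 v
    · exact (d02 v).symm
    · exact (d12 v).symm
    · exact absurd rfl hij

end Fermat.Agent.S27
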