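/-
S27-B, leaf REP-NC (helper79), part 2: REDUCED REPRESENTATIVES OFF A FINITE SET `S` AND OFF A
(possibly infinite) SET `T` OF PLACES, the pencil parameter being taken in an infinite set `𝒦`.

`F / K` as in `S27/RepMain.lean`.  `T` is a set of places such that every nonzero function `t` has
a scaling `a t` (`a ∈ Kˣ`) with only finitely many values `c ∈ 𝒦` at the places of `T` (`hT`).

    `s27repnc_pencil`  : the pencil step;
    `s27repnc_reduced` : `∃ f ∈ L(E) ∖ {0}`, `D = E + div f ≥ 0` reduced, `D = 0` on `S ∪ T`;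
    `s27repnc_three`   : three classes, pairwise disjoint representatives.

Application (`S27/RepNCInst.lean`): `T` = the constant places of a constant field extension,
`𝒦` = the small constant field.
-/
import Fermat.Agent.S27.RepMain

set_option autoImplicit false
set_option linter.style.haveILetI false

open AlgebraicCurve Module IntermediateField

namespace Fermat.Agent.S27

open Fermat.Agent.S26 Fermat.Agent.S24 Fermat.Agent.ES.R

variable {K F : Type*} [Field K] [Field F] [Algebra K F]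

/-- **the pencil step**: `D₀ = E + div f₀`, `D₁ = E + div f₁` effective, `D₁ = 0` on `supp D₀`,
`D₀ = 0` on `S`; the values `c ∈ 𝒦` of `t = f₁ / f₀` on `T` are finitely many.  Then some member
`E + div (f₁ − c f₀)` of the pencil is reduced and vanishes on `S ∪ T`. -/
theorem s27repnc_pencil [CharZero K] (x : F) (hx : Transcendental K x)
    [FiniteDimensional K⟮x⟯ F] (E : Divisor K F) (hE1 : 1 ≤ Divisor.degree E)
    (S : Finset (Place K F)) (𝒦 : Set K) (h𝒦 : 𝒦.Infinite) (T : Set (Place K F))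
    (f₀ : F) (D₀ : Divisor K F) (hf₀ : f₀ ≠ 0) (hf₀E : f₀ ∈ riemannRochSpace E)
    (hD₀ : 0 ≤ D₀) (hD₀v : ∀ v : Place K F, D₀ v = E v + v.ord f₀)
    (hD₀deg : Divisor.degree D₀ = Divisor.degree E) (hD₀S : ∀ P ∈ S, D₀ P = 0)
    (f₁ : F) (D₁ : Divisor K F) (hf₁ : f₁ ≠ 0) (hf₁E : f₁ ∈ riemannRochSpace E)
    (hD₁v : ∀ v : Place K F, D₁ v = E v + v.ord f₁)
    (hD₁S : ∀ P ∈ D₀.support, D₁ P = 0)
    (hT : {c : K | c ∈ 𝒦 ∧ ∃ v ∈ T, 0 < v.ord (f₁ * f₀⁻¹ - algebraMap K F c)}.Finite) :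
    ∃ (f : F) (D : Divisor K F), f ≠ 0 ∧ f ∈ riemannRochSpace E ∧ 0 ≤ D ∧
      (∀ v : Place K F, D v = E v + v.ord f) ∧ Divisor.degree D = Divisor.degree E ∧
      (∀ v : Place K F, D v ≤ 1) ∧ (∀ P ∈ S, D P = 0) ∧ ∀ P ∈ T, D P = 0 := by
  classical
  haveI := s26err_hasPrincipalDivisors (K := K) x hx
  -- the function `t = f₁ / f₀`
  have ht0 : f₁ * f₀⁻¹ ≠ 0 := mul_ne_zero hf₁ (inv_ne_zero hf₀)
  have hordt : ∀ v : Place K F, v.ord (f₁ * f₀⁻¹) = D₁ v - D₀ v := by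
    intro v
    rw [v.ord_mul hf₁ (inv_ne_zero hf₀), v.ord_inv, hD₁v v, hD₀v v]
    ring
  -- `D₀ ≠ 0`
  obtain ⟨v₀, hv₀⟩ : ∃ v₀ : Place K F, D₀ v₀ ≠ 0 := by
    by_contra hcon
    push Not at hcon
    have : D₀ = 0 := Finsupp.ext hcon
    rw [this, map_zero] at hD₀deg
    omega
  have hv₀pos : 0 < D₀ v₀ := lt_of_le_of_ne (hD₀ v₀) (fun h => hv₀ h.symm)
  have hpole : ∀ v : Place K F, 0 < D₀ v → v.ord (f₁ * f₀⁻¹) = - D₀ v := by
    intro v hv
    rw [hordt v, hD₁S v (Finsupp.mem_support_iff.mpr (ne_of_gt hv))]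
    ring
  have ht : Transcendental K (f₁ * f₀⁻¹) := by
    intro halg
    have h1 := s26err_ord_eq_zero_of_isAlgebraic v₀ halg
    rw [hpole v₀ hv₀pos] at h1
    omega
  haveI : FiniteDimensional K⟮f₁ * f₀⁻¹⟯ F :=
    pd_finiteDimensional_adjoin_of_transcendental x hx _ ht
  obtain ⟨B, hBfin, hB⟩ := s27rep_simple (f₁ * f₀⁻¹) ht
  -- the values of `t` on `S`
  have hB'fin : {c : K | ∃ v ∈ S, 0 < v.ord (f₁ * f₀⁻¹ - algebraMap K F c)}.Finite := by
    have hsub : {c : K | ∃ v ∈ S, 0 < v.ord (f₁ * f₀⁻¹ - algebraMap K F c)} ⊆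
        ⋃ v ∈ (S : Set (Place K F)), {c : K | 0 < v.ord (f₁ * f₀⁻¹ - algebraMap K F c)} := by
      rintro c ⟨v, hv, hc⟩
      exact Set.mem_iUnion₂.mpr ⟨v, hv, hc⟩
    refine Set.Finite.subset (Set.Finite.biUnion S.finite_toSet ?_) hsub
    intro v _
    exact Set.Subsingleton.finite (fun c hc c' hc' => s27rep_value_unique v _ c c' hc hc')
  obtain ⟨c, hc𝒦, hc⟩ := (h𝒦.sdiff ((hBfin.union hB'fin).union hT)).nonempty
  have hcB : c ∉ B := fun h => hc (Or.inl (Or.inl h))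
  have hcS : ∀ v ∈ S, ¬ 0 < v.ord (f₁ * f₀⁻¹ - algebraMap K F c) :=
    fun v hv h => hc (Or.inl (Or.inr ⟨v, hv, h⟩))
  have hcT : ∀ v ∈ T, ¬ 0 < v.ord (f₁ * f₀⁻¹ - algebraMap K F c) :=
    fun v hv h => hc (Or.inr ⟨hc𝒦, v, hv, h⟩)
  -- `t − c ≠ 0`
  have htc0 : f₁ * f₀⁻¹ - algebraMap K F c ≠ 0 := by
    intro h0
    apply ht
    rw [sub_eq_zero] at h0
    rw [h0]
    exact isAlgebraic_algebraMap c
  -- the order of `t − c` at a pole of `t`
  have hpolec : ∀ v : Place K F, 0 < D₀ v →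
      v.ord (f₁ * f₀⁻¹ - algebraMap K F c) = - D₀ v := by
    intro v hv
    by_cases hc0 : c = 0
    · rw [hc0, map_zero, sub_zero]
      exact hpole v hv
    · have hcne : -(algebraMap K F c) ≠ 0 := by
        rw [Ne, neg_eq_zero, map_eq_zero]
        exact hc0
      have hlt : v.ord (f₁ * f₀⁻¹) < v.ord (-(algebraMap K F c)) := by
        rw [PlaceAux.ord_neg, PlaceAux.ord_algebraMap, hpole v hv]
        omega
      have := PlaceAux.ord_add_eq_of_lt v ht0 hcne hlt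
      rw [← sub_eq_add_neg] at this
      rw [this, hpole v hv]
  -- the member of the pencil
  obtain ⟨Dt, hDt, hDt0⟩ :=
    HasPrincipalDivisors.exists_divisor (K := K) (f₁ * f₀⁻¹ - algebraMap K F c) htc0
  have hfeq : f₀ * (f₁ * f₀⁻¹ - algebraMap K F c) = f₁ - c • f₀ := by
    rw [Algebra.smul_def]
    field_simp
  have hf0' : f₀ * (f₁ * f₀⁻¹ - algebraMap K F c) ≠ 0 := mul_ne_zero hf₀ htc0
  have hfE : f₀ * (f₁ * f₀⁻¹ - algebraMap K F c) ∈ riemannRochSpace E := by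
    rw [hfeq]
    exact Submodule.sub_mem _ hf₁E (Submodule.smul_mem _ c hf₀E)
  have hDv : ∀ v : Place K F,
      (D₀ + Dt) v = E v + v.ord (f₀ * (f₁ * f₀⁻¹ - algebraMap K F c)) := by
    intro v
    simp only [Finsupp.coe_add, Pi.add_apply]
    rw [hDt v, hD₀v v, v.ord_mul hf₀ htc0]
    ring
  have hD0 : (0 : Divisor K F) ≤ D₀ + Dt := by
    intro v
    rw [hDv v]
    rw [mem_riemannRochSpace_iff] at hfE
    have := (hfE v).resolve_left hf0'
    simp only [Finsupp.coe_zero, Pi.zero_apply]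
    linarith
  refine ⟨f₀ * (f₁ * f₀⁻¹ - algebraMap K F c), D₀ + Dt, hf0', hfE, hD0, hDv, ?_, ?_, ?_, ?_⟩
  · rw [map_add, hDt0, add_zero, hD₀deg]
  · intro v
    simp only [Finsupp.coe_add, Pi.add_apply]
    rw [hDt v]
    rcases (hD₀ v).lt_or_eq with hpos | hzero
    · simp only [Finsupp.coe_zero, Pi.zero_apply] at hpos
      rw [hpolec v hpos]
      omega
    · simp only [Finsupp.coe_zero, Pi.zero_apply] at hzero
      rw [← hzero, zero_add]
      by_cases hpos : 0 < v.ord (f₁ * f₀⁻¹ - algebraMap K F c)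
      · rw [hB c hcB v hpos]
      · omega
  · intro P hP
    have h1 := hD0 P
    simp only [Finsupp.coe_zero, Pi.zero_apply, Finsupp.coe_add, Pi.add_apply] at h1 ⊢
    rw [hDt P, hD₀S P hP, zero_add] at h1 ⊢
    have h2 := hcS P hP
    omega
  · intro P hP
    have h1 := hD0 P
    simp only [Finsupp.coe_zero, Pi.zero_apply, Finsupp.coe_add, Pi.add_apply] at h1 ⊢
    rw [hDt P] at h1 ⊢
    rcases (hD₀ P).lt_or_eq with hpos | hzero
    · simp only [Finsupp.coe_zero, Pi.zero_apply] at hpos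
      rw [hpolec P hpos]
      omega
    · simp only [Finsupp.coe_zero, Pi.zero_apply] at hzero
      have h2 := hcT P hP
      omega

/-- **Reduced representative off `S ∪ T`.** -/
theorem s27repnc_reduced [CharZero K] [Infinite K] (x : F) (hx : Transcendental K x)
    [FiniteDimensional K⟮x⟯ F] (hdeg1 : ∀ v : Place K F, v.deg = 1) (g N₀ : ℤ)
    (hRT : ∀ E : Divisor K F, N₀ ≤ Divisor.degree E →
      (finrank K ↥(riemannRochSpace E) : ℤ) = Divisor.degree E + 1 - g)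
    (𝒦 : Set K) (h𝒦 : 𝒦.Infinite) (T : Set (Place K F))
    (hT : ∀ t : F, t ≠ 0 → ∃ a : K, a ≠ 0 ∧
      {c : K | c ∈ 𝒦 ∧ ∃ v ∈ T, 0 < v.ord (algebraMap K F a * t - algebraMap K F c)}.Finite)
    (E : Divisor K F) (hE : N₀ + 1 ≤ Divisor.degree E) (hEg : g ≤ Divisor.degree E)
    (hE1 : 1 ≤ Divisor.degree E) (S : Finset (Place K F)) :
    ∃ (f : F) (D : Divisor K F), f ≠ 0 ∧ f ∈ riemannRochSpace E ∧ 0 ≤ D ∧
      (∀ v : Place K F, D v = E v + v.ord f) ∧ Divisor.degree D = Divisor.degree E ∧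
      (∀ v : Place K F, D v ≤ 1) ∧ (∀ P ∈ S, D P = 0) ∧ ∀ P ∈ T, D P = 0 := by
  classical
  haveI := s26err_hasPrincipalDivisors (K := K) x hx
  have hfin : ∀ E : Divisor K F, Module.Finite K ↥(riemannRochSpace E) :=
    fun E => s26err_rr_finite' x hx E
  have h0 : ∃ f ∈ riemannRochSpace E, f ≠ 0 := by
    have h1 := hRT E (by linarith)
    have h2 : 0 < finrank K ↥(riemannRochSpace E) := by
      have : (0 : ℤ) < (finrank K ↥(riemannRochSpace E) : ℤ) := by linarith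
      exact_mod_cast this
    haveI := hfin E
    obtain ⟨y, hy⟩ := Module.finrank_pos_iff_exists_ne_zero.mp h2
    exact ⟨y.1, y.2, fun h => hy (Subtype.ext h)⟩
  have hbpf : ∀ P : Place K F, ∃ f ∈ riemannRochSpace E,
      f ∉ riemannRochSpace (E - Finsupp.single P (1 : ℤ)) :=
    fun P => s27rep_bpf_of_riemann g N₀ hfin hRT E hE P (hdeg1 P)
  obtain ⟨f₀, D₀, hf₀, hf₀E, hD₀, hD₀v, hD₀deg, hD₀S⟩ :=
    s27rep_avoid_divisor E S h0 (fun P _ => hbpf P)
  obtain ⟨f₁, D₁, hf₁, hf₁E, hD₁, hD₁v, hD₁deg, hD₁S⟩ :=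
    s27rep_avoid_divisor E D₀.support h0 (fun P _ => hbpf P)
  obtain ⟨a, ha, haT⟩ := hT (f₁ * f₀⁻¹) (mul_ne_zero hf₁ (inv_ne_zero hf₀))
  have haF : algebraMap K F a ≠ 0 := by
    rw [Ne, map_eq_zero]
    exact ha
  have hf₁' : algebraMap K F a * f₁ ≠ 0 := mul_ne_zero haF hf₁
  have hf₁E' : algebraMap K F a * f₁ ∈ riemannRochSpace E := by
    rw [← Algebra.smul_def]
    exact Submodule.smul_mem _ a hf₁E
  have hD₁v' : ∀ v : Place K F, D₁ v = E v + v.ord (algebraMap K F a * f₁) := by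
    intro v
    rw [v.ord_mul haF hf₁, PlaceAux.ord_algebraMap, zero_add]
    exact hD₁v v
  have heq : algebraMap K F a * f₁ * f₀⁻¹ = algebraMap K F a * (f₁ * f₀⁻¹) := by ring
  exact s27repnc_pencil x hx E hE1 S 𝒦 h𝒦 T f₀ D₀ hf₀ hf₀E hD₀ hD₀v hD₀deg hD₀S
    (algebraMap K F a * f₁) D₁ hf₁' hf₁E' hD₁v' hD₁S (by rw [heq]; exact haT)

/-- **Moving lemma for three classes, off `S ∪ T`**: reduced effective representatives
`D₁ ∈ |E₁|`, `D₂ ∈ |E₂|`, `D₃ ∈ |E₃|`, pairwise disjoint and disjoint from `S ∪ T`. -/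
theorem s27repnc_three [CharZero K] [Infinite K] (x : F) (hx : Transcendental K x)
    [FiniteDimensional K⟮x⟯ F] (hdeg1 : ∀ v : Place K F, v.deg = 1) (g N₀ : ℤ)
    (hRT : ∀ E : Divisor K F, N₀ ≤ Divisor.degree E →
      (finrank K ↥(riemannRochSpace E) : ℤ) = Divisor.degree E + 1 - g)
    (𝒦 : Set K) (h𝒦 : 𝒦.Infinite) (T : Set (Place K F))
    (hT : ∀ t : F, t ≠ 0 → ∃ a : K, a ≠ 0 ∧
      {c : K | c ∈ 𝒦 ∧ ∃ v ∈ T, 0 < v.ord (algebraMap K F a * t - algebraMap K F c)}.Finite)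
    (E : Fin 3 → Divisor K F) (hE : ∀ i, N₀ + 1 ≤ Divisor.degree (E i))
    (hEg : ∀ i, g ≤ Divisor.degree (E i)) (hE1 : ∀ i, 1 ≤ Divisor.degree (E i))
    (S : Finset (Place K F)) :
    ∃ (f : Fin 3 → F) (D : Fin 3 → Divisor K F),
      (∀ i, f i ≠ 0 ∧ f i ∈ riemannRochSpace (E i) ∧ 0 ≤ D i ∧
        (∀ v : Place K F, D i v = E i v + v.ord (f i)) ∧
        Divisor.degree (D i) = Divisor.degree (E i) ∧
        (∀ v : Place K F, D i v ≤ 1) ∧ (∀ P ∈ S, D i P = 0) ∧ ∀ P ∈ T, D i P = 0) ∧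
      ∀ i j, i ≠ j → ∀ v : Place K F, D i v = 0 ∨ D j v = 0 := by
  classical
  obtain ⟨f0, D0, h0⟩ := s27repnc_reduced x hx hdeg1 g N₀ hRT 𝒦 h𝒦 T hT (E 0) (hE 0) (hEg 0)
    (hE1 0) S
  obtain ⟨f1, D1, h1⟩ := s27repnc_reduced x hx hdeg1 g N₀ hRT 𝒦 h𝒦 T hT (E 1) (hE 1) (hEg 1)
    (hE1 1) (S ∪ D0.support)
  obtain ⟨f2, D2, h2⟩ := s27repnc_reduced x hx hdeg1 g N₀ hRT 𝒦 h𝒦 T hT (E 2) (hE 2) (hEg 2)
    (hE1 2) (S ∪ D0.support ∪ D1.support)
  have d01 : ∀ v : Place K F, D0 v = 0 ∨ D1 v = 0 := by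
    intro v
    by_cases hv : D0 v = 0
    · exact Or.inl hv
    · exact Or.inr (h1.2.2.2.2.2.2.1 v
        (Finset.mem_union_right _ (Finsupp.mem_support_iff.mpr hv)))
  have d02 : ∀ v : Place K F, D0 v = 0 ∨ D2 v = 0 := by
    intro v
    by_cases hv : D0 v = 0
    · exact Or.inl hv
    · exact Or.inr (h2.2.2.2.2.2.2.1 v
        (Finset.mem_union_left _ (Finset.mem_union_right _ (Finsupp.mem_support_iff.mpr hv))))
  have d12 : ∀ v : Place K F, D1 v = 0 ∨ D2 v = 0 := by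
    intro v
    by_cases hv : D1 v = 0
    · exact Or.inl hv
    · exact Or.inr (h2.2.2.2.2.2.2.1 v
        (Finset.mem_union_right _ (Finsupp.mem_support_iff.mpr hv)))
  refine ⟨![f0, f1, f2], ![D0, D1, D2], ?_, ?_⟩
  · intro i
    fin_cases i
    · exact ⟨h0.1, h0.2.1, h0.2.2.1, h0.2.2.2.1, h0.2.2.2.2.1, h0.2.2.2.2.2.1,
        h0.2.2.2.2.2.2.1, h0.2.2.2.2.2.2.2⟩
    · exact ⟨h1.1, h1.2.1, h1.2.2.1, h1.2.2.2.1, h1.2.2.2.2.1, h1.2.2.2.2.2.1,
        fun P hP => h1.2.2.2.2.2.2.1 P (Finset.mem_union_left _ hP), h1.2.2.2.2.2.2.2⟩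
    · exact ⟨h2.1, h2.2.1, h2.2.2.1, h2.2.2.2.1, h2.2.2.2.2.1, h2.2.2.2.2.2.1,
        fun P hP => h2.2.2.2.2.2.2.1 P
          (Finset.mem_union_left _ (Finset.mem_union_left _ hP)), h2.2.2.2.2.2.2.2⟩
  · intro i j hij v
    fin_cases i <;> fin_cases j
    · exact absurd rfl hij
    · exact d01 v
    · exact d02 v
    · exact (d01 v).symm
    · exact absurd rfl hij
    · exact d12 v
    · exact (d02 v).symm
    · exact (d12 v).symm
    · exact absurd rfl hij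

end Fermat.Agent.S27
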