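/-
S27-B, leaf REP-NC (helper79), part 1: VALUES AT THE CONSTANT PLACES.

Setting of `S26/ERRGaussPlace.lean`: `Ω = Frac (𝔠 ⊗[K] 𝔎)` (`hld`, `hgen`), every place of `𝔠 / K`
has residue field `K` (`hall`), `Con q` the Gauss (constant) place of `Ω / 𝔎` over `q`.

A member `E + div f` of a linear system of `Ω / 𝔎` may contain CONSTANT places `Con q`, which are
not points `𝔠 →ₐ[K] 𝔎`.  They are avoided in a pencil `f₁ − κ f₀` with `κ ∈ K`:

* `s27repnc_ord_const`  : `t ∈ Ω`, `t ∉ 𝔠` ⇒ for all but finitely many `q` and ALL `κ ∈ K`: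
                          `t − κ` has no zero at `Con q`;
* `s27repnc_bad_finite` : `t ∉ 𝔠` ⇒ only finitely many `κ ∈ K` with `t − κ` vanishing at some
                          constant place;
* `s27repnc_scale`      : `t ≠ 0`, `τ ∈ 𝔎 ∖ K` ⇒ `t ∉ 𝔠` or `τ t ∉ 𝔠`.
-/
import Fermat.Agent.S27.RepMain
import Fermat.Agent.S26.ERRGaussCon

set_option autoImplicit false
set_option linter.style.haveILetI false
set_option linter.unusedSectionVars false

open AlgebraicCurve Module TensorProduct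

namespace Fermat.Agent.S27

open Fermat.Agent.S26 Fermat.Agent.S24

variable {K 𝔠 𝔎 Ω : Type*} [Field K] [Field 𝔠] [Field 𝔎] [Field Ω]
  [Algebra K 𝔠] [Algebra K 𝔎] [Algebra K Ω] [Algebra 𝔠 Ω] [Algebra 𝔎 Ω]
  [IsScalarTower K 𝔠 Ω] [IsScalarTower K 𝔎 Ω]

/-- outside a finite set of places, `u` is `0` or a unit. -/
theorem s27repnc_exists_Z [HasPrincipalDivisors K 𝔠] (u : 𝔠) :
    ∃ Z : Finset (Place K 𝔠), ∀ q : Place K 𝔠, q ∉ Z → q.ord u = 0 := by
  rcases eq_or_ne u 0 with h | h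
  · exact ⟨∅, fun q _ => by rw [h, Place.ord_zero]⟩
  · obtain ⟨D, hD, _⟩ := HasPrincipalDivisors.exists_divisor (K := K) u h
    refine ⟨D.support, fun q hq => ?_⟩
    rw [← hD q]
    exact Finsupp.notMem_support_iff.mp hq

/-- an element of the valuation ring which is `0` or of positive order lies in the maximal
ideal. -/
theorem s27repnc_mem_max (q : Place K 𝔠) (f : 𝔠) (hf : f ∈ q.toValuationSubring)
    (h : f = 0 ∨ 0 < q.ord f) :
    (⟨f, hf⟩ : ↥q.toValuationSubring) ∈ IsLocalRing.maximalIdeal ↥q.toValuationSubring := by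
  rcases eq_or_ne f 0 with h0 | h0
  · have : (⟨f, hf⟩ : ↥q.toValuationSubring) = 0 := Subtype.ext h0
    rw [this]
    exact Submodule.zero_mem _
  · have hpos : 0 < q.ord f := h.resolve_left h0
    have h1 := (PlaceAux.ord_pos_iff_mem_nonunits q h0).mp hpos
    rw [ValuationSubring.mem_nonunits_iff_exists_mem_maximalIdeal] at h1
    obtain ⟨_, h2⟩ := h1
    exact h2

/-- an element of the maximal ideal is `0` or of positive order. -/
theorem s27repnc_ord_pos_of_mem_max (q : Place K 𝔠) (f : 𝔠) (hf : f ∈ q.toValuationSubring)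
    (h : (⟨f, hf⟩ : ↥q.toValuationSubring) ∈ IsLocalRing.maximalIdeal ↥q.toValuationSubring)
    (h0 : f ≠ 0) : 0 < q.ord f := by
  apply (PlaceAux.ord_pos_iff_mem_nonunits q h0).mpr
  rw [ValuationSubring.mem_nonunits_iff_exists_mem_maximalIdeal]
  exact ⟨hf, h⟩

variable (hld : Function.Injective (s26gspMu K 𝔠 𝔎 Ω)) (hgen : S26gspGen K 𝔠 𝔎 Ω)
  (hall : ∀ P : Place K 𝔠, Function.Surjective (algebraMap K P.ResidueField))

/-- **values at the constant places**: for `t ∈ Ω` not in `𝔠`, outside a finite set of places `q`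
of `𝔠 / K`, no `t − κ` (`κ ∈ K`) vanishes at `Con q`. -/
theorem s27repnc_ord_const [HasPrincipalDivisors K 𝔠] (t : Ω)
    (ht : t ∉ Set.range (algebraMap 𝔠 Ω)) :
    ∃ Z : Finset (Place K 𝔠), ∀ q : Place K 𝔠, q ∉ Z → ∀ κ : K,
      ¬ 0 < (s26gspCon hld hgen hall q).ord (t - algebraMap K Ω κ) := by
  classical
  obtain ⟨A, B, hB, hAB⟩ := hgen t
  set 𝒞 := Basis.ofVectorSpace K 𝔎 with h𝒞
  obtain ⟨a, ha⟩ := TensorProduct.eq_repr_basis_right 𝒞 A
  obtain ⟨b, hb⟩ := TensorProduct.eq_repr_basis_right 𝒞 B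
  set s := a.support ∪ b.support with hs
  have hμ : ∀ d : Basis.ofVectorSpaceIndex K 𝔎 →₀ 𝔠, d.support ⊆ s →
      s26gspMu K 𝔠 𝔎 Ω (d.sum fun i m => m ⊗ₜ[K] 𝒞 i) =
        ∑ i ∈ s, algebraMap 𝔠 Ω (d i) * algebraMap 𝔎 Ω (𝒞 i) := by
    intro d hd
    rw [Finsupp.sum_of_support_subset d hd _ (by intro i _; exact TensorProduct.zero_tmul _ _),
      map_sum]
    exact Finset.sum_congr rfl fun i _ => s26gspMu_tmul _ _
  have hμA := hμ a Finset.subset_union_left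
  rw [ha] at hμA
  have hμB := hμ b Finset.subset_union_right
  rw [hb] at hμB
  -- a nonzero coefficient of `B`
  obtain ⟨k₀, hk₀s, hk₀⟩ : ∃ k₀ ∈ s, b k₀ ≠ 0 := by
    by_contra hcon
    push Not at hcon
    apply hB
    rw [hμB]
    exact Finset.sum_eq_zero fun i hi => by rw [hcon i hi, map_zero, zero_mul]
  -- a nonzero minor
  obtain ⟨j₀, hj₀s, hj₀⟩ : ∃ j₀ ∈ s, a j₀ * b k₀ - a k₀ * b j₀ ≠ 0 := by
    by_contra hcon
    push Not at hcon
    apply ht
    refine ⟨a k₀ / b k₀, ?_⟩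
    have h1 : s26gspMu K 𝔠 𝔎 Ω A = algebraMap 𝔠 Ω (a k₀ / b k₀) * s26gspMu K 𝔠 𝔎 Ω B := by
      rw [hμA, hμB, Finset.mul_sum]
      refine Finset.sum_congr rfl fun i hi => ?_
      have h2 : a i = a k₀ / b k₀ * b i := by
        have h3 := hcon i hi
        field_simp
        linear_combination h3
      rw [← mul_assoc, ← map_mul, ← h2]
    have h3 : t * s26gspMu K 𝔠 𝔎 Ω B =
        algebraMap 𝔠 Ω (a k₀ / b k₀) * s26gspMu K 𝔠 𝔎 Ω B := by rw [hAB, h1]
    exact (mul_right_cancel₀ hB h3).symm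
  -- the exceptional set
  choose Zf hZf using (s27repnc_exists_Z (K := K) (𝔠 := 𝔠))
  refine ⟨Zf (a j₀ * b k₀ - a k₀ * b j₀) ∪ Zf (b k₀) ∪ s.biUnion (fun i => Zf (a i) ∪ Zf (b i)),
    fun q hq κ => ?_⟩
  have hqM : q.ord (a j₀ * b k₀ - a k₀ * b j₀) = 0 :=
    hZf _ q (fun h => hq (Finset.mem_union_left _ (Finset.mem_union_left _ h)))
  have hqb0 : q.ord (b k₀) = 0 :=
    hZf _ q (fun h => hq (Finset.mem_union_left _ (Finset.mem_union_right _ h)))
  have hqa : ∀ i ∈ s, q.ord (a i) = 0 := fun i hi =>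
    hZf _ q (fun h => hq (Finset.mem_union_right _
      (Finset.mem_biUnion.mpr ⟨i, hi, Finset.mem_union_left _ h⟩)))
  have hqb : ∀ i ∈ s, q.ord (b i) = 0 := fun i hi =>
    hZf _ q (fun h => hq (Finset.mem_union_right _
      (Finset.mem_biUnion.mpr ⟨i, hi, Finset.mem_union_right _ h⟩)))
  have hmema : ∀ i ∈ s, a i ∈ q.toValuationSubring := fun i hi =>
    PlaceAux.mem_of_ord_nonneg q (hqa i hi).ge
  have hmemb : ∀ i ∈ s, b i ∈ q.toValuationSubring := fun i hi =>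
    PlaceAux.mem_of_ord_nonneg q (hqb i hi).ge
  have hmemf : ∀ i ∈ s, a i - algebraMap K 𝔠 κ * b i ∈ q.toValuationSubring := fun i hi =>
    sub_mem (hmema i hi) (mul_mem (q.algebraMap_mem' κ) (hmemb i hi))
  have hordf : ∀ i ∈ s, 0 ≤ q.ord (a i - algebraMap K 𝔠 κ * b i) := by
    intro i hi
    rcases eq_or_ne (a i - algebraMap K 𝔠 κ * b i) 0 with h0 | h0
    · rw [h0, Place.ord_zero]
    · exact (PlaceAux.ord_nonneg_iff q h0).mpr (hmemf i hi)
  -- the order of `μ B`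
  have hB0 := s26gspPlace_ord_sum_of_linearIndependent q (hall q) hld hgen s
    (fun i => b i) (fun i => 𝒞 i) 𝒞.linearIndependent 0
    (fun i hi => Or.inr (hqb i hi).ge) ⟨k₀, hk₀s, hk₀, hqb0⟩
  -- the order of the numerator
  have hi₀ : ∃ i ∈ s, a i - algebraMap K 𝔠 κ * b i ≠ 0 ∧
      q.ord (a i - algebraMap K 𝔠 κ * b i) = 0 := by
    by_contra hcon
    push Not at hcon
    have hbad : ∀ i ∈ s, a i - algebraMap K 𝔠 κ * b i = 0 ∨
        0 < q.ord (a i - algebraMap K 𝔠 κ * b i) := by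
      intro i hi
      rcases eq_or_ne (a i - algebraMap K 𝔠 κ * b i) 0 with h0 | h0
      · exact Or.inl h0
      · exact Or.inr (lt_of_le_of_ne (hordf i hi) (fun h => hcon i hi h0 h.symm))
    have h1 := s27repnc_mem_max q _ (hmemf j₀ hj₀s) (hbad j₀ hj₀s)
    have h2 := s27repnc_mem_max q _ (hmemf k₀ hk₀s) (hbad k₀ hk₀s)
    have h3 : (⟨a j₀ - algebraMap K 𝔠 κ * b j₀, hmemf j₀ hj₀s⟩ : ↥q.toValuationSubring) *
          ⟨b k₀, hmemb k₀ hk₀s⟩ -
        ⟨a k₀ - algebraMap K 𝔠 κ * b k₀, hmemf k₀ hk₀s⟩ * ⟨b j₀, hmemb j₀ hj₀s⟩ ∈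
        IsLocalRing.maximalIdeal ↥q.toValuationSubring :=
      Ideal.sub_mem _ (Ideal.mul_mem_right _ _ h1) (Ideal.mul_mem_right _ _ h2)
    have hMmem : a j₀ * b k₀ - a k₀ * b j₀ ∈ q.toValuationSubring :=
      PlaceAux.mem_of_ord_nonneg q hqM.ge
    have h4 : (⟨a j₀ * b k₀ - a k₀ * b j₀, hMmem⟩ : ↥q.toValuationSubring) ∈
        IsLocalRing.maximalIdeal ↥q.toValuationSubring := by
      convert h3 using 1
      apply Subtype.ext
      show a j₀ * b k₀ - a k₀ * b j₀ = (a j₀ - algebraMap K 𝔠 κ * b j₀) * b k₀ -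
        (a k₀ - algebraMap K 𝔠 κ * b k₀) * b j₀
      ring
    have h5 := s27repnc_ord_pos_of_mem_max q _ hMmem h4 hj₀
    omega
  have hN0 := s26gspPlace_ord_sum_of_linearIndependent q (hall q) hld hgen s
    (fun i => a i - algebraMap K 𝔠 κ * b i) (fun i => 𝒞 i) 𝒞.linearIndependent 0
    (fun i hi => Or.inr (hordf i hi)) hi₀
  -- `(t − κ) μ B = numerator`
  have hnum : (t - algebraMap K Ω κ) * s26gspMu K 𝔠 𝔎 Ω B =
      ∑ i ∈ s, algebraMap 𝔠 Ω (a i - algebraMap K 𝔠 κ * b i) * algebraMap 𝔎 Ω (𝒞 i) := by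
    rw [sub_mul, hAB, hμA, hμB, Finset.mul_sum, ← Finset.sum_sub_distrib]
    refine Finset.sum_congr rfl fun i _ => ?_
    rw [map_sub, map_mul, ← IsScalarTower.algebraMap_apply K 𝔠 Ω]
    ring
  rw [← hμB] at hB0
  rw [← hnum] at hN0
  have htκ : t - algebraMap K Ω κ ≠ 0 := left_ne_zero_of_mul hN0.2
  have h6 := (s26gspPlace q (hall q) hld hgen).ord_mul htκ hB
  rw [hN0.1, hB0.1, add_zero] at h6
  show ¬ 0 < (s26gspPlace q (hall q) hld hgen).ord (t - algebraMap K Ω κ)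
  omega

/-- **finitely many bad values**: for `t ∈ Ω` not in `𝔠`, only finitely many `κ ∈ K` are values
of `t` at a constant place. -/
theorem s27repnc_bad_finite [HasPrincipalDivisors K 𝔠] (t : Ω)
    (ht : t ∉ Set.range (algebraMap 𝔠 Ω)) :
    {κ : K | ∃ q : Place K 𝔠,
      0 < (s26gspCon hld hgen hall q).ord (t - algebraMap K Ω κ)}.Finite := by
  classical
  obtain ⟨Z, hZ⟩ := s27repnc_ord_const hld hgen hall t ht
  have hsub : {κ : K | ∃ q : Place K 𝔠,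
      0 < (s26gspCon hld hgen hall q).ord (t - algebraMap K Ω κ)} ⊆
      ⋃ q ∈ (Z : Set (Place K 𝔠)),
        {κ : K | 0 < (s26gspCon hld hgen hall q).ord (t - algebraMap K Ω κ)} := by
    rintro κ ⟨q, hq⟩
    have hqZ : q ∈ Z := by
      by_contra hqZ
      exact hZ q hqZ κ hq
    exact Set.mem_iUnion₂.mpr ⟨q, hqZ, hq⟩
  refine Set.Finite.subset (Set.Finite.biUnion Z.finite_toSet ?_) hsub
  intro q _
  refine Set.Subsingleton.finite (fun κ hκ κ' hκ' => ?_)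
  have hκ1 : 0 < (s26gspCon hld hgen hall q).ord (t - algebraMap K Ω κ) := hκ
  have hκ2 : 0 < (s26gspCon hld hgen hall q).ord (t - algebraMap K Ω κ') := hκ'
  rw [IsScalarTower.algebraMap_apply K 𝔎 Ω] at hκ1 hκ2
  exact (algebraMap K 𝔎).injective (s27rep_value_unique _ t _ _ hκ1 hκ2)

include hld in
/-- **scaling**: if `𝔎 ≠ K`, a nonzero function can be scaled out of `𝔠`. -/
theorem s27repnc_scale (t : Ω) (ht0 : t ≠ 0) (τ : 𝔎) (hτ : τ ∉ Set.range (algebraMap K 𝔎)) :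
    t ∉ Set.range (algebraMap 𝔠 Ω) ∨ algebraMap 𝔎 Ω τ * t ∉ Set.range (algebraMap 𝔠 Ω) := by
  by_contra hcon
  push Not at hcon
  obtain ⟨⟨u, hu⟩, ⟨u', hu'⟩⟩ := hcon
  have hu0 : u ≠ 0 := by
    rintro rfl
    rw [map_zero] at hu
    exact ht0 hu.symm
  have h1 : algebraMap 𝔠 Ω (u' / u) = algebraMap 𝔎 Ω τ := by
    rw [map_div₀, hu', hu]
    field_simp
  obtain ⟨c, hc⟩ := s26gspc_hΓL hld (u' / u) τ h1
  apply hτ
  refine ⟨c, ?_⟩
  apply (algebraMap 𝔎 Ω).injective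
  rw [← h1, hc, ← IsScalarTower.algebraMap_apply, ← IsScalarTower.algebraMap_apply]

end Fermat.Agent.S27
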