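/-
S27-B, leaf REP-NC (helper79), part 3: THE MOVING LEMMA IN THE POINT FORM.

Setting of `S27/GenusBC.lean`, `S27/DegPt.lean`: `K ⊆ 𝔎` algebraically closed of characteristic `0`,
`𝔎 ≠ K`, `Ω = Frac (𝔠 ⊗[K] 𝔎)`, `x ∈ 𝔠` transcendental with `[𝔠 : K(x)] < ∞`;
`Con q` the constant places, `pt e = s27gpPlace hld hgen e hx` the point places
(`e : 𝔠 →ₐ[K] 𝔎`).

* `s27repnc_hT`     : the hypothesis `hT` of `S27/RepNCMain.lean` for `T = {Con q}`, `𝒦 = K`;
* `s27repnc_inst`   : `∃ N₀`, for `E₁, E₂, E₃` of degree `≥ N₀` and a finite set `S` of places: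
                      reduced effective `D_i = E_i + div f_i`, pairwise disjoint, off `S`,
                      WITHOUT CONSTANT PLACES;
* `s27repnc_points` : the same with `D_i = ∑_{e ∈ R_i} pt e`, `R_i` finite sets of points,
                      pairwise disjoint, disjoint from a finite set `S` of points,
                      `#R_i = deg E_i`.
-/
import Fermat.Agent.S27.RepNCVal
import Fermat.Agent.S27.RepNCMain
import Fermat.Agent.S27.GenusBC
import Fermat.Agent.S27.DegPt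

set_option autoImplicit false
set_option linter.style.haveILetI false
set_option linter.unusedSectionVars false

open AlgebraicCurve Module IntermediateField

namespace Fermat.Agent.S27

open Fermat.Agent.S26 Fermat.Agent.S24

variable {K 𝔠 𝔎 Ω : Type*} [Field K] [Field 𝔠] [Field 𝔎] [Field Ω]
  [Algebra K 𝔠] [Algebra K 𝔎] [Algebra K Ω] [Algebra 𝔠 Ω] [Algebra 𝔎 Ω]
  [IsScalarTower K 𝔠 Ω] [IsScalarTower K 𝔎 Ω]

section

variable (hld : Function.Injective (s26gspMu K 𝔠 𝔎 Ω)) (hgen : S26gspGen K 𝔠 𝔎 Ω)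
  (hall : ∀ P : Place K 𝔠, Function.Surjective (algebraMap K P.ResidueField))

/-- the hypothesis `hT` of `s27repnc_reduced` for the constant places and the small constant
field. -/
theorem s27repnc_hT [HasPrincipalDivisors K 𝔠] (τ : 𝔎) (hτ : τ ∉ Set.range (algebraMap K 𝔎))
    (t : Ω) (ht : t ≠ 0) :
    ∃ a : 𝔎, a ≠ 0 ∧ {c : 𝔎 | c ∈ Set.range (algebraMap K 𝔎) ∧
      ∃ v ∈ Set.range (s26gspCon hld hgen hall),
        0 < v.ord (algebraMap 𝔎 Ω a * t - algebraMap 𝔎 Ω c)}.Finite := by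
  have key : ∀ t' : Ω, t' ∉ Set.range (algebraMap 𝔠 Ω) →
      {c : 𝔎 | c ∈ Set.range (algebraMap K 𝔎) ∧ ∃ v ∈ Set.range (s26gspCon hld hgen hall),
        0 < v.ord (t' - algebraMap 𝔎 Ω c)}.Finite := by
    intro t' ht'
    refine Set.Finite.subset ((s27repnc_bad_finite hld hgen hall t' ht').image (algebraMap K 𝔎)) ?_
    rintro c ⟨⟨κ, rfl⟩, v, ⟨q, rfl⟩, hv⟩
    refine ⟨κ, ⟨q, ?_⟩, rfl⟩
    rw [IsScalarTower.algebraMap_apply K 𝔎 Ω]
    exact hv
  have hτ0 : τ ≠ 0 := by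
    rintro rfl
    exact hτ ⟨0, map_zero _⟩
  rcases s27repnc_scale hld t ht τ hτ with h | h
  · exact ⟨1, one_ne_zero, by rw [map_one, one_mul]; exact key t h⟩
  · exact ⟨τ, hτ0, key _ h⟩

end

section

variable [IsAlgClosed K] [IsAlgClosed 𝔎] [CharZero K]
  (hld : Function.Injective (s26gspMu K 𝔠 𝔎 Ω)) (hgen : S26gspGen K 𝔠 𝔎 Ω)
  {x : 𝔠} (hx : Transcendental K x) [FiniteDimensional K⟮x⟯ 𝔠]

/-- **REP without constant places**: three classes of large degree have reduced effective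
representatives, pairwise disjoint, off a finite set `S`, containing no constant place. -/
theorem s27repnc_inst (τ : 𝔎) (hτ : τ ∉ Set.range (algebraMap K 𝔎)) :
    ∃ N₀ : ℤ, ∀ E : Fin 3 → Divisor 𝔎 Ω, (∀ i, N₀ ≤ Divisor.degree (E i)) →
      ∀ S : Finset (Place 𝔎 Ω),
      ∃ (f : Fin 3 → Ω) (D : Fin 3 → Divisor 𝔎 Ω),
        (∀ i, f i ≠ 0 ∧ f i ∈ riemannRochSpace (E i) ∧ 0 ≤ D i ∧
          (∀ v : Place 𝔎 Ω, D i v = E i v + v.ord (f i)) ∧
          Divisor.degree (D i) = Divisor.degree (E i) ∧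
          (∀ v : Place 𝔎 Ω, D i v ≤ 1) ∧ (∀ P ∈ S, D i P = 0) ∧
          ∀ q : Place K 𝔠, D i (s26gspCon hld hgen (s26gspf_hall hx) q) = 0) ∧
        ∀ i j, i ≠ j → ∀ v : Place 𝔎 Ω, D i v = 0 ∨ D j v = 0 := by
  classical
  haveI : FiniteDimensional 𝔎⟮algebraMap 𝔠 Ω x⟯ Ω := s27gbc_finite hgen x
  haveI : HasPrincipalDivisors K 𝔠 := s26err_hasPrincipalDivisors (K := K) x hx
  haveI : CharZero 𝔎 := charZero_of_injective_algebraMap (algebraMap K 𝔎).injective
  have hxΩ := s27gbc_transc (𝔎 := 𝔎) (Ω := Ω) hld hx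
  have hdeg1 : ∀ v : Place 𝔎 Ω, v.deg = 1 :=
    fun v => s26gspc_deg_eq_one v (s27pt_hres hld hgen hx v)
  obtain ⟨c, hc⟩ := s27gbc_large (𝔎 := 𝔎) (Ω := Ω) hld hgen hx
  have h𝒦 : (Set.range (algebraMap K 𝔎)).Infinite :=
    Set.infinite_range_of_injective (algebraMap K 𝔎).injective
  refine ⟨max (c + 1) (max (genusFF K 𝔠 : ℤ) 1), fun E hE S => ?_⟩
  obtain ⟨f, D, h1, h2⟩ := s27repnc_three (algebraMap 𝔠 Ω x) hxΩ hdeg1 (genusFF K 𝔠 : ℤ) c hc
    (Set.range (algebraMap K 𝔎)) h𝒦 (Set.range (s26gspCon hld hgen (s26gspf_hall hx)))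
    (fun t ht => s27repnc_hT hld hgen (s26gspf_hall hx) τ hτ t ht) E
    (fun i => le_trans (le_max_left _ _) (hE i))
    (fun i => le_trans (le_trans (le_max_left _ _) (le_max_right _ _)) (hE i))
    (fun i => le_trans (le_trans (le_max_right _ _) (le_max_right _ _)) (hE i)) S
  refine ⟨f, D, fun i => ?_, h2⟩
  obtain ⟨a1, a2, a3, a4, a5, a6, a7, a8⟩ := h1 i
  exact ⟨a1, a2, a3, a4, a5, a6, a7, fun q => a8 _ ⟨q, rfl⟩⟩

variable [Algebra.IsSeparable K⟮x⟯ 𝔠]

/-- a reduced effective divisor without constant places is a sum of distinct point places. -/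
theorem s27repnc_sum_points (D : Divisor 𝔎 Ω) (hD : 0 ≤ D) (hD1 : ∀ v : Place 𝔎 Ω, D v ≤ 1)
    (hDc : ∀ q : Place K 𝔠, D (s26gspCon hld hgen (s26gspf_hall hx) q) = 0) :
    ∃ R : Finset (𝔠 →ₐ[K] 𝔎),
      (∀ e, e ∈ R ↔ D (s27gpPlace hld hgen e hx) ≠ 0) ∧
      D = ∑ e ∈ R, Finsupp.single (s27gpPlace hld hgen e hx) (1 : ℤ) ∧
      ((R.card : ℕ) : ℤ) = Divisor.degree D := by
  classical
  have hinj := s27pt_gpPlace_injective (𝔎 := 𝔎) (Ω := Ω) hld hgen hx
  set R : Finset (𝔠 →ₐ[K] 𝔎) :=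
    D.support.preimage (fun e => s27gpPlace hld hgen e hx) hinj.injOn with hR
  have hmem : ∀ e, e ∈ R ↔ D (s27gpPlace hld hgen e hx) ≠ 0 := by
    intro e
    rw [hR, Finset.mem_preimage, Finsupp.mem_support_iff]
  have hdeg1 : ∀ v : Place 𝔎 Ω, v.deg = 1 :=
    fun v => s26gspc_deg_eq_one v (s27pt_hres hld hgen hx v)
  have hsum : D = ∑ e ∈ R, Finsupp.single (s27gpPlace hld hgen e hx) (1 : ℤ) := by
    ext v
    rw [Finsupp.finsetSum_apply]
    rcases s27pt_classify hld hgen (s26gspf_hall hx) hx v with ⟨q, rfl⟩ | ⟨e, rfl⟩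
    · rw [hDc q]
      symm
      refine Finset.sum_eq_zero fun e' _ => ?_
      rw [Finsupp.single_apply, if_neg]
      exact s27pt_gpPlace_ne_con hld hgen (s26gspf_hall hx) hx e' q
    · have hval : ∀ e' ∈ R, (Finsupp.single (s27gpPlace hld hgen e' hx) (1 : ℤ))
          (s27gpPlace hld hgen e hx) = if e' = e then 1 else 0 := by
        intro e' _
        rw [Finsupp.single_apply]
        by_cases h : e' = e
        · rw [if_pos (by rw [h]), if_pos h]
        · rw [if_neg (fun h' => h (hinj h')), if_neg h]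
      rw [Finset.sum_congr rfl hval, Finset.sum_ite_eq' R e]
      by_cases he : e ∈ R
      · rw [if_pos he]
        have h1 := (hmem e).mp he
        have h2 := hD (s27gpPlace hld hgen e hx)
        have h3 := hD1 (s27gpPlace hld hgen e hx)
        simp only [Finsupp.coe_zero, Pi.zero_apply] at h2
        omega
      · rw [if_neg he]
        by_contra h
        exact he ((hmem e).mpr h)
  refine ⟨R, hmem, hsum, ?_⟩
  conv_rhs => rw [hsum]
  rw [map_sum]
  simp only [Divisor.degree_single, hdeg1, Nat.cast_one, mul_one]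
  rw [Finset.sum_const]
  simp

/-- **REP in the point form**: three classes of large degree are represented by sums of distinct
points `e : 𝔠 →ₐ[K] 𝔎`, the three sets of points pairwise disjoint and disjoint from a given
finite set `S` of points. -/
theorem s27repnc_points (τ : 𝔎) (hτ : τ ∉ Set.range (algebraMap K 𝔎)) :
    ∃ N₀ : ℤ, ∀ E : Fin 3 → Divisor 𝔎 Ω, (∀ i, N₀ ≤ Divisor.degree (E i)) →
      ∀ S : Finset (𝔠 →ₐ[K] 𝔎),
      ∃ (f : Fin 3 → Ω) (R : Fin 3 → Finset (𝔠 →ₐ[K] 𝔎)),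
        (∀ i, f i ≠ 0 ∧ f i ∈ riemannRochSpace (E i) ∧
          (∀ v : Place 𝔎 Ω, E i v + v.ord (f i) =
            (∑ e ∈ R i, Finsupp.single (s27gpPlace hld hgen e hx) (1 : ℤ)) v) ∧
          (((R i).card : ℕ) : ℤ) = Divisor.degree (E i) ∧ Disjoint (R i) S) ∧
        ∀ i j, i ≠ j → Disjoint (R i) (R j) := by
  classical
  obtain ⟨N₀, hN₀⟩ := s27repnc_inst (𝔎 := 𝔎) (Ω := Ω) hld hgen hx τ hτ
  refine ⟨N₀, fun E hE S => ?_⟩
  obtain ⟨f, D, h1, h2⟩ := hN₀ E hE (S.image fun e => s27gpPlace hld hgen e hx)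
  have hR : ∀ i, ∃ R : Finset (𝔠 →ₐ[K] 𝔎),
      (∀ e, e ∈ R ↔ D i (s27gpPlace hld hgen e hx) ≠ 0) ∧
      D i = ∑ e ∈ R, Finsupp.single (s27gpPlace hld hgen e hx) (1 : ℤ) ∧
      ((R.card : ℕ) : ℤ) = Divisor.degree (D i) := fun i =>
    s27repnc_sum_points hld hgen hx (D i) (h1 i).2.2.1 (h1 i).2.2.2.2.2.1 (h1 i).2.2.2.2.2.2.2
  choose R hRmem hRsum hRcard using hR
  refine ⟨f, R, fun i => ⟨(h1 i).1, (h1 i).2.1, fun v => ?_, ?_, ?_⟩, fun i j hij => ?_⟩
  · rw [← hRsum i]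
    exact ((h1 i).2.2.2.1 v).symm
  · rw [hRcard i]
    exact (h1 i).2.2.2.2.1
  · rw [Finset.disjoint_left]
    intro e he heS
    exact (hRmem i e).mp he ((h1 i).2.2.2.2.2.2.1 _ (Finset.mem_image_of_mem _ heS))
  · rw [Finset.disjoint_left]
    intro e hei hej
    rcases h2 i j hij (s27gpPlace hld hgen e hx) with h | h
    · exact (hRmem i e).mp hei h
    · exact (hRmem j e).mp hej h

end

end Fermat.Agent.S27
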