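/-
S27-B, leaf REP-NC (helper79), part 4: THE MOVING LEMMA IN THE TUPLE FORM OF `S27/Bridge.lean`.

Setting of `S27/Bridge.lean` / `S27/DegPt.lean` with `K ⊆ 𝔎` algebraically closed of
characteristic `0`, `𝔎 ≠ K`.

    `s27repnct_tuple` : `∃ N₀`, for three divisors `E_i` of `Ω / 𝔎` of degrees `N_i ≥ N₀` and a
        finite set `S` of points: tuples `R_i : Fin (N_i) → (𝔠 →ₐ[K] 𝔎)`, injective, off `S`,
        with pairwise disjoint ranges, and `Σ_j pt (R_i j) − E_i` PRINCIPAL.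
    `s27repnct_one`   : the same for one divisor.
-/
import Fermat.Agent.S27.RepNCInst
import Fermat.Agent.S27.Bridge

set_option autoImplicit false
set_option linter.style.haveILetI false
set_option linter.unusedSectionVars false

open AlgebraicCurve Module IntermediateField

namespace Fermat.Agent.S27

open Fermat.Agent.S26 Fermat.Agent.S24

variable {K 𝔠 𝔎 Ω : Type*} [Field K] [Field 𝔠] [Field 𝔎] [Field Ω]
  [Algebra K 𝔠] [Algebra K 𝔎] [Algebra K Ω] [Algebra 𝔠 Ω] [Algebra 𝔎 Ω]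
  [IsScalarTower K 𝔠 Ω] [IsScalarTower K 𝔎 Ω]

section

variable (hld : Function.Injective (s26gspMu K 𝔠 𝔎 Ω)) (hgen : S26gspGen K 𝔠 𝔎 Ω)
  {x : 𝔠} (hx : Transcendental K x) [FiniteDimensional K⟮x⟯ 𝔠]
  [Algebra.IsSeparable K⟮x⟯ 𝔠]

/-- a finite set of `N` points as an injective tuple. -/
theorem s27repnct_enum (R : Finset (𝔠 →ₐ[K] 𝔎)) (N : ℕ) (hN : R.card = N) :
    ∃ r : Fin N → (𝔠 →ₐ[K] 𝔎), Function.Injective r ∧ (∀ j, r j ∈ R) ∧
      s27brgPts hld hgen hx r = ∑ e ∈ R, Finsupp.single (s27gpPlace hld hgen e hx) (1 : ℤ) := by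
  classical
  let φ : ↥R ≃ Fin N := Finset.equivFinOfCardEq hN
  refine ⟨fun j => ((φ.symm j : ↥R) : 𝔠 →ₐ[K] 𝔎), ?_, fun j => (φ.symm j).2, ?_⟩
  · intro j j' h
    exact φ.symm.injective (Subtype.ext h)
  · unfold s27brgPts s27pkgSum
    rw [← Finset.sum_coe_sort R (fun e => Finsupp.single (s27gpPlace hld hgen e hx) (1 : ℤ))]
    exact Equiv.sum_comp φ.symm
      (fun e : ↥R => Finsupp.single (s27gpPlace hld hgen (e : 𝔠 →ₐ[K] 𝔎) hx) (1 : ℤ))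

variable [IsAlgClosed K] [IsAlgClosed 𝔎] [CharZero K]

/-- **REP in the tuple form.** -/
theorem s27repnct_tuple (τ : 𝔎) (hτ : τ ∉ Set.range (algebraMap K 𝔎)) :
    ∃ N₀ : ℕ, ∀ N : Fin 3 → ℕ, (∀ i, N₀ ≤ N i) → ∀ E : Fin 3 → Divisor 𝔎 Ω,
      (∀ i, Divisor.degree (E i) = (N i : ℤ)) → ∀ S : Finset (𝔠 →ₐ[K] 𝔎),
      ∃ R : (i : Fin 3) → Fin (N i) → (𝔠 →ₐ[K] 𝔎),
        (∀ i, Function.Injective (R i)) ∧
        (∀ i, Divisor.IsPrincipal (s27brgPts hld hgen hx (R i) - E i)) ∧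
        (∀ i j, R i j ∉ S) ∧
        ∀ i i', i ≠ i' → ∀ j j', R i j ≠ R i' j' := by
  classical
  obtain ⟨N₀, hN₀⟩ := s27repnc_points (𝔎 := 𝔎) (Ω := Ω) hld hgen hx τ hτ
  refine ⟨N₀.toNat, fun N hN E hE S => ?_⟩
  have hdeg : ∀ i, N₀ ≤ Divisor.degree (E i) := by
    intro i
    rw [hE i]
    have := hN i
    omega
  obtain ⟨f, R, h1, h2⟩ := hN₀ E hdeg S
  have hcard : ∀ i, (R i).card = N i := by
    intro i
    have := (h1 i).2.2.2.1
    rw [hE i] at this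
    exact_mod_cast this
  have hr : ∀ i, ∃ r : Fin (N i) → (𝔠 →ₐ[K] 𝔎), Function.Injective r ∧ (∀ j, r j ∈ R i) ∧
      s27brgPts hld hgen hx r =
        ∑ e ∈ R i, Finsupp.single (s27gpPlace hld hgen e hx) (1 : ℤ) :=
    fun i => s27repnct_enum hld hgen hx (R i) (N i) (hcard i)
  choose r hrinj hrmem hrsum using hr
  refine ⟨r, hrinj, fun i => ⟨f i, (h1 i).1, fun v => ?_⟩, fun i j hS => ?_,
    fun i i' hii' j j' h => ?_⟩
  · rw [Finsupp.sub_apply, hrsum i, ← (h1 i).2.2.1 v]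
    ring
  · exact Finset.disjoint_left.mp (h1 i).2.2.2.2 (hrmem i j) hS
  · have h3 := hrmem i' j'
    rw [← h] at h3
    exact Finset.disjoint_left.mp (h2 i i' hii') (hrmem i j) h3

/-- **REP in the tuple form, one divisor.** -/
theorem s27repnct_one (τ : 𝔎) (hτ : τ ∉ Set.range (algebraMap K 𝔎)) :
    ∃ N₀ : ℕ, ∀ N : ℕ, N₀ ≤ N → ∀ E : Divisor 𝔎 Ω,
      Divisor.degree E = (N : ℤ) → ∀ S : Finset (𝔠 →ₐ[K] 𝔎),
      ∃ R : Fin N → (𝔠 →ₐ[K] 𝔎), Function.Injective R ∧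
        Divisor.IsPrincipal (s27brgPts hld hgen hx R - E) ∧ ∀ j, R j ∉ S := by
  obtain ⟨N₀, hN₀⟩ := s27repnct_tuple (𝔎 := 𝔎) (Ω := Ω) hld hgen hx τ hτ
  refine ⟨N₀, fun N hN E hE S => ?_⟩
  obtain ⟨R, h1, h2, h3, _⟩ := hN₀ (fun _ => N) (fun _ => hN) (fun _ => E) (fun _ => hE) S
  exact ⟨R 0, h1 0, h2 0, h3 0⟩

end

end Fermat.Agent.S27
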