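/-
S27-B, leaf **REP-INST** (helper18; hub helper95, for CP-TOP): representatives of three classes by
DISJOINT INJECTIVE TUPLES OF POINTS, and the non-vanishing of the determinants `θ`.

Setting of `S27/Bridge.lean` / `S27/DegPkgO.lean` / `S27/RepNCTuple.lean`: `K ⊆ 𝔠` the function field
of the constant curve, `K ⊆ 𝔎` algebraically closed, `Ω = Frac (𝔠 ⊗[K] 𝔎)`, `pt e = s27gpPlace …`,
`Con B = s27brgCon …`, classes `s27pkgClO hdeg O hO (pt ∘ R) = [Σ_j pt (R j) − O] ∈ Pic0 𝔎 Ω`.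

* `s27ri_tuples`   : `∃ N₀, ∀ N ≥ N₀`, every origin `O` of degree `N`, every three classes
                     `c 0, c 1, c 2 ∈ Pic0 𝔎 Ω` and every finite set `S` of points: there are three
                     INJECTIVE `N`-tuples `R i` of points, off `S`, with pairwise DISJOINT ranges and
                     `[Σ_j pt (R i j) − O] = c i`     (helper79's moving lemma `s27repnct_tuple`);
* `s27ri_det_ne_iff` : `θ(R; A) = det [R i (f l)] ≠ 0 ↔ L_𝔎(Con A − Σ pt (R i)) = 0`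
                     (`f` a `K`-basis of `L_K(A)` indexed by the points);
* `s27ri_rr_bot_congr` : `L(D) = 0 ↔ L(D') = 0` for linearly equivalent `D`, `D'`;
* `s27ri_det_ne_congr` : two tuples `(R, A)`, `(R', A')` with `Con A − Σ pt R ∼ Con A' − Σ pt R'`:
                     `θ(R; A) ≠ 0 ↔ θ(R'; A') ≠ 0`;
* `s27ri_det_ne_of_class` : the class form: `[Σ pt R − Con B] = [Σ pt R' − Con B']` ⇒
                     (`θ(R; B + Ao) ≠ 0 ↔ θ(R'; B' + Ao) ≠ 0`);
* `s27ri_det_ne_zero_class` : the class `0`: `[Σ pt R − Con B] = 0` and `L_K(Ao) = 0` ⇒ `θ(R; B + Ao) ≠ 0`.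
-/
import Fermat.Agent.S27.RepNCTuple
import Fermat.Agent.S27.DegPkgAdd
import Fermat.Agent.S27.PtDef

set_option autoImplicit false
set_option linter.style.haveILetI false
set_option linter.unusedSectionVars false
set_option linter.unusedVariables false

noncomputable section

namespace Fermat.Agent.S27

open AlgebraicCurve Module IntermediateField TensorProduct
open Fermat.Agent.S26 Fermat.Agent.S24

variable {K 𝔠 𝔎 Ω : Type*} [Field K] [Field 𝔠] [Field 𝔎] [Field Ω]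
  [Algebra K 𝔠] [Algebra K 𝔎] [Algebra K Ω] [Algebra 𝔠 Ω] [Algebra 𝔎 Ω]
  [IsScalarTower K 𝔠 Ω] [IsScalarTower K 𝔎 Ω]

section Tuples

variable (hld : Function.Injective (s26gspMu K 𝔠 𝔎 Ω)) (hgen : S26gspGen K 𝔠 𝔎 Ω)
  {x : 𝔠} (hx : Transcendental K x) [FiniteDimensional K⟮x⟯ 𝔠]
  [Algebra.IsSeparable K⟮x⟯ 𝔠]
  [IsAlgClosed K] [IsAlgClosed 𝔎] [CharZero K]

/-- the class of a tuple of points with respect to the origin `O`, from a principal divisor. -/
theorem s27ri_class_of_principal {N : ℕ} (O : Divisor 𝔎 Ω) (hO : Divisor.degree O = N)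
    (R : Fin N → 𝔠 →ₐ[K] 𝔎) (D : Divisor.degZero (K := 𝔎) (F := Ω))
    (h : Divisor.IsPrincipal (s27brgPts hld hgen hx R - ((D : Divisor 𝔎 Ω) + O))) :
    s27pkgClO (s27pkg_hdeg hld hgen hx) O hO (fun j => s27gpPlace hld hgen (R j) hx) =
      Pic0.mk D := by
  unfold s27pkgClO
  rw [s27pkg_mk_eq_iff]
  obtain ⟨f, hf, hfD⟩ := h
  refine ⟨f, hf, fun v => ?_⟩
  have h1 := hfD v
  rw [s27pkgDivZeroO_coe]
  unfold s27brgPts at h1
  rw [Finsupp.sub_apply, Finsupp.add_apply] at h1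
  rw [Finsupp.sub_apply]
  omega

/-- **REP-INST, tuples**: three classes are represented by three disjoint injective `N`-tuples of
points (`N` large), with respect to any origin `O` of degree `N`. -/
theorem s27ri_tuples (τ : 𝔎) (hτ : τ ∉ Set.range (algebraMap K 𝔎)) :
    ∃ N₀ : ℕ, ∀ N : ℕ, N₀ ≤ N → ∀ (O : Divisor 𝔎 Ω) (hO : Divisor.degree O = N)
      (c : Fin 3 → Pic0 𝔎 Ω) (S : Finset (𝔠 →ₐ[K] 𝔎)),
      ∃ R : Fin 3 → Fin N → (𝔠 →ₐ[K] 𝔎),
        (∀ i, Function.Injective (R i)) ∧ (∀ i j, R i j ∉ S) ∧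
        (∀ i i', i ≠ i' → ∀ j j', R i j ≠ R i' j') ∧
        ∀ i, s27pkgClO (s27pkg_hdeg hld hgen hx) O hO
          (fun j => s27gpPlace hld hgen (R i j) hx) = c i := by
  classical
  obtain ⟨N₀, hN₀⟩ := s27repnct_tuple (𝔎 := 𝔎) (Ω := Ω) hld hgen hx τ hτ
  refine ⟨N₀, fun N hN O hO c S => ?_⟩
  have hD : ∀ i, ∃ D : Divisor.degZero (K := 𝔎) (F := Ω), Pic0.mk D = c i := fun i =>
    QuotientAddGroup.mk_surjective (c i)
  choose D hDc using hD
  have hE : ∀ i, Divisor.degree ((D i : Divisor 𝔎 Ω) + O) = (N : ℤ) := by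
    intro i
    rw [map_add, Divisor.mem_degZero.1 (D i).2, zero_add, hO]
  obtain ⟨R, h1, h2, h3, h4⟩ := hN₀ (fun _ => N) (fun _ => hN)
    (fun i => (D i : Divisor 𝔎 Ω) + O) hE S
  refine ⟨R, h1, h3, h4, fun i => ?_⟩
  rw [← hDc i]
  exact s27ri_class_of_principal hld hgen hx O hO (R i) (D i) (h2 i)

end Tuples

/-! ### The determinant `θ` and the Riemann–Roch space -/

section Theta

omit [Algebra K Ω] [Algebra 𝔠 Ω] [Algebra 𝔎 Ω] [IsScalarTower K 𝔠 Ω] [IsScalarTower K 𝔎 Ω] in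
/-- linear disjointness in the tensor product: `Σ_j x_j ⊗ c_j = 0` with `x` linearly independent
over `K` forces `c = 0`. -/
theorem s27ri_tens_eq_zero {J : Type*} [Fintype J] (x' : J → 𝔠)
    (hx' : LinearIndependent K x') (c : J → 𝔎)
    (h : s27brgTens (K := K) x' c = 0) : c = 0 := by
  classical
  have h1 := congrArg (TensorProduct.comm K 𝔠 𝔎) h
  unfold s27brgTens at h1
  rw [map_sum, map_zero] at h1
  have h2 : ∑ j, c j • ((1 : 𝔎) ⊗ₜ[K] x' j) = 0 := by
    rw [← h1]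
    refine Finset.sum_congr rfl fun j _ => ?_
    rw [TensorProduct.comm_tmul, TensorProduct.smul_tmul', smul_eq_mul, mul_one]
  have h3 := Module.Flat.linearIndependent_one_tmul (S := 𝔎) hx'
  funext j
  exact Fintype.linearIndependent_iff.1 h3 c h2 j

variable (hld : Function.Injective (s26gspMu K 𝔠 𝔎 Ω)) (hgen : S26gspGen K 𝔠 𝔎 Ω)
  {x : 𝔠} (hx : Transcendental K x) [FiniteDimensional K⟮x⟯ 𝔠]
  [Algebra.IsSeparable K⟮x⟯ 𝔠]
  [IsAlgClosed K]

/-- **`θ ≠ 0 ↔ L = 0`**: for an injective tuple `R` of `N` points and a `K`-basis `f` of `L_K(A)`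
indexed by `Fin N`, the determinant `det [R i (f l)]` is nonzero iff
`L_𝔎(Con A − Σ_i pt (R i)) = 0`. -/
theorem s27ri_det_ne_iff (A : Divisor K 𝔠) {N : ℕ} (R : Fin N → 𝔠 →ₐ[K] 𝔎)
    (hR : Function.Injective R) (f : Module.Basis (Fin N) K ↥(riemannRochSpace A)) :
    (s27ptValB R f).det ≠ 0 ↔
      riemannRochSpace (s27brgCon hld hgen (s26gspf_hall hx) A - s27brgPts hld hgen hx R) = ⊥ := by
  classical
  have hfmem : ∀ j, ((f j : ↥(riemannRochSpace A)) : 𝔠) ∈ riemannRochSpace A := fun j => (f j).2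
  have hmul : ∀ c : Fin N → 𝔎, (s27ptValB R f).mulVec c = 0 ↔
      ∀ i, ∑ j, R i ((f j : ↥(riemannRochSpace A)) : 𝔠) * c j = 0 := by
    intro c
    constructor
    · intro h i
      have := congrFun h i
      simpa [s27ptValB, s27ptVal, Matrix.mulVec, dotProduct] using this
    · intro h
      funext i
      simpa [s27ptValB, s27ptVal, Matrix.mulVec, dotProduct] using h i
  constructor
  · intro hdet
    rw [Submodule.eq_bot_iff]
    intro s hs
    have hs' := s27brg_sub_pts_le hld hgen hx _ R hs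
    obtain ⟨c, rfl⟩ := s27brg_exists_lin hld hgen (s26gspf_hall hx) hx A f hs'
    rw [s27brg_lin_mem_iff hld hgen (s26gspf_hall hx) hx A R hR _ hfmem c] at hs
    have hc : c = 0 := Matrix.eq_zero_of_mulVec_eq_zero hdet ((hmul c).2 hs)
    subst hc
    unfold s27brgLin
    simp
  · intro hbot hdet
    obtain ⟨c, hc0, hc⟩ := Matrix.exists_mulVec_eq_zero_iff.2 hdet
    have h1 := (s27brg_lin_mem_iff hld hgen (s26gspf_hall hx) hx A R hR _ hfmem c).2
      ((hmul c).1 hc)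
    rw [hbot, Submodule.mem_bot, ← s27brg_mu_tens (K := K)] at h1
    have h2 : s27brgTens (K := K) (fun j => ((f j : ↥(riemannRochSpace A)) : 𝔠)) c = 0 :=
      hld (by rw [h1, map_zero])
    have hli : LinearIndependent K (fun j => ((f j : ↥(riemannRochSpace A)) : 𝔠)) := by
      have := f.linearIndependent
      exact this.map' (riemannRochSpace A).subtype (Submodule.ker_subtype _)
    exact hc0 (s27ri_tens_eq_zero _ hli c h2)

end Theta

section Congr

variable {L' Ω' : Type*} [Field L'] [Field Ω'] [Algebra L' Ω']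

/-- `L(D) = 0 ↔ L(D') = 0` for linearly equivalent divisors. -/
theorem s27ri_rr_bot_congr (D D' : Divisor L' Ω')
    (h : ∃ f : Ω', f ≠ 0 ∧ ∀ v : Place L' Ω', D v = D' v + v.ord f) :
    riemannRochSpace D = ⊥ ↔ riemannRochSpace D' = ⊥ := by
  obtain ⟨f, hf, hfD⟩ := h
  have hE : ∀ v : Place L' Ω', v.ord f = (D - D') v := by
    intro v
    rw [Finsupp.sub_apply, hfD v]
    ring
  have hDD : D - (D - D') = D' := by abel
  have key : ∀ s : Ω', s ∈ riemannRochSpace D ↔ f * s ∈ riemannRochSpace D' := by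
    intro s
    have := s27brg_mul D (D - D') hf hE s
    rwa [hDD] at this
  constructor
  · intro hb
    rw [Submodule.eq_bot_iff] at hb ⊢
    intro s hs
    have h1 : f⁻¹ * s ∈ riemannRochSpace D := by
      rw [key, ← mul_assoc, mul_inv_cancel₀ hf, one_mul]
      exact hs
    have h2 := hb _ h1
    rcases mul_eq_zero.1 h2 with h3 | h3
    · exact absurd h3 (inv_ne_zero hf)
    · exact h3
  · intro hb
    rw [Submodule.eq_bot_iff] at hb ⊢
    intro s hs
    have h2 := hb _ ((key s).1 hs)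
    rcases mul_eq_zero.1 h2 with h3 | h3
    · exact absurd h3 hf
    · exact h3

end Congr

/-! ### Class forms -/

section ClassForm

variable (hld : Function.Injective (s26gspMu K 𝔠 𝔎 Ω)) (hgen : S26gspGen K 𝔠 𝔎 Ω)
  {x : 𝔠} (hx : Transcendental K x) [FiniteDimensional K⟮x⟯ 𝔠]
  [Algebra.IsSeparable K⟮x⟯ 𝔠]
  [IsAlgClosed K] [IsAlgClosed 𝔎]

/-- **`θ ≠ 0` only depends on the class**: two injective tuples `R`, `R'` of points (of lengths `N`,
`N'`) with `[Σ pt R − Con B] = [Σ pt R' − Con B']` in `Pic0`: `θ(R; B + Ao) ≠ 0 ↔ θ(R'; B' + Ao) ≠ 0`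
(for any `K`-bases of `L_K(B + Ao)`, `L_K(B' + Ao)` indexed by the points). -/
theorem s27ri_det_ne_of_class (Ao B B' : Divisor K 𝔠) {N N' : ℕ}
    (hB : Divisor.degree (Finsupp.mapDomain (s26gspCon hld hgen (s26gspf_hall hx)) B) = (N : ℤ))
    (hB' : Divisor.degree (Finsupp.mapDomain (s26gspCon hld hgen (s26gspf_hall hx)) B') =
      (N' : ℤ))
    (R : Fin N → 𝔠 →ₐ[K] 𝔎) (R' : Fin N' → 𝔠 →ₐ[K] 𝔎)
    (hR : Function.Injective R) (hR' : Function.Injective R')
    (hcl : s27pkgClO (s27pkg_hdeg hld hgen hx)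
        (Finsupp.mapDomain (s26gspCon hld hgen (s26gspf_hall hx)) B) hB
        (fun j => s27gpPlace hld hgen (R j) hx) =
      s27pkgClO (s27pkg_hdeg hld hgen hx)
        (Finsupp.mapDomain (s26gspCon hld hgen (s26gspf_hall hx)) B') hB'
        (fun j => s27gpPlace hld hgen (R' j) hx))
    (f : Module.Basis (Fin N) K ↥(riemannRochSpace (B + Ao)))
    (f' : Module.Basis (Fin N') K ↥(riemannRochSpace (B' + Ao))) :
    (s27ptValB R f).det ≠ 0 ↔ (s27ptValB R' f').det ≠ 0 := by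
  rw [s27ri_det_ne_iff hld hgen hx (B + Ao) R hR f,
    s27ri_det_ne_iff hld hgen hx (B' + Ao) R' hR' f']
  obtain ⟨φ, hφ, hφD⟩ := (s27pka_cl_eq_iff _ _ _ hB hB' _ _).1 hcl
  refine s27ri_rr_bot_congr _ _ ⟨φ⁻¹, inv_ne_zero hφ, fun v => ?_⟩
  have h1 := hφD v
  unfold s27brgCon s27brgPts
  rw [Finsupp.sub_apply, Finsupp.sub_apply, Finsupp.mapDomain_add, Finsupp.mapDomain_add,
    Finsupp.add_apply, Finsupp.add_apply, Place.ord_inv]
  omega

/-- `L_𝔎(Con Ao) = 0` when `L_K(Ao) = 0`. -/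
theorem s27ri_rr_con_bot (Ao : Divisor K 𝔠) (hAo : riemannRochSpace Ao = ⊥) :
    riemannRochSpace (Finsupp.mapDomain (s26gspCon hld hgen (s26gspf_hall hx)) Ao) =
      (⊥ : Submodule 𝔎 Ω) := by
  rw [s26errd_rr_eq' hld hgen (s26gspf_hall hx) ⟨x, hx, inferInstance, inferInstance⟩ Ao, hAo]
  rw [Submodule.span_eq_bot]
  rintro y ⟨z, hz, rfl⟩
  have : z = 0 := by simpa using hz
  rw [this, map_zero]

/-- **the class `0`**: an injective tuple `R` of `N` points with `[Σ pt R − Con B] = 0`, and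
`L_K(Ao) = 0`: `θ(R; B + Ao) ≠ 0`. -/
theorem s27ri_det_ne_zero_class (Ao B : Divisor K 𝔠) (hAo : riemannRochSpace Ao = ⊥) {N : ℕ}
    (hB : Divisor.degree (Finsupp.mapDomain (s26gspCon hld hgen (s26gspf_hall hx)) B) = (N : ℤ))
    (R : Fin N → 𝔠 →ₐ[K] 𝔎) (hR : Function.Injective R)
    (hcl : s27pkgClO (s27pkg_hdeg hld hgen hx)
        (Finsupp.mapDomain (s26gspCon hld hgen (s26gspf_hall hx)) B) hB
        (fun j => s27gpPlace hld hgen (R j) hx) = 0)
    (f : Module.Basis (Fin N) K ↥(riemannRochSpace (B + Ao))) :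
    (s27ptValB R f).det ≠ 0 := by
  rw [s27ri_det_ne_iff hld hgen hx (B + Ao) R hR f]
  obtain ⟨φ, hφ, hφD⟩ := (s27pka_cl_eq_zero_iff _ _ hB _).1 hcl
  rw [s27ri_rr_bot_congr _ (Finsupp.mapDomain (s26gspCon hld hgen (s26gspf_hall hx)) Ao)
    ⟨φ⁻¹, inv_ne_zero hφ, fun v => ?_⟩]
  · exact s27ri_rr_con_bot hld hgen hx Ao hAo
  · have h1 := hφD v
    unfold s27brgCon s27brgPts
    rw [Finsupp.sub_apply, Finsupp.mapDomain_add, Finsupp.add_apply, Place.ord_inv]
    omega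

end ClassForm

end Fermat.Agent.S27

end
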