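/-
S27-B, GEOMETRY leaf CUBE-PT (NOTES/S27-geom.md §3) — the POINTWISE CUBE, cancellation part, with the
`≐_W` calculus (helper8; independent twin of helper4's S27/CubePt.lean, which has the exact identity too).

Abstract form.  `ι` a linearly ordered index type (the points `R_i`, `i ∈ ι`), `S₁ S₂ S₃ : Finset ι`
pairwise disjoint (the divisors `D₁, D₂, D₃`; their degrees need not be equal), values in a field `𝔏`:
`x i = R_i(t)`, `α i = R_i(a₀)`, `σ i = R_i(s)` (`a₀`, `s` the two pole-part functions: the adapted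
`a` for `A_M = A₀ + M · O″` is `a₀ · s^M`), and `θ S` = the determinant `det [R_i (f^{(|S|)}_l)]_{i ∈ S}`
(here: ANY function of `S`).  The point formula is

    `s27cptM x α σ θ S = θ S / ( ∏_{i<j ∈ S} (x j − x i) · ∏_{i ∈ S} α i · σ i ^ |S| )`.

* `s27cptQ_cube`   : the cube identity for every "quadratic" product `∏_{i<j ∈ S} f (i, j)`;
* `s27cptV_cube`   : Vandermonde products: `V₁₂₃ V₁ V₂ V₃ = V₁₂ V₁₃ V₂₃`;
* `s27cptP_cube`   : pole factors: `P₁₂₃ P₁ P₂ P₃ = P₁₂ P₁₃ P₂₃`;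
* `s27cpt_cube`    : **CUBE-PT, exact**: `m₁₂₃ m₁ m₂ m₃ · (θ₁₂ θ₁₃ θ₂₃) = (θ₁₂₃ θ₁ θ₂ θ₃) · m₁₂ m₁₃ m₂₃`;
* `s27cpt_cube_Phi`: the same with `Φ = θ₁₂₃ θ₁ θ₂ θ₃ / (θ₁₂ θ₁₃ θ₂₃)`;
* `s27cpt_cube_unit`: **CUBE-PT, `≐_W` form**: if `μ_S ≐_W m_S` for the seven `S`, then
  `μ₁₂₃ μ₁ μ₂ μ₃ ≐_W Φ · μ₁₂ μ₁₃ μ₂₃` (units of `W` = `S27IsUnitIn W`);
* `s27cptV_fin`    : for `ι = Fin n`, `V x univ = det (vandermonde x)` (link with `Matrix.det_vandermonde`);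
* `s27cptV_map`    : re-indexing along a strictly monotone map.
-/
import Mathlib
import Fermat.Agent.S27.Plan

set_option autoImplicit false
set_option linter.unusedSectionVars false
set_option linter.unusedVariables false
set_option linter.unusedSimpArgs false

namespace Fermat.Agent.S27

open Finset

universe w

section comb

variable {ι : Type*} [LinearOrder ι] {M : Type*} [CommMonoid M]

/-- `∏ f (i, j)` over the pairs `i < j`, `i ∈ S`, `j ∈ T`. -/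
def s27cptQ (f : ι × ι → M) (S T : Finset ι) : M :=
  ∏ p ∈ (S ×ˢ T).filter (fun p => p.1 < p.2), f p

theorem s27cptQ_union_left (f : ι × ι → M) {S T : Finset ι} (U : Finset ι) (h : Disjoint S T) :
    s27cptQ f (S ∪ T) U = s27cptQ f S U * s27cptQ f T U := by
  unfold s27cptQ
  rw [Finset.union_product, Finset.filter_union, Finset.prod_union]
  exact Finset.disjoint_filter_filter (Finset.disjoint_product.mpr (Or.inl h))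

theorem s27cptQ_union_right (f : ι × ι → M) {S T : Finset ι} (U : Finset ι) (h : Disjoint S T) :
    s27cptQ f U (S ∪ T) = s27cptQ f U S * s27cptQ f U T := by
  unfold s27cptQ
  rw [Finset.product_union, Finset.filter_union, Finset.prod_union]
  exact Finset.disjoint_filter_filter (Finset.disjoint_product.mpr (Or.inr h))

/-- `Q(S ∪ T) = Q(S) · Q(T) · (Q(S, T) · Q(T, S))` -/
theorem s27cptQ_diag_union (f : ι × ι → M) {S T : Finset ι} (h : Disjoint S T) :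
    s27cptQ f (S ∪ T) (S ∪ T) =
      s27cptQ f S S * s27cptQ f T T * (s27cptQ f S T * s27cptQ f T S) := by
  rw [s27cptQ_union_left f _ h, s27cptQ_union_right f _ h, s27cptQ_union_right f _ h]
  simp only [mul_comm, mul_left_comm, mul_assoc]

/-- **the cube identity for quadratic products** -/
theorem s27cptQ_cube (f : ι × ι → M) {S₁ S₂ S₃ : Finset ι} (h12 : Disjoint S₁ S₂)
    (h13 : Disjoint S₁ S₃) (h23 : Disjoint S₂ S₃) :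
    s27cptQ f (S₁ ∪ S₂ ∪ S₃) (S₁ ∪ S₂ ∪ S₃) * s27cptQ f S₁ S₁ * s27cptQ f S₂ S₂ * s27cptQ f S₃ S₃
      = s27cptQ f (S₁ ∪ S₂) (S₁ ∪ S₂) * s27cptQ f (S₁ ∪ S₃) (S₁ ∪ S₃)
          * s27cptQ f (S₂ ∪ S₃) (S₂ ∪ S₃) := by
  have h123 : Disjoint (S₁ ∪ S₂) S₃ := Finset.disjoint_union_left.mpr ⟨h13, h23⟩
  rw [s27cptQ_diag_union f h123, s27cptQ_diag_union f h12, s27cptQ_diag_union f h13,
    s27cptQ_diag_union f h23, s27cptQ_union_left f _ h12, s27cptQ_union_right f _ h12]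
  simp only [mul_comm, mul_left_comm, mul_assoc]

/-- the pole factor `∏_{i ∈ S} α i · σ i ^ e` -/
def s27cptP (α σ : ι → M) (e : ℕ) (S : Finset ι) : M := ∏ i ∈ S, α i * σ i ^ e

theorem s27cptP_union (α σ : ι → M) (e : ℕ) {S T : Finset ι} (h : Disjoint S T) :
    s27cptP α σ e (S ∪ T) = s27cptP α σ e S * s27cptP α σ e T := by
  unfold s27cptP
  rw [Finset.prod_union h]

theorem s27cptP_mul (α σ : ι → M) (e e' : ℕ) (S : Finset ι) :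
    s27cptP α σ e S * s27cptP α σ e' S = ∏ i ∈ S, (α i * α i * σ i ^ (e + e')) := by
  unfold s27cptP
  rw [← Finset.prod_mul_distrib]
  refine Finset.prod_congr rfl fun i _ => ?_
  rw [pow_add]
  simp only [mul_comm, mul_left_comm, mul_assoc]

/-- **the cube identity for the pole factors**, exponents `e₁, e₂, e₃` arbitrary -/
theorem s27cptP_cube_exp (α σ : ι → M) (e₁ e₂ e₃ : ℕ) {S₁ S₂ S₃ : Finset ι}
    (h12 : Disjoint S₁ S₂) (h13 : Disjoint S₁ S₃) (h23 : Disjoint S₂ S₃) :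
    s27cptP α σ (e₁ + e₂ + e₃) (S₁ ∪ S₂ ∪ S₃) * s27cptP α σ e₁ S₁ * s27cptP α σ e₂ S₂
        * s27cptP α σ e₃ S₃
      = s27cptP α σ (e₁ + e₂) (S₁ ∪ S₂) * s27cptP α σ (e₁ + e₃) (S₁ ∪ S₃)
          * s27cptP α σ (e₂ + e₃) (S₂ ∪ S₃) := by
  have h123 : Disjoint (S₁ ∪ S₂) S₃ := Finset.disjoint_union_left.mpr ⟨h13, h23⟩
  rw [s27cptP_union α σ _ h123, s27cptP_union α σ _ h12, s27cptP_union α σ _ h12,
    s27cptP_union α σ _ h13, s27cptP_union α σ _ h23]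
  have e1 : s27cptP α σ (e₁ + e₂ + e₃) S₁ * s27cptP α σ e₁ S₁
      = s27cptP α σ (e₁ + e₂) S₁ * s27cptP α σ (e₁ + e₃) S₁ := by
    rw [s27cptP_mul, s27cptP_mul]
    refine Finset.prod_congr rfl fun i _ => ?_
    congr 2
    omega
  have e2 : s27cptP α σ (e₁ + e₂ + e₃) S₂ * s27cptP α σ e₂ S₂
      = s27cptP α σ (e₁ + e₂) S₂ * s27cptP α σ (e₂ + e₃) S₂ := by
    rw [s27cptP_mul, s27cptP_mul]
    refine Finset.prod_congr rfl fun i _ => ?_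
    congr 2
    omega
  have e3 : s27cptP α σ (e₁ + e₂ + e₃) S₃ * s27cptP α σ e₃ S₃
      = s27cptP α σ (e₁ + e₃) S₃ * s27cptP α σ (e₂ + e₃) S₃ := by
    rw [s27cptP_mul, s27cptP_mul]
    refine Finset.prod_congr rfl fun i _ => ?_
    congr 2
    omega
  calc s27cptP α σ (e₁ + e₂ + e₃) S₁ * s27cptP α σ (e₁ + e₂ + e₃) S₂
          * s27cptP α σ (e₁ + e₂ + e₃) S₃ * s27cptP α σ e₁ S₁ * s27cptP α σ e₂ S₂
          * s27cptP α σ e₃ S₃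
      = (s27cptP α σ (e₁ + e₂ + e₃) S₁ * s27cptP α σ e₁ S₁)
          * (s27cptP α σ (e₁ + e₂ + e₃) S₂ * s27cptP α σ e₂ S₂)
          * (s27cptP α σ (e₁ + e₂ + e₃) S₃ * s27cptP α σ e₃ S₃) := by
        simp only [mul_comm, mul_left_comm, mul_assoc]
    _ = _ := by
        rw [e1, e2, e3]
        simp only [mul_comm, mul_left_comm, mul_assoc]

end comb

section field

variable {ι : Type*} [LinearOrder ι] {𝔏 : Type w} [Field 𝔏]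

/-- the Vandermonde product `∏_{i<j ∈ S} (x j − x i)` -/
def s27cptV (x : ι → 𝔏) (S : Finset ι) : 𝔏 := s27cptQ (fun p => x p.2 - x p.1) S S

theorem s27cptV_def (x : ι → 𝔏) (S : Finset ι) :
    s27cptV x S = ∏ p ∈ (S ×ˢ S).filter (fun p => p.1 < p.2), (x p.2 - x p.1) := rfl

/-- `V x S = ∏_{i ∈ S} ∏_{j ∈ S, i < j} (x j − x i)` -/
theorem s27cptV_eq_prod_prod (x : ι → 𝔏) (S : Finset ι) :
    s27cptV x S = ∏ i ∈ S, ∏ j ∈ S.filter (fun j => i < j), (x j - x i) := by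
  rw [s27cptV_def, Finset.prod_filter, Finset.prod_product]
  refine Finset.prod_congr rfl fun i _ => ?_
  rw [Finset.prod_filter]

/-- the Vandermonde product does not vanish when `x` is injective on `S` -/
theorem s27cptV_ne_zero (x : ι → 𝔏) (S : Finset ι) (hx : Set.InjOn x S) : s27cptV x S ≠ 0 := by
  rw [s27cptV_def, Finset.prod_ne_zero_iff]
  intro p hp
  rw [Finset.mem_filter, Finset.mem_product] at hp
  intro h0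
  have := hx hp.1.2 hp.1.1 (sub_eq_zero.mp h0)
  exact (ne_of_gt hp.2) this

/-- for `ι = Fin n`: the Vandermonde determinant -/
theorem s27cptV_fin {n : ℕ} (x : Fin n → 𝔏) :
    s27cptV x Finset.univ = (Matrix.vandermonde x).det := by
  rw [Matrix.det_vandermonde, s27cptV_eq_prod_prod]
  refine Finset.prod_congr rfl fun i _ => Finset.prod_congr ?_ fun _ _ => rfl
  ext j
  simp

/-- re-indexing along a strictly monotone map -/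
theorem s27cptV_map {κ : Type*} [LinearOrder κ] (e : κ → ι) (he : StrictMono e) (x : ι → 𝔏)
    (S : Finset κ) : s27cptV x (S.image e) = s27cptV (fun k => x (e k)) S := by
  rw [s27cptV_eq_prod_prod, s27cptV_eq_prod_prod,
    Finset.prod_image (fun a _ b _ h => he.injective h)]
  refine Finset.prod_congr rfl fun i _ => ?_
  rw [Finset.filter_image, Finset.prod_image (fun a _ b _ h => he.injective h)]
  refine Finset.prod_congr ?_ fun _ _ => rfl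
  ext j
  simp [he.lt_iff_lt]

/-- **Vandermonde products: `V₁₂₃ V₁ V₂ V₃ = V₁₂ V₁₃ V₂₃`** -/
theorem s27cptV_cube (x : ι → 𝔏) {S₁ S₂ S₃ : Finset ι} (h12 : Disjoint S₁ S₂)
    (h13 : Disjoint S₁ S₃) (h23 : Disjoint S₂ S₃) :
    s27cptV x (S₁ ∪ S₂ ∪ S₃) * s27cptV x S₁ * s27cptV x S₂ * s27cptV x S₃
      = s27cptV x (S₁ ∪ S₂) * s27cptV x (S₁ ∪ S₃) * s27cptV x (S₂ ∪ S₃) :=
  s27cptQ_cube _ h12 h13 h23

/-- the pole factor of `S`: `∏_{i ∈ S} α i · σ i ^ |S|` -/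
def s27cptPc (α σ : ι → 𝔏) (S : Finset ι) : 𝔏 := s27cptP α σ S.card S

/-- **pole factors: `P₁₂₃ P₁ P₂ P₃ = P₁₂ P₁₃ P₂₃`** -/
theorem s27cptP_cube (α σ : ι → 𝔏) {S₁ S₂ S₃ : Finset ι} (h12 : Disjoint S₁ S₂)
    (h13 : Disjoint S₁ S₃) (h23 : Disjoint S₂ S₃) :
    s27cptPc α σ (S₁ ∪ S₂ ∪ S₃) * s27cptPc α σ S₁ * s27cptPc α σ S₂ * s27cptPc α σ S₃
      = s27cptPc α σ (S₁ ∪ S₂) * s27cptPc α σ (S₁ ∪ S₃) * s27cptPc α σ (S₂ ∪ S₃) := by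
  have h123 : Disjoint (S₁ ∪ S₂) S₃ := Finset.disjoint_union_left.mpr ⟨h13, h23⟩
  unfold s27cptPc
  rw [Finset.card_union_of_disjoint h123, Finset.card_union_of_disjoint h12,
    Finset.card_union_of_disjoint h13, Finset.card_union_of_disjoint h23]
  exact s27cptP_cube_exp α σ _ _ _ h12 h13 h23

/-- **the point formula** `m(S) = θ(S) / (V(S) · P(S))` -/
def s27cptM (x α σ : ι → 𝔏) (θ : Finset ι → 𝔏) (S : Finset ι) : 𝔏 :=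
  θ S / (s27cptV x S * s27cptPc α σ S)

/-- **CUBE-PT, exact form** (no hypothesis of non-vanishing). -/
theorem s27cpt_cube (x α σ : ι → 𝔏) (θ : Finset ι → 𝔏) {S₁ S₂ S₃ : Finset ι}
    (h12 : Disjoint S₁ S₂) (h13 : Disjoint S₁ S₃) (h23 : Disjoint S₂ S₃) :
    s27cptM x α σ θ (S₁ ∪ S₂ ∪ S₃) * s27cptM x α σ θ S₁ * s27cptM x α σ θ S₂
        * s27cptM x α σ θ S₃ * (θ (S₁ ∪ S₂) * θ (S₁ ∪ S₃) * θ (S₂ ∪ S₃))
      = θ (S₁ ∪ S₂ ∪ S₃) * θ S₁ * θ S₂ * θ S₃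
        * (s27cptM x α σ θ (S₁ ∪ S₂) * s27cptM x α σ θ (S₁ ∪ S₃)
          * s27cptM x α σ θ (S₂ ∪ S₃)) := by
  have hV := s27cptV_cube x h12 h13 h23
  have hP := s27cptP_cube α σ h12 h13 h23
  have key : (s27cptV x (S₁ ∪ S₂ ∪ S₃) * s27cptPc α σ (S₁ ∪ S₂ ∪ S₃))⁻¹
      * (s27cptV x S₁ * s27cptPc α σ S₁)⁻¹ * (s27cptV x S₂ * s27cptPc α σ S₂)⁻¹
      * (s27cptV x S₃ * s27cptPc α σ S₃)⁻¹
      = (s27cptV x (S₁ ∪ S₂) * s27cptPc α σ (S₁ ∪ S₂))⁻¹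
        * (s27cptV x (S₁ ∪ S₃) * s27cptPc α σ (S₁ ∪ S₃))⁻¹
        * (s27cptV x (S₂ ∪ S₃) * s27cptPc α σ (S₂ ∪ S₃))⁻¹ := by
    rw [← mul_inv, ← mul_inv, ← mul_inv, ← mul_inv, ← mul_inv]
    congr 1
    calc s27cptV x (S₁ ∪ S₂ ∪ S₃) * s27cptPc α σ (S₁ ∪ S₂ ∪ S₃)
            * (s27cptV x S₁ * s27cptPc α σ S₁) * (s27cptV x S₂ * s27cptPc α σ S₂)
            * (s27cptV x S₃ * s27cptPc α σ S₃)
        = (s27cptV x (S₁ ∪ S₂ ∪ S₃) * s27cptV x S₁ * s27cptV x S₂ * s27cptV x S₃)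
            * (s27cptPc α σ (S₁ ∪ S₂ ∪ S₃) * s27cptPc α σ S₁ * s27cptPc α σ S₂
              * s27cptPc α σ S₃) := by ring
      _ = (s27cptV x (S₁ ∪ S₂) * s27cptV x (S₁ ∪ S₃) * s27cptV x (S₂ ∪ S₃))
            * (s27cptPc α σ (S₁ ∪ S₂) * s27cptPc α σ (S₁ ∪ S₃) * s27cptPc α σ (S₂ ∪ S₃)) := by
          rw [hV, hP]
      _ = _ := by ring
  unfold s27cptM
  simp only [div_eq_mul_inv]
  calc θ (S₁ ∪ S₂ ∪ S₃) * (s27cptV x (S₁ ∪ S₂ ∪ S₃) * s27cptPc α σ (S₁ ∪ S₂ ∪ S₃))⁻¹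
          * (θ S₁ * (s27cptV x S₁ * s27cptPc α σ S₁)⁻¹)
          * (θ S₂ * (s27cptV x S₂ * s27cptPc α σ S₂)⁻¹)
          * (θ S₃ * (s27cptV x S₃ * s27cptPc α σ S₃)⁻¹)
          * (θ (S₁ ∪ S₂) * θ (S₁ ∪ S₃) * θ (S₂ ∪ S₃))
      = θ (S₁ ∪ S₂ ∪ S₃) * θ S₁ * θ S₂ * θ S₃ * (θ (S₁ ∪ S₂) * θ (S₁ ∪ S₃) * θ (S₂ ∪ S₃))
          * ((s27cptV x (S₁ ∪ S₂ ∪ S₃) * s27cptPc α σ (S₁ ∪ S₂ ∪ S₃))⁻¹
            * (s27cptV x S₁ * s27cptPc α σ S₁)⁻¹ * (s27cptV x S₂ * s27cptPc α σ S₂)⁻¹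
            * (s27cptV x S₃ * s27cptPc α σ S₃)⁻¹) := by ring
    _ = _ := by
        rw [key]
        ring

/-- the function `Φ = θ₁₂₃ θ₁ θ₂ θ₃ / (θ₁₂ θ₁₃ θ₂₃)` (independent of `W`, `t`, `a`). -/
def s27cptPhi (θ : Finset ι → 𝔏) (S₁ S₂ S₃ : Finset ι) : 𝔏 :=
  θ (S₁ ∪ S₂ ∪ S₃) * θ S₁ * θ S₂ * θ S₃ / (θ (S₁ ∪ S₂) * θ (S₁ ∪ S₃) * θ (S₂ ∪ S₃))

theorem s27cptPhi_ne_zero (θ : Finset ι → 𝔏) (S₁ S₂ S₃ : Finset ι)
    (h : ∀ S, S.Nonempty → θ S ≠ 0) (h1 : S₁.Nonempty) (h2 : S₂.Nonempty) (h3 : S₃.Nonempty) :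
    s27cptPhi θ S₁ S₂ S₃ ≠ 0 := by
  unfold s27cptPhi
  have a1 := h _ h1
  have a2 := h _ h2
  have a3 := h _ h3
  have a12 := h (S₁ ∪ S₂) (h1.mono Finset.subset_union_left)
  have a13 := h (S₁ ∪ S₃) (h1.mono Finset.subset_union_left)
  have a23 := h (S₂ ∪ S₃) (h2.mono Finset.subset_union_left)
  have a123 := h (S₁ ∪ S₂ ∪ S₃) (h3.mono Finset.subset_union_right)
  exact div_ne_zero (mul_ne_zero (mul_ne_zero (mul_ne_zero a123 a1) a2) a3)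
    (mul_ne_zero (mul_ne_zero a12 a13) a23)

/-- **CUBE-PT with `Φ`**: `m₁₂₃ m₁ m₂ m₃ = Φ · m₁₂ m₁₃ m₂₃`. -/
theorem s27cpt_cube_Phi (x α σ : ι → 𝔏) (θ : Finset ι → 𝔏) {S₁ S₂ S₃ : Finset ι}
    (h12 : Disjoint S₁ S₂) (h13 : Disjoint S₁ S₃) (h23 : Disjoint S₂ S₃)
    (t12 : θ (S₁ ∪ S₂) ≠ 0) (t13 : θ (S₁ ∪ S₃) ≠ 0) (t23 : θ (S₂ ∪ S₃) ≠ 0) :
    s27cptM x α σ θ (S₁ ∪ S₂ ∪ S₃) * s27cptM x α σ θ S₁ * s27cptM x α σ θ S₂
        * s27cptM x α σ θ S₃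
      = s27cptPhi θ S₁ S₂ S₃ * (s27cptM x α σ θ (S₁ ∪ S₂) * s27cptM x α σ θ (S₁ ∪ S₃)
          * s27cptM x α σ θ (S₂ ∪ S₃)) := by
  have h := s27cpt_cube x α σ θ h12 h13 h23
  have hne : θ (S₁ ∪ S₂) * θ (S₁ ∪ S₃) * θ (S₂ ∪ S₃) ≠ 0 :=
    mul_ne_zero (mul_ne_zero t12 t13) t23
  unfold s27cptPhi
  rw [div_mul_eq_mul_div, eq_div_iff hne, h]

end field

section unit

variable {𝔏 : Type w} [Field 𝔏]

/-- `a ≐_W b`: `a = u · b` with `u` a unit of `W`. -/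
def s27cptEq (W : ValuationSubring 𝔏) (a b : 𝔏) : Prop := ∃ u : 𝔏, S27IsUnitIn W u ∧ a = u * b

theorem s27cptEq_refl (W : ValuationSubring 𝔏) (a : 𝔏) : s27cptEq W a a :=
  ⟨1, ⟨one_ne_zero, W.one_mem, by rw [inv_one]; exact W.one_mem⟩, (one_mul a).symm⟩

theorem s27cptEq_of_eq (W : ValuationSubring 𝔏) {a b : 𝔏} (h : a = b) : s27cptEq W a b :=
  h ▸ s27cptEq_refl W a

theorem s27cptEq_symm {W : ValuationSubring 𝔏} {a b : 𝔏} (h : s27cptEq W a b) :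
    s27cptEq W b a := by
  obtain ⟨u, ⟨hu0, hu, hu'⟩, rfl⟩ := h
  refine ⟨u⁻¹, ⟨inv_ne_zero hu0, hu', by rwa [inv_inv]⟩, ?_⟩
  rw [← mul_assoc, inv_mul_cancel₀ hu0, one_mul]

theorem s27cptEq_trans {W : ValuationSubring 𝔏} {a b c : 𝔏} (h : s27cptEq W a b)
    (h' : s27cptEq W b c) : s27cptEq W a c := by
  obtain ⟨u, ⟨hu0, hu, hu'⟩, rfl⟩ := h
  obtain ⟨v, ⟨hv0, hv, hv'⟩, rfl⟩ := h'
  refine ⟨u * v, ⟨mul_ne_zero hu0 hv0, W.mul_mem _ _ hu hv, ?_⟩, (mul_assoc _ _ _).symm⟩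
  rw [mul_inv]
  exact W.mul_mem _ _ hu' hv'

theorem s27cptEq_mul {W : ValuationSubring 𝔏} {a b a' b' : 𝔏} (h : s27cptEq W a b)
    (h' : s27cptEq W a' b') : s27cptEq W (a * a') (b * b') := by
  obtain ⟨u, ⟨hu0, hu, hu'⟩, rfl⟩ := h
  obtain ⟨v, ⟨hv0, hv, hv'⟩, rfl⟩ := h'
  refine ⟨u * v, ⟨mul_ne_zero hu0 hv0, W.mul_mem _ _ hu hv, ?_⟩, by ring⟩
  rw [mul_inv]
  exact W.mul_mem _ _ hu' hv'

theorem s27cptEq_mul_left {W : ValuationSubring 𝔏} (c : 𝔏) {a b : 𝔏} (h : s27cptEq W a b) :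
    s27cptEq W (c * a) (c * b) :=
  s27cptEq_mul (s27cptEq_refl W c) h

theorem s27cptEq_pow {W : ValuationSubring 𝔏} {a b : 𝔏} (h : s27cptEq W a b) (n : ℕ) :
    s27cptEq W (a ^ n) (b ^ n) := by
  induction n with
  | zero => simpa using s27cptEq_refl W (1 : 𝔏)
  | succ n ih => rw [pow_succ, pow_succ]; exact s27cptEq_mul ih h

theorem s27cptEq_inv {W : ValuationSubring 𝔏} {a b : 𝔏} (h : s27cptEq W a b) :
    s27cptEq W a⁻¹ b⁻¹ := by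
  obtain ⟨u, ⟨hu0, hu, hu'⟩, rfl⟩ := h
  refine ⟨u⁻¹, ⟨inv_ne_zero hu0, hu', by rwa [inv_inv]⟩, ?_⟩
  rw [mul_inv]

/-- a sign is a unit: `−a ≐_W a` -/
theorem s27cptEq_neg (W : ValuationSubring 𝔏) (a : 𝔏) : s27cptEq W (-a) a := by
  refine ⟨-1, ⟨neg_ne_zero.mpr one_ne_zero, W.neg_mem _ W.one_mem, ?_⟩, by ring⟩
  rw [inv_neg, inv_one]
  exact W.neg_mem _ W.one_mem

variable {ι : Type*} [LinearOrder ι]

/-- **CUBE-PT, `≐_W` form**: `μ S` any elements with `μ S ≐_W m(S)` for the seven sets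
(`μ S = m_W(D_S)`, the point formula computed with ANY admissible choices, by AD-WD); then
`μ₁₂₃ μ₁ μ₂ μ₃ ≐_W Φ · μ₁₂ μ₁₃ μ₂₃`. -/
theorem s27cpt_cube_unit (W : ValuationSubring 𝔏) (x α σ : ι → 𝔏) (θ : Finset ι → 𝔏)
    {S₁ S₂ S₃ : Finset ι} (h12 : Disjoint S₁ S₂) (h13 : Disjoint S₁ S₃) (h23 : Disjoint S₂ S₃)
    (t12 : θ (S₁ ∪ S₂) ≠ 0) (t13 : θ (S₁ ∪ S₃) ≠ 0) (t23 : θ (S₂ ∪ S₃) ≠ 0)
    (μ : Finset ι → 𝔏)
    (m1 : s27cptEq W (μ S₁) (s27cptM x α σ θ S₁)) (m2 : s27cptEq W (μ S₂) (s27cptM x α σ θ S₂))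
    (m3 : s27cptEq W (μ S₃) (s27cptM x α σ θ S₃))
    (m12 : s27cptEq W (μ (S₁ ∪ S₂)) (s27cptM x α σ θ (S₁ ∪ S₂)))
    (m13 : s27cptEq W (μ (S₁ ∪ S₃)) (s27cptM x α σ θ (S₁ ∪ S₃)))
    (m23 : s27cptEq W (μ (S₂ ∪ S₃)) (s27cptM x α σ θ (S₂ ∪ S₃)))
    (m123 : s27cptEq W (μ (S₁ ∪ S₂ ∪ S₃)) (s27cptM x α σ θ (S₁ ∪ S₂ ∪ S₃))) :
    s27cptEq W (μ (S₁ ∪ S₂ ∪ S₃) * μ S₁ * μ S₂ * μ S₃)
      (s27cptPhi θ S₁ S₂ S₃ * (μ (S₁ ∪ S₂) * μ (S₁ ∪ S₃) * μ (S₂ ∪ S₃))) := by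
  have hL := s27cptEq_mul (s27cptEq_mul (s27cptEq_mul m123 m1) m2) m3
  have hR := s27cptEq_mul_left (s27cptPhi θ S₁ S₂ S₃)
    (s27cptEq_mul (s27cptEq_mul m12 m13) m23)
  rw [s27cpt_cube_Phi x α σ θ h12 h13 h23 t12 t13 t23] at hL
  exact s27cptEq_trans hL (s27cptEq_symm hR)

end unit

end Fermat.Agent.S27
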