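/-
S27-B, leaf LE-0 (helper74; formal part): the EMPTY tuple and the class `0`.
Blueprint NOTES/S27-LE.md (LE5 with `N' = 0`), hub helper95 ("CRUX on the stage").

For the empty tuple `R' : Fin 0 → F →ₐ[K] 𝔏` every local equation (`S27ptIsIdx`, S27/PtDef.lean) is `1`,
and `1` IS a local equation as soon as `L_K(A') = 0` (e.g. `A' = Ao = G₀ − O″`, `ℓ(Ao) = 0`).  Hence
LE-0 (a tuple of class `0` has a UNIT as local equation) is the pairwise LE (LE-a: `s27le5_asm`,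
`s27le5_main`) against the empty tuple:

* `s27lez_det_empty`      : the `0 × 0` determinant of values is `1`;
* `s27lez_latBasis_empty` : every `φ : Fin 0 → F` is a lattice basis of the empty tuple;
* `s27lez_idx_empty_eq`   : `S27ptIsIdx W R' A' y → y = 1`  (`R' : Fin 0 → _`);
* `s27lez_idx_empty`      : `L_K(A') = 0 → S27ptIsIdx W R' A' 1`;
* `s27lez_unit_of_pair`   : LE-a for the pair `((R, A₁), (∅, Ao))` ⇒ every local equation at
                            `(R, A₁)` is a unit of `W` (forms `S27IsUnitIn`, `S27ldUnit`, `s27cptEq _ 1`);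
* `s27lez_eq_of_units`    : two units of `W` are `≐_W`.
Mathlib + PtDef + LeDual + CubePtU only.
-/
import Fermat.Agent.S27.PtDef
import Fermat.Agent.S27.LeDual
import Fermat.Agent.S27.CubePtU

set_option autoImplicit false

noncomputable section

namespace Fermat.Agent.S27

open AlgebraicCurve

universe u v w

variable {K : Type u} {F : Type v} [Field K] [Field F] [Algebra K F]
variable {𝔏 : Type w} [Field 𝔏] [Algebra K 𝔏]

/-- the empty tuple of points. -/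
def s27lezEmpty (K : Type u) (F : Type v) [Field K] [Field F] [Algebra K F]
    (𝔏 : Type w) [Field 𝔏] [Algebra K 𝔏] : Fin 0 → F →ₐ[K] 𝔏 := fun i => i.elim0

/-- the `0 × 0` determinant of values is `1`. -/
theorem s27lez_det_empty (R : Fin 0 → F →ₐ[K] 𝔏) (φ : Fin 0 → F) : (s27ptVal R φ).det = 1 :=
  Matrix.det_isEmpty

/-- every family is a lattice basis of the empty tuple. -/
theorem s27lez_latBasis_empty (W : ValuationSubring 𝔏) (R : Fin 0 → F →ₐ[K] 𝔏)
    (A' : Divisor K F) (φ : Fin 0 → F) : S27ptIsLatBasis W R A' φ where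
  mem := fun j => j.elim0
  det_ne := by
    rw [s27lez_det_empty]
    exact one_ne_zero
  span := fun _ _ => ⟨fun j => j.elim0, fun j => j.elim0, fun i => i.elim0⟩

/-- **every local equation of the empty tuple is `1`.** -/
theorem s27lez_idx_empty_eq {W : ValuationSubring 𝔏} {R : Fin 0 → F →ₐ[K] 𝔏}
    {A' : Divisor K F} {y : 𝔏} (h : S27ptIsIdx W R A' y) : y = 1 := by
  obtain ⟨f, φ, -, rfl⟩ := h
  unfold s27ptValB
  rw [s27lez_det_empty, s27lez_det_empty, div_one]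

/-- **`1` is a local equation of the empty tuple** as soon as `L_K(A') = 0`. -/
theorem s27lez_idx_empty (W : ValuationSubring 𝔏) (R : Fin 0 → F →ₐ[K] 𝔏) (A' : Divisor K F)
    (h0 : ∀ f ∈ riemannRochSpace A', f = 0) : S27ptIsIdx W R A' 1 := by
  haveI : Subsingleton ↥(riemannRochSpace A') :=
    ⟨fun a b => Subtype.ext (by rw [h0 a a.2, h0 b b.2])⟩
  refine ⟨Module.Basis.empty _, fun i => i.elim0, s27lez_latBasis_empty W R A' _, ?_⟩
  unfold s27ptValB
  rw [s27lez_det_empty, s27lez_det_empty, div_one]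

/-- the same with `riemannRochSpace A' = ⊥`. -/
theorem s27lez_idx_empty' (W : ValuationSubring 𝔏) (R : Fin 0 → F →ₐ[K] 𝔏) (A' : Divisor K F)
    (h0 : riemannRochSpace A' = ⊥) : S27ptIsIdx W R A' 1 :=
  s27lez_idx_empty W R A' fun f hf => by
    rw [h0] at hf
    exact (Submodule.mem_bot K).1 hf

/-- `S27ldUnit` (LeDual) and `S27IsUnitIn` (Plan) are the same notion. -/
theorem s27lez_unit_iff (W : ValuationSubring 𝔏) (c : 𝔏) : S27ldUnit W c ↔ S27IsUnitIn W c :=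
  ⟨fun h => ⟨h.2.2, h.1, h.2.1⟩, fun h => ⟨h.2.1, h.2.2, h.1⟩⟩

theorem s27lez_unit_inv {W : ValuationSubring 𝔏} {c : 𝔏} (h : S27IsUnitIn W c) :
    S27IsUnitIn W c⁻¹ :=
  ⟨inv_ne_zero h.1, h.2.2, by rw [inv_inv]; exact h.2.1⟩

/-- `y ≐_W 1` iff `y` is a unit of `W`. -/
theorem s27lez_eq_one_iff (W : ValuationSubring 𝔏) (y : 𝔏) :
    s27cptEq W y 1 ↔ S27IsUnitIn W y := by
  constructor
  · rintro ⟨u, hu, rfl⟩
    rwa [mul_one]
  · intro h
    exact ⟨y, h, (mul_one y).symm⟩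

/-- `1 ≐_W y` iff `y` is a unit of `W`. -/
theorem s27lez_one_eq_iff (W : ValuationSubring 𝔏) (y : 𝔏) :
    s27cptEq W 1 y ↔ S27IsUnitIn W y := by
  constructor
  · rintro ⟨u, hu, h⟩
    have hy : y = u⁻¹ := by
      have h1 : u⁻¹ * (u * y) = u⁻¹ * 1 := by rw [← h]
      rw [← mul_assoc, inv_mul_cancel₀ hu.1, one_mul, mul_one] at h1
      exact h1
    rw [hy]
    exact s27lez_unit_inv hu
  · intro h
    exact ⟨y⁻¹, s27lez_unit_inv h, by rw [inv_mul_cancel₀ h.1]⟩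

/-- two units of `W` are `≐_W`. -/
theorem s27lez_eq_of_units {W : ValuationSubring 𝔏} {y y' : 𝔏} (h : S27IsUnitIn W y)
    (h' : S27IsUnitIn W y') : s27cptEq W y y' := by
  refine ⟨y * y'⁻¹, ⟨mul_ne_zero h.1 (inv_ne_zero h'.1), W.mul_mem _ _ h.2.1 h'.2.2, ?_⟩, ?_⟩
  · rw [mul_inv, inv_inv]
    exact W.mul_mem _ _ h.2.2 h'.2.1
  · rw [mul_assoc, inv_mul_cancel₀ h'.1, mul_one]

/-- **LE-0 from LE-a against the empty tuple** (`S27ldUnit` form of `s27le5_asm`): if the local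
equations at `(R, A₁)` and at the empty tuple `(∅, Ao)` differ by a unit of `W` and `L_K(Ao) = 0`,
then every local equation at `(R, A₁)` is a unit of `W`. -/
theorem s27lez_unit_of_pair {N : ℕ} (W : ValuationSubring 𝔏) (R : Fin N → F →ₐ[K] 𝔏)
    (R' : Fin 0 → F →ₐ[K] 𝔏) (A₁ Ao : Divisor K F) (h0 : ∀ f ∈ riemannRochSpace Ao, f = 0)
    (hpair : ∀ x₁ x₂ : 𝔏, S27ptIsIdx W R A₁ x₁ → S27ptIsIdx W R' Ao x₂ →
      ∃ c : 𝔏, S27ldUnit W c ∧ x₂ = c * x₁)
    {y : 𝔏} (hy : S27ptIsIdx W R A₁ y) : S27IsUnitIn W y := by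
  obtain ⟨c, hc, h1⟩ := hpair y 1 hy (s27lez_idx_empty W R' Ao h0)
  have hcu : S27IsUnitIn W c := (s27lez_unit_iff W c).1 hc
  have hy' : y = c⁻¹ := by
    have h2 : c⁻¹ * (c * y) = c⁻¹ * 1 := by rw [← h1]
    rw [← mul_assoc, inv_mul_cancel₀ hcu.1, one_mul, mul_one] at h2
    exact h2
  rw [hy']
  exact s27lez_unit_inv hcu

/-- the same in the `≐_W` form: the hypothesis is `x₁ ≐_W x₂` for the pair. -/
theorem s27lez_unit_of_pair_eq {N : ℕ} (W : ValuationSubring 𝔏) (R : Fin N → F →ₐ[K] 𝔏)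
    (R' : Fin 0 → F →ₐ[K] 𝔏) (A₁ Ao : Divisor K F) (h0 : ∀ f ∈ riemannRochSpace Ao, f = 0)
    (hpair : ∀ x₁ x₂ : 𝔏, S27ptIsIdx W R A₁ x₁ → S27ptIsIdx W R' Ao x₂ → s27cptEq W x₁ x₂)
    {y : 𝔏} (hy : S27ptIsIdx W R A₁ y) : S27IsUnitIn W y :=
  (s27lez_eq_one_iff W y).1 (hpair y 1 hy (s27lez_idx_empty W R' Ao h0))

end Fermat.Agent.S27

end
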