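/-
S27-B — FIT (CONST) for FINAL-TOP2 (helper11): the CONST clause of `s27ft2_Stmt`
(S27/FinalTop2.lean) is CLOSED with the constants of S27/Consts.lean.

What is left are the THREE inputs at `Ao = s27cstAo G₀ O = G₀ − O″`, for ONE
(`s27fcst2_of_exists`) or for EVERY (`s27fcst2_of_forall`) admissible `(x, G₀, O″)`:

  (LE-TOP)   `S27ftLE hx Ao`
  (CP-TOP)   `S27ftCP hx G₀ hG₀ Ao`
  (GROW)     `∀ q hq, S27ftGrow hx G₀ hG₀ (G₀ + Ao) q hq`

`s27fcst2_result_*` : the same inputs ⇒ the frozen S27 (`s27_Stmt`).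
-/
import Fermat.Agent.S27.FinalTop2
import Fermat.Agent.S27.Consts

set_option autoImplicit false
set_option linter.unusedVariables false
set_option linter.unusedSectionVars false
set_option linter.style.haveILetI false

noncomputable section

namespace Fermat.Agent.S27

open AlgebraicCurve Module TensorProduct IntermediateField Fermat.Agent.S26

universe u v

/-- the three inputs of `s27ft2_Stmt` at the constants `(x, G₀, O″)`. -/
def S27fcst2Inputs {K : Type u} {F : Type v} [Field K] [Field F] [Algebra K F] [IsAlgClosed K]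
    [CharZero K] [IsCurveOver K F] [Algebra.EssFiniteType K F]
    {x : F} {G₀ : Divisor K F} {O : Place K F} (hc : S27cstIsConst x G₀ O) : Prop :=
  @S27ftLE K F _ _ _ _ x hc.trans hc.fin hc.sep (s27cstAo G₀ O) ∧
  @S27ftCP K F _ _ _ _ _ _ _ x hc.trans hc.fin hc.sep G₀ hc.deg (s27cstAo G₀ O) ∧
  ∀ (q : ℤ → Fin (genusFF K F) → F →ₐ[K] s27mtL K F)
    (hq : S27pfFam (@s27ftPkg K F _ _ _ _ _ _ _ x hc.trans hc.fin hc.sep G₀ hc.deg) q),
    @S27ftGrow K F _ _ _ _ _ _ _ x hc.trans hc.fin hc.sep G₀ hc.deg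
      (G₀ + s27cstAo G₀ O) q hq

/-- **FIT (CONST) for FINAL-TOP2, existential form.** -/
theorem s27fcst2_of_exists
    (h : ∀ (K : Type u) (F : Type v) [Field K] [Field F] [Algebra K F] [IsAlgClosed K]
      [CharZero K] [IsCurveOver K F] [Algebra.EssFiniteType K F], 0 < genusFF K F →
      ∃ (x : F) (G₀ : Divisor K F) (O : Place K F) (hc : S27cstIsConst x G₀ O),
        S27fcst2Inputs hc) : s27ft2_Stmt.{u, v} := by
  intro K F _ _ _ _ _ _ _ hg
  obtain ⟨x, G₀, O, hc, hLE, hCP, hGR⟩ := h K F hg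
  exact ⟨x, hc.trans, hc.fin, hc.sep, G₀, hc.deg, s27cstAo G₀ O, hc.l_A, hLE, hCP, hGR⟩

/-- **FIT (CONST) for FINAL-TOP2, universal form.** -/
theorem s27fcst2_of_forall
    (h : ∀ (K : Type u) (F : Type v) [Field K] [Field F] [Algebra K F] [IsAlgClosed K]
      [CharZero K] [IsCurveOver K F] [Algebra.EssFiniteType K F], 0 < genusFF K F →
      ∀ (x : F) (G₀ : Divisor K F) (O : Place K F) (hc : S27cstIsConst x G₀ O),
        S27fcst2Inputs hc) : s27ft2_Stmt.{u, v} := by
  refine s27fcst2_of_exists fun K F _ _ _ _ _ _ _ hg => ?_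
  obtain ⟨x, G₀, O, hc⟩ := s27cst_exists K F
  exact ⟨x, G₀, O, hc, h K F hg x G₀ O hc⟩

/-- the three inputs for ONE admissible choice ⇒ the frozen S27. -/
theorem s27fcst2_result_of_exists
    (h : ∀ (K : Type u) (F : Type v) [Field K] [Field F] [Algebra K F] [IsAlgClosed K]
      [CharZero K] [IsCurveOver K F] [Algebra.EssFiniteType K F], 0 < genusFF K F →
      ∃ (x : F) (G₀ : Divisor K F) (O : Place K F) (hc : S27cstIsConst x G₀ O),
        S27fcst2Inputs hc) : s27_Stmt.{u, v} :=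
  s27ft2_result (s27fcst2_of_exists h)

/-- the three inputs for EVERY admissible choice ⇒ the frozen S27. -/
theorem s27fcst2_result_of_forall
    (h : ∀ (K : Type u) (F : Type v) [Field K] [Field F] [Algebra K F] [IsAlgClosed K]
      [CharZero K] [IsCurveOver K F] [Algebra.EssFiniteType K F], 0 < genusFF K F →
      ∀ (x : F) (G₀ : Divisor K F) (O : Place K F) (hc : S27cstIsConst x G₀ O),
        S27fcst2Inputs hc) : s27_Stmt.{u, v} :=
  s27ft2_result (s27fcst2_of_forall h)

end Fermat.Agent.S27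

end
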