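/-
S27-B — FIT (CONST + GROW) (helper11): with the constants of S27/Consts.lean and helper41's
GROW-CLOSED (`s27grc_grow`, S27/GrowClosed.lean), the frozen S27 is reduced to the TWO inputs

  (LE-TOP)   `S27ftLE hx Ao`           (`Ao = s27cstAo G₀ O = G₀ − O″`)
  (CP-TOP)   `S27ftCP hx G₀ hG₀ Ao`

for ONE (`s27fgr_result_of_exists`) or for EVERY (`s27fgr_result_of_forall`) admissible choice
`hc : S27cstIsConst x G₀ O` of the constants.

* `s27fgr_grow`   : (GROW) at the constants, for every family `q`;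
* `S27fgrInputs hc` := `S27ftLE … ∧ S27ftCP …`;
* `s27fgr_inputs2` : `S27fgrInputs hc → S27fcst2Inputs hc`;
* `s27fgr_result_of_exists`, `s27fgr_result_of_forall` : ⇒ `s27_Stmt` (the frozen S27).
-/
import Fermat.Agent.S27.FitConst2
import Fermat.Agent.S27.ConstsFacts
import Fermat.Agent.S27.GrowClosed

set_option autoImplicit false
set_option linter.unusedVariables false
set_option linter.unusedSectionVars false
set_option linter.style.haveILetI false

noncomputable section

namespace Fermat.Agent.S27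

open AlgebraicCurve Module TensorProduct IntermediateField Fermat.Agent.S26

universe u v

section Grow

variable {K : Type u} {F : Type v} [Field K] [Field F] [Algebra K F] [IsAlgClosed K] [CharZero K]
  [IsCurveOver K F] [Algebra.EssFiniteType K F]

/-- a `K`-basis of `L_K(G₀ + Ao)` indexed by `Fin g`. -/
def s27fgrBasis {x : F} {G₀ : Divisor K F} {O : Place K F} (hc : S27cstIsConst x G₀ O)
    (hg : 0 < genusFF K F) :
    Module.Basis (Fin (genusFF K F)) K ↥(riemannRochSpace (G₀ + s27cstAo G₀ O)) :=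
  haveI : Module.Finite K ↥(riemannRochSpace (G₀ + s27cstAo G₀ O)) :=
    Module.finite_of_finrank_pos (by rw [hc.l_A]; exact hg)
  Module.finBasisOfFinrankEq K _ hc.l_A

/-- **(GROW) at the constants**, for every family `q`. -/
theorem s27fgr_grow {x : F} {G₀ : Divisor K F} {O : Place K F} (hc : S27cstIsConst x G₀ O)
    (hg : 0 < genusFF K F)
    (q : ℤ → Fin (genusFF K F) → F →ₐ[K] s27mtL K F)
    (hq : S27pfFam (@s27ftPkg K F _ _ _ _ _ _ _ x hc.trans hc.fin hc.sep G₀ hc.deg) q) :
    @S27ftGrow K F _ _ _ _ _ _ _ x hc.trans hc.fin hc.sep G₀ hc.deg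
      (G₀ + s27cstAo G₀ O) q hq := by
  haveI := hc.fin
  haveI := hc.sep
  exact s27grc_grow hc.trans G₀ hc.deg hg O hc.nonneg hc.off (G₀ + s27cstAo G₀ O)
    (s27cstf_A_eq_two G₀ O) (s27fgrBasis hc hg) q hq

/-- the two inputs left: (LE-TOP) and (CP-TOP) at the constants. -/
def S27fgrInputs {x : F} {G₀ : Divisor K F} {O : Place K F} (hc : S27cstIsConst x G₀ O) : Prop :=
  @S27ftLE K F _ _ _ _ x hc.trans hc.fin hc.sep (s27cstAo G₀ O) ∧
  @S27ftCP K F _ _ _ _ _ _ _ x hc.trans hc.fin hc.sep G₀ hc.deg (s27cstAo G₀ O)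

theorem s27fgr_inputs2 {x : F} {G₀ : Divisor K F} {O : Place K F} (hc : S27cstIsConst x G₀ O)
    (hg : 0 < genusFF K F) (h : S27fgrInputs hc) : S27fcst2Inputs hc :=
  ⟨h.1, h.2, fun q hq => s27fgr_grow hc hg q hq⟩

end Grow

/-- **(LE-TOP) + (CP-TOP) for ONE admissible choice of the constants ⇒ the frozen S27.** -/
theorem s27fgr_result_of_exists
    (h : ∀ (K : Type u) (F : Type v) [Field K] [Field F] [Algebra K F] [IsAlgClosed K]
      [CharZero K] [IsCurveOver K F] [Algebra.EssFiniteType K F], 0 < genusFF K F →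
      ∃ (x : F) (G₀ : Divisor K F) (O : Place K F) (hc : S27cstIsConst x G₀ O),
        S27fgrInputs hc) : s27_Stmt.{u, v} :=
  s27fcst2_result_of_exists fun K F _ _ _ _ _ _ _ hg => by
    obtain ⟨x, G₀, O, hc, hin⟩ := h K F hg
    exact ⟨x, G₀, O, hc, s27fgr_inputs2 hc hg hin⟩

/-- **(LE-TOP) + (CP-TOP) for EVERY admissible choice of the constants ⇒ the frozen S27.** -/
theorem s27fgr_result_of_forall
    (h : ∀ (K : Type u) (F : Type v) [Field K] [Field F] [Algebra K F] [IsAlgClosed K]
      [CharZero K] [IsCurveOver K F] [Algebra.EssFiniteType K F], 0 < genusFF K F →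
      ∀ (x : F) (G₀ : Divisor K F) (O : Place K F) (hc : S27cstIsConst x G₀ O),
        S27fgrInputs hc) : s27_Stmt.{u, v} :=
  s27fcst2_result_of_forall fun K F _ _ _ _ _ _ _ hg x G₀ O hc =>
    s27fgr_inputs2 hc hg (h K F hg x G₀ O hc)

end Fermat.Agent.S27

end
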