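/-
S27-B, piece **POINT-T** (helper36): the coordinate function `t` of the (ALG) half of the GROWTH
certificate, on a function field of one variable `F / K` (`K` algebraically closed).

`x ∈ F` transcendental with `[F : K(x)] < ∞` (TD1: `s27td_exists_of_isCurveOver`), `O` a place.
* `s27pt2_transcendental` : a non-constant element is transcendental (`K` algebraically closed);
* `s27pt2_isAlgebraic`    : `F` is algebraic over `K[t]` for EVERY transcendental `t` (trdeg `1`);
* `s27pt2_dichotomy`      : a valuation subring `Q ⊇ K` of `F` is `⊤` or the ring of a place;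
* **`s27pt2_exists`** : `∃ N t s`, `t` transcendental, `F` algebraic over `K[t]`, `ord_O s = 1`,
  `t` regular off `O`, `ord_O t ≥ −N` (`t ∈ L(N·O)`, `N = genusFF + 1`, Riemann), and
  (H_t): for every valuation subring `Q ⊇ K` of `F`: `t ∈ Q ∨ (s ∈ Q ∧ t · s^N ∈ Q)`;
* **`s27pt2_point`** : on the model, for a valuation subring `W ⊇ K` of `Ω_g`: the killers
  `p i := if ι_i t ∈ W then 1 else (ι_i s)^N` satisfy `p i ∈ W`, `ι_i t · p i ∈ W`
  (= the POINT side of (POLE-DIV), S27/GrowModel.lean).
-/
import Fermat.Agent.S27.RR0Final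
import Fermat.Agent.S26.ERR2a
import Fermat.Agent.S27.GenField
import Fermat.Prelude.Def_AlgebraicCurve_IsCurveOver

set_option autoImplicit false
set_option linter.unusedVariables false
set_option linter.unusedSectionVars false
set_option linter.style.haveILetI false

noncomputable section

namespace Fermat.Agent.S27

open AlgebraicCurve IntermediateField Module Fermat.Agent.S26 Fermat.Agent.S24

universe u v

section Curve

variable {K : Type u} {F : Type v} [Field K] [Field F] [Algebra K F]

/-- a non-constant element is transcendental (`K` algebraically closed) -/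
theorem s27pt2_transcendental [IsAlgClosed K] {t : F}
    (ht : t ∉ Set.range (algebraMap K F)) : Transcendental K t := by
  intro halg
  have hint : IsIntegral K t := halg.isIntegral
  have hdeg := IsAlgClosed.degree_eq_one_of_irreducible K (minpoly.irreducible hint)
  have h := minpoly.mem_range_of_degree_eq_one K t hdeg
  exact ht (RingHom.mem_range.mp h)

/-- `F` is algebraic over `K[t]` for every transcendental `t` (transcendence degree `1`) -/
theorem s27pt2_isAlgebraic (x : F) (hx : Transcendental K x) [FiniteDimensional K⟮x⟯ F] {t : F}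
    (ht : Transcendental K t) : Algebra.IsAlgebraic (Algebra.adjoin K ({t} : Set F)) F := by
  have hxalg : Algebra.IsAlgebraic (Algebra.adjoin K ({x} : Set F)) F := by
    constructor
    intro y
    exact IntermediateField.isAlgebraic_adjoin_iff.mp
      (Algebra.IsAlgebraic.isAlgebraic (R := K⟮x⟯) y)
  have hxB : IsTranscendenceBasis K (fun _ : Unit => x) := by
    rw [isTranscendenceBasis_iff_algebraicIndependent_isAlgebraic]
    refine ⟨algebraicIndependent_unique_type_iff.mpr hx, ?_⟩
    rw [Set.range_const]
    exact hxalg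
  have htB : IsTranscendenceBasis K (fun _ : Unit => t) := by
    apply (algebraicIndependent_unique_type_iff.mpr ht).isTranscendenceBasis_of_lift_trdeg_le_of_finite
    rw [← hxB.lift_cardinalMk_eq_trdeg]
  have h := htB.isAlgebraic
  rw [Set.range_const] at h
  exact h

/-- a valuation subring `Q ⊇ K` of `F` is `⊤` or the ring of a place -/
theorem s27pt2_dichotomy (x : F) (hx : Transcendental K x) [FiniteDimensional K⟮x⟯ F]
    (Q : ValuationSubring F) (hQ : ∀ a : K, algebraMap K F a ∈ Q) :
    Q = ⊤ ∨ ∃ v : Place K F, v.toValuationSubring = Q := by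
  by_cases hne : Q = ⊤
  · exact Or.inl hne
  · exact Or.inr ⟨s26errPlaceOf Q hQ hne x hx, rfl⟩

/-- **POINT-T**: the coordinate function `t ∈ L(N·O)` with (H_t). -/
theorem s27pt2_exists [IsAlgClosed K] (x : F) (hx : Transcendental K x)
    [FiniteDimensional K⟮x⟯ F] (O : Place K F) :
    ∃ (N : ℕ) (t s : F), Transcendental K t ∧
      Algebra.IsAlgebraic (Algebra.adjoin K ({t} : Set F)) F ∧ s ≠ 0 ∧
      O.ord s = 1 ∧ (∀ v : Place K F, v ≠ O → 0 ≤ v.ord t) ∧ -(N : ℤ) ≤ O.ord t ∧
      ∀ Q : ValuationSubring F, (∀ a : K, algebraMap K F a ∈ Q) →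
        t ∈ Q ∨ (s ∈ Q ∧ t * s ^ N ∈ Q) := by
  classical
  have hOdeg : O.deg = 1 := by
    haveI : Module.Finite K O.ResidueField := s26err_residue_finite x hx O
    exact O.deg_eq_one_of_isAlgClosed_of_finite
  have hdegD : Divisor.degree (Finsupp.single O ((genusFF K F + 1 : ℕ) : ℤ) : Divisor K F) =
      ((genusFF K F + 1 : ℕ) : ℤ) := by
    rw [Divisor.degree_single, hOdeg]
    simp
  have hR := s27rr_riemann_final x hx (Finsupp.single O ((genusFF K F + 1 : ℕ) : ℤ))
  haveI hfinD : Module.Finite K
      ↥(riemannRochSpace (Finsupp.single O ((genusFF K F + 1 : ℕ) : ℤ) : Divisor K F)) :=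
    s26err_rr_finite' x hx _
  have h2 : 2 ≤ finrank K
      ↥(riemannRochSpace (Finsupp.single O ((genusFF K F + 1 : ℕ) : ℤ) : Divisor K F)) := by
    rw [hdegD] at hR
    have hN : ((genusFF K F + 1 : ℕ) : ℤ) = (genusFF K F : ℤ) + 1 := by push_cast; ring
    have h5 : (2 : ℤ) ≤ (finrank K
        ↥(riemannRochSpace (Finsupp.single O ((genusFF K F + 1 : ℕ) : ℤ) : Divisor K F)) : ℤ) := by
      linarith
    exact_mod_cast h5
  obtain ⟨t, htD, htc⟩ : ∃ t ∈ riemannRochSpace
      (Finsupp.single O ((genusFF K F + 1 : ℕ) : ℤ) : Divisor K F),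
      t ∉ Set.range (algebraMap K F) := by
    by_contra hcon
    push Not at hcon
    have hle : riemannRochSpace (Finsupp.single O ((genusFF K F + 1 : ℕ) : ℤ) : Divisor K F) ≤
        Submodule.span K {(1 : F)} := by
      intro y hy
      obtain ⟨c, rfl⟩ := hcon y hy
      rw [Algebra.algebraMap_eq_smul_one]
      exact Submodule.smul_mem _ c (Submodule.subset_span rfl)
    have h3 := Submodule.finrank_mono hle
    have h1 : finrank K ↥(Submodule.span K {(1 : F)}) = 1 :=
      finrank_span_singleton one_ne_zero
    omega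
  have htT := s27pt2_transcendental htc
  have ht0 : t ≠ 0 := fun h => htc ⟨0, by rw [h, map_zero]⟩
  obtain ⟨s, hs0, hs1⟩ := s26err_exists_unif O
  have hord : ∀ v : Place K F,
      -(Finsupp.single O ((genusFF K F + 1 : ℕ) : ℤ) : Divisor K F) v ≤ v.ord t :=
    fun v => (mem_riemannRochSpace_iff.mp htD v).resolve_left ht0
  have hoff : ∀ v : Place K F, v ≠ O → 0 ≤ v.ord t := by
    intro v hv
    have h := hord v
    rw [Finsupp.single_apply, if_neg (Ne.symm hv)] at h
    simpa using h
  have hat : -((genusFF K F + 1 : ℕ) : ℤ) ≤ O.ord t := by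
    have h := hord O
    rw [Finsupp.single_eq_same] at h
    exact h
  refine ⟨genusFF K F + 1, t, s, htT, s27pt2_isAlgebraic x hx htT, hs0, hs1, hoff, hat, ?_⟩
  intro Q hQ
  rcases s27pt2_dichotomy x hx Q hQ with hne | ⟨v, hv⟩
  · left
    rw [hne]
    exact ValuationSubring.mem_top t
  · by_cases hvO : v = O
    · right
      subst hvO
      constructor
      · rw [← hv]
        exact PlaceAux.mem_of_ord_nonneg v (by rw [hs1]; norm_num)
      · rw [← hv]
        apply PlaceAux.mem_of_ord_nonneg
        have hpow : v.ord (s ^ (genusFF K F + 1)) = ((genusFF K F + 1 : ℕ) : ℤ) := by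
          have h := v.ord_zpow s ((genusFF K F + 1 : ℕ) : ℤ)
          rw [zpow_natCast, hs1, mul_one] at h
          exact h
        rw [v.ord_mul ht0 (pow_ne_zero _ hs0), hpow]
        linarith
    · left
      rw [← hv]
      exact PlaceAux.mem_of_ord_nonneg v (hoff v hvO)

end Curve

section Model

variable {K : Type u} {F : Type v} [Field K] [IsAlgClosed K] [Field F] [Algebra K F] {g : ℕ}

/-- the killer of the pole of `ι_i t` along `W` -/
def s27pt2P (t s : F) (N : ℕ) (W : ValuationSubring (s27gfOm K F g)) (i : Fin g) :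
    s27gfOm K F g :=
  haveI := Classical.dec (s27gfIota (K := K) (g := g) i t ∈ W)
  if s27gfIota (K := K) (g := g) i t ∈ W then 1 else s27gfIota (K := K) (g := g) i s ^ N

/-- **the POINT side of (POLE-DIV)**: `p i ∈ W` and `ι_i t · p i ∈ W`. -/
theorem s27pt2_point (t s : F) (N : ℕ)
    (hts : ∀ Q : ValuationSubring F, (∀ a : K, algebraMap K F a ∈ Q) →
      t ∈ Q ∨ (s ∈ Q ∧ t * s ^ N ∈ Q))
    (W : ValuationSubring (s27gfOm K F g))
    (hW : ∀ a : K, algebraMap K (s27gfOm K F g) a ∈ W) (i : Fin g) :
    s27pt2P (K := K) t s N W i ∈ W ∧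
      s27gfIota (K := K) (g := g) i t * s27pt2P (K := K) t s N W i ∈ W := by
  classical
  unfold s27pt2P
  by_cases h : s27gfIota (K := K) (g := g) i t ∈ W
  · simp only [h, if_true, mul_one]
    exact ⟨W.one_mem, trivial⟩
  · simp only [h, if_false]
    have hQ : ∀ a : K, algebraMap K F a ∈
        W.comap ((s27gfIota (K := K) (g := g) i : F →ₐ[K] s27gfOm K F g) : F →+* s27gfOm K F g) := by
      intro a
      rw [ValuationSubring.mem_comap]
      have h1 : ((s27gfIota (K := K) (g := g) i : F →ₐ[K] s27gfOm K F g) : F →+* s27gfOm K F g)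
          (algebraMap K F a) = algebraMap K (s27gfOm K F g) a :=
        (s27gfIota (K := K) (g := g) i).commutes a
      rw [h1]
      exact hW a
    rcases hts _ hQ with h1 | ⟨h1, h2⟩
    · exact absurd h1 h
    · constructor
      · exact W.pow_mem h1 N
      · have h3 : ((s27gfIota (K := K) (g := g) i : F →ₐ[K] s27gfOm K F g) : F →+* s27gfOm K F g)
            (t * s ^ N) ∈ W := h2
        rw [map_mul, map_pow] at h3
        exact h3

end Model

end Fermat.Agent.S27

end
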