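/-
S27 route B, leaf Q-INJ + CENTRES (helper53), for the concrete `Idx` of the hub (S27/IdxCls.lean,
`R injective`) and for the centre calculus of S27/PtDef.lean.

* `s27qi_injective_of_generic` : a generic tuple (`S27dgGeneric K t e`: the values `e i t` are
                                 algebraically independent) consists of DISTINCT points;
* `s27qi_fam_injective`        : the tuples `q k` (`k ≠ 0`) of a family `S27pfFam pkg q` are injective;
* `s27qi_injective_of_liftR`   : the same from `Function.Injective (s27gfLiftR e)` (the shape of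
                                 `S27PsiPt.inj`), as soon as `F ≠ K`;
* `s27qi_isKVal_comap`         : `W ⊇ K` ⇒ `W.comap R ⊇ K`;
* `s27qi_centre_or_top`        : **centres exist**: along `W ⊇ K` a point `R : F →ₐ[K] 𝔏` is
                                 generic (`W.comap R = ⊤`) or has a closed centre `Q`;
* `s27qi_centre_unique`        : a point has at most one closed centre;
* `s27qi_not_top_of_centre`    : a point with a closed centre is not generic;
* `s27qi_mem_iff_of_centre`    : `R f ∈ W ↔ f ∈ Q` (`0 ≤ ord_Q f`) at the centre `Q`;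
* `s27qi_mem_of_top`           : a generic point has all its values in `W`, and they are units.
-/
import Fermat.Agent.S27.PtDef
import Fermat.Agent.S27.PointT
import Fermat.Agent.S27.PsiFam

set_option autoImplicit false
set_option linter.unusedVariables false
set_option linter.unusedSectionVars false
set_option linter.style.haveILetI false

noncomputable section

namespace Fermat.Agent.S27

open AlgebraicCurve IntermediateField TensorProduct

universe u v w x y

/-! ### distinct points -/

section Inj

variable {K : Type u} {F : Type v} {𝔏 : Type w} [Field K] [Field F] [Field 𝔏]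
  [Algebra K F] [Algebra K 𝔏]

/-- **a generic tuple consists of distinct points.** -/
theorem s27qi_injective_of_generic {t : F} {g : ℕ} {e : Fin g → F →ₐ[K] 𝔏}
    (he : S27dgGeneric K t e) : Function.Injective e := by
  intro i j hij
  have h : AlgebraicIndependent K (fun i => e i t) := he
  exact h.injective (show e i t = e j t by rw [hij])

/-- the values of a function at the points of a generic tuple are pairwise distinct -/
theorem s27qi_val_ne_of_generic {t : F} {g : ℕ} {e : Fin g → F →ₐ[K] 𝔏}
    (he : S27dgGeneric K t e) {i j : Fin g} (hij : i ≠ j) : e i t ≠ e j t := by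
  have h : AlgebraicIndependent K (fun i => e i t) := he
  exact fun hh => hij (h.injective hh)

/-- the product map of a tuple with a repeated point is not injective (`F ≠ K`). -/
theorem s27qi_injective_of_liftR {g : ℕ} {e : Fin g → F →ₐ[K] 𝔏}
    (he : Function.Injective (s27gfLiftR e))
    (hF : ∃ f : F, f ∉ Set.range (algebraMap K F)) : Function.Injective e := by
  classical
  intro i j hij
  by_contra hne
  obtain ⟨f, hf⟩ := hF
  -- `single i f = single j f`
  have h1 : s27gfSingle (K := K) (F := F) (g := g) i f = s27gfSingle j f := by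
    apply he
    rw [s27gfLiftR_single, s27gfLiftR_single, hij]
  -- a `K`-linear functional `λ` with `λ 1 = 0`, `λ f = 1`
  have hli : LinearIndependent K ![(1 : F), f] := by
    rw [LinearIndependent.pair_iff]
    intro a b hab
    by_cases hb : b = 0
    · subst hb
      simp only [zero_smul, add_zero] at hab
      have : a = 0 := by
        have h2 : algebraMap K F a = 0 := by rw [Algebra.algebraMap_eq_smul_one]; exact hab
        exact (map_eq_zero (algebraMap K F)).mp h2
      exact ⟨this, rfl⟩
    · exfalso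
      apply hf
      refine ⟨-(a / b), ?_⟩
      have h2 : b • f = -(a • (1 : F)) := by
        rw [eq_neg_iff_add_eq_zero, add_comm]; exact hab
      have h3 : f = b⁻¹ • (b • f) := by rw [smul_smul, inv_mul_cancel₀ hb, one_smul]
      rw [h3, h2, Algebra.algebraMap_eq_smul_one, smul_neg, smul_smul, neg_smul]
      congr 2
      field_simp
  obtain ⟨lam, hlam⟩ : ∃ lam : F →ₗ[K] K, lam 1 = 0 ∧ lam f = 1 := by
    let b := Module.Basis.extend hli.linearIndepOn_id
    have hsub : Set.range ![(1 : F), f] ⊆ hli.linearIndepOn_id.extend (Set.subset_univ _) :=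
      hli.linearIndepOn_id.subset_extend (Set.subset_univ _)
    have h1mem : (1 : F) ∈ hli.linearIndepOn_id.extend (Set.subset_univ _) :=
      hsub ⟨0, rfl⟩
    have hfmem : f ∈ hli.linearIndepOn_id.extend (Set.subset_univ _) :=
      hsub ⟨1, rfl⟩
    have hb1 : b ⟨1, h1mem⟩ = 1 := Module.Basis.extend_apply_self _ _
    have hbf : b ⟨f, hfmem⟩ = f := Module.Basis.extend_apply_self _ _
    have hne1f : (⟨1, h1mem⟩ : ↥(hli.linearIndepOn_id.extend (Set.subset_univ _))) ≠
        ⟨f, hfmem⟩ := by
      intro h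
      have h' : (1 : F) = f := congrArg Subtype.val h
      exact hf ⟨1, by rw [map_one]; exact h'⟩
    refine ⟨b.coord ⟨f, hfmem⟩, ?_, ?_⟩
    · have e0 : b.coord ⟨f, hfmem⟩ 1 = b.coord ⟨f, hfmem⟩ (b ⟨1, h1mem⟩) := by rw [hb1]
      rw [e0, Module.Basis.coord_apply, Module.Basis.repr_self]
      first
        | exact Finsupp.single_eq_of_ne hne1f
        | exact Finsupp.single_eq_of_ne hne1f.symm
    · have e0 : b.coord ⟨f, hfmem⟩ f = b.coord ⟨f, hfmem⟩ (b ⟨f, hfmem⟩) := by rw [hbf]
      rw [e0, Module.Basis.coord_apply, Module.Basis.repr_self, Finsupp.single_eq_same]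
  -- the multilinear form `x ↦ λ (x i) · ∏_{k ≠ i} μ (x k)`, `μ` any functional with `μ 1 = 1`
  obtain ⟨mu, hmu⟩ : ∃ mu : F →ₗ[K] K, mu 1 = 1 := by
    have hli1 : LinearIndependent K ![(1 : F)] := by
      rw [linearIndependent_unique_iff]
      simp
    let b := Module.Basis.extend hli1.linearIndepOn_id
    have h1mem : (1 : F) ∈ hli1.linearIndepOn_id.extend (Set.subset_univ _) :=
      hli1.linearIndepOn_id.subset_extend (Set.subset_univ _) ⟨0, rfl⟩
    have hb1 : b ⟨1, h1mem⟩ = 1 := Module.Basis.extend_apply_self _ _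
    refine ⟨b.coord ⟨1, h1mem⟩, ?_⟩
    have e0 : b.coord ⟨1, h1mem⟩ 1 = b.coord ⟨1, h1mem⟩ (b ⟨1, h1mem⟩) := by rw [hb1]
    rw [e0, Module.Basis.coord_apply, Module.Basis.repr_self, Finsupp.single_eq_same]
  let fam : Fin g → (F →ₗ[K] K) := fun k => if k = i then lam else mu
  let Φ : s27gfR K F g →ₗ[K] K :=
    PiTensorProduct.lift ((MultilinearMap.mkPiAlgebra K (Fin g) K).compLinearMap fam)
  have hΦ : ∀ x : Fin g → F, Φ (PiTensorProduct.tprod K x) = ∏ k, fam k (x k) := by
    intro x
    show PiTensorProduct.lift _ (PiTensorProduct.tprod K x) = _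
    rw [PiTensorProduct.lift.tprod]
    rfl
  have e1 : Φ (s27gfSingle (K := K) (F := F) (g := g) i f) = 1 := by
    show Φ (PiTensorProduct.tprod K _) = _
    rw [hΦ]
    apply Finset.prod_eq_one
    intro k _
    by_cases hk : k = i
    · subst hk
      simp [fam, hlam.2]
    · simp [fam, hk, Pi.mulSingle_eq_of_ne hk, hmu]
  have e2 : Φ (s27gfSingle (K := K) (F := F) (g := g) j f) = 0 := by
    show Φ (PiTensorProduct.tprod K _) = _
    rw [hΦ]
    apply Finset.prod_eq_zero (Finset.mem_univ i)
    have hij' : i ≠ j := hne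
    simp [fam, Pi.mulSingle_eq_of_ne hij', hlam.1]
  rw [h1, e2] at e1
  exact zero_ne_one e1

end Inj

section Fam

variable {K : Type u} {F : Type v} [Field K] [IsAlgClosed K] [Field F] [Algebra K F] {g : ℕ}
variable {L : Type (max u v)} [Field L] [Algebra K L] [Algebra (s27gfOm K F g) L]
  [IsScalarTower K (s27gfOm K F g) L]
variable {t : F} {Pl : Type x} {P : Type y} [AddCommGroup P] (pkg : S27DegPkg K F L t g Pl P)

/-- **the tuples of a family are injective.** -/
theorem s27qi_fam_injective {q : ℤ → Fin g → F →ₐ[K] L} (hq : S27pfFam pkg q) (k : ℤ)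
    (hk : k ≠ 0) : Function.Injective (q k) :=
  s27qi_injective_of_generic (hq k hk).1

/-- the places of the points of a tuple of the family are pairwise distinct -/
theorem s27qi_fam_pt_injective {q : ℤ → Fin g → F →ₐ[K] L} (hq : S27pfFam pkg q) (k : ℤ)
    (hk : k ≠ 0) : Function.Injective (fun i => pkg.pt (q k i)) :=
  pkg.pt_inj.comp (s27qi_fam_injective pkg hq k hk)

end Fam

/-! ### centres -/

section Centre

variable {K : Type u} {F : Type v} {𝔏 : Type w} [Field K] [Field F] [Field 𝔏]
  [Algebra K F] [Algebra K 𝔏]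

/-- `W ⊇ K` ⇒ `W.comap R ⊇ K`. -/
theorem s27qi_isKVal_comap (W : ValuationSubring 𝔏) (hW : ∀ a : K, algebraMap K 𝔏 a ∈ W)
    (R : F →ₐ[K] 𝔏) (a : K) : algebraMap K F a ∈ W.comap (R : F →+* 𝔏) := by
  rw [ValuationSubring.mem_comap]
  have : (R : F →+* 𝔏) (algebraMap K F a) = algebraMap K 𝔏 a := R.commutes a
  rw [this]
  exact hW a

/-- **centres exist**: a point is generic along `W` or has a closed centre. -/
theorem s27qi_centre_or_top (x : F) (hx : Transcendental K x) [FiniteDimensional K⟮x⟯ F]
    (W : ValuationSubring 𝔏) (hW : ∀ a : K, algebraMap K 𝔏 a ∈ W) (R : F →ₐ[K] 𝔏) :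
    W.comap (R : F →+* 𝔏) = ⊤ ∨ ∃ Q : Place K F, S27ptIsCentre W R Q := by
  rcases s27pt2_dichotomy x hx (W.comap (R : F →+* 𝔏)) (s27qi_isKVal_comap W hW R) with h | ⟨Q, hQ⟩
  · exact Or.inl h
  · exact Or.inr ⟨Q, hQ.symm⟩

/-- a point has at most one closed centre -/
theorem s27qi_centre_unique {W : ValuationSubring 𝔏} {R : F →ₐ[K] 𝔏} {Q Q' : Place K F}
    (h : S27ptIsCentre W R Q) (h' : S27ptIsCentre W R Q') : Q = Q' := by
  apply Place.ext
  unfold S27ptIsCentre at h h'
  rw [← h, ← h']

/-- a point with a closed centre is not generic -/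
theorem s27qi_not_top_of_centre {W : ValuationSubring 𝔏} {R : F →ₐ[K] 𝔏} {Q : Place K F}
    (h : S27ptIsCentre W R Q) : W.comap (R : F →+* 𝔏) ≠ ⊤ := by
  unfold S27ptIsCentre at h
  rw [h]
  exact Q.ne_top'

/-- at the centre `Q`: `R f ∈ W ↔ f ∈ 𝒪_Q`. -/
theorem s27qi_mem_iff_of_centre {W : ValuationSubring 𝔏} {R : F →ₐ[K] 𝔏} {Q : Place K F}
    (h : S27ptIsCentre W R Q) (f : F) : R f ∈ W ↔ f ∈ Q.toValuationSubring := by
  unfold S27ptIsCentre at h
  rw [← h, ValuationSubring.mem_comap]
  rfl

/-- a generic point has all its values in `W` -/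
theorem s27qi_mem_of_top {W : ValuationSubring 𝔏} {R : F →ₐ[K] 𝔏}
    (h : W.comap (R : F →+* 𝔏) = ⊤) (f : F) : R f ∈ W := by
  have hf : f ∈ W.comap (R : F →+* 𝔏) := by rw [h]; exact ValuationSubring.mem_top f
  rw [ValuationSubring.mem_comap] at hf
  exact hf

/-- the nonzero values of a generic point are units of `W` -/
theorem s27qi_unit_of_top {W : ValuationSubring 𝔏} {R : F →ₐ[K] 𝔏}
    (h : W.comap (R : F →+* 𝔏) = ⊤) {f : F} (hf : f ≠ 0) :
    R f ≠ 0 ∧ R f ∈ W ∧ (R f)⁻¹ ∈ W := by
  refine ⟨(map_ne_zero R).mpr hf, s27qi_mem_of_top h f, ?_⟩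
  rw [← map_inv₀]
  exact s27qi_mem_of_top h f⁻¹

/-- a tuple has closed centres or generic reductions, pointwise -/
theorem s27qi_centres (x : F) (hx : Transcendental K x) [FiniteDimensional K⟮x⟯ F]
    (W : ValuationSubring 𝔏) (hW : ∀ a : K, algebraMap K 𝔏 a ∈ W) {N : ℕ}
    (R : Fin N → F →ₐ[K] 𝔏) (i : Fin N) :
    W.comap ((R i : F →ₐ[K] 𝔏) : F →+* 𝔏) = ⊤ ∨ ∃ Q : Place K F, S27ptIsCentre W (R i) Q :=
  s27qi_centre_or_top x hx W hW (R i)

end Centre

end Fermat.Agent.S27
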