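/-
S27-B, DEG-B2 NONSPECIAL (helper40; plan NOTES/S27-DEG.md of helper18): duality-free.

`L` a field, `F / L` a field with the prelude's places (all of degree one: `hres`) and principal
divisors of degree `0`; `ℓ(D) = finrank L (riemannRochSpace D)`.  Riemann's theorem enters as the
two hypotheses
  (RI) `∀ D, deg D + 1 − g ≤ ℓ(D)`,     (RE) `∀ D, N₀ ≤ deg D → ℓ(D) = deg D + 1 − g`.

* `s27ns_card_lt` / `s27ns_finite` (GAP LEMMA): if `D` is special (`deg D + 1 − g < ℓ(D)`), the
  places `Q` with `ℓ(D + Q) = ℓ(D) + 1` (the non-gaps of `D`) form a finite set, with fewer than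
  `N₀ − deg D` elements.
* `s27ns_chain` (CHAIN THEOREM): if every `P (j)` has infinitely many "conjugates" `Q` with
  `ℓ(T + P 0 + … + P (j−1) + Q) = ℓ(T + P 0 + … + P j)`, then
  `ℓ(T + P 0 + … + P (j−1)) = max (ℓ(T)) (deg T + j + 1 − g)`.
* `s27ns_chain_eq_one`: for `deg T = 0`, `ℓ(T) ≤ 1`: `ℓ(T + P 0 + … + P (g−1)) = 1`
  (a generic effective divisor of degree `g`, translated by a class of degree `0`, is
  non-special: it is the unique effective divisor of its class).
-/
import Fermat.Agent.ES.RiemannGeneric

set_option autoImplicit false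

open AlgebraicCurve Module

namespace Fermat.Agent.S27

open Fermat.Agent.S24 Fermat.Agent.ES.R

variable {L F : Type*} [Field L] [Field F] [Algebra L F]

theorem s27ns_single_nonneg (Q : Place L F) : (0 : Divisor L F) ≤ Finsupp.single Q (1 : ℤ) := by
  classical
  rw [Finsupp.le_def]
  intro v
  by_cases h : Q = v
  · subst h
    simp
  · simp [Finsupp.single_eq_of_ne' h]

theorem s27ns_le_add_single (D : Divisor L F) (Q : Place L F) :
    D ≤ D + Finsupp.single Q (1 : ℤ) := by
  rw [Finsupp.le_def]
  intro v
  have := Finsupp.le_def.mp (s27ns_single_nonneg Q) v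
  rw [Finsupp.add_apply]
  simp only [Finsupp.coe_zero, Pi.zero_apply] at this
  omega

theorem s27ns_add_single_mono {D D' : Divisor L F} (h : D ≤ D') (Q : Place L F) :
    D + Finsupp.single Q (1 : ℤ) ≤ D' + Finsupp.single Q (1 : ℤ) := by
  rw [Finsupp.le_def]
  intro v
  have := Finsupp.le_def.mp h v
  rw [Finsupp.add_apply, Finsupp.add_apply]
  omega

theorem s27ns_le_add_sum (D : Divisor L F) (S : Finset (Place L F)) :
    D ≤ D + ∑ Q ∈ S, Finsupp.single Q (1 : ℤ) := by
  classical
  rw [Finsupp.le_def]
  intro v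
  rw [Finsupp.add_apply, Finsupp.finsetSum_apply]
  have : 0 ≤ ∑ Q ∈ S, (Finsupp.single Q (1 : ℤ)) v := by
    refine Finset.sum_nonneg fun Q _ => ?_
    have := Finsupp.le_def.mp (s27ns_single_nonneg (L := L) (F := F) Q) v
    simpa using this
  omega

/-- A section of `D + Q` which is not a section of `D` has the exact pole order at `Q`. -/
theorem s27ns_ord_eq {D : Divisor L F} {Q : Place L F} {f : F}
    (hf : f ∈ riemannRochSpace (D + Finsupp.single Q 1)) (hf' : f ∉ riemannRochSpace D) :
    f ≠ 0 ∧ Q.ord f = -D Q - 1 := by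
  classical
  have hf0 : f ≠ 0 := by
    rintro rfl
    exact hf' (Submodule.zero_mem _)
  refine ⟨hf0, ?_⟩
  rw [mem_riemannRochSpace_iff] at hf hf'
  obtain ⟨v, hv0⟩ := not_forall.mp hf'
  have hv : ¬ (-D v ≤ v.ord f) := fun h => hv0 (Or.inr h)
  have h1 := (hf v).resolve_left hf0
  rw [Finsupp.add_apply] at h1
  by_cases hvQ : Q = v
  · subst hvQ
    rw [Finsupp.single_eq_same] at h1
    omega
  · rw [Finsupp.single_eq_of_ne' hvQ] at h1
    omega

/-- A non-gap of `D` gives a section of `D + Q` outside `L(D)`. -/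
theorem s27ns_exists_section [HasPrincipalDivisors L F]
    (hres : ∀ v : Place L F, Function.Bijective (algebraMap L v.ResidueField))
    {D : Divisor L F} {Q : Place L F}
    (h : finrank L ↥(riemannRochSpace (D + Finsupp.single Q 1)) =
      finrank L ↥(riemannRochSpace D) + 1) :
    ∃ f, f ∈ riemannRochSpace (D + Finsupp.single Q 1) ∧ f ∉ riemannRochSpace D := by
  by_contra hcon
  have hle : riemannRochSpace (D + Finsupp.single Q 1) ≤ riemannRochSpace D := by
    intro f hf
    by_contra hf'
    exact hcon ⟨f, hf, hf'⟩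
  have := rr_finite Q hres D
  have h2 := Submodule.finrank_mono hle
  omega

/-- A non-gap `Q` of `D` stays a non-gap of every `D' ≥ D` with `D' Q = D Q`. -/
theorem s27ns_nongap_mono [HasPrincipalDivisors L F]
    (hres : ∀ v : Place L F, Function.Bijective (algebraMap L v.ResidueField))
    {D D' : Divisor L F} {Q : Place L F} (hDD' : D ≤ D') (hQ : D' Q = D Q)
    (h : finrank L ↥(riemannRochSpace (D + Finsupp.single Q 1)) =
      finrank L ↥(riemannRochSpace D) + 1) :
    finrank L ↥(riemannRochSpace D') + 1 ≤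
      finrank L ↥(riemannRochSpace (D' + Finsupp.single Q 1)) := by
  obtain ⟨f, hf, hf'⟩ := s27ns_exists_section hres h
  obtain ⟨hf0, hord⟩ := s27ns_ord_eq hf hf'
  have h1 : f ∈ riemannRochSpace (D' + Finsupp.single Q 1) :=
    rr_mono (s27ns_add_single_mono hDD' Q) hf
  have h2 : f ∉ riemannRochSpace D' := by
    intro hmem
    rw [mem_riemannRochSpace_iff] at hmem
    have := (hmem Q).resolve_left hf0
    omega
  have hlt : riemannRochSpace D' < riemannRochSpace (D' + Finsupp.single Q 1) := by
    refine lt_of_le_of_ne (rr_mono (s27ns_le_add_single D' Q)) ?_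
    intro heq
    rw [← heq] at h1
    exact h2 h1
  have := rr_finite Q hres (D' + Finsupp.single Q 1)
  exact Nat.succ_le_of_lt (Submodule.finrank_lt_finrank_of_lt hlt)

/-- Non-gaps are independent: `ℓ(D) + #S ≤ ℓ(D + ΣS)`. -/
theorem s27ns_add_card_le [HasPrincipalDivisors L F]
    (hres : ∀ v : Place L F, Function.Bijective (algebraMap L v.ResidueField))
    (D : Divisor L F) (S : Finset (Place L F))
    (hS : ∀ Q ∈ S, finrank L ↥(riemannRochSpace (D + Finsupp.single Q 1)) =
      finrank L ↥(riemannRochSpace D) + 1) :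
    finrank L ↥(riemannRochSpace D) + S.card ≤
      finrank L ↥(riemannRochSpace (D + ∑ Q ∈ S, Finsupp.single Q (1 : ℤ))) := by
  classical
  induction S using Finset.induction_on with
  | empty =>
    rw [Finset.sum_empty, Finset.card_empty, add_zero, add_zero]
  | insert Q S hQS ih =>
    have ih' := ih (fun Q' hQ' => hS Q' (Finset.mem_insert_of_mem hQ'))
    have hle : D ≤ D + ∑ Q' ∈ S, Finsupp.single Q' (1 : ℤ) := s27ns_le_add_sum D S
    have hQ0 : (D + ∑ Q' ∈ S, Finsupp.single Q' (1 : ℤ)) Q = D Q := by
      rw [Finsupp.add_apply, Finsupp.finsetSum_apply]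
      have : ∑ Q' ∈ S, (Finsupp.single Q' (1 : ℤ)) Q = 0 := by
        refine Finset.sum_eq_zero fun Q' hQ' => ?_
        have hne : Q' ≠ Q := fun h => hQS (h ▸ hQ')
        exact Finsupp.single_eq_of_ne' hne
      rw [this, add_zero]
    have h3 := s27ns_nongap_mono hres hle hQ0 (hS Q (Finset.mem_insert_self Q S))
    have h4 : D + ∑ Q' ∈ insert Q S, Finsupp.single Q' (1 : ℤ) =
        D + ∑ Q' ∈ S, Finsupp.single Q' (1 : ℤ) + Finsupp.single Q 1 := by
      rw [Finset.sum_insert hQS]
      abel
    rw [h4, Finset.card_insert_of_notMem hQS]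
    omega

/-- Degree of `D + ΣS` when all places have degree one. -/
theorem s27ns_degree_add_sum
    (hres : ∀ v : Place L F, Function.Bijective (algebraMap L v.ResidueField))
    (D : Divisor L F) (S : Finset (Place L F)) :
    Divisor.degree (D + ∑ Q ∈ S, Finsupp.single Q (1 : ℤ)) = Divisor.degree D + S.card := by
  classical
  rw [map_add, map_sum]
  have : ∀ Q ∈ S, Divisor.degree (Finsupp.single Q (1 : ℤ) : Divisor L F) = 1 := by
    intro Q _
    rw [Divisor.degree_single, place_deg_eq_one Q (hres Q)]
    norm_num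
  rw [Finset.sum_congr rfl this]
  simp

/-- **Gap lemma (counting form).**  A special divisor `D` has fewer than `N₀ − deg D`
non-gaps. -/
theorem s27ns_card_lt [HasPrincipalDivisors L F]
    (hres : ∀ v : Place L F, Function.Bijective (algebraMap L v.ResidueField))
    (g N₀ : ℤ)
    (hRE : ∀ D : Divisor L F, N₀ ≤ Divisor.degree D →
      (finrank L ↥(riemannRochSpace D) : ℤ) = Divisor.degree D + 1 - g)
    (D : Divisor L F)
    (hsp : Divisor.degree D + 1 - g < (finrank L ↥(riemannRochSpace D) : ℤ))
    (S : Finset (Place L F))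
    (hS : ∀ Q ∈ S, finrank L ↥(riemannRochSpace (D + Finsupp.single Q 1)) =
      finrank L ↥(riemannRochSpace D) + 1) :
    (S.card : ℤ) < N₀ - Divisor.degree D := by
  by_contra hcon0
  have hcon := not_lt.mp hcon0
  have h1 := s27ns_add_card_le hres D S hS
  have h2 := s27ns_degree_add_sum hres D S
  have h3 := hRE (D + ∑ Q ∈ S, Finsupp.single Q (1 : ℤ)) (by rw [h2]; linarith)
  rw [h2] at h3
  have h1' : (finrank L ↥(riemannRochSpace D) : ℤ) + S.card ≤
      (finrank L ↥(riemannRochSpace (D + ∑ Q ∈ S, Finsupp.single Q (1 : ℤ))) : ℤ) := by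
    exact_mod_cast h1
  linarith

/-- **Gap lemma.**  The non-gaps of a special divisor form a finite set. -/
theorem s27ns_finite [HasPrincipalDivisors L F]
    (hres : ∀ v : Place L F, Function.Bijective (algebraMap L v.ResidueField))
    (g N₀ : ℤ)
    (hRE : ∀ D : Divisor L F, N₀ ≤ Divisor.degree D →
      (finrank L ↥(riemannRochSpace D) : ℤ) = Divisor.degree D + 1 - g)
    (D : Divisor L F)
    (hsp : Divisor.degree D + 1 - g < (finrank L ↥(riemannRochSpace D) : ℤ)) :
    {Q : Place L F | finrank L ↥(riemannRochSpace (D + Finsupp.single Q 1)) =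
      finrank L ↥(riemannRochSpace D) + 1}.Finite := by
  by_contra hinf
  obtain ⟨S, hSsub, hScard⟩ :=
    (Set.not_finite.mp hinf).exists_subset_card_eq (N₀ - Divisor.degree D).toNat
  have h1 := s27ns_card_lt hres g N₀ hRE D hsp S (fun Q hQ => hSsub (Finset.mem_coe.mpr hQ))
  rw [hScard] at h1
  have := Int.self_le_toNat (N₀ - Divisor.degree D)
  omega

/-- The chain `T + P 0 + … + P (j − 1)`. -/
noncomputable def s27nsChain (T : Divisor L F) (P : ℕ → Place L F) (j : ℕ) : Divisor L F :=
  T + ∑ i ∈ Finset.range j, Finsupp.single (P i) (1 : ℤ)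

theorem s27nsChain_zero (T : Divisor L F) (P : ℕ → Place L F) : s27nsChain T P 0 = T := by
  simp [s27nsChain]

theorem s27nsChain_succ (T : Divisor L F) (P : ℕ → Place L F) (j : ℕ) :
    s27nsChain T P (j + 1) = s27nsChain T P j + Finsupp.single (P j) 1 := by
  rw [s27nsChain, s27nsChain, Finset.sum_range_succ, add_assoc]

theorem s27nsChain_degree
    (hres : ∀ v : Place L F, Function.Bijective (algebraMap L v.ResidueField))
    (T : Divisor L F) (P : ℕ → Place L F) (j : ℕ) :
    Divisor.degree (s27nsChain T P j) = Divisor.degree T + j := by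
  induction j with
  | zero => simp [s27nsChain_zero]
  | succ j ih =>
    rw [s27nsChain_succ, map_add, ih, Divisor.degree_single, place_deg_eq_one _ (hres _)]
    push_cast
    ring

/-- **Chain theorem.**  Along a chain of places each of which has infinitely many conjugates,
the gaps come first: `ℓ(T + P 0 + … + P (j − 1)) = max (ℓ(T)) (deg T + j + 1 − g)`. -/
theorem s27ns_chain [HasPrincipalDivisors L F]
    (hres : ∀ v : Place L F, Function.Bijective (algebraMap L v.ResidueField))
    (g N₀ : ℤ)
    (hRI : ∀ D : Divisor L F,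
      Divisor.degree D + 1 - g ≤ (finrank L ↥(riemannRochSpace D) : ℤ))
    (hRE : ∀ D : Divisor L F, N₀ ≤ Divisor.degree D →
      (finrank L ↥(riemannRochSpace D) : ℤ) = Divisor.degree D + 1 - g)
    (T : Divisor L F) (P : ℕ → Place L F) (r : ℕ)
    (hconj : ∀ j, j < r →
      {Q : Place L F | finrank L ↥(riemannRochSpace (s27nsChain T P j + Finsupp.single Q 1)) =
        finrank L ↥(riemannRochSpace (s27nsChain T P (j + 1)))}.Infinite) :
    ∀ j, j ≤ r → (finrank L ↥(riemannRochSpace (s27nsChain T P j)) : ℤ) =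
      max (finrank L ↥(riemannRochSpace T) : ℤ) (Divisor.degree T + j + 1 - g) := by
  intro j
  induction j with
  | zero =>
    intro _
    rw [s27nsChain_zero]
    have := hRI T
    push_cast
    rw [add_zero, max_eq_left this]
  | succ j ih =>
    intro hj
    have ihj := ih (Nat.le_of_succ_le hj)
    have hdeg := s27nsChain_degree hres T P j
    have hdeg' := s27nsChain_degree hres T P (j + 1)
    have hRIj := hRI (s27nsChain T P (j + 1))
    rw [hdeg'] at hRIj
    have hup : finrank L ↥(riemannRochSpace (s27nsChain T P (j + 1))) ≤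
        finrank L ↥(riemannRochSpace (s27nsChain T P j)) + 1 := by
      rw [s27nsChain_succ]
      exact rr_finrank_add_single_le hres _ _
    have hup' : (finrank L ↥(riemannRochSpace (s27nsChain T P (j + 1))) : ℤ) ≤
        finrank L ↥(riemannRochSpace (s27nsChain T P j)) + 1 := by exact_mod_cast hup
    push_cast at hRIj ⊢
    by_cases hsp : Divisor.degree (s27nsChain T P j) + 1 - g <
        (finrank L ↥(riemannRochSpace (s27nsChain T P j)) : ℤ)
    · -- special: the next place is a gap
      have hfin := s27ns_finite hres g N₀ hRE _ hsp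
      obtain ⟨Q, hQ, hQ'⟩ := (hconj j (Nat.lt_of_succ_le hj)).exists_notMem_finite hfin
      have hQeq : finrank L ↥(riemannRochSpace (s27nsChain T P j + Finsupp.single Q 1)) =
          finrank L ↥(riemannRochSpace (s27nsChain T P (j + 1))) := hQ
      have hQne : ¬ finrank L ↥(riemannRochSpace (s27nsChain T P j + Finsupp.single Q 1)) =
          finrank L ↥(riemannRochSpace (s27nsChain T P j)) + 1 := hQ'
      have hlow : finrank L ↥(riemannRochSpace (s27nsChain T P j)) ≤
          finrank L ↥(riemannRochSpace (s27nsChain T P j + Finsupp.single Q 1)) := by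
        have := rr_finite Q hres (s27nsChain T P j + Finsupp.single Q 1)
        exact Submodule.finrank_mono (rr_mono (s27ns_le_add_single _ Q))
      have hupQ := rr_finrank_add_single_le hres (s27nsChain T P j) Q
      have heq : finrank L ↥(riemannRochSpace (s27nsChain T P (j + 1))) =
          finrank L ↥(riemannRochSpace (s27nsChain T P j)) := by omega
      rw [heq, ihj]
      rw [hdeg, ihj] at hsp
      rcases le_total (finrank L ↥(riemannRochSpace T) : ℤ) (Divisor.degree T + j + 1 - g)
        with h | h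
      · rw [max_eq_right h] at hsp
        exact absurd hsp (lt_irrefl _)
      · rw [max_eq_left h] at hsp ⊢
        rw [max_eq_left (by linarith)]
    · -- non-special: Riemann's inequality forces the jump
      have hsp := not_lt.mp hsp
      rw [hdeg, ihj] at hsp
      have h1 : (finrank L ↥(riemannRochSpace T) : ℤ) ≤ Divisor.degree T + j + 1 - g :=
        le_trans (le_max_left _ _) hsp
      rw [ihj, max_eq_right h1] at hup'
      rw [max_eq_right (by linarith)]
      linarith

/-- **Non-speciality.**  For `deg T = 0` and `ℓ(T) ≤ 1` (automatic), a chain of `g ≥ 1` places with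
infinitely many conjugates gives `ℓ(T + P 0 + … + P (g − 1)) = 1`. -/
theorem s27ns_chain_eq_one [HasPrincipalDivisors L F]
    (hres : ∀ v : Place L F, Function.Bijective (algebraMap L v.ResidueField))
    (g : ℕ) (N₀ : ℤ)
    (hRI : ∀ D : Divisor L F,
      Divisor.degree D + 1 - g ≤ (finrank L ↥(riemannRochSpace D) : ℤ))
    (hRE : ∀ D : Divisor L F, N₀ ≤ Divisor.degree D →
      (finrank L ↥(riemannRochSpace D) : ℤ) = Divisor.degree D + 1 - g)
    (T : Divisor L F) (hT : Divisor.degree T = 0)
    (hT1 : finrank L ↥(riemannRochSpace T) ≤ 1) (P : ℕ → Place L F)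
    (hconj : ∀ j, j < g →
      {Q : Place L F | finrank L ↥(riemannRochSpace (s27nsChain T P j + Finsupp.single Q 1)) =
        finrank L ↥(riemannRochSpace (s27nsChain T P (j + 1)))}.Infinite) :
    finrank L ↥(riemannRochSpace (s27nsChain T P g)) = 1 := by
  have h := s27ns_chain hres g N₀ hRI hRE T P g hconj g le_rfl
  rw [hT] at h
  have h1 : (finrank L ↥(riemannRochSpace T) : ℤ) ≤ 1 := by exact_mod_cast hT1
  have h2 : (0 : ℤ) + g + 1 - g = 1 := by ring
  rw [h2, max_eq_right h1] at h
  exact_mod_cast h

end Fermat.Agent.S27
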