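/-
S27 route B, DEG-B4, leaf COUNT-EXT (helper84): the field theory of the count, on the abstract
field package `S27DegFld` of `S27/DegAbs.lean` (Mathlib only).

* **(X3)** `s27dgx_X3` : two embeddings of `Ω` which agree on the coordinates are equal.
* **(X2)** `s27dgx_X2` : two embeddings of `Ω` which agree on `𝔉` differ by a permutation.
* **(X1)** `s27dgx_X1` : every `K`-embedding `σ : 𝔉 → L` extends to a `K`-automorphism of `L`.
-/
import Mathlib
import Fermat.Agent.S27.DegAbs

set_option autoImplicit false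
set_option linter.unusedVariables false
set_option linter.unusedSectionVars false
set_option linter.style.haveILetI false

noncomputable section

namespace Fermat.Agent.S27

open Polynomial

universe u v w

section Fld

variable {K : Type u} {F : Type v} {L : Type w} {Ω : Type w} [Field K] [Field F] [Field L]
  [Field Ω] [Algebra K F] [Algebra K L] [Algebra K Ω] [Algebra Ω L]
  {t : F} {g : ℕ} {𝔉 : IntermediateField K Ω}

/-- **(X3)** two embeddings of `Ω` which agree on the coordinates are equal. -/
theorem s27dgx_X3 (fld : S27DegFld K F L Ω t g 𝔉) (ψ ψ' : Ω →ₐ[K] L)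
    (h : ∀ i u, ψ (fld.ι i u) = ψ' (fld.ι i u)) : ψ = ψ' := by
  apply AlgHom.ext
  intro x
  have hx : x ∈ IntermediateField.adjoin K (⋃ i, Set.range (fld.ι i)) := by
    rw [fld.gen]
    exact IntermediateField.mem_top
  induction hx using IntermediateField.adjoin_induction with
  | mem y hy =>
    obtain ⟨i, u, rfl⟩ := Set.mem_iUnion.mp hy
    exact h i u
  | algebraMap c => rw [AlgHom.commutes, AlgHom.commutes]
  | add a b _ _ ha hb => rw [map_add, map_add, ha, hb]
  | inv a _ ha => rw [map_inv₀, map_inv₀, ha]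
  | mul a b _ _ ha hb => rw [map_mul, map_mul, ha, hb]

/-- the fixed field of a finite group of automorphisms: embeddings which agree on it differ by an
element of the group. -/
theorem s27dgx_fixed_perm (G : Subgroup (Ω ≃ₐ[K] Ω)) [Finite G] (ψ ψ' : Ω →ₐ[K] L)
    (h : ∀ x : Ω, x ∈ IntermediateField.fixedField G → ψ x = ψ' x) :
    ∃ γ : Ω ≃ₐ[K] Ω, γ ∈ G ∧ ∀ y, ψ' y = ψ (γ y) := by
  letI : Algebra Ω L := (ψ : Ω →+* L).toAlgebra
  haveI : IsGalois (IntermediateField.fixedField G) Ω := IsGalois.of_fixed_field Ω G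
  haveI : Normal (IntermediateField.fixedField G) Ω := IsGalois.to_normal
  let ψE : Ω →ₐ[IntermediateField.fixedField G] L :=
    { (ψ' : Ω →+* L) with
      commutes' := fun x => (h x.1 x.2).symm }
  let e := Normal.algHomEquivAut (IntermediateField.fixedField G) L Ω
  have hb := FixedPoints.toAlgHom_bijective G Ω
  let σ' : Ω →ₐ[FixedPoints.subfield G Ω] Ω :=
    { ((e ψE : Ω ≃ₐ[IntermediateField.fixedField G] Ω) : Ω →+* Ω) with
      commutes' := fun x => (e ψE).commutes (⟨x.1, x.2⟩ : IntermediateField.fixedField G) }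
  obtain ⟨γ, hγ⟩ := hb.surjective σ'
  refine ⟨γ.1, γ.2, fun y => ?_⟩
  have h1 : e.symm (e ψE) = ψE := e.symm_apply_apply ψE
  have h2 : (e.symm (e ψE)) y = ψE y := DFunLike.congr_fun h1 y
  have h3 : (e.symm (e ψE)) y = ψ ((e ψE) y) := rfl
  have h4 : ψE y = ψ' y := rfl
  have h5 : σ' y = γ • y := (DFunLike.congr_fun hγ y).symm
  have h6 : σ' y = (e ψE) y := rfl
  have h7 : γ • y = γ.1 y := rfl
  rw [← h7, ← h5, h6, ← h3, h2, h4]

/-- `𝔉` is the fixed field of the image of the permutation action -/
theorem s27dgx_eq_fixedField (fld : S27DegFld K F L Ω t g 𝔉) :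
    𝔉 = IntermediateField.fixedField fld.perm.range := by
  ext x
  rw [fld.fixed, IntermediateField.mem_fixedField_iff]
  constructor
  · rintro h _ ⟨π, rfl⟩
    exact h π
  · intro h π
    exact h _ ⟨π, rfl⟩

instance s27dgx_finite_range (fld : S27DegFld K F L Ω t g 𝔉) : Finite fld.perm.range :=
  Finite.of_surjective fld.perm.rangeRestrict (MonoidHom.rangeRestrict_surjective _)

/-- **(X2)** two embeddings of `Ω` which agree on `𝔉` differ by a permutation. -/
theorem s27dgx_X2 (fld : S27DegFld K F L Ω t g 𝔉) (ψ ψ' : Ω →ₐ[K] L)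
    (h : ∀ x : 𝔉, ψ x = ψ' x) : ∃ π : Equiv.Perm (Fin g), ∀ y, ψ' y = ψ (fld.perm π y) := by
  obtain ⟨γ, ⟨π, rfl⟩, hγ⟩ := s27dgx_fixed_perm fld.perm.range ψ ψ' (fun x hx => by
    rw [← s27dgx_eq_fixedField fld] at hx
    exact h ⟨x, hx⟩)
  exact ⟨π, hγ⟩

end Fld

/-! ### (X1): extension of embeddings to automorphisms of `L` -/

/-- a copy of `L`, to carry a second algebra structure -/
def S27dgxCopy (L : Type w) : Type w := L

instance s27dgxCopy_field (L : Type w) [Field L] : Field (S27dgxCopy L) :=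
  inferInstanceAs (Field L)

instance s27dgxCopy_isAlgClosed (L : Type w) [Field L] [IsAlgClosed L] :
    IsAlgClosed (S27dgxCopy L) :=
  inferInstanceAs (IsAlgClosed L)

section X1

variable {K : Type u} {F : Type v} {L : Type w} {Ω : Type w} [Field K] [Field F] [Field L]
  [Field Ω] [Algebra K F] [Algebra K L] [Algebra K Ω] [Algebra Ω L]
  {t : F} {g : ℕ} {𝔉 : IntermediateField K Ω}

/-- the coordinates `ι_i t` form a transcendence basis of `Ω / K`. -/
theorem s27dgx_isTranscendenceBasis (fld : S27DegFld K F L Ω t g 𝔉)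
    (halg : ∀ u : F, IsAlgebraic (IntermediateField.adjoin K {t}) u) :
    IsTranscendenceBasis K (fun i => fld.ι i t) := by
  refine fld.ι_gen.isTranscendenceBasis_iff_isAlgebraic.mpr ⟨fun x => ?_⟩
  have hx : x ∈ IntermediateField.adjoin K (⋃ i, Set.range (fld.ι i)) := by
    rw [fld.gen]
    exact IntermediateField.mem_top
  induction hx using IntermediateField.adjoin_induction with
  | mem y hy =>
    obtain ⟨i, f, rfl⟩ := Set.mem_iUnion.mp hy
    have h1 : IsAlgebraic (Algebra.adjoin K {t}) f := by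
      open IntermediateField.algebraAdjoinAdjoin in
      exact (IsFractionRing.isAlgebraic_iff (Algebra.adjoin K {t})
        (IntermediateField.adjoin K {t}) F).mpr (halg f)
    have hmem : ∀ z : Algebra.adjoin K {t},
        ((fld.ι i).comp (Algebra.adjoin K {t}).val) z ∈
          Algebra.adjoin K (Set.range fun i => fld.ι i t) := by
      intro z
      have h2 : (fld.ι i) z.1 ∈ (Algebra.adjoin K {t}).map (fld.ι i) := ⟨z.1, z.2, rfl⟩
      rw [AlgHom.map_adjoin] at h2
      refine Algebra.adjoin_mono ?_ h2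
      rintro _ ⟨_, rfl, rfl⟩
      exact ⟨i, rfl⟩
    let f₀ : Algebra.adjoin K {t} →ₐ[K] Algebra.adjoin K (Set.range fun i => fld.ι i t) :=
      ((fld.ι i).comp (Algebra.adjoin K {t}).val).codRestrict _ hmem
    have hf₀ : Function.Injective f₀ := by
      intro a b hab
      have h3 : (fld.ι i) a.1 = (fld.ι i) b.1 := congrArg Subtype.val hab
      exact Subtype.ext ((fld.ι i : F →+* Ω).injective h3)
    exact IsAlgebraic.ringHom_of_comp_eq (R := Algebra.adjoin K {t})
      (S := Algebra.adjoin K (Set.range fun i => fld.ι i t)) (A := F) (B := Ω)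
      (f₀ : Algebra.adjoin K {t} →+* Algebra.adjoin K (Set.range fun i => fld.ι i t))
      ((fld.ι i : F →ₐ[K] Ω) : F →+* Ω) h1 hf₀ (RingHom.ext fun z => rfl)
  | algebraMap c =>
    exact isAlgebraic_algebraMap
      (⟨algebraMap K Ω c, Subalgebra.algebraMap_mem _ c⟩ :
        Algebra.adjoin K (Set.range fun i => fld.ι i t))
  | add a b _ _ ha hb => exact ha.add hb
  | inv a _ ha => exact ha.inv
  | mul a b _ _ ha hb => exact ha.mul hb

/-- core of (X1): `𝔉` the fixed field of a finite group, `Ω / K` of finite transcendence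
degree, `L` an algebraic closure of `Ω`. -/
theorem s27dgx_X1_core [IsScalarTower K Ω L] [IsAlgClosed L] [Algebra.IsAlgebraic Ω L]
    (𝔉 : IntermediateField K Ω) (G : Subgroup (Ω ≃ₐ[K] Ω)) [Finite G]
    (hE : 𝔉 = IntermediateField.fixedField G) {n : ℕ} (u : Fin n → Ω)
    (hu : IsTranscendenceBasis K u) (σ : 𝔉 →ₐ[K] L) :
    ∃ ê : L ≃ₐ[K] L, ∀ x : 𝔉, ê (algebraMap Ω L x) = σ x := by
  subst hE
  haveI : FiniteDimensional (IntermediateField.fixedField G) Ω :=
    inferInstanceAs (FiniteDimensional (FixedPoints.subfield G Ω) Ω)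
  haveI : Algebra.IsAlgebraic (IntermediateField.fixedField G) Ω :=
    Algebra.IsAlgebraic.of_finite _ _
  haveI : Algebra.IsAlgebraic (IntermediateField.fixedField G) L :=
    Algebra.IsAlgebraic.trans (IntermediateField.fixedField G) Ω L
  obtain ⟨ι', B, hB⟩ := exists_isTranscendenceBasis' K (IntermediateField.fixedField G)
  have hBL : IsTranscendenceBasis K (algebraMap (IntermediateField.fixedField G) L ∘ B) :=
    hB.algebraMap_comp
  have huL : IsTranscendenceBasis K (algebraMap Ω L ∘ u) := hu.algebraMap_comp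
  have hfin : Algebra.trdeg K L < Cardinal.aleph0 := by
    have h1 := huL.lift_cardinalMk_eq_trdeg
    rw [← Cardinal.lift_lt_aleph0, ← h1, Cardinal.lift_lt_aleph0]
    exact Cardinal.lt_aleph0_of_finite (Fin n)
  have hcard : Cardinal.mk ι' = Algebra.trdeg K L := hBL.cardinalMk_eq_trdeg
  have hσB : AlgebraicIndependent K (σ ∘ B) := hB.1.map' (f := σ)
    (fun a b hab => RingHom.injective (σ : (IntermediateField.fixedField G) →+* L) hab)
  have hσBT : IsTranscendenceBasis K (σ ∘ B) :=
    hσB.isTranscendenceBasis_of_trdeg_le hfin hcard.ge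
  letI : Algebra K (S27dgxCopy L) := inferInstanceAs (Algebra K L)
  letI : Algebra (IntermediateField.fixedField G) (S27dgxCopy L) :=
    (σ : (IntermediateField.fixedField G) →+* L).toAlgebra
  haveI : IsScalarTower K (IntermediateField.fixedField G) (S27dgxCopy L) :=
    IsScalarTower.of_algebraMap_eq (fun c => (σ.commutes c).symm)
  have hσBT' : IsTranscendenceBasis (A := S27dgxCopy L) K (fun i => σ (B i)) := hσBT
  haveI : Algebra.IsAlgebraic (IntermediateField.fixedField G) (S27dgxCopy L) :=
    (IsTranscendenceBasis.isAlgebraic_iff (S := IntermediateField.fixedField G)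
      (A := S27dgxCopy L) hσBT').mpr
      (fun i => isAlgebraic_algebraMap (R := IntermediateField.fixedField G)
        (A := S27dgxCopy L) (B i))
  haveI : IsAlgClosure (IntermediateField.fixedField G) L := ⟨inferInstance, inferInstance⟩
  haveI : IsAlgClosure (IntermediateField.fixedField G) (S27dgxCopy L) :=
    ⟨inferInstance, inferInstance⟩
  let e : L ≃ₐ[IntermediateField.fixedField G] S27dgxCopy L :=
    IsAlgClosure.equiv (IntermediateField.fixedField G) L (S27dgxCopy L)
  have he : ∀ x : IntermediateField.fixedField G, e (algebraMap Ω L x) = σ x :=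
    fun x => e.commutes x
  refine ⟨AlgEquiv.ofRingEquiv (f := (e.toRingEquiv : L ≃+* L)) (fun c => ?_), he⟩
  have h1 : algebraMap K L c =
      algebraMap Ω L ((algebraMap K (IntermediateField.fixedField G) c :
        IntermediateField.fixedField G) : Ω) := by
    rw [IsScalarTower.algebraMap_apply K Ω L]
    rfl
  rw [h1]
  refine (he _).trans ?_
  rw [AlgHom.commutes]
  exact h1

/-- **(X1)** every `K`-embedding `σ : 𝔉 → L` extends to a `K`-automorphism of `L`. -/
theorem s27dgx_X1 [IsScalarTower K Ω L] [IsAlgClosed L] [Algebra.IsAlgebraic Ω L]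
    (fld : S27DegFld K F L Ω t g 𝔉)
    (halg : ∀ u : F, IsAlgebraic (IntermediateField.adjoin K {t}) u) (σ : 𝔉 →ₐ[K] L) :
    ∃ ê : L ≃ₐ[K] L, ∀ x : 𝔉, ê (algebraMap Ω L x) = σ x :=
  s27dgx_X1_core 𝔉 fld.perm.range (s27dgx_eq_fixedField fld) _
    (s27dgx_isTranscendenceBasis fld halg) σ

end X1

end Fermat.Agent.S27
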