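/-
S27-B, AD-EX part 4 (helper6): MIXING and RESTRICTION of adapted pairs.

The clauses of `S27IsAdapted W R n t a` on `t` and on `a` are independent, hence
* `s27adexmix_mix`        : `(t, a)` adapted for `n`, `(t', a')` adapted for `n'` ⇒ `(t, a')` adapted
                            for `n'`  (ONE coordinate `t` for several pole data);
* `s27adexmix_of_ord`     : `(t, a)` adapted for `n`, `a' ≠ 0` with `ord_Q a' = n' Q` at every centre
                            ⇒ `(t, a')` adapted for `n'`;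
* `s27adexmix_inv`        : `(t, a)` for `n` ⇒ `(t, a⁻¹)` for `−n`;
  (restriction to sub-tuples and products: `S27IsAdapted.comp`, `.mul` of helper50's
  `S27/AdaptedAlg.lean`)
* `s27adex_exists_family` : ONE `t` and a family `a k` adapted for `n k` (any index type).
-/
import Fermat.Agent.S27.AdExPred

set_option autoImplicit false

noncomputable section

namespace Fermat.Agent.S27

open AlgebraicCurve

variable {K F : Type*} [Field K] [Field F] [Algebra K F]
variable {𝔏 : Type*} [Field 𝔏] [Algebra K 𝔏] {ι : Type*} {W : ValuationSubring 𝔏}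
  {R : ι → F →ₐ[K] 𝔏} {n n' : Place K F → ℤ} {t t' a a' : F}

theorem s27adexmix_of_ord (h : S27IsAdapted W R n t a) (ha' : a' ≠ 0)
    (hord : ∀ i (Q : Place K F), W.comap (R i : F →+* 𝔏) = Q.toValuationSubring →
      Q.ord a' = n' Q) : S27IsAdapted W R n' t a' :=
  ⟨ha', h.2.1, h.2.2.1, fun i Q hQ => ⟨(h.2.2.2.1 i Q hQ).1, hord i Q hQ⟩, h.2.2.2.2⟩

theorem s27adexmix_mix (h : S27IsAdapted W R n t a) (h' : S27IsAdapted W R n' t' a') :
    S27IsAdapted W R n' t a' :=
  s27adexmix_of_ord h h'.1 fun i Q hQ => (h'.2.2.2.1 i Q hQ).2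

theorem s27adexmix_inv (h : S27IsAdapted W R n t a) :
    S27IsAdapted W R (fun Q => -n Q) t a⁻¹ :=
  s27adexmix_of_ord h (inv_ne_zero h.1) fun i Q hQ => by
    rw [Place.ord_inv, (h.2.2.2.1 i Q hQ).2]

/-- ONE coordinate `t` and a family of pole parts. -/
theorem s27adex_exists_family [IsAlgClosed K] [CharZero K] [IsCurveOver K F]
    [Algebra.EssFiniteType K F] [Finite ι] (W : ValuationSubring 𝔏)
    (hW : ∀ c : K, algebraMap K 𝔏 c ∈ W) (R : ι → F →ₐ[K] 𝔏) {κ : Type*}
    (n : κ → Place K F → ℤ) :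
    ∃ (t : F) (a : κ → F), ∀ k, S27IsAdapted W R (n k) t (a k) := by
  obtain ⟨t, a₀, h₀⟩ := s27adex_exists_isCurveOver W hW R (fun _ => (0 : ℤ))
  choose t' a ha using fun k => s27adex_exists_isCurveOver W hW R (n k)
  exact ⟨t, a, fun k => s27adexmix_mix h₀ (ha k)⟩

end Fermat.Agent.S27

end
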