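/-
S27 route B (item 27), ADAPTED PAIRS: the algebra of the predicate `S27IsAdapted` (helper6,
S27/AdExPred.lean) — helper50.  Needed by CP-TOP / LE-TOP: ONE coordinate `t` and the pole factors
`a_A`, `a_sh` chosen for the union of all the points serve every sub-tuple `S` and every divisor
`A + m • B`.

* `S27IsAdapted.comp`   : restriction to a sub-family `R ∘ e`;
* `S27IsAdapted.congr`  : only the values of `n` at the closed centres matter;
* `S27IsAdapted.mul`    : `(t, a)` for `n`, `(t, b)` for `m` ⇒ `(t, a b)` for `n + m`;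
* `S27IsAdapted.pow`    : `(t, b)` for `m` ⇒ `(t, b ^ k)` for `k • m`;
* `S27IsAdapted.one`    : `(t, a)` adapted ⇒ `(t, 1)` adapted for `0`;
* `S27IsAdapted.mul_pow`: `(t, a · b ^ k)` for `n + k • m`;
* `s27ada_latBasis_sub` : **LAT-EX for a sub-tuple and the divisor `A + k • B`**, from ONE adapted
                          pair `(t, a)` for `−A` and ONE `(t, b)` for `−B` on the big tuple.
-/
import Fermat.Agent.S27.EffInstLat

set_option autoImplicit false
set_option linter.unusedSectionVars false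

noncomputable section

namespace Fermat.Agent.S27

open AlgebraicCurve

universe u v w

variable {K : Type u} {F : Type v} [Field K] [Field F] [Algebra K F]
  {𝔏 : Type w} [Field 𝔏] [Algebra K 𝔏]
  {ι ι' : Type*} {W : ValuationSubring 𝔏} {R : ι → F →ₐ[K] 𝔏} {n m : Place K F → ℤ} {t a b : F}

/-- restriction to a sub-family. -/
theorem S27IsAdapted.comp (h : S27IsAdapted W R n t a) (e : ι' → ι) :
    S27IsAdapted W (fun i => R (e i)) n t a :=
  ⟨h.1, h.2.1, fun i => h.2.2.1 (e i), fun i Q hQ => h.2.2.2.1 (e i) Q hQ,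
    fun i j hf => h.2.2.2.2 (e i) (e j) hf⟩

/-- only the values of `n` at the closed centres matter. -/
theorem S27IsAdapted.congr (h : S27IsAdapted W R n t a)
    (hn : ∀ i (Q : Place K F), W.comap (R i : F →+* 𝔏) = Q.toValuationSubring → n Q = m Q) :
    S27IsAdapted W R m t a :=
  ⟨h.1, h.2.1, h.2.2.1, fun i Q hQ => ⟨(h.2.2.2.1 i Q hQ).1, by
    rw [(h.2.2.2.1 i Q hQ).2, hn i Q hQ]⟩, h.2.2.2.2⟩

/-- product of the pole factors. -/
theorem S27IsAdapted.mul (h : S27IsAdapted W R n t a) (h' : S27IsAdapted W R m t b) :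
    S27IsAdapted W R (fun Q => n Q + m Q) t (a * b) :=
  ⟨mul_ne_zero h.1 h'.1, h.2.1, h.2.2.1, fun i Q hQ => ⟨(h.2.2.2.1 i Q hQ).1, by
    rw [Place.ord_mul Q h.1 h'.1, (h.2.2.2.1 i Q hQ).2, (h'.2.2.2.1 i Q hQ).2]⟩, h.2.2.2.2⟩

/-- the trivial pole factor. -/
theorem S27IsAdapted.one (h : S27IsAdapted W R n t a) :
    S27IsAdapted W R (fun _ => 0) t 1 :=
  ⟨one_ne_zero, h.2.1, h.2.2.1, fun i Q hQ => ⟨(h.2.2.2.1 i Q hQ).1, Place.ord_one Q⟩,
    h.2.2.2.2⟩

/-- powers of a pole factor. -/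
theorem S27IsAdapted.pow (h : S27IsAdapted W R m t b) (k : ℕ) :
    S27IsAdapted W R (fun Q => (k : ℤ) * m Q) t (b ^ k) := by
  induction k with
  | zero =>
    rw [pow_zero]
    exact (h.one).congr (m := fun Q => ((0 : ℕ) : ℤ) * m Q) fun i Q hQ => by simp
  | succ k ih =>
    rw [pow_succ]
    exact (ih.mul h).congr (m := fun Q => ((k + 1 : ℕ) : ℤ) * m Q) fun i Q hQ => by
      push_cast
      ring

/-- `(t, a · b ^ k)` is adapted for `n + k • m`. -/
theorem S27IsAdapted.mul_pow (h : S27IsAdapted W R n t a) (h' : S27IsAdapted W R m t b) (k : ℕ) :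
    S27IsAdapted W R (fun Q => n Q + (k : ℤ) * m Q) t (a * b ^ k) :=
  h.mul (h'.pow k)

section Lat

variable [IsAlgClosed K] [CharZero K] [IsCurveOver K F] [Algebra.EssFiniteType K F]

/-- **LAT-EX for a sub-tuple and the divisor `A + k • B`**: ONE adapted pair `(t, a)` for `−A` and
ONE `(t, b)` for `−B` on the big tuple `R` give the explicit lattice basis
`(a · b ^ k) · t ^ j` of every injective sub-tuple `R ∘ e` w.r.t. `A + k • B`. -/
theorem s27ada_latBasis_sub (W : ValuationSubring 𝔏) (hW : ∀ c : K, algebraMap K 𝔏 c ∈ W)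
    (R : ι → F →ₐ[K] 𝔏) (A B : Divisor K F) (t a b : F)
    (h : S27IsAdapted W R (fun Q => -A Q) t a) (h' : S27IsAdapted W R (fun Q => -B Q) t b)
    {N : ℕ} (e : Fin N → ι) (he : Function.Injective fun i => R (e i)) (k : ℕ) :
    S27ptIsLatBasis W (fun i => R (e i)) (A + k • B)
      (fun j : Fin N => a * b ^ k * t ^ (j : ℕ)) := by
  have h1 : S27IsAdapted W (fun i => R (e i)) (fun Q => -(A + k • B) Q) t (a * b ^ k) := by
    refine ((h.mul_pow h' k).comp e).congr (m := fun Q => -(A + k • B) Q) fun i Q _ => ?_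
    show -A Q + (k : ℤ) * -B Q = -((A + k • B) Q)
    rw [Finsupp.add_apply, Finsupp.smul_apply, nsmul_eq_mul]
    ring
  exact s27eil_latBasis W hW (fun i => R (e i)) he (A + k • B) t (a * b ^ k) h1

/-- the same as a local equation: `det [R_{e i} (f l)] / det [R_{e i} (a b^k t^j)]`. -/
theorem s27ada_isIdx_sub (W : ValuationSubring 𝔏) (hW : ∀ c : K, algebraMap K 𝔏 c ∈ W)
    (R : ι → F →ₐ[K] 𝔏) (A B : Divisor K F) (t a b : F)
    (h : S27IsAdapted W R (fun Q => -A Q) t a) (h' : S27IsAdapted W R (fun Q => -B Q) t b)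
    {N : ℕ} (e : Fin N → ι) (he : Function.Injective fun i => R (e i)) (k : ℕ)
    (f : Module.Basis (Fin N) K ↥(riemannRochSpace (A + k • B))) :
    S27ptIsIdx W (fun i => R (e i)) (A + k • B)
      ((s27ptValB (fun i => R (e i)) f).det /
        (s27ptVal (fun i => R (e i)) (fun j : Fin N => a * b ^ k * t ^ (j : ℕ))).det) :=
  ⟨f, _, s27ada_latBasis_sub W hW R A B t a b h h' e he k, rfl⟩

/-- the denominator: `det [R_{e i} (a b^k t^j)] = ∏ R_{e i} (a b^k) · Vandermonde`. -/
theorem s27ada_det_eq (R : ι → F →ₐ[K] 𝔏) (t a b : F) {N : ℕ} (e : Fin N → ι) (k : ℕ) :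
    (s27ptVal (fun i => R (e i)) (fun j : Fin N => a * b ^ k * t ^ (j : ℕ))).det =
      (∏ i, (R (e i) a * R (e i) b ^ k)) *
        (Matrix.vandermonde (fun i => R (e i) t)).det := by
  rw [s27eis_det_eq]
  congr 1
  refine Finset.prod_congr rfl fun i _ => ?_
  rw [map_mul, map_pow]

end Lat

end Fermat.Agent.S27

end
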