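/-
S27 route B, CP-TOP support (helper19): **adapted pairs with the SAME coordinate `t`.**
In `S27IsAdapted W R n t a` (helper6, S27/AdExPred.lean) the conditions on the coordinate `t` and
on the pole factor `a` are independent, so the coordinate of one adapted pair serves every pole
factor:

* `s27adm_mix`          : `S27IsAdapted W R n t a → S27IsAdapted W R m t' b → S27IsAdapted W R m t b`;
* **`s27adm_exists_two`**   : `∃ t a b, S27IsAdapted W R n t a ∧ S27IsAdapted W R m t b`;
* **`s27adm_exists_three`** : the same with three pole factors;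
* `s27adm_exists_fam`   : the same for a family of pole orders `n j`, `j : J`.
(the input of helper50's `s27ada_latBasis_sub` / `s27ada_isIdx_sub`, S27/AdaptedAlg.lean.)
-/
import Fermat.Agent.S27.AdaptedAlg

set_option autoImplicit false
set_option linter.unusedSectionVars false

namespace Fermat.Agent.S27

open AlgebraicCurve

universe u v w

variable {K : Type u} {F : Type v} [Field K] [Field F] [Algebra K F]
variable {𝔏 : Type w} [Field 𝔏] [Algebra K 𝔏]

section Mix

variable {ι : Type*} {W : ValuationSubring 𝔏} {R : ι → F →ₐ[K] 𝔏} {n m : Place K F → ℤ}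
  {t t' a b : F}

/-- the coordinate of one adapted pair serves every pole factor. -/
theorem s27adm_mix (h : S27IsAdapted W R n t a) (h' : S27IsAdapted W R m t' b) :
    S27IsAdapted W R m t b :=
  ⟨h'.1, h.2.1, h.2.2.1, fun i Q hQ => ⟨(h.2.2.2.1 i Q hQ).1, (h'.2.2.2.1 i Q hQ).2⟩,
    h.2.2.2.2⟩

end Mix

section Exists

variable [IsAlgClosed K] [CharZero K] [IsCurveOver K F] [Algebra.EssFiniteType K F]

/-- **two pole factors, one coordinate.** -/
theorem s27adm_exists_two {ι : Type*} [Finite ι] (W : ValuationSubring 𝔏)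
    (hW : ∀ c : K, algebraMap K 𝔏 c ∈ W) (R : ι → F →ₐ[K] 𝔏) (n m : Place K F → ℤ) :
    ∃ t a b : F, S27IsAdapted W R n t a ∧ S27IsAdapted W R m t b := by
  obtain ⟨t, a, h⟩ := s27adex_exists_isCurveOver W hW R n
  obtain ⟨t', b, h'⟩ := s27adex_exists_isCurveOver W hW R m
  exact ⟨t, a, b, h, s27adm_mix h h'⟩

/-- **three pole factors, one coordinate.** -/
theorem s27adm_exists_three {ι : Type*} [Finite ι] (W : ValuationSubring 𝔏)
    (hW : ∀ c : K, algebraMap K 𝔏 c ∈ W) (R : ι → F →ₐ[K] 𝔏) (n m l : Place K F → ℤ) :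
    ∃ t a b c : F, S27IsAdapted W R n t a ∧ S27IsAdapted W R m t b ∧
      S27IsAdapted W R l t c := by
  obtain ⟨t, a, h⟩ := s27adex_exists_isCurveOver W hW R n
  obtain ⟨t', b, h'⟩ := s27adex_exists_isCurveOver W hW R m
  obtain ⟨t'', c, h''⟩ := s27adex_exists_isCurveOver W hW R l
  exact ⟨t, a, b, c, h, s27adm_mix h h', s27adm_mix h h''⟩

/-- **a family of pole factors, one coordinate.** -/
theorem s27adm_exists_fam {ι : Type*} [Finite ι] (W : ValuationSubring 𝔏)
    (hW : ∀ c : K, algebraMap K 𝔏 c ∈ W) (R : ι → F →ₐ[K] 𝔏) {J : Type*}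
    (n : J → Place K F → ℤ) :
    ∃ (t : F) (a : J → F), ∀ j, S27IsAdapted W R (n j) t (a j) := by
  obtain ⟨t, a₀, h⟩ := s27adex_exists_isCurveOver W hW R (fun _ => 0)
  choose t' a ha using fun j => s27adex_exists_isCurveOver W hW R (n j)
  exact ⟨t, a, fun j => s27adm_mix h (ha j)⟩

end Exists

end Fermat.Agent.S27
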