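/-
S27-B, piece **G1-ABS** (helper36): the FORMAL half of (G1) / (GEN) for the filtration
`L m = s27L K b m` of a valuative frame, from **(ALG)**: elements `u : Fin g → 𝔉`, algebraically
independent over `K`, with `u j ∈ L c₀`, and `b` effective (`b_mem`).

* `s27g1a_growth_lower` : `m ^ g ≤ (c₀ * g + 1) ^ g * finrank K (L m)`     (lower half of `growth`)
* `s27g1aUnion`         : `⋃_c L c` as a `K`-subalgebra of `𝔉`
* `s27g1a_mem_of_monic_root` : a root of a monic polynomial with coefficients in `L c` is in `L c`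
* `s27g1a_isIntegral_mem`    : `⋃_c L c` is integrally closed in `𝔉`
* `s27g1a_gen_of_isAlgebraic`, `s27g1a_gen_of_adjoin`, `s27g1a_gen_of_transcendenceBasis` :
  (GEN) of the frame as soon as `𝔉` is algebraic over `K[u]`, `u j ∈ ⋃ L`.
* `s27g1a_main` : both, from a transcendence basis inside `L c₀`.

Mathlib + `S27/Plan.lean` + `S27/Reduce.lean` (`s27L_mono`, `s27L_mul`) only.
-/
import Fermat.Agent.S27.Reduce

set_option autoImplicit false

noncomputable section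

namespace Fermat.Agent.S27

open Polynomial

universe w

section Basic

variable {K : Type w} [Field K] {𝔉 : Type w} [Field 𝔉] [Algebra K 𝔉]
variable (b : ValuationSubring 𝔉 → 𝔉)

/-- `1 ∈ L m` for an effective `b`. -/
theorem s27g1a_one_mem (hb : ∀ V, S27IsKVal K V → b V ∈ V) (m : ℕ) :
    (1 : 𝔉) ∈ s27L K b m := by
  intro V hV
  rw [one_mul]
  exact V.pow_mem (hb V hV) m

/-- `x ∈ L c ⇒ x ^ k ∈ L (c k)`. -/
theorem s27g1a_pow_mem (c : ℕ) (x : 𝔉) (hx : x ∈ s27L K b c) (k : ℕ) :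
    x ^ k ∈ s27L K b (c * k) := by
  intro V hV
  have h := V.pow_mem (hx V hV) k
  rwa [mul_pow, ← pow_mul] at h

/-- `x i ∈ L (a i) ⇒ ∏ x i ∈ L (∑ a i)`. -/
theorem s27g1a_prod_mem {ι : Type*} (s : Finset ι) (x : ι → 𝔉) (a : ι → ℕ)
    (hx : ∀ i ∈ s, x i ∈ s27L K b (a i)) : ∏ i ∈ s, x i ∈ s27L K b (∑ i ∈ s, a i) := by
  classical
  induction s using Finset.induction_on with
  | empty =>
    intro V _
    simp [V.one_mem]
  | insert i s hi ih =>
    rw [Finset.prod_insert hi, Finset.sum_insert hi]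
    exact s27L_mul b _ _ _ _ (hx i (Finset.mem_insert_self i s))
      (ih fun j hj => hx j (Finset.mem_insert_of_mem hj))

/-- Monomials of multidegree `≤ q` in `u j ∈ L c₀` lie in `L m` as soon as `c₀ g q ≤ m`. -/
theorem s27g1a_monomial_mem (hb : ∀ V, S27IsKVal K V → b V ∈ V) {g : ℕ} (u : Fin g → 𝔉)
    (c₀ : ℕ) (huL : ∀ j, u j ∈ s27L K b c₀) (α : Fin g → ℕ) (q : ℕ) (hα : ∀ j, α j ≤ q)
    (m : ℕ) (hm : c₀ * (g * q) ≤ m) : ∏ j, u j ^ α j ∈ s27L K b m := by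
  have h1 : ∏ j, u j ^ α j ∈ s27L K b (∑ j : Fin g, c₀ * α j) :=
    s27g1a_prod_mem b Finset.univ _ _ (fun j _ => s27g1a_pow_mem b c₀ (u j) (huL j) (α j))
  have h2 : ∑ j : Fin g, c₀ * α j ≤ m := by
    calc ∑ j : Fin g, c₀ * α j ≤ ∑ _j : Fin g, c₀ * q :=
          Finset.sum_le_sum (fun j _ => Nat.mul_le_mul_left _ (hα j))
      _ = c₀ * (g * q) := by
          rw [Finset.sum_const, Finset.card_univ, Fintype.card_fin, smul_eq_mul]; ring
      _ ≤ m := hm
  exact s27L_mono b hb h2 h1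

/-- The monomials of multidegree `≤ q` in algebraically independent elements are linearly
independent. -/
theorem s27g1a_linearIndependent {g : ℕ} (u : Fin g → 𝔉) (hu : AlgebraicIndependent K u)
    (q : ℕ) :
    LinearIndependent K (fun α : Fin g → Fin (q + 1) => ∏ j, u j ^ (α j : ℕ)) := by
  have h1 : LinearIndependent K (fun s : Fin g →₀ ℕ => (MvPolynomial.monomial s (1 : K))) := by
    have h := (MvPolynomial.basisMonomials (Fin g) K).linearIndependent
    rw [MvPolynomial.coe_basisMonomials] at h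
    exact h
  let e : (Fin g → Fin (q + 1)) → (Fin g →₀ ℕ) :=
    fun α => Finsupp.equivFunOnFinite.symm (fun j => ((α j : ℕ)))
  have he : Function.Injective e := by
    intro α β h
    funext j
    have h' := congrArg (fun s : Fin g →₀ ℕ => s j) h
    exact Fin.ext (by simpa [e] using h')
  have h2 := h1.comp e he
  have h3 := h2.map' (MvPolynomial.aeval u : MvPolynomial (Fin g) K →ₐ[K] 𝔉).toLinearMap
    (LinearMap.ker_eq_bot.mpr hu)
  have h4 : (fun α : Fin g → Fin (q + 1) => ∏ j, u j ^ (α j : ℕ)) =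
      (⇑(MvPolynomial.aeval u : MvPolynomial (Fin g) K →ₐ[K] 𝔉).toLinearMap ∘
        (fun s => MvPolynomial.monomial s (1 : K)) ∘ e) := by
    funext α
    simp [e, MvPolynomial.aeval_monomial, Finsupp.prod_fintype]
  rw [h4]
  exact h3

/-- **(G1), lower half**: `m ^ g ≤ (c₀ g + 1) ^ g · dim L m`. -/
theorem s27g1a_growth_lower (hb : ∀ V, S27IsKVal K V → b V ∈ V) {g : ℕ} (u : Fin g → 𝔉)
    (hu : AlgebraicIndependent K u) (c₀ : ℕ) (huL : ∀ j, u j ∈ s27L K b c₀) (m : ℕ)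
    [Module.Finite K (s27L K b m)] :
    m ^ g ≤ (c₀ * g + 1) ^ g * Module.finrank K (s27L K b m) := by
  have hN : 0 < c₀ * g + 1 := Nat.succ_pos _
  have hq : (c₀ * g + 1) * (m / (c₀ * g + 1)) ≤ m := Nat.mul_div_le m _
  have hmem : ∀ α : Fin g → Fin (m / (c₀ * g + 1) + 1),
      ∏ j, u j ^ (α j : ℕ) ∈ s27L K b m := fun α =>
    s27g1a_monomial_mem b hb u c₀ huL _ (m / (c₀ * g + 1))
      (fun j => Nat.lt_succ_iff.mp (α j).isLt) m (by
        calc c₀ * (g * (m / (c₀ * g + 1))) = c₀ * g * (m / (c₀ * g + 1)) := by ring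
          _ ≤ (c₀ * g + 1) * (m / (c₀ * g + 1)) := Nat.mul_le_mul_right _ (Nat.le_succ _)
          _ ≤ m := hq)
  have hli : LinearIndependent K
      (fun α : Fin g → Fin (m / (c₀ * g + 1) + 1) =>
        (⟨∏ j, u j ^ (α j : ℕ), hmem α⟩ : s27L K b m)) := by
    apply LinearIndependent.of_comp (s27L K b m).subtype
    exact s27g1a_linearIndependent u hu _
  have hcard := hli.fintype_card_le_finrank
  rw [Fintype.card_fun, Fintype.card_fin, Fintype.card_fin] at hcard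
  have hlt : m < (c₀ * g + 1) * (m / (c₀ * g + 1) + 1) := Nat.lt_mul_div_succ m hN
  calc m ^ g ≤ ((c₀ * g + 1) * (m / (c₀ * g + 1) + 1)) ^ g := Nat.pow_le_pow_left hlt.le g
    _ = (c₀ * g + 1) ^ g * (m / (c₀ * g + 1) + 1) ^ g := mul_pow _ _ _
    _ ≤ (c₀ * g + 1) ^ g * Module.finrank K (s27L K b m) := Nat.mul_le_mul_left _ hcard

/-- `⋃_c L c` as a `K`-subalgebra of `𝔉` (for effective `b`). -/
def s27g1aUnion (K : Type w) [Field K] {𝔉 : Type w} [Field 𝔉] [Algebra K 𝔉]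
    (b : ValuationSubring 𝔉 → 𝔉) (hb : ∀ V, S27IsKVal K V → b V ∈ V) : Subalgebra K 𝔉 where
  carrier := {x | ∃ c, x ∈ s27L K b c}
  mul_mem' := by
    rintro x y ⟨a, hx⟩ ⟨c, hy⟩
    exact ⟨a + c, s27L_mul b a c x y hx hy⟩
  one_mem' := ⟨0, s27g1a_one_mem b hb 0⟩
  add_mem' := by
    rintro x y ⟨a, hx⟩ ⟨c, hy⟩
    exact ⟨max a c, (s27L K b _).add_mem (s27L_mono b hb (le_max_left a c) hx)
      (s27L_mono b hb (le_max_right a c) hy)⟩
  zero_mem' := ⟨0, (s27L K b 0).zero_mem⟩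
  algebraMap_mem' := fun r => ⟨0, by
    rw [Algebra.algebraMap_eq_smul_one]
    exact (s27L K b 0).smul_mem r (s27g1a_one_mem b hb 0)⟩

theorem s27g1a_mem_union (hb : ∀ V, S27IsKVal K V → b V ∈ V) (x : 𝔉) :
    x ∈ s27g1aUnion K b hb ↔ ∃ c, x ∈ s27L K b c := Iff.rfl

/-- A root of a monic polynomial with coefficients in `L c` lies in `L c`
(valuation rings are integrally closed; `b` effective). -/
theorem s27g1a_mem_of_monic_root (hb : ∀ V, S27IsKVal K V → b V ∈ V) (P : 𝔉[X]) (hP : P.Monic)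
    (c : ℕ) (hcoeff : ∀ i, P.coeff i ∈ s27L K b c) (y : 𝔉) (hy : P.eval y = 0) :
    y ∈ s27L K b c := by
  intro V hV
  have hβ : b V ^ c ∈ V := V.pow_mem (hb V hV) c
  have hQm : (scaleRoots P (b V ^ c)).Monic := (monic_scaleRoots_iff (b V ^ c)).mpr hP
  have hQr : (scaleRoots P (b V ^ c)).eval (b V ^ c * y) = 0 := by
    have h := scaleRoots_eval₂_eq_zero (RingHom.id 𝔉) (p := P) (r := y) (s := b V ^ c)
      (by simpa [eval₂_id] using hy)
    simpa [eval₂_id] using h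
  have hQc : ∀ i, (scaleRoots P (b V ^ c)).coeff i ∈ V := by
    intro i
    rw [coeff_scaleRoots]
    rcases lt_trichotomy i P.natDegree with hi | hi | hi
    · have h1 : P.coeff i * b V ^ c ∈ V := hcoeff i V hV
      have h2 : P.coeff i * (b V ^ c) ^ (P.natDegree - i) =
          P.coeff i * b V ^ c * (b V ^ c) ^ (P.natDegree - i - 1) := by
        rw [mul_assoc, ← pow_succ']
        congr 2
        omega
      rw [h2]
      exact V.mul_mem _ _ h1 (V.pow_mem hβ _)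
    · rw [hi, Nat.sub_self, pow_zero, mul_one, hP.coeff_natDegree]
      exact V.one_mem
    · rw [coeff_eq_zero_of_natDegree_lt hi, zero_mul]
      exact V.zero_mem
  have hint : IsIntegral V (b V ^ c * y) := by
    have hl : scaleRoots P (b V ^ c) ∈ Polynomial.lifts (algebraMap V 𝔉) := by
      rw [lifts_iff_coeff_lifts]
      intro i
      exact ⟨⟨_, hQc i⟩, rfl⟩
    obtain ⟨q, hq, -, hqm⟩ := lifts_and_degree_eq_and_monic hl hQm
    refine ⟨q, hqm, ?_⟩
    rw [← eval_map, hq]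
    exact hQr
  obtain ⟨z, hz⟩ := (IsIntegrallyClosed.isIntegral_iff (R := V) (K := 𝔉)).mp hint
  rw [mul_comm, ← hz]
  exact z.2

/-- `⋃_c L c` is integrally closed in `𝔉`. -/
theorem s27g1a_isIntegral_mem (hb : ∀ V, S27IsKVal K V → b V ∈ V) (y : 𝔉)
    (hy : IsIntegral (s27g1aUnion K b hb) y) : y ∈ s27g1aUnion K b hb := by
  obtain ⟨p, hpm, hpy⟩ := hy
  have hPm : (p.map (algebraMap (s27g1aUnion K b hb) 𝔉)).Monic := hpm.map _
  have hPy : (p.map (algebraMap (s27g1aUnion K b hb) 𝔉)).eval y = 0 := by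
    rw [eval_map]
    exact hpy
  have hc : ∃ c, ∀ i, (p.map (algebraMap (s27g1aUnion K b hb) 𝔉)).coeff i ∈ s27L K b c := by
    choose cf hcf using fun i : ℕ => (p.coeff i).2
    refine ⟨(Finset.range (p.natDegree + 1)).sup cf, fun i => ?_⟩
    rw [coeff_map]
    by_cases hi : i ∈ Finset.range (p.natDegree + 1)
    · exact s27L_mono b hb (Finset.le_sup hi) (hcf i)
    · have h0 : p.coeff i = 0 :=
        coeff_eq_zero_of_natDegree_lt (by simpa [Finset.mem_range, Nat.lt_succ_iff] using hi)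
      rw [h0, map_zero]
      exact Submodule.zero_mem _
  obtain ⟨c, hc⟩ := hc
  exact ⟨c, s27g1a_mem_of_monic_root b hb _ hPm c hc y hPy⟩

/-- **(GEN)** as soon as `𝔉` is algebraic over `⋃_c L c`. -/
theorem s27g1a_gen_of_isAlgebraic (hb : ∀ V, S27IsKVal K V → b V ∈ V)
    (h : ∀ x : 𝔉, IsAlgebraic (s27g1aUnion K b hb) x) :
    ∀ x : 𝔉, ∃ c, ∃ a ∈ s27L K b c, ∃ e ∈ s27L K b c, e ≠ 0 ∧ x * e = a := by
  intro x
  obtain ⟨y, hy0, hint⟩ := (h x).exists_integral_multiple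
  obtain ⟨c₁, h1⟩ := s27g1a_isIntegral_mem b hb _ hint
  obtain ⟨c₂, h2⟩ := y.2
  refine ⟨max c₁ c₂, y • x, s27L_mono b hb (le_max_left _ _) h1, (y : 𝔉),
    s27L_mono b hb (le_max_right _ _) h2, ?_, ?_⟩
  · exact fun h0 => hy0 (Subtype.ext h0)
  · rw [mul_comm]
    rfl

/-- **(GEN)** as soon as `𝔉` is algebraic over `K[S]` for a set `S ⊆ ⋃_c L c`. -/
theorem s27g1a_gen_of_adjoin (hb : ∀ V, S27IsKVal K V → b V ∈ V) (S : Set 𝔉)
    (hS : ∀ s ∈ S, ∃ c, s ∈ s27L K b c) (h : Algebra.IsAlgebraic (Algebra.adjoin K S) 𝔉) :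
    ∀ x : 𝔉, ∃ c, ∃ a ∈ s27L K b c, ∃ e ∈ s27L K b c, e ≠ 0 ∧ x * e = a := by
  apply s27g1a_gen_of_isAlgebraic b hb
  intro x
  have hle : Algebra.adjoin K S ≤ s27g1aUnion K b hb := Algebra.adjoin_le hS
  obtain ⟨p, hp0, hpx⟩ := h.isAlgebraic x
  refine ⟨p.map (Subalgebra.inclusion hle).toRingHom, ?_, ?_⟩
  · exact (Polynomial.map_ne_zero_iff (Subalgebra.inclusion_injective hle)).mpr hp0
  · rw [aeval_def, eval₂_map]
    rw [aeval_def] at hpx
    exact hpx

/-- **(GEN)** from a transcendence basis inside `⋃_c L c`. -/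
theorem s27g1a_gen_of_transcendenceBasis (hb : ∀ V, S27IsKVal K V → b V ∈ V) {ι : Type*}
    (u : ι → 𝔉) (hu : IsTranscendenceBasis K u) (huL : ∀ j, ∃ c, u j ∈ s27L K b c) :
    ∀ x : 𝔉, ∃ c, ∃ a ∈ s27L K b c, ∃ e ∈ s27L K b c, e ≠ 0 ∧ x * e = a :=
  s27g1a_gen_of_adjoin b hb (Set.range u) (by rintro _ ⟨j, rfl⟩; exact huL j) hu.isAlgebraic

/-- **G1-ABS**: a transcendence basis `u : Fin g → 𝔉` inside `L c₀` gives the lower half of
`growth` (with the explicit constant `(c₀ g + 1) ^ g`) and `gen`. -/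
theorem s27g1a_main (hb : ∀ V, S27IsKVal K V → b V ∈ V) {g : ℕ} (u : Fin g → 𝔉)
    (hu : IsTranscendenceBasis K u) (c₀ : ℕ) (huL : ∀ j, u j ∈ s27L K b c₀)
    (hfin : ∀ m, Module.Finite K (s27L K b m)) :
    (∀ m, m ^ g ≤ (c₀ * g + 1) ^ g * Module.finrank K (s27L K b m)) ∧
      ∀ x : 𝔉, ∃ c, ∃ a ∈ s27L K b c, ∃ e ∈ s27L K b c, e ≠ 0 ∧ x * e = a :=
  ⟨fun m => haveI := hfin m; s27g1a_growth_lower b hb u hu.1 c₀ huL m,
    s27g1a_gen_of_transcendenceBasis b hb u hu (fun j => ⟨c₀, huL j⟩)⟩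

end Basic

end Fermat.Agent.S27

end
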