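/-
S27-B, piece **G7 (ALG), model half** (helper24): transcendence bases of the function fields
`Ω_g = K(C^g)` (`s27gfOm`) and `𝔉 = K(Sym^g C)` (`s27gfSym`), and the wrapper which turns the
POINTWISE bound of the local equation into the input of helper36's `s27g1a_main`.

Setting: `K` algebraically closed, `F / K` a field, `t : F` transcendental over `K` with `F`
algebraic over `K(t)` (helper39's TD1 gives such a `t` for every curve).

* `s27atb_exists_emb`            : an embedding `F → M` (`M` algebraically closed) with `t ↦ T`,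
                                   `T` any transcendental element.
* `s27atb_iota_algebraicIndependent` : the coordinates `x_i = ι_i t` are algebraically independent.
* `s27atb_iota_isTranscendenceBasis` : `(x_i)` is a transcendence basis of `Ω_g / K`.
* `s27atb_trdeg_om`, `s27atb_trdeg_sym` : `trdeg_K Ω_g = trdeg_K 𝔉 = g`.
* `s27atb_isTranscendenceBasis_of_algebraicIndependent` : ANY `g` algebraically independent
                                   elements of `𝔉` are a transcendence basis of `𝔉 / K`.
* `s27atbE x j`                  : the `j`-th elementary symmetric function of a family `x`;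
  `s27atbU t j : 𝔉`              : `e_{j+1}(ι_1 t, …, ι_g t)` as an element of `𝔉`, `j : Fin g`.
* `s27atb_isTranscendenceBasis`  : `(s27atbU t j)_j` is a transcendence basis of `𝔉 / K`.
* `s27atb_grow`                  : helper36's `s27g1a_main` in the hetero-universe form (`s27LU`).
* `s27atb_esymm_mem`             : (ALG) from the pointwise bound, model free.
* `s27atb_main`                  : the lower half of `growth` and `gen` of `S27IsGrow` for
                                   `𝔉 = s27gfSym K F g` from the pointwise bound.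
-/
import Mathlib
import Fermat.Agent.S27.GenFieldGal
import Fermat.Agent.S27.G1Abs
import Fermat.Agent.S27.Lift

set_option autoImplicit false
set_option linter.unusedVariables false
set_option linter.unusedSectionVars false
set_option linter.style.haveILetI false

noncomputable section

namespace Fermat.Agent.S27

open Polynomial IntermediateField

universe u v w

/-! ### Embeddings with a prescribed value at `t` -/

section Emb

variable {K : Type u} {F : Type v} [Field K] [Field F] [Algebra K F]

/-- an embedding of `F` into an algebraically closed field with a prescribed (transcendental)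
value at the transcendental element `t` (`F` algebraic over `K(t)`). -/
theorem s27atb_exists_emb (t : F) (ht : Transcendental K t) [Algebra.IsAlgebraic K⟮t⟯ F]
    {M : Type w} [Field M] [Algebra K M] [IsAlgClosed M] (T : M) (hT : Transcendental K T) :
    ∃ j : F →ₐ[K] M, j t = T := by
  let e₁ : RatFunc K ≃ₐ[K] K⟮t⟯ := RatFunc.algEquivOfTranscendental t ht
  let e₂ : RatFunc K ≃ₐ[K] K⟮T⟯ := RatFunc.algEquivOfTranscendental T hT
  let ψ : K⟮t⟯ →ₐ[K] M :=
    (K⟮T⟯.val).comp ((e₂ : RatFunc K →ₐ[K] K⟮T⟯).comp (e₁.symm : K⟮t⟯ →ₐ[K] RatFunc K))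
  have hψ : ψ (AdjoinSimple.gen K t) = T := by
    show (K⟮T⟯.val) (e₂ (e₁.symm (AdjoinSimple.gen K t))) = T
    rw [RatFunc.algEquivOfTranscendental_symm_gen]
    have h := RatFunc.algEquivOfTranscendental_X T hT
    exact h
  letI : Algebra K⟮t⟯ M := ψ.toRingHom.toAlgebra
  haveI : IsScalarTower K K⟮t⟯ M :=
    IsScalarTower.of_algebraMap_eq fun c => (ψ.commutes c).symm
  let l : F →ₐ[K⟮t⟯] M := IsAlgClosed.lift
  refine ⟨l.restrictScalars K, ?_⟩
  have h1 : l (algebraMap K⟮t⟯ F (AdjoinSimple.gen K t)) =
      algebraMap K⟮t⟯ M (AdjoinSimple.gen K t) := l.commutes _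
  have h2 : algebraMap K⟮t⟯ F (AdjoinSimple.gen K t) = t := rfl
  rw [h2] at h1
  show l t = T
  rw [h1]
  exact hψ

end Emb

/-! ### Elementary symmetric functions -/

section Esymm

/-- the `j`-th elementary symmetric function of a finite family -/
def s27atbE {A : Type*} [CommRing A] {g : ℕ} (x : Fin g → A) (j : ℕ) : A :=
  ∑ s ∈ Finset.powersetCard j (Finset.univ : Finset (Fin g)), ∏ i ∈ s, x i

theorem s27atbE_eq_aeval (K : Type*) [CommRing K] {A : Type*} [CommRing A] [Algebra K A] {g : ℕ}
    (x : Fin g → A) (j : ℕ) :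
    s27atbE x j = MvPolynomial.aeval x (MvPolynomial.esymm (Fin g) K j) := by
  unfold s27atbE
  rw [MvPolynomial.esymm, map_sum]
  refine Finset.sum_congr rfl fun s _ => ?_
  rw [map_prod]
  refine Finset.prod_congr rfl fun i _ => ?_
  rw [MvPolynomial.aeval_X]

theorem s27atbE_map {A B : Type*} [CommRing A] [CommRing B] (f : A →+* B) {g : ℕ}
    (x : Fin g → A) (j : ℕ) : f (s27atbE x j) = s27atbE (fun i => f (x i)) j := by
  unfold s27atbE
  rw [map_sum]
  refine Finset.sum_congr rfl fun s _ => ?_
  rw [map_prod]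

/-- the elementary symmetric functions are symmetric -/
theorem s27atbE_perm {A : Type*} [CommRing A] {g : ℕ} (x : Fin g → A) (σ : Equiv.Perm (Fin g))
    (j : ℕ) : s27atbE (fun i => x (σ i)) j = s27atbE x j := by
  rw [s27atbE_eq_aeval ℤ, s27atbE_eq_aeval ℤ]
  have h : (fun i => x (σ i)) = x ∘ σ := rfl
  rw [h, ← MvPolynomial.aeval_rename, MvPolynomial.esymm_isSymmetric (Fin g) ℤ j σ]

/-- the elementary symmetric polynomials `e_1, …, e_g` in `g` variables are algebraically
independent (fundamental theorem of symmetric polynomials). -/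
theorem s27atb_esymm_algebraicIndependent (K : Type*) [CommRing K] (g : ℕ) :
    AlgebraicIndependent K (fun i : Fin g => MvPolynomial.esymm (Fin g) K (i + 1)) := by
  intro p q hpq
  apply MvPolynomial.esymmAlgHom_fin_injective K (le_refl g)
  apply Subtype.ext
  rw [MvPolynomial.esymmAlgHom_apply, MvPolynomial.esymmAlgHom_apply]
  exact hpq

/-- the elementary symmetric functions of an algebraically independent family are
algebraically independent. -/
theorem s27atbE_algebraicIndependent {K : Type*} [CommRing K] {A : Type*} [CommRing A]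
    [Algebra K A] {g : ℕ} (x : Fin g → A) (hx : AlgebraicIndependent K x) :
    AlgebraicIndependent K (fun j : Fin g => s27atbE x ((j : ℕ) + 1)) := by
  have h := (s27atb_esymm_algebraicIndependent K g).map' (f := MvPolynomial.aeval x) hx
  have h2 : (fun j : Fin g => s27atbE x ((j : ℕ) + 1)) =
      (MvPolynomial.aeval x) ∘ (fun i : Fin g => MvPolynomial.esymm (Fin g) K (i + 1)) := by
    funext j
    exact s27atbE_eq_aeval K x _
  rw [h2]
  exact h

end Esymm

/-! ### The coordinates are a transcendence basis of `Ω_g` -/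

section Model

variable {K : Type u} {F : Type v} [Field K] [IsAlgClosed K] [Field F] [Algebra K F] {g : ℕ}

/-- the coordinates `ι_i t` are algebraically independent as soon as SOME algebraically closed
field contains `g` algebraically independent elements. -/
theorem s27atb_iota_algebraicIndependent_of (t : F) (ht : Transcendental K t)
    [Algebra.IsAlgebraic K⟮t⟯ F] {M : Type w} [Field M] [Algebra K M] [IsAlgClosed M]
    (T : Fin g → M) (hT : AlgebraicIndependent K T) :
    AlgebraicIndependent K (fun i : Fin g => s27gfIota (K := K) (g := g) i t) := by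
  have hTi : ∀ i, Transcendental K (T i) := fun i => hT.transcendental i
  choose j hj using fun i => s27atb_exists_emb t ht (T i) (hTi i)
  have h1 : AlgebraicIndependent K (fun i : Fin g => s27gfSingle (K := K) (g := g) i t) := by
    apply AlgebraicIndependent.of_comp (s27gfLiftR j)
    have h : (s27gfLiftR j) ∘ (fun i : Fin g => s27gfSingle (K := K) (g := g) i t) = T := by
      funext i
      show s27gfLiftR j (s27gfSingle i t) = T i
      rw [s27gfLiftR_single, hj]
    rw [h]
    exact hT
  exact h1.map' (f := IsScalarTower.toAlgHom K (s27gfR K F g) (s27gfOm K F g))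
    s27gfOm_algebraMap_injective

/-- **the coordinates `ι_i t` are algebraically independent over `K`.** -/
theorem s27atb_iota_algebraicIndependent (t : F) (ht : Transcendental K t)
    [Algebra.IsAlgebraic K⟮t⟯ F] :
    AlgebraicIndependent K (fun i : Fin g => s27gfIota (K := K) (g := g) i t) := by
  let P := MvPolynomial (Fin g) K
  let Q := FractionRing P
  let M := AlgebraicClosure Q
  let T : Fin g → M := fun i => algebraMap Q M (algebraMap P Q (MvPolynomial.X i))
  have hT : AlgebraicIndependent K T := by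
    have h0 := MvPolynomial.algebraicIndependent_X (Fin g) K
    have h1 := h0.map' (f := (IsScalarTower.toAlgHom K Q M).comp (IsScalarTower.toAlgHom K P Q))
      ((algebraMap Q M).injective.comp (IsFractionRing.injective P Q))
    exact h1
  exact s27atb_iota_algebraicIndependent_of t ht T hT

/-- every coordinate `ι_i f` is algebraic over `K[ι_1 t, …, ι_g t]`. -/
theorem s27atb_iota_isAlgebraic (t : F) [Algebra.IsAlgebraic K⟮t⟯ F] (i : Fin g) (f : F) :
    IsAlgebraic (Algebra.adjoin K (Set.range fun i : Fin g => s27gfIota (K := K) (g := g) i t))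
      (s27gfIota (K := K) (g := g) i f) := by
  have h0 : IsAlgebraic K⟮t⟯ f := Algebra.IsAlgebraic.isAlgebraic f
  have h1 : IsAlgebraic (Algebra.adjoin K ({t} : Set F)) f :=
    IntermediateField.isAlgebraic_adjoin_iff.mp h0
  -- the restriction of `ι_i` to `K[t]`
  have hmem : ∀ r : Algebra.adjoin K ({t} : Set F),
      s27gfIota (K := K) (g := g) i (r : F) ∈
        Algebra.adjoin K (Set.range fun i : Fin g => s27gfIota (K := K) (g := g) i t) := by
    rintro ⟨r, hr⟩
    have h2 : (Algebra.adjoin K ({t} : Set F)).map (s27gfIota (K := K) (g := g) i) ≤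
        Algebra.adjoin K (Set.range fun i : Fin g => s27gfIota (K := K) (g := g) i t) := by
      rw [AlgHom.map_adjoin]
      apply Algebra.adjoin_mono
      rintro _ ⟨y, hy, rfl⟩
      rw [Set.mem_singleton_iff] at hy
      subst hy
      exact ⟨i, rfl⟩
    exact h2 ⟨r, hr, rfl⟩
  let f₀ : Algebra.adjoin K ({t} : Set F) →+*
      Algebra.adjoin K (Set.range fun i : Fin g => s27gfIota (K := K) (g := g) i t) :=
    { toFun := fun r => ⟨s27gfIota (K := K) (g := g) i (r : F), hmem r⟩
      map_one' := Subtype.ext (by simp)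
      map_mul' := fun a b => Subtype.ext (by simp)
      map_zero' := Subtype.ext (by simp)
      map_add' := fun a b => Subtype.ext (by simp) }
  refine IsAlgebraic.ringHom_of_comp_eq (R := Algebra.adjoin K ({t} : Set F))
    (S := Algebra.adjoin K (Set.range fun i : Fin g => s27gfIota (K := K) (g := g) i t))
    (A := F) (B := s27gfOm K F g) f₀
    ((s27gfIota (K := K) (g := g) i : F →ₐ[K] s27gfOm K F g) : F →+* s27gfOm K F g) h1 ?_ ?_
  · intro a b hab
    apply Subtype.ext
    have h3 := congrArg Subtype.val hab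
    exact s27gfIota_injective i h3
  · rfl

/-- `Ω_g` is algebraic over `K[ι_1 t, …, ι_g t]`. -/
theorem s27atb_om_isAlgebraic (t : F) [Algebra.IsAlgebraic K⟮t⟯ F] :
    Algebra.IsAlgebraic
      (Algebra.adjoin K (Set.range fun i : Fin g => s27gfIota (K := K) (g := g) i t))
      (s27gfOm K F g) := by
  rw [← IntermediateField.isAlgebraic_adjoin_iff_top]
  set E := IntermediateField.adjoin K
    (Set.range fun i : Fin g => s27gfIota (K := K) (g := g) i t) with hE
  have htop := s27gf_subfield_eq_top (K := K) (F := F) (g := g)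
    (algebraicClosure E (s27gfOm K F g)).toSubfield
    (fun c => by
      have h : algebraMap K (s27gfOm K F g) c = algebraMap E (s27gfOm K F g) (algebraMap K E c) :=
        rfl
      rw [h]
      exact (algebraicClosure E (s27gfOm K F g)).algebraMap_mem _)
    (fun i f => by
      show s27gfIota (K := K) (g := g) i f ∈ algebraicClosure E (s27gfOm K F g)
      rw [mem_algebraicClosure_iff]
      exact IntermediateField.isAlgebraic_adjoin_iff.mpr (s27atb_iota_isAlgebraic t i f))
  constructor
  intro y
  have hy : y ∈ (algebraicClosure E (s27gfOm K F g)).toSubfield := by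
    rw [htop]
    exact Subfield.mem_top y
  exact mem_algebraicClosure_iff.mp hy

/-- **the coordinates `ι_i t` are a transcendence basis of `Ω_g / K`.** -/
theorem s27atb_iota_isTranscendenceBasis (t : F) (ht : Transcendental K t)
    [Algebra.IsAlgebraic K⟮t⟯ F] :
    IsTranscendenceBasis K (fun i : Fin g => s27gfIota (K := K) (g := g) i t) :=
  (s27atb_iota_algebraicIndependent t ht).isTranscendenceBasis_iff_isAlgebraic.mpr
    (s27atb_om_isAlgebraic t)

/-- `trdeg_K Ω_g = g`. -/
theorem s27atb_trdeg_om (t : F) (ht : Transcendental K t) [Algebra.IsAlgebraic K⟮t⟯ F] :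
    Algebra.trdeg K (s27gfOm K F g) = (g : Cardinal) := by
  have h := (s27atb_iota_isTranscendenceBasis (g := g) t ht).lift_cardinalMk_eq_trdeg
  simp only [Cardinal.mk_fin, Cardinal.lift_natCast] at h
  have h2 : Cardinal.lift.{0} (Algebra.trdeg K (s27gfOm K F g)) = (g : Cardinal) := h.symm
  simpa using h2

/-- `trdeg_K 𝔉 = g`. -/
theorem s27atb_trdeg_sym (t : F) (ht : Transcendental K t) [Algebra.IsAlgebraic K⟮t⟯ F] :
    Algebra.trdeg K (s27gfSym K F g) = (g : Cardinal) := by
  haveI := s27gf_isAlgebraic (K := K) (F := F) (g := g)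
  have h1 := trdeg_add_eq K (s27gfSym K F g) (A := s27gfOm K F g)
  rw [trdeg_eq_zero (R := s27gfSym K F g) (A := s27gfOm K F g), add_zero,
    s27atb_trdeg_om t ht] at h1
  exact h1

/-- **any `g` algebraically independent elements of `𝔉` are a transcendence basis of `𝔉 / K`.** -/
theorem s27atb_isTranscendenceBasis_of_algebraicIndependent (t : F) (ht : Transcendental K t)
    [Algebra.IsAlgebraic K⟮t⟯ F] (u : Fin g → s27gfSym K F g) (hu : AlgebraicIndependent K u) :
    IsTranscendenceBasis K u := by
  apply hu.isTranscendenceBasis_of_lift_trdeg_le_of_finite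
  rw [s27atb_trdeg_sym t ht]
  simp

/-- the same for `Ω_g`. -/
theorem s27atb_isTranscendenceBasis_om_of_algebraicIndependent (t : F) (ht : Transcendental K t)
    [Algebra.IsAlgebraic K⟮t⟯ F] (u : Fin g → s27gfOm K F g) (hu : AlgebraicIndependent K u) :
    IsTranscendenceBasis K u := by
  apply hu.isTranscendenceBasis_of_lift_trdeg_le_of_finite
  rw [s27atb_trdeg_om t ht]
  simp

/-! ### The symmetric functions `u_j = e_{j+1}(ι_1 t, …, ι_g t) ∈ 𝔉` -/

theorem s27atbE_iota_mem (t : F) (j : ℕ) :
    s27atbE (fun i : Fin g => s27gfIota (K := K) (g := g) i t) j ∈ s27gfSym K F g := by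
  rw [s27gf_mem_sym]
  intro σ
  rw [← AlgEquiv.coe_ringEquiv, ← RingEquiv.coe_toRingHom, s27atbE_map]
  have h : (fun i : Fin g => ((s27gfPerm (K := K) (F := F) σ : s27gfOm K F g ≃+* s27gfOm K F g) :
      s27gfOm K F g →+* s27gfOm K F g) (s27gfIota (K := K) (g := g) i t)) =
      fun i : Fin g => s27gfIota (K := K) (g := g) (σ i) t := by
    funext i
    exact s27gfPerm_iota σ i t
  rw [h]
  exact s27atbE_perm (fun i : Fin g => s27gfIota (K := K) (g := g) i t) σ j

/-- `u_j = e_{j+1}(ι_1 t, …, ι_g t)` as an element of `𝔉 = K(Sym^g C)` -/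
def s27atbU (t : F) (j : Fin g) : s27gfSym K F g :=
  ⟨s27atbE (fun i : Fin g => s27gfIota (K := K) (g := g) i t) ((j : ℕ) + 1), s27atbE_iota_mem t _⟩

@[simp] theorem s27atbU_coe (t : F) (j : Fin g) :
    ((s27atbU (K := K) (g := g) t j : s27gfSym K F g) : s27gfOm K F g) =
      s27atbE (fun i : Fin g => s27gfIota (K := K) (g := g) i t) ((j : ℕ) + 1) := rfl

theorem s27atbU_algebraMap (t : F) (j : Fin g) :
    algebraMap (s27gfSym K F g) (s27gfOm K F g) (s27atbU (K := K) (g := g) t j) =
      s27atbE (fun i : Fin g => s27gfIota (K := K) (g := g) i t) ((j : ℕ) + 1) := rfl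

theorem s27atbU_algebraicIndependent (t : F) (ht : Transcendental K t)
    [Algebra.IsAlgebraic K⟮t⟯ F] :
    AlgebraicIndependent K (s27atbU (K := K) (g := g) t) := by
  apply AlgebraicIndependent.of_comp ((s27gfSym K F g).val)
  exact s27atbE_algebraicIndependent _ (s27atb_iota_algebraicIndependent t ht)

/-- **(TB)**: the elementary symmetric functions of the coordinates of `t` are a transcendence
basis of `𝔉 = K(Sym^g C)` over `K`. -/
theorem s27atb_isTranscendenceBasis (t : F) (ht : Transcendental K t)
    [Algebra.IsAlgebraic K⟮t⟯ F] :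
    IsTranscendenceBasis K (s27atbU (K := K) (g := g) t) :=
  s27atb_isTranscendenceBasis_of_algebraicIndependent t ht _
    (s27atbU_algebraicIndependent t ht)

end Model

/-! ### G1-ABS in the hetero-universe form -/

section Grow

variable {K : Type u} [Field K] {𝔉 : Type w} [Field 𝔉] [Algebra K 𝔉]

/-- a transcendence basis over `K` is a transcendence basis over the prime copy `⊥` of `K`. -/
theorem s27atb_isTranscendenceBasis_bot {ι : Type*} (u : ι → 𝔉)
    (hu : IsTranscendenceBasis K u) :
    IsTranscendenceBasis (⊥ : IntermediateField K 𝔉) u := by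
  haveI : Algebra.IsAlgebraic K (⊥ : IntermediateField K 𝔉) := by
    constructor
    rintro ⟨a, ha⟩
    obtain ⟨c, rfl⟩ := IntermediateField.mem_bot.1 ha
    have h : (⟨algebraMap K 𝔉 c, ha⟩ : (⊥ : IntermediateField K 𝔉)) =
        algebraMap K (⊥ : IntermediateField K 𝔉) c := rfl
    rw [h]
    exact isAlgebraic_algebraMap c
  exact (Algebra.IsAlgebraic.isTranscendenceBasis_iff K (⊥ : IntermediateField K 𝔉)).mp hu

/-- **G1-ABS, hetero-universe form** (helper36's `s27g1a_main` for `s27LU`): a transcendence
basis `u : Fin g → 𝔉` inside `L c₀` gives the lower half of `growth` and `gen` of `S27IsGrow`. -/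
theorem s27atb_grow (b : ValuationSubring 𝔉 → 𝔉) (hb : ∀ V, S27IsKValU K V → b V ∈ V) {g : ℕ}
    (u : Fin g → 𝔉) (hu : IsTranscendenceBasis K u) (c₀ : ℕ) (huL : ∀ j, u j ∈ s27LU K b c₀)
    (hfin : ∀ m, Module.Finite K (s27LU K b m)) :
    (∀ m, m ^ g ≤ (c₀ * g + 1) ^ g * Module.finrank K (s27LU K b m)) ∧
      ∀ x : 𝔉, ∃ c, ∃ a ∈ s27LU K b c, ∃ e ∈ s27LU K b c, e ≠ 0 ∧ x * e = a := by
  have h := s27g1a_main (K := (⊥ : IntermediateField K 𝔉)) b
    (fun V hV => hb V ((s27lift_isKVal_iff V).1 hV)) u (s27atb_isTranscendenceBasis_bot u hu) c₀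
    (fun j => (s27lift_mem_iff b c₀ (u j)).2 (huL j))
    (fun m => s27lift_finite b m (hfin m))
  refine ⟨fun m => ?_, fun x => ?_⟩
  · have h1 := h.1 m
    rwa [s27lift_finrank] at h1
  · obtain ⟨c, a, ha, e, he, hne, hxe⟩ := h.2 x
    exact ⟨c, a, (s27lift_mem_iff b c a).1 ha, e, (s27lift_mem_iff b c e).1 he, hne, hxe⟩

/-- **(ALG) from the pointwise bound** (model free).  `Ω / 𝔉` a field extension, `x : Fin g → Ω`.
If for every valuation subring `V ⊇ K` of `𝔉` there are a valuation subring `W` of `Ω` with
`W ∩ 𝔉 ⊆ V` and elements `y i ∈ W` ("the pole factor of `x i` along `W`") with `x i * y i ∈ W`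
such that `∏ y i` divides `(b V) ^ c₀` in `W`, then every element of `𝔉` which is an elementary
symmetric function of `x` lies in `L c₀`. -/
theorem s27atb_esymm_mem {Ω : Type*} [Field Ω] [Algebra 𝔉 Ω] (b : ValuationSubring 𝔉 → 𝔉) {g : ℕ}
    (x : Fin g → Ω) (c₀ : ℕ)
    (hpt : ∀ V : ValuationSubring 𝔉, S27IsKValU K V → ∃ W : ValuationSubring Ω,
      (∀ z : 𝔉, algebraMap 𝔉 Ω z ∈ W → z ∈ V) ∧ ∃ y : Fin g → Ω, (∀ i, y i ∈ W) ∧
        (∀ i, x i * y i ∈ W) ∧ ∃ w ∈ W, algebraMap 𝔉 Ω (b V) ^ c₀ = w * ∏ i, y i)
    (j : ℕ) (uj : 𝔉) (huj : algebraMap 𝔉 Ω uj = s27atbE x j) : uj ∈ s27LU K b c₀ := by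
  classical
  intro V hV
  obtain ⟨W, hWV, y, hy, hxy, w, hw, hbw⟩ := hpt V hV
  apply hWV
  rw [map_mul, map_pow, huj, hbw]
  have key : s27atbE x j * (w * ∏ i, y i) =
      w * ∑ s ∈ Finset.powersetCard j (Finset.univ : Finset (Fin g)),
        (∏ i ∈ s, x i * y i) * ∏ i ∈ sᶜ, y i := by
    unfold s27atbE
    rw [mul_left_comm, Finset.sum_mul]
    congr 1
    refine Finset.sum_congr rfl fun s _ => ?_
    rw [← Finset.prod_mul_prod_compl s y, Finset.prod_mul_distrib, mul_assoc]
  rw [key]
  refine W.mul_mem _ _ hw (W.toSubring.sum_mem fun s _ => ?_)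
  exact W.mul_mem _ _ (W.toSubring.prod_mem fun i _ => hxy i) (W.toSubring.prod_mem fun i _ => hy i)

end Grow

/-! ### The model: growth (lower half) and generation from the pointwise bound -/

section Main

variable {K : Type u} {F : Type v} [Field K] [IsAlgClosed K] [Field F] [Algebra K F] {g : ℕ}

/-- **G7 (ALG)**: for `𝔉 = s27gfSym K F g`, an effective family of local equations `b` with the
pointwise bound against the coordinates `ι_i t` has `m^g ≤ C · dim L(m)` and `Frac(⋃ L) = 𝔉`. -/
theorem s27atb_main (t : F) (ht : Transcendental K t) [Algebra.IsAlgebraic K⟮t⟯ F]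
    (b : ValuationSubring (s27gfSym K F g) → s27gfSym K F g)
    (hb : ∀ V, S27IsKValU K V → b V ∈ V) (c₀ : ℕ)
    (hpt : ∀ V : ValuationSubring (s27gfSym K F g), S27IsKValU K V →
      ∃ W : ValuationSubring (s27gfOm K F g),
        (∀ z : s27gfSym K F g, algebraMap (s27gfSym K F g) (s27gfOm K F g) z ∈ W → z ∈ V) ∧
        ∃ y : Fin g → s27gfOm K F g, (∀ i, y i ∈ W) ∧
          (∀ i, s27gfIota (K := K) (g := g) i t * y i ∈ W) ∧
          ∃ w ∈ W, algebraMap (s27gfSym K F g) (s27gfOm K F g) (b V) ^ c₀ = w * ∏ i, y i)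
    (hfin : ∀ m, Module.Finite K (s27LU K b m)) :
    (∀ m, m ^ g ≤ (c₀ * g + 1) ^ g * Module.finrank K (s27LU K b m)) ∧
      ∀ x : s27gfSym K F g, ∃ c, ∃ a ∈ s27LU K b c, ∃ e ∈ s27LU K b c, e ≠ 0 ∧ x * e = a :=
  s27atb_grow b hb (s27atbU (K := K) (g := g) t) (s27atb_isTranscendenceBasis t ht) c₀
    (fun j => s27atb_esymm_mem b (fun i : Fin g => s27gfIota (K := K) (g := g) i t) c₀ hpt
      ((j : ℕ) + 1) (s27atbU (K := K) (g := g) t j) (s27atbU_algebraMap t j))
    hfin

end Main

end Fermat.Agent.S27

end
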