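/-
S27 route B (item 27), BETA closed (helper50, glue): the hypothesis `hlat` (LAT-EX) of helper19's
`s27betat_main` (S27/BetaTheta.lean) is discharged by `s27eil_exists` (S27/EffInstLat.lean) at the
generic points `s27betaPt K F g` (pairwise distinct: `s27betas_pt_injective`, S27/BetaSep.lean).

* `s27betal_hlat`     : LAT-EX at the generic points, along every `W ⊇ K`;
* `s27betal_latBasis` : the explicit form, for every adapted pair;
* `s27betal_main`     : **the package BETA, unconditional** (input: a `K`-basis of `L_K(A')`
                        indexed by `Fin g`).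
-/
import Fermat.Agent.S27.BetaSep
import Fermat.Agent.S27.EffInstLat

set_option autoImplicit false
set_option linter.unusedSectionVars false

noncomputable section

namespace Fermat.Agent.S27

open AlgebraicCurve Fermat.Agent.S26

universe u v

variable {K : Type u} {F : Type v} [Field K] [IsAlgClosed K] [Field F] [Algebra K F] {g : ℕ}
  [CharZero K] [IsCurveOver K F] [Algebra.EssFiniteType K F]

/-- the generic points are pairwise distinct (curve case). -/
theorem s27betal_injective : Function.Injective (s27betaPt K F g) := by
  obtain ⟨x, hx, -⟩ := s27td_exists_of_isCurveOver (K := K) (F := F)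
  exact s27betas_pt_injective hx

/-- LAT-EX at the generic points, explicit form. -/
theorem s27betal_latBasis (A' : Divisor K F) (W : ValuationSubring (s27gfOm K F g))
    (hW : ∀ a : K, algebraMap K (s27gfOm K F g) a ∈ W) (t a : F)
    (h : S27IsAdapted W (s27betaPt K F g) (fun Q => -A' Q) t a) :
    S27ptIsLatBasis W (s27betaPt K F g) A' (fun j : Fin g => a * t ^ (j : ℕ)) :=
  s27eil_latBasis W hW (s27betaPt K F g) s27betal_injective A' t a h

/-- **`hlat`**: LAT-EX at the generic points. -/
theorem s27betal_hlat (A' : Divisor K F) (W : ValuationSubring (s27gfOm K F g))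
    (hW : ∀ a : K, algebraMap K (s27gfOm K F g) a ∈ W) :
    ∃ φ : Fin g → F, S27ptIsLatBasis W (s27betaPt K F g) A' φ :=
  s27eil_exists W hW (s27betaPt K F g) s27betal_injective A'

/-- **the package BETA, unconditional.** -/
theorem s27betal_main (A' : Divisor K F)
    (f : Module.Basis (Fin g) K ↥(riemannRochSpace A')) :
    (∀ V, S27IsKValU K V → s27beta (g := g) A' V ≠ 0) ∧
    (∀ V, S27IsKValU K V → s27beta (g := g) A' V ∈ V) ∧
    (∀ W : ValuationSubring (s27gfOm K F g), (∀ a : K, algebraMap K (s27gfOm K F g) a ∈ W) →
      S27ptIsIdx W (s27betaPt K F g) A' (algebraMap (s27gfSym K F g) (s27gfOm K F g)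
        (s27beta A' (W.comap (algebraMap (s27gfSym K F g) (s27gfOm K F g)))))) :=
  s27betat_main A' f (fun W hW => s27betal_hlat A' W hW)

end Fermat.Agent.S27

end
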