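/-
S27 route B, crux LE(b), leaf INT-SURJ (helper61): the CAUCHY BASIS in the frame of S27/Eff.lean.

Setting of `S27/Eff.lean` (helper17): `R` a `V`-algebra, points `e i : R →ₐ[V] V` (`i : Fin N`),
coordinate `π`, `z i = e i π`, (DIV) `e i r = 0 → r ∈ (π − z i) R`.  New: poles `q j ∈ V` with
invertible differences and `ρ j ∈ R` with `(π − q j) · ρ j = 1` (`ρ j = 1/(t − q_j)`).

* `s27cef_span`  : (DIV) ⇒ the vector of values of ANY `φ ∈ R` is a `V`-combination of the vectors
                   of values of `ρ_1, …, ρ_N`  (the Cauchy functions span the lattice of values);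
* `s27cef_span_field` : field form with multipliers `α i` (= `R_i a`), the shape of
                   `S27ptIsLatBasis.span` for the lattice basis `φ_j = a / (t − q_j)`;
* `s27cef_det`   : `det [e i (ρ j)] ~ det (vandermonde z)`.

So `ev_R (L_K(A' + G) ⊗ W)` is the WHOLE lattice of values as soon as `a/(t − q_j) ∈ L_K(A' + G)`
(`j < N`): INT-SURJ without the special fibre.
-/
import Fermat.Agent.S27.EffPoly
import Fermat.Agent.S27.Cauchy

set_option autoImplicit false

noncomputable section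

namespace Fermat.Agent.S27

open Matrix Finset Polynomial

section

variable {V : Type*} [CommRing V] [IsDomain V] {R : Type*} [CommRing R] [Algebra V R]

omit [IsDomain V] in
/-- the values of a Cauchy function: `(z i − q j) · e i (ρ j) = 1`. -/
theorem s27cef_inv {N : ℕ} (e : Fin N → (R →ₐ[V] V)) (π : R) (q : Fin N → V) (ρ : Fin N → R)
    (hρ : ∀ j, (π - algebraMap V R (q j)) * ρ j = 1) (i j : Fin N) :
    (e i π - q j) * e i (ρ j) = 1 := by
  have h := congrArg (e i) (hρ j)
  rw [map_mul, map_sub, AlgHom.commutes, map_one] at h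
  exact h

/-- **the Cauchy functions span the lattice of values.** -/
theorem s27cef_span {N : ℕ} (e : Fin N → (R →ₐ[V] V)) (π : R) (h : S27effDivFin e π)
    (q : Fin N → V) (hq : Function.Injective q)
    (d : Fin N → V) (hd : ∀ j, (∏ l ∈ Finset.univ.erase j, (q j - q l)) * d j = 1)
    (ρ : Fin N → R) (hρ : ∀ j, (π - algebraMap V R (q j)) * ρ j = 1) (φ : R) :
    ∃ c : Fin N → V, ∀ i, e i φ = ∑ j, c j * e i (ρ j) := by
  obtain ⟨p, -, hp⟩ := s27efp_poly e π h φ
  obtain ⟨c, hc⟩ := s27cau_span (fun i => e i π) q (fun i j => e i (ρ j))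
    (fun i j => s27cef_inv e π q ρ hρ i j) d hd hq p
  exact ⟨c, fun i => by rw [hp i, hc i]⟩

/-- **the Cauchy determinant of the values.** -/
theorem s27cef_det {N : ℕ} (e : Fin N → (R →ₐ[V] V)) (π : R)
    (q : Fin N → V) (hq : Function.Injective q)
    (d : Fin N → V) (hd : ∀ j, (∏ l ∈ Finset.univ.erase j, (q j - q l)) * d j = 1)
    (ρ : Fin N → R) (hρ : ∀ j, (π - algebraMap V R (q j)) * ρ j = 1) :
    Associated (Matrix.of fun i j => e i (ρ j)).det (Matrix.vandermonde fun i => e i π).det :=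
  s27cau_det (fun i => e i π) q (fun i j => e i (ρ j))
    (fun i j => s27cef_inv e π q ρ hρ i j) d hd hq

end

/-- **span, field form** (the shape of `S27ptIsLatBasis.span` for `φ_j = a / (t − q_j)`): `W` a
subring of a field `𝔏`, multipliers `α i ∈ 𝔏`. -/
theorem s27cef_span_field {𝔏 : Type*} [Field 𝔏] (W : Subring 𝔏) {R : Type*} [CommRing R]
    [Algebra W R] {N : ℕ} (e : Fin N → (R →ₐ[W] W)) (π : R) (h : S27effDivFin e π)
    (q : Fin N → W) (hq : Function.Injective q)
    (d : Fin N → W) (hd : ∀ j, (∏ l ∈ Finset.univ.erase j, (q j - q l)) * d j = 1)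
    (ρ : Fin N → R) (hρ : ∀ j, (π - algebraMap W R (q j)) * ρ j = 1)
    (α : Fin N → 𝔏) (φ : R) :
    ∃ c : Fin N → 𝔏, (∀ j, c j ∈ W) ∧
      ∀ i, α i * ((e i φ : W) : 𝔏) = ∑ j : Fin N, (α i * ((e i (ρ j) : W) : 𝔏)) * c j := by
  obtain ⟨c, hc⟩ := s27cef_span e π h q hq d hd ρ hρ φ
  refine ⟨fun j => ((c j : W) : 𝔏), fun j => (c j).2, fun i => ?_⟩
  rw [hc i]
  have h1 : ((∑ j : Fin N, c j * e i (ρ j) : W) : 𝔏) =
      ∑ j : Fin N, ((c j : W) : 𝔏) * ((e i (ρ j) : W) : 𝔏) := by
    rw [← Subring.coe_subtype, map_sum]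
    refine sum_congr rfl fun j _ => ?_
    rw [map_mul]
  rw [h1, Finset.mul_sum]
  refine sum_congr rfl fun j _ => ?_
  ring

end Fermat.Agent.S27

end
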