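/-
S27 route B (item 27), piece §1-CV (helper13): the CONFLUENT VANDERMONDE determinant.

For nodes `x : Fin g → R` (any commutative ring) and jet order `N`, the matrix of
"`N`-jets at the `g` nodes" of the monomials `1, X, …, X^(gN-1)`,
  rows `(i, j) ∈ Fin g × Fin N`, columns `l < g N`, entry `binom(l, j) · x_i^(l-j)`
  (= the `j`-th Hasse derivative of `X^l` at `x_i` = the `j`-th Taylor coefficient at `x_i`),
has determinant `∏_{i' < i} (x_i - x_{i'})^(N²)`.

Proof: Newton basis `b_(i,j) = ∏_{i' < i} (X - x_{i'})^N · (X - x_i)^j` (monic of degree `iN + j`,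
so the base change from the monomials has determinant `1`); in this basis the jet matrix is
lower triangular with diagonal entries `∏_{i' < i} (x_i - x_{i'})^N`.

Main results:
* `s27cv_det`       : the determinant of the confluent Vandermonde matrix;
* `s27cv_det_jet`   : for ANY family `p l` of polynomials of degree `< gN`:
                      `det [ (hasseDeriv j (p l))(x_i) ] = ∏ (x_i - x_{i'})^(N²) · det [coeff]`;
* `s27cv_det_jet_monic` : the same for `p l` monic of degree `l` (the determinant is the product);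
* `s27cv_eval_hasseDeriv_eq_zero`, `s27cv_eval_hasseDeriv_pow_mul` : the two jet facts.
-/
import Mathlib

set_option autoImplicit false

namespace Fermat.Agent.S27

open Polynomial Matrix Finset

variable {R : Type*} [CommRing R]

/-- If `(X - a)^(k+1)` divides `p`, the `k`-th Hasse derivative of `p` vanishes at `a`. -/
theorem s27cv_eval_hasseDeriv_eq_zero (a : R) (k : ℕ) (p : R[X])
    (h : (X - C a) ^ (k + 1) ∣ p) : (hasseDeriv k p).eval a = 0 := by
  obtain ⟨q, rfl⟩ := h
  rw [← taylor_coeff, taylor_mul, taylor_pow]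
  have hX : taylor a (X - C a) = X := by
    simp [taylor_apply]
  rw [hX, coeff_X_pow_mul']
  simp

/-- The `k`-th Hasse derivative of `(X - a)^k · c` at `a` is `c(a)`. -/
theorem s27cv_eval_hasseDeriv_pow_mul (a : R) (k : ℕ) (c : R[X]) :
    (hasseDeriv k ((X - C a) ^ k * c)).eval a = c.eval a := by
  rw [← taylor_coeff, taylor_mul, taylor_pow]
  have hX : taylor a (X - C a) = X := by
    simp [taylor_apply]
  rw [hX, coeff_X_pow_mul', if_pos le_rfl, Nat.sub_self, taylor_coeff_zero]

/-- The jet matrix of a family of polynomials at the nodes `x`: row `(i, j)`, column `l`,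
entry `(hasseDeriv j (p l))(x_i)` = the `j`-th Taylor coefficient of `p l` at `x_i`. -/
noncomputable def s27cvJet {g N n : ℕ} (x : Fin g → R) (p : Fin n → R[X]) :
    Matrix (Fin g × Fin N) (Fin n) R :=
  Matrix.of fun q l => (hasseDeriv (q.2 : ℕ) (p l)).eval (x q.1)

/-- The confluent Vandermonde matrix: row `(i, j)`, column `l`, entry `binom(l, j) x_i^(l - j)`. -/
def s27cvMat (g N : ℕ) (x : Fin g → R) : Matrix (Fin g × Fin N) (Fin (g * N)) R :=
  Matrix.of fun q l => (((l : ℕ).choose (q.2 : ℕ) : ℕ) : R) * x q.1 ^ ((l : ℕ) - (q.2 : ℕ))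

/-- Evaluation of a Hasse derivative as a finite sum over the coefficients. -/
theorem s27cv_eval_hasseDeriv_sum (a : R) (k n : ℕ) (p : R[X]) (hp : p.natDegree < n) :
    (hasseDeriv k p).eval a =
      ∑ l : Fin n, (((l : ℕ).choose k : ℕ) : R) * a ^ ((l : ℕ) - k) * p.coeff l := by
  rw [hasseDeriv_apply, Polynomial.sum_over_range' _ (by intro i; simp) n hp, eval_finsetSum,
    ← Fin.sum_univ_eq_sum_range
      (fun l => eval a ((monomial (l - k)) ((((l.choose k : ℕ) : R)) * p.coeff l)))]
  refine Finset.sum_congr rfl fun l _ => ?_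
  rw [eval_monomial]
  ring

/-- The jet matrix is the confluent Vandermonde matrix times the coefficient matrix. -/
theorem s27cv_jet_eq_mul {g N : ℕ} (x : Fin g → R) (p : Fin (g * N) → R[X])
    (hp : ∀ l, (p l).natDegree < g * N) :
    (s27cvJet x p : Matrix (Fin g × Fin N) (Fin (g * N)) R) =
      s27cvMat g N x * Matrix.of fun (i l : Fin (g * N)) => (p l).coeff i := by
  ext q l
  simp only [s27cvJet, s27cvMat, Matrix.mul_apply, Matrix.of_apply]
  exact s27cv_eval_hasseDeriv_sum (x q.1) q.2 (g * N) (p l) (hp l)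

/-- The Newton basis adapted to the nodes `x` with multiplicity `N`:
`b_r = ∏_{i' < i} (X - x_{i'})^N · (X - x_i)^j` for `r = (i, j)`. -/
noncomputable def s27cvNewton {g N : ℕ} (x : Fin g → R) (r : Fin (g * N)) : R[X] :=
  (∏ i' ∈ Finset.Iio (finProdFinEquiv.symm r).1, (X - C (x i')) ^ N) *
    (X - C (x (finProdFinEquiv.symm r).1)) ^ ((finProdFinEquiv.symm r).2 : ℕ)

theorem s27cv_newton_monic {g N : ℕ} (x : Fin g → R) (r : Fin (g * N)) :
    (s27cvNewton x r).Monic := by
  unfold s27cvNewton
  exact (monic_prod_of_monic _ _ fun i _ => (monic_X_sub_C _).pow _).mul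
    ((monic_X_sub_C _).pow _)

theorem s27cv_newton_natDegree [Nontrivial R] {g N : ℕ} (x : Fin g → R) (r : Fin (g * N)) :
    (s27cvNewton x r).natDegree = r := by
  unfold s27cvNewton
  rw [Monic.natDegree_mul (monic_prod_of_monic _ _ fun i _ => (monic_X_sub_C _).pow _)
    ((monic_X_sub_C _).pow _), natDegree_prod_of_monic _ _ fun i _ => (monic_X_sub_C _).pow _]
  simp only [Monic.natDegree_pow (monic_X_sub_C _), natDegree_X_sub_C, mul_one, Finset.sum_const,
    Fin.card_Iio, smul_eq_mul, finProdFinEquiv_symm_apply, Fin.coe_divNat, Fin.coe_modNat]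
  rw [mul_comm]
  exact Nat.div_add_mod _ _

/-- Decoding of the order of `Fin (g * N)` : `r < c` iff `(i_r, j_r) < (i_c, j_c)`
lexicographically. -/
theorem s27cv_lt_cases {g N : ℕ} (r c : Fin (g * N)) (h : r < c) :
    (finProdFinEquiv.symm r).1 < (finProdFinEquiv.symm c).1 ∨
      ((finProdFinEquiv.symm r).1 = (finProdFinEquiv.symm c).1 ∧
        ((finProdFinEquiv.symm r).2 : ℕ) < ((finProdFinEquiv.symm c).2 : ℕ)) := by
  simp only [finProdFinEquiv_symm_apply, Fin.lt_def, Fin.ext_iff, Fin.coe_divNat, Fin.coe_modNat]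
  have h' : (r : ℕ) < c := h
  have hle : (r : ℕ) / N ≤ (c : ℕ) / N := Nat.div_le_div_right h'.le
  rcases hle.lt_or_eq with h1 | h1
  · exact Or.inl h1
  · refine Or.inr ⟨h1, ?_⟩
    have hr := Nat.div_add_mod (r : ℕ) N
    have hc := Nat.div_add_mod (c : ℕ) N
    rw [h1] at hr
    omega

/-- The jet matrix of the Newton basis is lower triangular. -/
theorem s27cv_newton_jet_lower {g N : ℕ} (x : Fin g → R) :
    ((s27cvJet x (s27cvNewton (N := N) x)).submatrix finProdFinEquiv.symm id).IsLowerTriangular := by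
  intro r c hrc
  have hrc' : r < c := hrc
  simp only [Matrix.submatrix_apply, s27cvJet, Matrix.of_apply, id]
  apply s27cv_eval_hasseDeriv_eq_zero
  rcases s27cv_lt_cases r c hrc' with h | ⟨h1, h2⟩
  · -- the node of the row is an earlier node
    unfold s27cvNewton
    refine Dvd.dvd.mul_right ?_ _
    refine Dvd.dvd.trans ?_ (Finset.dvd_prod_of_mem _ (Finset.mem_Iio.2 h))
    exact pow_dvd_pow _ (Nat.succ_le_of_lt (finProdFinEquiv.symm r).2.2)
  · unfold s27cvNewton
    refine Dvd.dvd.mul_left ?_ _
    rw [h1]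
    exact pow_dvd_pow _ (Nat.succ_le_of_lt h2)

/-- The diagonal entries of the jet matrix of the Newton basis. -/
theorem s27cv_newton_jet_diag {g N : ℕ} (x : Fin g → R) (r : Fin (g * N)) :
    ((s27cvJet x (s27cvNewton (N := N) x)).submatrix finProdFinEquiv.symm id) r r =
      ∏ i' ∈ Finset.Iio (finProdFinEquiv.symm r).1, (x (finProdFinEquiv.symm r).1 - x i') ^ N := by
  simp only [Matrix.submatrix_apply, s27cvJet, Matrix.of_apply, id]
  unfold s27cvNewton
  rw [mul_comm (∏ i' ∈ Finset.Iio (finProdFinEquiv.symm r).1, (X - C (x i')) ^ N) _,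
    s27cv_eval_hasseDeriv_pow_mul, eval_prod]
  simp

/-- **Confluent Vandermonde determinant.** -/
theorem s27cv_det (g N : ℕ) (x : Fin g → R) :
    ((s27cvMat g N x).submatrix finProdFinEquiv.symm id).det =
      ∏ i : Fin g, ∏ i' ∈ Finset.Iio i, (x i - x i') ^ (N * N) := by
  nontriviality R
  have hdeg : ∀ l : Fin (g * N), (s27cvNewton (N := N) x l).natDegree < g * N := fun l => by
    rw [s27cv_newton_natDegree]; exact l.2
  have hU : (Matrix.of fun (i l : Fin (g * N)) => (s27cvNewton (N := N) x l).coeff i).det = 1 :=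
    Matrix.det_matrixOfPolynomials _ (fun l => s27cv_newton_natDegree x l)
      (fun l => s27cv_newton_monic x l)
  have hmul : (s27cvJet x (s27cvNewton (N := N) x)).submatrix finProdFinEquiv.symm id =
      (s27cvMat g N x).submatrix finProdFinEquiv.symm id *
        Matrix.of fun (i l : Fin (g * N)) => (s27cvNewton (N := N) x l).coeff i := by
    rw [s27cv_jet_eq_mul x _ hdeg]
    ext r c
    simp [Matrix.mul_apply]
  have hT : ((s27cvJet x (s27cvNewton (N := N) x)).submatrix finProdFinEquiv.symm id).det =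
      ∏ r : Fin (g * N), ∏ i' ∈ Finset.Iio (finProdFinEquiv.symm r).1,
        (x (finProdFinEquiv.symm r).1 - x i') ^ N := by
    rw [Matrix.det_of_isLowerTriangular _ (s27cv_newton_jet_lower (N := N) x)]
    exact Finset.prod_congr rfl fun r _ => s27cv_newton_jet_diag x r
  rw [hmul, Matrix.det_mul, hU, mul_one] at hT
  rw [hT]
  rw [← Equiv.prod_comp finProdFinEquiv, Fintype.prod_prod_type]
  refine Finset.prod_congr rfl fun i _ => ?_
  simp only [Equiv.symm_apply_apply, Finset.prod_const, Finset.card_univ, Fintype.card_fin]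
  rw [← Finset.prod_pow]
  refine Finset.prod_congr rfl fun i' _ => ?_
  rw [pow_mul]

/-- **Confluent Vandermonde for a family of polynomials**: the jet determinant is the confluent
Vandermonde product times the determinant of the coefficient matrix. -/
theorem s27cv_det_jet (g N : ℕ) (x : Fin g → R) (p : Fin (g * N) → R[X])
    (hp : ∀ l, (p l).natDegree < g * N) :
    ((s27cvJet x p : Matrix (Fin g × Fin N) (Fin (g * N)) R).submatrix
        finProdFinEquiv.symm id).det =
      (∏ i : Fin g, ∏ i' ∈ Finset.Iio i, (x i - x i') ^ (N * N)) *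
        (Matrix.of fun (i l : Fin (g * N)) => (p l).coeff i).det := by
  have hmul : (s27cvJet x p : Matrix (Fin g × Fin N) (Fin (g * N)) R).submatrix
      finProdFinEquiv.symm id =
      (s27cvMat g N x).submatrix finProdFinEquiv.symm id *
        Matrix.of fun (i l : Fin (g * N)) => (p l).coeff i := by
    rw [s27cv_jet_eq_mul x _ hp]
    ext r c
    simp [Matrix.mul_apply]
  rw [hmul, Matrix.det_mul, s27cv_det]

/-- The jet determinant of a monic triangular family (`p l` monic of degree `l`). -/
theorem s27cv_det_jet_monic (g N : ℕ) (x : Fin g → R) (p : Fin (g * N) → R[X])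
    (hdeg : ∀ l, (p l).natDegree = l) (hmon : ∀ l, (p l).Monic) :
    ((s27cvJet x p : Matrix (Fin g × Fin N) (Fin (g * N)) R).submatrix
        finProdFinEquiv.symm id).det =
      ∏ i : Fin g, ∏ i' ∈ Finset.Iio i, (x i - x i') ^ (N * N) := by
  rw [s27cv_det_jet g N x p (fun l => by rw [hdeg]; exact l.2),
    Matrix.det_matrixOfPolynomials p hdeg hmon, mul_one]

end Fermat.Agent.S27
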