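/-
S27 route B (item 27), piece §1-CV′ (helper13): the confluent Vandermonde for families of
polynomials of ARBITRARY degree: with `B = ∏_i (X - x_i)^N`,

  `det [ (hasseDeriv j (p l))(x_i) ] = ∏_{i' < i} (x_i - x_{i'})^(N²) · det [ coeff_i (p l %ₘ B) ]`,

in particular the jet determinant of ANY `gN` polynomials at `g` nodes is DIVISIBLE by
`∏_{i' < i} (x_i - x_{i'})^(N²)` (`s27cvd_dvd`).  Applied over a valuation ring `V` this is the
integrality of `W / ∏ (x_i - x_{i'})^(N²)` for polynomial data.
-/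
import Fermat.Agent.S27.ConfVdm

set_option autoImplicit false

namespace Fermat.Agent.S27

open Polynomial Matrix Finset

variable {R : Type*} [CommRing R]

/-- The modulus `∏_i (X - x_i)^N` of the `N`-jets at the nodes `x`. -/
noncomputable def s27cvdMod {g : ℕ} (N : ℕ) (x : Fin g → R) : R[X] :=
  ∏ i, (X - C (x i)) ^ N

theorem s27cvd_mod_monic {g : ℕ} (N : ℕ) (x : Fin g → R) : (s27cvdMod N x).Monic :=
  monic_prod_of_monic _ _ fun _ _ => (monic_X_sub_C _).pow _

theorem s27cvd_mod_natDegree [Nontrivial R] {g : ℕ} (N : ℕ) (x : Fin g → R) :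
    (s27cvdMod N x).natDegree = g * N := by
  unfold s27cvdMod
  rw [natDegree_prod_of_monic _ _ fun _ _ => (monic_X_sub_C _).pow _]
  simp [Monic.natDegree_pow (monic_X_sub_C _)]

/-- Jets of order `< N` at a node do not see multiples of the modulus. -/
theorem s27cvd_jet_mod {g : ℕ} (N : ℕ) (x : Fin g → R) (i : Fin g) (j : ℕ) (hj : j < N)
    (p : R[X]) :
    (hasseDeriv j (p %ₘ s27cvdMod N x)).eval (x i) = (hasseDeriv j p).eval (x i) := by
  have h := modByMonic_add_div p (s27cvdMod N x)
  conv_rhs => rw [← h]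
  rw [map_add, eval_add]
  have hz : (hasseDeriv j (s27cvdMod N x * (p /ₘ s27cvdMod N x))).eval (x i) = 0 := by
    apply s27cv_eval_hasseDeriv_eq_zero
    refine Dvd.dvd.mul_right ?_ _
    refine Dvd.dvd.trans ?_ (Finset.dvd_prod_of_mem _ (Finset.mem_univ i))
    exact pow_dvd_pow _ (Nat.succ_le_of_lt hj)
  rw [hz, add_zero]

/-- **Confluent Vandermonde for arbitrary polynomial families.** -/
theorem s27cvd_det_jet (g N : ℕ) (x : Fin g → R) (p : Fin (g * N) → R[X]) :
    ((s27cvJet x p : Matrix (Fin g × Fin N) (Fin (g * N)) R).submatrix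
        finProdFinEquiv.symm id).det =
      (∏ i : Fin g, ∏ i' ∈ Finset.Iio i, (x i - x i') ^ (N * N)) *
        (Matrix.of fun (i l : Fin (g * N)) => (p l %ₘ s27cvdMod N x).coeff i).det := by
  nontriviality R
  have hjet : (s27cvJet x p : Matrix (Fin g × Fin N) (Fin (g * N)) R) =
      s27cvJet x (fun l => p l %ₘ s27cvdMod N x) := by
    ext q l
    simp only [s27cvJet, Matrix.of_apply]
    exact (s27cvd_jet_mod N x q.1 q.2 q.2.2 (p l)).symm
  rw [hjet]
  rcases Nat.eq_zero_or_pos (g * N) with h0 | hpos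
  · -- empty matrices
    have : IsEmpty (Fin (g * N)) := by rw [h0]; exact Fin.isEmpty
    have hg : ∀ i : Fin g, ∀ i' ∈ Finset.Iio i, (x i - x i') ^ (N * N) = 1 := by
      intro i i' _
      rcases Nat.mul_eq_zero.1 h0 with hg0 | hN0
      · exact absurd i.2 (by omega)
      · simp [hN0]
    rw [Matrix.det_isEmpty, Matrix.det_isEmpty, Finset.prod_eq_one fun i _ =>
      Finset.prod_eq_one (hg i)]
    simp
  · refine s27cv_det_jet g N x _ fun l => ?_
    have := natDegree_modByMonic_lt (p l) (s27cvd_mod_monic N x) (by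
      intro h1
      have h2 := s27cvd_mod_natDegree N x
      rw [h1, natDegree_one] at h2
      omega)
    rwa [s27cvd_mod_natDegree] at this

/-- **Divisibility**: the jet determinant of any `gN` polynomials at `g` nodes is divisible by
the confluent Vandermonde product. -/
theorem s27cvd_dvd (g N : ℕ) (x : Fin g → R) (p : Fin (g * N) → R[X]) :
    (∏ i : Fin g, ∏ i' ∈ Finset.Iio i, (x i - x i') ^ (N * N)) ∣
      ((s27cvJet x p : Matrix (Fin g × Fin N) (Fin (g * N)) R).submatrix
        finProdFinEquiv.symm id).det :=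
  ⟨_, s27cvd_det_jet g N x p⟩

end Fermat.Agent.S27
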