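import Mathlib

/-!
# S27 route B, piece LE-ALG: determinant calculus for maps of free modules

All statements are about a commutative ring `R` (in the application: a valuation ring `V` of
`𝔉 = K(Sym^g C)`, or `𝔉` itself with `V`-lattices), free modules with finite bases indexed by
the same type, and `s27dvDet b c f = det (toMatrix b c f)`.

* `s27dv_det_comp`, `s27dv_det_id`, `s27dv_det_equiv_isUnit`, `s27dv_det_isUnit_iff`,
  `s27dv_det_ne_zero_iff` : multiplicativity, units = isomorphisms, nonzero = injective.
* `s27dv_det_associated`, `s27dv_det_associated'` : independence of the bases up to a unit.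
* `s27dv_det_semilinear` : functoriality for a ring homomorphism `σ : R → S`.
* `s27dv_det_block`, `s27dv_det_exact` : block triangular maps / maps of short exact sequences.
* `s27dv_det_associated_of_coker` : the determinant only depends on the cokernel (Fitting).
* `s27dv_val_*` : the valuation of the determinant only depends on the lattices.
-/

namespace Fermat.Agent.S27

open Module

section basic

variable {R : Type*} [CommRing R]
variable {M N P : Type*} [AddCommGroup M] [Module R M] [AddCommGroup N] [Module R N]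
  [AddCommGroup P] [Module R P]
variable {ι : Type*} [Fintype ι] [DecidableEq ι]

/-- The determinant of a linear map between free modules with bases indexed by the same
finite type. -/
noncomputable def s27dvDet (b : Basis ι R M) (c : Basis ι R N) (f : M →ₗ[R] N) : R :=
  (LinearMap.toMatrix b c f).det

theorem s27dv_det_def (b : Basis ι R M) (c : Basis ι R N) (f : M →ₗ[R] N) :
    s27dvDet b c f = (LinearMap.toMatrix b c f).det := rfl

theorem s27dv_det_comp (b : Basis ι R M) (c : Basis ι R N) (d : Basis ι R P)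
    (g : N →ₗ[R] P) (f : M →ₗ[R] N) :
    s27dvDet b d (g ∘ₗ f) = s27dvDet c d g * s27dvDet b c f := by
  unfold s27dvDet
  rw [LinearMap.toMatrix_comp b c d g f, Matrix.det_mul]

theorem s27dv_det_id (b : Basis ι R M) : s27dvDet b b (LinearMap.id : M →ₗ[R] M) = 1 := by
  unfold s27dvDet
  rw [LinearMap.toMatrix_id, Matrix.det_one]

theorem s27dv_det_equiv_isUnit (b : Basis ι R M) (c : Basis ι R N) (e : M ≃ₗ[R] N) :
    IsUnit (s27dvDet b c (e : M →ₗ[R] N)) :=
  LinearEquiv.isUnit_det e b c

theorem s27dv_det_bijective_of_isUnit (b : Basis ι R M) (c : Basis ι R N) (f : M →ₗ[R] N)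
    (h : IsUnit (s27dvDet b c f)) : Function.Bijective f :=
  (LinearEquiv.ofIsUnitDet (f := f) (v := b) (v' := c) h).bijective

theorem s27dv_det_isUnit_iff (b : Basis ι R M) (c : Basis ι R N) (f : M →ₗ[R] N) :
    IsUnit (s27dvDet b c f) ↔ Function.Bijective f := by
  constructor
  · exact s27dv_det_bijective_of_isUnit b c f
  · intro h
    exact s27dv_det_equiv_isUnit b c (LinearEquiv.ofBijective f h)

/-- Independence of the bases (same index type) up to a unit. -/
theorem s27dv_det_associated (b b' : Basis ι R M) (c c' : Basis ι R N) (f : M →ₗ[R] N) :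
    Associated (s27dvDet b c f) (s27dvDet b' c' f) := by
  have h1 : s27dvDet b' c' f
      = s27dvDet c c' (LinearMap.id : N →ₗ[R] N) *
        (s27dvDet b c f * s27dvDet b' b (LinearMap.id : M →ₗ[R] M)) := by
    rw [← s27dv_det_comp b' b c, ← s27dv_det_comp b' c c']
    rfl
  have u1 : IsUnit (s27dvDet c c' (LinearMap.id : N →ₗ[R] N)) :=
    s27dv_det_equiv_isUnit c c' (LinearEquiv.refl R N)
  have u2 : IsUnit (s27dvDet b' b (LinearMap.id : M →ₗ[R] M)) :=
    s27dv_det_equiv_isUnit b' b (LinearEquiv.refl R M)
  obtain ⟨w1, hw1⟩ := u1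
  obtain ⟨w2, hw2⟩ := u2
  refine ⟨w1 * w2, ?_⟩
  rw [h1, ← hw1, ← hw2]
  push_cast
  ring

theorem s27dv_det_reindex {κ : Type*} [Fintype κ] [DecidableEq κ] (e : ι ≃ κ)
    (b : Basis ι R M) (c : Basis ι R N) (f : M →ₗ[R] N) :
    s27dvDet (b.reindex e) (c.reindex e) f = s27dvDet b c f := by
  unfold s27dvDet
  have : LinearMap.toMatrix (b.reindex e) (c.reindex e) f
      = Matrix.reindex e e (LinearMap.toMatrix b c f) := by
    ext i j
    simp [LinearMap.toMatrix_apply]
  rw [this, Matrix.det_reindex_self]

/-- Independence of the bases (arbitrary finite index types) up to a unit. -/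
theorem s27dv_det_associated' {κ : Type*} [Fintype κ] [DecidableEq κ]
    (b : Basis ι R M) (c : Basis ι R N) (b' : Basis κ R M) (c' : Basis κ R N)
    (f : M →ₗ[R] N) :
    Associated (s27dvDet b c f) (s27dvDet b' c' f) := by
  rcases subsingleton_or_nontrivial R with h | h
  · rw [Subsingleton.elim (s27dvDet b c f) (s27dvDet b' c' f)]
  · have e : ι ≃ κ := Basis.indexEquiv b b'
    rw [← s27dv_det_reindex e b c f]
    exact s27dv_det_associated _ _ _ _ f

theorem s27dv_det_ne_zero_iff [IsDomain R] (b : Basis ι R M) (c : Basis ι R N)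
    (f : M →ₗ[R] N) : s27dvDet b c f ≠ 0 ↔ Function.Injective f := by
  unfold s27dvDet
  rw [Ne, ← Matrix.exists_mulVec_eq_zero_iff, injective_iff_map_eq_zero]
  constructor
  · intro h x hx
    by_contra hne
    apply h
    refine ⟨b.equivFun x, ?_, ?_⟩
    · intro h0
      exact hne (b.equivFun.map_eq_zero_iff.mp h0)
    · have h1 := LinearMap.toMatrix_mulVec_repr b c f x
      rw [hx, map_zero] at h1
      rw [Basis.equivFun_apply, h1]
      rfl
  · rintro h ⟨w, hw, hw0⟩
    apply hw
    have h1 := LinearMap.toMatrix_mulVec_repr b c f (b.equivFun.symm w)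
    have h2 : (⇑(b.repr (b.equivFun.symm w)) : ι → R) = w := by
      rw [← Basis.equivFun_apply, LinearEquiv.apply_symm_apply]
    rw [h2, hw0] at h1
    have h3 : c.equivFun (f (b.equivFun.symm w)) = 0 := by
      rw [Basis.equivFun_apply]
      exact h1.symm
    have hx : f (b.equivFun.symm w) = 0 := c.equivFun.map_eq_zero_iff.mp h3
    exact b.equivFun.symm.map_eq_zero_iff.mp (h _ hx)

end basic

section semilinear

variable {R S : Type*} [CommRing R] [CommRing S] (σ : R →+* S)
variable {M N MS NS : Type*} [AddCommGroup M] [Module R M] [AddCommGroup N] [Module R N]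
  [AddCommGroup MS] [Module S MS] [AddCommGroup NS] [Module S NS]
variable {ι : Type*} [Fintype ι] [DecidableEq ι]

/-- Functoriality in the ring, matrix form: if the matrix of `fS` is the image under `σ`
of the matrix of `f`, the determinants correspond. -/
theorem s27dv_det_map_of_entries (b : Basis ι R M) (c : Basis ι R N)
    (bS : Basis ι S MS) (cS : Basis ι S NS) (f : M →ₗ[R] N) (fS : MS →ₗ[S] NS)
    (h : ∀ i k, cS.repr (fS (bS k)) i = σ (c.repr (f (b k)) i)) :
    s27dvDet bS cS fS = σ (s27dvDet b c f) := by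
  unfold s27dvDet
  rw [RingHom.map_det]
  congr 1
  ext i k
  simp only [LinearMap.toMatrix_apply, RingHom.mapMatrix_apply, Matrix.map_apply]
  exact h i k

/-- Functoriality in the ring: `σ`-semilinear comparison maps carrying bases to bases and
intertwining `f` with `fS`. -/
theorem s27dv_det_semilinear (b : Basis ι R M) (c : Basis ι R N)
    (bS : Basis ι S MS) (cS : Basis ι S NS)
    (jM : M →ₛₗ[σ] MS) (jN : N →ₛₗ[σ] NS)
    (hb : ∀ i, jM (b i) = bS i) (hc : ∀ i, jN (c i) = cS i)
    (f : M →ₗ[R] N) (fS : MS →ₗ[S] NS) (hf : ∀ x, fS (jM x) = jN (f x)) :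
    s27dvDet bS cS fS = σ (s27dvDet b c f) := by
  apply s27dv_det_map_of_entries σ b c bS cS f fS
  intro i k
  rw [← hb k, hf]
  generalize f (b k) = y
  have hy : jN y = ∑ j, σ (c.repr y j) • cS j := by
    conv_lhs => rw [← c.sum_repr y]
    rw [map_sum]
    refine Finset.sum_congr rfl fun j _ => ?_
    rw [LinearMap.map_smulₛₗ, hc]
  rw [hy, Basis.repr_sum_self]

/-- Base change along an algebra map. -/
theorem s27dv_det_baseChange (A : Type*) [CommRing A] [Algebra R A]
    (b : Basis ι R M) (c : Basis ι R N) (f : M →ₗ[R] N) :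
    s27dvDet (Algebra.TensorProduct.basis A b) (Algebra.TensorProduct.basis A c)
      (f.baseChange A) = algebraMap R A (s27dvDet b c f) := by
  unfold s27dvDet
  rw [LinearMap.toMatrix_baseChange, RingHom.map_det]
  rfl

end semilinear

section block

variable {R : Type*} [CommRing R]
variable {M N : Type*} [AddCommGroup M] [Module R M] [AddCommGroup N] [Module R N]
variable {ι κ : Type*} [Fintype ι] [DecidableEq ι] [Fintype κ] [DecidableEq κ]

/-- Block upper triangular: `f` maps the span of the first block of `b` into the span of the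
first block of `c`. -/
theorem s27dv_det_block (b : Basis (ι ⊕ κ) R M) (c : Basis (ι ⊕ κ) R N) (f : M →ₗ[R] N)
    (h : ∀ i k, c.repr (f (b (Sum.inl i))) (Sum.inr k) = 0) :
    s27dvDet b c f =
      (Matrix.of fun i j => c.repr (f (b (Sum.inl j))) (Sum.inl i)).det *
      (Matrix.of fun i j => c.repr (f (b (Sum.inr j))) (Sum.inr i)).det := by
  unfold s27dvDet
  have hm : LinearMap.toMatrix b c f = Matrix.fromBlocks
      (Matrix.of fun i j => c.repr (f (b (Sum.inl j))) (Sum.inl i))
      (Matrix.of fun i j => c.repr (f (b (Sum.inr j))) (Sum.inl i))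
      0
      (Matrix.of fun i j => c.repr (f (b (Sum.inr j))) (Sum.inr i)) := by
    ext i j
    rcases i with i | i <;> rcases j with j | j <;>
      simp [LinearMap.toMatrix_apply, h]
  rw [hm, Matrix.det_fromBlocks_zero₂₁]

/-- Block lower triangular: `f` maps the span of the second block of `b` into the span of the
second block of `c`. -/
theorem s27dv_det_block' (b : Basis (ι ⊕ κ) R M) (c : Basis (ι ⊕ κ) R N) (f : M →ₗ[R] N)
    (h : ∀ k i, c.repr (f (b (Sum.inr k))) (Sum.inl i) = 0) :
    s27dvDet b c f =
      (Matrix.of fun i j => c.repr (f (b (Sum.inl j))) (Sum.inl i)).det *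
      (Matrix.of fun i j => c.repr (f (b (Sum.inr j))) (Sum.inr i)).det := by
  unfold s27dvDet
  have hm : LinearMap.toMatrix b c f = Matrix.fromBlocks
      (Matrix.of fun i j => c.repr (f (b (Sum.inl j))) (Sum.inl i))
      0
      (Matrix.of fun i j => c.repr (f (b (Sum.inl j))) (Sum.inr i))
      (Matrix.of fun i j => c.repr (f (b (Sum.inr j))) (Sum.inr i)) := by
    ext i j
    rcases i with i | i <;> rcases j with j | j <;>
      simp [LinearMap.toMatrix_apply, h]
  rw [hm, Matrix.det_fromBlocks_zero₁₂]

end block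

section exact

variable {R : Type*} [CommRing R]
variable {M' M M'' : Type*} [AddCommGroup M'] [Module R M'] [AddCommGroup M] [Module R M]
  [AddCommGroup M''] [Module R M'']
variable {ι κ : Type*} [Fintype ι] [DecidableEq ι] [Fintype κ] [DecidableEq κ]

omit [Fintype ι] [DecidableEq ι] [Fintype κ] [DecidableEq κ] in
/-- A basis of the middle term of a short exact sequence of free modules, adapted to the
sequence. -/
theorem s27dv_exists_basis_of_exact (iM : M' →ₗ[R] M) (pM : M →ₗ[R] M'')
    (hiM : Function.Injective iM) (hM : Function.Exact iM pM) (hpM : Function.Surjective pM)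
    (b' : Basis ι R M') (b'' : Basis κ R M'') :
    ∃ b : Basis (ι ⊕ κ) R M,
      (∀ i, b (Sum.inl i) = iM (b' i)) ∧ (∀ k, pM (b (Sum.inr k)) = b'' k) ∧
      (∀ x j, b.repr (iM x) (Sum.inl j) = b'.repr x j) ∧
      (∀ x k, b.repr (iM x) (Sum.inr k) = 0) ∧
      (∀ z k, b.repr z (Sum.inr k) = b''.repr (pM z) k) := by
  classical
  let s : M'' →ₗ[R] M := b''.constr R fun k => Classical.choose (hpM (b'' k))
  have hs : pM ∘ₗ s = LinearMap.id := by
    apply b''.ext
    intro k
    simp only [LinearMap.comp_apply, LinearMap.id_apply, s, Basis.constr_basis]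
    exact Classical.choose_spec (hpM (b'' k))
  obtain ⟨e, he1, he2⟩ := hM.splitSurjectiveEquiv hiM ⟨s, hs⟩
  have hi : ∀ x, e (iM x) = (x, 0) := by
    intro x
    rw [he1]
    simp
  have hp : ∀ z, (e z).2 = pM z := by
    intro z
    rw [he2]
    simp
  have hsymm : ∀ y, e.symm y = iM y.1 + e.symm (0, y.2) := by
    intro y
    apply e.injective
    rw [map_add, hi, LinearEquiv.apply_symm_apply, LinearEquiv.apply_symm_apply]
    ext <;> simp
  refine ⟨(b'.prod b'').map e.symm, ?_, ?_, ?_, ?_, ?_⟩
  · intro i
    rw [Basis.map_apply]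
    apply e.injective
    rw [LinearEquiv.apply_symm_apply, hi]
    ext <;> simp
  · intro k
    rw [Basis.map_apply, ← hp, LinearEquiv.apply_symm_apply]
    simp
  · intro x j
    rw [Basis.map_repr, LinearEquiv.trans_apply, LinearEquiv.symm_symm, hi]
    simp
  · intro x k
    rw [Basis.map_repr, LinearEquiv.trans_apply, LinearEquiv.symm_symm, hi]
    simp
  · intro z k
    rw [Basis.map_repr, LinearEquiv.trans_apply, LinearEquiv.symm_symm, ← hp]
    simp

variable {N' N N'' : Type*} [AddCommGroup N'] [Module R N'] [AddCommGroup N] [Module R N]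
  [AddCommGroup N''] [Module R N'']
variable {τ : Type*} [Fintype τ] [DecidableEq τ]

/-- Multiplicativity of the determinant in short exact sequences of free modules
(up to a unit; the bases of the middle terms are arbitrary). -/
theorem s27dv_det_exact
    (iM : M' →ₗ[R] M) (pM : M →ₗ[R] M'') (iN : N' →ₗ[R] N) (pN : N →ₗ[R] N'')
    (hiM : Function.Injective iM) (hM : Function.Exact iM pM) (hpM : Function.Surjective pM)
    (hiN : Function.Injective iN) (hN : Function.Exact iN pN) (hpN : Function.Surjective pN)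
    (f' : M' →ₗ[R] N') (f : M →ₗ[R] N) (f'' : M'' →ₗ[R] N'')
    (h1 : ∀ x, f (iM x) = iN (f' x)) (h2 : ∀ x, f'' (pM x) = pN (f x))
    (b' : Basis ι R M') (c' : Basis ι R N') (b'' : Basis κ R M'') (c'' : Basis κ R N'')
    (b : Basis τ R M) (c : Basis τ R N) :
    Associated (s27dvDet b c f) (s27dvDet b' c' f' * s27dvDet b'' c'' f'') := by
  obtain ⟨bM, hb1, hb2, -, -, -⟩ := s27dv_exists_basis_of_exact iM pM hiM hM hpM b' b''
  obtain ⟨cN, -, -, hc3, hc4, hc5⟩ := s27dv_exists_basis_of_exact iN pN hiN hN hpN c' c''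
  have key : s27dvDet bM cN f = s27dvDet b' c' f' * s27dvDet b'' c'' f'' := by
    rw [s27dv_det_block bM cN f]
    · unfold s27dvDet
      congr 2
      · ext i j
        simp only [Matrix.of_apply, LinearMap.toMatrix_apply]
        rw [hb1, h1, hc3]
      · ext i j
        simp only [Matrix.of_apply, LinearMap.toMatrix_apply]
        rw [hc5, ← h2, hb2]
    · intro i k
      rw [hb1, h1, hc4]
  rw [← key]
  exact s27dv_det_associated' b c bM cN f

end exact

section coker

variable {R : Type*} [CommRing R]
variable {M N M' N' Q : Type*} [AddCommGroup M] [Module R M] [AddCommGroup N] [Module R N]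
  [AddCommGroup M'] [Module R M'] [AddCommGroup N'] [Module R N'] [AddCommGroup Q] [Module R Q]
variable {ι κ : Type*} [Fintype ι] [DecidableEq ι] [Fintype κ] [DecidableEq κ]

/-- **Fitting invariance.** Two injective maps of free modules of finite rank with the same
cokernel have associated determinants.  (Over a valuation ring: the valuation of the
determinant is an invariant of the cokernel, the substitute for its length.) -/
theorem s27dv_det_associated_of_coker
    (b : Basis ι R M) (c : Basis ι R N) (b' : Basis κ R M') (c' : Basis κ R N')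
    (f : M →ₗ[R] N) (p : N →ₗ[R] Q) (g : M' →ₗ[R] N') (q : N' →ₗ[R] Q)
    (hf : Function.Injective f) (hfp : Function.Exact f p) (hp : Function.Surjective p)
    (hg : Function.Injective g) (hgq : Function.Exact g q) (hq : Function.Surjective q) :
    Associated (s27dvDet b c f) (s27dvDet b' c' g) := by
  classical
  -- lifts
  let a : N →ₗ[R] N' := c.constr R fun i => Classical.choose (hq (p (c i)))
  have ha : ∀ x, q (a x) = p x := by
    intro x
    have : q ∘ₗ a = p := by
      apply c.ext
      intro i
      simp only [LinearMap.comp_apply, a, Basis.constr_basis]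
      exact Classical.choose_spec (hq (p (c i)))
    exact LinearMap.congr_fun this x
  let a' : N' →ₗ[R] N := c'.constr R fun i => Classical.choose (hp (q (c' i)))
  have ha' : ∀ y, p (a' y) = q y := by
    intro y
    have : p ∘ₗ a' = q := by
      apply c'.ext
      intro i
      simp only [LinearMap.comp_apply, a', Basis.constr_basis]
      exact Classical.choose_spec (hp (q (c' i)))
    exact LinearMap.congr_fun this y
  -- the two presentations of the kernel of `(p, q)`
  let F₁ : N × M' →ₗ[R] N × N' :=
    (LinearMap.fst R N M').prod (g ∘ₗ LinearMap.snd R N M' - a ∘ₗ LinearMap.fst R N M')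
  let F₂ : M × N' →ₗ[R] N × N' :=
    (f ∘ₗ LinearMap.fst R M N' - a' ∘ₗ LinearMap.snd R M N').prod (LinearMap.snd R M N')
  have hF₁ : ∀ z, F₁ z = (z.1, g z.2 - a z.1) := fun z => rfl
  have hF₂ : ∀ z, F₂ z = (f z.1 - a' z.2, z.2) := fun z => rfl
  have inj₁ : Function.Injective F₁ := by
    rw [injective_iff_map_eq_zero]
    rintro ⟨x, m⟩ h
    rw [hF₁, Prod.mk_eq_zero] at h
    obtain ⟨hx, hm⟩ := h
    simp only at hx hm
    subst hx
    rw [map_zero, sub_zero] at hm
    have : m = 0 := (injective_iff_map_eq_zero g).mp hg m hm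
    rw [this]
    rfl
  have inj₂ : Function.Injective F₂ := by
    rw [injective_iff_map_eq_zero]
    rintro ⟨m, y⟩ h
    rw [hF₂, Prod.mk_eq_zero] at h
    obtain ⟨hm, hy⟩ := h
    simp only at hm hy
    subst hy
    rw [map_zero, sub_zero] at hm
    have : m = 0 := (injective_iff_map_eq_zero f).mp hf m hm
    rw [this]
    rfl
  have mem₁ : ∀ w : N × N', w ∈ LinearMap.range F₁ ↔ p w.1 + q w.2 = 0 := by
    rintro ⟨x, y⟩
    constructor
    · rintro ⟨z, hz⟩
      rw [hF₁, Prod.mk.injEq] at hz
      obtain ⟨hz1, hz2⟩ := hz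
      simp only
      rw [← hz1, ← hz2, map_sub, ha, hgq.apply_apply_eq_zero]
      simp
    · intro h
      simp only at h
      have h0 : q (y + a x) = 0 := by
        rw [map_add, ha, add_comm]
        exact h
      obtain ⟨m, hm⟩ := (hgq (y + a x)).mp h0
      refine ⟨(x, m), ?_⟩
      rw [hF₁, hm]
      simp
  have mem₂ : ∀ w : N × N', w ∈ LinearMap.range F₂ ↔ p w.1 + q w.2 = 0 := by
    rintro ⟨x, y⟩
    constructor
    · rintro ⟨z, hz⟩
      rw [hF₂, Prod.mk.injEq] at hz
      obtain ⟨hz1, hz2⟩ := hz
      simp only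
      rw [← hz1, ← hz2, map_sub, ha', hfp.apply_apply_eq_zero]
      simp
    · intro h
      simp only at h
      have h0 : p (x + a' y) = 0 := by
        rw [map_add, ha']
        exact h
      obtain ⟨m, hm⟩ := (hfp (x + a' y)).mp h0
      refine ⟨(m, y), ?_⟩
      rw [hF₂, hm]
      simp
  have hrange : LinearMap.range F₁ = LinearMap.range F₂ := by
    ext w
    rw [mem₁, mem₂]
  let u : (N × M') ≃ₗ[R] (M × N') :=
    (LinearEquiv.ofInjective F₁ inj₁).trans
      ((LinearEquiv.ofEq _ _ hrange).trans (LinearEquiv.ofInjective F₂ inj₂).symm)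
  have hu : F₂ ∘ₗ (u : (N × M') →ₗ[R] (M × N')) = F₁ := by
    apply LinearMap.ext
    intro z
    have h3 : F₂ (u z) = ((LinearEquiv.ofInjective F₂ inj₂) (u z) : N × N') := rfl
    rw [LinearMap.comp_apply, LinearEquiv.coe_coe, h3]
    simp only [u, LinearEquiv.trans_apply, LinearEquiv.apply_symm_apply]
    rfl
  -- determinants
  have d₁ : s27dvDet (c.prod b') (c.prod c') F₁ = s27dvDet b' c' g := by
    rw [s27dv_det_block' (c.prod b') (c.prod c') F₁]
    · have hA : (Matrix.of fun i j =>
          (c.prod c').repr (F₁ ((c.prod b') (Sum.inl j))) (Sum.inl i)) = (1 : Matrix ι ι R) := by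
        ext i j
        simp [hF₁, Matrix.one_apply, Finsupp.single_apply, eq_comm]
      rw [hA, Matrix.det_one, one_mul]
      unfold s27dvDet
      congr 1
      ext i j
      simp [hF₁, LinearMap.toMatrix_apply]
    · intro k i
      simp [hF₁]
  have d₂ : s27dvDet (b.prod c') (c.prod c') F₂ = s27dvDet b c f := by
    rw [s27dv_det_block (b.prod c') (c.prod c') F₂]
    · have hD : (Matrix.of fun i j =>
          (c.prod c').repr (F₂ ((b.prod c') (Sum.inr j))) (Sum.inr i)) = (1 : Matrix κ κ R) := by
        ext i j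
        simp [hF₂, Matrix.one_apply, Finsupp.single_apply, eq_comm]
      rw [hD, Matrix.det_one, mul_one]
      unfold s27dvDet
      congr 1
      ext i j
      simp [hF₂, LinearMap.toMatrix_apply]
    · intro i k
      simp [hF₂]
  have d₃ : s27dvDet (c.prod b') (c.prod c') F₁ =
      s27dvDet (b.prod c') (c.prod c') F₂ * s27dvDet (c.prod b') (b.prod c') (u : _ →ₗ[R] _) := by
    rw [← s27dv_det_comp, hu]
  obtain ⟨w, hw⟩ := s27dv_det_equiv_isUnit (c.prod b') (b.prod c') u
  refine ⟨w, ?_⟩
  rw [hw, ← d₂, ← d₃, d₁]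

end coker

section valuation

variable {F : Type*} [Field F] {Γ₀ : Type*} [LinearOrderedCommGroupWithZero Γ₀]
  (v : Valuation F Γ₀)
variable {ι : Type*} [Fintype ι] [DecidableEq ι]

theorem s27dv_val_det_le_one (A : Matrix ι ι F) (h : ∀ i j, v (A i j) ≤ 1) :
    v A.det ≤ 1 := by
  let A' : Matrix ι ι v.integer := Matrix.of fun i j => ⟨A i j, h i j⟩
  have hA : A = (v.integer.subtype).mapMatrix A' := by
    ext i j
    rfl
  rw [hA, ← RingHom.map_det]
  exact (A'.det).2

theorem s27dv_val_det_eq_one (A B : Matrix ι ι F) (hA : ∀ i j, v (A i j) ≤ 1)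
    (hB : ∀ i j, v (B i j) ≤ 1) (hAB : A * B = 1) : v A.det = 1 := by
  have h1 := s27dv_val_det_le_one v A hA
  have h2 := s27dv_val_det_le_one v B hB
  have h3 : v A.det * v B.det = 1 := by
    rw [← map_mul, ← Matrix.det_mul, hAB, Matrix.det_one, map_one]
  refine le_antisymm h1 ?_
  calc (1 : Γ₀) = v A.det * v B.det := h3.symm
    _ ≤ v A.det * 1 := mul_le_mul' le_rfl h2
    _ = v A.det := mul_one _

variable {W W' : Type*} [AddCommGroup W] [Module F W] [AddCommGroup W'] [Module F W']

/-- Two bases spanning the same lattice over the valuation ring: the transition determinant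
has valuation `1`. -/
theorem s27dv_val_det_id_eq_one (b b' : Basis ι F W)
    (hb : ∀ i j, v (b'.repr (b i) j) ≤ 1) (hb' : ∀ i j, v (b.repr (b' i) j) ≤ 1) :
    v (s27dvDet b b' (LinearMap.id : W →ₗ[F] W)) = 1 := by
  unfold s27dvDet
  apply s27dv_val_det_eq_one v _ (LinearMap.toMatrix b' b (LinearMap.id : W →ₗ[F] W))
  · intro i j
    rw [LinearMap.toMatrix_apply]
    exact hb j i
  · intro i j
    rw [LinearMap.toMatrix_apply]
    exact hb' j i
  · rw [← LinearMap.toMatrix_comp b' b b', LinearMap.comp_id, LinearMap.toMatrix_id]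

/-- The valuation of the determinant of `f` only depends on the lattices spanned by the
bases. -/
theorem s27dv_val_det_lattice (b b' : Basis ι F W) (c c' : Basis ι F W') (f : W →ₗ[F] W')
    (hb : ∀ i j, v (b'.repr (b i) j) ≤ 1) (hb' : ∀ i j, v (b.repr (b' i) j) ≤ 1)
    (hc : ∀ i j, v (c'.repr (c i) j) ≤ 1) (hc' : ∀ i j, v (c.repr (c' i) j) ≤ 1) :
    v (s27dvDet b c f) = v (s27dvDet b' c' f) := by
  have h1 : s27dvDet b' c' f
      = s27dvDet c c' (LinearMap.id : W' →ₗ[F] W') *
        (s27dvDet b c f * s27dvDet b' b (LinearMap.id : W →ₗ[F] W)) := by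
    rw [← s27dv_det_comp b' b c, ← s27dv_det_comp b' c c']
    rfl
  rw [h1, map_mul, map_mul, s27dv_val_det_id_eq_one v c c' hc hc',
    s27dv_val_det_id_eq_one v b' b hb' hb, one_mul, mul_one]

/-- Associated elements of the valuation ring have the same valuation. -/
theorem s27dv_val_eq_of_associated (a b : v.integer) (h : Associated a b) :
    v (a : F) = v (b : F) := by
  obtain ⟨u, hu⟩ := h
  have h1 : v ((u : v.integer) : F) ≤ 1 := (u : v.integer).2
  have h2 : v (((u⁻¹ : (v.integer)ˣ) : v.integer) : F) ≤ 1 := ((u⁻¹ : (v.integer)ˣ) : v.integer).2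
  have h3 : v ((u : v.integer) : F) * v (((u⁻¹ : (v.integer)ˣ) : v.integer) : F) = 1 := by
    rw [← map_mul]
    have : ((u : v.integer) : F) * (((u⁻¹ : (v.integer)ˣ) : v.integer) : F)
        = (((u * u⁻¹ : (v.integer)ˣ) : v.integer) : F) := by
      push_cast
      rfl
    rw [this, mul_inv_cancel]
    simp
  have h4 : v ((u : v.integer) : F) = 1 := by
    refine le_antisymm h1 ?_
    calc (1 : Γ₀) = v ((u : v.integer) : F) * v (((u⁻¹ : (v.integer)ˣ) : v.integer) : F) :=
          h3.symm
      _ ≤ v ((u : v.integer) : F) * 1 := mul_le_mul' le_rfl h2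
      _ = v ((u : v.integer) : F) := mul_one _
  rw [← hu]
  push_cast
  rw [map_mul, h4, mul_one]

end valuation

end Fermat.Agent.S27
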