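/-
S27 route B (item 27), piece LE-ALG / CRT INDEX (helper13): the confluent Vandermonde as the
determinant (`s27dvDet` of `S27/DetV.lean`) of the JET MAP

  `R[X]_{< gN} → (Fin g × Fin N → R)`,   `p ↦ ( (hasseDeriv j p)(x_i) )_{(i,j)}`

in the monomial basis of the source and the standard basis of the target:
`s27cvi_det : s27dvDet … (s27cviMap N x) = ∏_{i' < i} (x_i - x_{i'})^(N²)`.
For `N = 1` this is the index of `V[t]/∏(t - t_i)` in `∏ V` (ordinary Vandermonde); in general the
index of `V[t]/∏(t - t_i)^N` in `∏_i V[t]/(t - t_i)^N`.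

Consequences over a domain: the jet map is injective iff the nodes are pairwise distinct
(`s27cvi_injective`), and `Δ · c` is a jet vector of a polynomial for every `c` (`s27cvi_mem_range`).
-/
import Fermat.Agent.S27.ConfVdm
import Fermat.Agent.S27.DetV

set_option autoImplicit false

namespace Fermat.Agent.S27

open Polynomial Matrix Finset Module

variable {R : Type*} [CommRing R]

/-- The jet map at the nodes `x`: a polynomial of degree `< gN` goes to its Taylor coefficients of
order `< N` at the `g` nodes. -/
noncomputable def s27cviMap {g : ℕ} (N : ℕ) (x : Fin g → R) :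
    degreeLT R (g * N) →ₗ[R] (Fin g × Fin N → R) where
  toFun p := fun q => (hasseDeriv (q.2 : ℕ) (p : R[X])).eval (x q.1)
  map_add' p q := by
    ext r
    simp
  map_smul' c p := by
    ext r
    simp

theorem s27cvi_map_apply {g : ℕ} (N : ℕ) (x : Fin g → R) (p : degreeLT R (g * N))
    (q : Fin g × Fin N) :
    s27cviMap N x p q = (hasseDeriv (q.2 : ℕ) (p : R[X])).eval (x q.1) := rfl

/-- The confluent Vandermonde product. -/
def s27cviDelta {g : ℕ} (N : ℕ) (x : Fin g → R) : R :=
  ∏ i : Fin g, ∏ i' ∈ Finset.Iio i, (x i - x i') ^ (N * N)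

/-- The matrix of the jet map is the (reindexed) jet matrix of the monomials. -/
theorem s27cvi_toMatrix {g : ℕ} (N : ℕ) (x : Fin g → R) :
    LinearMap.toMatrix (degreeLT.basis R (g * N))
        ((Pi.basisFun R (Fin g × Fin N)).reindex finProdFinEquiv) (s27cviMap N x) =
      (s27cvJet x (fun l : Fin (g * N) => (X : R[X]) ^ (l : ℕ)) :
        Matrix (Fin g × Fin N) (Fin (g * N)) R).submatrix finProdFinEquiv.symm id := by
  ext r c
  rw [LinearMap.toMatrix_apply]
  simp [s27cviMap, s27cvJet, degreeLT.basis_val]

/-- **CRT index = confluent Vandermonde.** -/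
theorem s27cvi_det {g : ℕ} (N : ℕ) (x : Fin g → R) :
    s27dvDet (degreeLT.basis R (g * N))
        ((Pi.basisFun R (Fin g × Fin N)).reindex finProdFinEquiv) (s27cviMap N x) =
      s27cviDelta N x := by
  nontriviality R
  rw [s27dv_det_def, s27cvi_toMatrix]
  exact s27cv_det_jet_monic g N x _ (fun l => natDegree_X_pow _) (fun l => monic_X_pow _)

/-- Over a domain with pairwise distinct nodes the jet map is injective. -/
theorem s27cvi_injective [IsDomain R] {g : ℕ} (N : ℕ) (x : Fin g → R)
    (hx : Function.Injective x) : Function.Injective (s27cviMap N x) := by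
  rw [← s27dv_det_ne_zero_iff (degreeLT.basis R (g * N))
    ((Pi.basisFun R (Fin g × Fin N)).reindex finProdFinEquiv), s27cvi_det]
  unfold s27cviDelta
  refine Finset.prod_ne_zero_iff.2 fun i _ => Finset.prod_ne_zero_iff.2 fun i' hi' => ?_
  refine pow_ne_zero _ (sub_ne_zero.2 fun h => ?_)
  have := hx h
  rw [Finset.mem_Iio] at hi'
  exact absurd this (ne_of_gt hi')

/-- `Δ · c` is the jet vector of a polynomial of degree `< gN`, for every `c`. -/
theorem s27cvi_mem_range {g : ℕ} (N : ℕ) (x : Fin g → R) (c : Fin g × Fin N → R) :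
    ∃ p : degreeLT R (g * N), s27cviMap N x p = s27cviDelta N x • c := by
  classical
  set b := degreeLT.basis R (g * N)
  set b' := (Pi.basisFun R (Fin g × Fin N)).reindex finProdFinEquiv
  set A := LinearMap.toMatrix b b' (s27cviMap N x) with hA
  have hdet : A.det = s27cviDelta N x := s27cvi_det N x
  refine ⟨(Matrix.toLin b' b A.adjugate) c, ?_⟩
  have h1 : (s27cviMap N x) ∘ₗ (Matrix.toLin b' b A.adjugate) =
      Matrix.toLin b' b' (A * A.adjugate) := by
    rw [Matrix.toLin_mul b' b b', hA, Matrix.toLin_toMatrix]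
  have h2 := congrArg (fun f => f c) h1
  simp only [LinearMap.comp_apply] at h2
  rw [h2, Matrix.mul_adjugate, hdet]
  simp [Matrix.toLin_one]

end Fermat.Agent.S27
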