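/-
# S27 route B: **CP-TOP, final wiring** (helper45; double of the CP-TOP assembly)

`S27ftCP hx G₀ hG₀ Ao` (S27/FinalTop.lean) for the constants of S27/Consts.lean
(`Ao = s27cstAo G₀ O″ = G₀ − O″`), from

* REP-INST (helper18, `s27ric_tuples`, `s27ric_seven`): three pairwise disjoint injective
  `N`-tuples of classes `k • η`, `η`, `−η` w.r.t. the origin `Con B`, and `θ ≠ 0` for the seven
  concatenations;
* LAT-7 + CUBE (helper48, `s27cplat_cp`);
* the class bookkeeping (`s27ica_idx`, `s27ica_idx_append`, `s27ica_idx_append3`, IdxClsAdd.lean);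
* CONST (helper11, `S27cstIsConst`): `ℓ(G₀ + Ao + M) = g + deg M` for `M ≥ 0`, with
  `B := G₀ + (N − g) · O″`;
* the existence of a family `q` (`s27mp_exists_fam`).

Main statements: `s27cptd_cp` (general stage `L`, `FL` of IdxCls.lean) and `s27cptd_main`
(the literal `S27ftCP` of FinalTop.lean).
-/
import Fermat.Agent.S27.CpLat
import Fermat.Agent.S27.RepInstIc
import Fermat.Agent.S27.IdxClsAdd
import Fermat.Agent.S27.Consts
import Fermat.Agent.S27.FinalTop

set_option autoImplicit false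
set_option linter.unusedVariables false
set_option linter.unusedSectionVars false
set_option linter.style.haveILetI false

noncomputable section

namespace Fermat.Agent.S27

open AlgebraicCurve Module TensorProduct IntermediateField Fermat.Agent.S26

universe u v y

section Bases

variable {K : Type u} {F : Type v} [Field K] [Field F] [Algebra K F]

/-- a `K`-basis indexed by `Fin N` of a Riemann–Roch space of dimension `N > 0`. -/
theorem s27cptd_basis {A : Divisor K F} {N : ℕ} (hN : 0 < N)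
    (h : (finrank K ↥(riemannRochSpace A) : ℤ) = (N : ℤ)) :
    Nonempty (Module.Basis (Fin N) K ↥(riemannRochSpace A)) := by
  have h' : finrank K ↥(riemannRochSpace A) = N := by exact_mod_cast h
  haveI : Module.Finite K ↥(riemannRochSpace A) :=
    Module.finite_of_finrank_pos (by rw [h']; exact hN)
  exact ⟨Module.finBasisOfFinrankEq K _ h'⟩

/-- the origin `B = G₀ + (N − g) · O″`. -/
def s27cptdB (G₀ : Divisor K F) (O : Place K F) (N : ℕ) : Divisor K F :=
  G₀ + ((N - genusFF K F : ℕ) : ℤ) • Finsupp.single O (1 : ℤ)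

theorem s27cptd_smul_nonneg (O : Place K F) (m : ℕ) :
    (0 : Divisor K F) ≤ ((m : ℕ) : ℤ) • Finsupp.single O (1 : ℤ) := by
  intro v
  rw [Finsupp.smul_apply, Finsupp.coe_zero, Pi.zero_apply, smul_eq_mul]
  refine mul_nonneg (Int.natCast_nonneg m) ?_
  by_cases hv : O = v
  · subst hv
    simp
  · rw [Finsupp.single_eq_of_ne' hv]

variable {x : F} {G₀ : Divisor K F} {O : Place K F}

theorem s27cptdB_degree (hc : S27cstIsConst x G₀ O) {N : ℕ} (hN : genusFF K F ≤ N) :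
    Divisor.degree (s27cptdB G₀ O N) = (N : ℤ) := by
  unfold s27cptdB
  rw [map_add, map_zsmul, Divisor.degree_single, hc.deg, hc.deg_O]
  push_cast [Nat.cast_sub hN]
  simp

/-- the three bases. -/
theorem s27cptd_bases (hc : S27cstIsConst x G₀ O) {N : ℕ} (hN : genusFF K F ≤ N) (hN0 : 0 < N) :
    Nonempty (Module.Basis (Fin N) K
      ↥(riemannRochSpace (s27cptdB G₀ O N + s27cstAo G₀ O))) ∧
    Nonempty (Module.Basis (Fin (N + N)) K
      ↥(riemannRochSpace (s27cptdB G₀ O N + s27cptdB G₀ O N + s27cstAo G₀ O))) ∧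
    Nonempty (Module.Basis (Fin (N + N + N)) K
      ↥(riemannRochSpace
        (s27cptdB G₀ O N + s27cptdB G₀ O N + s27cptdB G₀ O N + s27cstAo G₀ O))) := by
  have hdB := s27cptdB_degree hc hN
  set M₀ : Divisor K F := ((N - genusFF K F : ℕ) : ℤ) • Finsupp.single O (1 : ℤ) with hM₀
  have hM₀0 : (0 : Divisor K F) ≤ M₀ := s27cptd_smul_nonneg O _
  have hBdef : s27cptdB G₀ O N = G₀ + M₀ := rfl
  have hdM : Divisor.degree M₀ = (N : ℤ) - genusFF K F := by
    have := hdB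
    rw [hBdef, map_add, hc.deg] at this
    linarith
  refine ⟨?_, ?_, ?_⟩
  · -- `B + Ao = G₀ + Ao + M₀`
    have e : s27cptdB G₀ O N + s27cstAo G₀ O = G₀ + s27cstAo G₀ O + M₀ := by
      rw [hBdef]; abel
    rw [e]
    refine s27cptd_basis hN0 ?_
    rw [(hc.nonspecial M₀ hM₀0).1, hdM]
    ring
  · have e : s27cptdB G₀ O N + s27cptdB G₀ O N + s27cstAo G₀ O =
        G₀ + s27cstAo G₀ O + (G₀ + M₀ + M₀) := by
      rw [hBdef]; abel
    rw [e]
    refine s27cptd_basis (by omega) ?_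
    rw [(hc.nonspecial _ (add_nonneg (add_nonneg hc.nonneg hM₀0) hM₀0)).1, map_add, map_add,
      hdM, hc.deg]
    push_cast
    ring
  · have e : s27cptdB G₀ O N + s27cptdB G₀ O N + s27cptdB G₀ O N + s27cstAo G₀ O =
        G₀ + s27cstAo G₀ O + (G₀ + G₀ + M₀ + M₀ + M₀) := by
      rw [hBdef]; abel
    rw [e]
    refine s27cptd_basis (by omega) ?_
    rw [(hc.nonspecial _ (add_nonneg (add_nonneg (add_nonneg (add_nonneg hc.nonneg hc.nonneg)
      hM₀0) hM₀0) hM₀0)).1, map_add, map_add, map_add, map_add, hdM, hc.deg]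
    push_cast
    ring

end Bases

section Stage

variable {K : Type u} {F : Type v} [Field K] [IsAlgClosed K] [CharZero K] [Field F] [Algebra K F]
  [IsCurveOver K F] [Algebra.EssFiniteType K F]
  {L : Type (max u v)} [Field L] [Algebra K L]
  [Algebra (s27gfOm K F (genusFF K F)) L] [IsScalarTower K (s27gfOm K F (genusFF K F)) L]
  [IsAlgClosed L] [Algebra.IsAlgebraic (s27gfOm K F (genusFF K F)) L]
  {FL : Type y} [Field FL] [Algebra K FL] [Algebra F FL] [Algebra L FL]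
  [IsScalarTower K F FL] [IsScalarTower K L FL]
  (hld : Function.Injective (s26gspMu K F L FL)) (hgen : S26gspGen K F L FL)
  {x : F} (hx : Transcendental K x)
  [FiniteDimensional ↥(IntermediateField.adjoin K {x}) F]
  [Algebra.IsSeparable ↥(IntermediateField.adjoin K {x}) F]
  [IsGalois (s27gfSym K F (genusFF K F)) L]
  (G₀ : Divisor K F) (hG₀ : Divisor.degree G₀ = (genusFF K F : ℤ))

/-- **CP-TOP at one `k`**, from a family `q`, the basis `f₀` of `L_K(G₀ + Ao)`, `L_K(Ao) = 0` and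
the three bases for ONE origin `B` of degree `N ≥ N₀` (every `N₀`). -/
theorem s27cptd_cp_of_bases (hg : 0 < genusFF K F)
    {q : ℤ → Fin (genusFF K F) → F →ₐ[K] L}
    (hq : S27pfFam (s27dclPkg hld hgen hx G₀ hG₀) q)
    (Ao : Divisor K F) (hAo : riemannRochSpace Ao = ⊥)
    (f₀ : Module.Basis (Fin (genusFF K F)) K ↥(riemannRochSpace (G₀ + Ao)))
    (hbases : ∀ N₀ : ℕ, ∃ (N : ℕ) (_ : N₀ ≤ N) (B : Divisor K F)
      (_ : Divisor.degree B = (N : ℤ)),
      Nonempty (Module.Basis (Fin N) K ↥(riemannRochSpace (B + Ao))) ∧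
      Nonempty (Module.Basis (Fin (N + N)) K ↥(riemannRochSpace (B + B + Ao))) ∧
      Nonempty (Module.Basis (Fin (N + N + N)) K ↥(riemannRochSpace (B + B + B + Ao))))
    (k : ℤ) :
    ∃ Φ : L, Φ ≠ 0 ∧ S27ckCP K (S27icIdx hld hgen hx Ao)
      (k • s27pfCl (s27dclPkg hld hgen hx G₀ hG₀)
        (s27pfTaut (K := K) (F := F) (g := genusFF K F) (L := L)))
      (s27pfCl (s27dclPkg hld hgen hx G₀ hG₀)
        (s27pfTaut (K := K) (F := F) (g := genusFF K F) (L := L))) Φ := by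
  obtain ⟨N₀, hN₀⟩ := s27ric_tuples hld hgen hx G₀ hG₀ hg
  obtain ⟨N, hN, B, hB, ⟨f⟩, ⟨f2⟩, ⟨f3⟩⟩ := hbases N₀
  obtain ⟨R₁, R₂, R₃, i₁, i₂, i₃, -, -, -, d₁₂, d₁₃, d₂₃, c₁, c₂, c₃⟩ := hN₀ N hN B hB ∅ k
  obtain ⟨t1, t2, t3, t12, t13, t23, t123⟩ := s27ric_seven hld hgen hx G₀ hG₀ hq Ao hAo f₀ k
    B B B hB hB hB R₁ R₂ R₃ i₁ i₂ i₃ d₁₂ d₁₃ d₂₃ c₁ c₂ c₃
  refine ⟨_, s27caPhi_ne_zero (t1 f) (t2 f) (t3 f) (t12 f2) (t13 f2) (t23 f2) (t123 f3),
    s27cplat_cp (S27icIdx hld hgen hx Ao) _ _ R₁ R₂ R₃ i₁ i₂ i₃ d₁₂ d₁₃ d₂₃ Ao B B B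
      f f f f2 f2 f2 f3 (t12 f2) (t13 f2) (t23 f2) ?_ ?_ ?_ ?_ ?_ ?_ ?_⟩
  · exact fun W hW y hy => s27ica_idx hld hgen hx Ao W i₁ hB c₁ hy
  · exact fun W hW y hy => s27ica_idx hld hgen hx Ao W i₂ hB c₂ hy
  · exact fun W hW y hy => s27ica_idx hld hgen hx Ao W i₃ hB c₃ hy
  · exact fun W hW y hy => s27ica_idx_append hld hgen hx Ao W i₁ i₂ d₁₂ hB hB c₁ c₂ hy
  · intro W hW y hy
    have h := s27ica_idx_append hld hgen hx Ao W i₁ i₃ d₁₃ hB hB c₁ c₃ hy
    rwa [← sub_eq_add_neg] at h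
  · intro W hW y hy
    have h := s27ica_idx_append hld hgen hx Ao W i₂ i₃ d₂₃ hB hB c₂ c₃ hy
    rwa [add_neg_cancel] at h
  · intro W hW y hy
    have h := s27ica_idx_append3 hld hgen hx Ao W i₁ i₂ i₃ d₁₂ d₁₃ d₂₃ hB hB hB c₁ c₂ c₃ hy
    rwa [add_neg_cancel_right] at h

/-- **CP-TOP at one `k`** for the constants of `S27/Consts.lean`. -/
theorem s27cptd_cp (hg : 0 < genusFF K F) {O : Place K F} (hc : S27cstIsConst x G₀ O) (k : ℤ) :
    ∃ Φ : L, Φ ≠ 0 ∧ S27ckCP K (S27icIdx hld hgen hx (s27cstAo G₀ O))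
      (k • s27pfCl (s27dclPkg hld hgen hx G₀ hG₀)
        (s27pfTaut (K := K) (F := F) (g := genusFF K F) (L := L)))
      (s27pfCl (s27dclPkg hld hgen hx G₀ hG₀)
        (s27pfTaut (K := K) (F := F) (g := genusFF K F) (L := L))) Φ := by
  obtain ⟨q, hq⟩ := s27mp_exists_fam hld hgen hx G₀ hG₀
  obtain ⟨f₀⟩ : Nonempty (Module.Basis (Fin (genusFF K F)) K
      ↥(riemannRochSpace (G₀ + s27cstAo G₀ O))) :=
    s27cptd_basis hg (by exact_mod_cast hc.l_A)
  refine s27cptd_cp_of_bases hld hgen hx G₀ hG₀ hg hq _ hc.bot f₀ (fun N₀ => ?_) k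
  have hN : genusFF K F ≤ max N₀ (genusFF K F) := le_max_right _ _
  exact ⟨max N₀ (genusFF K F), le_max_left _ _, s27cptdB G₀ O _, s27cptdB_degree hc hN,
    s27cptd_bases hc hN (lt_of_lt_of_le hg hN)⟩

end Stage

section Final

variable {K : Type u} {F : Type v} [Field K] [Field F] [Algebra K F] [IsAlgClosed K] [CharZero K]
  [IsCurveOver K F] [Algebra.EssFiniteType K F]
  {x : F} (hx : Transcendental K x)
  [FiniteDimensional ↥(IntermediateField.adjoin K {x}) F]
  [Algebra.IsSeparable ↥(IntermediateField.adjoin K {x}) F]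
  (G₀ : Divisor K F) (hG₀ : Divisor.degree G₀ = (genusFF K F : ℤ))

/-- **CP-TOP**: the literal input `S27ftCP` of `s27ft_Stmt` for the constants of Consts.lean. -/
theorem s27cptd_main (hg : 0 < genusFF K F) {O : Place K F} (hc : S27cstIsConst x G₀ O) :
    S27ftCP hx G₀ hG₀ (s27cstAo G₀ O) := fun k _ =>
  s27cptd_cp (FL := s27mtFL K F) (s27stg_hld K F (s27mtL K F)) (s27stg_hgen K F (s27mtL K F))
    hx G₀ hG₀ hg hc k

end Final

end Fermat.Agent.S27
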