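/-
S27, route B — the FORMAL side (hub helper11): the Lean form of helper95's ABSTRACT DATUM
(NOTES/S27-design.md §1, captain's interface ruling 04:20Z) on the prelude's `Place K 𝔉`.

* `S27dIsComap K φ k v v' e` : `v ∘ φ^k = e · v'` (`v'` = the place below `v`, `e` = ramification);
* `s27dL K lam m`            : `L(m D)   = {f | ∀ v, -(m · lam v) ≤ v.ord f}`;
* `s27dL' K φ lam k m`       : `L(m D_k) = {f | ∀ (v, v', e) comap triple, -(m · e · lam v') ≤ v.ord f}`;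
* `S27Datum K φ lam g n d`   : (ALG), (FIN), (UP), (CUBE, only `k = 1`), (DEG);
* the FORMAL LEAVES as Props: `s27d_StmtComap` (F1), `s27d_StmtE` (F2), `s27d_StmtC2` (F3),
  `s27d_StmtLow` + `s27d_StmtB3` (F4), `s27d_StmtSep` (F5);
* `s27d_b1`, `s27d_b2`, `s27dL_mono`, `s27dL'_mono` : the trivial clauses, proved here;
* `s27d_growth` : F1 … F5 + datum ⇒ `S26Growth K g n d`;   `s27d_card` : … ⇒ `d = n ^ (2 * g)`.
-/
import Fermat.Agent.S26.CFinal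
import Fermat.Agent.S24.PlaceBasic
import Fermat.Prelude.Def_AlgebraicCurve_DivisorClassGroup

set_option autoImplicit false
set_option linter.style.haveILetI false
set_option linter.unusedVariables false
set_option linter.unusedSectionVars false

noncomputable section

namespace Fermat.Agent.S27

open AlgebraicCurve Module Fermat.Agent.S26 Fermat.Agent.S24

universe w

section Defs

variable (K : Type w) [Field K] {𝔉 : Type w} [Field 𝔉] [Algebra K 𝔉]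

/-- **comap triple**: `v ∘ φ^k = e · v'`. -/
def S27dIsComap (φ : 𝔉 →ₐ[K] 𝔉) (k : ℕ) (v v' : Place K 𝔉) (e : ℕ) : Prop :=
  0 < e ∧ ∀ f : 𝔉, v.ord ((φ ^ k) f) = (e : ℤ) * v'.ord f

/-- `L(m D)`, `D` the (infinite) divisor with multiplicities `lam`. -/
def s27dL (lam : Place K 𝔉 → ℕ) (m : ℕ) : Submodule K 𝔉 where
  carrier := {f | ∀ v : Place K 𝔉, -((m : ℤ) * lam v) ≤ v.ord f}
  zero_mem' := fun v => by
    show -((m : ℤ) * lam v) ≤ v.ord 0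
    rw [Place.ord_zero]
    have : (0 : ℤ) ≤ (m : ℤ) * lam v := by positivity
    linarith
  add_mem' := by
    intro f g hf hg v
    have hpos : (0 : ℤ) ≤ (m : ℤ) * lam v := by positivity
    show -((m : ℤ) * lam v) ≤ v.ord (f + g)
    by_cases hf0 : f = 0
    · rw [hf0, zero_add]; exact hg v
    by_cases hg0 : g = 0
    · rw [hg0, add_zero]; exact hf v
    by_cases hfg : f + g = 0
    · rw [hfg, Place.ord_zero]; linarith
    exact le_trans (le_min (hf v) (hg v)) (PlaceAux.le_ord_add v hf0 hg0 hfg)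
  smul_mem' := by
    intro c f hf v
    have hpos : (0 : ℤ) ≤ (m : ℤ) * lam v := by positivity
    show -((m : ℤ) * lam v) ≤ v.ord (c • f)
    by_cases hc : c = 0
    · rw [hc, zero_smul, Place.ord_zero]; linarith
    by_cases hf0 : f = 0
    · rw [hf0, smul_zero, Place.ord_zero]; linarith
    have hc' : algebraMap K 𝔉 c ≠ 0 := by
      simpa using (map_ne_zero (algebraMap K 𝔉)).2 hc
    rw [Algebra.smul_def, v.ord_mul hc' hf0, PlaceAux.ord_algebraMap, zero_add]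
    exact hf v

theorem s27dL_mem {lam : Place K 𝔉 → ℕ} {m : ℕ} {f : 𝔉} :
    f ∈ s27dL K lam m ↔ ∀ v : Place K 𝔉, -((m : ℤ) * lam v) ≤ v.ord f := Iff.rfl

/-- `L(m D_k)`, `D_k = (φ^k)^* D`. -/
def s27dL' (φ : 𝔉 →ₐ[K] 𝔉) (lam : Place K 𝔉 → ℕ) (k m : ℕ) : Submodule K 𝔉 where
  carrier := {f | ∀ (v v' : Place K 𝔉) (e : ℕ), S27dIsComap K φ k v v' e →
    -((m : ℤ) * ((e : ℤ) * lam v')) ≤ v.ord f}
  zero_mem' := fun v v' e _ => by
    show -((m : ℤ) * ((e : ℤ) * lam v')) ≤ v.ord 0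
    rw [Place.ord_zero]
    have : (0 : ℤ) ≤ (m : ℤ) * ((e : ℤ) * lam v') := by positivity
    linarith
  add_mem' := by
    intro f g hf hg v v' e he
    have hpos : (0 : ℤ) ≤ (m : ℤ) * ((e : ℤ) * lam v') := by positivity
    show -((m : ℤ) * ((e : ℤ) * lam v')) ≤ v.ord (f + g)
    by_cases hf0 : f = 0
    · rw [hf0, zero_add]; exact hg v v' e he
    by_cases hg0 : g = 0
    · rw [hg0, add_zero]; exact hf v v' e he
    by_cases hfg : f + g = 0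
    · rw [hfg, Place.ord_zero]; linarith
    exact le_trans (le_min (hf v v' e he) (hg v v' e he)) (PlaceAux.le_ord_add v hf0 hg0 hfg)
  smul_mem' := by
    intro c f hf v v' e he
    have hpos : (0 : ℤ) ≤ (m : ℤ) * ((e : ℤ) * lam v') := by positivity
    show -((m : ℤ) * ((e : ℤ) * lam v')) ≤ v.ord (c • f)
    by_cases hc : c = 0
    · rw [hc, zero_smul, Place.ord_zero]; linarith
    by_cases hf0 : f = 0
    · rw [hf0, smul_zero, Place.ord_zero]; linarith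
    have hc' : algebraMap K 𝔉 c ≠ 0 := by
      simpa using (map_ne_zero (algebraMap K 𝔉)).2 hc
    rw [Algebra.smul_def, v.ord_mul hc' hf0, PlaceAux.ord_algebraMap, zero_add]
    exact hf v v' e he

theorem s27dL'_mem {φ : 𝔉 →ₐ[K] 𝔉} {lam : Place K 𝔉 → ℕ} {k m : ℕ} {f : 𝔉} :
    f ∈ s27dL' K φ lam k m ↔ ∀ (v v' : Place K 𝔉) (e : ℕ), S27dIsComap K φ k v v' e →
      -((m : ℤ) * ((e : ℤ) * lam v')) ≤ v.ord f := Iff.rfl

/-- **The abstract datum** (NOTES/S27-design.md §1). -/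
structure S27Datum (φ : 𝔉 →ₐ[K] 𝔉) (lam : Place K 𝔉 → ℕ) (g n d : ℕ) : Prop where
  /-- (ALG) a transcendence basis inside `L(c₀)` -/
  alg : ∃ (c₀ : ℕ) (u : Fin g → 𝔉), AlgebraicIndependent K u ∧
    Algebra.IsAlgebraic (Algebra.adjoin K (Set.range u)) 𝔉 ∧ ∀ j, u j ∈ s27dL K lam c₀
  /-- (FIN) -/
  fin : ∀ m, Module.Finite K (s27dL K lam m)
  /-- (UP) -/
  up : ∃ c₂ : ℕ, ∀ m, 1 ≤ m → finrank K (s27dL K lam m) ≤ c₂ * m ^ g
  /-- (CUBE), only for `k = 1` -/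
  cube : ∃ H : 𝔉, H ≠ 0 ∧ ∀ (v v' : Place K 𝔉) (e : ℕ), S27dIsComap K φ 1 v v' e →
    v.ord H = (e : ℤ) * lam v' - (n : ℤ) ^ 2 * lam v
  /-- (DEG) -/
  deg_fin : Module.Finite φ.fieldRange 𝔉
  deg : finrank φ.fieldRange 𝔉 = d

/-! ### the trivial clauses -/

theorem s27dL_mono (lam : Place K 𝔉 → ℕ) : Monotone (s27dL K lam) := by
  intro a b hab f hf v
  have h1 : ((a : ℤ)) * lam v ≤ (b : ℤ) * lam v :=
    mul_le_mul_of_nonneg_right (by exact_mod_cast hab) (by positivity)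
  have h2 : -((a : ℤ) * lam v) ≤ v.ord f := hf v
  show -((b : ℤ) * lam v) ≤ v.ord f
  linarith

theorem s27dL'_mono (φ : 𝔉 →ₐ[K] 𝔉) (lam : Place K 𝔉 → ℕ) (k : ℕ) :
    Monotone (s27dL' K φ lam k) := by
  intro a b hab f hf v v' e he
  have h1 : ((a : ℤ)) * ((e : ℤ) * lam v') ≤ (b : ℤ) * ((e : ℤ) * lam v') :=
    mul_le_mul_of_nonneg_right (by exact_mod_cast hab) (by positivity)
  have h2 : -((a : ℤ) * ((e : ℤ) * lam v')) ≤ v.ord f := hf v v' e he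
  show -((b : ℤ) * ((e : ℤ) * lam v')) ≤ v.ord f
  linarith

/-- (b1) -/
theorem s27d_b1 (φ : 𝔉 →ₐ[K] 𝔉) (lam : Place K 𝔉 → ℕ) (k m : ℕ) {x : 𝔉}
    (hx : x ∈ s27dL K lam m) : (φ ^ k) x ∈ s27dL' K φ lam k m := by
  intro v v' e he
  show -((m : ℤ) * ((e : ℤ) * lam v')) ≤ v.ord ((φ ^ k) x)
  rw [he.2 x]
  have h1 : -((m : ℤ) * lam v') ≤ v'.ord x := hx v'
  have h2 : (0 : ℤ) ≤ e := by positivity
  nlinarith [mul_le_mul_of_nonneg_left h1 h2]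

/-- (b2) -/
theorem s27d_b2 (φ : 𝔉 →ₐ[K] 𝔉) (lam : Place K 𝔉 → ℕ) (k a b : ℕ) {x y : 𝔉}
    (hx : x ∈ s27dL' K φ lam k a) (hy : y ∈ s27dL' K φ lam k b) :
    x * y ∈ s27dL' K φ lam k (a + b) := by
  intro v v' e he
  have hpos : (0 : ℤ) ≤ ((a + b : ℕ) : ℤ) * ((e : ℤ) * lam v') := by positivity
  show -(((a + b : ℕ) : ℤ) * ((e : ℤ) * lam v')) ≤ v.ord (x * y)
  by_cases hx0 : x = 0
  · rw [hx0, zero_mul, Place.ord_zero]; linarith
  by_cases hy0 : y = 0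
  · rw [hy0, mul_zero, Place.ord_zero]; linarith
  rw [v.ord_mul hx0 hy0]
  have h1 : -((a : ℤ) * ((e : ℤ) * lam v')) ≤ v.ord x := hx v v' e he
  have h2 : -((b : ℤ) * ((e : ℤ) * lam v')) ≤ v.ord y := hy v v' e he
  push_cast
  linarith

end Defs

/-! ### the formal leaves, as Props -/

/-- **F1 (comap)**: when `𝔉 / φ^k 𝔉` is algebraic, every place `v` has a unique comap triple
`(v', e)` along `φ^k`, and every place `v'` is the comap of some place `v`. -/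
def s27d_StmtComap : Prop :=
  ∀ (K : Type w) [Field K] (𝔉 : Type w) [Field 𝔉] [Algebra K 𝔉] (φ : 𝔉 →ₐ[K] 𝔉) (k : ℕ),
    Algebra.IsAlgebraic (φ ^ k).fieldRange 𝔉 →
    (∀ v : Place K 𝔉, ∃ (v' : Place K 𝔉) (e : ℕ), S27dIsComap K φ k v v' e) ∧
    (∀ (v v₁ v₂ : Place K 𝔉) (e₁ e₂ : ℕ), S27dIsComap K φ k v v₁ e₁ →
      S27dIsComap K φ k v v₂ e₂ → v₁ = v₂ ∧ e₁ = e₂) ∧
    (∀ v' : Place K 𝔉, ∃ (v : Place K 𝔉) (e : ℕ), S27dIsComap K φ k v v' e)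

/-- **F2 (E)**: `L'(k, m) ≃ L(n^(2k) m)` (multiplication by `H_k ^ m`,
`H_k = ∏_{j<k} φ^j(H)^(n^(2(k-1-j)))`, telescoping of (CUBE)). -/
def s27d_StmtE : Prop :=
  ∀ (K : Type w) [Field K] [CharZero K] (𝔉 : Type w) [Field 𝔉] [Algebra K 𝔉] (φ : 𝔉 →ₐ[K] 𝔉)
    (lam : Place K 𝔉 → ℕ) (g n d : ℕ), S27Datum K φ lam g n d →
    ∀ k m, Module.Finite K (s27dL' K φ lam k m) ∧
      finrank K (s27dL' K φ lam k m) = finrank K (s27dL K lam (n ^ (2 * k) * m))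

/-- **F3 (c2)**: the trace of `L'(k, m)` lies in `φ^k (L(m))`. -/
def s27d_StmtC2 : Prop :=
  ∀ (K : Type w) [Field K] [CharZero K] (𝔉 : Type w) [Field 𝔉] [Algebra K 𝔉] (φ : 𝔉 →ₐ[K] 𝔉)
    (lam : Place K 𝔉 → ℕ) (g n d : ℕ), S27Datum K φ lam g n d →
    ∀ k m, ∀ x ∈ s27dL' K φ lam k m, ∃ y ∈ s27dL K lam m,
      ((Algebra.trace (φ ^ k).fieldRange 𝔉 x : (φ ^ k).fieldRange) : 𝔉) = (φ ^ k) y

/-- **F4a (G1, lower bound)** from (ALG): monomials in `u`. -/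
def s27d_StmtLow : Prop :=
  ∀ (K : Type w) [Field K] [CharZero K] (𝔉 : Type w) [Field 𝔉] [Algebra K 𝔉] (φ : 𝔉 →ₐ[K] 𝔉)
    (lam : Place K 𝔉 → ℕ) (g n d : ℕ), S27Datum K φ lam g n d →
    ∃ c₁ : ℕ, ∀ m, 1 ≤ m → m ^ g ≤ c₁ * finrank K (s27dL K lam m)

/-- **F4b (b3)** from (ALG): `⋃_c L'(k, c)` spans `𝔉` over `φ^k 𝔉`. -/
def s27d_StmtB3 : Prop :=
  ∀ (K : Type w) [Field K] [CharZero K] (𝔉 : Type w) [Field 𝔉] [Algebra K 𝔉] (φ : 𝔉 →ₐ[K] 𝔉)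
    (lam : Place K 𝔉 → ℕ) (g n d : ℕ), S27Datum K φ lam g n d →
    ∀ k, ∀ x : 𝔉, ∃ c, x ∈ Submodule.span (φ ^ k).fieldRange
      ((s27dL' K φ lam k c : Submodule K 𝔉) : Set 𝔉)

/-- **F5 (tower)**: `𝔉 / φ^k 𝔉` is finite separable for every `k`. -/
def s27d_StmtSep : Prop :=
  ∀ (K : Type w) [Field K] [CharZero K] (𝔉 : Type w) [Field 𝔉] [Algebra K 𝔉] (φ : 𝔉 →ₐ[K] 𝔉),
    Module.Finite φ.fieldRange 𝔉 →
    ∀ k, Module.Finite (φ ^ k).fieldRange 𝔉 ∧ Algebra.IsSeparable (φ ^ k).fieldRange 𝔉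

/-! ### the glue -/

/-- **datum ⇒ growth datum**, from the formal leaves. -/
theorem s27d_growth (hE : s27d_StmtE.{w}) (hC2 : s27d_StmtC2.{w}) (hLow : s27d_StmtLow.{w})
    (hB3 : s27d_StmtB3.{w}) (hSep : s27d_StmtSep.{w})
    (K : Type w) [Field K] [CharZero K] (𝔉 : Type w) [Field 𝔉] [Algebra K 𝔉] (φ : 𝔉 →ₐ[K] 𝔉)
    (lam : Place K 𝔉 → ℕ) (g n d : ℕ) (hD : S27Datum K φ lam g n d) :
    S26Growth K g n d := by
  obtain ⟨c₁, hc₁⟩ := hLow K 𝔉 φ lam g n d hD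
  obtain ⟨c₂, hc₂⟩ := hD.up
  refine ⟨𝔉, inferInstance, inferInstance, φ, fun m => s27dL K lam m,
    fun k m => s27dL' K φ lam k m, hD.fin, fun k m => (hE K 𝔉 φ lam g n d hD k m).1,
    ⟨c₁, c₂, fun m hm => ⟨hc₁ m hm, hc₂ m hm⟩⟩,
    s27dL_mono K lam, fun k => s27dL'_mono K φ lam k, ?_,
    fun k m x hx => s27d_b1 K φ lam k m hx,
    fun k a c x hx y hy => s27d_b2 K φ lam k a c hx hy,
    fun k x => hB3 K 𝔉 φ lam g n d hD k x,
    fun k => hSep K 𝔉 φ hD.deg_fin k,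
    fun k m x hx => hC2 K 𝔉 φ lam g n d hD k m x hx, hD.deg⟩
  intro k
  refine ⟨1, 0, Nat.one_pos, fun m => ?_⟩
  have h := (hE K 𝔉 φ lam g n d hD k m).2
  show finrank K (s27dL' K φ lam k (1 * m)) ≤
      finrank K (s27dL K lam (n ^ (2 * k) * (1 * m) + 0)) ∧
    finrank K (s27dL K lam (n ^ (2 * k) * (1 * m))) ≤
      finrank K (s27dL' K φ lam k (1 * m + 0))
  rw [one_mul, add_zero, add_zero]
  exact ⟨h.le, h.ge⟩

/-- **datum ⇒ `d = n ^ (2 g)`**. -/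
theorem s27d_card (hE : s27d_StmtE.{w}) (hC2 : s27d_StmtC2.{w}) (hLow : s27d_StmtLow.{w})
    (hB3 : s27d_StmtB3.{w}) (hSep : s27d_StmtSep.{w})
    (K : Type w) [Field K] [CharZero K] (𝔉 : Type w) [Field 𝔉] [Algebra K 𝔉] (φ : 𝔉 →ₐ[K] 𝔉)
    (lam : Place K 𝔉 → ℕ) (g n d : ℕ) (hn : 0 < n) (hD : S27Datum K φ lam g n d) :
    d = n ^ (2 * g) :=
  s26c_stmtCore K g n d hn (s27d_growth hE hC2 hLow hB3 hSep K 𝔉 φ lam g n d hD)

end Fermat.Agent.S27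

end
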