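/-
S27-B, Place datum (S27/Datum.lean), formal leaf **F5** (helper38):
`s27dsep_main : s27d_StmtSep` — `𝔉 / φ^k 𝔉` is finite separable for every `k`
(tower law + characteristic `0`; the core is S27/FTower.lean).
-/
import Fermat.Agent.S27.Datum
import Fermat.Agent.S27.FTower

set_option autoImplicit false

noncomputable section

namespace Fermat.Agent.S27

universe w

/-- **F5.** -/
theorem s27dsep_main : s27d_StmtSep.{w} := by
  intro K _ _ 𝔉 _ _ φ hfin k
  exact ⟨s27ft_finite φ hfin k, s27ft_separable φ hfin k⟩

end Fermat.Agent.S27

end
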