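/-
S27, route B, piece DEG-B4e "PKG-ns" (helper51, prefix s27dns_): **the degree package with
NONSPECIAL discharged**.

Setting of `S27/DegPkgAct.lean` (helper45): `K`, `𝔎` algebraically closed, `char K = 0`,
`Ω = Frac (𝔠 ⊗[K] 𝔎)` (`hld`, `hgen`), `x : 𝔠` transcendental over `K` with `𝔠 / K(x)` finite
separable.

* `s27dns_main`  : **`S27pkgNS hld hgen hx`** (the only input of helper45's `s27pkg`), from
  helper99's `s27nst_hS` (`S27/NonSpecTop.lean`);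
* `s27dnsPkg`    : the degree package `S27DegPkg K 𝔠 𝔎 x (genusFF K 𝔠) (Place 𝔎 Ω) (Pic0 𝔎 Ω)`
  WITHOUT hypothesis (besides the action datum `A` and a base place `P₀`), with its `rfl`
  simp lemmas `s27dnsPkg_pt/_cl/_actP/_actC`.
-/
import Fermat.Agent.S27.NonSpecTop
import Fermat.Agent.S27.DegPkgAct

set_option autoImplicit false
set_option linter.style.haveILetI false
set_option linter.unusedSectionVars false
set_option linter.unusedVariables false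

noncomputable section

namespace Fermat.Agent.S27

open AlgebraicCurve IsLocalRing TensorProduct Module IntermediateField
open Fermat.Agent.S26

variable {K 𝔠 𝔎 Ω : Type*} [Field K] [Field 𝔠] [Field 𝔎] [Field Ω]
  [Algebra K 𝔠] [Algebra K 𝔎] [Algebra K Ω] [Algebra 𝔠 Ω] [Algebra 𝔎 Ω]
  [IsScalarTower K 𝔠 Ω] [IsScalarTower K 𝔎 Ω]

section Main

variable [IsAlgClosed K] [CharZero K] [IsAlgClosed 𝔎]
  (hld : Function.Injective (s26gspMu K 𝔠 𝔎 Ω)) (hgen : S26gspGen K 𝔠 𝔎 Ω)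
  {x : 𝔠} (hx : Transcendental K x)
  [FiniteDimensional ↥(IntermediateField.adjoin K {x}) 𝔠]
  [Algebra.IsSeparable ↥(IntermediateField.adjoin K {x}) 𝔠]

/-- **PKG-ns**: the hypothesis `S27pkgNS` of the degree package holds. -/
theorem s27dns_main : S27pkgNS hld hgen hx :=
  fun e he f hf => s27nst_hS hld hgen hx e he f hf

/-- **the concrete degree package**, with NONSPECIAL discharged. -/
def s27dnsPkg (A : S27raAct K 𝔠 𝔎 Ω) (P₀ : Place K 𝔠) :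
    S27DegPkg K 𝔠 𝔎 x (genusFF K 𝔠) (Place 𝔎 Ω) (Pic0 𝔎 Ω) :=
  s27pkg A hld hgen hx P₀ (s27dns_main hld hgen hx)

@[simp] theorem s27dnsPkg_pt (A : S27raAct K 𝔠 𝔎 Ω) (P₀ : Place K 𝔠) (e : 𝔠 →ₐ[K] 𝔎) :
    (s27dnsPkg hld hgen hx A P₀).pt e = s27gpPlace hld hgen e hx := rfl

@[simp] theorem s27dnsPkg_cl (A : S27raAct K 𝔠 𝔎 Ω) (P₀ : Place K 𝔠)
    (R : Fin (genusFF K 𝔠) → Place 𝔎 Ω) :
    (s27dnsPkg hld hgen hx A P₀).cl R =
      s27pkgCl (s27pkg_hdeg hld hgen hx) (s26gspCon hld hgen (s26gspf_hall hx) P₀) R := rfl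

@[simp] theorem s27dnsPkg_actP (A : S27raAct K 𝔠 𝔎 Ω) (P₀ : Place K 𝔠) (h : 𝔎 ≃ₐ[K] 𝔎) :
    (s27dnsPkg hld hgen hx A P₀).actP h = s27raPl A h := rfl

@[simp] theorem s27dnsPkg_actC (A : S27raAct K 𝔠 𝔎 Ω) (P₀ : Place K 𝔠) (h : 𝔎 ≃ₐ[K] 𝔎) :
    (s27dnsPkg hld hgen hx A P₀).actC h = s27pkgActC A (s27pkg_hdeg hld hgen hx) h := rfl

end Main

end Fermat.Agent.S27
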