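/-
S27, route B, piece DEG-B4e "PKG", part 4 (helper45): **the UNCONDITIONAL degree package**.

`S27pkgNS` (the only hypothesis of `s27pkg` / `s27pkgO`) is helper99's `s27nst_hS`
(`S27/NonSpecTop.lean`).

* `s27pkg_ns_main` : `S27pkgNS hld hgen hx`;
* `s27pkgU A hld hgen hx G₀ hG₀` : the package with origin `Con G₀`, no hypothesis left;
* `s27pkgU₀ A hld hgen hx P₀`    : the package with origin `g · Con P₀`.
-/
import Fermat.Agent.S27.DegPkgO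
import Fermat.Agent.S27.NonSpecTop

set_option autoImplicit false
set_option linter.style.haveILetI false
set_option linter.unusedSectionVars false
set_option linter.unusedVariables false

noncomputable section

namespace Fermat.Agent.S27

open AlgebraicCurve IsLocalRing TensorProduct Module IntermediateField
open Fermat.Agent.S26

variable {K 𝔠 𝔎 Ω : Type*} [Field K] [Field 𝔠] [Field 𝔎] [Field Ω]
  [Algebra K 𝔠] [Algebra K 𝔎] [Algebra K Ω] [Algebra 𝔠 Ω] [Algebra 𝔎 Ω]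
  [IsScalarTower K 𝔠 Ω] [IsScalarTower K 𝔎 Ω]
  [IsAlgClosed K] [CharZero K] [IsAlgClosed 𝔎]
  (A : S27raAct K 𝔠 𝔎 Ω)
  (hld : Function.Injective (s26gspMu K 𝔠 𝔎 Ω)) (hgen : S26gspGen K 𝔠 𝔎 Ω)
  {x : 𝔠} (hx : Transcendental K x)
  [FiniteDimensional ↥(IntermediateField.adjoin K {x}) 𝔠]
  [Algebra.IsSeparable ↥(IntermediateField.adjoin K {x}) 𝔠]

/-- **NONSPECIAL** holds (helper99's `s27nst_hS`). -/
theorem s27pkg_ns_main : S27pkgNS hld hgen hx :=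
  fun e he f hf => s27nst_hS hld hgen hx e he f hf

/-- **the unconditional degree package**, origin `Con G₀`. -/
def s27pkgU (G₀ : Divisor K 𝔠) (hG₀ : Divisor.degree G₀ = (genusFF K 𝔠 : ℤ)) :
    S27DegPkg K 𝔠 𝔎 x (genusFF K 𝔠) (Place 𝔎 Ω) (Pic0 𝔎 Ω) :=
  s27pkgO A hld hgen hx G₀ hG₀ (s27pkg_ns_main hld hgen hx)

/-- **the unconditional degree package**, origin `g · Con P₀`. -/
def s27pkgU₀ (P₀ : Place K 𝔠) :
    S27DegPkg K 𝔠 𝔎 x (genusFF K 𝔠) (Place 𝔎 Ω) (Pic0 𝔎 Ω) :=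
  s27pkg A hld hgen hx P₀ (s27pkg_ns_main hld hgen hx)

@[simp] theorem s27pkgU_pt (G₀ : Divisor K 𝔠) (hG₀ : Divisor.degree G₀ = (genusFF K 𝔠 : ℤ))
    (e : 𝔠 →ₐ[K] 𝔎) : (s27pkgU A hld hgen hx G₀ hG₀).pt e = s27gpPlace hld hgen e hx := rfl

@[simp] theorem s27pkgU_cl (G₀ : Divisor K 𝔠) (hG₀ : Divisor.degree G₀ = (genusFF K 𝔠 : ℤ))
    (R : Fin (genusFF K 𝔠) → Place 𝔎 Ω) :
    (s27pkgU A hld hgen hx G₀ hG₀).cl R =
      s27pkgClO (s27pkg_hdeg hld hgen hx)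
        (Finsupp.mapDomain (s26gspCon hld hgen (s26gspf_hall hx)) G₀)
        (s27pkgO_degree hld hgen hx G₀ hG₀) R := rfl

@[simp] theorem s27pkgU_actP (G₀ : Divisor K 𝔠) (hG₀ : Divisor.degree G₀ = (genusFF K 𝔠 : ℤ))
    (h : 𝔎 ≃ₐ[K] 𝔎) : (s27pkgU A hld hgen hx G₀ hG₀).actP h = s27raPl A h := rfl

@[simp] theorem s27pkgU_actC (G₀ : Divisor K 𝔠) (hG₀ : Divisor.degree G₀ = (genusFF K 𝔠 : ℤ))
    (h : 𝔎 ≃ₐ[K] 𝔎) :
    (s27pkgU A hld hgen hx G₀ hG₀).actC h = s27pkgActC A (s27pkg_hdeg hld hgen hx) h := rfl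

end Fermat.Agent.S27

end
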