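/-
S27, route B, piece DEG / PSI-STABLE (helper18): in the abstract degree package
(S27/DegAbs.lean, S27/DegCount.lean), the point `q` with `n · cl (pt ∘ p) = cl (pt ∘ q)`
(`q` generic) is STABLE under `Gal(L / 𝔉)`: every `σ ∈ Aut(L / K)` which fixes `𝔉` permutes
the `q i`.  This is the hypothesis `stable` of `S27PsiPt` (S27/Psi.lean, helper15).

* `s27dgc_perm_coord` : `σ` fixes `𝔉` ⇒ `σ ∘ p i = p (π i)`  (X2);
* `s27dgc_stable`     : `σ` fixes `𝔉` ⇒ `σ ∘ q i = q (π i)`;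
* `s27dgc_stable_apply` : the same, pointwise.
-/
import Fermat.Agent.S27.DegCount

set_option autoImplicit false
set_option linter.unusedVariables false
set_option linter.unusedSectionVars false

noncomputable section

namespace Fermat.Agent.S27

universe u v w x y

section Stable

variable {K : Type u} {F : Type v} {L : Type w} {Ω : Type w} [Field K] [Field F] [Field L]
  [Field Ω] [Algebra K F] [Algebra K L] [Algebra K Ω] [Algebra Ω L] [IsScalarTower K Ω L]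
  {t : F} {g : ℕ} {Pl : Type x} {P : Type y} [AddCommGroup P]
  (pkg : S27DegPkg K F L t g Pl P) {𝔉 : IntermediateField K Ω} (fld : S27DegFld K F L Ω t g 𝔉)
  (hX2 : ∀ ψ₁ ψ₂ : Ω →ₐ[K] L, (∀ x : 𝔉, ψ₁ (x : Ω) = ψ₂ (x : Ω)) →
    ∃ π : Equiv.Perm (Fin g), ∀ y, ψ₂ y = ψ₁ (fld.perm π y))

include hX2 in
/-- `σ` fixes `𝔉` ⇒ `σ` permutes the coordinates. -/
theorem s27dgc_perm_coord (σ : L ≃ₐ[K] L)
    (hσ : ∀ x : 𝔉, σ (algebraMap Ω L (x : Ω)) = algebraMap Ω L (x : Ω)) :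
    ∃ π : Equiv.Perm (Fin g), ∀ i, (σ : L →ₐ[K] L).comp (s27dgcP fld i) = s27dgcP fld (π i) := by
  obtain ⟨π, hπ⟩ := hX2 (IsScalarTower.toAlgHom K Ω L)
    ((σ : L →ₐ[K] L).comp (IsScalarTower.toAlgHom K Ω L)) (fun x => (hσ x).symm)
  refine ⟨π, fun i => AlgHom.ext fun u => ?_⟩
  have h1 := hπ (fld.ι i u)
  rw [fld.perm_ι] at h1
  exact h1

variable (n : ℕ) (q : Fin g → F →ₐ[K] L) (hq : S27dgGeneric K t q)
  (hDOM : (n : ℤ) • s27dgcCl pkg (s27dgcP fld) = s27dgcCl pkg q)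

include hq hDOM hX2 in
/-- **PSI-STABLE.**  `σ` fixes `𝔉` ⇒ `σ` permutes the `q i`. -/
theorem s27dgc_stable (σ : L ≃ₐ[K] L)
    (hσ : ∀ x : 𝔉, σ (algebraMap Ω L (x : Ω)) = algebraMap Ω L (x : Ω)) :
    ∃ π : Equiv.Perm (Fin g), ∀ i, (σ : L →ₐ[K] L).comp (q i) = q (π i) := by
  obtain ⟨π, hπ⟩ := s27dgc_perm_coord fld hX2 σ hσ
  have h1 : s27dgcCl pkg (fun i => (σ : L →ₐ[K] L).comp (s27dgcP fld i))
      = s27dgcCl pkg (s27dgcP fld) := by
    have : (fun i => (σ : L →ₐ[K] L).comp (s27dgcP fld i)) = fun i => s27dgcP fld (π i) :=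
      funext hπ
    rw [this, s27dgc_cl_perm]
  have h2 := s27dgc_smul_act pkg fld n q hDOM σ
  rw [h1, hDOM] at h2
  exact s27dgc_ns pkg q hq _ h2.symm

include hq hDOM hX2 in
theorem s27dgc_stable_apply (σ : L ≃ₐ[K] L)
    (hσ : ∀ x : 𝔉, σ (algebraMap Ω L (x : Ω)) = algebraMap Ω L (x : Ω)) :
    ∃ π : Equiv.Perm (Fin g), ∀ i u, σ (q i u) = q (π i) u := by
  obtain ⟨π, hπ⟩ := s27dgc_stable pkg fld hX2 n q hq hDOM σ hσ
  exact ⟨π, fun i u => congrArg (fun e : F →ₐ[K] L => e u) (hπ i)⟩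

end Stable

end Fermat.Agent.S27

end
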