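import Mathlib

/-!
# S27 route B, LE-ALG leaf L1: MIN-MINOR

`V` a valuation subring of a field `Ω`, `e : J → (ι → Ω)` a finite family of vectors of `Ω^ι`
containing a basis.  For `σ : ι → J` put `s27dmDet e σ = det [e (σ k) i]`.

* `s27dm_exists_min` : there is `σ₀` with `det σ₀ ≠ 0` and `det σ / det σ₀ ∈ V` for all `σ`
  (the minor of minimal valuation generates the ideal of all maximal minors).
* `s27dm_span` : every `e l` is a `V`-linear combination of the `e (σ₀ k)` (Cramer), i.e.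
  `(e (σ₀ k))_k` is a `V`-basis of the `V`-span of the family.
* `s27dm_min_unique` : two minimal `σ₀`, `σ₁` differ by a unit of `V`.
* `s27dm_mono` : enlarging the family divides the minimal minor.
-/

namespace Fermat.Agent.S27

section minminor

variable {Ω : Type*} [Field Ω] (V : ValuationSubring Ω)
variable {ι J : Type*} [Fintype ι] [DecidableEq ι]

/-- The minor of the family `e` selected by `σ`. -/
noncomputable def s27dmDet (e : J → ι → Ω) (σ : ι → J) : Ω :=
  (Matrix.of fun i k => e (σ k) i).det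

theorem s27dm_exists_min [Finite J] (e : J → ι → Ω) (h : ∃ σ : ι → J, s27dmDet e σ ≠ 0) :
    ∃ σ₀ : ι → J, s27dmDet e σ₀ ≠ 0 ∧ ∀ σ : ι → J, s27dmDet e σ / s27dmDet e σ₀ ∈ V := by
  classical
  obtain ⟨σh, hσh⟩ := h
  have : Nonempty (ι → J) := ⟨σh⟩
  have : Finite (ι → J) := Pi.finite
  obtain ⟨σ₀, hσ₀⟩ := Finite.exists_max (fun σ : ι → J => V.valuation (s27dmDet e σ))
  have hne : s27dmDet e σ₀ ≠ 0 := by
    intro h0
    have h1 := hσ₀ σh
    simp only [h0, map_zero] at h1
    have h2 : V.valuation (s27dmDet e σh) = 0 := le_antisymm h1 zero_le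
    exact hσh ((map_eq_zero _).mp h2)
  refine ⟨σ₀, hne, fun σ => ?_⟩
  rw [← ValuationSubring.valuation_le_one_iff, map_div₀]
  have hv : V.valuation (s27dmDet e σ₀) ≠ 0 := (map_ne_zero _).mpr hne
  rw [div_le_iff₀ (lt_of_le_of_ne zero_le hv.symm), one_mul]
  exact hσ₀ σ

theorem s27dm_det_update (e : J → ι → Ω) (σ₀ : ι → J) (k : ι) (l : J) :
    s27dmDet e (Function.update σ₀ k l)
      = ((Matrix.of fun i k => e (σ₀ k) i).updateCol k (e l)).det := by
  unfold s27dmDet
  congr 1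
  ext i k'
  by_cases hk : k' = k
  · subst hk
    simp
  · simp [Matrix.updateCol_ne hk, Function.update_of_ne hk]

/-- Cramer: the family is `V`-spanned by the minimal sub-family. -/
theorem s27dm_span (e : J → ι → Ω) (σ₀ : ι → J) (h0 : s27dmDet e σ₀ ≠ 0)
    (hmin : ∀ σ : ι → J, s27dmDet e σ / s27dmDet e σ₀ ∈ V) (l : J) :
    ∃ c : ι → Ω, (∀ k, c k ∈ V) ∧ e l = ∑ k, c k • e (σ₀ k) := by
  classical
  refine ⟨fun k => s27dmDet e (Function.update σ₀ k l) / s27dmDet e σ₀,
    fun k => hmin _, ?_⟩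
  set A : Matrix ι ι Ω := Matrix.of fun i k => e (σ₀ k) i with hA
  have hdet : A.det = s27dmDet e σ₀ := rfl
  have hc := Matrix.mulVec_cramer A (e l)
  funext i
  have hi := congrFun hc i
  simp only [Matrix.mulVec, dotProduct, Pi.smul_apply, smul_eq_mul] at hi
  simp only [Finset.sum_apply, Pi.smul_apply, smul_eq_mul]
  have h1 : e l i = (∑ k, A i k * A.cramer (e l) k) / A.det := by
    rw [hi, hdet, mul_div_assoc, mul_comm, div_mul_cancel₀ _ h0]
  rw [h1, Finset.sum_div]
  refine Finset.sum_congr rfl fun k _ => ?_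
  rw [Matrix.cramer_apply, ← s27dm_det_update, hdet]
  simp only [hA, Matrix.of_apply]
  field_simp

theorem s27dm_min_unique (e : J → ι → Ω) (σ₀ σ₁ : ι → J)
    (h0 : s27dmDet e σ₀ ≠ 0) (h1 : s27dmDet e σ₁ ≠ 0)
    (hmin0 : ∀ σ : ι → J, s27dmDet e σ / s27dmDet e σ₀ ∈ V)
    (hmin1 : ∀ σ : ι → J, s27dmDet e σ / s27dmDet e σ₁ ∈ V) :
    s27dmDet e σ₁ / s27dmDet e σ₀ ∈ V ∧ (s27dmDet e σ₁ / s27dmDet e σ₀)⁻¹ ∈ V ∧
      s27dmDet e σ₁ / s27dmDet e σ₀ ≠ 0 := by
  refine ⟨hmin0 σ₁, ?_, div_ne_zero h1 h0⟩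
  rw [inv_div]
  exact hmin1 σ₀

/-- Enlarging the family: the minimal minor of the larger family divides the minimal minor of
the smaller one. -/
theorem s27dm_mono {J' : Type*} (e : J → ι → Ω) (e' : J' → ι → Ω) (j : J → J')
    (hj : ∀ l, e' (j l) = e l) (σ₀ : ι → J) (σ₀' : ι → J')
    (hmin' : ∀ σ : ι → J', s27dmDet e' σ / s27dmDet e' σ₀' ∈ V) :
    s27dmDet e σ₀ / s27dmDet e' σ₀' ∈ V := by
  have : s27dmDet e σ₀ = s27dmDet e' (j ∘ σ₀) := by
    unfold s27dmDet
    congr 1
    ext i k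
    simp [hj]
  rw [this]
  exact hmin' _

/-- If every vector of the larger family is a `V`-combination of the smaller family, the two
minimal minors differ by a unit: every minor of the larger family is a `V`-multiple of the
minimal minor of the smaller one. -/
theorem s27dm_of_span [Fintype J] [DecidableEq J] {J' : Type*} (e : J → ι → Ω)
    (e' : J' → ι → Ω)
    (hspan : ∀ l', ∃ c : J → Ω, (∀ l, c l ∈ V) ∧ e' l' = ∑ l, c l • e l)
    (σ₀ : ι → J) (h0 : s27dmDet e σ₀ ≠ 0)
    (hmin : ∀ σ : ι → J, s27dmDet e σ / s27dmDet e σ₀ ∈ V) (σ' : ι → J') :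
    s27dmDet e' σ' / s27dmDet e σ₀ ∈ V := by
  classical
  -- first reduce to the minimal sub-family: e' l' = ∑_k c k • e (σ₀ k) with c ∈ V
  have hspan₀ : ∀ l', ∃ c : ι → Ω, (∀ k, c k ∈ V) ∧ e' l' = ∑ k, c k • e (σ₀ k) := by
    intro l'
    obtain ⟨c, hc, hl'⟩ := hspan l'
    choose d hd hd' using fun l => s27dm_span V e σ₀ h0 hmin l
    refine ⟨fun k => ∑ l, c l * d l k, fun k => ?_, ?_⟩
    · exact Subring.sum_mem _ fun l _ => V.mul_mem _ _ (hc l) (hd l k)
    · rw [hl']
      calc ∑ l, c l • e l = ∑ l, c l • ∑ k, d l k • e (σ₀ k) := by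
            refine Finset.sum_congr rfl fun l _ => ?_
            rw [← hd' l]
        _ = ∑ l, ∑ k, (c l * d l k) • e (σ₀ k) := by
            refine Finset.sum_congr rfl fun l _ => ?_
            rw [Finset.smul_sum]
            refine Finset.sum_congr rfl fun k _ => ?_
            rw [smul_smul]
        _ = ∑ k, ∑ l, (c l * d l k) • e (σ₀ k) := Finset.sum_comm
        _ = ∑ k, (∑ l, c l * d l k) • e (σ₀ k) := by
            refine Finset.sum_congr rfl fun k _ => ?_
            rw [Finset.sum_smul]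
  choose c hc hc' using hspan₀
  -- matrix identity: [e' (σ' k)] = [e (σ₀ k)] * C, C with entries in V
  set A : Matrix ι ι Ω := Matrix.of fun i k => e (σ₀ k) i with hA
  set C : Matrix ι ι Ω := Matrix.of fun k k' => c (σ' k') k with hC
  have hmul : (Matrix.of fun i k => e' (σ' k) i) = A * C := by
    ext i k'
    simp only [Matrix.of_apply, Matrix.mul_apply, hA, hC]
    rw [hc' (σ' k')]
    simp only [Finset.sum_apply, Pi.smul_apply, smul_eq_mul]
    refine Finset.sum_congr rfl fun k _ => ?_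
    rw [mul_comm]
  have hdet : s27dmDet e' σ' = s27dmDet e σ₀ * C.det := by
    unfold s27dmDet
    rw [hmul, Matrix.det_mul]
  rw [hdet, mul_comm, mul_div_assoc, div_self h0, mul_one]
  -- det C ∈ V
  let C' : Matrix ι ι V.toSubring := Matrix.of fun k k' => ⟨c (σ' k') k, hc (σ' k') k⟩
  have hCC : C = (V.toSubring.subtype).mapMatrix C' := by
    ext i j
    rfl
  rw [hCC, ← RingHom.map_det]
  exact (C'.det).2

end minminor

end Fermat.Agent.S27
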