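/-
S27-B, POLE-DIV, leaf **DISJ** (helper26, prefix s27dj_): NO DOUBLE ZERO AT A MOVING POINT.

Abstract form (setting of S27/NonSpecDer.lean: `Ω / L` with the prelude's places).  `E` a divisor,
`P` a place with `E P ≤ 0`, `Δ` a derivation of `Ω` (char 0) which preserves every valuation ring,
kills a uniformiser at every place `R ≠ P` of the support of `E`, and MOVES `P` (`Δ π` a unit at
`P` for a uniformiser `π`).  If `L(E)` is at most one-dimensional, every `h ≠ 0` in `L(E)` has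
order EXACTLY `−E P` at `P`:

* `s27dj_move`   : `P.ord f ≠ 0 ⇒ Δ f ≠ 0 ∧ P.ord (Δ f) = P.ord f − 1` (zeros AND poles; the pole
                   case is `s27nsd_raise_of_move`);
* `s27dj_stable` : `h ∈ L(E)`, `−E P < P.ord h` ⇒ `Δ h ∈ L(E)`, `Δ h ≠ 0`, `ord_P (Δ h) = ord_P h − 1`;
* **`s27dj_ord_eq`** : `dim L(E) ≤ 1` (proportionality form) ⇒ `P.ord h = −E P`.

Use (POLE-DIV C2, the nodes of the cluster at `O″` must be DISTINCT): `E = Con (2G₀) − Σ_k P_k`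
(`P_k` the generic points of `D_gen`), `P = P_i`, `Δ = 1 ⊗ δ` with `δ (ι_i x) = 1`, `δ (ι_k x) = 0`:
the generator `h̃` of `L(Con 2G₀ − D_gen)` has a SIMPLE zero at `P_i`, so no point of the residual
divisor `D′` (`D_gen + D′ ~ 2G₀`) equals a point of `D_gen`.
-/
import Fermat.Agent.S27.NonSpecDer

set_option autoImplicit false
set_option linter.style.haveILetI false
set_option linter.unusedSectionVars false
set_option linter.unusedVariables false

namespace Fermat.Agent.S27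

open AlgebraicCurve Module Fermat.Agent.S24 Fermat.Agent.ES.R

variable {L Ω : Type*} [Field L] [Field Ω] [Algebra L Ω]

section Der

variable {R₀ : Type*} [CommRing R₀] [Algebra R₀ Ω]

/-- A derivation preserving `O_P` with `Δπ` a unit at `P` (char 0) lowers every NONZERO order at
`P` by exactly one. -/
theorem s27dj_move [CharZero L] (Δ : Derivation R₀ Ω Ω) (P : Place L Ω)
    (hreg : ∀ f : Ω, f ∈ P.toValuationSubring → Δ f ∈ P.toValuationSubring)
    {π : Ω} (hπ : P.ord π = 1) (hΔπ0 : Δ π ≠ 0) (hΔπ : P.ord (Δ π) = 0) {f : Ω} (hf : f ≠ 0)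
    (hne : P.ord f ≠ 0) : Δ f ≠ 0 ∧ P.ord (Δ f) = P.ord f - 1 := by
  have hπ0 : π ≠ 0 := by
    rintro rfl
    simp at hπ
  set n : ℤ := P.ord f with hn
  have hpn : π ^ n ≠ 0 := zpow_ne_zero n hπ0
  have hpnn : π ^ (-n) ≠ 0 := zpow_ne_zero (-n) hπ0
  have hpn1 : π ^ (n - 1) ≠ 0 := zpow_ne_zero (n - 1) hπ0
  set v : Ω := f * π ^ (-n) with hv
  have hv0 : v ≠ 0 := mul_ne_zero hf hpnn
  have hvord : P.ord v = 0 := by
    rw [hv, P.ord_mul hf hpnn, P.ord_zpow, hπ]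
    omega
  have hvmem : v ∈ P.toValuationSubring := PlaceAux.mem_of_ord_nonneg P hvord.ge
  have hfv : f = v * π ^ n := by
    rw [hv, mul_assoc, ← zpow_add₀ hπ0]
    simp
  have hnL : ((n : ℤ) : Ω) = algebraMap L Ω ((n : ℤ) : L) := by simp
  haveI : CharZero Ω := charZero_of_injective_algebraMap (algebraMap L Ω).injective
  have hn0 : ((n : ℤ) : Ω) ≠ 0 := Int.cast_ne_zero.mpr hne
  have hnord : P.ord ((n : ℤ) : Ω) = 0 := by rw [hnL]; exact PlaceAux.ord_algebraMap P _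
  set a : Ω := (n : Ω) * v * Δ π with ha
  have ha0 : a ≠ 0 := mul_ne_zero (mul_ne_zero hn0 hv0) hΔπ0
  have haord : P.ord a = 0 := by
    rw [ha, P.ord_mul (mul_ne_zero hn0 hv0) hΔπ0, P.ord_mul hn0 hv0, hnord, hvord, hΔπ]
    simp
  have hΔf : Δ f = π ^ (n - 1) * (a + π * Δ v) := by
    rw [hfv, Derivation.leibniz, Derivation.leibniz_zpow]
    simp only [smul_eq_mul, zsmul_eq_mul, ha]
    have : π ^ n = π ^ (n - 1) * π := by
      rw [← zpow_add_one₀ hπ0]; simp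
    rw [this]
    ring
  have hsum : a + π * Δ v ≠ 0 ∧ P.ord (a + π * Δ v) = 0 := by
    by_cases hΔv : Δ v = 0
    · rw [hΔv, mul_zero, add_zero]; exact ⟨ha0, haord⟩
    · have h1 : 0 ≤ P.ord (Δ v) := (PlaceAux.ord_nonneg_iff P hΔv).mpr (hreg v hvmem)
      have h2 : π * Δ v ≠ 0 := mul_ne_zero hπ0 hΔv
      have h3 : P.ord a < P.ord (π * Δ v) := by
        rw [haord, P.ord_mul hπ0 hΔv, hπ]; omega
      have h4 := PlaceAux.ord_add_eq_of_lt P ha0 h2 h3
      refine ⟨?_, by rw [h4, haord]⟩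
      intro h0
      have : a = -(π * Δ v) := eq_neg_of_add_eq_zero_left h0
      rw [this, PlaceAux.ord_neg] at h3
      exact lt_irrefl _ h3
  refine ⟨?_, ?_⟩
  · rw [hΔf]; exact mul_ne_zero hpn1 hsum.1
  · rw [hΔf, P.ord_mul hpn1 hsum.1, P.ord_zpow, hπ, hsum.2]
    omega

/-- a section of `L(E)` vanishing at `P` to a higher order than required: `Δ h` is again a
nonzero section of `L(E)`, of order one less at `P`. -/
theorem s27dj_stable [CharZero L] (Δ : Derivation R₀ Ω Ω) (E : Divisor L Ω) (P : Place L Ω)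
    (hreg : ∀ (R : Place L Ω) (f : Ω), f ∈ R.toValuationSubring → Δ f ∈ R.toValuationSubring)
    (hconst : ∀ R : Place L Ω, R ≠ P → E R ≠ 0 → ∃ π : Ω, R.ord π = 1 ∧ Δ π = 0)
    (hmove : ∃ π : Ω, P.ord π = 1 ∧ Δ π ≠ 0 ∧ P.ord (Δ π) = 0)
    (hEP : E P ≤ 0) {h : Ω} (h0 : h ≠ 0) (hE : h ∈ riemannRochSpace E)
    (hhigh : -E P < P.ord h) :
    Δ h ≠ 0 ∧ Δ h ∈ riemannRochSpace E ∧ P.ord (Δ h) = P.ord h - 1 := by
  obtain ⟨π, hπ, hΔπ0, hΔπ⟩ := hmove
  have hne : P.ord h ≠ 0 := by omega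
  obtain ⟨hΔh0, hΔhord⟩ := s27dj_move Δ P (hreg P) hπ hΔπ0 hΔπ h0 hne
  refine ⟨hΔh0, ?_, hΔhord⟩
  have hraise := s27nsd_raise_of_derivation Δ E P hreg hconst ⟨π, hπ, hΔπ0, hΔπ⟩
  rw [mem_riemannRochSpace_iff] at hE ⊢
  intro R
  right
  have hER : -E R ≤ R.ord h := by
    rcases hE R with hz | hle
    · exact absurd hz h0
    · exact hle
  by_cases hRP : R = P
  · subst hRP
    rw [hΔhord]
    omega
  · rcases hraise.keep R hRP h h0 hER with hz | hle
    · exact absurd hz hΔh0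
    · exact hle

/-- **DISJ, abstract**: if `L(E)` is at most one-dimensional (any two sections are proportional),
a nonzero section has order exactly `−E P` at the moving place `P`. -/
theorem s27dj_ord_eq [CharZero L] (Δ : Derivation R₀ Ω Ω) (E : Divisor L Ω) (P : Place L Ω)
    (hreg : ∀ (R : Place L Ω) (f : Ω), f ∈ R.toValuationSubring → Δ f ∈ R.toValuationSubring)
    (hconst : ∀ R : Place L Ω, R ≠ P → E R ≠ 0 → ∃ π : Ω, R.ord π = 1 ∧ Δ π = 0)
    (hmove : ∃ π : Ω, P.ord π = 1 ∧ Δ π ≠ 0 ∧ P.ord (Δ π) = 0)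
    (hEP : E P ≤ 0)
    (hdim : ∀ f ∈ riemannRochSpace E, ∀ k ∈ riemannRochSpace E, f ≠ 0 → ∃ c : L, k = c • f)
    {h : Ω} (h0 : h ≠ 0) (hE : h ∈ riemannRochSpace E) : P.ord h = -E P := by
  have hge : -E P ≤ P.ord h := by
    rcases (mem_riemannRochSpace_iff.mp hE) P with hz | hle
    · exact absurd hz h0
    · exact hle
  by_contra hne
  have hhigh : -E P < P.ord h := lt_of_le_of_ne hge (Ne.symm hne)
  obtain ⟨hΔ0, hΔE, hΔord⟩ := s27dj_stable Δ E P hreg hconst hmove hEP h0 hE hhigh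
  obtain ⟨c, hc⟩ := hdim h hE (Δ h) hΔE h0
  have hc0 : c ≠ 0 := by
    rintro rfl
    rw [zero_smul] at hc
    exact hΔ0 hc
  have hcΩ : algebraMap L Ω c ≠ 0 := by simpa using hc0
  have : P.ord (Δ h) = P.ord h := by
    rw [hc, Algebra.smul_def, P.ord_mul hcΩ h0, PlaceAux.ord_algebraMap, zero_add]
  omega

/-- the same with `finrank ≤ 1`. -/
theorem s27dj_ord_eq_of_finrank [CharZero L] (Δ : Derivation R₀ Ω Ω) (E : Divisor L Ω)
    (P : Place L Ω)
    (hreg : ∀ (R : Place L Ω) (f : Ω), f ∈ R.toValuationSubring → Δ f ∈ R.toValuationSubring)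
    (hconst : ∀ R : Place L Ω, R ≠ P → E R ≠ 0 → ∃ π : Ω, R.ord π = 1 ∧ Δ π = 0)
    (hmove : ∃ π : Ω, P.ord π = 1 ∧ Δ π ≠ 0 ∧ P.ord (Δ π) = 0)
    (hEP : E P ≤ 0) [Module.Finite L ↥(riemannRochSpace E)]
    (hdim : finrank L ↥(riemannRochSpace E) ≤ 1)
    {h : Ω} (h0 : h ≠ 0) (hE : h ∈ riemannRochSpace E) : P.ord h = -E P := by
  refine s27dj_ord_eq Δ E P hreg hconst hmove hEP ?_ h0 hE
  intro f hf k hk hf0
  have h1 := (finrank_le_one_iff (K := L) (V := ↥(riemannRochSpace E))).mp hdim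
  obtain ⟨v, hv⟩ := h1
  obtain ⟨a, ha⟩ := hv ⟨f, hf⟩
  obtain ⟨b, hb⟩ := hv ⟨k, hk⟩
  have ha0 : a ≠ 0 := by
    rintro rfl
    rw [zero_smul] at ha
    exact hf0 (by simpa using (congrArg Subtype.val ha).symm)
  refine ⟨b * a⁻¹, ?_⟩
  have hfa : (f : Ω) = a • (v : Ω) := by simpa using (congrArg Subtype.val ha).symm
  have hkb : (k : Ω) = b • (v : Ω) := by simpa using (congrArg Subtype.val hb).symm
  rw [hkb, hfa, smul_smul, mul_assoc, inv_mul_cancel₀ ha0, mul_one]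

end Der

end Fermat.Agent.S27
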