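/-
S27-B, POLE-DIV, leaf **DISJ**, point form (helper26, prefix s27dj_): THE RESIDUAL DIVISOR OF A
GENERIC DIVISOR HAS NO POINT IN COMMON WITH IT.

Setting of S27/DomZ.lean (helper86): `Ω = Frac (𝔠 ⊗[K] 𝔎)`, point places `s27gpPlace e`.
`e : Fin g → 𝔠 →ₐ[K] 𝔎` GENERIC (`e i x` algebraically independent), `∑ pt (e i)` non-special,
`q : Fin g → 𝔠 →ₐ[K] 𝔎` ANY tuple of points with `∑ pt (e i) + ∑ pt (q j) + C` principal, `C`
without point places.  Then `e i ≠ q j` for all `i`, `j`.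

Proof (no new geometry): all `g` places `pt (e i)` are zeros of the function `h`, so by DOM
(`s27dom_final`, logarithmic derivative) every `e i x` is algebraic over the field `N` generated
by the coordinates of the `q j` which are NOT among the `e i`; if some `q j₀ = e i₀`, there are at
most `g − 1` of them, against TRDEG (`s27dgt_main`).

* `s27dj_app`  : divisor form;
* `s27dj_clO`  : class form `cl_O (pt ∘ q) = − cl_O (pt ∘ e)` (`s27pkgClO`, any origin `O` of
                 degree `g` without point places);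
* `s27dj_pkgO` : for `pkg = s27pkgO A hld hgen hx G₀ hG₀ hns` (origin `Con G₀`).

Use: POLE-DIV C2 (`s27pdv_value`, `s27pdc_newton_last`): the nodes of the cluster at `O″` — the
points of `D_gen ∪ D′` with centre `O″` — are pairwise DISTINCT.
-/
import Mathlib
import Fermat.Agent.S27.DomZ

set_option autoImplicit false
set_option linter.unusedVariables false
set_option linter.unusedSectionVars false
set_option linter.style.haveILetI false

namespace Fermat.Agent.S27

open AlgebraicCurve TensorProduct Fermat.Agent.S26 Fermat.Agent.S24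

section Disj

variable {K 𝔠 𝔎 Ω : Type*} [Field K] [Field 𝔠] [Field 𝔎] [Field Ω]
  [Algebra K 𝔠] [Algebra K 𝔎] [Algebra K Ω] [Algebra 𝔠 Ω] [Algebra 𝔎 Ω]
  [IsScalarTower K 𝔠 Ω] [IsScalarTower K 𝔎 Ω]

variable (hld : Function.Injective (s26gspMu K 𝔠 𝔎 Ω)) (hgen : S26gspGen K 𝔠 𝔎 Ω)
  (hall : ∀ P : Place K 𝔠, Function.Surjective (algebraMap K P.ResidueField))
  {x : 𝔠} (hx : Transcendental K x)
  [FiniteDimensional ↥(IntermediateField.adjoin K {x}) 𝔠]
  [Algebra.IsSeparable ↥(IntermediateField.adjoin K {x}) 𝔠]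

include hall in
/-- **DISJ, divisor form**: if `∑ pt (e i) + ∑ pt (q j) + C` is principal, `e` generic,
`∑ pt (e i)` non-special and `C` has no point places in its support, then no `q j` is an `e i`. -/
theorem s27dj_app [CharZero K] [IsAlgClosed 𝔎] {g : ℕ} (e : Fin g → 𝔠 →ₐ[K] 𝔎)
    (he : AlgebraicIndependent K (fun i => e i x))
    (hns : ∀ f : Ω,
      (∀ w : Place 𝔎 Ω, (∀ i, w ≠ s27gpPlace hld hgen (e i) hx) → f ∈ w.toValuationSubring) →
      (∀ i, f * (algebraMap 𝔠 Ω x - algebraMap 𝔎 Ω (e i x)) ∈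
        (s27gpPlace hld hgen (e i) hx).toValuationSubring) →
      ∃ a : 𝔎, f = algebraMap 𝔎 Ω a)
    (q : Fin g → 𝔠 →ₐ[K] 𝔎) (C : Divisor 𝔎 Ω)
    (hC : ∀ p : 𝔠 →ₐ[K] 𝔎, C (s27gpPlace hld hgen p hx) = 0)
    (hprin : Divisor.IsPrincipal (∑ i, Finsupp.single (s27gpPlace hld hgen (e i) hx) (1 : ℤ)
      + ∑ j, Finsupp.single (s27gpPlace hld hgen (q j) hx) (1 : ℤ) + C)) :
    ∀ i j, e i ≠ q j := by
  classical
  intro i₀ j₀ hij
  have hres : ∀ w : Place 𝔎 Ω, Function.Surjective (algebraMap 𝔎 w.ResidueField) :=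
    fun w => s27pt_hres hld hgen hx w
  have heinj : Function.Injective e := by
    intro i j hij
    exact he.injective (show e i x = e j x by rw [hij])
  have hPinj : Function.Injective (fun i => s27gpPlace hld hgen (e i) hx) := fun i j hij =>
    heinj (s27pt_gpPlace_injective hld hgen hx hij)
  obtain ⟨h, hh, hD⟩ := hprin
  have hDw : ∀ w : Place 𝔎 Ω, w.ord h =
      (∑ i, Finsupp.single (s27gpPlace hld hgen (e i) hx) (1 : ℤ)) w
        + (∑ j, Finsupp.single (s27gpPlace hld hgen (q j) hx) (1 : ℤ)) w + C w := by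
    intro w
    rw [← hD w]
    simp only [Finsupp.coe_add, Pi.add_apply]
  set I : Set (Fin g) := {j | ∀ i, q j ≠ e i} with hI
  set b : Fin g → 𝔎 := fun j => q j x with hb
  set N : IntermediateField K 𝔎 := IntermediateField.adjoin K (b '' I) with hN
  have hkey : ∀ i, IsAlgebraic N (e i x) := by
    refine s27dom_final hld hgen hx hall hres (ι := Fin g)
      (fun i => s27gpPlace hld hgen (e i) hx) (fun _ => x) (fun i => e i x)
      (fun i => s27gpPlace_ord_unif hld hgen (e i) hx) h hh ?_ N ?_ hns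
    · intro i
      have h1 := hDw (s27gpPlace hld hgen (e i) hx)
      rw [hC, s27dom_sum_single_inj (fun i => s27gpPlace hld hgen (e i) hx) hPinj i] at h1
      have h2 := s27dom_sum_single_nonneg (fun j => s27gpPlace hld hgen (q j) hx)
        (s27gpPlace hld hgen (e i) hx)
      show (s27gpPlace hld hgen (e i) hx).ord h ≠ 0
      omega
    · intro w hw hw0
      rcases s27pt_classify hld hgen hall hx w with ⟨Q, rfl⟩ | ⟨p, rfl⟩
      · obtain ⟨s, hs⟩ := place_exists_ord_eq_one Q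
        refine ⟨s, 0, ?_, N.zero_mem⟩
        rw [map_zero, sub_zero, s26gspc_ord_algebraMap, hs]
      · refine ⟨x, p x, s27gpPlace_ord_unif hld hgen p hx, ?_⟩
        have h1 := hDw (s27gpPlace hld hgen p hx)
        rw [hC, add_zero] at h1
        have h2 : (∑ i, Finsupp.single (s27gpPlace hld hgen (e i) hx) (1 : ℤ))
            (s27gpPlace hld hgen p hx) = 0 := by
          by_contra h3
          obtain ⟨i', hi'⟩ := s27dom_sum_single_pos
            (fun i => s27gpPlace hld hgen (e i) hx) _ h3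
          exact hw i' hi'.symm
        rw [h2, zero_add] at h1
        have h4 : (∑ j, Finsupp.single (s27gpPlace hld hgen (q j) hx) (1 : ℤ))
            (s27gpPlace hld hgen p hx) ≠ 0 := by
          rw [← h1]; exact hw0
        obtain ⟨j, hj⟩ := s27dom_sum_single_pos
          (fun j => s27gpPlace hld hgen (q j) hx) _ h4
        have hqp : q j = p := s27pt_gpPlace_injective hld hgen hx hj
        have hjI : j ∈ I := by
          intro i hqe
          apply hw i
          rw [← hqp, hqe]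
        have hmem : b j ∈ N := IntermediateField.subset_adjoin K _ ⟨j, hjI, rfl⟩
        rw [hb] at hmem
        simpa [hqp] using hmem
  obtain ⟨hIuniv, -⟩ := s27dgt_main K 𝔎 g (fun i => e i x) he I b hkey
  have hj₀ : j₀ ∈ I := by
    rw [hIuniv]
    exact Set.mem_univ j₀
  exact hj₀ i₀ hij.symm

/-- **DISJ, class form, arbitrary origin**: `cl_O (pt ∘ q) = − cl_O (pt ∘ e)`, `e` generic
⇒ no `q j` is an `e i`. -/
theorem s27dj_clO [IsAlgClosed K] [CharZero K] [IsAlgClosed 𝔎] {g : ℕ}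
    (hdeg : ∀ w : Place 𝔎 Ω, w.deg = 1) (O : Divisor 𝔎 Ω) (hO : Divisor.degree O = g)
    (hOpt : ∀ p : 𝔠 →ₐ[K] 𝔎, O (s27gpPlace hld hgen p hx) = 0)
    (e : Fin g → 𝔠 →ₐ[K] 𝔎) (he : AlgebraicIndependent K (fun i => e i x))
    (hS : ∀ f ∈ riemannRochSpace (s27pkgSum fun i => s27gpPlace hld hgen (e i) hx),
      ∃ c : 𝔎, f = algebraMap 𝔎 Ω c)
    (q : Fin g → 𝔠 →ₐ[K] 𝔎)
    (hq : s27pkgClO hdeg O hO (fun j => s27gpPlace hld hgen (q j) hx) =
      (-1 : ℤ) • s27pkgClO hdeg O hO (fun i => s27gpPlace hld hgen (e i) hx)) :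
    ∀ i j, e i ≠ q j := by
  classical
  have heinj : Function.Injective e := by
    intro i j hij
    exact he.injective (show e i x = e j x by rw [hij])
  have hPinj : Function.Injective (fun i => s27gpPlace hld hgen (e i) hx) := fun i j hij =>
    heinj (s27pt_gpPlace_injective hld hgen hx hij)
  have hmk : (-1 : ℤ) • s27pkgClO hdeg O hO (fun i => s27gpPlace hld hgen (e i) hx) =
      Pic0.mk ((-1 : ℤ) • s27pkgDivZeroO hdeg O hO (fun i => s27gpPlace hld hgen (e i) hx)) := rfl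
  rw [hmk] at hq
  unfold s27pkgClO at hq
  obtain ⟨f, hf, hfv⟩ := (s27pkg_mk_eq_iff _ _).1 hq
  have hfv' : ∀ v : Place 𝔎 Ω, v.ord f =
      (∑ j, Finsupp.single (s27gpPlace hld hgen (q j) hx) (1 : ℤ)) v - O v
        + ((∑ i, Finsupp.single (s27gpPlace hld hgen (e i) hx) (1 : ℤ)) v - O v) := by
    intro v
    have h1 := hfv v
    have h2 : ((s27pkgDivZeroO hdeg O hO (fun j => s27gpPlace hld hgen (q j) hx) :
        Divisor.degZero (K := 𝔎) (F := Ω)) : Divisor 𝔎 Ω) v
        = (∑ j, Finsupp.single (s27gpPlace hld hgen (q j) hx) (1 : ℤ)) v - O v := by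
      rw [s27pkgDivZeroO_coe, Finsupp.sub_apply]; rfl
    have h3 : (((-1 : ℤ) • s27pkgDivZeroO hdeg O hO (fun i => s27gpPlace hld hgen (e i) hx) :
        Divisor.degZero (K := 𝔎) (F := Ω)) : Divisor 𝔎 Ω) v
        = (-1 : ℤ) * ((∑ i, Finsupp.single (s27gpPlace hld hgen (e i) hx) (1 : ℤ)) v - O v) := by
      show ((-1 : ℤ) • (s27pkgSum (fun i => s27gpPlace hld hgen (e i) hx) - O)) v = _
      rw [Finsupp.smul_apply, Finsupp.sub_apply, smul_eq_mul]; rfl
    rw [h2, h3] at h1
    omega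
  have hprin : Divisor.IsPrincipal
      (∑ i, Finsupp.single (s27gpPlace hld hgen (e i) hx) (1 : ℤ)
        + ∑ j, Finsupp.single (s27gpPlace hld hgen (q j) hx) (1 : ℤ) + (-(2 : ℤ)) • O) := by
    refine ⟨f, hf, fun v => ?_⟩
    rw [hfv' v]
    simp only [Finsupp.coe_add, Finsupp.coe_smul, Pi.add_apply, Pi.smul_apply, smul_eq_mul]
    ring
  refine s27dj_app hld hgen (fun P => s26gspf_hall hx P) hx e he ?_ q ((-(2 : ℤ)) • O) ?_ hprin
  · exact s27dom_hns_of_rr (fun i => s27gpPlace hld hgen (e i) hx) hPinj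
      (fun i => algebraMap 𝔠 Ω x - algebraMap 𝔎 Ω (e i x))
      (fun i => s27gpPlace_ord_unif hld hgen (e i) hx) hS
  · intro p
    rw [Finsupp.smul_apply, hOpt p]
    simp

variable (A : S27raAct K 𝔠 𝔎 Ω)

/-- **DISJ on the package with origin `Con G₀`**: `pkg.cl (pt ∘ q) = − pkg.cl (pt ∘ e)`, `e`
generic ⇒ the tuples `e`, `q` have no common point. -/
theorem s27dj_pkgO [IsAlgClosed K] [CharZero K] [IsAlgClosed 𝔎] (G₀ : Divisor K 𝔠)
    (hG₀ : Divisor.degree G₀ = (genusFF K 𝔠 : ℤ)) (hns : S27pkgNS hld hgen hx)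
    (e : Fin (genusFF K 𝔠) → 𝔠 →ₐ[K] 𝔎) (he : S27dgGeneric K x e)
    (q : Fin (genusFF K 𝔠) → 𝔠 →ₐ[K] 𝔎)
    (hq : (s27pkgO A hld hgen hx G₀ hG₀ hns).cl
          (fun j => (s27pkgO A hld hgen hx G₀ hG₀ hns).pt (q j))
        = (-1 : ℤ) • (s27pkgO A hld hgen hx G₀ hG₀ hns).cl
          (fun i => (s27pkgO A hld hgen hx G₀ hG₀ hns).pt (e i))) :
    ∀ i j, e i ≠ q j :=
  s27dj_clO hld hgen hx (s27pkg_hdeg hld hgen hx)
    (Finsupp.mapDomain (s26gspCon hld hgen (s26gspf_hall hx)) G₀)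
    (s27pkgO_degree hld hgen hx G₀ hG₀)
    (fun p => s26gspc_mapDomain_apply_of_trivial hld hgen (s26gspf_hall hx) G₀ _
      (s27pt_gpPlace_trivial hld hgen hx p))
    e he (hns e he) q hq

end Disj

end Fermat.Agent.S27
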