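import Mathlib

/-!
# S27-B, LE-ALG leaf L3 (DIV₀) — helper27

`α : A →+* R`, `β : V →+* R`, `ι : A →+* V`.  For an ideal `I` of `R` the set
`A''_I := {a | α a − β (ι a) ∈ I}` is a subring of `A`, closed under inverses of units, and under
simple roots (unique-root lemma): if `G(y) = 0` for a polynomial `G` with coefficients in `A''_I`,
`α (G'(y))` is a unit and `α y − β (ι y)` lies in the Jacobson radical (in the maximal ideal of a
local ring `R`), then `y ∈ A''_I`.  With `I = (α π − β (ι π))` this is the subring `A''` of the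
leaf; if `A` is generated by constants, `π`, `y` and inverses of units then `A'' = ⊤`, and if `R`
is generated by the images of `α`, `β` and inverses of units, then the kernel of an evaluation
`ev : R →+* V` (`ev ∘ α = ι`, `ev ∘ β = id`) is `(α π − β (ι π))·R`: this is (DIV).
Mathlib only.
-/

namespace Fermat.Agent.S27

variable {A V R : Type*} [CommRing A] [CommRing V] [CommRing R]

/-- The difference `α a − β (ι a)`. -/
def s27dzDiff (α : A →+* R) (β : V →+* R) (ι : A →+* V) (a : A) : R := α a - β (ι a)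

section basic

variable (α : A →+* R) (β : V →+* R) (ι : A →+* V)

lemma s27dz_diff_zero : s27dzDiff α β ι 0 = 0 := by simp [s27dzDiff]

lemma s27dz_diff_one : s27dzDiff α β ι 1 = 0 := by simp [s27dzDiff]

lemma s27dz_diff_add (a b : A) :
    s27dzDiff α β ι (a + b) = s27dzDiff α β ι a + s27dzDiff α β ι b := by
  simp only [s27dzDiff, map_add]; ring

lemma s27dz_diff_neg (a : A) : s27dzDiff α β ι (-a) = - s27dzDiff α β ι a := by
  simp only [s27dzDiff, map_neg]; ring

lemma s27dz_diff_mul (a b : A) :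
    s27dzDiff α β ι (a * b) = α a * s27dzDiff α β ι b + s27dzDiff α β ι a * β (ι b) := by
  simp only [s27dzDiff, map_mul]; ring

/-- `A''_I = {a | α a − β (ι a) ∈ I}` as a subring of `A`. -/
def s27dzSubI (I : Ideal R) : Subring A where
  carrier := {a | s27dzDiff α β ι a ∈ I}
  mul_mem' := by
    intro a b ha hb
    change s27dzDiff α β ι (a * b) ∈ I
    rw [s27dz_diff_mul]
    exact I.add_mem (I.mul_mem_left _ hb) (I.mul_mem_right _ ha)
  one_mem' := by
    change s27dzDiff α β ι 1 ∈ I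
    rw [s27dz_diff_one]; exact I.zero_mem
  add_mem' := by
    intro a b ha hb
    change s27dzDiff α β ι (a + b) ∈ I
    rw [s27dz_diff_add]; exact I.add_mem ha hb
  zero_mem' := by
    change s27dzDiff α β ι 0 ∈ I
    rw [s27dz_diff_zero]; exact I.zero_mem
  neg_mem' := by
    intro a ha
    change s27dzDiff α β ι (-a) ∈ I
    rw [s27dz_diff_neg]; exact I.neg_mem ha

lemma s27dz_mem_subI (I : Ideal R) (a : A) :
    a ∈ s27dzSubI α β ι I ↔ α a - β (ι a) ∈ I := Iff.rfl

/-- The subring `A'' = {a | α a − β (ι a) ∈ (α π − β (ι π))·R}` of the leaf. -/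
def s27dzSub (π : A) : Subring A := s27dzSubI α β ι (Ideal.span {α π - β (ι π)})

lemma s27dz_mem_sub (π a : A) :
    a ∈ s27dzSub α β ι π ↔ α a - β (ι a) ∈ Ideal.span {α π - β (ι π)} := Iff.rfl

lemma s27dz_mem_sub_iff_dvd (π a : A) :
    a ∈ s27dzSub α β ι π ↔ (α π - β (ι π)) ∣ (α a - β (ι a)) := by
  rw [s27dz_mem_sub, Ideal.mem_span_singleton]

/-- `π ∈ A''`. -/
lemma s27dz_pi_mem (π : A) : π ∈ s27dzSub α β ι π :=
  Ideal.subset_span (Set.mem_singleton _)

/-- Elements on which `α` and `β ∘ ι` agree (the constants) lie in every `A''_I`. -/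
lemma s27dz_const_mem (I : Ideal R) (c : A) (hc : α c = β (ι c)) : c ∈ s27dzSubI α β ι I := by
  change α c - β (ι c) ∈ I
  rw [hc, sub_self]; exact I.zero_mem

/-- `A''_I` is closed under inverses. -/
lemma s27dz_inv_mem (I : Ideal R) {a b : A} (hab : a * b = 1) (ha : a ∈ s27dzSubI α β ι I) :
    b ∈ s27dzSubI α β ι I := by
  change α b - β (ι b) ∈ I
  have h1 : α a * α b = 1 := by rw [← map_mul, hab, map_one]
  have h2 : β (ι a) * β (ι b) = 1 := by rw [← map_mul, ← map_mul, hab, map_one, map_one]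
  have h3 : α b - β (ι b) = - (α b * β (ι b)) * (α a - β (ι a)) := by
    have e1 : α b * β (ι b) * α a = β (ι b) := by
      calc α b * β (ι b) * α a = (α a * α b) * β (ι b) := by ring
        _ = β (ι b) := by rw [h1, one_mul]
    have e2 : α b * β (ι b) * β (ι a) = α b := by
      calc α b * β (ι b) * β (ι a) = α b * (β (ι a) * β (ι b)) := by ring
        _ = α b := by rw [h2, mul_one]
    calc α b - β (ι b) = - (α b * β (ι b) * α a - α b * β (ι b) * β (ι a)) := by
          rw [e1, e2]; ring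
      _ = - (α b * β (ι b)) * (α a - β (ι a)) := by ring
  rw [h3]
  exact I.mul_mem_left _ ha

/-- `A''_I` is closed under inverses of units of `A`. -/
lemma s27dz_unit_inv_mem (I : Ideal R) (u : Aˣ) (hu : (u : A) ∈ s27dzSubI α β ι I) :
    ((u⁻¹ : Aˣ) : A) ∈ s27dzSubI α β ι I :=
  s27dz_inv_mem α β ι I (Units.mul_inv u) hu

/-- Quotients `u / s` (`s` a unit of `A`) of elements of `A''_I` lie in `A''_I`. -/
lemma s27dz_div_mem (I : Ideal R) {a u s : A} (hs : IsUnit s) (hu : u ∈ s27dzSubI α β ι I)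
    (hsm : s ∈ s27dzSubI α β ι I) (h : a * s = u) : a ∈ s27dzSubI α β ι I := by
  obtain ⟨w, rfl⟩ := hs
  have hw : ((w⁻¹ : Aˣ) : A) ∈ s27dzSubI α β ι I := s27dz_unit_inv_mem α β ι I w hsm
  have : a = u * ((w⁻¹ : Aˣ) : A) := by
    rw [← h, mul_assoc, Units.mul_inv, mul_one]
  rw [this]
  exact Subring.mul_mem _ hu hw

end basic

section root

variable (α : A →+* R) (β : V →+* R) (ι : A →+* V)

/-- Evaluating at any point the difference of the two images of a polynomial with coefficients in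
`A''_I` lands in `I`. -/
lemma s27dz_eval_map_sub_mem (I : Ideal R) (G : Polynomial A)
    (hG : ∀ k, G.coeff k ∈ s27dzSubI α β ι I) (x : R) :
    (G.map α).eval x - (G.map (β.comp ι)).eval x ∈ I := by
  rw [Polynomial.eval_map, Polynomial.eval_map, Polynomial.eval₂_eq_sum_range,
    Polynomial.eval₂_eq_sum_range, ← Finset.sum_sub_distrib]
  refine I.sum_mem fun k _ => ?_
  have : α (G.coeff k) * x ^ k - (β.comp ι) (G.coeff k) * x ^ k
      = (α (G.coeff k) - β (ι (G.coeff k))) * x ^ k := by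
    rw [RingHom.comp_apply]; ring
  rw [this]
  exact I.mul_mem_right _ (hG k)

/-- **Unique-root lemma**, Jacobson-radical form.  If `G(y) = 0` with `G` a polynomial with
coefficients in `A''_I`, `α (G'(y))` is a unit of `R` and `α y − β (ι y)` lies in the Jacobson
radical of `R`, then `y ∈ A''_I`. -/
theorem s27dz_root_mem_of_jacobson (I : Ideal R) (G : Polynomial A)
    (hG : ∀ k, G.coeff k ∈ s27dzSubI α β ι I) (y : A) (hy : G.eval y = 0)
    (hu : IsUnit (α (G.derivative.eval y)))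
    (hm : α y - β (ι y) ∈ Ideal.jacobson (⊥ : Ideal R)) :
    y ∈ s27dzSubI α β ι I := by
  change α y - β (ι y) ∈ I
  set δ : R := α y - β (ι y) with hδ
  set P : Polynomial R := G.map α with hP
  -- Taylor expansion of `P` at `α y`, evaluated at `β (ι y) = α y + (-δ)`
  obtain ⟨c, hc⟩ := Polynomial.binomExpansion P (α y) (-δ)
  have hxy : α y + -δ = β (ι y) := by rw [hδ]; ring
  rw [hxy] at hc
  have hPα : P.eval (α y) = 0 := by
    rw [hP, Polynomial.eval_map, Polynomial.eval₂_at_apply, hy, map_zero]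
  have hPd : P.derivative.eval (α y) = α (G.derivative.eval y) := by
    rw [hP, Polynomial.derivative_map, Polynomial.eval_map, Polynomial.eval₂_at_apply]
  have hQ : (G.map (β.comp ι)).eval (β (ι y)) = 0 := by
    rw [Polynomial.eval_map]
    have : β (ι y) = (β.comp ι) y := rfl
    rw [this, Polynomial.eval₂_at_apply, hy, map_zero]
  have hmem : P.eval (β (ι y)) ∈ I := by
    have := s27dz_eval_map_sub_mem α β ι I G hG (β (ι y))
    rw [hQ, sub_zero] at this
    exact this
  -- `P (β ι y) = - δ * (P'(α y) - c δ)` and the second factor is a unit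
  have hfac : P.eval (β (ι y)) = - (δ * (α (G.derivative.eval y) - c * δ)) := by
    rw [hc, hPα, hPd]; ring
  have hunit : IsUnit (α (G.derivative.eval y) - c * δ) := by
    obtain ⟨w, hw⟩ := hu
    have h1 : IsUnit (δ * (-(c * ((w⁻¹ : Rˣ) : R))) + 1) :=
      (Ideal.mem_jacobson_bot.mp hm) _
    have h2 : α (G.derivative.eval y) - c * δ
        = (w : R) * (δ * (-(c * ((w⁻¹ : Rˣ) : R))) + 1) := by
      have hww : (w : R) * ((w⁻¹ : Rˣ) : R) = 1 := Units.mul_inv w
      calc α (G.derivative.eval y) - c * δ = (w : R) - c * δ * ((w : R) * ((w⁻¹ : Rˣ) : R)) := by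
            rw [hww, mul_one, hw]
        _ = (w : R) * (δ * (-(c * ((w⁻¹ : Rˣ) : R))) + 1) := by ring
    rw [h2]
    exact w.isUnit.mul h1
  obtain ⟨v, hv⟩ := hunit
  have hδeq : δ = - (P.eval (β (ι y))) * ((v⁻¹ : Rˣ) : R) := by
    rw [hfac, ← hv, neg_neg, mul_assoc, Units.mul_inv, mul_one]
  rw [hδeq]
  exact I.mul_mem_right _ (I.neg_mem hmem)

/-- **Unique-root lemma**, local form: `R` local, `α y ≡ β (ι y)` modulo the maximal ideal. -/
theorem s27dz_root_mem [IsLocalRing R] (I : Ideal R) (G : Polynomial A)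
    (hG : ∀ k, G.coeff k ∈ s27dzSubI α β ι I) (y : A) (hy : G.eval y = 0)
    (hu : IsUnit (α (G.derivative.eval y)))
    (hm : α y - β (ι y) ∈ IsLocalRing.maximalIdeal R) :
    y ∈ s27dzSubI α β ι I := by
  refine s27dz_root_mem_of_jacobson α β ι I G hG y hy hu ?_
  rw [IsLocalRing.jacobson_eq_maximalIdeal (⊥ : Ideal R) bot_ne_top]
  exact hm

/-- If `ev : R →+* V` is an evaluation (`ev ∘ α = ι`, `ev ∘ β = id`), `R` is local and `V` is
nontrivial, then `α a − β (ι a)` lies in the maximal ideal for every `a`. -/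
lemma s27dz_diff_mem_maximalIdeal [IsLocalRing R] [Nontrivial V] (ev : R →+* V)
    (hα : ∀ a, ev (α a) = ι a) (hβ : ∀ v, ev (β v) = v) (a : A) :
    α a - β (ι a) ∈ IsLocalRing.maximalIdeal R := by
  rw [IsLocalRing.mem_maximalIdeal, mem_nonunits_iff]
  intro hunit
  have h0 : ev (α a - β (ι a)) = 0 := by rw [map_sub, hα, hβ, sub_self]
  have := hunit.map ev
  rw [h0] at this
  exact not_isUnit_zero this

/-- **Unique-root lemma** for the subring `A''` of the leaf, with an evaluation `ev`. -/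
theorem s27dz_root_mem_sub [IsLocalRing R] [Nontrivial V] (ev : R →+* V)
    (hα : ∀ a, ev (α a) = ι a) (hβ : ∀ v, ev (β v) = v) (π : A) (G : Polynomial A)
    (hG : ∀ k, G.coeff k ∈ s27dzSub α β ι π) (y : A) (hy : G.eval y = 0)
    (hu : IsUnit (α (G.derivative.eval y))) :
    y ∈ s27dzSub α β ι π :=
  s27dz_root_mem α β ι _ G hG y hy hu (s27dz_diff_mem_maximalIdeal α β ι ev hα hβ y)

end root

section top

variable (α : A →+* R) (β : V →+* R) (ι : A →+* V)

/-- If `A` is generated by a subring `A₀` of constants, `π` and a simple root `y`, up to inverses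
of units, then `A''_I = ⊤` as soon as `π ∈ A''_I`. -/
theorem s27dz_subI_eq_top (I : Ideal R) (A₀ : Subring A) (hA₀ : ∀ c ∈ A₀, α c = β (ι c))
    (π y : A) (hπ : π ∈ s27dzSubI α β ι I) (hy : y ∈ s27dzSubI α β ι I)
    (hA : ∀ a : A, ∃ u s : A, u ∈ Subring.closure ((A₀ : Set A) ∪ {π, y}) ∧
      s ∈ Subring.closure ((A₀ : Set A) ∪ {π, y}) ∧ IsUnit s ∧ a * s = u) :
    s27dzSubI α β ι I = ⊤ := by
  have hcl : Subring.closure ((A₀ : Set A) ∪ {π, y}) ≤ s27dzSubI α β ι I := by
    rw [Subring.closure_le]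
    rintro x (hx | hx)
    · exact s27dz_const_mem α β ι I x (hA₀ x hx)
    · rcases hx with rfl | hx
      · exact hπ
      · rw [Set.mem_singleton_iff] at hx
        rw [hx]; exact hy
  rw [eq_top_iff]
  intro a _
  obtain ⟨u, s, hu, hs, hsu, h⟩ := hA a
  exact s27dz_div_mem α β ι I hsu (hcl hu) (hcl hs) h

/-- **L3, subring form.**  `R` local with an evaluation `ev`; `A` generated up to inverses of
units by constants `A₀`, `π` and `y`, where `G(y) = 0` for a polynomial `G` with coefficients in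
`A₀[π]` and `α (G'(y))` is a unit.  Then `A'' = ⊤`: `α π − β (ι π)` divides every
`α a − β (ι a)`. -/
theorem s27dz_sub_eq_top [IsLocalRing R] [Nontrivial V] (ev : R →+* V)
    (hα : ∀ a, ev (α a) = ι a) (hβ : ∀ v, ev (β v) = v)
    (A₀ : Subring A) (hA₀ : ∀ c ∈ A₀, α c = β (ι c)) (π y : A) (G : Polynomial A)
    (hG : ∀ k, G.coeff k ∈ Subring.closure ((A₀ : Set A) ∪ {π}))
    (hy : G.eval y = 0) (hu : IsUnit (α (G.derivative.eval y)))
    (hA : ∀ a : A, ∃ u s : A, u ∈ Subring.closure ((A₀ : Set A) ∪ {π, y}) ∧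
      s ∈ Subring.closure ((A₀ : Set A) ∪ {π, y}) ∧ IsUnit s ∧ a * s = u) :
    s27dzSub α β ι π = ⊤ := by
  have hcl : Subring.closure ((A₀ : Set A) ∪ {π}) ≤ s27dzSub α β ι π := by
    rw [Subring.closure_le]
    rintro x (hx | hx)
    · exact s27dz_const_mem α β ι _ x (hA₀ x hx)
    · rw [Set.mem_singleton_iff] at hx
      rw [hx]; exact s27dz_pi_mem α β ι π
  have hym : y ∈ s27dzSub α β ι π :=
    s27dz_root_mem_sub α β ι ev hα hβ π G (fun k => hcl (hG k)) y hy hu
  exact s27dz_subI_eq_top α β ι _ A₀ hA₀ π y (s27dz_pi_mem α β ι π) hym hA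

end top

section ker

variable (α : A →+* R) (β : V →+* R) (ι : A →+* V)

/-- The subring `{x | x − β (ev x) ∈ J}` of `R`. -/
def s27dzKerSub (ev : R →+* V) (J : Ideal R) : Subring R :=
  s27dzSubI (RingHom.id R) β ev J

lemma s27dz_mem_kerSub (ev : R →+* V) (J : Ideal R) (x : R) :
    x ∈ s27dzKerSub β ev J ↔ x - β (ev x) ∈ J := Iff.rfl

/-- If `R` is generated by the images of `α` and `β` up to inverses of units, and `J` contains
all `α a − β (ι a)`, then `J` contains the kernel of the evaluation `ev`. -/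
theorem s27dz_ker_le (ev : R →+* V) (hα : ∀ a, ev (α a) = ι a) (hβ : ∀ v, ev (β v) = v)
    (J : Ideal R) (hJ : ∀ a, α a - β (ι a) ∈ J)
    (hR : ∀ r : R, ∃ s : R, IsUnit s ∧
      r * s ∈ Subring.closure (Set.range α ∪ Set.range β))
    (r : R) (hr : ev r = 0) : r ∈ J := by
  have hcl : Subring.closure (Set.range α ∪ Set.range β) ≤ s27dzKerSub β ev J := by
    rw [Subring.closure_le]
    rintro x (⟨a, rfl⟩ | ⟨v, rfl⟩)
    · change α a - β (ev (α a)) ∈ J
      rw [hα]; exact hJ a
    · change β v - β (ev (β v)) ∈ J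
      rw [hβ, sub_self]; exact J.zero_mem
  obtain ⟨s, hs, hrs⟩ := hR r
  have h1 : r * s - β (ev (r * s)) ∈ J := hcl hrs
  rw [map_mul, hr, zero_mul, map_zero, sub_zero] at h1
  obtain ⟨w, rfl⟩ := hs
  have : r = r * (w : R) * ((w⁻¹ : Rˣ) : R) := by
    rw [mul_assoc, Units.mul_inv, mul_one]
  rw [this]
  exact J.mul_mem_right _ h1

/-- **(DIV)**: if `A'' = ⊤` and `R` is generated by the images of `α` and `β` up to inverses of
units, the kernel of the evaluation is the principal ideal `(α π − β (ι π))·R`. -/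
theorem s27dz_ker_eq_span (ev : R →+* V) (hα : ∀ a, ev (α a) = ι a) (hβ : ∀ v, ev (β v) = v)
    (π : A) (htop : s27dzSub α β ι π = ⊤)
    (hR : ∀ r : R, ∃ s : R, IsUnit s ∧
      r * s ∈ Subring.closure (Set.range α ∪ Set.range β))
    (r : R) : ev r = 0 ↔ r ∈ Ideal.span {α π - β (ι π)} := by
  constructor
  · intro hr
    refine s27dz_ker_le α β ι ev hα hβ _ (fun a => ?_) hR r hr
    have : a ∈ s27dzSub α β ι π := by rw [htop]; exact Subring.mem_top a
    exact this
  · intro hr
    rw [Ideal.mem_span_singleton] at hr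
    obtain ⟨c, rfl⟩ := hr
    rw [map_mul, map_sub, hα, hβ, sub_self, zero_mul]

/-- **L3 = (DIV)**, packaged.  `R` local with evaluation `ev : R →+* V` (`V` nontrivial),
generated by the images of `α` and `β` up to inverses of units; `A` generated up to inverses of
units by constants `A₀`, `π`, `y` with `G(y) = 0`, `G ∈ A₀[π][Y]`, `α (G'(y))` a unit.  Then
`ev r = 0 ↔ r ∈ (α π − β (ι π))·R`. -/
theorem s27dz_div [IsLocalRing R] [Nontrivial V] (ev : R →+* V)
    (hα : ∀ a, ev (α a) = ι a) (hβ : ∀ v, ev (β v) = v)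
    (A₀ : Subring A) (hA₀ : ∀ c ∈ A₀, α c = β (ι c)) (π y : A) (G : Polynomial A)
    (hG : ∀ k, G.coeff k ∈ Subring.closure ((A₀ : Set A) ∪ {π}))
    (hy : G.eval y = 0) (hu : IsUnit (α (G.derivative.eval y)))
    (hA : ∀ a : A, ∃ u s : A, u ∈ Subring.closure ((A₀ : Set A) ∪ {π, y}) ∧
      s ∈ Subring.closure ((A₀ : Set A) ∪ {π, y}) ∧ IsUnit s ∧ a * s = u)
    (hR : ∀ r : R, ∃ s : R, IsUnit s ∧
      r * s ∈ Subring.closure (Set.range α ∪ Set.range β))
    (r : R) : ev r = 0 ↔ r ∈ Ideal.span {α π - β (ι π)} :=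
  s27dz_ker_eq_span α β ι ev hα hβ π
    (s27dz_sub_eq_top α β ι ev hα hβ A₀ hA₀ π y G hG hy hu hA) hR r

/-- (DIV) in the divisibility form used by the NEWTON leaf: `ev r = 0 → (α π − β (ι π)) ∣ r`. -/
theorem s27dz_div_dvd [IsLocalRing R] [Nontrivial V] (ev : R →+* V)
    (hα : ∀ a, ev (α a) = ι a) (hβ : ∀ v, ev (β v) = v)
    (A₀ : Subring A) (hA₀ : ∀ c ∈ A₀, α c = β (ι c)) (π y : A) (G : Polynomial A)
    (hG : ∀ k, G.coeff k ∈ Subring.closure ((A₀ : Set A) ∪ {π}))
    (hy : G.eval y = 0) (hu : IsUnit (α (G.derivative.eval y)))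
    (hA : ∀ a : A, ∃ u s : A, u ∈ Subring.closure ((A₀ : Set A) ∪ {π, y}) ∧
      s ∈ Subring.closure ((A₀ : Set A) ∪ {π, y}) ∧ IsUnit s ∧ a * s = u)
    (hR : ∀ r : R, ∃ s : R, IsUnit s ∧
      r * s ∈ Subring.closure (Set.range α ∪ Set.range β))
    (r : R) (hr : ev r = 0) : (α π - β (ι π)) ∣ r :=
  Ideal.mem_span_singleton.mp
    ((s27dz_div α β ι ev hα hβ A₀ hA₀ π y G hG hy hu hA hR r).mp hr)

end ker

end Fermat.Agent.S27
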