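/-
S27-B, LE-ALG leaf L4′ NEWTON-CLOSURE (helper40) — pure algebra, Mathlib only.

`A` a discrete valuation ring containing a field `K` of characteristic `0`, with residue field `K`
(`hres`), `π` a uniformiser, every element of `A` algebraic over `K[π]` (`halg`).
If a subring `S ⊆ A` contains `K` and `π` and is closed under SIMPLE ROOTS
(`P ∈ S[Y]`, `P(y) = 0`, `P′(y) ∈ Aˣ` ⇒ `y ∈ S`), then `S = A`        (`s27nw_closure`).

Proof (Newton): for `a ∈ A` take `G ∈ K[X][Y]` of minimal degree with `G(π, a) = 0`; then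
`G_Y(π, a) = unit · π^e ≠ 0`.  Truncate `a = T(π) + π^(e+1) a′`.  By Taylor,
`G(π, T + π^(e+1) Y) = π^(2e+1) · P(Y)` with `P ∈ S[Y]`, `P(a′) = 0`, `P′(a′) ≡ unit mod π`.

Use: `S` = the subring of the functions regular at a point whose divided differences are integral
(leaf L3 DIV₀); the theorem shows that it is the whole local ring (AD-WD).
-/
import Mathlib.RingTheory.DiscreteValuationRing.Basic
import Mathlib.Algebra.Polynomial.Identities
import Mathlib.Algebra.Polynomial.AlgebraMap
import Mathlib.Algebra.Polynomial.Derivative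
import Mathlib.Algebra.Polynomial.Div
import Mathlib.Algebra.Polynomial.Eval.Coeff

set_option autoImplicit false
set_option linter.unusedSectionVars false

noncomputable section

namespace Fermat.Agent.S27

open Polynomial

section Rho

variable {K A : Type*} [Field K] [CommRing A] [Algebra K A]

/-- evaluation `K[X] → A`, `X ↦ π`. -/
def s27nwRho (π : A) : K[X] →+* A := (aeval π : K[X] →ₐ[K] A).toRingHom

@[simp] theorem s27nwRho_X (π : A) : s27nwRho (K := K) π X = π := by
  simp [s27nwRho]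

@[simp] theorem s27nwRho_C (π : A) (c : K) : s27nwRho (K := K) π (C c) = algebraMap K A c := by
  simp [s27nwRho]

/-- the image of `K[X]` lies in every subring containing `K` and `π`. -/
theorem s27nwRho_mem (π : A) (S : Subring A) (hK : ∀ c : K, algebraMap K A c ∈ S) (hπS : π ∈ S)
    (g : K[X]) : s27nwRho (K := K) π g ∈ S := by
  induction g using Polynomial.induction_on with
  | C c => rw [s27nwRho_C]; exact hK c
  | add p q hp hq => rw [map_add]; exact S.add_mem hp hq
  | monomial n c h =>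
    rw [map_mul, map_pow, s27nwRho_C, s27nwRho_X]
    exact S.mul_mem (hK c) (S.pow_mem hπS _)

end Rho

section DVR

variable {K A : Type*} [Field K] [CommRing A] [IsDomain A] [IsDiscreteValuationRing A]
  [Algebra K A]

/-- unit + non-unit is a unit (local ring). -/
theorem s27nw_isUnit_add {u b : A} (hu : IsUnit u) (hb : ¬ IsUnit b) : IsUnit (u + b) := by
  have h : IsUnit ((u + b) + (-b)) := by
    have : (u + b) + (-b) = u := by ring
    rw [this]; exact hu
  rcases IsLocalRing.isUnit_or_isUnit_of_isUnit_add h with h1 | h1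
  · exact h1
  · exact absurd (IsUnit.neg_iff b |>.mp h1) hb

theorem s27nw_not_isUnit_mul {π : A} (hπ : Irreducible π) (x : A) : ¬ IsUnit (π * x) := fun h =>
  hπ.not_isUnit (isUnit_of_mul_isUnit_left h)

/-- a polynomial with nonzero constant term takes a unit value at `π`. -/
theorem s27nw_rho_isUnit {π : A} (hπ : Irreducible π) (g : K[X]) (hg : g.coeff 0 ≠ 0) :
    IsUnit (s27nwRho π g) := by
  have h1 : g = C (g.coeff 0) + X * g.divX := by
    conv_lhs => rw [← Polynomial.divX_mul_X_add g]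
    ring
  rw [h1, map_add, map_mul, s27nwRho_C, s27nwRho_X]
  exact s27nw_isUnit_add ((IsUnit.mk0 _ hg).map (algebraMap K A)) (s27nw_not_isUnit_mul hπ _)

/-- `π^N ∣ g(π)` ⇒ `X^N ∣ g`. -/
theorem s27nw_X_pow_dvd {π : A} (hπ : Irreducible π) :
    ∀ (N : ℕ) (g : K[X]), π ^ N ∣ s27nwRho π g → X ^ N ∣ g := by
  intro N
  induction N with
  | zero => intro g _; simp
  | succ N ih =>
    intro g hdvd
    have h0 : g.coeff 0 = 0 := by
      by_contra hne
      have hu := s27nw_rho_isUnit hπ g hne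
      have hπdvd : π ∣ s27nwRho π g := dvd_trans (dvd_pow_self π (Nat.succ_ne_zero N)) hdvd
      exact hπ.not_isUnit (isUnit_of_dvd_unit hπdvd hu)
    obtain ⟨g₂, rfl⟩ := Polynomial.X_dvd_iff.mpr h0
    rw [map_mul, s27nwRho_X, pow_succ'] at hdvd
    have h2 : π ^ N ∣ s27nwRho π g₂ := (mul_dvd_mul_iff_left hπ.ne_zero).mp hdvd
    rw [pow_succ']
    exact mul_dvd_mul_left X (ih g₂ h2)

/-- `π` is transcendental over `K`. -/
theorem s27nw_rho_ne_zero {π : A} (hπ : Irreducible π) (g : K[X]) (hg : g ≠ 0) :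
    s27nwRho π g ≠ 0 := by
  intro h0
  have h1 : X ^ (g.natDegree + 1) ∣ g := s27nw_X_pow_dvd hπ _ g (by rw [h0]; exact dvd_zero _)
  have h2 := Polynomial.natDegree_le_of_dvd h1 hg
  rw [natDegree_X_pow] at h2
  omega

/-- truncation: `a ≡ T(π) mod π^m`. -/
theorem s27nw_trunc {π : A} (hres : ∀ a : A, ∃ c : K, π ∣ a - algebraMap K A c) :
    ∀ (m : ℕ) (a : A), ∃ T : K[X], π ^ m ∣ a - s27nwRho π T := by
  intro m
  induction m with
  | zero => intro a; exact ⟨0, by simp⟩
  | succ m ih =>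
    intro a
    obtain ⟨T, b, hb⟩ := ih a
    obtain ⟨c, b', hb'⟩ := hres b
    refine ⟨T + C c * X ^ m, b', ?_⟩
    rw [map_add, map_mul, map_pow, s27nwRho_C, s27nwRho_X, pow_succ]
    have : b = algebraMap K A c + π * b' := by rw [← hb']; ring
    calc a - (s27nwRho π T + algebraMap K A c * π ^ m)
        = (a - s27nwRho π T) - algebraMap K A c * π ^ m := by ring
      _ = π ^ m * b - algebraMap K A c * π ^ m := by rw [hb]
      _ = π ^ m * π * b' := by rw [this]; ring


/-- the derivative of a polynomial of positive degree over a domain of characteristic `0`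
is not zero. -/
theorem s27nw_derivative_ne_zero [CharZero K] (G : K[X][X]) (hG : G.natDegree ≠ 0) :
    derivative G ≠ 0 := by
  intro h0
  have h1 : (derivative G).coeff (G.natDegree - 1) = 0 := by rw [h0]; simp
  rw [coeff_derivative] at h1
  have h2 : G.natDegree - 1 + 1 = G.natDegree := Nat.succ_pred_eq_of_ne_zero hG
  rw [h2] at h1
  have h3 : G.coeff G.natDegree ≠ 0 := by
    rw [Polynomial.coeff_natDegree]
    exact leadingCoeff_ne_zero.mpr (fun h => hG (by rw [h]; simp))
  have h4 : ((G.natDegree - 1 : ℕ) : K[X]) + 1 ≠ 0 := by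
    have : ((G.natDegree - 1 : ℕ) : K[X]) + 1 = ((G.natDegree : ℕ) : K[X]) := by
      rw [← h2]; push_cast; simp
    rw [this]
    exact Nat.cast_ne_zero.mpr hG
  exact (mul_ne_zero h3 h4) h1

/-- **Newton closure.**  A subring of `A` containing `K` and `π` and closed under simple roots is
everything. -/
theorem s27nw_closure [CharZero K] {π : A} (hπ : Irreducible π)
    (hres : ∀ a : A, ∃ c : K, π ∣ a - algebraMap K A c)
    (halg : ∀ a : A, ∃ G : K[X][X], G ≠ 0 ∧ G.eval₂ (s27nwRho π) a = 0)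
    (S : Subring A) (hK : ∀ c : K, algebraMap K A c ∈ S) (hπS : π ∈ S)
    (hroot : ∀ (P : (↥S)[X]) (y : A), P.eval₂ S.subtype y = 0 →
      IsUnit ((derivative P).eval₂ S.subtype y) → y ∈ S)
    (a : A) : a ∈ S := by
  classical
  -- a polynomial of minimal degree
  have hex : ∃ n : ℕ, ∃ G : K[X][X], G ≠ 0 ∧ G.natDegree = n ∧ G.eval₂ (s27nwRho π) a = 0 := by
    obtain ⟨G, hG, hGa⟩ := halg a
    exact ⟨_, G, hG, rfl, hGa⟩
  obtain ⟨G, hG0, hGn, hGa⟩ := Nat.find_spec hex
  have hmin : ∀ G' : K[X][X], G' ≠ 0 → G'.natDegree < G.natDegree →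
      G'.eval₂ (s27nwRho π) a ≠ 0 := by
    intro G' hG' hlt hG'a
    rw [hGn] at hlt
    exact Nat.find_min hex hlt ⟨G', hG', rfl, hG'a⟩
  have hdeg : G.natDegree ≠ 0 := by
    intro h0
    have h1 := Polynomial.eq_C_of_natDegree_eq_zero h0
    have h2 : G.coeff 0 ≠ 0 := by
      intro h3
      rw [h3, map_zero] at h1
      exact hG0 h1
    rw [h1, eval₂_C] at hGa
    exact s27nw_rho_ne_zero hπ _ h2 hGa
  have hder : (derivative G).eval₂ (s27nwRho π) a ≠ 0 :=
    hmin _ (s27nw_derivative_ne_zero G hdeg) (natDegree_derivative_lt hdeg)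
  -- its order
  obtain ⟨e, u₁, hu₁⟩ := IsDiscreteValuationRing.eq_unit_mul_pow_irreducible hder hπ
  -- truncation
  obtain ⟨T, a', ha'⟩ := s27nw_trunc hres (e + 1) a
  have haT : a = s27nwRho π T + π ^ (e + 1) * a' := by rw [← ha']; ring
  set t : A := s27nwRho π T with ht
  -- the polynomial over `A`
  set P₀ : A[X] := G.map (s27nwRho π) with hP₀
  have hP₀a : P₀.eval a = 0 := by rw [hP₀, eval_map]; exact hGa
  have hP₀' : derivative P₀ = (derivative G).map (s27nwRho π) := by
    rw [hP₀, derivative_map]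
  have hP₀'a : (derivative P₀).eval a = (u₁ : A) * π ^ e := by
    rw [hP₀', eval_map]; exact hu₁
  have hP₀t : P₀.eval t = s27nwRho π (G.eval T) := by
    rw [hP₀, eval_map, ht, eval₂_hom]
  have hP₀'t : (derivative P₀).eval t = s27nwRho π ((derivative G).eval T) := by
    rw [hP₀', eval_map, ht, eval₂_hom]
  -- the derivative at `t` has order `e`
  obtain ⟨z, hz⟩ := evalSubFactor (derivative P₀) t a
  have hta : t - a = -(π ^ (e + 1) * a') := by rw [haT]; ring
  have hd1 : (derivative P₀).eval t = π ^ e * ((u₁ : A) + π * (-(z * a'))) := by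
    have : (derivative P₀).eval t = (derivative P₀).eval a + z * (t - a) := by rw [← hz]; ring
    rw [this, hP₀'a, hta, pow_succ]
    ring
  have hu₃ : IsUnit ((u₁ : A) + π * (-(z * a'))) :=
    s27nw_isUnit_add u₁.isUnit (s27nw_not_isUnit_mul hπ _)
  obtain ⟨g₂, hg₂⟩ : X ^ e ∣ (derivative G).eval T :=
    s27nw_X_pow_dvd hπ e _ (by rw [← hP₀'t, hd1]; exact dvd_mul_right _ _)
  have hπe : π ^ e ≠ 0 := pow_ne_zero _ hπ.ne_zero
  have hg₂u : s27nwRho π g₂ = (u₁ : A) + π * (-(z * a')) := by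
    have h1 : π ^ e * s27nwRho π g₂ = π ^ e * ((u₁ : A) + π * (-(z * a'))) := by
      rw [← hd1, hP₀'t, hg₂, map_mul, map_pow, s27nwRho_X]
    exact mul_left_cancel₀ hπe h1
  -- the value at `t` has order `≥ 2e + 1`
  obtain ⟨k₀, hk₀⟩ := binomExpansion P₀ t (π ^ (e + 1) * a')
  rw [← haT, hP₀a] at hk₀
  have hd0 : P₀.eval t = π ^ (2 * e + 1) *
      (-(((u₁ : A) + π * (-(z * a'))) * a') - k₀ * π * a' ^ 2) := by
    have h1 : P₀.eval t = -((derivative P₀).eval t * (π ^ (e + 1) * a')) -
        k₀ * (π ^ (e + 1) * a') ^ 2 := by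
      linear_combination -hk₀
    rw [h1, hd1]
    ring
  obtain ⟨g₃, hg₃⟩ : X ^ (2 * e + 1) ∣ G.eval T :=
    s27nw_X_pow_dvd hπ (2 * e + 1) _ (by rw [← hP₀t, hd0]; exact dvd_mul_right _ _)
  -- everything over `S`
  have hmem : ∀ g : K[X], s27nwRho (K := K) π g ∈ S := s27nwRho_mem π S hK hπS
  set ρS : K[X] →+* S := (s27nwRho (K := K) π).codRestrict S hmem with hρS
  have hρS_comp : S.subtype.comp ρS = s27nwRho (K := K) π := by
    ext <;> rfl
  set πS : S := ⟨π, hπS⟩ with hπS'
  have hρS_X : ρS X = πS := by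
    apply Subtype.ext
    show s27nwRho (K := K) π X = π
    exact s27nwRho_X π
  set PS : (↥S)[X] := G.map ρS with hPS
  set tS : S := ρS T with htS
  have hPSt : PS.eval tS = πS ^ (2 * e + 1) * ρS g₃ := by
    rw [hPS, eval_map, htS, eval₂_hom, hg₃, map_mul, map_pow, hρS_X]
  have hPS't : (derivative PS).eval tS = πS ^ e * ρS g₂ := by
    rw [hPS, derivative_map, eval_map, htS, eval₂_hom, hg₂, map_mul, map_pow, hρS_X]
  -- Taylor expansion in `S[Y]`
  obtain ⟨k, hk⟩ := binomExpansion (PS.map (C : S →+* (↥S)[X])) (C tS) (C (πS ^ (e + 1)) * X)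
  have hev0 : (PS.map (C : S →+* (↥S)[X])).eval (C tS) = C (PS.eval tS) := by
    rw [eval_map, eval₂_hom]
  have hev1 : (derivative (PS.map (C : S →+* (↥S)[X]))).eval (C tS) =
      C ((derivative PS).eval tS) := by
    rw [derivative_map, eval_map, eval₂_hom]
  rw [hev0, hev1, hPSt, hPS't] at hk
  -- the polynomial `P`
  set P : (↥S)[X] := C (ρS g₃) + C (ρS g₂) * X + C πS * (k * X ^ 2) with hP
  have hkP : (PS.map (C : S →+* (↥S)[X])).eval (C tS + C (πS ^ (e + 1)) * X) =
      C (πS ^ (2 * e + 1)) * P := by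
    rw [hk, hP]
    simp only [map_mul, map_pow]
    ring
  -- evaluation at `a'`
  set ψ : (↥S)[X] →+* A := Polynomial.eval₂RingHom S.subtype a' with hψ
  have hψC : ∀ s : S, ψ (C s) = (s : A) := fun s => by
    rw [hψ]; simp
  have hψX : ψ X = a' := by rw [hψ]; simp
  have hψcomp : ψ.comp (C : S →+* (↥S)[X]) = S.subtype := by
    ext s
    exact hψC s
  have hψeval : ∀ w : (↥S)[X], ψ ((PS.map (C : S →+* (↥S)[X])).eval w) = P₀.eval (ψ w) := by
    intro w
    have h1 : ψ ((PS.map (C : S →+* (↥S)[X])).eval w) =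
        (PS.map (C : S →+* (↥S)[X])).eval₂ ψ (ψ w) := by
      rw [← Polynomial.eval₂_id (p := PS.map (C : S →+* (↥S)[X])) (x := w), hom_eval₂,
        RingHom.comp_id]
    rw [h1, eval₂_map, hψcomp, hPS, eval₂_map, hρS_comp, hP₀, eval_map]
  have hψa : ψ (C tS + C (πS ^ (e + 1)) * X) = a := by
    rw [map_add, map_mul, hψC, hψC, hψX, haT]
    rfl
  have hPa' : ψ P = 0 := by
    have h1 := congrArg ψ hkP
    rw [hψeval, hψa, hP₀a, map_mul, hψC] at h1
    have h2 : ((πS ^ (2 * e + 1) : S) : A) ≠ 0 := by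
      show (π ^ (2 * e + 1) : A) ≠ 0
      exact pow_ne_zero _ hπ.ne_zero
    exact (mul_eq_zero.mp h1.symm).resolve_left h2
  have hP'a' : IsUnit (ψ (derivative P)) := by
    have h1 : derivative P = C (ρS g₂) + C πS * derivative (k * X ^ 2) := by
      rw [hP]
      simp only [derivative_add, derivative_C, derivative_mul, derivative_X, zero_add, mul_one,
        zero_mul]
    rw [h1, map_add, map_mul, hψC, hψC]
    have h2 : ((ρS g₂ : S) : A) = s27nwRho π g₂ := rfl
    rw [h2, hg₂u]
    exact s27nw_isUnit_add hu₃ (s27nw_not_isUnit_mul hπ _)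
  have ha'S : a' ∈ S := hroot P a' hPa' hP'a'
  rw [haT]
  exact S.add_mem (hmem T) (S.mul_mem (S.pow_mem hπS _) ha'S)

end DVR

end Fermat.Agent.S27

end
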