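import Fermat.Agent.S27.DivZero
import Fermat.Agent.S27.NewtonCl

/-!
# S27-B, LE-ALG: L3 (DIV₀, helper27) ∘ L4′ (NEWTON-CLOSURE, helper40) = (DIV) for a DVR

`A` a discrete valuation ring containing a field `K` of characteristic `0`, with uniformiser `π`,
residue field `K` and every element algebraic over `K[π]`; `R` a local ring, `α : A →+* R`,
`β : V →+* R`, `ι : A →+* V`, `ev : R →+* V` an evaluation (`ev ∘ α = ι`, `ev ∘ β = id`) and
`α = β ∘ ι` on the constants.  Then

* `s27dz_hroot` : the subring `A″ = s27dzSub α β ι π` is closed under simple roots, in the literal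
  shape of the hypothesis `hroot` of `s27nw_closure`;
* `s27dz_sub_eq_top_dvr` : `A″ = ⊤`, i.e. `α π − β (ι π)` divides every `α a − β (ι a)`;
* `s27dz_dvd_dvr` : the same as a divisibility;
* `s27dz_div_dvr` : (DIV): if moreover `R` is generated by the images of `α`, `β` up to inverses
  of units, then `ev r = 0 ↔ r ∈ (α π − β (ι π))·R`.
-/

namespace Fermat.Agent.S27

open Polynomial

section hroot

variable {A V R : Type*} [CommRing A] [CommRing V] [CommRing R]
  (α : A →+* R) (β : V →+* R) (ι : A →+* V)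

/-- `A″_I` is closed under simple roots: the literal shape of `hroot` in `s27nw_closure`,
Jacobson-radical form. -/
theorem s27dz_hroot_subI (I : Ideal R)
    (hm : ∀ a : A, α a - β (ι a) ∈ Ideal.jacobson (⊥ : Ideal R))
    (P : (↥(s27dzSubI α β ι I))[X]) (y : A)
    (hy : P.eval₂ (s27dzSubI α β ι I).subtype y = 0)
    (hu : IsUnit ((derivative P).eval₂ (s27dzSubI α β ι I).subtype y)) :
    y ∈ s27dzSubI α β ι I := by
  refine s27dz_root_mem_of_jacobson α β ι I (P.map (s27dzSubI α β ι I).subtype) ?_ y ?_ ?_ (hm y)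
  · intro k
    rw [Polynomial.coeff_map]
    exact (P.coeff k).2
  · rw [Polynomial.eval_map]; exact hy
  · rw [Polynomial.derivative_map, Polynomial.eval_map]
    exact hu.map α

/-- `A″` is closed under simple roots (literal shape of `hroot` in `s27nw_closure`). -/
theorem s27dz_hroot [IsLocalRing R] [Nontrivial V] (ev : R →+* V)
    (hα : ∀ a, ev (α a) = ι a) (hβ : ∀ v, ev (β v) = v) (π : A)
    (P : (↥(s27dzSub α β ι π))[X]) (y : A)
    (hy : P.eval₂ (s27dzSub α β ι π).subtype y = 0)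
    (hu : IsUnit ((derivative P).eval₂ (s27dzSub α β ι π).subtype y)) :
    y ∈ s27dzSub α β ι π := by
  refine s27dz_hroot_subI α β ι _ (fun a => ?_) P y hy hu
  rw [IsLocalRing.jacobson_eq_maximalIdeal (⊥ : Ideal R) bot_ne_top]
  exact s27dz_diff_mem_maximalIdeal α β ι ev hα hβ a

end hroot

section DVR

variable {K A V R : Type*} [Field K] [CharZero K] [CommRing A] [IsDomain A]
  [IsDiscreteValuationRing A] [Algebra K A] [CommRing V] [CommRing R]
  (α : A →+* R) (β : V →+* R) (ι : A →+* V)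

/-- **L3 ∘ L4′**: for a DVR `A ⊇ K[π]` with residue field `K`, algebraic over `K[π]`, the subring
`A″` is everything. -/
theorem s27dz_sub_eq_top_dvr [IsLocalRing R] [Nontrivial V] (ev : R →+* V)
    (hα : ∀ a, ev (α a) = ι a) (hβ : ∀ v, ev (β v) = v)
    {π : A} (hπ : Irreducible π)
    (hres : ∀ a : A, ∃ c : K, π ∣ a - algebraMap K A c)
    (halg : ∀ a : A, ∃ G : K[X][X], G ≠ 0 ∧ G.eval₂ (s27nwRho π) a = 0)
    (hK : ∀ c : K, α (algebraMap K A c) = β (ι (algebraMap K A c))) :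
    s27dzSub α β ι π = ⊤ := by
  rw [eq_top_iff]
  intro a _
  exact s27nw_closure hπ hres halg (s27dzSub α β ι π)
    (fun c => s27dz_const_mem α β ι _ _ (hK c)) (s27dz_pi_mem α β ι π)
    (fun P y hy hu => s27dz_hroot α β ι ev hα hβ π P y hy hu) a

/-- **L3 ∘ L4′**, divisibility form: `α π − β (ι π)` divides `α a − β (ι a)` for every `a`. -/
theorem s27dz_dvd_dvr [IsLocalRing R] [Nontrivial V] (ev : R →+* V)
    (hα : ∀ a, ev (α a) = ι a) (hβ : ∀ v, ev (β v) = v)
    {π : A} (hπ : Irreducible π)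
    (hres : ∀ a : A, ∃ c : K, π ∣ a - algebraMap K A c)
    (halg : ∀ a : A, ∃ G : K[X][X], G ≠ 0 ∧ G.eval₂ (s27nwRho π) a = 0)
    (hK : ∀ c : K, α (algebraMap K A c) = β (ι (algebraMap K A c))) (a : A) :
    (α π - β (ι π)) ∣ (α a - β (ι a)) := by
  rw [← s27dz_mem_sub_iff_dvd, s27dz_sub_eq_top_dvr α β ι ev hα hβ hπ hres halg hK]
  exact Subring.mem_top a

/-- **(DIV) for a DVR**: the kernel of the evaluation is `(α π − β (ι π))·R`. -/
theorem s27dz_div_dvr [IsLocalRing R] [Nontrivial V] (ev : R →+* V)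
    (hα : ∀ a, ev (α a) = ι a) (hβ : ∀ v, ev (β v) = v)
    {π : A} (hπ : Irreducible π)
    (hres : ∀ a : A, ∃ c : K, π ∣ a - algebraMap K A c)
    (halg : ∀ a : A, ∃ G : K[X][X], G ≠ 0 ∧ G.eval₂ (s27nwRho π) a = 0)
    (hK : ∀ c : K, α (algebraMap K A c) = β (ι (algebraMap K A c)))
    (hR : ∀ r : R, ∃ s : R, IsUnit s ∧
      r * s ∈ Subring.closure (Set.range α ∪ Set.range β))
    (r : R) : ev r = 0 ↔ r ∈ Ideal.span {α π - β (ι π)} :=
  s27dz_ker_eq_span α β ι ev hα hβ π
    (s27dz_sub_eq_top_dvr α β ι ev hα hβ hπ hres halg hK) hR r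

/-- (DIV) for a DVR, in the divisibility form of the NEWTON leaf. -/
theorem s27dz_div_dvd_dvr [IsLocalRing R] [Nontrivial V] (ev : R →+* V)
    (hα : ∀ a, ev (α a) = ι a) (hβ : ∀ v, ev (β v) = v)
    {π : A} (hπ : Irreducible π)
    (hres : ∀ a : A, ∃ c : K, π ∣ a - algebraMap K A c)
    (halg : ∀ a : A, ∃ G : K[X][X], G ≠ 0 ∧ G.eval₂ (s27nwRho π) a = 0)
    (hK : ∀ c : K, α (algebraMap K A c) = β (ι (algebraMap K A c)))
    (hR : ∀ r : R, ∃ s : R, IsUnit s ∧
      r * s ∈ Subring.closure (Set.range α ∪ Set.range β))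
    (r : R) (hr : ev r = 0) : (α π - β (ι π)) ∣ r :=
  Ideal.mem_span_singleton.mp
    ((s27dz_div_dvr α β ι ev hα hβ hπ hres halg hK hR r).mp hr)

end DVR

end Fermat.Agent.S27
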