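/-
S27-B, AD-WD (divided differences), assembly of L3 DIV₀ (helper27, S27/DivZero.lean) with the
NEWTON CLOSURE (helper40, S27/NewtonCl.lean).

`A` a discrete valuation ring ⊇ `K` (char `0`), residue field `K`, uniformiser `π`, algebraic
over `K[π]`; `R` a local ring; `α : A → R` and `β ∘ ι : A → V → R` two ring homomorphisms which
agree on `K` and are congruent modulo the maximal ideal of `R`.  Then

    `(α π − β (ι π)) ∣ (α a − β (ι a))`   for EVERY `a ∈ A`            (`s27nwd_dvd`)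

(no étale generator, no normality, no finiteness hypothesis on `A`).
-/
import Fermat.Agent.S27.NewtonCl
import Fermat.Agent.S27.DivZero

set_option autoImplicit false

namespace Fermat.Agent.S27

open Polynomial

variable {K A V R : Type*} [Field K] [CharZero K] [CommRing A] [IsDomain A]
  [IsDiscreteValuationRing A] [Algebra K A] [CommRing V] [CommRing R] [IsLocalRing R]

/-- **AD-WD, ideal form.**  The subring `A″_I` is everything as soon as it contains `π`. -/
theorem s27nwd_subI_eq_top (α : A →+* R) (β : V →+* R) (ι : A →+* V)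
    {π : A} (hπ : Irreducible π)
    (hres : ∀ a : A, ∃ c : K, π ∣ a - algebraMap K A c)
    (halg : ∀ a : A, ∃ G : K[X][X], G ≠ 0 ∧ G.eval₂ (s27nwRho π) a = 0)
    (hconst : ∀ c : K, α (algebraMap K A c) = β (ι (algebraMap K A c)))
    (hm : ∀ y : A, α y - β (ι y) ∈ IsLocalRing.maximalIdeal R)
    (I : Ideal R) (hπI : π ∈ s27dzSubI α β ι I) :
    s27dzSubI α β ι I = ⊤ := by
  rw [eq_top_iff]
  intro a _
  refine s27nw_closure hπ hres halg (s27dzSubI α β ι I)
    (fun c => s27dz_const_mem α β ι I _ (hconst c)) hπI ?_ a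
  intro P y hy hu
  refine s27dz_root_mem α β ι I (P.map (s27dzSubI α β ι I).subtype) ?_ y ?_ ?_ (hm y)
  · intro k
    rw [coeff_map]
    exact (P.coeff k).2
  · rw [eval_map]
    exact hy
  · rw [derivative_map, eval_map]
    exact hu.map α

/-- **AD-WD.**  `α π − β (ι π)` divides `α a − β (ι a)` for every `a`. -/
theorem s27nwd_dvd (α : A →+* R) (β : V →+* R) (ι : A →+* V)
    {π : A} (hπ : Irreducible π)
    (hres : ∀ a : A, ∃ c : K, π ∣ a - algebraMap K A c)
    (halg : ∀ a : A, ∃ G : K[X][X], G ≠ 0 ∧ G.eval₂ (s27nwRho π) a = 0)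
    (hconst : ∀ c : K, α (algebraMap K A c) = β (ι (algebraMap K A c)))
    (hm : ∀ y : A, α y - β (ι y) ∈ IsLocalRing.maximalIdeal R) (a : A) :
    (α π - β (ι π)) ∣ (α a - β (ι a)) := by
  have h := s27nwd_subI_eq_top α β ι hπ hres halg hconst hm
    (Ideal.span {α π - β (ι π)}) (s27dz_pi_mem α β ι π)
  have ha : a ∈ s27dzSub α β ι π := by
    show a ∈ s27dzSubI α β ι (Ideal.span {α π - β (ι π)})
    rw [h]
    exact Subring.mem_top a
  exact (s27dz_mem_sub_iff_dvd α β ι π a).mp ha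

/-- **AD-WD with an evaluation** (`ev ∘ α = ι`, `ev ∘ β = id`): `A″ = ⊤`, the input `htop` of
`s27dz_ker_eq_span` (DIV). -/
theorem s27nwd_sub_eq_top [Nontrivial V] (α : A →+* R) (β : V →+* R) (ι : A →+* V)
    (ev : R →+* V) (hα : ∀ a, ev (α a) = ι a) (hβ : ∀ v, ev (β v) = v)
    {π : A} (hπ : Irreducible π)
    (hres : ∀ a : A, ∃ c : K, π ∣ a - algebraMap K A c)
    (halg : ∀ a : A, ∃ G : K[X][X], G ≠ 0 ∧ G.eval₂ (s27nwRho π) a = 0)
    (hconst : ∀ c : K, α (algebraMap K A c) = β (ι (algebraMap K A c))) :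
    s27dzSub α β ι π = ⊤ :=
  s27nwd_subI_eq_top α β ι hπ hres halg hconst
    (fun y => s27dz_diff_mem_maximalIdeal α β ι ev hα hβ y) _ (s27dz_pi_mem α β ι π)

/-- **Two points with the same centre**: `ι₁, ι₂ : A → R` agreeing on `K`, with `ι₁ π, ι₂ π` in
the maximal ideal of `R`: `(ι₁ π − ι₂ π) ∣ (ι₁ a − ι₂ a)`. -/
theorem s27nwd_two_points (ι₁ ι₂ : A →+* R)
    {π : A} (hπ : Irreducible π)
    (hres : ∀ a : A, ∃ c : K, π ∣ a - algebraMap K A c)
    (halg : ∀ a : A, ∃ G : K[X][X], G ≠ 0 ∧ G.eval₂ (s27nwRho π) a = 0)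
    (hconst : ∀ c : K, ι₁ (algebraMap K A c) = ι₂ (algebraMap K A c))
    (h₁ : ι₁ π ∈ IsLocalRing.maximalIdeal R) (h₂ : ι₂ π ∈ IsLocalRing.maximalIdeal R) (a : A) :
    (ι₁ π - ι₂ π) ∣ (ι₁ a - ι₂ a) := by
  refine s27nwd_dvd (V := A) ι₁ ι₂ (RingHom.id A) hπ hres halg hconst ?_ a
  intro y
  obtain ⟨c, y', hy'⟩ := hres y
  have hy : y = algebraMap K A c + π * y' := by rw [← hy']; ring
  have : ι₁ y - ι₂ ((RingHom.id A) y) = ι₁ π * ι₁ y' - ι₂ π * ι₂ y' := by
    rw [RingHom.id_apply, hy, map_add, map_add, map_mul, map_mul, hconst c]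
    ring
  rw [this]
  exact Ideal.sub_mem _ (Ideal.mul_mem_right _ _ h₁) (Ideal.mul_mem_right _ _ h₂)

end Fermat.Agent.S27
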