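/-
S27 route B (item 27), piece EFF-INST, closed centres (helper50): the divided-difference step
`S27eiStep` (S27/EffInst.lean) at a CLOSED centre, from the elementary AD-WD of helper27/helper40
(S27/NewtonDz.lean `s27nwd_dvd`), applied to the LOCAL RING OF GERMS.

`A` a discrete valuation ring ⊇ `K` (char `0`), uniformiser `π`, residue field `K`, every element
algebraic over `K[π]`; `R` a local ring over `K`.

* `s27eicGerm ι`         : the ring of germs at a family of congruent points (a subring of `I → R`);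
* `s27eic_isLocalRing`   : it is a local ring;
* `s27ei_step_of_dvr`    : `S27eiStep K A π R`;
* `s27ei_step_congr`     : the step for `t` gives the step for `t + c`, `c ∈ K`.
-/
import Fermat.Agent.S27.EffInst
import Fermat.Agent.S27.NewtonDz

set_option autoImplicit false
set_option linter.unusedSectionVars false
set_option linter.style.haveILetI false

namespace Fermat.Agent.S27

open IsLocalRing Polynomial
open scoped TensorProduct

section GermRing

variable {K D R : Type*} [Field K] [CommRing D] [Algebra K D] [CommRing R] [IsLocalRing R]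
  [Algebra K R] {I : Type*} (ι : I → D →ₐ[K] R)

/-- the ring of germs at the points `ι i`. -/
def s27eicGerm : Subring (I → R) where
  carrier := {φ | S27diagFun ι φ}
  mul_mem' := fun ha hb => s27diag_fun_mul ι ha hb
  one_mem' := s27diag_fun_const ι 1
  add_mem' := fun ha hb => s27diag_fun_add ι ha hb
  zero_mem' := s27diag_fun_const ι 0
  neg_mem' := fun ha => s27ei_fun_neg ι ha

theorem s27eic_mem (φ : I → R) : φ ∈ s27eicGerm ι ↔ S27diagFun ι φ := Iff.rfl

/-- values of a function of the constant curve at two congruent points are congruent. -/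
theorem s27eic_ev_cong {i j : I} (h : S27diagCong (ι i) (ι j)) (z : D ⊗[K] R) :
    s27diagEv (ι i) z - s27diagEv (ι j) z ∈ maximalIdeal R := by
  induction z using TensorProduct.induction_on with
  | zero => simp
  | tmul d r =>
    rw [s27diag_ev_tmul, s27diag_ev_tmul, ← sub_mul]
    exact Ideal.mul_mem_right _ _ (h d)
  | add x y hx hy =>
    rw [map_add, map_add]
    have : s27diagEv (ι i) x + s27diagEv (ι i) y - (s27diagEv (ι j) x + s27diagEv (ι j) y) =
        (s27diagEv (ι i) x - s27diagEv (ι j) x) + (s27diagEv (ι i) y - s27diagEv (ι j) y) := by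
      ring
    rw [this]
    exact add_mem hx hy

/-- the values of a germ at two congruent points are congruent. -/
theorem s27eic_fun_cong (hc : ∀ i j, S27diagCong (ι i) (ι j)) {φ : I → R}
    (hφ : S27diagFun ι φ) (i j : I) : φ i - φ j ∈ maximalIdeal R := by
  obtain ⟨y, s, hu, h⟩ := hφ
  have h1 := s27eic_ev_cong ι (hc i j) y
  have h2 := s27eic_ev_cong ι (hc i j) s
  rw [← h i, ← h j] at h1
  have h3 : s27diagEv (ι i) s * (φ i - φ j) =
      (s27diagEv (ι i) s * φ i - s27diagEv (ι j) s * φ j) -
        (s27diagEv (ι i) s - s27diagEv (ι j) s) * φ j := by ring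
  have h4 : s27diagEv (ι i) s * (φ i - φ j) ∈ maximalIdeal R := by
    rw [h3]
    exact sub_mem h1 (Ideal.mul_mem_right _ _ h2)
  obtain ⟨u, hu'⟩ := hu i
  have h5 : φ i - φ j = ↑u⁻¹ * (s27diagEv (ι i) s * (φ i - φ j)) := by
    rw [← hu', ← mul_assoc, Units.inv_mul, one_mul]
  rw [h5]
  exact Ideal.mul_mem_left _ _ h4

/-- a germ which is a unit at one point is a unit at every point. -/
theorem s27eic_isUnit_all (hc : ∀ i j, S27diagCong (ι i) (ι j)) {φ : I → R}
    (hφ : S27diagFun ι φ) {k : I} (hk : IsUnit (φ k)) (i : I) : IsUnit (φ i) := by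
  by_contra hi
  have hi' : φ i ∈ maximalIdeal R := (IsLocalRing.mem_maximalIdeal _).mpr hi
  have h := s27eic_fun_cong ι hc hφ i k
  have hk' : φ k ∈ maximalIdeal R := by
    have := sub_mem hi' h
    rwa [sub_sub_cancel] at this
  exact (IsLocalRing.mem_maximalIdeal _).mp hk' hk

/-- the inverse of a germ which is a unit at the points is a germ. -/
theorem s27eic_fun_inv_of_isUnit {φ : I → R} (hφ : S27diagFun ι φ) (hu : ∀ i, IsUnit (φ i))
    (ψ : I → R) (hψ : ∀ i, φ i * ψ i = 1) : S27diagFun ι ψ := by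
  obtain ⟨y, s, hs, h⟩ := hφ
  refine ⟨s, y, fun i => ?_, fun i => ?_⟩
  · rw [← h i]; exact (hs i).mul (hu i)
  · rw [← h i, mul_assoc, hψ i, mul_one]

/-- units of the ring of germs. -/
theorem s27eic_isUnit (hc : ∀ i j, S27diagCong (ι i) (ι j)) (φ : s27eicGerm ι) (k : I)
    (hk : IsUnit ((φ : I → R) k)) : IsUnit φ := by
  have hall := s27eic_isUnit_all ι hc φ.2 hk
  have hinv : S27diagFun ι (fun i => (↑((hall i).unit⁻¹) : R)) :=
    s27eic_fun_inv_of_isUnit ι φ.2 hall _ (fun i => (hall i).mul_val_inv)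
  refine ⟨⟨φ, ⟨_, hinv⟩, ?_, ?_⟩, rfl⟩
  · apply Subtype.ext
    funext i
    exact (hall i).mul_val_inv
  · apply Subtype.ext
    funext i
    exact (hall i).val_inv_mul

/-- evaluation of germs at a point. -/
def s27eicAt (k : I) : s27eicGerm ι →+* R :=
  (Pi.evalRingHom (fun _ : I => R) k).comp (s27eicGerm ι).subtype

@[simp]
theorem s27eic_at_apply (k : I) (φ : s27eicGerm ι) : s27eicAt ι k φ = (φ : I → R) k := rfl

theorem s27eic_isUnit_iff (hc : ∀ i j, S27diagCong (ι i) (ι j)) (φ : s27eicGerm ι) (k : I) :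
    IsUnit φ ↔ IsUnit ((φ : I → R) k) :=
  ⟨fun h => h.map (s27eicAt ι k), s27eic_isUnit ι hc φ k⟩

/-- **the ring of germs is local.** -/
theorem s27eic_isLocalRing (hc : ∀ i j, S27diagCong (ι i) (ι j)) (k : I) :
    IsLocalRing (s27eicGerm ι) := by
  haveI : Nontrivial (s27eicGerm ι) := by
    refine ⟨⟨0, 1, fun h => ?_⟩⟩
    have h1 := congrArg (s27eicAt ι k) h
    rw [map_zero, map_one] at h1
    exact zero_ne_one h1
  refine IsLocalRing.of_nonunits_add fun {a b} ha hb => ?_
  rw [mem_nonunits_iff, s27eic_isUnit_iff ι hc _ k] at ha hb ⊢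
  have ha' : (a : I → R) k ∈ maximalIdeal R := (IsLocalRing.mem_maximalIdeal _).mpr ha
  have hb' : (b : I → R) k ∈ maximalIdeal R := (IsLocalRing.mem_maximalIdeal _).mpr hb
  exact (IsLocalRing.mem_maximalIdeal _).mp (add_mem ha' hb')

end GermRing

section Step

variable {K : Type*} [Field K]

/-- the step only depends on the coordinate up to a constant. -/
theorem s27ei_step_congr {D R : Type*} [CommRing D] [Algebra K D] [CommRing R] [IsLocalRing R]
    [Algebra K R] {t t' : D} (c : K) (ht : t' = t + algebraMap K D c)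
    (h : S27eiStep K D t R) : S27eiStep K D t' R := by
  intro I ι hc φ hφ k
  obtain ⟨φ', hφ', hstep⟩ := h I ι hc φ hφ k
  refine ⟨φ', hφ', fun i => ?_⟩
  rw [hstep i, ht, map_add, map_add, AlgHom.commutes, AlgHom.commutes]
  ring

variable [CharZero K] {A : Type*} [CommRing A] [IsDomain A] [IsDiscreteValuationRing A]
  [Algebra K A] {R : Type*} [CommRing R] [IsLocalRing R] [Algebra K R]

/-- **the divided-difference step at a closed centre.** -/
theorem s27ei_step_of_dvr {π : A} (hπ : Irreducible π)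
    (hres : ∀ a : A, ∃ c : K, π ∣ a - algebraMap K A c)
    (halg : ∀ a : A, ∃ G : K[X][X], G ≠ 0 ∧ G.eval₂ (s27nwRho π) a = 0) :
    S27eiStep K A π R := by
  intro I ι hc φ hφ k
  haveI hloc : IsLocalRing (s27eicGerm ι) := s27eic_isLocalRing ι hc k
  -- the three maps
  let α : A →+* s27eicGerm ι :=
    { toFun := fun d => ⟨fun i => ι i d, s27diag_fun_of ι d⟩
      map_one' := by apply Subtype.ext; funext i; simp
      map_mul' := fun a b => by apply Subtype.ext; funext i; simp
      map_zero' := by apply Subtype.ext; funext i; simp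
      map_add' := fun a b => by apply Subtype.ext; funext i; simp }
  let β : R →+* s27eicGerm ι :=
    { toFun := fun r => ⟨fun _ => r, s27diag_fun_const ι r⟩
      map_one' := rfl
      map_mul' := fun a b => rfl
      map_zero' := rfl
      map_add' := fun a b => rfl }
  have hα : ∀ (d : A) (i : I), ((α d : s27eicGerm ι) : I → R) i = ι i d := fun d i => rfl
  have hβ : ∀ (r : R) (i : I), ((β r : s27eicGerm ι) : I → R) i = r := fun r i => rfl
  have hconst : ∀ c : K, α (algebraMap K A c) = β ((ι k : A →+* R) (algebraMap K A c)) := by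
    intro c
    apply Subtype.ext
    funext i
    show ι i (algebraMap K A c) = ι k (algebraMap K A c)
    rw [AlgHom.commutes, AlgHom.commutes]
  have hm : ∀ y : A, α y - β ((ι k : A →+* R) y) ∈ maximalIdeal (s27eicGerm ι) := by
    intro y
    rw [IsLocalRing.mem_maximalIdeal, mem_nonunits_iff, s27eic_isUnit_iff ι hc _ k]
    have : ((α y - β ((ι k : A →+* R) y) : s27eicGerm ι) : I → R) k = 0 := by
      show ι k y - ι k y = 0
      rw [sub_self]
    rw [this]
    exact not_isUnit_zero
  have hdvd := s27nwd_dvd (K := K) α β (ι k : A →+* R) hπ hres halg hconst hm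
  -- divisibility for all functions of the constant curve
  have hall : ∀ z : A ⊗[K] R, ∃ ψ : I → R, S27diagFun ι ψ ∧
      ∀ i, s27diagEv (ι i) z - s27diagEv (ι k) z = (ι i π - ι k π) * ψ i := by
    intro z
    induction z using TensorProduct.induction_on with
    | zero => exact ⟨fun _ => 0, s27diag_fun_const ι 0, fun i => by simp⟩
    | tmul d r =>
      obtain ⟨ψ, hψ⟩ := hdvd d
      refine ⟨fun i => (ψ : I → R) i * r, s27diag_fun_mul ι ψ.2 (s27diag_fun_const ι r),
        fun i => ?_⟩
      have h1 := congrArg (fun x : s27eicGerm ι => (x : I → R) i) hψ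
      have h2 : ι i d - ι k d = (ι i π - ι k π) * (ψ : I → R) i := h1
      rw [s27diag_ev_tmul, s27diag_ev_tmul, ← sub_mul, h2]
      ring
    | add x y hx hy =>
      obtain ⟨ψ₁, h₁, h₁'⟩ := hx
      obtain ⟨ψ₂, h₂, h₂'⟩ := hy
      refine ⟨fun i => ψ₁ i + ψ₂ i, s27diag_fun_add ι h₁ h₂, fun i => ?_⟩
      rw [map_add, map_add, mul_add, ← h₁' i, ← h₂' i]
      ring
  obtain ⟨y, s, hu, hys⟩ := hφ
  obtain ⟨ψy, hψy, hy'⟩ := hall y
  obtain ⟨ψs, hψs, hs'⟩ := hall s
  -- the inverse of `s`
  have hSinv : S27diagFun ι (fun i => (↑((hu i).unit⁻¹) : R)) :=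
    s27ei_fun_inv ι s hu _ (fun i => (hu i).mul_val_inv)
  have hnum : S27diagFun ι (fun i => ψy i + -(φ k * ψs i)) :=
    s27diag_fun_add ι hψy (s27ei_fun_neg ι (s27diag_fun_mul ι (s27diag_fun_const ι (φ k)) hψs))
  refine ⟨fun i => (↑((hu i).unit⁻¹) : R) * (ψy i + -(φ k * ψs i)),
    s27diag_fun_mul ι hSinv hnum, fun i => ?_⟩
  have e1 : s27diagEv (ι i) s * (φ i - φ k) =
      (s27diagEv (ι i) y - s27diagEv (ι k) y) -
        φ k * (s27diagEv (ι i) s - s27diagEv (ι k) s) := by
    rw [← hys i, ← hys k]; ring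
  have e2 : φ i - φ k = ↑((hu i).unit⁻¹) * (s27diagEv (ι i) s * (φ i - φ k)) := by
    rw [← mul_assoc, (hu i).val_inv_mul, one_mul]
  rw [e2, e1, hy' i, hs' i]
  ring

end Step

end Fermat.Agent.S27
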