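/-
S27 route B (item 27), piece EFF-INST, GENERIC centres (helper50): the divided-difference step
`S27eiStep K F t R` at a generic centre (`D = F` the function field itself), for every `t : F` over
which `F` is algebraic, in characteristic `0`.

* `s27eig_isSeparable` : `F / K(t)` is separable;
* `s27ei_step_generic` : `S27eiStep K F t R`;
* `s27eig_dvd`         : DIAG for two points `F →ₐ[K] R` with the same generic reduction.
-/
import Fermat.Agent.S27.EffInst

set_option autoImplicit false
set_option linter.unusedSectionVars false
set_option linter.style.haveILetI false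

namespace Fermat.Agent.S27

open IsLocalRing
open scoped IntermediateField.algebraAdjoinAdjoin

section Generic

variable {K F : Type*} [Field K] [CharZero K] [Field F] [Algebra K F]

/-- `F / K(t)` is separable as soon as `F` is algebraic over `K[t]` (characteristic `0`). -/
theorem s27eig_isSeparable (t : F) (halg : Algebra.IsAlgebraic (Algebra.adjoin K {t}) F) :
    Algebra.IsSeparable (IntermediateField.adjoin K {t}) F := by
  haveI := halg
  haveI h1 : Algebra.IsAlgebraic (IntermediateField.adjoin K {t}) F :=
    Algebra.IsAlgebraic.extendScalars (R := Algebra.adjoin K {t})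
      (S := IntermediateField.adjoin K {t}) (A := F)
      (FaithfulSMul.algebraMap_injective (Algebra.adjoin K {t}) (IntermediateField.adjoin K {t}))
  haveI : CharZero (IntermediateField.adjoin K {t}) :=
    charZero_of_injective_algebraMap (algebraMap K (IntermediateField.adjoin K {t})).injective
  exact Algebra.IsAlgebraic.isSeparable_of_perfectField

variable [Algebra.EssFiniteType K F] {R : Type*} [CommRing R] [IsLocalRing R] [Algebra K R]

/-- **the divided-difference step at a generic centre.** -/
theorem s27ei_step_generic (t : F) (halg : Algebra.IsAlgebraic (Algebra.adjoin K {t}) F) :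
    S27eiStep K F t R := by
  haveI := s27eig_isSeparable t halg
  exact s27ei_step_of_unramified t (s27diag_unramified_field t)

/-- **DIAG at a generic centre**, characteristic `0`. -/
theorem s27eig_dvd (t : F) (halg : Algebra.IsAlgebraic (Algebra.adjoin K {t}) F)
    (ι₁ ι₂ : F →ₐ[K] R) (h : S27diagCong ι₁ ι₂) (f : F) : ι₁ t - ι₂ t ∣ ι₁ f - ι₂ f := by
  haveI := s27eig_isSeparable t halg
  exact s27diag_dvd_field t ι₁ ι₂ h f

end Generic

end Fermat.Agent.S27
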