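/-
S27-B, AD-WD for a CLOSED CENTRE (helper40): the instance of the Newton closure (S27/NewtonCl,
NewtonDz) for the local ring `𝒪_Q` of a place `Q` of `F / K` (prelude `Place K F`).

`Q : Place K F` with residue field `K` (`hres`), `π : F` with `Q.ord π = 1`, `F` algebraic over
`K[π]` (`halg`), characteristic `0`.  Then the three inputs of `s27nw_closure` hold for
`A = 𝒪_Q`:

* `s27nwp_irreducible` : `π` is irreducible in `𝒪_Q`;
* `s27nwp_hres`        : `∀ a, ∃ c : K, π ∣ a − c`;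
* `s27nwp_halg`        : every `a ∈ 𝒪_Q` is a root of a nonzero `G ∈ K[X][Y]` at `X = π`;

and for two points `R₁ R₂ : F →ₐ[K] 𝔏` with centre `Q` along a valuation subring `W` of `𝔏`
(`R_i f ∈ W ↔ f ∈ 𝒪_Q`) the divided differences are integral:

* `s27nwp_divided_diff` : `f ∈ 𝒪_Q ⇒ ∃ w ∈ W, R₁ f − R₂ f = (R₁ π − R₂ π) · w`.
-/
import Fermat.Agent.S27.NewtonDz
import Fermat.Agent.S24.PlaceBasic

set_option autoImplicit false
set_option linter.unusedSectionVars false

noncomputable section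

namespace Fermat.Agent.S27

open Polynomial AlgebraicCurve Fermat.Agent.S24

variable {K F : Type*} [Field K] [Field F] [Algebra K F]

/-- an element of order one, as an element of the local ring. -/
def s27nwpPi (Q : Place K F) (π : F) (hπ : Q.ord π = 1) : Q.toValuationSubring :=
  ⟨π, PlaceAux.mem_of_ord_nonneg Q (by rw [hπ]; norm_num)⟩

@[simp] theorem s27nwpPi_coe (Q : Place K F) (π : F) (hπ : Q.ord π = 1) :
    ((s27nwpPi Q π hπ : Q.toValuationSubring) : F) = π := rfl

/-- an element of order one is irreducible in `𝒪_Q`. -/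
theorem s27nwp_irreducible (Q : Place K F) (π : F) (hπ : Q.ord π = 1) :
    Irreducible (s27nwpPi Q π hπ) := by
  obtain ⟨ϖ, hϖ⟩ := IsDiscreteValuationRing.exists_irreducible Q.toValuationSubring
  have hπ0 : π ≠ 0 := by
    rintro rfl
    rw [Place.ord_zero] at hπ
    exact zero_ne_one hπ
  obtain ⟨u, hu⟩ := Q.exists_unit_mul_zpow hπ0 hϖ
  rw [hπ, zpow_one] at hu
  have h1 : s27nwpPi Q π hπ = (u : Q.toValuationSubring) * ϖ := Subtype.ext hu
  rw [h1]
  exact (irreducible_units_mul u).mpr hϖ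

/-- the residue field is `K`: every element is a constant modulo `π`. -/
theorem s27nwp_hres (Q : Place K F)
    (hres : Function.Surjective (algebraMap K Q.ResidueField)) (π : F) (hπ : Q.ord π = 1)
    (a : Q.toValuationSubring) :
    ∃ c : K, s27nwpPi Q π hπ ∣ a - algebraMap K Q.toValuationSubring c := by
  obtain ⟨c, hc⟩ := hres (IsLocalRing.residue Q.toValuationSubring a)
  refine ⟨c, ?_⟩
  have hmem : a - algebraMap K Q.toValuationSubring c ∈
      IsLocalRing.maximalIdeal Q.toValuationSubring := by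
    rw [← Ideal.Quotient.eq_zero_iff_mem]
    have h1 : algebraMap K Q.ResidueField c =
        IsLocalRing.residue Q.toValuationSubring (algebraMap K Q.toValuationSubring c) := rfl
    rw [h1] at hc
    rw [map_sub]
    exact sub_eq_zero.mpr hc.symm
  rw [(s27nwp_irreducible Q π hπ).maximalIdeal_eq, Ideal.mem_span_singleton] at hmem
  exact hmem

/-- `s27nwRho` commutes with the inclusion `𝒪_Q ⊆ F`. -/
theorem s27nwp_rho_coe (Q : Place K F) (π : F) (hπ : Q.ord π = 1) (g : K[X]) :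
    ((s27nwRho (K := K) (s27nwpPi Q π hπ) g : Q.toValuationSubring) : F) =
      s27nwRho (K := K) π g := by
  induction g using Polynomial.induction_on with
  | C c => simp
  | add p q hp hq => simp only [map_add]; push_cast; rw [hp, hq]
  | monomial n c h =>
    simp only [map_mul, map_pow, s27nwRho_C, s27nwRho_X]
    push_cast
    simp

/-- algebraicity over `K[π]`, in the shape of `s27nw_closure`, from the field statement. -/
theorem s27nwp_halg_of (Q : Place K F) (π : F) (hπ : Q.ord π = 1)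
    (halg : ∀ f : F, ∃ G : K[X][X], G ≠ 0 ∧ G.eval₂ (s27nwRho (K := K) π) f = 0)
    (a : Q.toValuationSubring) :
    ∃ G : K[X][X], G ≠ 0 ∧ G.eval₂ (s27nwRho (K := K) (s27nwpPi Q π hπ)) a = 0 := by
  obtain ⟨G, hG, hGa⟩ := halg (a : F)
  refine ⟨G, hG, ?_⟩
  apply Subtype.ext
  have h1 : ((G.eval₂ (s27nwRho (K := K) (s27nwpPi Q π hπ)) a : Q.toValuationSubring) : F) =
      G.eval₂ (s27nwRho (K := K) π) (a : F) := by
    have h2 := Polynomial.hom_eval₂ G (s27nwRho (K := K) (s27nwpPi Q π hπ))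
      Q.toValuationSubring.subtype a
    have h3 : Q.toValuationSubring.subtype.comp (s27nwRho (K := K) (s27nwpPi Q π hπ)) =
        s27nwRho (K := K) π := by
      ext g
      · exact s27nwp_rho_coe Q π hπ (C g)
      · exact s27nwp_rho_coe Q π hπ X
    rw [h3] at h2
    exact h2
  rw [h1, hGa]
  rfl

/-- the field statement from `Algebra.IsAlgebraic (Algebra.adjoin K {π}) F`. -/
theorem s27nwp_halg_field (π : F)
    (halg : Algebra.IsAlgebraic (Algebra.adjoin K ({π} : Set F)) F) (f : F) :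
    ∃ G : K[X][X], G ≠ 0 ∧ G.eval₂ (s27nwRho (K := K) π) f = 0 := by
  obtain ⟨p, hp, hpf⟩ := halg.isAlgebraic f
  -- the surjection `K[X] → K[π]`
  have hmem : ∀ g : K[X], s27nwRho (K := K) π g ∈
      (Algebra.adjoin K ({π} : Set F)).toSubring := by
    intro g
    show aeval π g ∈ Algebra.adjoin K ({π} : Set F)
    rw [Algebra.adjoin_singleton_eq_range_aeval]
    exact ⟨g, rfl⟩
  set ρ' : K[X] →+* (Algebra.adjoin K ({π} : Set F)) :=
    (s27nwRho (K := K) π).codRestrict (Algebra.adjoin K ({π} : Set F)).toSubring hmem with hρ'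
  have hsurj : Function.Surjective ρ' := by
    rintro ⟨x, hx⟩
    rw [Algebra.adjoin_singleton_eq_range_aeval] at hx
    obtain ⟨g, rfl⟩ := hx
    exact ⟨g, rfl⟩
  obtain ⟨G, hG⟩ := Polynomial.map_surjective ρ' hsurj p
  refine ⟨G, ?_, ?_⟩
  · rintro rfl
    rw [Polynomial.map_zero] at hG
    exact hp hG.symm
  · have h1 : (algebraMap (Algebra.adjoin K ({π} : Set F)) F).comp ρ' =
        s27nwRho (K := K) π := by
      ext g <;> rfl
    rw [← h1, ← Polynomial.eval₂_map, hG]
    exact hpf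

section TwoPoints

variable [CharZero K] {𝔏 : Type*} [Field 𝔏] [Algebra K 𝔏]

/-- a point with centre `Q` along `W`, restricted to the local rings. -/
def s27nwpPt (Q : Place K F) (W : ValuationSubring 𝔏) (R : F →ₐ[K] 𝔏)
    (hR : ∀ f : F, f ∈ Q.toValuationSubring → R f ∈ W) : Q.toValuationSubring →+* W :=
  ((R : F →+* 𝔏).comp Q.toValuationSubring.subtype).codRestrict W.toSubring
    (fun a => hR a a.2)

@[simp] theorem s27nwpPt_coe (Q : Place K F) (W : ValuationSubring 𝔏) (R : F →ₐ[K] 𝔏)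
    (hR : ∀ f : F, f ∈ Q.toValuationSubring → R f ∈ W) (a : Q.toValuationSubring) :
    ((s27nwpPt Q W R hR a : W) : 𝔏) = R (a : F) := rfl

/-- a uniformiser goes to the maximal ideal. -/
theorem s27nwpPt_pi_mem (Q : Place K F) (W : ValuationSubring 𝔏) (R : F →ₐ[K] 𝔏)
    (hR : ∀ f : F, R f ∈ W ↔ f ∈ Q.toValuationSubring) (π : F) (hπ : Q.ord π = 1) :
    s27nwpPt Q W R (fun f hf => (hR f).mpr hf) (s27nwpPi Q π hπ) ∈
      IsLocalRing.maximalIdeal W := by
  rw [IsLocalRing.mem_maximalIdeal, mem_nonunits_iff]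
  rintro ⟨u, hu⟩
  have hπ0 : π ≠ 0 := by
    rintro rfl
    rw [Place.ord_zero] at hπ
    exact zero_ne_one hπ
  -- the inverse of `R π` lies in `W`
  have h1 : R π * ((u⁻¹ : Wˣ) : W) = 1 := by
    have h2 : ((u : W) : 𝔏) = R π := by rw [hu]; rfl
    rw [← h2]
    exact_mod_cast congrArg (fun w : W => (w : 𝔏)) (Units.mul_inv u)
  have h3 : R π⁻¹ = (((u⁻¹ : Wˣ) : W) : 𝔏) := by
    rw [map_inv₀]
    exact inv_eq_of_mul_eq_one_right h1
  have h4 : π⁻¹ ∈ Q.toValuationSubring := (hR _).mp (by rw [h3]; exact ((u⁻¹ : Wˣ) : W).2)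
  have h5 := (PlaceAux.ord_nonneg_iff Q (inv_ne_zero hπ0)).mpr h4
  rw [Q.ord_inv, hπ] at h5
  omega

/-- **AD-WD, closed centre.**  Two points `R₁, R₂` with the same centre `Q` along `W`: the divided
difference `(R₁ f − R₂ f) / (R₁ π − R₂ π)` lies in `W` for every `f ∈ 𝒪_Q`. -/
theorem s27nwp_divided_diff (Q : Place K F)
    (hres : Function.Surjective (algebraMap K Q.ResidueField)) (π : F) (hπ : Q.ord π = 1)
    (halg : ∀ f : F, ∃ G : K[X][X], G ≠ 0 ∧ G.eval₂ (s27nwRho (K := K) π) f = 0)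
    (W : ValuationSubring 𝔏) (R₁ R₂ : F →ₐ[K] 𝔏)
    (h₁ : ∀ f : F, R₁ f ∈ W ↔ f ∈ Q.toValuationSubring)
    (h₂ : ∀ f : F, R₂ f ∈ W ↔ f ∈ Q.toValuationSubring)
    (f : F) (hf : f ∈ Q.toValuationSubring) :
    ∃ w ∈ W, R₁ f - R₂ f = (R₁ π - R₂ π) * w := by
  set ι₁ := s27nwpPt Q W R₁ (fun f hf => (h₁ f).mpr hf) with hι₁
  set ι₂ := s27nwpPt Q W R₂ (fun f hf => (h₂ f).mpr hf) with hι₂
  have hconst : ∀ c : K, ι₁ (algebraMap K Q.toValuationSubring c) =
      ι₂ (algebraMap K Q.toValuationSubring c) := by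
    intro c
    apply Subtype.ext
    show R₁ (algebraMap K F c) = R₂ (algebraMap K F c)
    rw [AlgHom.commutes, AlgHom.commutes]
  obtain ⟨w, hw⟩ := s27nwd_two_points (K := K) ι₁ ι₂ (s27nwp_irreducible Q π hπ)
    (s27nwp_hres Q hres π hπ) (s27nwp_halg_of Q π hπ halg) hconst
    (s27nwpPt_pi_mem Q W R₁ h₁ π hπ) (s27nwpPt_pi_mem Q W R₂ h₂ π hπ) ⟨f, hf⟩
  refine ⟨w, w.2, ?_⟩
  have := congrArg (fun x : W => (x : 𝔏)) hw
  exact this

end TwoPoints

end Fermat.Agent.S27

end
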