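/-
S27-B, AD-WD: the algebraicity input for a curve (helper40).

* `s27nwc_isAlgebraic_adjoin` : `F / K(x)` finite ⇒ `F` algebraic over `K[x]`;
* `s27nwc_exchange`           : `F` algebraic over `K[x]`, `π` transcendental over `K`
                                ⇒ `F` algebraic over `K[π]` (transcendence degree one);
* `s27nwc_halg`               : for a curve `F / K` (`IsCurveOver`, ess. of finite type, char `0`) and
                                every transcendental `π`: the hypothesis `halg` of
                                `s27nwp_divided_diff` / `s27nw_closure`;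
* `s27nwc_transcendental_of_ord` : an element of order `≠ 0` at a place is transcendental
                                (`K` algebraically closed);
* `s27nwc_divided_diff`       : AD-WD at a closed centre of a curve, unconditional.
-/
import Fermat.Agent.S27.NewtonPl
import Fermat.Agent.S27.TD
import Mathlib.RingTheory.AlgebraicIndependent.TranscendenceBasis
import Mathlib.FieldTheory.IntermediateField.Adjoin.Algebra

set_option autoImplicit false
set_option linter.unusedSectionVars false

noncomputable section

namespace Fermat.Agent.S27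

open Polynomial AlgebraicCurve Fermat.Agent.S24 IntermediateField Cardinal

universe u v

variable {K : Type u} {F : Type v} [Field K] [Field F] [Algebra K F]

open IntermediateField.algebraAdjoinAdjoin in
/-- `F / K(x)` algebraic ⇒ `F` algebraic over `K[x]`. -/
theorem s27nwc_isAlgebraic_adjoin (x : F) [Algebra.IsAlgebraic K⟮x⟯ F] :
    Algebra.IsAlgebraic (Algebra.adjoin K ({x} : Set F)) F :=
  Algebra.IsAlgebraic.trans (Algebra.adjoin K ({x} : Set F)) K⟮x⟯ F

/-- **Exchange** in transcendence degree one. -/
theorem s27nwc_exchange (x π : F)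
    (hx : Algebra.IsAlgebraic (Algebra.adjoin K ({x} : Set F)) F) (hπ : Transcendental K π) :
    Algebra.IsAlgebraic (Algebra.adjoin K ({π} : Set F)) F := by
  have h1 : Algebra.trdeg K F ≤ #({x} : Set F) :=
    Algebra.IsAlgebraic.trdeg_le_cardinalMk K ({x} : Set F)
  have h2 : #({x} : Set F) = 1 := by simp
  have hind : AlgebraicIndependent K (fun _ : PUnit.{v + 1} => π) :=
    algebraicIndependent_unique_type_iff.mpr hπ
  have hle : Algebra.trdeg K F ≤ #(PUnit.{v + 1}) := by
    rw [h2] at h1
    simpa using h1
  have hb := hind.isTranscendenceBasis_of_trdeg_le_of_finite hle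
  have h3 := hb.isAlgebraic
  rwa [Set.range_const] at h3

/-- the hypothesis `halg` for a curve. -/
theorem s27nwc_halg [CharZero K] [IsCurveOver K F] [Algebra.EssFiniteType K F] (π : F)
    (hπ : Transcendental K π) (f : F) :
    ∃ G : K[X][X], G ≠ 0 ∧ G.eval₂ (s27nwRho (K := K) π) f = 0 := by
  obtain ⟨x, -, hfin⟩ := s27td_exists_of_isCurveOver (K := K) (F := F)
  have : Algebra.IsAlgebraic K⟮x⟯ F := Algebra.IsAlgebraic.of_finite K⟮x⟯ F
  exact s27nwp_halg_field π (s27nwc_exchange x π (s27nwc_isAlgebraic_adjoin x) hπ) f

/-- an element with a zero or a pole is transcendental (`K` algebraically closed). -/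
theorem s27nwc_transcendental_of_ord [IsAlgClosed K] (Q : Place K F) (π : F)
    (hπ : Q.ord π ≠ 0) : Transcendental K π := by
  intro halg
  have hint : IsIntegral K π := halg.isIntegral
  have h : (minpoly K π).degree = 1 :=
    IsAlgClosed.degree_eq_one_of_irreducible K (minpoly.irreducible hint)
  have hq : (minpoly K π).leadingCoeff = 1 := minpoly.monic hint
  have h0 : aeval π (minpoly K π) = 0 := minpoly.aeval K π
  rw [eq_X_add_C_of_degree_eq_one h, hq, C_1, one_mul, aeval_add, aeval_X, aeval_C,
    add_eq_zero_iff_eq_neg] at h0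
  apply hπ
  rw [h0, PlaceAux.ord_neg, PlaceAux.ord_algebraMap]

/-- **AD-WD at a closed centre of a curve.** -/
theorem s27nwc_divided_diff [IsAlgClosed K] [CharZero K] [IsCurveOver K F]
    [Algebra.EssFiniteType K F] {𝔏 : Type*} [Field 𝔏] [Algebra K 𝔏] (Q : Place K F)
    (hres : Function.Surjective (algebraMap K Q.ResidueField)) (π : F) (hπ : Q.ord π = 1)
    (W : ValuationSubring 𝔏) (R₁ R₂ : F →ₐ[K] 𝔏)
    (h₁ : ∀ f : F, R₁ f ∈ W ↔ f ∈ Q.toValuationSubring)
    (h₂ : ∀ f : F, R₂ f ∈ W ↔ f ∈ Q.toValuationSubring)
    (f : F) (hf : f ∈ Q.toValuationSubring) :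
    ∃ w ∈ W, R₁ f - R₂ f = (R₁ π - R₂ π) * w :=
  s27nwp_divided_diff Q hres π hπ
    (s27nwc_halg π (s27nwc_transcendental_of_ord Q π (by rw [hπ]; norm_num)))
    W R₁ R₂ h₁ h₂ f hf

end Fermat.Agent.S27

end
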