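/-
S27 route B (item 27), piece EFF-INST, the CONCRETE steps (helper40): the divided-difference step
`S27eiStep` of S27/EffInst.lean at the centres of a curve `F / K` (`K` algebraically closed of
characteristic `0`), ready for the cluster frame of S27/EffInstF.lean / EffInstSpan.lean.

* `s27eip_step_equiv`      : transport of the step along an isomorphism `e : D' ≃ₐ[K] D`;
* `s27eip_hres`            : every place of a curve has residue field `K`;
* `s27eip_step_pi`         : the step at `𝒪_Q`, coordinate a uniformiser `π` (`Q.ord π = 1`);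
* `s27eip_step_closed`     : the step at `𝒪_Q`, coordinate `t` with `Q.ord (t − c) = 1`;
* `s27eip_step_subalgebra` : the same at a `Subalgebra K F` with the elements of `𝒪_Q`
                             (e.g. the comap of a valuation subring along a point);
* `s27eip_step_top`        : the step at `⊤ : Subalgebra K F` (generic centre), any `t` over which
                             `F` is algebraic;
* `s27eip_step_top_curve`  : the same for a curve and `t` transcendental;
* `s27eip_step_point`      : the step at the centre ring `S = {f : P f ∈ W}` of ANY point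
                             `P : F →ₐ[K] 𝔏` along ANY valuation subring `W ⊇ K` (closed or
                             generic centre), for an adapted coordinate `t`.
-/
import Fermat.Agent.S27.EffInstCl
import Fermat.Agent.S27.EffInstGen
import Fermat.Agent.S27.NewtonCrv
import Fermat.Agent.S27.AdExPred
import Fermat.Agent.S26.ERRGaussHPD

set_option autoImplicit false
set_option linter.unusedSectionVars false
set_option linter.style.haveILetI false

noncomputable section

namespace Fermat.Agent.S27

open Polynomial AlgebraicCurve Fermat.Agent.S24 Fermat.Agent.S26 IntermediateField IsLocalRing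
open scoped TensorProduct

section Transport

variable {K : Type*} [Field K] {D D' : Type*} [CommRing D] [Algebra K D] [CommRing D']
  [Algebra K D'] {R : Type*} [CommRing R] [IsLocalRing R] [Algebra K R]

theorem s27eip_ev_map (e : D' →ₐ[K] D) (ι : D →ₐ[K] R) (z : D' ⊗[K] R) :
    s27diagEv ι (Algebra.TensorProduct.map e (AlgHom.id K R) z) = s27diagEv (ι.comp e) z := by
  induction z using TensorProduct.induction_on with
  | zero => simp
  | tmul d r => simp [s27diag_ev_tmul]
  | add x y hx hy => rw [map_add, map_add, map_add, hx, hy]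

theorem s27eip_fun_comp {I : Type*} (e : D' →ₐ[K] D) (ι : I → D →ₐ[K] R) {φ : I → R}
    (h : S27diagFun (fun i => (ι i).comp e) φ) : S27diagFun ι φ := by
  obtain ⟨y, s, hu, hys⟩ := h
  refine ⟨Algebra.TensorProduct.map e (AlgHom.id K R) y,
    Algebra.TensorProduct.map e (AlgHom.id K R) s, fun i => ?_, fun i => ?_⟩
  · rw [s27eip_ev_map]
    exact hu i
  · rw [s27eip_ev_map, s27eip_ev_map]
    exact hys i

/-- **transport of the divided-difference step** along an isomorphism of centre rings. -/
theorem s27eip_step_equiv (e : D' ≃ₐ[K] D) (t : D) (h : S27eiStep K D t R) :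
    S27eiStep K D' (e.symm t) R := by
  intro I ι' hc φ hφ k
  have hcomp : ∀ i, ((ι' i).comp (e.symm : D →ₐ[K] D')).comp (e : D' →ₐ[K] D) = ι' i := by
    intro i
    ext d
    simp
  have hι : (fun i => ((ι' i).comp (e.symm : D →ₐ[K] D')).comp (e : D' →ₐ[K] D)) = ι' :=
    funext hcomp
  have hc' : ∀ i j, S27diagCong ((ι' i).comp (e.symm : D →ₐ[K] D'))
      ((ι' j).comp (e.symm : D →ₐ[K] D')) := fun i j b => hc i j (e.symm b)
  have hφ' : S27diagFun (fun i => (ι' i).comp (e.symm : D →ₐ[K] D')) φ :=
    s27eip_fun_comp (e : D' →ₐ[K] D) (fun i => (ι' i).comp (e.symm : D →ₐ[K] D'))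
      (by rw [hι]; exact hφ)
  obtain ⟨φ', hφ'', hstep⟩ := h I (fun i => (ι' i).comp (e.symm : D →ₐ[K] D')) hc' φ hφ' k
  exact ⟨φ', s27eip_fun_comp (e.symm : D →ₐ[K] D') ι' hφ'', fun i => hstep i⟩

end Transport

section Curve

universe u v

variable {K : Type u} {F : Type v} [Field K] [Field F] [Algebra K F]

/-- every place of a curve over an algebraically closed field has residue field `K`. -/
theorem s27eip_hres [IsAlgClosed K] [CharZero K] [IsCurveOver K F] [Algebra.EssFiniteType K F]
    (Q : Place K F) : Function.Surjective (algebraMap K Q.ResidueField) := by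
  obtain ⟨x, hx, hfin⟩ := s27td_exists_of_isCurveOver (K := K) (F := F)
  haveI := hfin
  exact s26gspf_hall hx Q

/-- `ord_Q (t − c) = 1 ⇒ t ∈ 𝒪_Q`. -/
theorem s27eip_mem_of_ord (Q : Place K F) (t : F) (c : K)
    (ht : Q.ord (t - algebraMap K F c) = 1) : t ∈ Q.toValuationSubring := by
  have h1 : t - algebraMap K F c ∈ Q.toValuationSubring :=
    PlaceAux.mem_of_ord_nonneg Q (by rw [ht]; norm_num)
  have h2 : algebraMap K F c ∈ Q.toValuationSubring :=
    (algebraMap K Q.toValuationSubring c).2
  have := Q.toValuationSubring.add_mem _ _ h1 h2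
  rwa [sub_add_cancel] at this

variable [IsAlgClosed K] [CharZero K] [IsCurveOver K F] [Algebra.EssFiniteType K F]
  {R : Type*} [CommRing R] [IsLocalRing R] [Algebra K R]

/-- **the step at a closed place of a curve**, coordinate a uniformiser. -/
theorem s27eip_step_pi (Q : Place K F) (π : F) (hπ : Q.ord π = 1) :
    S27eiStep K ↥Q.toValuationSubring (s27nwpPi Q π hπ) R :=
  s27ei_step_of_dvr (s27nwp_irreducible Q π hπ) (s27nwp_hres Q (s27eip_hres Q) π hπ)
    (s27nwp_halg_of Q π hπ
      (s27nwc_halg π (s27nwc_transcendental_of_ord Q π (by rw [hπ]; norm_num))))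

/-- **the step at a closed place of a curve**, coordinate `t` with `ord_Q (t − c) = 1`. -/
theorem s27eip_step_closed (Q : Place K F) (t : F) (c : K)
    (ht : Q.ord (t - algebraMap K F c) = 1) (htQ : t ∈ Q.toValuationSubring) :
    S27eiStep K ↥Q.toValuationSubring (⟨t, htQ⟩ : Q.toValuationSubring) R := by
  refine s27ei_step_congr c ?_ (s27eip_step_pi Q (t - algebraMap K F c) ht)
  apply Subtype.ext
  show t = (t - algebraMap K F c) + algebraMap K F c
  ring

/-- a subalgebra with the elements of `𝒪_Q` is `𝒪_Q`. -/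
def s27eipEquiv (Q : Place K F) (S : Subalgebra K F)
    (hS : ∀ f, f ∈ S ↔ f ∈ Q.toValuationSubring) : S ≃ₐ[K] Q.toValuationSubring where
  toFun a := ⟨a.1, (hS _).1 a.2⟩
  invFun a := ⟨a.1, (hS _).2 a.2⟩
  left_inv _ := rfl
  right_inv _ := rfl
  map_mul' _ _ := rfl
  map_add' _ _ := rfl
  commutes' _ := rfl

/-- **the step at a closed centre, subalgebra form.** -/
theorem s27eip_step_subalgebra (Q : Place K F) (S : Subalgebra K F)
    (hS : ∀ f, f ∈ S ↔ f ∈ Q.toValuationSubring) (t : F) (c : K)
    (ht : Q.ord (t - algebraMap K F c) = 1) (htS : t ∈ S) :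
    S27eiStep K S (⟨t, htS⟩ : S) R :=
  s27eip_step_equiv (s27eipEquiv Q S hS) ⟨t, (hS t).1 htS⟩
    (s27eip_step_closed Q t c ht ((hS t).1 htS))

omit [IsAlgClosed K] [IsCurveOver K F] in
/-- **the step at a generic centre, subalgebra form** (`S` = everything). -/
theorem s27eip_step_top (S : Subalgebra K F) (hS : ∀ f, f ∈ S) (t : F)
    (halg : Algebra.IsAlgebraic (Algebra.adjoin K {t}) F) :
    S27eiStep K S (⟨t, hS t⟩ : S) R := by
  let e : S ≃ₐ[K] F :=
    { toFun := fun a => a.1
      invFun := fun f => ⟨f, hS f⟩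
      left_inv := fun _ => rfl
      right_inv := fun _ => rfl
      map_mul' := fun _ _ => rfl
      map_add' := fun _ _ => rfl
      commutes' := fun _ => rfl }
  exact s27eip_step_equiv e t (s27ei_step_generic t halg)

omit [IsAlgClosed K] in
/-- `F` is algebraic over `K[t]` for every transcendental `t` of a curve. -/
theorem s27eip_halg_curve (t : F) (ht : Transcendental K t) :
    Algebra.IsAlgebraic (Algebra.adjoin K {t}) F := by
  obtain ⟨x, -, hfin⟩ := s27td_exists_of_isCurveOver (K := K) (F := F)
  haveI : Algebra.IsAlgebraic K⟮x⟯ F := Algebra.IsAlgebraic.of_finite K⟮x⟯ F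
  exact s27nwc_exchange x t (s27nwc_isAlgebraic_adjoin x) ht

omit [IsAlgClosed K] in
/-- the step at a generic centre of a curve. -/
theorem s27eip_step_top_curve (S : Subalgebra K F) (hS : ∀ f, f ∈ S) (t : F)
    (ht : Transcendental K t) : S27eiStep K S (⟨t, hS t⟩ : S) R :=
  s27eip_step_top S hS t (s27eip_halg_curve t ht)

/-- **the step at the centre of ANY point** `P : F →ₐ[K] 𝔏` along ANY valuation subring
`W ⊇ K` of `𝔏`: `S = {f : P f ∈ W}` (closed or generic), `t` transcendental with
`ord_Q (t − c) = 1` at the centre `Q` if the centre is closed (the clause of `S27IsAdapted`). -/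
theorem s27eip_step_point {𝔏 : Type*} [Field 𝔏] [Algebra K 𝔏] (W : ValuationSubring 𝔏)
    (hW : ∀ c : K, algebraMap K 𝔏 c ∈ W) (P : F →ₐ[K] 𝔏) (S : Subalgebra K F)
    (hS : ∀ f, f ∈ S ↔ P f ∈ W) (t : F) (htr : Transcendental K t)
    (hcl : ∀ Q : Place K F, W.comap (P : F →+* 𝔏) = Q.toValuationSubring →
      ∃ c : K, Q.ord (t - algebraMap K F c) = 1)
    (htS : t ∈ S) : S27eiStep K S (⟨t, htS⟩ : S) R := by
  obtain ⟨x, hx, hfin⟩ := s27td_exists_of_isCurveOver (K := K) (F := F)
  haveI := hfin
  rcases s27adex_hred_curve x hx W hW P with hgen | ⟨Q, hQ⟩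
  · exact s27eip_step_top_curve S (fun f => (hS f).2 (hgen f)) t htr
  · obtain ⟨c, hc⟩ := hcl Q hQ
    have hSQ : ∀ f, f ∈ S ↔ f ∈ Q.toValuationSubring := by
      intro f
      rw [hS f, ← hQ]
      rfl
    exact s27eip_step_subalgebra Q S hSQ t c hc htS

end Curve

end Fermat.Agent.S27

end
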