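/-
S27-B (row 26), FORMAL LEAVES **F-E** and **F-b1** of the captain's interface `S27/Plan.lean`
(helper53).  Mathlib + `Plan.lean` only.

* `s27f_stmtB1 : s27f_StmtB1` — `φ^k (L(m)) ⊆ L'(k, m)`:
  for `V ⊇ K` put `W = V.comap φ^k`; `x · b₀(W)^m ∈ W` gives `φ^k x · (φ^k b₀(W))^m ∈ V`, and
  `φ^k b₀(W) = unit · b_k(V)` by (FUN).
* `s27f_stmtE : s27f_StmtE` — multiplication by `(H k)^m` is a `K`-linear bijection
  `L'(k, m) → L(n^(2k) m)` by (CUBE); finiteness comes from (FIN).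
* `s27feb_equiv` — the linear equivalence itself.
-/
import Fermat.Agent.S27.Plan

set_option autoImplicit false
set_option linter.style.haveILetI false

noncomputable section

namespace Fermat.Agent.S27

universe w

section Tools

variable {K : Type w} [Field K] {𝔉 : Type w} [Field 𝔉] [Algebra K 𝔉]

/-- powers of units of `V` are units of `V` -/
theorem s27feb_unit_pow {V : ValuationSubring 𝔉} {u : 𝔉} (hu : S27IsUnitIn V u) (m : ℕ) :
    S27IsUnitIn V (u ^ m) :=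
  ⟨pow_ne_zero m hu.1, pow_mem hu.2.1 m, by rw [← inv_pow]; exact pow_mem hu.2.2 m⟩

/-- cancelling a unit of `V` -/
theorem s27feb_mem_of_unit_mul {V : ValuationSubring 𝔉} {u x : 𝔉} (hu : S27IsUnitIn V u)
    (h : u * x ∈ V) : x ∈ V := by
  have := V.mul_mem _ _ hu.2.2 h
  rwa [← mul_assoc, inv_mul_cancel₀ hu.1, one_mul] at this

/-- the pull-back of a `K`-valuation subring along a `K`-algebra endomorphism is a
`K`-valuation subring -/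
theorem s27feb_isKVal_comap (φ : 𝔉 →ₐ[K] 𝔉) {V : ValuationSubring 𝔉} (hV : S27IsKVal K V) :
    S27IsKVal K (V.comap (φ : 𝔉 →+* 𝔉)) := by
  intro a
  rw [ValuationSubring.mem_comap]
  have h : (φ : 𝔉 →+* 𝔉) (algebraMap K 𝔉 a) = algebraMap K 𝔉 a := φ.commutes a
  rw [h]
  exact hV a

end Tools

/-- **F-b1**: `φ^k (L(m)) ⊆ L'(k, m)`. -/
theorem s27f_stmtB1 : s27f_StmtB1.{w} := by
  intro K _ _ 𝔉 _ _ φ b H g n d hF k m x hx V hV
  have hWK : S27IsKVal K (V.comap ((φ ^ k : 𝔉 →ₐ[K] 𝔉) : 𝔉 →+* 𝔉)) :=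
    s27feb_isKVal_comap (φ ^ k) hV
  have h1 := hx _ hWK
  rw [ValuationSubring.mem_comap] at h1
  obtain ⟨u, hu, hfu⟩ := hF.funct k V hV
  have h2 : (φ ^ k) x *
      ((φ ^ k) (b 0 (V.comap ((φ ^ k : 𝔉 →ₐ[K] 𝔉) : 𝔉 →+* 𝔉)))) ^ m ∈ V := by
    have e : ((φ ^ k : 𝔉 →ₐ[K] 𝔉) : 𝔉 →+* 𝔉)
        (x * b 0 (V.comap ((φ ^ k : 𝔉 →ₐ[K] 𝔉) : 𝔉 →+* 𝔉)) ^ m) =
        (φ ^ k) x * ((φ ^ k) (b 0 (V.comap ((φ ^ k : 𝔉 →ₐ[K] 𝔉) : 𝔉 →+* 𝔉)))) ^ m := by
      rw [map_mul, map_pow]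
      rfl
    rw [← e]
    exact h1
  rw [hfu, mul_pow] at h2
  have h3 : u ^ m * ((φ ^ k) x * b k V ^ m) ∈ V := by
    have e : u ^ m * ((φ ^ k) x * b k V ^ m) = (φ ^ k) x * (u ^ m * b k V ^ m) := by ring
    rw [e]
    exact h2
  exact s27feb_mem_of_unit_mul (s27feb_unit_pow hu m) h3

section E

variable {K : Type w} [Field K] {𝔉 : Type w} [Field 𝔉] [Algebra K 𝔉]

/-- (CUBE) ⇒ multiplication by `(H k)^m` maps `L'(k, m)` ONTO `L(n^(2k) m)`. -/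
theorem s27feb_map_eq {b : ℕ → ValuationSubring 𝔉 → 𝔉} {H : ℕ → 𝔉} {n k : ℕ}
    (hH : H k ≠ 0)
    (hcube : ∀ V, S27IsKVal K V → ∃ u : 𝔉, S27IsUnitIn V u ∧
      b k V = u * H k * b 0 V ^ (n ^ (2 * k))) (m : ℕ) :
    Submodule.map (LinearMap.mulRight K (H k ^ m)) (s27L K (b k) m) =
      s27L K (b 0) (n ^ (2 * k) * m) := by
  have hh0 : H k ^ m ≠ 0 := pow_ne_zero m hH
  ext y
  constructor
  · rintro ⟨x, hx, rfl⟩
    intro V hV
    obtain ⟨u, hu, hbu⟩ := hcube V hV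
    have h1 : x * b k V ^ m ∈ V := hx V hV
    rw [hbu] at h1
    have e : u ^ m * (LinearMap.mulRight K (H k ^ m) x * b 0 V ^ (n ^ (2 * k) * m)) =
        x * (u * H k * b 0 V ^ n ^ (2 * k)) ^ m := by
      rw [LinearMap.mulRight_apply]
      ring
    refine s27feb_mem_of_unit_mul (s27feb_unit_pow hu m) ?_
    rw [e]
    exact h1
  · intro hy
    refine ⟨y * (H k ^ m)⁻¹, ?_, ?_⟩
    · intro V hV
      obtain ⟨u, hu, hbu⟩ := hcube V hV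
      have h1 : y * b 0 V ^ (n ^ (2 * k) * m) ∈ V := hy V hV
      rw [hbu]
      have e : y * (H k ^ m)⁻¹ * (u * H k * b 0 V ^ n ^ (2 * k)) ^ m =
          u ^ m * (y * b 0 V ^ (n ^ (2 * k) * m)) := by
        have e1 : (u * H k * b 0 V ^ n ^ (2 * k)) ^ m =
            H k ^ m * (u ^ m * b 0 V ^ (n ^ (2 * k) * m)) := by ring
        rw [e1, mul_assoc y, ← mul_assoc (H k ^ m)⁻¹, inv_mul_cancel₀ hh0, one_mul]
        ring
      rw [e]
      exact V.mul_mem _ _ (s27feb_unit_pow hu m).2.1 h1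
    · rw [LinearMap.mulRight_apply, mul_assoc, inv_mul_cancel₀ hh0, mul_one]

/-- **the equivalence of F-E**: `x ↦ x · (H k)^m`, `L'(k, m) ≃ L(n^(2k) m)`. -/
def s27feb_equiv {b : ℕ → ValuationSubring 𝔉 → 𝔉} {H : ℕ → 𝔉} {n k : ℕ}
    (hH : H k ≠ 0)
    (hcube : ∀ V, S27IsKVal K V → ∃ u : 𝔉, S27IsUnitIn V u ∧
      b k V = u * H k * b 0 V ^ (n ^ (2 * k))) (m : ℕ) :
    s27L K (b k) m ≃ₗ[K] s27L K (b 0) (n ^ (2 * k) * m) :=
  (Submodule.equivMapOfInjective (LinearMap.mulRight K (H k ^ m))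
    (fun x y hxy => mul_right_cancel₀ (pow_ne_zero m hH)
      (by simpa [LinearMap.mulRight_apply] using hxy))
    (s27L K (b k) m)).trans (LinearEquiv.ofEq _ _ (s27feb_map_eq hH hcube m))

theorem s27feb_equiv_apply {b : ℕ → ValuationSubring 𝔉 → 𝔉} {H : ℕ → 𝔉} {n k : ℕ}
    (hH : H k ≠ 0)
    (hcube : ∀ V, S27IsKVal K V → ∃ u : 𝔉, S27IsUnitIn V u ∧
      b k V = u * H k * b 0 V ^ (n ^ (2 * k))) (m : ℕ) (x : s27L K (b k) m) :
    ((s27feb_equiv hH hcube m x : s27L K (b 0) (n ^ (2 * k) * m)) : 𝔉) = (x : 𝔉) * H k ^ m :=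
  rfl

end E

/-- **F-E**: `L'(k, m)` is finite-dimensional and `dim L'(k, m) = dim L(n^(2k) m)`. -/
theorem s27f_stmtE : s27f_StmtE.{w} := by
  intro K _ _ 𝔉 _ _ φ b H g n d hF k m
  obtain ⟨hH, hcube⟩ := hF.cube k
  haveI := hF.fin (n ^ (2 * k) * m)
  exact ⟨Module.Finite.equiv (s27feb_equiv hH hcube m).symm,
    (s27feb_equiv hH hcube m).finrank_eq⟩

end Fermat.Agent.S27

end
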