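/-
S27-B — CONSTANTS of the last statement (helper8), for the captain's FINAL-CORE
(`s27fc_clauses`, S27/FinalCore.lean) and `s27fs_Stmt` (S27/FinalShape.lean).

Everything here is landed mathematics (TD: helper's `s27td_exists_of_isCurveOver`; RR0Const:
helper51's `s27rc_main`); this file only PACKAGES it in the shape of the binders of `s27fs_Stmt`:

* `s27fk_sep`    : `F / K(x)` is separable (characteristic `0`);
* `s27fk_exists_place` : a place outside the support of a divisor;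
* `s27fk_le`, `s27fk_nonneg` : `A' = 2G₀ − O ≤ B₁ = 2G₀`, `0 ≤ B₁`;
* `s27fk_basis`  : a `K`-basis of `L_K(A')` indexed by `Fin γ` (`γ = genusFF K F`);
* **`s27fk_main`** : `∃ x hx hfin hsep G₀ hG₀ O, 0 ≤ G₀ ∧ ℓ(G₀) = 1 ∧ G₀ O = 0 ∧ L(G₀ − O) = 0 ∧
                     (∀ M ≥ 0, ℓ(A' + M) = g + deg M ∧ H¹(A' + M) = 0) ∧ A' ≤ 2G₀ ∧ 0 ≤ 2G₀ ∧
                     ∀ γ, genusFF K F = γ → Nonempty (Basis (Fin γ) K L_K(A'))`.
-/
import Fermat.Agent.S27.RR0Const
import Fermat.Agent.S27.TD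

set_option autoImplicit false
set_option linter.unusedVariables false
set_option linter.unusedSectionVars false
set_option linter.style.haveILetI false

noncomputable section

namespace Fermat.Agent.S27

open AlgebraicCurve Module IntermediateField

open Fermat.Agent.S24 Fermat.Agent.ES.R Fermat.Agent.S26

universe u v

variable {K : Type u} {F : Type v} [Field K] [Field F] [Algebra K F]

/-- `F / K(x)` is separable in characteristic `0`. -/
theorem s27fk_sep [CharZero K] (x : F) [FiniteDimensional K⟮x⟯ F] :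
    Algebra.IsSeparable K⟮x⟯ F := by
  haveI : CharZero K⟮x⟯ := charZero_of_injective_algebraMap (algebraMap K K⟮x⟯).injective
  haveI : Algebra.IsAlgebraic K⟮x⟯ F := Algebra.IsAlgebraic.of_finite _ _
  exact Algebra.IsAlgebraic.isSeparable_of_perfectField

/-- a place outside the support of a divisor. -/
theorem s27fk_exists_place [Infinite (Place K F)] (G : Divisor K F) :
    ∃ O : Place K F, G O = 0 := by
  obtain ⟨O, hO⟩ := Infinite.exists_notMem_finset G.support
  exact ⟨O, Finsupp.notMem_support_iff.1 hO⟩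

/-- `A' = 2G₀ − O ≤ 2G₀`. -/
theorem s27fk_le (G₀ : Divisor K F) (O : Place K F) : s27rcA G₀ O 0 ≤ G₀ + G₀ := by
  unfold s27rcA
  rw [add_zero]
  intro P
  have h : (0 : ℤ) ≤ (Finsupp.single O (1 : ℤ)) P := by
    by_cases hP : O = P
    · subst hP
      simp
    · simp [hP]
  simp only [Finsupp.coe_sub, Finsupp.coe_add, Pi.sub_apply, Pi.add_apply]
  linarith

/-- `0 ≤ 2G₀`. -/
theorem s27fk_nonneg {G₀ : Divisor K F} (hG0 : 0 ≤ G₀) : 0 ≤ G₀ + G₀ :=
  add_nonneg hG0 hG0

/-- a `K`-basis of a space of dimension `γ`, indexed by `Fin γ`. -/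
theorem s27fk_basis {A' : Divisor K F} {γ : ℕ}
    (h : (finrank K ↥(riemannRochSpace A') : ℤ) = γ) (hγ : 0 < γ) :
    Nonempty (Module.Basis (Fin γ) K ↥(riemannRochSpace A')) := by
  have h' : finrank K ↥(riemannRochSpace A') = γ := by exact_mod_cast h
  haveI : Module.Finite K ↥(riemannRochSpace A') :=
    Module.finite_of_finrank_pos (by rw [h']; exact hγ)
  exact ⟨Module.finBasisOfFinrankEq K _ h'⟩

section Main

variable [IsAlgClosed K] [CharZero K] [IsCurveOver K F] [Algebra.EssFiniteType K F]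

/-- **CONSTANTS**: the data `x, G₀, O, A' = 2G₀ − O, B₁ = 2G₀, f₀` of the last statement. -/
theorem s27fk_main :
    ∃ (x : F) (hx : Transcendental K x) (_ : FiniteDimensional ↥(IntermediateField.adjoin K {x}) F)
      (_ : Algebra.IsSeparable ↥(IntermediateField.adjoin K {x}) F)
      (G₀ : Divisor K F) (hG₀ : Divisor.degree G₀ = (genusFF K F : ℤ)) (O : Place K F),
      0 ≤ G₀ ∧ finrank K ↥(riemannRochSpace G₀) = 1 ∧ G₀ O = 0 ∧
      riemannRochSpace (G₀ - Finsupp.single O 1) = ⊥ ∧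
      (∀ M : Divisor K F, 0 ≤ M →
        (finrank K ↥(riemannRochSpace (s27rcA G₀ O M)) : ℤ) = genusFF K F + Divisor.degree M ∧
        Module.Finite K (H1 (s27rcA G₀ O M)) ∧ finrank K (H1 (s27rcA G₀ O M)) = 0) ∧
      s27rcA G₀ O 0 ≤ G₀ + G₀ ∧ 0 ≤ G₀ + G₀ ∧
      ∀ γ : ℕ, genusFF K F = γ → 0 < γ →
        Nonempty (Module.Basis (Fin γ) K ↥(riemannRochSpace (s27rcA G₀ O 0))) := by
  obtain ⟨x, hx, hfin⟩ := s27td_exists_of_isCurveOver (K := K) (F := F)
  haveI := hfin
  obtain ⟨G₀, hG0, hdeg, h1, hall⟩ := s27rc_main (K := K) (F := F) x hx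
  haveI : Infinite (Place K F) := s26errg_infinite_place x hx
  obtain ⟨O, hO⟩ := s27fk_exists_place G₀
  obtain ⟨hbot, hM⟩ := hall O hO
  refine ⟨x, hx, hfin, s27fk_sep x, G₀, hdeg, O, hG0, h1, hO, hbot, hM, s27fk_le G₀ O,
    s27fk_nonneg hG0, ?_⟩
  intro γ hγ hpos
  have h := (hM 0 le_rfl).1
  rw [map_zero, add_zero, hγ] at h
  exact s27fk_basis h hpos

end Main

end Fermat.Agent.S27

end
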