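/-
S27-B — FIT, input (GROW) of `s27ft2_Stmt` (captain helper77): reduced to (PDA) = POLE-DIV on `L`.

  `S27ftPDA O A' q` := for every local parameter `s` at `O`, every `W ⊇ K` of `L = s27mtL K F` and every
        local equation `y` of the tuple `q (−1)` w.r.t. `A'` along `W`:
        `y = w · ∏_{i : taut_i ↦ O along W} taut_i s` with `w ∈ W`
        (literal `hPDA` of helper41's `s27gh2_isGrow`; owner of the proof: helper46).
  `s27fg_grow : 0 < g → A' ≤ B₁ → 0 ≤ B₁ → ℓ(A') = g → S27ftPDA O A' q → S27ftGrow hx G₀ hG₀ A' q hq`.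
-/
import Fermat.Agent.S27.FinalTop2
import Fermat.Agent.S27.GrowH2

set_option autoImplicit false
set_option linter.unusedVariables false
set_option linter.unusedSectionVars false
set_option linter.style.haveILetI false

noncomputable section

namespace Fermat.Agent.S27

open AlgebraicCurve Module TensorProduct IntermediateField Fermat.Agent.S26

universe u v

section Fit

variable {K : Type u} {F : Type v} [Field K] [Field F] [Algebra K F] [IsAlgClosed K] [CharZero K]
  [IsCurveOver K F] [Algebra.EssFiniteType K F]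
variable {x : F} (hx : Transcendental K x)
  [FiniteDimensional ↥(IntermediateField.adjoin K {x}) F]
  [Algebra.IsSeparable ↥(IntermediateField.adjoin K {x}) F]
  (G₀ : Divisor K F) (hG₀ : Divisor.degree G₀ = (genusFF K F : ℤ))

/-- (PDA) = POLE-DIV on `L`, at the tuple `q (−1)`. -/
def S27ftPDA (O : Place K F) (A' : Divisor K F)
    (q : ℤ → Fin (genusFF K F) → F →ₐ[K] s27mtL K F) : Prop :=
  ∀ s : F, O.ord s = 1 → ∀ W : ValuationSubring (s27mtL K F), S27IsKValU K W →
    ∀ y : s27mtL K F, S27ptIsIdx W (q (-1)) A' y →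
    ∃ (I : Finset (Fin (genusFF K F))) (w : s27mtL K F),
      (∀ i, i ∈ I ↔ S27ptIsCentre W
        (s27pnTaut (K := K) (F := F) (g := genusFF K F) (L := s27mtL K F) i) O) ∧
      w ∈ W ∧ y = w * ∏ i ∈ I,
        s27pnTaut (K := K) (F := F) (g := genusFF K F) (L := s27mtL K F) i s

/-- **(PDA) ⇒ (GROW)**, the input of `s27ft2_Stmt`. -/
theorem s27fg_grow (hg : 0 < genusFF K F) (O : Place K F) (A' B₁ : Divisor K F) (hAB : A' ≤ B₁)
    (hB₁ : 0 ≤ B₁) (hl : Module.finrank K ↥(riemannRochSpace A') = genusFF K F)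
    (q : ℤ → Fin (genusFF K F) → F →ₐ[K] s27mtL K F) (hq : S27pfFam (s27ftPkg hx G₀ hG₀) q)
    (h : S27ftPDA O A' q) : S27ftGrow hx G₀ hG₀ A' q hq := by
  intro e he Φ hΦ hcube
  have hpos : 0 < Module.finrank K ↥(riemannRochSpace A') := by rw [hl]; exact hg
  haveI : Module.Finite K ↥(riemannRochSpace A') := Module.finite_of_finrank_pos hpos
  let f₀ : Module.Basis (Fin (genusFF K F)) K ↥(riemannRochSpace A') :=
    Module.finBasisOfFinrankEq K _ hl
  have hne : (-1 : ℤ) ≠ 0 := by norm_num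
  exact s27gh2_isGrow (L := s27mtL K F) hg hx O
    (s27pfPsi (s27ftPkg hx G₀ hG₀) (s27dcl_halg (x := x)) hq) q
    ⟨(s27pf_fam_pt (s27ftPkg hx G₀ hG₀) (s27dcl_halg (x := x)) hq (-1) hne).inj,
      fun s => s27pfPsi_spec (s27ftPkg hx G₀ hG₀) (s27dcl_halg (x := x)) hq (-1) hne s⟩
    A' B₁ hAB hB₁ f₀ (s27flx_latEx K F hx A') e he Φ hΦ hcube h

end Fit

end Fermat.Agent.S27

end
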