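/-
S27-B, piece **GROW-ASM** (helper41): the GROWTH certificate `S27IsGrow` on the model
`𝔉 = s27gfSym K F (g + 1)`, `Ω = s27gfOm K F (g + 1)`, assembled from

* (ALG)  helper36's `s27gm_isGrow` (S27/GrowModel.lean): `β_mem`, (POLE-DIV), (FIN), (UP);
* (UP)   helper28's Künneth bound `s27km_finrank_le` (S27/KunnethModel.lean) and the POINTWISE bound

  (UP-PT)  `∀ x ∈ L(m), ∀ i, x · θ m ∈ span_{Ω_g} (ι_i '' D m)`   (`Ω_g` acting through `κ_i`)

  for a family of nonzero functions `θ m ∈ Ω` (`θ m = (W₁ W₋₁)^m`) and finite-dimensional spaces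
  `D m ≤ F` (`D m = L_C(m A′)`) with `dim D m ≤ a · m`.

Results:
* `s27gra_up_one`  : (UP-PT) at one `m` ⇒ `L(m)` is finite-dimensional of dimension `≤ (dim D)^(g+1)`;
* `s27gra_fin_up`  : (UP-PT) for all `m` ⇒ (FIN) and (UP) in the shape of `s27gm_isGrow`;
* `s27gra_isGrow`  : `S27IsGrow K (s27indb ψ β c) (g + 1)`;
* `s27gra_isGrow_one` : `S27IsGrow K (fun V => s27indB ψ β 1 V * s27indB ψ β (-1) V) (g + 1)`,
  the literal GROWTH clause of `s27geo2_Stmt` / `s27geob_Stmt`.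
-/
import Fermat.Agent.S27.GrowModel
import Fermat.Agent.S27.KunnethModel

set_option autoImplicit false
set_option linter.unusedVariables false
set_option linter.unusedSectionVars false
set_option linter.style.haveILetI false

noncomputable section

namespace Fermat.Agent.S27

universe u v

section Up

variable {K : Type u} {F : Type v} [Field K] [IsAlgClosed K] [Field F] [Algebra K F] {g : ℕ}

/-- multiplication by `θ`, as a `K`-linear map `𝔉 → Ω`. -/
def s27graMul (θ : s27gfOm K F (g + 1)) : s27gfSym K F (g + 1) →ₗ[K] s27gfOm K F (g + 1) :=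
  (LinearMap.mulRight K θ).comp (s27gfSym K F (g + 1)).val.toLinearMap

theorem s27graMul_apply (θ : s27gfOm K F (g + 1)) (x : s27gfSym K F (g + 1)) :
    s27graMul θ x = (x : s27gfOm K F (g + 1)) * θ := rfl

theorem s27graMul_injective {θ : s27gfOm K F (g + 1)} (hθ : θ ≠ 0) :
    Function.Injective (s27graMul (K := K) (F := F) (g := g) θ) := by
  intro x y hxy
  rw [s27graMul_apply, s27graMul_apply] at hxy
  exact Subtype.ext (mul_right_cancel₀ hθ hxy)

/-- **(UP) at one level**: if every `x ∈ L(m)`, multiplied by `θ ≠ 0`, lies for every coordinate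
`i` in the span of `ι_i(D)` over `Ω_g` (acting through `κ_i`), then `L(m)` is finite-dimensional of
dimension at most `(dim D)^(g+1)`. -/
theorem s27gra_up_one (b : ValuationSubring (s27gfSym K F (g + 1)) → s27gfSym K F (g + 1))
    (m : ℕ) (θ : s27gfOm K F (g + 1)) (hθ : θ ≠ 0)
    (D : Submodule K F) [FiniteDimensional K D]
    (hpt : ∀ x ∈ s27LU K b m, ∀ i : Fin (g + 1),
      letI := s27gftAlgOm (K := K) (F := F) i
      (x : s27gfOm K F (g + 1)) * θ ∈
        Submodule.span (s27gfOm K F g) ((s27gfIota (K := K) (F := F) i) '' (D : Set F))) :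
    Module.Finite K (s27LU K b m) ∧
      Module.finrank K (s27LU K b m) ≤ (Module.finrank K D) ^ (g + 1) := by
  have hT : ∀ y ∈ Submodule.map (s27graMul (K := K) (F := F) (g := g) θ) (s27LU K b m),
      ∀ i : Fin (g + 1),
      letI := s27gftAlgOm (K := K) (F := F) i
      y ∈ Submodule.span (s27gfOm K F g) ((s27gfIota (K := K) (F := F) i) '' (D : Set F)) := by
    rintro y ⟨x, hx, rfl⟩ i
    exact hpt x hx i
  obtain ⟨hfin, hle⟩ := s27km_finrank_le D
    (Submodule.map (s27graMul (K := K) (F := F) (g := g) θ) (s27LU K b m)) hT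
  let e := Submodule.equivMapOfInjective (s27graMul (K := K) (F := F) (g := g) θ)
    (s27graMul_injective hθ) (s27LU K b m)
  haveI := hfin
  exact ⟨Module.Finite.equiv e.symm, by rw [LinearEquiv.finrank_eq e]; exact hle⟩

/-- **(FIN) + (UP)** from the pointwise bound (UP-PT) at every level and `dim D m ≤ a · m`. -/
theorem s27gra_fin_up (b : ValuationSubring (s27gfSym K F (g + 1)) → s27gfSym K F (g + 1))
    (θ : ℕ → s27gfOm K F (g + 1)) (hθ : ∀ m, θ m ≠ 0)
    (D : ℕ → Submodule K F) (hD : ∀ m, FiniteDimensional K (D m))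
    (a : ℕ) (hDa : ∀ m, 1 ≤ m → Module.finrank K (D m) ≤ a * m)
    (hpt : ∀ m, ∀ x ∈ s27LU K b m, ∀ i : Fin (g + 1),
      letI := s27gftAlgOm (K := K) (F := F) i
      (x : s27gfOm K F (g + 1)) * θ m ∈
        Submodule.span (s27gfOm K F g) ((s27gfIota (K := K) (F := F) i) '' (D m : Set F))) :
    (∀ m, Module.Finite K (s27LU K b m)) ∧
      ∃ c₂ : ℕ, ∀ m, 1 ≤ m → Module.finrank K (s27LU K b m) ≤ c₂ * m ^ (g + 1) := by
  refine ⟨fun m => ?_, a ^ (g + 1), fun m hm => ?_⟩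
  · haveI := hD m
    exact (s27gra_up_one b m (θ m) (hθ m) (D m) (hpt m)).1
  · haveI := hD m
    calc Module.finrank K (s27LU K b m) ≤ (Module.finrank K (D m)) ^ (g + 1) :=
          (s27gra_up_one b m (θ m) (hθ m) (D m) (hpt m)).2
      _ ≤ (a * m) ^ (g + 1) := Nat.pow_le_pow_left (hDa m hm) _
      _ = a ^ (g + 1) * m ^ (g + 1) := mul_pow _ _ _

end Up

section Asm

variable {K : Type u} {F : Type v} [Field K] [IsAlgClosed K] [Field F] [Algebra K F] {g : ℕ}

/-- **GROW-ASM**: the growth certificate of `c (Θ + [−1]^*Θ)` on the model, from `β_mem`,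
(POLE-DIV) and the pointwise upper bound (UP-PT). -/
theorem s27gra_isGrow
    (ψ : ℤ → (s27gfSym K F (g + 1) →ₐ[K] s27gfSym K F (g + 1)))
    (β : ValuationSubring (s27gfSym K F (g + 1)) → s27gfSym K F (g + 1)) (c : ℕ)
    (β_mem : ∀ V, S27IsKValU K V → β V ∈ V)
    (t : F) (ht : Transcendental K t)
    (halg : Algebra.IsAlgebraic (Algebra.adjoin K ({t} : Set F)) F) (c₀ : ℕ)
    (hdiv : ∀ V : ValuationSubring (s27gfSym K F (g + 1)), S27IsKValU K V →
      ∃ (W : ValuationSubring (s27gfOm K F (g + 1))) (p : Fin (g + 1) → s27gfOm K F (g + 1))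
        (w : s27gfOm K F (g + 1)),
        (∀ x : s27gfSym K F (g + 1), (x : s27gfOm K F (g + 1)) ∈ W → x ∈ V) ∧ (∀ i, p i ∈ W) ∧
        (∀ i, s27gfIota (K := K) i t * p i ∈ W) ∧ w ∈ W ∧
        ((s27indb ψ β c V ^ c₀ : s27gfSym K F (g + 1)) : s27gfOm K F (g + 1)) = w * ∏ i, p i)
    (θ : ℕ → s27gfOm K F (g + 1)) (hθ : ∀ m, θ m ≠ 0)
    (D : ℕ → Submodule K F) (hD : ∀ m, FiniteDimensional K (D m))
    (a : ℕ) (hDa : ∀ m, 1 ≤ m → Module.finrank K (D m) ≤ a * m)
    (hpt : ∀ m, ∀ x ∈ s27LU K (s27indb ψ β c) m, ∀ i : Fin (g + 1),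
      letI := s27gftAlgOm (K := K) (F := F) i
      (x : s27gfOm K F (g + 1)) * θ m ∈
        Submodule.span (s27gfOm K F g) ((s27gfIota (K := K) (F := F) i) '' (D m : Set F))) :
    S27IsGrow K (s27indb ψ β c) (g + 1) := by
  obtain ⟨hfin, hup⟩ := s27gra_fin_up (s27indb ψ β c) θ hθ D hD a hDa hpt
  exact s27gm_isGrow ψ β c β_mem t ht halg c₀ hdiv hfin hup

theorem s27gra_indb_one
    (ψ : ℤ → (s27gfSym K F (g + 1) →ₐ[K] s27gfSym K F (g + 1)))
    (β : ValuationSubring (s27gfSym K F (g + 1)) → s27gfSym K F (g + 1)) :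
    s27indb ψ β 1 = fun V => s27indB ψ β 1 V * s27indB ψ β (-1) V := by
  funext V
  unfold s27indb
  rw [pow_one]

/-- **GROW-ASM, exponent `1`**: the literal GROWTH clause of `s27geo2_Stmt` / `s27geob_Stmt`. -/
theorem s27gra_isGrow_one
    (ψ : ℤ → (s27gfSym K F (g + 1) →ₐ[K] s27gfSym K F (g + 1)))
    (β : ValuationSubring (s27gfSym K F (g + 1)) → s27gfSym K F (g + 1))
    (β_mem : ∀ V, S27IsKValU K V → β V ∈ V)
    (t : F) (ht : Transcendental K t)
    (halg : Algebra.IsAlgebraic (Algebra.adjoin K ({t} : Set F)) F) (c₀ : ℕ)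
    (hdiv : ∀ V : ValuationSubring (s27gfSym K F (g + 1)), S27IsKValU K V →
      ∃ (W : ValuationSubring (s27gfOm K F (g + 1))) (p : Fin (g + 1) → s27gfOm K F (g + 1))
        (w : s27gfOm K F (g + 1)),
        (∀ x : s27gfSym K F (g + 1), (x : s27gfOm K F (g + 1)) ∈ W → x ∈ V) ∧ (∀ i, p i ∈ W) ∧
        (∀ i, s27gfIota (K := K) i t * p i ∈ W) ∧ w ∈ W ∧
        (((s27indB ψ β 1 V * s27indB ψ β (-1) V) ^ c₀ : s27gfSym K F (g + 1)) :
          s27gfOm K F (g + 1)) = w * ∏ i, p i)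
    (θ : ℕ → s27gfOm K F (g + 1)) (hθ : ∀ m, θ m ≠ 0)
    (D : ℕ → Submodule K F) (hD : ∀ m, FiniteDimensional K (D m))
    (a : ℕ) (hDa : ∀ m, 1 ≤ m → Module.finrank K (D m) ≤ a * m)
    (hpt : ∀ m, ∀ x ∈ s27LU K (fun V => s27indB ψ β 1 V * s27indB ψ β (-1) V) m,
      ∀ i : Fin (g + 1),
      letI := s27gftAlgOm (K := K) (F := F) i
      (x : s27gfOm K F (g + 1)) * θ m ∈
        Submodule.span (s27gfOm K F g) ((s27gfIota (K := K) (F := F) i) '' (D m : Set F))) :
    S27IsGrow K (fun V => s27indB ψ β 1 V * s27indB ψ β (-1) V) (g + 1) := by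
  have h1 := s27gra_indb_one ψ β
  rw [← h1] at hpt ⊢
  refine s27gra_isGrow ψ β 1 β_mem t ht halg c₀ (fun V hV => ?_) θ hθ D hD a hDa hpt
  obtain ⟨W, p, w, hWV, hp, hxp, hw, hbb⟩ := hdiv V hV
  refine ⟨W, p, w, hWV, hp, hxp, hw, ?_⟩
  rw [← hbb]
  unfold s27indb
  rw [pow_one]

end Asm

end Fermat.Agent.S27

end
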