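/-
S27-B, piece **POLE-DIV GLUE** (helper36): the formal step `(H2) ⇒ hdiv` of helper46's POLE-DIV
plan, on the model `𝔉 = s27gfSym K F (g + 1)`, `Ω = s27gfOm K F (g + 1)`.

`hdiv` is the (POLE-DIV) input of `s27gm_isGrow` (S27/GrowModel.lean) and of helper41's
`s27gra_isGrow_one` (S27/GrowAsm.lean).  With the coordinate function `t`, the local parameter `s`
at `O″` and the exponent `N` of POINT-T (`s27pt2_exists`, S27/PointT.lean), and
`p i = s27pt2P t s N W i` (`= (ι_i s)^N` if `ι_i t ∉ W`, else `1`):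

* `s27pdg_pow_eq`  : (pure algebra) in a valuation subring `W`, `bb = w · ∏_{i ∈ I} σ i`, `w ∈ W`,
  `σ i ∈ W` on `I`, `P i` off `I`  ⇒  `bb ^ N = w' · ∏_i (if P i then 1 else σ i ^ N)`, `w' ∈ W`;
* `s27pdg_hdiv_one`: one `V`: the clause of `hdiv` from `W ⊇ K` over `V` and
  `B 1 V · B (−1) V = w · ∏_{i ∈ I} ι_i s`, `ι_i s ∈ W` on `I`, `ι_i t ∈ W` off `I`;
* **`s27pdg_hdiv`** : (H2) for all `V` ⇒ the literal `hdiv` of `s27gra_isGrow_one` with `c₀ = N`;
* `s27pdg_hdiv_neg`: the same from the factorisation of `B (−1) V` alone (`B 1 V ∈ W` by `β_mem`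
  and `V ⊆ W`);
* `s27pdg_centre`  : the set `I = {i : W ∘ ι_i = 𝒪_{O″}}` has the two properties
  (`ι_i s ∈ W` on `I`, `ι_i t ∈ W` off `I`) for the `t, s` of POINT-T;
* **`s27pdg_hdiv_centre`** : (H2) with `I = {i : ι_i ↦ O″}` ⇒ `hdiv`.
-/
import Fermat.Agent.S27.GrowAsm
import Fermat.Agent.S27.PointT

set_option autoImplicit false
set_option linter.unusedVariables false
set_option linter.unusedSectionVars false
set_option linter.style.haveILetI false

noncomputable section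

namespace Fermat.Agent.S27

universe u v

/-- (pure algebra) `bb = w · ∏_{i ∈ I} σ i` in `W`, the complement of `I` inside `{P}`:
`bb ^ N` is divisible in `W` by `∏_i (if P i then 1 else σ i ^ N)`. -/
theorem s27pdg_pow_eq {Ω : Type v} [Field Ω] (W : ValuationSubring Ω) {ι : Type*} [Fintype ι]
    (I : Finset ι) (σ : ι → Ω) (P : ι → Prop) [DecidablePred P] (N : ℕ) (w bb : Ω)
    (hw : w ∈ W) (hσ : ∀ i ∈ I, σ i ∈ W) (hP : ∀ i, i ∉ I → P i)
    (hbb : bb = w * ∏ i ∈ I, σ i) :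
    ∃ w' ∈ W, bb ^ N = w' * ∏ i, (if P i then 1 else σ i ^ N) := by
  classical
  refine ⟨w ^ N * ∏ i ∈ I, (if P i then σ i ^ N else 1), ?_, ?_⟩
  · refine W.mul_mem _ _ (W.pow_mem hw N) (W.toSubring.prod_mem fun i hi => ?_)
    split_ifs
    · exact W.pow_mem (hσ i hi) N
    · exact W.one_mem
  · have h1 : ∏ i, (if P i then (1 : Ω) else σ i ^ N) =
        ∏ i ∈ I, (if P i then (1 : Ω) else σ i ^ N) := by
      symm
      refine Finset.prod_subset (Finset.subset_univ I) fun i _ hi => ?_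
      rw [if_pos (hP i hi)]
    rw [h1, hbb, mul_pow, ← Finset.prod_pow, mul_assoc, ← Finset.prod_mul_distrib]
    congr 1
    refine Finset.prod_congr rfl fun i _ => ?_
    split_ifs <;> simp

section Model

variable {K : Type u} {F : Type v} [Field K] [IsAlgClosed K] [Field F] [Algebra K F] {g : ℕ}

/-- **(H2) ⇒ hdiv, at one `V`** (for any `bb`). -/
theorem s27pdg_hdiv_one (t s : F) (N : ℕ)
    (hts : ∀ Q : ValuationSubring F, (∀ a : K, algebraMap K F a ∈ Q) →
      t ∈ Q ∨ (s ∈ Q ∧ t * s ^ N ∈ Q))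
    (V : ValuationSubring (s27gfSym K F g)) (bb : s27gfSym K F g)
    (W : ValuationSubring (s27gfOm K F g)) (I : Finset (Fin g)) (w : s27gfOm K F g)
    (hW : ∀ a : K, algebraMap K (s27gfOm K F g) a ∈ W)
    (hWV : ∀ x : s27gfSym K F g, (x : s27gfOm K F g) ∈ W → x ∈ V)
    (hw : w ∈ W)
    (hI : ∀ i ∈ I, s27gfIota (K := K) (g := g) i s ∈ W)
    (hIc : ∀ i, i ∉ I → s27gfIota (K := K) (g := g) i t ∈ W)
    (hbb : (bb : s27gfOm K F g) = w * ∏ i ∈ I, s27gfIota (K := K) (g := g) i s) :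
    ∃ (W : ValuationSubring (s27gfOm K F g)) (p : Fin g → s27gfOm K F g) (w : s27gfOm K F g),
      (∀ x : s27gfSym K F g, (x : s27gfOm K F g) ∈ W → x ∈ V) ∧ (∀ i, p i ∈ W) ∧
      (∀ i, s27gfIota (K := K) i t * p i ∈ W) ∧ w ∈ W ∧
      ((bb ^ N : s27gfSym K F g) : s27gfOm K F g) = w * ∏ i, p i := by
  classical
  obtain ⟨w', hw', hpow⟩ := s27pdg_pow_eq W I (fun i => s27gfIota (K := K) (g := g) i s)
    (fun i => s27gfIota (K := K) (g := g) i t ∈ W) N w (bb : s27gfOm K F g) hw hI hIc hbb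
  refine ⟨W, s27pt2P (K := K) t s N W, w', hWV,
    fun i => (s27pt2_point t s N hts W hW i).1, fun i => (s27pt2_point t s N hts W hW i).2,
    hw', ?_⟩
  have h1 : ((bb ^ N : s27gfSym K F g) : s27gfOm K F g) = (bb : s27gfOm K F g) ^ N := rfl
  rw [h1, hpow]
  rfl

/-- **POLE-DIV GLUE**: (H2) for every `V` ⇒ the literal `hdiv` of `s27gra_isGrow_one`
(S27/GrowAsm.lean) with `c₀ = N`. -/
theorem s27pdg_hdiv
    (ψ : ℤ → (s27gfSym K F g →ₐ[K] s27gfSym K F g))
    (β : ValuationSubring (s27gfSym K F g) → s27gfSym K F g)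
    (t s : F) (N : ℕ)
    (hts : ∀ Q : ValuationSubring F, (∀ a : K, algebraMap K F a ∈ Q) →
      t ∈ Q ∨ (s ∈ Q ∧ t * s ^ N ∈ Q))
    (H2 : ∀ V : ValuationSubring (s27gfSym K F g), S27IsKValU K V →
      ∃ (W : ValuationSubring (s27gfOm K F g)) (I : Finset (Fin g)) (w : s27gfOm K F g),
        (∀ a : K, algebraMap K (s27gfOm K F g) a ∈ W) ∧
        (∀ x : s27gfSym K F g, (x : s27gfOm K F g) ∈ W → x ∈ V) ∧ w ∈ W ∧
        (∀ i ∈ I, s27gfIota (K := K) (g := g) i s ∈ W) ∧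
        (∀ i, i ∉ I → s27gfIota (K := K) (g := g) i t ∈ W) ∧
        ((s27indB ψ β 1 V * s27indB ψ β (-1) V : s27gfSym K F g) : s27gfOm K F g) =
          w * ∏ i ∈ I, s27gfIota (K := K) (g := g) i s) :
    ∀ V : ValuationSubring (s27gfSym K F g), S27IsKValU K V →
      ∃ (W : ValuationSubring (s27gfOm K F g)) (p : Fin g → s27gfOm K F g) (w : s27gfOm K F g),
        (∀ x : s27gfSym K F g, (x : s27gfOm K F g) ∈ W → x ∈ V) ∧ (∀ i, p i ∈ W) ∧
        (∀ i, s27gfIota (K := K) i t * p i ∈ W) ∧ w ∈ W ∧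
        (((s27indB ψ β 1 V * s27indB ψ β (-1) V) ^ N : s27gfSym K F g) : s27gfOm K F g) =
          w * ∏ i, p i := by
  intro V hV
  obtain ⟨W, I, w, hW, hWV, hw, hI, hIc, hbb⟩ := H2 V hV
  exact s27pdg_hdiv_one t s N hts V _ W I w hW hWV hw hI hIc hbb

/-- the same, exponent form `s27indb ψ β c` (the `hdiv` of `s27gra_isGrow` / `s27gm_isGrow`),
with `c₀ = N`. -/
theorem s27pdg_hdiv_c
    (ψ : ℤ → (s27gfSym K F g →ₐ[K] s27gfSym K F g))
    (β : ValuationSubring (s27gfSym K F g) → s27gfSym K F g) (c : ℕ)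
    (t s : F) (N : ℕ)
    (hts : ∀ Q : ValuationSubring F, (∀ a : K, algebraMap K F a ∈ Q) →
      t ∈ Q ∨ (s ∈ Q ∧ t * s ^ N ∈ Q))
    (H2 : ∀ V : ValuationSubring (s27gfSym K F g), S27IsKValU K V →
      ∃ (W : ValuationSubring (s27gfOm K F g)) (I : Finset (Fin g)) (w : s27gfOm K F g),
        (∀ a : K, algebraMap K (s27gfOm K F g) a ∈ W) ∧
        (∀ x : s27gfSym K F g, (x : s27gfOm K F g) ∈ W → x ∈ V) ∧ w ∈ W ∧
        (∀ i ∈ I, s27gfIota (K := K) (g := g) i s ∈ W) ∧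
        (∀ i, i ∉ I → s27gfIota (K := K) (g := g) i t ∈ W) ∧
        ((s27indb ψ β c V : s27gfSym K F g) : s27gfOm K F g) =
          w * ∏ i ∈ I, s27gfIota (K := K) (g := g) i s) :
    ∀ V : ValuationSubring (s27gfSym K F g), S27IsKValU K V →
      ∃ (W : ValuationSubring (s27gfOm K F g)) (p : Fin g → s27gfOm K F g) (w : s27gfOm K F g),
        (∀ x : s27gfSym K F g, (x : s27gfOm K F g) ∈ W → x ∈ V) ∧ (∀ i, p i ∈ W) ∧
        (∀ i, s27gfIota (K := K) i t * p i ∈ W) ∧ w ∈ W ∧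
        ((s27indb ψ β c V ^ N : s27gfSym K F g) : s27gfOm K F g) = w * ∏ i, p i := by
  intro V hV
  obtain ⟨W, I, w, hW, hWV, hw, hI, hIc, hbb⟩ := H2 V hV
  exact s27pdg_hdiv_one t s N hts V _ W I w hW hWV hw hI hIc hbb

/-- **POLE-DIV GLUE, `B (−1)` form**: it is enough to factor `B (−1) V` alone, when `V ⊆ W`
(`B 1 V ∈ V` by `β_mem`). -/
theorem s27pdg_hdiv_neg
    (ψ : ℤ → (s27gfSym K F g →ₐ[K] s27gfSym K F g))
    (β : ValuationSubring (s27gfSym K F g) → s27gfSym K F g)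
    (β_mem : ∀ V, S27IsKValU K V → β V ∈ V)
    (t s : F) (N : ℕ)
    (hts : ∀ Q : ValuationSubring F, (∀ a : K, algebraMap K F a ∈ Q) →
      t ∈ Q ∨ (s ∈ Q ∧ t * s ^ N ∈ Q))
    (H2 : ∀ V : ValuationSubring (s27gfSym K F g), S27IsKValU K V →
      ∃ (W : ValuationSubring (s27gfOm K F g)) (I : Finset (Fin g)) (w : s27gfOm K F g),
        (∀ x : s27gfSym K F g, x ∈ V → (x : s27gfOm K F g) ∈ W) ∧
        (∀ a : K, algebraMap K (s27gfOm K F g) a ∈ W) ∧
        (∀ x : s27gfSym K F g, (x : s27gfOm K F g) ∈ W → x ∈ V) ∧ w ∈ W ∧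
        (∀ i ∈ I, s27gfIota (K := K) (g := g) i s ∈ W) ∧
        (∀ i, i ∉ I → s27gfIota (K := K) (g := g) i t ∈ W) ∧
        ((s27indB ψ β (-1) V : s27gfSym K F g) : s27gfOm K F g) =
          w * ∏ i ∈ I, s27gfIota (K := K) (g := g) i s) :
    ∀ V : ValuationSubring (s27gfSym K F g), S27IsKValU K V →
      ∃ (W : ValuationSubring (s27gfOm K F g)) (p : Fin g → s27gfOm K F g) (w : s27gfOm K F g),
        (∀ x : s27gfSym K F g, (x : s27gfOm K F g) ∈ W → x ∈ V) ∧ (∀ i, p i ∈ W) ∧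
        (∀ i, s27gfIota (K := K) i t * p i ∈ W) ∧ w ∈ W ∧
        (((s27indB ψ β 1 V * s27indB ψ β (-1) V) ^ N : s27gfSym K F g) : s27gfOm K F g) =
          w * ∏ i, p i := by
  refine s27pdg_hdiv ψ β t s N hts fun V hV => ?_
  obtain ⟨W, I, w, hVW, hW, hWV, hw, hI, hIc, hbb⟩ := H2 V hV
  refine ⟨W, I, ((s27indB ψ β 1 V : s27gfSym K F g) : s27gfOm K F g) * w, hW, hWV,
    W.mul_mem _ _ (hVW _ (s27indB_mem ψ β β_mem 1 hV)) hw, hI, hIc, ?_⟩
  have h1 : ((s27indB ψ β 1 V * s27indB ψ β (-1) V : s27gfSym K F g) : s27gfOm K F g) =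
      ((s27indB ψ β 1 V : s27gfSym K F g) : s27gfOm K F g) *
        ((s27indB ψ β (-1) V : s27gfSym K F g) : s27gfOm K F g) := rfl
  rw [h1, hbb, mul_assoc]

end Model

section Centre

variable {K : Type u} {F : Type v} [Field K] [IsAlgClosed K] [Field F] [Algebra K F] {g : ℕ}

open AlgebraicCurve IntermediateField Module Fermat.Agent.S26 Fermat.Agent.S24

/-- the coordinates whose centre along `W` is `O`. -/
def s27pdgI (O : Place K F) (W : ValuationSubring (s27gfOm K F g)) : Finset (Fin g) :=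
  haveI := Classical.decPred fun i : Fin g =>
    W.comap ((s27gfIota (K := K) (g := g) i : F →ₐ[K] s27gfOm K F g) : F →+* s27gfOm K F g) =
      O.toValuationSubring
  Finset.univ.filter fun i : Fin g =>
    W.comap ((s27gfIota (K := K) (g := g) i : F →ₐ[K] s27gfOm K F g) : F →+* s27gfOm K F g) =
      O.toValuationSubring

theorem s27pdgI_mem (O : Place K F) (W : ValuationSubring (s27gfOm K F g)) (i : Fin g) :
    i ∈ s27pdgI O W ↔
      W.comap ((s27gfIota (K := K) (g := g) i : F →ₐ[K] s27gfOm K F g) : F →+* s27gfOm K F g) =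
        O.toValuationSubring := by
  classical
  unfold s27pdgI
  simp only [Finset.mem_filter, Finset.mem_univ, true_and]

/-- **the centre set has the two properties** used by the glue. -/
theorem s27pdg_centre (x : F) (hx : Transcendental K x) [FiniteDimensional K⟮x⟯ F]
    (O : Place K F) (t s : F) (hs : 0 ≤ O.ord s)
    (hoff : ∀ v : Place K F, v ≠ O → 0 ≤ v.ord t)
    (W : ValuationSubring (s27gfOm K F g))
    (hW : ∀ a : K, algebraMap K (s27gfOm K F g) a ∈ W) :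
    (∀ i ∈ s27pdgI O W, s27gfIota (K := K) (g := g) i s ∈ W) ∧
      (∀ i, i ∉ s27pdgI O W → s27gfIota (K := K) (g := g) i t ∈ W) := by
  constructor
  · intro i hi
    rw [s27pdgI_mem] at hi
    have h1 : s ∈ O.toValuationSubring := PlaceAux.mem_of_ord_nonneg O hs
    rw [← hi, ValuationSubring.mem_comap] at h1
    exact h1
  · intro i hi
    rw [s27pdgI_mem] at hi
    have hQ : ∀ a : K, algebraMap K F a ∈
        W.comap ((s27gfIota (K := K) (g := g) i : F →ₐ[K] s27gfOm K F g) : F →+* s27gfOm K F g) := by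
      intro a
      rw [ValuationSubring.mem_comap]
      have h1 : ((s27gfIota (K := K) (g := g) i : F →ₐ[K] s27gfOm K F g) : F →+* s27gfOm K F g)
          (algebraMap K F a) = algebraMap K (s27gfOm K F g) a :=
        (s27gfIota (K := K) (g := g) i).commutes a
      rw [h1]
      exact hW a
    have ht : t ∈ W.comap
        ((s27gfIota (K := K) (g := g) i : F →ₐ[K] s27gfOm K F g) : F →+* s27gfOm K F g) := by
      rcases s27pt2_dichotomy x hx _ hQ with hne | ⟨v, hv⟩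
      · rw [hne]
        exact ValuationSubring.mem_top t
      · have hvO : v ≠ O := by
          rintro rfl
          exact hi hv.symm
        rw [← hv]
        exact PlaceAux.mem_of_ord_nonneg v (hoff v hvO)
    rw [ValuationSubring.mem_comap] at ht
    exact ht

/-- **POLE-DIV GLUE, centre form**: (H2) with `I = {i : ι_i ↦ O″ along W}` ⇒ the literal `hdiv`
of `s27gra_isGrow_one` with `c₀ = N` (`t, s, N` from `s27pt2_exists`). -/
theorem s27pdg_hdiv_centre (x : F) (hx : Transcendental K x) [FiniteDimensional K⟮x⟯ F]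
    (O : Place K F)
    (ψ : ℤ → (s27gfSym K F g →ₐ[K] s27gfSym K F g))
    (β : ValuationSubring (s27gfSym K F g) → s27gfSym K F g)
    (t s : F) (N : ℕ) (hs : 0 ≤ O.ord s)
    (hoff : ∀ v : Place K F, v ≠ O → 0 ≤ v.ord t)
    (hts : ∀ Q : ValuationSubring F, (∀ a : K, algebraMap K F a ∈ Q) →
      t ∈ Q ∨ (s ∈ Q ∧ t * s ^ N ∈ Q))
    (H2 : ∀ V : ValuationSubring (s27gfSym K F g), S27IsKValU K V →
      ∃ (W : ValuationSubring (s27gfOm K F g)) (w : s27gfOm K F g),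
        (∀ a : K, algebraMap K (s27gfOm K F g) a ∈ W) ∧
        (∀ x : s27gfSym K F g, (x : s27gfOm K F g) ∈ W → x ∈ V) ∧ w ∈ W ∧
        ((s27indB ψ β 1 V * s27indB ψ β (-1) V : s27gfSym K F g) : s27gfOm K F g) =
          w * ∏ i ∈ s27pdgI O W, s27gfIota (K := K) (g := g) i s) :
    ∀ V : ValuationSubring (s27gfSym K F g), S27IsKValU K V →
      ∃ (W : ValuationSubring (s27gfOm K F g)) (p : Fin g → s27gfOm K F g) (w : s27gfOm K F g),
        (∀ x : s27gfSym K F g, (x : s27gfOm K F g) ∈ W → x ∈ V) ∧ (∀ i, p i ∈ W) ∧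
        (∀ i, s27gfIota (K := K) i t * p i ∈ W) ∧ w ∈ W ∧
        (((s27indB ψ β 1 V * s27indB ψ β (-1) V) ^ N : s27gfSym K F g) : s27gfOm K F g) =
          w * ∏ i, p i := by
  refine s27pdg_hdiv ψ β t s N hts fun V hV => ?_
  obtain ⟨W, w, hW, hWV, hw, hbb⟩ := H2 V hV
  obtain ⟨h1, h2⟩ := s27pdg_centre (g := g) x hx O t s hs hoff W hW
  exact ⟨W, s27pdgI O W, w, hW, hWV, hw, h1, h2, hbb⟩

end Centre

end Fermat.Agent.S27

end
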