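/-
S27-B — FIT-PD (helper8, assigned by captain helper77): the (POLE-DIV) input `S27ftPoleDiv` of
FINAL-TOP (`s27ft_Stmt`, S27/FinalTop.lean) from **(H2)** — POLE-DIV in centre form, the literal
hypothesis `H2` of helper41's `s27grt_isGrow` (S27/GrowTop.lean):

  (H2)  for every local parameter `s` at the place `O` and every `V ⊇ K` of `𝔉`:
        `∃ W w, K ⊆ W, W ∩ 𝔉 ⊆ V, w ∈ W,  B 1 V · B (−1) V = w · ∏_{i ∈ s27pdgI O W} ι_i s`.

Wired here: POINT-T (`s27pt2_exists`: `t`, `s`, `N` with `t · s^N` regular off `O`) and the glue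
`s27pdg_hdiv_centre` (helper36).

* `S27fpdH2 O ψ β`  : the Prop (H2), abstract `ψ`, `β`, general genus;
* `s27fpd_abs`      : (H2) ⇒ `∃ t ht halg c₀, hdiv` (literal shape of `s27grb_isGrow`), general genus;
* **`s27fpd_main`** : (H2) for `ψ = s27pfPsi (s27ftPkg hx G₀ hG₀) _ hq`, `β = s27beta A'`
                      ⇒ `S27ftPoleDiv hx G₀ hG₀ A' q hq`.
-/
import Fermat.Agent.S27.FinalTop
import Fermat.Agent.S27.PoleDivGlue
import Fermat.Agent.S27.PointT

set_option autoImplicit false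
set_option linter.unusedVariables false
set_option linter.unusedSectionVars false
set_option linter.style.haveILetI false

noncomputable section

namespace Fermat.Agent.S27

open AlgebraicCurve Module IntermediateField

universe u v

section Abs

variable {K : Type u} {F : Type v} [Field K] [IsAlgClosed K] [Field F] [Algebra K F] {g : ℕ}

/-- **(H2)**: POLE-DIV in centre form at the place `O` (literal `H2` of `s27grt_isGrow`). -/
def S27fpdH2 (O : Place K F) (ψ : ℤ → (s27gfSym K F g →ₐ[K] s27gfSym K F g))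
    (β : ValuationSubring (s27gfSym K F g) → s27gfSym K F g) : Prop :=
  ∀ s : F, O.ord s = 1 →
    ∀ V : ValuationSubring (s27gfSym K F g), S27IsKValU K V →
    ∃ (W : ValuationSubring (s27gfOm K F g)) (w : s27gfOm K F g),
      (∀ a : K, algebraMap K (s27gfOm K F g) a ∈ W) ∧
      (∀ x : s27gfSym K F g, (x : s27gfOm K F g) ∈ W → x ∈ V) ∧ w ∈ W ∧
      ((s27indB ψ β 1 V * s27indB ψ β (-1) V : s27gfSym K F g) : s27gfOm K F g) =
        w * ∏ i ∈ s27pdgI O W, s27gfIota (K := K) (g := g) i s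

/-- (H2) ⇒ the literal (POLE-DIV) of `s27grb_isGrow`, with `t`, `c₀` from POINT-T. -/
theorem s27fpd_abs {x : F} (hx : Transcendental K x) [FiniteDimensional K⟮x⟯ F] (O : Place K F)
    (ψ : ℤ → (s27gfSym K F g →ₐ[K] s27gfSym K F g))
    (β : ValuationSubring (s27gfSym K F g) → s27gfSym K F g)
    (H2 : S27fpdH2 O ψ β) :
    ∃ (t : F) (_ : Transcendental K t)
      (_ : Algebra.IsAlgebraic (Algebra.adjoin K ({t} : Set F)) F) (c₀ : ℕ),
      ∀ V : ValuationSubring (s27gfSym K F g), S27IsKValU K V →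
        ∃ (W : ValuationSubring (s27gfOm K F g)) (p : Fin g → s27gfOm K F g)
          (w : s27gfOm K F g),
          (∀ y : s27gfSym K F g, (y : s27gfOm K F g) ∈ W → y ∈ V) ∧ (∀ i, p i ∈ W) ∧
          (∀ i, s27gfIota (K := K) i t * p i ∈ W) ∧ w ∈ W ∧
          (((s27indB ψ β 1 V * s27indB ψ β (-1) V) ^ c₀ : s27gfSym K F g) : s27gfOm K F g) =
            w * ∏ i, p i := by
  obtain ⟨N, t, s, ht, halg, hs0, hs1, hoff, hN, hts⟩ := s27pt2_exists x hx O
  have hs : 0 ≤ O.ord s := by rw [hs1]; norm_num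
  exact ⟨t, ht, halg, N, s27pdg_hdiv_centre x hx O ψ β t s N hs hoff hts (H2 s hs1)⟩

end Abs

section Fit

variable {K : Type u} {F : Type v} [Field K] [Field F] [Algebra K F] [IsAlgClosed K] [CharZero K]
  [IsCurveOver K F] [Algebra.EssFiniteType K F]
variable {x : F} (hx : Transcendental K x)
  [FiniteDimensional ↥(IntermediateField.adjoin K {x}) F]
  [Algebra.IsSeparable ↥(IntermediateField.adjoin K {x}) F]
  (G₀ : Divisor K F) (hG₀ : Divisor.degree G₀ = (genusFF K F : ℤ))

/-- **FIT-PD**: (H2) at a place `O`, for the family `q`, gives `S27ftPoleDiv`. -/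
theorem s27fpd_main (O : Place K F) (A' : Divisor K F)
    (q : ℤ → Fin (genusFF K F) → F →ₐ[K] s27mtL K F) (hq : S27pfFam (s27ftPkg hx G₀ hG₀) q)
    (H2 : S27fpdH2 O (s27pfPsi (s27ftPkg hx G₀ hG₀) (s27dcl_halg (x := x)) hq)
      (s27beta (g := genusFF K F) A')) :
    S27ftPoleDiv hx G₀ hG₀ A' q hq :=
  s27fpd_abs hx O _ _ H2

end Fit

end Fermat.Agent.S27

end
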