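/-
S27-B, leaf **GAUSS-INST** (helper21): the Gauss reduction datum at the captain's STAGE
(S27/Stage.lean: `F_L = s27stgFL K F L = Frac (F ⊗[K] L)`, `K` algebraically closed) for EVERY
valuation subring `W ⊇ K` of the field of the points `L`.

* `s27giRes K W hKW`           : the residue field `k` of `W` (a `K`-algebra through `K ⊆ W`);
* `s27giRd K F W hKW`          : `DEU.RedData L (s27stgFL K F L) k (s27stgFL K F k)`, the Gauss
                                 reduction (`= s26eriData` at the stage);
* `s27gi_A`                    : `(s27giRd K F W hKW).A = W`  (`rfl`);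
* `s27gi_lat`                  : the **Gauss lattice property** `S27legrLat` for every
                                 `K`-linearly independent family `x : J → F`
                                 (functions `algebraMap F (s27stgFL K F L) (x j)`);
* `s27gi_const_mem_iff`, `s27gi_fun_mem`, `s27gi_mem_or_inv_mem` (the Gauss ring is a valuation
  ring of `F_L`), `s27gi_exists_norm`;
* `s27gi_exists` : the existential package, in the shape of the hypotheses `Rd`, `hA`, `hlat` of
  helper27's `s27le5_asm` (S27/LE5Asm.lean).
-/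
import Fermat.Agent.S27.Stage
import Fermat.Agent.S27.LEGaussI

set_option autoImplicit false
set_option linter.unusedSectionVars false
set_option linter.unusedVariables false
set_option linter.style.haveILetI false

noncomputable section

namespace Fermat.Agent.S27

open TensorProduct Module Fermat.Agent.S26 Fermat.Agent.DEU

universe u v w

variable (K : Type u) (F : Type v) {L : Type w} [Field K] [Field F] [Field L] [Algebra K F]
  [Algebra K L]

/-- the residue field of a valuation subring `W ⊇ K` of `L` -/
def s27giRes (W : ValuationSubring L) (hKW : ∀ c : K, algebraMap K L c ∈ W) : Type w :=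
  IsLocalRing.ResidueField ↥W

instance s27giResField (W : ValuationSubring L) (hKW : ∀ c : K, algebraMap K L c ∈ W) :
    Field (s27giRes K W hKW) :=
  inferInstanceAs (Field (IsLocalRing.ResidueField ↥W))

/-- the residue map `W → k` -/
def s27giResMap (W : ValuationSubring L) (hKW : ∀ c : K, algebraMap K L c ∈ W) :
    ↥W →+* s27giRes K W hKW :=
  IsLocalRing.residue ↥W

theorem s27giResMap_surjective (W : ValuationSubring L)
    (hKW : ∀ c : K, algebraMap K L c ∈ W) : Function.Surjective (s27giResMap K W hKW) :=
  IsLocalRing.residue_surjective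

instance s27giResAlgebra (W : ValuationSubring L) (hKW : ∀ c : K, algebraMap K L c ∈ W) :
    Algebra K (s27giRes K W hKW) :=
  ((s27giResMap K W hKW).comp ((algebraMap K L).codRestrict W hKW)).toAlgebra

theorem s27giRes_algebraMap (W : ValuationSubring L) (hKW : ∀ c : K, algebraMap K L c ∈ W)
    (c : K) :
    s27giResMap K W hKW ⟨algebraMap K L c, hKW c⟩ = algebraMap K (s27giRes K W hKW) c := rfl

variable [IsAlgClosed K]

/-- **the Gauss reduction datum at the stage**, for the valuation subring `W ⊇ K` of `L`. -/
def s27giRd (W : ValuationSubring L) (hKW : ∀ c : K, algebraMap K L c ∈ W) :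
    RedData L (s27stgFL K F L) (s27giRes K W hKW) (s27stgFL K F (s27giRes K W hKW)) :=
  s26eriData (s27stg_hld K F L) (s27stg_hgen K F L) (s27stg_hld K F (s27giRes K W hKW)) W hKW
    (s27giResMap K W hKW) (s27giRes_algebraMap K W hKW) (s27giResMap_surjective K W hKW)

@[simp] theorem s27gi_A (W : ValuationSubring L) (hKW : ∀ c : K, algebraMap K L c ∈ W) :
    (s27giRd K F W hKW).A = W := rfl

/-- **the Gauss lattice property at the stage** -/
theorem s27gi_lat (W : ValuationSubring L) (hKW : ∀ c : K, algebraMap K L c ∈ W)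
    {J : Type*} [Fintype J] (x : J → F) (hx : LinearIndependent K x) :
    S27legrLat (s27giRd K F W hKW) (fun j => algebraMap F (s27stgFL K F L) (x j)) :=
  s27legi_lat _ _ _ W hKW _ _ _ x hx

/-- `L ∩ O = W` -/
theorem s27gi_const_mem_iff (W : ValuationSubring L) (hKW : ∀ c : K, algebraMap K L c ∈ W)
    (c : L) : algebraMap L (s27stgFL K F L) c ∈ (s27giRd K F W hKW).O ↔ c ∈ W :=
  s27legi_const_mem_iff _ _ _ W hKW _ _ _ c

/-- the functions of `F` are Gauss-integral -/
theorem s27gi_fun_mem (W : ValuationSubring L) (hKW : ∀ c : K, algebraMap K L c ∈ W) (γ : F) :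
    algebraMap F (s27stgFL K F L) γ ∈ (s27giRd K F W hKW).O :=
  s26eri_mem _ _ _ W hKW _ _ _ γ

/-- … and reduce to themselves -/
theorem s27gi_fun_red (W : ValuationSubring L) (hKW : ∀ c : K, algebraMap K L c ∈ W) (γ : F) :
    (s27giRd K F W hKW).red ⟨_, s27gi_fun_mem K F W hKW γ⟩ =
      algebraMap F (s27stgFL K F (s27giRes K W hKW)) γ :=
  s26eri_red _ _ _ W hKW _ _ _ γ

/-- a nonzero function of `F` is Gauss-normalised -/
theorem s27gi_fun_norm (W : ValuationSubring L) (hKW : ∀ c : K, algebraMap K L c ∈ W) (γ : F)
    (hγ : γ ≠ 0) : S27legrNorm (s27giRd K F W hKW) (algebraMap F (s27stgFL K F L) γ) :=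
  ⟨s27gi_fun_mem K F W hKW γ, by
    rw [s27gi_fun_red]
    exact (map_ne_zero _).mpr hγ⟩

/-- the Gauss ring is a valuation ring of `F_L` -/
theorem s27gi_mem_or_inv_mem (W : ValuationSubring L) (hKW : ∀ c : K, algebraMap K L c ∈ W)
    (f : s27stgFL K F L) :
    f ∈ (s27giRd K F W hKW).O ∨ f⁻¹ ∈ (s27giRd K F W hKW).O :=
  s26eri_mem_or_inv_mem _ _ _ W hKW _ _ _ f

/-- every nonzero function is a constant multiple of a Gauss-normalised one -/
theorem s27gi_exists_norm (W : ValuationSubring L) (hKW : ∀ c : K, algebraMap K L c ∈ W)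
    (f : s27stgFL K F L) (hf : f ≠ 0) :
    ∃ c : L, c ≠ 0 ∧ S27legrNorm (s27giRd K F W hKW) (algebraMap L (s27stgFL K F L) c * f) :=
  s27legr_exists_norm _ f hf

/-- **GAUSS-INST, the package**: for every valuation subring `W ⊇ K` of `L` there is a Gauss
reduction datum `Rd` of `F_L` with `Rd.A = W` having the Gauss lattice property for all
`K`-linearly independent families of functions of `F` (the hypotheses `Rd`, `hA`, `hlat`, `hlat'`
of `s27le5_asm`), in which every nonzero function is a constant multiple of a normalised one. -/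
theorem s27gi_exists (W : ValuationSubring L) (hKW : ∀ c : K, algebraMap K L c ∈ W) :
    ∃ (k : Type w) (Fb : Type (max v w)) (_ : Field k) (_ : Field Fb) (_ : Algebra k Fb)
      (Rd : RedData L (s27stgFL K F L) k Fb), Rd.A = W ∧
      (∀ (n : ℕ) (x : Fin n → F), LinearIndependent K x →
        S27legrLat Rd (fun j => algebraMap F (s27stgFL K F L) (x j))) ∧
      (∀ (ι κ : Type) [Fintype ι] [Fintype κ] (x : ι ⊕ κ → F), LinearIndependent K x →
        S27legrLat Rd (fun j => algebraMap F (s27stgFL K F L) (x j))) ∧
      (∀ f : s27stgFL K F L, f ≠ 0 →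
        ∃ c : L, c ≠ 0 ∧ S27legrNorm Rd (algebraMap L (s27stgFL K F L) c * f)) ∧
      (∀ γ : F, γ ≠ 0 → S27legrNorm Rd (algebraMap F (s27stgFL K F L) γ)) :=
  ⟨s27giRes K W hKW, s27stgFL K F (s27giRes K W hKW), inferInstance, inferInstance,
    inferInstance, s27giRd K F W hKW, rfl,
    fun _ x hx => s27gi_lat K F W hKW x hx,
    fun _ _ _ _ x hx => s27gi_lat K F W hKW x hx,
    fun f hf => s27gi_exists_norm K F W hKW f hf,
    fun γ hγ => s27gi_fun_norm K F W hKW γ hγ⟩

end Fermat.Agent.S27
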