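/-
S27-B, base piece (helper96): the GENERIC-POINT PLACE of a constant extension.

`K ⊆ 𝔠` a function field, `K ⊆ 𝔎` a field, `Ω = Frac (𝔠 ⊗[K] 𝔎)` (`hld`, `hgen` of
`S26/ERRGaussPlace.lean`), `ι : 𝔠 →ₐ[K] 𝔎` an embedding (a `𝔎`-valued generic point of the curve).
The evaluation `ev : 𝔠 ⊗[K] 𝔎 → 𝔎`, `f ⊗ c ↦ ι f * c`, has a maximal ideal as kernel, and there is
exactly one place `P_ι` of `Ω / 𝔎` centred there.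

Part 1 (this file, pure algebra in `T = 𝔠 ⊗[K] 𝔎`): the kernel of `ev` is generated, locally at
`ker ev`, by `x ⊗ 1 - 1 ⊗ ι x` for a separating element `x` of `𝔠 / K`:

* `s27gp_ker_locally_principal` : `ev A = 0 → ∃ B C, ev B ≠ 0 ∧ B * A = (x ⊗ 1 - 1 ⊗ ι x) * C`.
-/
import Mathlib

set_option autoImplicit false
set_option linter.style.haveILetI false
set_option linter.unusedSectionVars false
set_option linter.unusedVariables false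

noncomputable section

namespace Fermat.Agent.S27

open TensorProduct Polynomial IntermediateField

variable {K 𝔠 𝔎 : Type*} [Field K] [Field 𝔠] [Field 𝔎] [Algebra K 𝔠] [Algebra K 𝔎]

/-- the evaluation `𝔠 ⊗[K] 𝔎 → 𝔎`, `f ⊗ c ↦ ι f * c`. -/
def s27gpEv (ι : 𝔠 →ₐ[K] 𝔎) : 𝔠 ⊗[K] 𝔎 →ₐ[K] 𝔎 :=
  Algebra.TensorProduct.productMap ι (AlgHom.id K 𝔎)

@[simp]
theorem s27gpEv_tmul (ι : 𝔠 →ₐ[K] 𝔎) (f : 𝔠) (c : 𝔎) : s27gpEv ι (f ⊗ₜ[K] c) = ι f * c := by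
  simp [s27gpEv]

/-- `η_u = u ⊗ 1 - 1 ⊗ ι u`. -/
def s27gpEta (ι : 𝔠 →ₐ[K] 𝔎) (u : 𝔠) : 𝔠 ⊗[K] 𝔎 := u ⊗ₜ[K] 1 - 1 ⊗ₜ[K] ι u

theorem s27gpEv_eta (ι : 𝔠 →ₐ[K] 𝔎) (u : 𝔠) : s27gpEv ι (s27gpEta ι u) = 0 := by
  simp [s27gpEta]

theorem s27gpEta_add (ι : 𝔠 →ₐ[K] 𝔎) (u v : 𝔠) :
    s27gpEta ι (u + v) = s27gpEta ι u + s27gpEta ι v := by
  simp only [s27gpEta, map_add, TensorProduct.add_tmul, TensorProduct.tmul_add]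
  ring

theorem s27gpEta_mul (ι : 𝔠 →ₐ[K] 𝔎) (u v : 𝔠) :
    s27gpEta ι (u * v) = (u ⊗ₜ[K] 1) * s27gpEta ι v + s27gpEta ι u * (1 ⊗ₜ[K] ι v) := by
  simp only [s27gpEta, map_mul, mul_sub, sub_mul, Algebra.TensorProduct.tmul_mul_tmul, mul_one,
    one_mul]
  ring

theorem s27gpEta_algebraMap (ι : 𝔠 →ₐ[K] 𝔎) (a : K) : s27gpEta ι (algebraMap K 𝔠 a) = 0 := by
  rw [s27gpEta, AlgHom.commutes, Algebra.algebraMap_eq_smul_one, Algebra.algebraMap_eq_smul_one,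
    TensorProduct.smul_tmul, sub_self]

theorem s27gpEta_zero (ι : 𝔠 →ₐ[K] 𝔎) : s27gpEta ι 0 = 0 := by
  simp [s27gpEta]

theorem s27gpEta_pow (ι : 𝔠 →ₐ[K] 𝔎) (u : 𝔠) (n : ℕ) :
    s27gpEta ι (u ^ n) = s27gpEta ι u *
      ∑ j ∈ Finset.range n, (u ⊗ₜ[K] (1 : 𝔎)) ^ j * ((1 : 𝔠) ⊗ₜ[K] ι u) ^ (n - 1 - j) := by
  have h := Commute.geom_sum₂_mul (Commute.all (u ⊗ₜ[K] (1 : 𝔎)) ((1 : 𝔠) ⊗ₜ[K] ι u)) n
  rw [mul_comm]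
  unfold s27gpEta
  rw [h]
  simp [Algebra.TensorProduct.tmul_pow]

/-- the predicate "`η_u` is divisible by `η_x` locally at `ker ev`". -/
def S27gpD (ι : 𝔠 →ₐ[K] 𝔎) (x u : 𝔠) : Prop :=
  ∃ B C : 𝔠 ⊗[K] 𝔎, s27gpEv ι B ≠ 0 ∧ B * s27gpEta ι u = s27gpEta ι x * C

theorem s27gpD_self (ι : 𝔠 →ₐ[K] 𝔎) (x : 𝔠) : S27gpD ι x x :=
  ⟨1, 1, by simp, by ring⟩

theorem s27gpD_algebraMap (ι : 𝔠 →ₐ[K] 𝔎) (x : 𝔠) (a : K) : S27gpD ι x (algebraMap K 𝔠 a) :=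
  ⟨1, 0, by simp, by rw [s27gpEta_algebraMap]; ring⟩

theorem s27gpD_add (ι : 𝔠 →ₐ[K] 𝔎) (x : 𝔠) {u v : 𝔠} (hu : S27gpD ι x u) (hv : S27gpD ι x v) :
    S27gpD ι x (u + v) := by
  obtain ⟨B₁, C₁, hB₁, h₁⟩ := hu
  obtain ⟨B₂, C₂, hB₂, h₂⟩ := hv
  refine ⟨B₁ * B₂, B₂ * C₁ + B₁ * C₂, by rw [map_mul]; exact mul_ne_zero hB₁ hB₂, ?_⟩
  rw [s27gpEta_add]
  linear_combination B₂ * h₁ + B₁ * h₂

theorem s27gpD_mul (ι : 𝔠 →ₐ[K] 𝔎) (x : 𝔠) {u v : 𝔠} (hu : S27gpD ι x u) (hv : S27gpD ι x v) :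
    S27gpD ι x (u * v) := by
  obtain ⟨B₁, C₁, hB₁, h₁⟩ := hu
  obtain ⟨B₂, C₂, hB₂, h₂⟩ := hv
  refine ⟨B₁ * B₂, (u ⊗ₜ[K] 1) * B₁ * C₂ + (1 ⊗ₜ[K] ι v) * B₂ * C₁,
    by rw [map_mul]; exact mul_ne_zero hB₁ hB₂, ?_⟩
  rw [s27gpEta_mul]
  linear_combination (1 ⊗ₜ[K] ι v) * B₂ * h₁ + (u ⊗ₜ[K] 1) * B₁ * h₂

theorem s27gpEta_inv (ι : 𝔠 →ₐ[K] 𝔎) {u : 𝔠} (hu : u ≠ 0) :
    s27gpEta ι u⁻¹ = -((u⁻¹ ⊗ₜ[K] (1 : 𝔎)) * ((1 : 𝔠) ⊗ₜ[K] (ι u)⁻¹)) * s27gpEta ι u := by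
  have hιu : ι u ≠ 0 := by
    rw [Ne, map_eq_zero_iff ι ι.toRingHom.injective]
    exact hu
  simp only [s27gpEta, map_inv₀, mul_sub, neg_mul, Algebra.TensorProduct.tmul_mul_tmul, mul_one,
    one_mul]
  rw [inv_mul_cancel₀ hu, inv_mul_cancel₀ hιu]
  ring

theorem s27gpD_inv (ι : 𝔠 →ₐ[K] 𝔎) (x : 𝔠) {u : 𝔠} (hu : S27gpD ι x u) : S27gpD ι x u⁻¹ := by
  rcases eq_or_ne u 0 with rfl | hu0
  · rw [inv_zero]
    exact ⟨1, 0, by simp, by rw [s27gpEta_zero]; ring⟩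
  obtain ⟨B₁, C₁, hB₁, h₁⟩ := hu
  refine ⟨B₁, -((u⁻¹ ⊗ₜ[K] (1 : 𝔎)) * ((1 : 𝔠) ⊗ₜ[K] (ι u)⁻¹)) * C₁, hB₁, ?_⟩
  rw [s27gpEta_inv ι hu0]
  linear_combination -((u⁻¹ ⊗ₜ[K] (1 : 𝔎)) * ((1 : 𝔠) ⊗ₜ[K] (ι u)⁻¹)) * h₁

theorem s27gpD_neg (ι : 𝔠 →ₐ[K] 𝔎) (x : 𝔠) {u : 𝔠} (hu : S27gpD ι x u) : S27gpD ι x (-u) := by
  have h := s27gpD_mul ι x (s27gpD_algebraMap ι x (-1)) hu
  simpa using h

/-- the subfield of the `u` with `D(u)`. -/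
def s27gpField (ι : 𝔠 →ₐ[K] 𝔎) (x : 𝔠) : IntermediateField K 𝔠 where
  carrier := {u | S27gpD ι x u}
  mul_mem' hu hv := s27gpD_mul ι x hu hv
  one_mem' := by simpa using s27gpD_algebraMap ι x 1
  add_mem' hu hv := s27gpD_add ι x hu hv
  zero_mem' := by simpa using s27gpD_algebraMap ι x 0
  algebraMap_mem' a := s27gpD_algebraMap ι x a
  inv_mem' _ hu := s27gpD_inv ι x hu

theorem s27gp_mem_field (ι : 𝔠 →ₐ[K] 𝔎) (x u : 𝔠) : u ∈ s27gpField ι x ↔ S27gpD ι x u := Iff.rfl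

theorem s27gp_adjoin_le (ι : 𝔠 →ₐ[K] 𝔎) (x : 𝔠) :
    IntermediateField.adjoin K {x} ≤ s27gpField ι x := by
  rw [IntermediateField.adjoin_le_iff]
  intro y hy
  rw [Set.mem_singleton_iff] at hy
  subst hy
  exact s27gpD_self ι y

/-! ### The separable step -/

theorem s27gpEv_geom (ι : 𝔠 →ₐ[K] 𝔎) (u : 𝔠) (n : ℕ) :
    s27gpEv ι (∑ j ∈ Finset.range n,
      (u ⊗ₜ[K] (1 : 𝔎)) ^ j * ((1 : 𝔠) ⊗ₜ[K] ι u) ^ (n - 1 - j)) = n * ι u ^ (n - 1) := by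
  rw [map_sum]
  have h : ∀ j ∈ Finset.range n,
      s27gpEv ι ((u ⊗ₜ[K] (1 : 𝔎)) ^ j * ((1 : 𝔠) ⊗ₜ[K] ι u) ^ (n - 1 - j)) = ι u ^ (n - 1) := by
    intro j hj
    rw [Finset.mem_range] at hj
    rw [map_mul, map_pow, map_pow, s27gpEv_tmul, s27gpEv_tmul, mul_one, map_one, one_mul,
      ← pow_add]
    congr 1
    omega
  rw [Finset.sum_congr rfl h, Finset.sum_const, Finset.card_range, nsmul_eq_mul]

/-- the induction statement for the separable step. -/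
theorem s27gpD_poly (ι : 𝔠 →ₐ[K] 𝔎) (x u : 𝔠)
    (q : Polynomial ↥(IntermediateField.adjoin K {x})) :
    ∃ G B C : 𝔠 ⊗[K] 𝔎, s27gpEv ι G = ι (aeval u (derivative q)) ∧ s27gpEv ι B ≠ 0 ∧
      B * (s27gpEta ι (aeval u q) - G * s27gpEta ι u) = s27gpEta ι x * C := by
  induction q using Polynomial.induction_on' with
  | add p q hp hq =>
    obtain ⟨G₁, B₁, C₁, hG₁, hB₁, h₁⟩ := hp
    obtain ⟨G₂, B₂, C₂, hG₂, hB₂, h₂⟩ := hq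
    refine ⟨G₁ + G₂, B₁ * B₂, B₂ * C₁ + B₁ * C₂, ?_, by rw [map_mul]; exact mul_ne_zero hB₁ hB₂,
      ?_⟩
    · rw [map_add, hG₁, hG₂, derivative_add, map_add, map_add]
    · rw [map_add, s27gpEta_add]
      linear_combination B₂ * h₁ + B₁ * h₂
  | monomial n a =>
    obtain ⟨B, C₀, hB, h₀⟩ := s27gp_adjoin_le ι x a.2
    refine ⟨((a : 𝔠) ⊗ₜ[K] (1 : 𝔎)) * ∑ j ∈ Finset.range n,
        (u ⊗ₜ[K] (1 : 𝔎)) ^ j * ((1 : 𝔠) ⊗ₜ[K] ι u) ^ (n - 1 - j), B,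
      C₀ * ((1 : 𝔠) ⊗ₜ[K] ι (u ^ n)), ?_, hB, ?_⟩
    · rw [map_mul, s27gpEv_geom, s27gpEv_tmul, mul_one, derivative_monomial, aeval_monomial,
        map_mul, map_pow]
      simp only [map_mul, map_natCast]
      rw [IntermediateField.algebraMap_apply]
      ring
    · rw [aeval_monomial, IntermediateField.algebraMap_apply, s27gpEta_mul, s27gpEta_pow]
      linear_combination ((1 : 𝔠) ⊗ₜ[K] ι (u ^ n)) * h₀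

/-- an element which is a simple root of a polynomial over `K(x)` satisfies `D`. -/
theorem s27gpD_of_root (ι : 𝔠 →ₐ[K] 𝔎) (x u : 𝔠)
    (q : Polynomial ↥(IntermediateField.adjoin K {x})) (hq : aeval u q = 0)
    (hq' : aeval u (derivative q) ≠ 0) : S27gpD ι x u := by
  obtain ⟨G, B, C, hG, hB, h⟩ := s27gpD_poly ι x u q
  rw [hq, s27gpEta_zero] at h
  refine ⟨B * G, -C, ?_, ?_⟩
  · rw [map_mul, hG]
    refine mul_ne_zero hB ?_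
    rw [Ne, map_eq_zero_iff ι ι.toRingHom.injective]
    exact hq'
  · linear_combination -h

/-- **every element satisfies `D`** if `𝔠 / K(x)` is separable algebraic. -/
theorem s27gpD_all (ι : 𝔠 →ₐ[K] 𝔎) (x : 𝔠)
    [Algebra.IsSeparable ↥(IntermediateField.adjoin K {x}) 𝔠] (u : 𝔠) : S27gpD ι x u := by
  have hsep := Algebra.IsSeparable.isSeparable ↥(IntermediateField.adjoin K {x}) u
  exact s27gpD_of_root ι x u (minpoly ↥(IntermediateField.adjoin K {x}) u) (minpoly.aeval _ u)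
    (Polynomial.Separable.aeval_derivative_ne_zero hsep (minpoly.aeval _ u))

/-- every element of `T` is congruent to a constant modulo `η_x`, locally at `ker ev`. -/
theorem s27gp_sub_const (ι : 𝔠 →ₐ[K] 𝔎) (x : 𝔠)
    [Algebra.IsSeparable ↥(IntermediateField.adjoin K {x}) 𝔠] (A : 𝔠 ⊗[K] 𝔎) :
    ∃ B C : 𝔠 ⊗[K] 𝔎, s27gpEv ι B ≠ 0 ∧
      B * (A - (1 : 𝔠) ⊗ₜ[K] s27gpEv ι A) = s27gpEta ι x * C := by
  induction A using TensorProduct.induction_on with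
  | zero => exact ⟨1, 0, by simp, by simp⟩
  | tmul u c =>
    obtain ⟨B, C, hB, h⟩ := s27gpD_all ι x u
    refine ⟨B, C * ((1 : 𝔠) ⊗ₜ[K] c), hB, ?_⟩
    have e : u ⊗ₜ[K] c - (1 : 𝔠) ⊗ₜ[K] s27gpEv ι (u ⊗ₜ[K] c) =
        s27gpEta ι u * ((1 : 𝔠) ⊗ₜ[K] c) := by
      simp only [s27gpEta, s27gpEv_tmul, sub_mul, Algebra.TensorProduct.tmul_mul_tmul, mul_one,
        one_mul]
    rw [e]
    linear_combination ((1 : 𝔠) ⊗ₜ[K] c) * h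
  | add A₁ A₂ h₁ h₂ =>
    obtain ⟨B₁, C₁, hB₁, e₁⟩ := h₁
    obtain ⟨B₂, C₂, hB₂, e₂⟩ := h₂
    refine ⟨B₁ * B₂, B₂ * C₁ + B₁ * C₂, by rw [map_mul]; exact mul_ne_zero hB₁ hB₂, ?_⟩
    rw [map_add, TensorProduct.tmul_add]
    linear_combination B₂ * e₁ + B₁ * e₂

/-- **the kernel of `ev` is locally principal**, generated by `η_x = x ⊗ 1 - 1 ⊗ ι x`. -/
theorem s27gp_ker_locally_principal (ι : 𝔠 →ₐ[K] 𝔎) (x : 𝔠)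
    [Algebra.IsSeparable ↥(IntermediateField.adjoin K {x}) 𝔠] {A : 𝔠 ⊗[K] 𝔎}
    (hA : s27gpEv ι A = 0) :
    ∃ B C : 𝔠 ⊗[K] 𝔎, s27gpEv ι B ≠ 0 ∧ B * A = s27gpEta ι x * C := by
  obtain ⟨B, C, hB, h⟩ := s27gp_sub_const ι x A
  rw [hA, TensorProduct.tmul_zero, sub_zero] at h
  exact ⟨B, C, hB, h⟩

end Fermat.Agent.S27
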