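/-
S27-B — GEOMETRIC TOP, BOUNDED form (formal hub helper11; twin of the captain's GeoTop.lean).

The last statement on the MODEL `𝔉 = s27gfSym K F g`, in the weakest form that the formal side needs:

  * the pointwise cube `cube_k` only for `0 < |k| < n`, each with its OWN exponent `e k > 0`
    (`cube_k` comes from a norm down a finite extension `𝔉′_k / 𝔉`);
  * growth / generation only for the divisor `Θ + [−1]^*Θ` itself, `b₁ = s27indb ψ β 1 = B 1 · B (−1)`
    (the passage to the power `c = ∏ e k` is formal: `s27geob_grow_pow`);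
  * the degree of `ψ n`.

`s27geob_main : s27geob_Stmt → s27_Stmt` — the frozen S27.
-/
import Fermat.Agent.S27.GeoTop
import Fermat.Agent.S27.IndB

set_option autoImplicit false

noncomputable section

namespace Fermat.Agent.S27

open AlgebraicCurve Fermat.Agent.S26

universe u v w

section Pow

variable {K : Type u} [Field K] {𝔉 : Type w} [Field 𝔉] [Algebra K 𝔉]

theorem s27geob_LU_pow (b : ValuationSubring 𝔉 → 𝔉) (c m : ℕ) :
    s27LU K (fun V => b V ^ c) m = s27LU K b (c * m) := by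
  ext x
  simp only [s27LU_mem, ← pow_mul]

theorem s27geob_LU_mono (b : ValuationSubring 𝔉 → 𝔉) (hb : ∀ V, S27IsKValU K V → b V ∈ V)
    {m m' : ℕ} (h : m ≤ m') : s27LU K b m ≤ s27LU K b m' := by
  intro x hx V hV
  obtain ⟨r, rfl⟩ := Nat.exists_eq_add_of_le h
  have := V.mul_mem _ _ (hx V hV) (V.pow_mem (hb V hV) r)
  rwa [mul_assoc, ← pow_add] at this

/-- **growth of `b` gives growth of `b ^ c`**, `c ≥ 1`. -/
theorem s27geob_grow_pow (b : ValuationSubring 𝔉 → 𝔉) (hb : ∀ V, S27IsKValU K V → b V ∈ V)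
    (g c : ℕ) (hc : 0 < c) (hG : S27IsGrow K b g) : S27IsGrow K (fun V => b V ^ c) g where
  fin := fun m => by
    rw [s27geob_LU_pow]
    exact hG.fin _
  growth := by
    obtain ⟨c₁, c₂, h⟩ := hG.growth
    refine ⟨c₁, c₂ * c ^ g, fun m hm => ?_⟩
    rw [s27geob_LU_pow]
    have hcm : 1 ≤ c * m := Nat.one_le_iff_ne_zero.2 (Nat.mul_ne_zero hc.ne' (by omega))
    obtain ⟨h1, h2⟩ := h (c * m) hcm
    constructor
    · calc m ^ g ≤ (c * m) ^ g := Nat.pow_le_pow_left (Nat.le_mul_of_pos_left m hc) g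
        _ ≤ c₁ * Module.finrank K (s27LU K b (c * m)) := h1
    · calc Module.finrank K (s27LU K b (c * m)) ≤ c₂ * (c * m) ^ g := h2
        _ = c₂ * c ^ g * m ^ g := by rw [mul_pow]; ring
  gen := fun x => by
    obtain ⟨c', a, ha, e, he, hne, hxe⟩ := hG.gen x
    have hle : c' ≤ c * c' := Nat.le_mul_of_pos_left c' hc
    refine ⟨c', a, ?_, e, ?_, hne, hxe⟩
    · rw [s27geob_LU_pow]
      exact s27geob_LU_mono b hb hle ha
    · rw [s27geob_LU_pow]
      exact s27geob_LU_mono b hb hle he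

theorem s27geob_indb_pow (ψ : ℤ → (𝔉 →ₐ[K] 𝔉)) (β : ValuationSubring 𝔉 → 𝔉) (c : ℕ) :
    s27indb ψ β c = fun V => s27indb ψ β 1 V ^ c := by
  funext V
  simp [s27indb]

end Pow

/-- **THE geometric statement on the model, bounded form** (`g ≥ 1`). -/
def s27geob_Stmt : Prop :=
  ∀ (K : Type u) (F : Type v) [Field K] [Field F] [Algebra K F] [IsAlgClosed K] [CharZero K]
    [IsCurveOver K F] [Algebra.EssFiniteType K F] (n : ℕ), 0 < n → 0 < genusFF K F →
    ∃ (ψ : ℤ → (s27gfSym K F (genusFF K F) →ₐ[K] s27gfSym K F (genusFF K F)))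
      (β : ValuationSubring (s27gfSym K F (genusFF K F)) → s27gfSym K F (genusFF K F))
      (e : ℤ → ℕ) (Φ : ℤ → s27gfSym K F (genusFF K F)),
      (∀ x, ψ n (ψ 1 x) = ψ n x) ∧ (∀ x, ψ n (ψ (-1) x) = ψ (-(n : ℤ)) x) ∧
      (∀ V, S27IsKValU K V → β V ≠ 0) ∧ (∀ V, S27IsKValU K V → β V ∈ V) ∧
      (∀ k ∈ s27indbRange n, 0 < e k ∧ Φ k ≠ 0) ∧
      (∀ k ∈ s27indbRange n, ∀ V, S27IsKValU K V → ∃ u, S27IsUnitIn V u ∧
        (s27indB ψ β (k + 1) V * s27indB ψ β (k - 1) V) ^ e k =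
          u * Φ k * (s27indB ψ β k V ^ 2 * s27indB ψ β 1 V * s27indB ψ β (-1) V) ^ e k) ∧
      S27IsGrow K (s27indb ψ β 1) (genusFF K F) ∧
      S27IsDeg K (ψ n) (Nat.card (Pic0.torsion K F n))

theorem s27geob_baseU (h : s27geob_Stmt.{u, v}) : s27top_StmtBaseU.{u, v, max u v} := by
  intro K F _ _ _ _ _ _ _ n hn hg
  obtain ⟨ψ, β, e, Φ, c1, cm, bne, bmem, hΦ, hcube, hG, hD⟩ := h K F n hn hg
  have hc : 0 < s27indbC e n := Finset.prod_pos fun k hk => (hΦ k hk).1
  have hb1 : ∀ V, S27IsKValU K V → s27indb ψ β 1 V ∈ V := fun V hV => by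
    unfold s27indb
    rw [pow_one]
    exact V.mul_mem _ _ (s27indB_mem ψ β bmem 1 hV) (s27indB_mem ψ β bmem (-1) hV)
  have hG' : S27IsGrow K (s27indb ψ β (s27indbC e n)) (genusFF K F) := by
    rw [s27geob_indb_pow]
    exact s27geob_grow_pow _ hb1 _ _ hc hG
  exact ⟨s27gfSym K F (genusFF K F), inferInstance, inferInstance, ψ n,
    s27indb ψ β (s27indbC e n), s27indH (s27indbPhi e Φ n) n,
    s27top_baseU_of
      (s27indb_crux ψ β e Φ n hn c1 cm bne bmem (fun k hk => (hΦ k hk).2) hcube) hG' hD⟩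

/-- **the bounded geometric statement on the model ⇒ the frozen S27.** -/
theorem s27geob_main (h : s27geob_Stmt.{u, v}) : s27_Stmt.{u, v} :=
  s27top_of_baseU (s27geob_baseU h)

end Fermat.Agent.S27

end
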