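/-
S27-B, piece **GROW-CONST** (helper36): helper41's GROW-CLOSED (`s27grc_grow`, S27/GrowClosed.lean)
in the `S27cstIsConst` form of helper11's constants (S27/Consts.lean): for EVERY admissible choice
`hc : S27cstIsConst x G₀ O` of the constants and `0 < genusFF K F`,

  `s27grk_grow hc hg : ∀ q hq, S27ftGrow hc.trans G₀ hc.deg (G₀ + s27cstAo G₀ O) q hq`

= the fourth input of `s27ft2_Stmt` (S27/FinalTop2.lean), literally, with `Ao := s27cstAo G₀ O`.
-/
import Fermat.Agent.S27.GrowClosed
import Fermat.Agent.S27.Consts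

set_option autoImplicit false
set_option linter.unusedVariables false
set_option linter.unusedSectionVars false
set_option linter.style.haveILetI false

noncomputable section

namespace Fermat.Agent.S27

open AlgebraicCurve Module TensorProduct IntermediateField Fermat.Agent.S26

universe u v

section GrowConst

variable {K : Type u} {F : Type v} [Field K] [Field F] [Algebra K F] [IsAlgClosed K] [CharZero K]
  [IsCurveOver K F] [Algebra.EssFiniteType K F]

/-- `G₀ + Ao = 2 G₀ − O″`. -/
theorem s27grk_A_eq (G₀ : Divisor K F) (O : Place K F) :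
    G₀ + s27cstAo G₀ O = 2 • G₀ - Finsupp.single O 1 := by
  unfold s27cstAo
  rw [two_nsmul]
  abel

/-- **GROW-CONST**: the fourth input of `s27ft2_Stmt`, for every admissible choice of the
constants. -/
theorem s27grk_grow {x : F} {G₀ : Divisor K F} {O : Place K F} (hc : S27cstIsConst x G₀ O)
    (hg : 0 < genusFF K F) :
    haveI := hc.fin
    haveI := hc.sep
    ∀ (q : ℤ → Fin (genusFF K F) → F →ₐ[K] s27mtL K F)
      (hq : S27pfFam (s27ftPkg hc.trans G₀ hc.deg) q),
      S27ftGrow hc.trans G₀ hc.deg (G₀ + s27cstAo G₀ O) q hq := by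
  haveI := hc.fin
  haveI := hc.sep
  intro q hq
  have hpos : 0 < Module.finrank K ↥(riemannRochSpace (G₀ + s27cstAo G₀ O)) := by
    rw [hc.l_A]; exact hg
  haveI : Module.Finite K ↥(riemannRochSpace (G₀ + s27cstAo G₀ O)) :=
    Module.finite_of_finrank_pos hpos
  exact s27grc_grow hc.trans G₀ hc.deg hg O hc.nonneg hc.off (G₀ + s27cstAo G₀ O)
    (s27grk_A_eq G₀ O) (Module.finBasisOfFinrankEq K _ hc.l_A) q hq

end GrowConst

end Fermat.Agent.S27

end
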