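/-
S27-B, piece **GROW-FINAL** (helper41): the (GROW) input `S27ftGrow` of the captain's FINAL-TOP2
(`s27ft2_Stmt`, S27/FinalTop2.lean), on the stage, from the TWO open leaves of the GROW side:

  (SPLIT) `L_K(2G₀) = K·1 + L_K(A')`   (helper31),
  (DISJ)  `taut_i ≠ q (−1) j`           (helper26),

and the numerical data of the constants (`A' O = −1`, `0 ≤ A'` off `O`, `A' ≤ 2G₀`, `0 ≤ G₀`,
a basis `f₀` of `L_K(A')` indexed by `Fin g`).  Everything else is discharged:
BETA + LAT-EX (`s27betat_main`, `s27flx_latEx`), (U1), UP-SYM, `deg_fin`, POINT-T, the glue,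
Chevalley, PSI-NAT, POLE-DIV ASM (`s27pda_main`, helper46), OPP (`s27oppt_stage`, helper14).
-/
import Fermat.Agent.S27.FinalTop2
import Fermat.Agent.S27.GrowH3
import Fermat.Agent.S27.PoleDivAsm
import Fermat.Agent.S27.PoleDivOppT

set_option autoImplicit false
set_option linter.unusedVariables false
set_option linter.unusedSectionVars false
set_option linter.style.haveILetI false

noncomputable section

namespace Fermat.Agent.S27

open AlgebraicCurve Module TensorProduct IntermediateField Fermat.Agent.S26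

universe u v

section GrowFinal

variable {K : Type u} {F : Type v} [Field K] [Field F] [Algebra K F] [IsAlgClosed K] [CharZero K]
  [IsCurveOver K F] [Algebra.EssFiniteType K F]
variable {x : F} (hx : Transcendental K x)
  [FiniteDimensional ↥(IntermediateField.adjoin K {x}) F]
  [Algebra.IsSeparable ↥(IntermediateField.adjoin K {x}) F]
  (G₀ : Divisor K F) (hG₀ : Divisor.degree G₀ = (genusFF K F : ℤ))

/-- `1 ∈ L_K(D)` for an effective divisor `D`. -/
theorem s27grf_one_mem {D : Divisor K F} (hD : 0 ≤ D) : (1 : F) ∈ riemannRochSpace D := by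
  rw [mem_riemannRochSpace_iff]
  intro v
  right
  have h0 : (0 : ℤ) ≤ D v := Finsupp.le_def.mp hD v
  have h1 : v.ord (1 : F) = 0 := by
    have h := v.ord_mul (one_ne_zero : (1 : F) ≠ 0) one_ne_zero
    rw [one_mul] at h
    omega
  rw [h1]
  omega

/-- **OPP on the stage of FINAL-TOP2**, from (SPLIT). -/
theorem s27grf_opp (A' : Divisor K F) (hA : A' ≤ G₀ + G₀) (hG0 : 0 ≤ G₀)
    (hsplit : ∀ f : Module.Basis (Fin (genusFF K F)) K ↥(riemannRochSpace A'),
      ∀ b ∈ riemannRochSpace (G₀ + G₀), ∃ (a₀ : K) (a : Fin (genusFF K F) → K),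
        b = a₀ • (1 : F) + ∑ l, a l • ((f l : ↥(riemannRochSpace A')) : F))
    (q : ℤ → Fin (genusFF K F) → F →ₐ[K] s27mtL K F) (hq : S27pfFam (s27ftPkg hx G₀ hG₀) q) :
    S27pdaOpp (s27pfTaut (K := K) (F := F) (g := genusFF K F) (L := s27mtL K F)) (q (-1)) A' :=
  s27oppt_stage (FL := s27mtFL K F) (s27stg_hld K F (s27mtL K F)) (s27stg_hgen K F (s27mtL K F))
    (s26gspf_hall hx) hx
    (s27pkg_hdeg (s27stg_hld K F (s27mtL K F)) (s27stg_hgen K F (s27mtL K F)) hx) G₀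
    (s27pkgO_degree (s27stg_hld K F (s27mtL K F)) (s27stg_hgen K F (s27mtL K F)) hx G₀ hG₀)
    (s27ftPkg hx G₀ hG₀) (fun e => rfl) (fun R => rfl) q hq A' hA
    (s27grf_one_mem (add_nonneg hG0 hG0)) hsplit

/-- **GROW-FINAL**: `S27ftGrow` from (SPLIT) and (DISJ). -/
theorem s27grf_grow (hg : 0 < genusFF K F) (O : Place K F) (A' : Divisor K F)
    (hAO : A' O = -1) (hApos : ∀ Q : Place K F, Q ≠ O → 0 ≤ A' Q)
    (hA : A' ≤ G₀ + G₀) (hG0 : 0 ≤ G₀)
    (f₀ : Module.Basis (Fin (genusFF K F)) K ↥(riemannRochSpace A'))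
    (hsplit : ∀ f : Module.Basis (Fin (genusFF K F)) K ↥(riemannRochSpace A'),
      ∀ b ∈ riemannRochSpace (G₀ + G₀), ∃ (a₀ : K) (a : Fin (genusFF K F) → K),
        b = a₀ • (1 : F) + ∑ l, a l • ((f l : ↥(riemannRochSpace A')) : F))
    (q : ℤ → Fin (genusFF K F) → F →ₐ[K] s27mtL K F) (hq : S27pfFam (s27ftPkg hx G₀ hG₀) q)
    (hpq : ∀ i j, s27pfTaut (K := K) (F := F) (g := genusFF K F) (L := s27mtL K F) i ≠
      q (-1) j) :
    S27ftGrow hx G₀ hG₀ A' q hq := by
  intro e he Φ hΦ hcube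
  have hm1 : (-1 : ℤ) ≠ 0 := by norm_num
  refine s27gh3_isGrow (L := s27mtL K F) hg hx O
    (s27pfPsi (s27ftPkg hx G₀ hG₀) (s27dcl_halg (x := x)) hq) q
    ⟨(s27pf_fam_pt (s27ftPkg hx G₀ hG₀) (s27dcl_halg (x := x)) hq (-1) hm1).inj,
      fun s => s27pfPsi_spec (s27ftPkg hx G₀ hG₀) (s27dcl_halg (x := x)) hq (-1) hm1 s⟩
    A' (G₀ + G₀) hA (add_nonneg hG0 hG0) f₀ (s27flx_latEx K F hx A') e he Φ hΦ hcube ?_
  intro s hs W hW y hy
  exact s27pda_main x hx W hW O (s26gspf_hall hx O) s hs A' hAO hApos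
    (s27pfTaut (K := K) (F := F) (g := genusFF K F) (L := s27mtL K F)) (q (-1))
    (s27oppt_taut_inj x hx) (s27oppt_fam_inj (s27ftPkg hx G₀ hG₀) q hq (-1) hm1) hpq
    (s27grf_opp hx G₀ hG₀ A' hA hG0 hsplit q hq) y hy

end GrowFinal

end Fermat.Agent.S27

end
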