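/-
S27 route B (item 27), leaf HERMITE, part 1 (helper13): HENSEL'S LEMMA IN A SUBRING.

`T → E` an injective integral extension of commutative rings, `y ∈ E`, `u₀ ∈ T`, `P ∈ T[Y]` with
`P(y) = 0`, `P'(y) ∈ Eˣ` and `y − u₀ ∈ Jac(E)`.  Then `y ∈ T` (`s27hm_hensel`).

Application (S27/HermiteDesc.lean): `E = ∏_i Ṽ[ε]/(ε^N)` (the `N`-jets at `g` colliding points over
a valuation ring `Ṽ` of ARBITRARY rank), `T = Ṽ[τ]` the image of the polynomials in the
uniformiser: the jets of a function that is étale-algebraic over `K[t]` at the centre are the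
jets of a polynomial with coefficients in `Ṽ`.

Proof: `T' = T[y]` is a finite `T`-module; Taylor: `z (P'(u₀) + z r) = − P(u₀)` with `z = y − u₀`,
`r ∈ T'`; the factor is a unit of `E` lying in `T'`, hence a unit of `T'`; `P(u₀) ∈ Jac(T)`;
Nakayama.
-/
import Mathlib

set_option autoImplicit false

namespace Fermat.Agent.S27

open Polynomial

variable {T E : Type*} [CommRing T] [CommRing E] [Algebra T E]

/-- The inverse of a unit `w` is a polynomial in `w` as soon as it is integral. -/
theorem s27hm_inv_mem (w b : E) (hwb : w * b = 1) (hb : IsIntegral T b) :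
    b ∈ Algebra.adjoin T {w} := by
  obtain ⟨p, hpm, hp⟩ := hb
  have hw : w ∈ Algebra.adjoin T {w} := Algebra.subset_adjoin (Set.mem_singleton w)
  -- `0 = w^n p(b) = 1 + ∑_{i<n} c_i w^(n-i)`
  have hsum : eval₂ (algebraMap T E) b p = b ^ p.natDegree +
      ∑ i ∈ Finset.range p.natDegree, eval₂ (algebraMap T E) b (C (p.coeff i) * X ^ i) := by
    conv_lhs => rw [hpm.as_sum]
    rw [eval₂_add, eval₂_pow, eval₂_X, eval₂_finsetSum]
  have h1 : w ^ p.natDegree * eval₂ (algebraMap T E) b p = 0 := by rw [hp, mul_zero]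
  rw [hsum, mul_add, ← mul_pow, hwb, one_pow, Finset.mul_sum] at h1
  have h2 : ∀ i ∈ Finset.range p.natDegree,
      w ^ p.natDegree * eval₂ (algebraMap T E) b (C (p.coeff i) * X ^ i) =
        w * (algebraMap T E (p.coeff i) * w ^ (p.natDegree - 1 - i)) := by
    intro i hi
    have hi' : i < p.natDegree := Finset.mem_range.1 hi
    have hn : p.natDegree = (p.natDegree - 1 - i) + 1 + i := by omega
    rw [eval₂_mul, eval₂_C, eval₂_pow, eval₂_X]
    conv_lhs => rw [hn, pow_add, pow_succ]
    have : w ^ i * b ^ i = 1 := by rw [← mul_pow, hwb, one_pow]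
    calc w ^ (p.natDegree - 1 - i) * w * w ^ i * (algebraMap T E (p.coeff i) * b ^ i)
        = w * (algebraMap T E (p.coeff i) * w ^ (p.natDegree - 1 - i)) * (w ^ i * b ^ i) := by
          ring
      _ = _ := by rw [this, mul_one]
  rw [Finset.sum_congr rfl h2, ← Finset.mul_sum] at h1
  -- `b = b · 1 = − b · w · ∑ = − ∑`
  have h3 : b = -(∑ i ∈ Finset.range p.natDegree,
      algebraMap T E (p.coeff i) * w ^ (p.natDegree - 1 - i)) := by
    have h4 : b * (1 + w * ∑ i ∈ Finset.range p.natDegree,
        algebraMap T E (p.coeff i) * w ^ (p.natDegree - 1 - i)) = 0 := by rw [h1, mul_zero]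
    have h5 : b * w = 1 := by rw [mul_comm]; exact hwb
    have h6 : b * (1 + w * ∑ i ∈ Finset.range p.natDegree,
        algebraMap T E (p.coeff i) * w ^ (p.natDegree - 1 - i)) =
        b + (b * w) * ∑ i ∈ Finset.range p.natDegree,
          algebraMap T E (p.coeff i) * w ^ (p.natDegree - 1 - i) := by ring
    rw [h6, h5, one_mul] at h4
    exact eq_neg_of_add_eq_zero_left h4
  rw [h3]
  refine neg_mem (sum_mem fun i _ => mul_mem (Subalgebra.algebraMap_mem _ _) (pow_mem hw _))

/-- An element of `T` which becomes a unit in an injective integral extension is a unit. -/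
theorem s27hm_isUnit_of_map (hinj : Function.Injective (algebraMap T E))
    [Algebra.IsIntegral T E] (a : T) (ha : IsUnit (algebraMap T E a)) : IsUnit a := by
  obtain ⟨b, hb⟩ := isUnit_iff_exists_inv.1 ha
  have hmem := s27hm_inv_mem (T := T) (algebraMap T E a) b hb (Algebra.IsIntegral.isIntegral b)
  have hbot : Algebra.adjoin T {algebraMap T E a} = ⊥ := by
    refine le_antisymm (Algebra.adjoin_le ?_) bot_le
    rintro x hx
    rw [Set.mem_singleton_iff] at hx
    rw [hx]
    exact Subalgebra.algebraMap_mem _ _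
  rw [hbot, Algebra.mem_bot] at hmem
  obtain ⟨a', ha'⟩ := hmem
  refine isUnit_iff_exists_inv.2 ⟨a', hinj ?_⟩
  rw [map_mul, ha', hb, map_one]

/-- unit + element of the Jacobson radical = unit -/
theorem s27hm_isUnit_add_jac {A : Type*} [CommRing A] (v x : A) (hv : IsUnit v)
    (hx : x ∈ (⊥ : Ideal A).jacobson) : IsUnit (v + x) := by
  obtain ⟨v', hv'⟩ := isUnit_iff_exists_inv.1 hv
  have h1 := Ideal.mem_jacobson_bot.1 hx v'
  have h2 : v + x = v * (x * v' + 1) := by
    calc v + x = v + x * (v * v') := by rw [hv', mul_one]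
      _ = v * (x * v' + 1) := by ring
  rw [h2]
  exact hv.mul h1

/-- Second order Taylor expansion with polynomial remainder. -/
theorem s27hm_taylor2 {A : Type*} [CommRing A] (P : A[X]) (u₀ : A) :
    ∃ R : A[X], P = C (P.eval u₀) + (X - C u₀) * (C (P.derivative.eval u₀) + (X - C u₀) * R) := by
  set P₁ := P /ₘ (X - C u₀) with hP₁
  have h1 : P = C (P.eval u₀) + (X - C u₀) * P₁ := by
    have := modByMonic_add_div P (X - C u₀)
    rw [modByMonic_X_sub_C_eq_C_eval] at this
    exact this.symm
  have h2 : P₁ = C (P₁.eval u₀) + (X - C u₀) * (P₁ /ₘ (X - C u₀)) := by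
    have := modByMonic_add_div P₁ (X - C u₀)
    rw [modByMonic_X_sub_C_eq_C_eval] at this
    exact this.symm
  have h3 : P.derivative.eval u₀ = P₁.eval u₀ := by
    conv_lhs => rw [h1]
    simp [derivative_mul]
  refine ⟨P₁ /ₘ (X - C u₀), ?_⟩
  rw [h3, ← h2]
  exact h1

/-- First order Taylor expansion with polynomial remainder. -/
theorem s27hm_taylor1 {A : Type*} [CommRing A] (P : A[X]) (u₀ : A) :
    ∃ S : A[X], P = C (P.eval u₀) + (X - C u₀) * S := by
  refine ⟨P /ₘ (X - C u₀), ?_⟩
  have := modByMonic_add_div P (X - C u₀)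
  rw [modByMonic_X_sub_C_eq_C_eval] at this
  exact this.symm

/-- **Hensel's lemma in a subring.** -/
theorem s27hm_hensel (hinj : Function.Injective (algebraMap T E)) [Algebra.IsIntegral T E]
    (y : E) (u₀ : T) (P : T[X]) (hP : aeval y P = 0) (hP' : IsUnit (aeval y (derivative P)))
    (hy : y - algebraMap T E u₀ ∈ (⊥ : Ideal E).jacobson) :
    y ∈ (algebraMap T E).range := by
  set z : E := y - algebraMap T E u₀ with hz
  have hyA : y ∈ Algebra.adjoin T {y} := Algebra.subset_adjoin (Set.mem_singleton y)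
  have hzA : z ∈ Algebra.adjoin T {y} := sub_mem hyA (Subalgebra.algebraMap_mem _ _)
  obtain ⟨R, hR⟩ := s27hm_taylor2 P u₀
  obtain ⟨S, hS⟩ := s27hm_taylor1 (derivative P) u₀
  set q₀ : T := P.eval u₀ with hq₀
  set d₀ : T := P.derivative.eval u₀ with hd₀
  set r : E := aeval y R with hr
  set s : E := aeval y S with hs
  have hrA : r ∈ Algebra.adjoin T {y} := by
    rw [hr, Algebra.adjoin_singleton_eq_range_aeval]
    exact ⟨R, rfl⟩
  -- the two expansions at `y`
  have e1 : algebraMap T E q₀ + z * (algebraMap T E d₀ + z * r) = 0 := by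
    have := congrArg (aeval y) hR
    rw [hP] at this
    simp only [map_add, map_mul, map_sub, aeval_C, aeval_X] at this
    exact this.symm
  have e2 : aeval y (derivative P) = algebraMap T E d₀ + z * s := by
    have := congrArg (aeval y) hS
    simpa only [map_add, map_mul, map_sub, aeval_C, aeval_X] using this
  -- the unit
  set w : E := algebraMap T E d₀ + z * r with hw
  have hwA : w ∈ Algebra.adjoin T {y} :=
    add_mem (Subalgebra.algebraMap_mem _ _) (mul_mem hzA hrA)
  have hwu : IsUnit w := by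
    have : w = aeval y (derivative P) + z * (r - s) := by rw [e2, hw]; ring
    rw [this]
    exact s27hm_isUnit_add_jac _ _ hP' (Ideal.mul_mem_right _ _ hy)
  obtain ⟨w', hw'⟩ := isUnit_iff_exists_inv.1 hwu
  have hw'A : w' ∈ Algebra.adjoin T {y} := by
    have h1 := s27hm_inv_mem (T := T) w w' hw' (Algebra.IsIntegral.isIntegral w')
    exact (Algebra.adjoin_le (Set.singleton_subset_iff.2 hwA)) h1
  -- `z = - q₀ w'`
  have hzq : z = algebraMap T E q₀ * (-w') := by
    have h1 : z * w = -algebraMap T E q₀ := by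
      rw [hw]; exact eq_neg_of_add_eq_zero_right e1
    calc z = z * (w * w') := by rw [hw', mul_one]
      _ = (z * w) * w' := by ring
      _ = algebraMap T E q₀ * (-w') := by rw [h1]; ring
  -- `q₀ ∈ Jac(T)`
  have hq₀jac : Ideal.span {q₀} ≤ (⊥ : Ideal T).jacobson := by
    rw [Ideal.span_singleton_le_iff_mem]
    rw [Ideal.mem_jacobson_bot]
    intro a
    apply s27hm_isUnit_of_map hinj
    have h1 : algebraMap T E q₀ ∈ (⊥ : Ideal E).jacobson := by
      have : algebraMap T E q₀ = z * (-w) := by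
        have h1 : z * w = -algebraMap T E q₀ := by
          rw [hw]; exact eq_neg_of_add_eq_zero_right e1
        rw [mul_neg, h1, neg_neg]
      rw [this]
      exact Ideal.mul_mem_right _ _ hy
    have h2 := Ideal.mem_jacobson_bot.1 h1 (algebraMap T E a)
    simpa only [map_add, map_mul, map_one] using h2
  -- Nakayama
  have hFG : (Algebra.adjoin T {y}).toSubmodule.FG :=
    (Algebra.IsIntegral.isIntegral (R := T) y).fg_adjoin_singleton
  have hgen : algebraMap T E u₀ + q₀ • (-w') ∈ (⊥ : Subalgebra T E).toSubmodule ⊔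
        Ideal.span {q₀} • (Algebra.adjoin T {y}).toSubmodule :=
    Submodule.add_mem_sup (Subalgebra.algebraMap_mem _ _)
      (Submodule.smul_mem_smul (Ideal.mem_span_singleton_self q₀)
        (show -w' ∈ (Algebra.adjoin T {y}).toSubmodule from neg_mem hw'A))
  have hyeq : algebraMap T E u₀ + q₀ • (-w') = y := by
    rw [Algebra.smul_def, ← hzq, hz]; ring
  have hNN : (Algebra.adjoin T {y}).toSubmodule ≤
      (⊥ : Subalgebra T E).toSubmodule ⊔
        Ideal.span {q₀} • (Algebra.adjoin T {y}).toSubmodule := by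
    intro x hx
    have hx' : x ∈ Algebra.adjoin T {y} := hx
    refine Algebra.adjoin_induction (p := fun x _ => x ∈ (⊥ : Subalgebra T E).toSubmodule ⊔
        Ideal.span {q₀} • (Algebra.adjoin T {y}).toSubmodule) ?_ ?_ ?_ ?_ hx'
    · -- the generator
      intro x hx
      rw [Set.mem_singleton_iff] at hx
      rw [hx]
      exact hyeq ▸ hgen
    · intro a
      exact Submodule.mem_sup_left (Subalgebra.algebraMap_mem _ _)
    · intro x₁ x₂ _ _ h1 h2
      exact add_mem h1 h2
    · intro x₁ x₂ hx₁ hx₂ h1 h2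
      obtain ⟨a₁, ha₁, m₁, hm₁, rfl⟩ := Submodule.mem_sup.1 h1
      obtain ⟨a₂, ha₂, m₂, hm₂, rfl⟩ := Submodule.mem_sup.1 h2
      have ha₁' : a₁ ∈ (⊥ : Subalgebra T E) := ha₁
      have ha₂' : a₂ ∈ (⊥ : Subalgebra T E) := ha₂
      obtain ⟨c₁, rfl⟩ := Algebra.mem_bot.1 ha₁'
      obtain ⟨c₂, rfl⟩ := Algebra.mem_bot.1 ha₂'
      have hexp : (algebraMap T E c₁ + m₁) * (algebraMap T E c₂ + m₂) =
          algebraMap T E (c₁ * c₂) + (c₁ • m₂ + c₂ • m₁ + m₁ * m₂) := by
        rw [map_mul, Algebra.smul_def, Algebra.smul_def]; ring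
      rw [hexp]
      refine Submodule.add_mem_sup (Subalgebra.algebraMap_mem _ _) ?_
      refine add_mem (add_mem (Submodule.smul_mem _ _ hm₂) (Submodule.smul_mem _ _ hm₁)) ?_
      -- `m₁ * m₂ ∈ I • T'`
      have hm₂A : m₂ ∈ Algebra.adjoin T {y} := by
        have : algebraMap T E c₂ + m₂ ∈ Algebra.adjoin T {y} := hx₂
        have h3 := sub_mem this (Subalgebra.algebraMap_mem (Algebra.adjoin T {y}) c₂)
        simpa using h3
      refine Submodule.smul_induction_on hm₁ ?_ ?_
      · intro c hc n hn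
        rw [Algebra.smul_mul_assoc]
        exact Submodule.smul_mem_smul hc
          (show n * m₂ ∈ (Algebra.adjoin T {y}).toSubmodule from
            Subalgebra.mul_mem _ (show n ∈ Algebra.adjoin T {y} from hn) hm₂A)
      · intro n₁ n₂ h1 h2
        rw [add_mul]
        exact add_mem h1 h2
  have hle := Submodule.le_of_le_smul_of_le_jacobson_bot hFG hq₀jac hNN
  have hy' : y ∈ (⊥ : Subalgebra T E) := hle hyA
  obtain ⟨c, hc⟩ := Algebra.mem_bot.1 hy'
  exact ⟨c, hc⟩

end Fermat.Agent.S27
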