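/-
S27 route B (item 27), leaf HERMITE, part 2 (helper13): THE DESCENT.

`𝒪 = O` a ring with an element `t` (a non-zero-divisor) such that `O = ι(A) + t O` for a coefficient
ring `A` (in the application `A = K[X]`, `ι = aeval t`, `O` = the local ring of the curve at the
centre, `t` a uniformiser), `J : O → E` a ring homomorphism (the jets at a cluster of points over a
valuation ring), `T ⊆ E` an integral subring containing `J(ι A)` (the image of the polynomials),
`J(t) ∈ Jac(E)`.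

`s27hm_descent` : if `f ∈ O` is a root of `M ∈ A[Y]` with `M'(f) = t^e · unit`, then `J f ∈ T`.
`s27hm_descent_poly` : the case `A = K[X]`, `K` a field, `t` not a unit.

Proof: induction on `e`.  `e = 0` is Hensel's lemma in a subring (`s27hm_hensel`).  For `e + 1`:
`f = ι c + t f₁`, `M(c + τ Y) = τ² M₁(Y)` with `M₁ ∈ A[Y]`, `M₁(f₁) = 0`, `M₁'(f₁) = t^e · unit`.
-/
import Fermat.Agent.S27.Hermite

set_option autoImplicit false

namespace Fermat.Agent.S27

open Polynomial

section descent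

variable {A O T E : Type*} [CommRing A] [CommRing O] [CommRing T] [CommRing E] [Algebra T E]

/-- The descent step. -/
theorem s27hm_step (ι : A →+* O) (τ : A)
    (hnzd : ∀ x : O, ι τ * x = 0 → x = 0)
    (hA1 : ∀ a : A, (∃ h : O, ι a = ι τ * h) → ∃ a' : A, a = τ * a')
    (M : A[X]) (c : A) (f₁ : O) (e : ℕ) (υ : O)
    (hM : M.eval₂ ι (ι c + ι τ * f₁) = 0)
    (hM' : (derivative M).eval₂ ι (ι c + ι τ * f₁) = ι τ ^ (e + 1) * υ) :
    ∃ M₁ : A[X], M₁.eval₂ ι f₁ = 0 ∧ (derivative M₁).eval₂ ι f₁ = ι τ ^ e * υ := by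
  obtain ⟨R, hR⟩ := s27hm_taylor2 M c
  obtain ⟨S, hS⟩ := s27hm_taylor1 (derivative M) c
  set t : O := ι τ with ht
  set f : O := ι c + t * f₁ with hf
  -- expansions at `f`
  have e1 : ι (M.eval c) + t * f₁ * (ι ((derivative M).eval c) + t * f₁ * R.eval₂ ι f) = 0 := by
    have := congrArg (eval₂ ι f) hR
    rw [hM] at this
    simp only [eval₂_add, eval₂_mul, eval₂_sub, eval₂_C, eval₂_X] at this
    rw [this]
    simp [hf]
  have e2 : ι τ ^ (e + 1) * υ = ι ((derivative M).eval c) + t * f₁ * S.eval₂ ι f := by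
    have := congrArg (eval₂ ι f) hS
    rw [hM'] at this
    simp only [eval₂_add, eval₂_mul, eval₂_sub, eval₂_C, eval₂_X] at this
    rw [this]
    simp [hf]
  -- `M'(c) = τ a'`
  obtain ⟨a', ha'⟩ := hA1 ((derivative M).eval c) ⟨t ^ e * υ - f₁ * S.eval₂ ι f, by
    have : ι ((derivative M).eval c) = ι τ ^ (e + 1) * υ - t * f₁ * S.eval₂ ι f := by
      rw [e2]; ring
    rw [this, ← ht]; ring⟩
  -- `M(c) = τ b`, `b = τ a''`
  have e3 : ι (M.eval c) = t * (t * (-(f₁ * (ι a' + f₁ * R.eval₂ ι f)))) := by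
    have h1 : ι (M.eval c) = -(t * f₁ * (ι ((derivative M).eval c) + t * f₁ * R.eval₂ ι f)) :=
      eq_neg_of_add_eq_zero_left e1
    rw [h1, ha', map_mul, ← ht]; ring
  obtain ⟨b, hb⟩ := hA1 (M.eval c) ⟨_, e3⟩
  have e4 : ι b = t * (-(f₁ * (ι a' + f₁ * R.eval₂ ι f))) := by
    have h1 : t * (ι b - t * (-(f₁ * (ι a' + f₁ * R.eval₂ ι f)))) = 0 := by
      have := e3
      rw [hb, map_mul, ← ht] at this
      rw [mul_sub, this, sub_self]
    exact sub_eq_zero.1 (hnzd _ h1)
  obtain ⟨a'', ha''⟩ := hA1 b ⟨_, e4⟩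
  -- the new polynomial
  set q : A[X] := C c + C τ * X with hq
  set M₁ : A[X] := C a'' + X * (C a' + X * R.comp q) with hM₁
  have hG : M.comp q = C (τ ^ 2) * M₁ := by
    conv_lhs => rw [hR]
    simp only [add_comp, mul_comp, sub_comp, C_comp, X_comp]
    rw [hb, ha'', ha', hM₁, hq]
    simp only [map_mul, map_pow]
    ring
  have hqf : q.eval₂ ι f₁ = f := by
    simp [hq, hf, ht]
  refine ⟨M₁, ?_, ?_⟩
  · have h1 := congrArg (eval₂ ι f₁) hG
    rw [eval₂_comp, hqf, hM, eval₂_mul, eval₂_C, map_pow, ← ht, pow_two, mul_assoc] at h1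
    exact hnzd _ (hnzd _ h1.symm)
  · have hd : derivative (M.comp q) = C τ * (derivative M).comp q := by
      rw [derivative_comp, hq]
      simp
    have hd2 : derivative (C (τ ^ 2) * M₁) = C (τ ^ 2) * derivative M₁ := by
      rw [derivative_C_mul]
    have hd3 : C τ * (derivative M).comp q = C (τ ^ 2) * derivative M₁ := by
      rw [← hd, hG, hd2]
    have h1 := congrArg (eval₂ ι f₁) hd3
    rw [eval₂_mul, eval₂_C, eval₂_comp, hqf, hM', eval₂_mul, eval₂_C, map_pow, ← ht] at h1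
    -- `t * (t^(e+1) υ) = t^2 * M₁'(f₁)`
    have h2 : t * (t * (t ^ e * υ - eval₂ ι f₁ (derivative M₁))) = 0 := by
      have : t * (t ^ (e + 1) * υ) = t ^ 2 * eval₂ ι f₁ (derivative M₁) := h1
      have h3 : t * (t * (t ^ e * υ - eval₂ ι f₁ (derivative M₁))) =
          t * (t ^ (e + 1) * υ) - t ^ 2 * eval₂ ι f₁ (derivative M₁) := by ring
      rw [h3, this, sub_self]
    exact (sub_eq_zero.1 (hnzd _ (hnzd _ h2))).symm

/-- **The descent**: roots of polynomials over `A` with `M'(f) = t^e · unit` have their jets in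
`T`. -/
theorem s27hm_descent (hinj : Function.Injective (algebraMap T E)) [Algebra.IsIntegral T E]
    (ι : A →+* O) (J : O →+* E) (j : A →+* T)
    (hcomm : ∀ a, J (ι a) = algebraMap T E (j a)) (τ : A)
    (hnzd : ∀ x : O, ι τ * x = 0 → x = 0)
    (hA1 : ∀ a : A, (∃ h : O, ι a = ι τ * h) → ∃ a' : A, a = τ * a')
    (hA2 : ∀ f : O, ∃ c : A, ∃ f₁ : O, f = ι c + ι τ * f₁)
    (hJt : J (ι τ) ∈ (⊥ : Ideal E).jacobson) :
    ∀ (e : ℕ) (f : O) (M : A[X]) (υ : O), IsUnit υ → M.eval₂ ι f = 0 →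
      (derivative M).eval₂ ι f = ι τ ^ e * υ → J f ∈ (algebraMap T E).range := by
  have hcomp : (algebraMap T E).comp j = J.comp ι := RingHom.ext fun a => (hcomm a).symm
  intro e
  induction e with
  | zero =>
    intro f M υ hυ hM hM'
    obtain ⟨c, f₁, hf⟩ := hA2 f
    refine s27hm_hensel hinj (J f) (j c) (M.map j) ?_ ?_ ?_
    · rw [aeval_def, eval₂_map, hcomp, ← hom_eval₂, hM, map_zero]
    · rw [derivative_map, aeval_def, eval₂_map, hcomp, ← hom_eval₂, hM', pow_zero, one_mul]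
      exact hυ.map J
    · rw [← hcomm, ← map_sub, hf, add_sub_cancel_left, map_mul]
      exact Ideal.mul_mem_right _ _ hJt
  | succ e ih =>
    intro f M υ hυ hM hM'
    obtain ⟨c, f₁, hf⟩ := hA2 f
    rw [hf] at hM hM'
    obtain ⟨M₁, h1, h2⟩ := s27hm_step ι τ hnzd hA1 M c f₁ e υ hM hM'
    obtain ⟨x, hx⟩ := ih f₁ M₁ υ hυ h1 h2
    refine ⟨j c + j τ * x, ?_⟩
    rw [hf, map_add, map_mul, map_add, map_mul, hx, hcomm, hcomm]

end descent

section poly

variable {K O T E : Type*} [Field K] [CommRing O] [Algebra K O] [CommRing T] [CommRing E]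
  [Algebra T E] [Algebra K T] [Algebra K E] [IsScalarTower K T E]

/-- **The descent over `K[t]`**, `K` a field. -/
theorem s27hm_descent_poly (hinj : Function.Injective (algebraMap T E)) [Algebra.IsIntegral T E]
    (J : O →ₐ[K] E) (t : O) (τT : T) (hτ : algebraMap T E τT = J t)
    (hnzd : ∀ x : O, t * x = 0 → x = 0) (hnu : ¬ IsUnit t)
    (hres : ∀ f : O, ∃ c : K, ∃ f₁ : O, f = algebraMap K O c + t * f₁)
    (hJt : J t ∈ (⊥ : Ideal E).jacobson)
    (e : ℕ) (f : O) (M : K[X][X]) (υ : O) (hυ : IsUnit υ)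
    (hM : M.eval₂ ((aeval t : K[X] →ₐ[K] O) : K[X] →+* O) f = 0)
    (hM' : (derivative M).eval₂ ((aeval t : K[X] →ₐ[K] O) : K[X] →+* O) f = t ^ e * υ) :
    J f ∈ (algebraMap T E).range := by
  have hιX : ((aeval t : K[X] →ₐ[K] O) : K[X] →+* O) X = t := by simp
  refine s27hm_descent hinj ((aeval t : K[X] →ₐ[K] O) : K[X] →+* O) (J : O →+* E)
    ((aeval τT : K[X] →ₐ[K] T) : K[X] →+* T) ?_ X ?_ ?_ ?_ ?_ e f M υ hυ hM ?_
  · -- compatibility
    intro a
    have h1 : (J.comp (aeval t : K[X] →ₐ[K] O)) =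
        (IsScalarTower.toAlgHom K T E).comp (aeval τT : K[X] →ₐ[K] T) := by
      apply Polynomial.algHom_ext
      simp [hτ]
    exact congrArg (fun φ : K[X] →ₐ[K] E => φ a) h1
  · rw [hιX]; exact hnzd
  · -- `K[X] ∩ t O = X K[X]`
    rintro a ⟨h, hh⟩
    rw [hιX] at hh
    have ha := (X_mul_divX_add a).symm
    have h0 : a.coeff 0 = 0 := by
      by_contra hne
      apply hnu
      have h1 : algebraMap K O (a.coeff 0) = t * (h - aeval t (divX a)) := by
        have h2 : ((aeval t : K[X] →ₐ[K] O) : K[X] →+* O) a =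
            t * aeval t (divX a) + algebraMap K O (a.coeff 0) := by
          have h3 : (aeval t : K[X] →ₐ[K] O) (X * divX a + C (a.coeff 0)) =
              t * aeval t (divX a) + algebraMap K O (a.coeff 0) := by
            simp only [map_add, map_mul, aeval_X, aeval_C]
          rw [X_mul_divX_add] at h3
          exact h3
        rw [mul_sub, ← hh, h2]; ring
      refine isUnit_iff_exists_inv.2 ⟨(h - aeval t (divX a)) * algebraMap K O (a.coeff 0)⁻¹, ?_⟩
      rw [← mul_assoc, ← h1, ← map_mul, mul_inv_cancel₀ hne, map_one]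
    refine ⟨divX a, ?_⟩
    rw [h0, map_zero, add_zero] at ha
    exact ha
  · intro f
    obtain ⟨c, f₁, hf⟩ := hres f
    refine ⟨C c, f₁, ?_⟩
    rw [hιX, hf]
    simp
  · rw [hιX]; exact hJt
  · rw [hιX]; exact hM'

end poly

end Fermat.Agent.S27
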