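/-
S27 route B (item 27), leaf HERMITE, part 3 (helper13): JET-LATTICE, model-free.

`O` a `K`-algebra with uniformiser `π` (`O = K + π O`, `π` a non-zero-divisor, not a unit),
`V` a commutative `K`-algebra (a valuation ring of any rank), `E_i` finite `V`-algebras (`N`-jets at
the `i`-th point, e.g. `V[ε]/(ε^N)`), `ε_i ∈ E_i` nilpotent, `T_i : O →ₐ[K] E_i` with
`T_i π = z_i + ε_i`, `z_i ∈ Jac(V)` (all points specialise to the centre `π = 0`).

`s27hm_jet_lattice` : if `f ∈ O` is a root of `M ∈ K[π][Y]` with `M'(f) = π^e · unit`, then there is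
ONE polynomial `p ∈ V[X]` with `T_i f = p(z_i + ε_i)` for all `i`.
-/
import Fermat.Agent.S27.HermiteDesc

set_option autoImplicit false

namespace Fermat.Agent.S27

open Polynomial

/-- The image of the Jacobson radical under an integral ring extension lies in the Jacobson
radical. -/
theorem s27hm_map_mem_jacobson {V E : Type*} [CommRing V] [CommRing E] [Algebra V E]
    [Algebra.IsIntegral V E] (z : V) (hz : z ∈ (⊥ : Ideal V).jacobson) :
    algebraMap V E z ∈ (⊥ : Ideal E).jacobson := by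
  rw [Ideal.jacobson, Ideal.mem_sInf]
  rintro 𝔐 ⟨-, h𝔐⟩
  have := h𝔐
  have hmax : (𝔐.comap (algebraMap V E)).IsMaximal :=
    Ideal.isMaximal_comap_of_isIntegral_of_isMaximal 𝔐
  have : z ∈ 𝔐.comap (algebraMap V E) := by
    rw [Ideal.jacobson, Ideal.mem_sInf] at hz
    exact hz ⟨bot_le, hmax⟩
  exact this

/-- Nilpotent elements lie in the Jacobson radical. -/
theorem s27hm_nilpotent_mem_jacobson {E : Type*} [CommRing E] (x : E) (hx : IsNilpotent x) :
    x ∈ (⊥ : Ideal E).jacobson := by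
  rw [Ideal.jacobson, Ideal.mem_sInf]
  rintro 𝔐 ⟨-, h𝔐⟩
  obtain ⟨n, hn⟩ := hx
  have : x ^ n ∈ 𝔐 := by rw [hn]; exact 𝔐.zero_mem
  exact h𝔐.isPrime.mem_of_pow_mem n this

/-- Membership in the Jacobson radical of a product is componentwise. -/
theorem s27hm_pi_mem_jacobson {ι : Type*} (Ej : ι → Type*) [∀ i, CommRing (Ej i)]
    (x : ∀ i, Ej i) (hx : ∀ i, x i ∈ (⊥ : Ideal (Ej i)).jacobson) :
    x ∈ (⊥ : Ideal (∀ i, Ej i)).jacobson := by
  rw [Ideal.mem_jacobson_bot]
  intro y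
  rw [Pi.isUnit_iff]
  intro i
  exact Ideal.mem_jacobson_bot.1 (hx i) (y i)

section lattice

variable {K O V : Type*} [Field K] [CommRing O] [Algebra K O] [CommRing V] [Algebra K V]
variable {r : ℕ} (Ej : Fin r → Type*) [∀ i, CommRing (Ej i)] [∀ i, Algebra V (Ej i)]
  [∀ i, Algebra K (Ej i)] [∀ i, IsScalarTower K V (Ej i)] [∀ i, Module.Finite V (Ej i)]

/-- **JET-LATTICE.** -/
theorem s27hm_jet_lattice (Tj : ∀ i, O →ₐ[K] Ej i) (π : O) (z : Fin r → V) (ε : ∀ i, Ej i)
    (hz : ∀ i, z i ∈ (⊥ : Ideal V).jacobson) (hε : ∀ i, IsNilpotent (ε i))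
    (hT : ∀ i, Tj i π = algebraMap V (Ej i) (z i) + ε i)
    (hnzd : ∀ x : O, π * x = 0 → x = 0) (hnu : ¬ IsUnit π)
    (hres : ∀ f : O, ∃ c : K, ∃ f₁ : O, f = algebraMap K O c + π * f₁)
    (e : ℕ) (f : O) (M : K[X][X]) (υ : O) (hυ : IsUnit υ)
    (hM : M.eval₂ ((aeval π : K[X] →ₐ[K] O) : K[X] →+* O) f = 0)
    (hM' : (derivative M).eval₂ ((aeval π : K[X] →ₐ[K] O) : K[X] →+* O) f = π ^ e * υ) :
    ∃ p : V[X], ∀ i, Tj i f = aeval (algebraMap V (Ej i) (z i) + ε i) p := by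
  classical
  -- the big ring and the subring
  let τ : ∀ i, Ej i := fun i => algebraMap V (Ej i) (z i) + ε i
  let J : O →ₐ[K] (∀ i, Ej i) := AlgHom.pi Tj
  let T : Subalgebra V (∀ i, Ej i) := Algebra.adjoin V {τ}
  have hτT : τ ∈ T := Algebra.subset_adjoin (Set.mem_singleton τ)
  have : Algebra.IsIntegral V (∀ i, Ej i) := Algebra.IsIntegral.of_finite V _
  have : Algebra.IsIntegral T (∀ i, Ej i) := Algebra.IsIntegral.tower_top (R := V)
  have hJπ : J π = τ := by
    funext i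
    exact hT i
  have hjac : J π ∈ (⊥ : Ideal (∀ i, Ej i)).jacobson := by
    rw [hJπ]
    refine s27hm_pi_mem_jacobson Ej τ fun i => ?_
    have : Algebra.IsIntegral V (Ej i) := Algebra.IsIntegral.of_finite V _
    exact Ideal.add_mem _ (s27hm_map_mem_jacobson (z i) (hz i))
      (s27hm_nilpotent_mem_jacobson _ (hε i))
  have key := s27hm_descent_poly (K := K) (O := O) (T := T) (E := ∀ i, Ej i)
    Subtype.val_injective J π ⟨τ, hτT⟩ hJπ.symm hnzd hnu hres hjac e f M υ hυ hM hM'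
  obtain ⟨x, hx⟩ := key
  have hxT : (x : ∀ i, Ej i) ∈ Algebra.adjoin V {τ} := x.2
  rw [Algebra.adjoin_singleton_eq_range_aeval] at hxT
  obtain ⟨p, hp⟩ := hxT
  refine ⟨p, fun i => ?_⟩
  have h1 : J f = aeval τ p := by
    rw [← hx]
    exact hp.symm
  have h2 := congrFun h1 i
  rw [show J f i = Tj i f from rfl] at h2
  rw [h2]
  exact (aeval_algHom_apply (Pi.evalAlgHom V Ej i) τ p).symm

end lattice

end Fermat.Agent.S27
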