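/-
S27 route B (item 27), leaf HERMITE, part 4 (helper13): JET-LATTICE for a discrete valuation ring.

* `s27hm_exists_simple` : in characteristic `0`, an element which is a root of a nonzero polynomial
  is a SIMPLE root of some polynomial (minimal degree).
* `s27hm_jet_lattice_dvr` : `O` a DVR containing the field `K` (`char 0`) with uniformiser `π`,
  `O = K + π O`, `π` transcendental over `K`; `f ∈ O` algebraic over `K[π]` (a nonzero
  `G ∈ K[X][X]` with `G(π, f) = 0`).  Then for every jet datum (`V`, `E_i`, `T_i`, `z_i ∈ Jac V`,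
  `ε_i` nilpotent, `T_i π = z_i + ε_i`) there is ONE polynomial `p ∈ V[X]` with
  `T_i f = p(z_i + ε_i)` for all `i`.
-/
import Fermat.Agent.S27.HermiteJet

set_option autoImplicit false

namespace Fermat.Agent.S27

open Polynomial

/-- A root of a nonzero polynomial is a simple root of a polynomial (characteristic `0`). -/
theorem s27hm_exists_simple {A O : Type*} [CommRing A] [IsDomain A] [CharZero A]
    [CommRing O] (ι : A →+* O) (hι : Function.Injective ι) (f : O)
    (G : A[X]) (hG0 : G ≠ 0) (hG : G.eval₂ ι f = 0) :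
    ∃ M : A[X], M.eval₂ ι f = 0 ∧ (derivative M).eval₂ ι f ≠ 0 := by
  classical
  have hex : ∃ n : ℕ, ∃ G : A[X], G ≠ 0 ∧ G.natDegree = n ∧ G.eval₂ ι f = 0 :=
    ⟨G.natDegree, G, hG0, rfl, hG⟩
  obtain ⟨M, hM0, hMn, hM⟩ := Nat.find_spec hex
  refine ⟨M, hM, fun hd => ?_⟩
  have hn : M.natDegree ≠ 0 := by
    intro h0
    obtain ⟨a, ha⟩ := natDegree_eq_zero.1 h0
    rw [← ha, eval₂_C] at hM
    have : a = 0 := hι (by rw [hM, map_zero])
    rw [this, map_zero] at ha
    exact hM0 ha.symm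
  have hd0 : derivative M ≠ 0 := by
    intro h
    exact hn (Polynomial.derivative_eq_zero.1 h)
  have hlt : (derivative M).natDegree < Nat.find hex := by
    rw [← hMn]
    exact natDegree_derivative_lt hn
  exact Nat.find_min hex hlt ⟨derivative M, hd0, rfl, hd⟩

section dvr

variable {K O V : Type*} [Field K] [CharZero K] [CommRing O] [IsDomain O]
  [IsDiscreteValuationRing O] [Algebra K O] [CommRing V] [Algebra K V]
variable {r : ℕ} (Ej : Fin r → Type*) [∀ i, CommRing (Ej i)] [∀ i, Algebra V (Ej i)]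
  [∀ i, Algebra K (Ej i)] [∀ i, IsScalarTower K V (Ej i)] [∀ i, Module.Finite V (Ej i)]

/-- **JET-LATTICE for a DVR.** -/
theorem s27hm_jet_lattice_dvr (Tj : ∀ i, O →ₐ[K] Ej i) (π : O) (hπ : Irreducible π)
    (htr : Transcendental K π)
    (hres : ∀ f : O, ∃ c : K, ∃ f₁ : O, f = algebraMap K O c + π * f₁)
    (z : Fin r → V) (ε : ∀ i, Ej i)
    (hz : ∀ i, z i ∈ (⊥ : Ideal V).jacobson) (hε : ∀ i, IsNilpotent (ε i))
    (hT : ∀ i, Tj i π = algebraMap V (Ej i) (z i) + ε i)
    (f : O) (G : K[X][X]) (hG0 : G ≠ 0)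
    (hG : G.eval₂ ((aeval π : K[X] →ₐ[K] O) : K[X] →+* O) f = 0) :
    ∃ p : V[X], ∀ i, Tj i f = aeval (algebraMap V (Ej i) (z i) + ε i) p := by
  have hinj : Function.Injective ((aeval π : K[X] →ₐ[K] O) : K[X] →+* O) :=
    transcendental_iff_injective.1 htr
  obtain ⟨M, hM, hM'⟩ := s27hm_exists_simple _ hinj f G hG0 hG
  obtain ⟨e, u, hu⟩ := IsDiscreteValuationRing.eq_unit_mul_pow_irreducible hM' hπ
  refine s27hm_jet_lattice Ej Tj π z ε hz hε hT (fun x hx => ?_) hπ.not_isUnit hres e f M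
    (u : O) u.isUnit hM (by rw [hu]; ring)
  rcases mul_eq_zero.1 hx with h | h
  · exact absurd h hπ.ne_zero
  · exact h

end dvr

end Fermat.Agent.S27
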