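/-
S27 route B (item 27), leaf HERMITE, part 5 (helper13): THE INDEX FORMULA (IDX) for jet
determinants over a valuation ring of arbitrary rank.

Jet datum: `V` a commutative ring, `E_i` `V`-algebras (`i < r`), `ε_i ∈ E_i`, coordinates
`χ i k : E_i →ₗ[V] V` (`k < N`) with `χ i k (ε_i ^ m) = δ_{km}`, nodes `z_i ∈ V`.

* `s27hm_coord_aeval` : `χ i k (p(z_i + ε_i)) = (hasseDeriv k p)(z_i)` for `p ∈ V[X]`.
* `s27hm_det_of_poly` : if the jets of `f_l` (`l < rN`) are polynomial jets (`T_i f_l = p_l(z_i + ε_i)`),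
  then `Δ ∣ det [χ i k (T_i f_l)]`, `Δ = ∏_{i' < i} (z_i - z_{i'})^(N²)`.
* `s27hm_det_dvr` : the same for arbitrary algebraic elements `f_l` of a DVR `O ⊇ K`
  (via `s27hm_jet_lattice_dvr`): EFF / integrality of `W / Δ`.
* `s27hm_det_monomial` : for `f_l = π^l` the determinant IS `Δ` (so `Δ` is the minimal minor).
-/
import Fermat.Agent.S27.HermiteDVR
import Fermat.Agent.S27.ConfVdmDiv

set_option autoImplicit false

namespace Fermat.Agent.S27

open Polynomial Matrix Finset

section coord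

variable {V : Type*} [CommRing V] {Ei : Type*} [CommRing Ei] [Algebra V Ei]

/-- Coordinates of a polynomial jet are Hasse derivatives at the node. -/
theorem s27hm_coord_aeval (ε : Ei) (χ : Ei →ₗ[V] V) (k : ℕ)
    (hχ : ∀ m : ℕ, χ (ε ^ m) = if m = k then 1 else 0) (z : V) (p : V[X]) :
    χ (aeval (algebraMap V Ei z + ε) p) = (hasseDeriv k p).eval z := by
  have h1 : aeval (algebraMap V Ei z + ε) p = aeval ε (taylor z p) := by
    rw [taylor_apply, aeval_comp]
    simp [add_comm]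
  rw [h1, aeval_eq_sum_range, map_sum]
  simp only [map_smul, hχ, smul_eq_mul, mul_ite, mul_one, mul_zero]
  rw [Finset.sum_ite_eq' (Finset.range ((taylor z p).natDegree + 1)) k
    (fun m => (taylor z p).coeff m)]
  split_ifs with hk
  · exact taylor_coeff z p k
  · rw [← taylor_coeff]
    rw [Finset.mem_range, not_lt] at hk
    exact (coeff_eq_zero_of_natDegree_lt (by omega)).symm

end coord

section det

variable {O V : Type*} [CommRing O] [CommRing V]
variable {r N : ℕ} (Ej : Fin r → Type*) [∀ i, CommRing (Ej i)] [∀ i, Algebra V (Ej i)]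

/-- The confluent Vandermonde product of the nodes. -/
def s27hmDelta (N : ℕ) (z : Fin r → V) : V :=
  ∏ i : Fin r, ∏ i' ∈ Finset.Iio i, (z i - z i') ^ (N * N)

/-- The jet matrix in coordinates. -/
def s27hmJetMat (Tj : ∀ i, O → Ej i) (χ : ∀ i, Fin N → (Ej i →ₗ[V] V))
    (f : Fin (r * N) → O) : Matrix (Fin (r * N)) (Fin (r * N)) V :=
  (Matrix.of fun (q : Fin r × Fin N) (l : Fin (r * N)) => χ q.1 q.2 (Tj q.1 (f l))).submatrix
    finProdFinEquiv.symm id

omit [CommRing O] in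
/-- **Integrality for polynomial jets.** -/
theorem s27hm_det_of_poly (Tj : ∀ i, O → Ej i) (z : Fin r → V) (ε : ∀ i, Ej i)
    (χ : ∀ i, Fin N → (Ej i →ₗ[V] V))
    (hχ : ∀ i (k : Fin N) (m : ℕ), χ i k (ε i ^ m) = if m = (k : ℕ) then 1 else 0)
    (f : Fin (r * N) → O) (p : Fin (r * N) → V[X])
    (hp : ∀ l i, Tj i (f l) = aeval (algebraMap V (Ej i) (z i) + ε i) (p l)) :
    s27hmJetMat Ej Tj χ f =
        (s27cvJet z p : Matrix (Fin r × Fin N) (Fin (r * N)) V).submatrix
          finProdFinEquiv.symm id ∧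
      s27hmDelta N z ∣ (s27hmJetMat Ej Tj χ f).det := by
  have h1 : s27hmJetMat Ej Tj χ f =
      (s27cvJet z p : Matrix (Fin r × Fin N) (Fin (r * N)) V).submatrix
        finProdFinEquiv.symm id := by
    ext a l
    simp only [s27hmJetMat, s27cvJet, Matrix.submatrix_apply, Matrix.of_apply, id]
    rw [hp]
    exact s27hm_coord_aeval (ε _) (χ _ _) _ (hχ _ _) (z _) (p l)
  refine ⟨h1, ?_⟩
  rw [h1]
  exact s27cvd_dvd r N z p

end det

section dvr

variable {K O V : Type*} [Field K] [CharZero K] [CommRing O] [IsDomain O]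
  [IsDiscreteValuationRing O] [Algebra K O] [CommRing V] [Algebra K V]
variable {r N : ℕ} (Ej : Fin r → Type*) [∀ i, CommRing (Ej i)] [∀ i, Algebra V (Ej i)]
  [∀ i, Algebra K (Ej i)] [∀ i, IsScalarTower K V (Ej i)] [∀ i, Module.Finite V (Ej i)]

/-- **EFF**: the jet determinant of ANY `rN` algebraic elements of the DVR `O` at `r` points
specialising to the centre is divisible by the confluent Vandermonde product, over any `V`. -/
theorem s27hm_det_dvr (Tj : ∀ i, O →ₐ[K] Ej i) (π : O) (hπ : Irreducible π)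
    (htr : Transcendental K π)
    (hres : ∀ f : O, ∃ c : K, ∃ f₁ : O, f = algebraMap K O c + π * f₁)
    (z : Fin r → V) (ε : ∀ i, Ej i)
    (hz : ∀ i, z i ∈ (⊥ : Ideal V).jacobson) (hε : ∀ i, IsNilpotent (ε i))
    (hT : ∀ i, Tj i π = algebraMap V (Ej i) (z i) + ε i)
    (χ : ∀ i, Fin N → (Ej i →ₗ[V] V))
    (hχ : ∀ i (k : Fin N) (m : ℕ), χ i k (ε i ^ m) = if m = (k : ℕ) then 1 else 0)
    (f : Fin (r * N) → O)
    (hf : ∀ l, ∃ G : K[X][X], G ≠ 0 ∧
      G.eval₂ ((aeval π : K[X] →ₐ[K] O) : K[X] →+* O) (f l) = 0) :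
    s27hmDelta N z ∣ (s27hmJetMat Ej (fun i => (Tj i : O → Ej i)) χ f).det := by
  have hex : ∀ l, ∃ p : V[X], ∀ i, Tj i (f l) = aeval (algebraMap V (Ej i) (z i) + ε i) p := by
    intro l
    obtain ⟨G, hG0, hG⟩ := hf l
    exact s27hm_jet_lattice_dvr Ej Tj π hπ htr hres z ε hz hε hT (f l) G hG0 hG
  choose p hp using hex
  exact (s27hm_det_of_poly Ej (fun i => (Tj i : O → Ej i)) z ε χ hχ f p hp).2

end dvr

section monomial

variable {O V : Type*} [CommRing O] [CommRing V]
variable {r N : ℕ} (Ej : Fin r → Type*) [∀ i, CommRing (Ej i)] [∀ i, Algebra V (Ej i)]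

/-- For the monomials `1, π, …, π^(rN-1)` the jet determinant IS the confluent Vandermonde
product. -/
theorem s27hm_det_monomial (Tj : ∀ i, O →+* Ej i) (π : O) (z : Fin r → V) (ε : ∀ i, Ej i)
    (hT : ∀ i, Tj i π = algebraMap V (Ej i) (z i) + ε i)
    (χ : ∀ i, Fin N → (Ej i →ₗ[V] V))
    (hχ : ∀ i (k : Fin N) (m : ℕ), χ i k (ε i ^ m) = if m = (k : ℕ) then 1 else 0) :
    (s27hmJetMat Ej (fun i => (Tj i : O → Ej i)) χ
      (fun l : Fin (r * N) => π ^ (l : ℕ))).det = s27hmDelta N z := by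
  nontriviality V
  have h := (s27hm_det_of_poly Ej (fun i => (Tj i : O → Ej i)) z ε χ hχ
    (fun l : Fin (r * N) => π ^ (l : ℕ)) (fun l => (X : V[X]) ^ (l : ℕ)) (fun l i => by
      simp [hT])).1
  rw [h]
  exact s27cv_det_jet_monic r N z _ (fun l => natDegree_X_pow _) (fun l => monic_X_pow _)

end monomial

end Fermat.Agent.S27
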