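/-
S27 route B (item 27), leaf HERMITE, part 6 (helper13): SEVERAL CLUSTERS (CRT).

Points `i < r` over a commutative ring `W` (valuation ring), nodes `z_i`, jets `ε_i` with
`ε_i ^ N = 0`, grouped into clusters `c : Fin r → Γ` (= the centres); nodes of DIFFERENT clusters
differ by a unit of `W`.  If on every cluster the jets `y_i` are the jets of a polynomial
(`y_i = p_γ(z_i + ε_i)` for `c i = γ`: this is `s27hm_jet_lattice_dvr` at the centre `γ`), then
ONE polynomial `p ∈ W[X]` works for all points (`s27hm_crt`), hence the full confluent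
Vandermonde product (over ALL pairs, the cross-cluster factors being units) divides the jet
determinant (`s27hm_crt_dvd`).
-/
import Fermat.Agent.S27.HermiteDet

set_option autoImplicit false

namespace Fermat.Agent.S27

open Polynomial Finset

section crt

variable {W : Type*} [CommRing W] {r : ℕ} (Ej : Fin r → Type*) [∀ i, CommRing (Ej i)]
  [∀ i, Algebra W (Ej i)]

/-- **Gluing the clusters.** -/
theorem s27hm_crt (z : Fin r → W) (ε : ∀ i, Ej i) (N : ℕ) (hε : ∀ i, ε i ^ N = 0)
    {Γ : Type*} [Finite Γ] (c : Fin r → Γ)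
    (hunit : ∀ i j, c i ≠ c j → IsUnit (z i - z j)) (y : ∀ i, Ej i)
    (hloc : ∀ γ : Γ, ∃ p : W[X], ∀ i, c i = γ →
      y i = aeval (algebraMap W (Ej i) (z i) + ε i) p) :
    ∃ p : W[X], ∀ i, y i = aeval (algebraMap W (Ej i) (z i) + ε i) p := by
  classical
  choose pγ hpγ using hloc
  -- the moduli
  let B : Γ → W[X] := fun γ => ∏ i ∈ Finset.univ.filter (fun i => c i = γ), (X - C (z i)) ^ N
  have hcop : Pairwise (Function.onFun IsCoprime fun γ => Ideal.span {B γ}) := by
    intro γ γ' hne
    show IsCoprime (Ideal.span {B γ}) (Ideal.span {B γ'})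
    rw [Ideal.isCoprime_span_singleton_iff]
    refine IsCoprime.prod_left fun i hi => IsCoprime.prod_right fun j hj => ?_
    rw [Finset.mem_filter] at hi hj
    refine IsCoprime.pow (isCoprime_X_sub_C_of_isUnit_sub (hunit i j ?_))
    rw [hi.2, hj.2]
    exact hne
  obtain ⟨p, hp⟩ := Ideal.exists_forall_sub_mem_ideal hcop pγ
  refine ⟨p, fun i => ?_⟩
  rw [hpγ (c i) i rfl]
  obtain ⟨q, hq⟩ := Ideal.mem_span_singleton.1 (hp (c i))
  have hBi : aeval (algebraMap W (Ej i) (z i) + ε i) (B (c i)) = 0 := by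
    show aeval (algebraMap W (Ej i) (z i) + ε i)
      (∏ j ∈ Finset.univ.filter (fun j => c j = c i), (X - C (z j)) ^ N) = 0
    rw [map_prod]
    refine Finset.prod_eq_zero (i := i) (by simp) ?_
    simp [hε i]
  have h1 : aeval (algebraMap W (Ej i) (z i) + ε i) (p - pγ (c i)) = 0 := by
    rw [hq, map_mul, hBi, zero_mul]
  rw [map_sub, sub_eq_zero] at h1
  exact h1.symm

end crt

section det

variable {O W : Type*} [CommRing O] [CommRing W]
variable {r N : ℕ} (Ej : Fin r → Type*) [∀ i, CommRing (Ej i)] [∀ i, Algebra W (Ej i)]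

omit [CommRing O] in
/-- **EFF for several clusters**: if on every cluster the jets of every `f_l` are polynomial
jets, the confluent Vandermonde product over ALL pairs of points divides the jet determinant. -/
theorem s27hm_crt_dvd (Tj : ∀ i, O → Ej i) (z : Fin r → W) (ε : ∀ i, Ej i)
    (hε : ∀ i, ε i ^ N = 0)
    (χ : ∀ i, Fin N → (Ej i →ₗ[W] W))
    (hχ : ∀ i (k : Fin N) (m : ℕ), χ i k (ε i ^ m) = if m = (k : ℕ) then 1 else 0)
    {Γ : Type*} [Finite Γ] (c : Fin r → Γ)
    (hunit : ∀ i j, c i ≠ c j → IsUnit (z i - z j))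
    (f : Fin (r * N) → O)
    (hloc : ∀ l, ∀ γ : Γ, ∃ p : W[X], ∀ i, c i = γ →
      Tj i (f l) = aeval (algebraMap W (Ej i) (z i) + ε i) p) :
    s27hmDelta N z ∣ (s27hmJetMat Ej Tj χ f).det := by
  have hex : ∀ l, ∃ p : W[X], ∀ i, Tj i (f l) = aeval (algebraMap W (Ej i) (z i) + ε i) p :=
    fun l => s27hm_crt Ej z ε N hε c hunit (fun i => Tj i (f l)) (hloc l)
  choose p hp using hex
  exact (s27hm_det_of_poly Ej Tj z ε χ hχ f p hp).2

end det

end Fermat.Agent.S27
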