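/-
S27 route B (item 27), leaf HERMITE, part 7 (helper13): GENERIC CENTRES.

`F / K` a field (`char 0`), `W` a commutative `K`-algebra, points `R i : F →ₐ[K] W` (the whole field
`F` maps into `W`: the centre of `R i` is the generic point), all with the SAME reduction
(`R i f − R j f ∈ Jac(W)`), `t ∈ F` transcendental over `K`.  Then for every `f ∈ F` algebraic over
`K[t]` there is ONE polynomial `p ∈ W[X]` with `R i f = p (R i t)` for all `i`
(`s27hm_lattice_gen`).  No descent is needed: `M'(f)` is a unit of `F`.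
-/
import Fermat.Agent.S27.HermiteDVR

set_option autoImplicit false

namespace Fermat.Agent.S27

open Polynomial

section unit

variable {A O T E : Type*} [CommRing A] [CommRing O] [CommRing T] [CommRing E] [Algebra T E]

/-- The unit case of the descent, with an arbitrary approximation `u₀ ∈ T` of `J f`. -/
theorem s27hm_unit_case (hinj : Function.Injective (algebraMap T E)) [Algebra.IsIntegral T E]
    (ι : A →+* O) (J : O →+* E) (j : A →+* T)
    (hcomm : ∀ a, J (ι a) = algebraMap T E (j a)) (f : O) (u₀ : T)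
    (hu₀ : J f - algebraMap T E u₀ ∈ (⊥ : Ideal E).jacobson)
    (M : A[X]) (hM : M.eval₂ ι f = 0) (hM' : IsUnit (J ((derivative M).eval₂ ι f))) :
    J f ∈ (algebraMap T E).range := by
  have hcomp : (algebraMap T E).comp j = J.comp ι := RingHom.ext fun a => (hcomm a).symm
  refine s27hm_hensel hinj (J f) u₀ (M.map j) ?_ ?_ hu₀
  · rw [aeval_def, eval₂_map, hcomp, ← hom_eval₂, hM, map_zero]
  · rw [derivative_map, aeval_def, eval₂_map, hcomp, ← hom_eval₂]
    exact hM'

end unit

section gen

variable {K F W : Type*} [Field K] [CharZero K] [Field F] [Algebra K F] [CommRing W]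
  [Algebra K W]

/-- **JET-LATTICE at a generic centre** (values, no jets). -/
theorem s27hm_lattice_gen {r : ℕ} (R : Fin r → F →ₐ[K] W)
    (hcong : ∀ i j f, R i f - R j f ∈ (⊥ : Ideal W).jacobson)
    (t : F) (htr : Transcendental K t) (f : F) (G : K[X][X]) (hG0 : G ≠ 0)
    (hG : G.eval₂ ((aeval t : K[X] →ₐ[K] F) : K[X] →+* F) f = 0) :
    ∃ p : W[X], ∀ i, R i f = p.eval (R i t) := by
  classical
  rcases Nat.eq_zero_or_pos r with h0 | hpos
  · subst h0
    exact ⟨0, fun i => i.elim0⟩
  let i₀ : Fin r := ⟨0, hpos⟩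
  have hinjι : Function.Injective ((aeval t : K[X] →ₐ[K] F) : K[X] →+* F) :=
    transcendental_iff_injective.1 htr
  obtain ⟨M, hM, hM'⟩ := s27hm_exists_simple _ hinjι f G hG0 hG
  let τ : Fin r → W := fun i => R i t
  let J : F →ₐ[K] (Fin r → W) := AlgHom.pi R
  let T : Subalgebra W (Fin r → W) := Algebra.adjoin W {τ}
  have hτT : τ ∈ T := Algebra.subset_adjoin (Set.mem_singleton τ)
  have : Algebra.IsIntegral W (Fin r → W) := Algebra.IsIntegral.of_finite W _
  have : Algebra.IsIntegral T (Fin r → W) := Algebra.IsIntegral.tower_top (R := W)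
  have hcomm : ∀ a : K[X], (J : F →+* (Fin r → W)) (((aeval t : K[X] →ₐ[K] F) : K[X] →+* F) a) =
      algebraMap T (Fin r → W) (((aeval (⟨τ, hτT⟩ : T) : K[X] →ₐ[K] T) : K[X] →+* T) a) := by
    intro a
    have h1 : (J.comp (aeval t : K[X] →ₐ[K] F)) =
        (IsScalarTower.toAlgHom K T (Fin r → W)).comp (aeval (⟨τ, hτT⟩ : T) : K[X] →ₐ[K] T) := by
      apply Polynomial.algHom_ext
      simp only [AlgHom.comp_apply, aeval_X]
      rfl
    exact congrArg (fun φ : K[X] →ₐ[K] (Fin r → W) => φ a) h1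
  have key := s27hm_unit_case (T := T) (E := Fin r → W) Subtype.val_injective
    ((aeval t : K[X] →ₐ[K] F) : K[X] →+* F) (J : F →+* (Fin r → W))
    ((aeval (⟨τ, hτT⟩ : T) : K[X] →ₐ[K] T) : K[X] →+* T) hcomm f
    (algebraMap W T (R i₀ f)) ?_ M hM ((Ne.isUnit hM').map (J : F →+* (Fin r → W)))
  · obtain ⟨x, hx⟩ := key
    have hxT : (x : Fin r → W) ∈ Algebra.adjoin W {τ} := x.2
    rw [Algebra.adjoin_singleton_eq_range_aeval] at hxT
    obtain ⟨p, hp⟩ := hxT
    refine ⟨p, fun i => ?_⟩
    have h1 : J f = aeval τ p := by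
      have h0 : (J : F →+* (Fin r → W)) f = J f := rfl
      rw [← h0, ← hx]
      exact hp.symm
    have h2 := congrFun h1 i
    rw [show J f i = R i f from rfl] at h2
    rw [h2]
    have h3 := aeval_algHom_apply (Pi.evalAlgHom W (fun _ : Fin r => W) i) τ p
    have h4 : (aeval τ p) i = aeval (τ i) p := h3.symm
    rw [h4]
    simp [τ, Polynomial.aeval_def, Polynomial.eval₂_eq_eval_map]
  · refine s27hm_pi_mem_jacobson (fun _ : Fin r => W) _ fun i => ?_
    exact hcong i i₀ f

end gen

end Fermat.Agent.S27
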