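/-
S27 route B (item 27), geometry leaf INT-SURJ (helper96): the ONTO-half of (PF = LAT).

Setting of `S27/Eff.lean` (helper17): `W` a commutative ring (the valuation ring), `R` a `W`-algebra
(the `W`-integral functions regular at the centres), `e k : R →ₐ[W] W` the evaluations at the
points, `π ∈ R` the adapted coordinate, `z k = e k π`, (DIV) `= S27effDiv e π`.
`φ : Fin r → R` a family of functions (`φ l = a · f_l`, `f_l` a `K`-basis of `L_K(A' + G)`).

* `s27is_comb`      : the Newton expansion of a `W`-combination `∑ x_l φ_l`, with the matrix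
                      `C k l = c_k (φ l)` of Newton coefficients;
* `s27is_red_eq`    : (KER) if `ρ : R →+* T` kills `(C x)_k` for `k < N`, then
                      `ρ (∑ x_l φ_l) = ρ G · ∏_{j<N} (ρ π − ρ z_j)`  (`G` the remainder);
* `s27is_eval`      : `e i (∑ x_l φ_l) = ∑_{k<N} (C x)_k ∏_{j<k} (z_i − z_j)` for `i < N`;
* `s27is_surj_of_ker` : (COUNT) over a field `κ`: a matrix `C̄ : κ^r → κ^N` whose kernel embeds
                      into a subspace `L` with `dim L + N ≤ r` is onto;
* `s27is_nakayama`  : `W` local, `res : W → κ` onto with kernel `𝔪`: `C̄ = res C` onto ⇒ `C` onto;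
* **`s27is_main`**  : INT-SURJ.  If the reduction `ρ : R → Ω_κ` (`ρ ∘ algebraMap = algebraMap ∘ res`)
                      maps the `φ l` to a `κ`-independent family and every `κ`-combination of the
                      `ρ (φ l)` which is divisible by `∏_{j<N} (ρ π − z̄_j)` in `ρ R` lies in a subspace
                      `L` with `dim L + N ≤ r` (Riemann over `κ`), then EVERY vector of Newton
                      coefficients `v ∈ W^N` is `C x` for some `x ∈ W^r`; hence
* `s27is_main_eval` : every vector `(∑_k v_k ∏_{j<k} (z_i − z_j))_i` of the lattice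
                      `Λ = W[X] / ∏ (X − z_i)` is the vector of values of some `∑ x_l φ_l`.
Mathlib + `S27/Eff.lean` only.
-/
import Fermat.Agent.S27.Eff

set_option autoImplicit false

noncomputable section

namespace Fermat.Agent.S27

open Matrix Finset

section Newton

variable {W : Type*} [CommRing W] {R : Type*} [CommRing R] [Algebra W R]
  {e : ℕ → (R →ₐ[W] W)} {π : R}

/-- the matrix of Newton coefficients of a family. -/
def s27isC (h : S27effDiv e π) (N : ℕ) {r : ℕ} (φ : Fin r → R) : Matrix (Fin N) (Fin r) W :=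
  Matrix.of fun k l => s27effCoef h (k : ℕ) (φ l)

/-- the remainder of a combination. -/
def s27isG (h : S27effDiv e π) (N : ℕ) {r : ℕ} (φ : Fin r → R) (x : Fin r → W) : R :=
  ∑ l, x l • s27effRem h N (φ l)

/-- **Newton expansion of a combination**. -/
theorem s27is_comb (h : S27effDiv e π) (N : ℕ) {r : ℕ} (φ : Fin r → R) (x : Fin r → W) :
    ∑ l, x l • φ l =
      ∑ k : Fin N, algebraMap W R ((s27isC h N φ).mulVec x k) *
          ∏ j ∈ range (k : ℕ), (π - algebraMap W R (e j π)) +
        s27isG h N φ x * ∏ j ∈ range N, (π - algebraMap W R (e j π)) := by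
  have h1 : ∀ l, x l • φ l =
      ∑ k : Fin N, algebraMap W R (x l * s27effCoef h (k : ℕ) (φ l)) *
          ∏ j ∈ range (k : ℕ), (π - algebraMap W R (e j π)) +
        (x l • s27effRem h N (φ l)) * ∏ j ∈ range N, (π - algebraMap W R (e j π)) := by
    intro l
    conv_lhs => rw [s27eff_newton h (φ l) N]
    rw [smul_add, Finset.smul_sum, smul_mul_assoc,
      ← Fin.sum_univ_eq_sum_range
        (fun k => x l • (algebraMap W R (s27effCoef h k (φ l)) *
          ∏ j ∈ range k, (π - algebraMap W R (e j π)))) N]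
    congr 1
    refine sum_congr rfl fun k _ => ?_
    rw [map_mul, Algebra.smul_def, mul_assoc]
  rw [sum_congr rfl fun l _ => h1 l, sum_add_distrib, sum_comm, s27isG, Finset.sum_mul]
  congr 1
  refine sum_congr rfl fun k _ => ?_
  rw [← Finset.sum_mul, ← map_sum]
  congr 2
  rw [Matrix.mulVec, dotProduct]
  refine sum_congr rfl fun l _ => ?_
  rw [s27isC, Matrix.of_apply, mul_comm]

/-- **(KER)**: a ring homomorphism killing the Newton coefficients `(C x)_k`, `k < N`, maps the
combination to a multiple of `∏_{j<N} (ρ π − ρ z_j)`. -/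
theorem s27is_red_eq (h : S27effDiv e π) (N : ℕ) {r : ℕ} (φ : Fin r → R) (x : Fin r → W)
    {T : Type*} [CommRing T] (ρ : R →+* T)
    (hx : ∀ k : Fin N, ρ (algebraMap W R ((s27isC h N φ).mulVec x k)) = 0) :
    ρ (∑ l, x l • φ l) =
      ρ (s27isG h N φ x) * ∏ j ∈ range N, (ρ π - ρ (algebraMap W R (e j π))) := by
  rw [s27is_comb h N φ x, map_add, map_sum, map_mul, map_prod]
  have h0 : ∑ k : Fin N, ρ (algebraMap W R ((s27isC h N φ).mulVec x k) *
      ∏ j ∈ range (k : ℕ), (π - algebraMap W R (e j π))) = 0 := by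
    refine sum_eq_zero fun k _ => ?_
    rw [map_mul, hx k, zero_mul]
  rw [h0, zero_add]
  congr 1
  refine prod_congr rfl fun j _ => ?_
  rw [map_sub]

/-- the values of a combination from its Newton coefficients. -/
theorem s27is_eval (h : S27effDiv e π) (N : ℕ) {r : ℕ} (φ : Fin r → R) (x : Fin r → W)
    (i : Fin N) :
    e i (∑ l, x l • φ l) =
      ∑ k : Fin N, (s27isC h N φ).mulVec x k * ∏ j ∈ range (k : ℕ), (e i π - e j π) := by
  rw [s27is_comb h N φ x, map_add, map_sum, map_mul, map_prod]
  have hz : ∏ j ∈ range N, (e i) (π - algebraMap W R (e j π)) = 0 := by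
    refine prod_eq_zero (mem_range.2 i.2) ?_
    simp
  rw [hz, mul_zero, add_zero]
  refine sum_congr rfl fun k _ => ?_
  rw [map_mul, map_prod]
  simp

end Newton

section Count

variable {κ : Type*} [Field κ]

/-- **(COUNT)**: a matrix over a field whose kernel embeds into a subspace `L` with
`dim L + N ≤ r` is onto. -/
theorem s27is_surj_of_ker {Y : Type*} [AddCommGroup Y] [Module κ Y] {N r : ℕ}
    (Cb : Matrix (Fin N) (Fin r) κ) (φb : (Fin r → κ) →ₗ[κ] Y)
    (hφ : Function.Injective φb) (L : Submodule κ Y) [FiniteDimensional κ L]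
    (hL : Module.finrank κ L + N ≤ r)
    (h : ∀ x, Cb.mulVec x = 0 → φb x ∈ L) : Function.Surjective Cb.mulVec := by
  set f : (Fin r → κ) →ₗ[κ] (Fin N → κ) := Matrix.mulVecLin Cb with hf
  have hker : Module.finrank κ (LinearMap.ker f) ≤ Module.finrank κ L := by
    let g : LinearMap.ker f →ₗ[κ] L :=
      LinearMap.codRestrict L (φb.comp (LinearMap.ker f).subtype) (fun x => h x.1 (by
        have h3 : f x.1 = 0 := LinearMap.mem_ker.1 x.2
        exact h3))
    have hg : Function.Injective g := by
      intro a b hab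
      have h1 : φb a.1 = φb b.1 := congrArg Subtype.val hab
      exact Subtype.ext (hφ h1)
    exact LinearMap.finrank_le_finrank_of_injective hg
  have hrn := LinearMap.finrank_range_add_finrank_ker f
  rw [Module.finrank_fin_fun] at hrn
  have hrange : Module.finrank κ (LinearMap.range f) = Module.finrank κ (Fin N → κ) := by
    have hle : Module.finrank κ (LinearMap.range f) ≤ Module.finrank κ (Fin N → κ) :=
      Submodule.finrank_le _
    rw [Module.finrank_fin_fun] at hle ⊢
    omega
  have htop : LinearMap.range f = ⊤ := Submodule.eq_top_of_finrank_eq hrange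
  intro v
  have hv : v ∈ LinearMap.range f := by rw [htop]; trivial
  obtain ⟨x, hx⟩ := hv
  exact ⟨x, by rw [← hx, hf, Matrix.mulVecLin_apply]⟩

end Count

section Nakayama

variable {W : Type*} [CommRing W] [IsLocalRing W] {κ : Type*} [Field κ]

omit [IsLocalRing W] in
/-- a vector with coordinates in an ideal lies in `I • ⊤`. -/
theorem s27is_mem_smul_top (I : Ideal W) {N : ℕ} (w : Fin N → W) (hw : ∀ i, w i ∈ I) :
    w ∈ I • (⊤ : Submodule W (Fin N → W)) := by
  have h1 : w = ∑ i, w i • (Pi.single i (1 : W) : Fin N → W) := by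
    ext j
    rw [Finset.sum_apply]
    simp [Pi.single_apply]
  rw [h1]
  exact Submodule.sum_mem _ fun i _ => Submodule.smul_mem_smul (hw i) Submodule.mem_top

/-- **Nakayama for matrices**: onto modulo the maximal ideal implies onto. -/
theorem s27is_nakayama (res : W →+* κ) (hres : Function.Surjective res)
    (hker : ∀ w, res w = 0 → w ∈ IsLocalRing.maximalIdeal W) {N r : ℕ}
    (C : Matrix (Fin N) (Fin r) W) (hC : Function.Surjective (C.map res).mulVec) :
    Function.Surjective C.mulVec := by
  set P : Submodule W (Fin N → W) := LinearMap.range (Matrix.mulVecLin C) with hP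
  have hfg : (⊤ : Submodule W (Fin N → W)).FG := Module.Finite.fg_top
  have hjac : IsLocalRing.maximalIdeal W ≤ Ideal.jacobson ⊥ := by
    rw [IsLocalRing.jacobson_eq_maximalIdeal ⊥ bot_ne_top]
  have hle : (⊤ : Submodule W (Fin N → W)) ≤
      P ⊔ IsLocalRing.maximalIdeal W • (⊤ : Submodule W (Fin N → W)) := by
    intro v _
    obtain ⟨xb, hxb⟩ := hC (fun i => res (v i))
    choose x hx using fun l => hres (xb l)
    have hdiff : ∀ i, (v - C.mulVec x) i ∈ IsLocalRing.maximalIdeal W := by
      intro i
      apply hker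
      have h1 := congrFun hxb i
      rw [Pi.sub_apply, map_sub, ← h1]
      simp only [Matrix.mulVec, dotProduct, Matrix.map_apply, map_sum, map_mul, hx]
      exact sub_self _
    have h2 : v = C.mulVec x + (v - C.mulVec x) := by abel
    rw [h2]
    refine Submodule.add_mem_sup ?_ (s27is_mem_smul_top _ _ hdiff)
    exact ⟨x, by rw [Matrix.mulVecLin_apply]⟩
  have htop := Submodule.le_of_le_smul_of_le_jacobson_bot hfg hjac hle
  intro v
  obtain ⟨x, hx⟩ := htop (Submodule.mem_top : v ∈ ⊤)
  exact ⟨x, by rw [← hx, Matrix.mulVecLin_apply]⟩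

end Nakayama

section Main

variable {W : Type*} [CommRing W] [IsLocalRing W] {κ : Type*} [Field κ]
  {R : Type*} [CommRing R] [Algebra W R] {e : ℕ → (R →ₐ[W] W)} {π : R}

/-- **INT-SURJ** (Newton-coefficient form). -/
theorem s27is_main (h : S27effDiv e π) (res : W →+* κ) (hres : Function.Surjective res)
    (hker : ∀ w, res w = 0 → w ∈ IsLocalRing.maximalIdeal W) {N r : ℕ} (φ : Fin r → R)
    {Ωκ : Type*} [Field Ωκ] [Algebra κ Ωκ] (ρ : R →+* Ωκ)
    (hρ : ∀ w : W, ρ (algebraMap W R w) = algebraMap κ Ωκ (res w))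
    (hind : LinearIndependent κ (fun l => ρ (φ l)))
    (L : Submodule κ Ωκ) [FiniteDimensional κ L] (hL : Module.finrank κ L + N ≤ r)
    (hdiv : ∀ (xb : Fin r → κ) (G : R),
      ∑ l, xb l • ρ (φ l) = ρ G * ∏ j ∈ range N, (ρ π - algebraMap κ Ωκ (res (e j π))) →
      ∑ l, xb l • ρ (φ l) ∈ L) :
    Function.Surjective (s27isC h N φ).mulVec := by
  apply s27is_nakayama res hres hker
  let φb : (Fin r → κ) →ₗ[κ] Ωκ := Fintype.linearCombination κ (fun l => ρ (φ l))
  have hφb : ∀ xb, φb xb = ∑ l, xb l • ρ (φ l) := fun xb => by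
    rw [Fintype.linearCombination_apply]
  have hinj : Function.Injective φb :=
    linearIndependent_iff_injective_fintypeLinearCombination.mp hind
  refine s27is_surj_of_ker _ φb hinj L hL (fun xb hxb => ?_)
  choose x hx using fun l => hres (xb l)
  have hkill : ∀ k : Fin N, ρ (algebraMap W R ((s27isC h N φ).mulVec x k)) = 0 := by
    intro k
    rw [hρ]
    have h1 := congrFun hxb k
    simp only [Matrix.mulVec, dotProduct, Matrix.map_apply, Pi.zero_apply] at h1
    have h2 : res ((s27isC h N φ).mulVec x k) = 0 := by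
      simp only [Matrix.mulVec, dotProduct, map_sum, map_mul, hx]
      exact h1
    rw [h2, map_zero]
  have hred := s27is_red_eq h N φ x ρ hkill
  have hcomb : ρ (∑ l, x l • φ l) = ∑ l, xb l • ρ (φ l) := by
    rw [map_sum]
    refine sum_congr rfl fun l _ => ?_
    rw [Algebra.smul_def, map_mul, hρ, hx, Algebra.smul_def]
  rw [hφb]
  refine hdiv xb (s27isG h N φ x) ?_
  rw [← hcomb, hred]
  congr 1
  refine prod_congr rfl fun j _ => ?_
  rw [hρ]

/-- **INT-SURJ** (value form): every vector of the lattice `Λ = W[X] / ∏ (X − z_i)` is the vector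
of values of a `W`-combination of the `φ l`. -/
theorem s27is_main_eval (h : S27effDiv e π) (res : W →+* κ) (hres : Function.Surjective res)
    (hker : ∀ w, res w = 0 → w ∈ IsLocalRing.maximalIdeal W) {N r : ℕ} (φ : Fin r → R)
    {Ωκ : Type*} [Field Ωκ] [Algebra κ Ωκ] (ρ : R →+* Ωκ)
    (hρ : ∀ w : W, ρ (algebraMap W R w) = algebraMap κ Ωκ (res w))
    (hind : LinearIndependent κ (fun l => ρ (φ l)))
    (L : Submodule κ Ωκ) [FiniteDimensional κ L] (hL : Module.finrank κ L + N ≤ r)
    (hdiv : ∀ (xb : Fin r → κ) (G : R),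
      ∑ l, xb l • ρ (φ l) = ρ G * ∏ j ∈ range N, (ρ π - algebraMap κ Ωκ (res (e j π))) →
      ∑ l, xb l • ρ (φ l) ∈ L)
    (v : Fin N → W) :
    ∃ x : Fin r → W, ∀ i : Fin N,
      e i (∑ l, x l • φ l) = ∑ k : Fin N, v k * ∏ j ∈ range (k : ℕ), (e i π - e j π) := by
  obtain ⟨x, hx⟩ := s27is_main h res hres hker φ ρ hρ hind L hL hdiv v
  refine ⟨x, fun i => ?_⟩
  rw [s27is_eval h N φ x i, hx]

end Main

end Fermat.Agent.S27

end
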