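/-
S27 route B, crux LE(b): **INT-SURJ, UNCONDITIONAL** (helper13), for the two sides of LE5, with ONE
reduced divisor `G`.  On `S27/IntSurjK2.lean` (G-EX + Cauchy functions) and `S27/EffInstLat.lean`
(helper50: LAT-EX for every adapted pair).

`F / K` a curve (`IsCurveOver`, essentially of finite type) over an algebraically closed field of
characteristic `0`, `W ⊇ K` a valuation subring of `𝔏`, DISTINCT points `R i` (`i < N`) and
DISTINCT points `R' i` (`i < N'`), divisors `A₁`, `A₂`, a finite set `T` of places, `d : ℕ`.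

* `s27isu_intSurj` : there is a REDUCED divisor `G` (values in `{0, 1}`) with `deg G ≥ d`,
  `G = 0` on `T`, on `supp A₁ ∪ supp A₂` and at the closed centres of all the points, such that for
  EVERY family `y` whose `K`-span contains `L_K(A₁ + G)` the values of every `ψ ∈ 𝓕_W(R, A₁)` are a
  `W`-combination of the values of the `y m` (= `hsurj` of `s27le5_asm`), and the same for
  `(R', A₂)` (= `hsurj'`);
* `s27isu_intSurj_one` : the one-sided form;
* `s27isu_cauchy`  : the Cauchy family `a / (t − q j)` inside `L_K(A' + G)` IS a lattice basis.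
-/
import Fermat.Agent.S27.IntSurjK2
import Fermat.Agent.S27.EffInstLat

set_option autoImplicit false
set_option linter.style.haveILetI false
set_option linter.unusedSectionVars false

noncomputable section

namespace Fermat.Agent.S27

open AlgebraicCurve IntermediateField Module

universe u v w

variable {K : Type u} {F : Type v} [Field K] [Field F] [Algebra K F]
variable {𝔏 : Type w} [Field 𝔏] [Algebra K 𝔏]
variable [IsAlgClosed K] [CharZero K] [IsCurveOver K F] [Algebra.EssFiniteType K F]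

/-- **INT-SURJ, unconditional, two sides, one reduced `G`.** -/
theorem s27isu_intSurj {N N' : ℕ} (W : ValuationSubring 𝔏)
    (hW : ∀ c : K, algebraMap K 𝔏 c ∈ W)
    (R : Fin N → F →ₐ[K] 𝔏) (hR : Function.Injective R)
    (R' : Fin N' → F →ₐ[K] 𝔏) (hR' : Function.Injective R') (A₁ A₂ : Divisor K F)
    (T : Finset (Place K F)) (d : ℕ) :
    ∃ G : Divisor K F,
      (∀ P, G P = 0 ∨ G P = 1) ∧ (d : ℤ) ≤ Divisor.degree G ∧
      (∀ P ∈ T, G P = 0) ∧ (∀ P, A₁ P ≠ 0 → G P = 0) ∧ (∀ P, A₂ P ≠ 0 → G P = 0) ∧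
      (∀ i Q, S27ptIsCentre W (R i) Q → G Q = 0) ∧
      (∀ i Q, S27ptIsCentre W (R' i) Q → G Q = 0) ∧
      (∀ (J : Type) [Fintype J] (y : J → F),
        (riemannRochSpace (A₁ + G) ≤ Submodule.span K (Set.range y)) →
        ∀ ψ ∈ s27ptF W R A₁, ∃ c : J → 𝔏, (∀ m, c m ∈ W) ∧
          ∀ i, R i ψ = ∑ m, R i (y m) * c m) ∧
      (∀ (J : Type) [Fintype J] (y : J → F),
        (riemannRochSpace (A₂ + G) ≤ Submodule.span K (Set.range y)) →
        ∀ ψ ∈ s27ptF W R' A₂, ∃ c : J → 𝔏, (∀ m, c m ∈ W) ∧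
          ∀ i, R' i ψ = ∑ m, R' i (y m) * c m) := by
  obtain ⟨x, hx, hfin⟩ := s27td_exists_of_isCurveOver (K := K) (F := F)
  haveI := hfin
  exact s27isk_intSurj x hx W hW R R' A₁ A₂
    (fun t a h => s27eil_latBasis W hW R hR A₁ t a h)
    (fun t a h => s27eil_latBasis W hW R' hR' A₂ t a h) T d

/-- **INT-SURJ, unconditional, one side.** -/
theorem s27isu_intSurj_one {N : ℕ} (W : ValuationSubring 𝔏)
    (hW : ∀ c : K, algebraMap K 𝔏 c ∈ W)
    (R : Fin N → F →ₐ[K] 𝔏) (hR : Function.Injective R) (A' : Divisor K F)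
    (T : Finset (Place K F)) (d : ℕ) :
    ∃ G : Divisor K F,
      (∀ P, G P = 0 ∨ G P = 1) ∧ (d : ℤ) ≤ Divisor.degree G ∧
      (∀ P ∈ T, G P = 0) ∧ (∀ P, A' P ≠ 0 → G P = 0) ∧
      (∀ i Q, S27ptIsCentre W (R i) Q → G Q = 0) ∧
      (∀ (J : Type) [Fintype J] (y : J → F),
        (riemannRochSpace (A' + G) ≤ Submodule.span K (Set.range y)) →
        ∀ ψ ∈ s27ptF W R A', ∃ c : J → 𝔏, (∀ m, c m ∈ W) ∧
          ∀ i, R i ψ = ∑ m, R i (y m) * c m) := by
  obtain ⟨G, h1, h2, h3, h4, -, h6, -, h8, -⟩ :=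
    s27isu_intSurj W hW R hR R hR A' A' T d
  exact ⟨G, h1, h2, h3, h4, h6, h8⟩

/-- **the Cauchy lattice basis inside `L_K(A' + G)`**, `G` reduced off `T` and off the centres. -/
theorem s27isu_cauchy {N : ℕ} (W : ValuationSubring 𝔏)
    (hW : ∀ c : K, algebraMap K 𝔏 c ∈ W)
    (R : Fin N → F →ₐ[K] 𝔏) (hR : Function.Injective R) (A' : Divisor K F)
    (T : Finset (Place K F)) :
    ∃ (G : Divisor K F) (φ : Fin N → F),
      (∀ P, G P = 0 ∨ G P = 1) ∧ (∀ P ∈ T, G P = 0) ∧
      (∀ i Q, S27ptIsCentre W (R i) Q → G Q = 0) ∧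
      (∀ j, φ j ∈ riemannRochSpace (A' + G)) ∧ S27ptIsLatBasis W R A' φ := by
  obtain ⟨x, hx, hfin⟩ := s27td_exists_of_isCurveOver (K := K) (F := F)
  haveI := hfin
  obtain ⟨t, a, q, G, had, hq, hu, hred, hT, hC, hmem⟩ := s27isk_main_div x hx W hW R A' T
  exact ⟨G, fun j => a / (t - algebraMap K F (q j)), hred, hT, hC, hmem,
    s27cpt_latBasis' hW a t (s27eil_latBasis W hW R hR A' t a had) had.t_not_const had.t_mem
      q hq hu⟩

end Fermat.Agent.S27

end
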