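/-
S27 route B (item 27), piece §1-JP (helper13): JET DETERMINANTS UNDER CHANGE OF PARAMETER AND
UNDER MULTIPLICATION BY A FUNCTION.

Blueprint NOTES/S27-wronskian.md §1: "change of parameter multiplies an n-jet block by
(ds/dt)^(n(n-1)/2), a pole of order N of the f_l contributes N per row".

Pure algebra.  `A` a commutative ring with a derivation `D` (think `d/dt` on a function field),
`w u : A`, `δ = w • D` (think `d/ds`, `w = dt/ds`), `ι i : A →+* B` the "points" (`i < g`).  Then

  `det [ ι_i (δ^k (u · f_l)) ] = ∏_i ( ι_i(u)^N · ι_i(w)^(N(N-1)/2) ) · det [ ι_i (D^k f_l) ]`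

(rows `(i, k) ∈ Fin g × Fin N`, any square indexing `e : n ≃ Fin g × Fin N` of the columns).

Main results:
* `s27jp_det_block`  : multiplying each `N`-block of rows by a lower triangular matrix `T i`
                       multiplies the determinant by `∏ i, ∏ k, T i k k`;
* `s27jpCoeff`, `s27jp_iterate` : `(w • D)^[k] (u * f) = ∑_{j ≤ k} c_{k,j} · D^[j] f`,
                       `c_{k,k} = w^k · u`, `c_{k,j} = 0` for `j > k`;
* `s27jp_det_jet`    : the determinant identity above;
* `s27jp_det_param`  (`u = 1`) and `s27jp_det_mul` (`w = 1`).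
-/
import Mathlib

set_option autoImplicit false

namespace Fermat.Agent.S27

open Matrix Finset

section block

variable {B : Type*} [CommRing B]

/-- The block diagonal matrix with lower triangular blocks `T i`, on `Fin g × Fin N`. -/
def s27jpBlock {g N : ℕ} (T : Fin g → Matrix (Fin N) (Fin N) B) :
    Matrix (Fin g × Fin N) (Fin g × Fin N) B :=
  Matrix.of fun p q => if p.1 = q.1 then T p.1 p.2 q.2 else 0

theorem s27jp_block_eq {g N : ℕ} (T : Fin g → Matrix (Fin N) (Fin N) B) :
    s27jpBlock T = (Matrix.blockDiagonal T).submatrix (Equiv.prodComm (Fin g) (Fin N))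
      (Equiv.prodComm (Fin g) (Fin N)) := by
  ext p q
  simp [s27jpBlock, Matrix.blockDiagonal_apply]

theorem s27jp_block_det {g N : ℕ} (T : Fin g → Matrix (Fin N) (Fin N) B)
    (hT : ∀ i, (T i).IsLowerTriangular) :
    (s27jpBlock T).det = ∏ i, ∏ k, T i k k := by
  rw [s27jp_block_eq, Matrix.det_submatrix_equiv_self, Matrix.det_blockDiagonal]
  exact Finset.prod_congr rfl fun i _ => Matrix.det_of_isLowerTriangular _ (hT i)

/-- **Block rule.**  If every `N`-block of rows of `M'` is the corresponding block of `M`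
multiplied by a lower triangular matrix `T i`, then `det M' = (∏ i, ∏ k, T i k k) · det M`. -/
theorem s27jp_det_block {g N : ℕ} {n : Type*} [Fintype n] [DecidableEq n]
    (e : n ≃ Fin g × Fin N) (T : Fin g → Matrix (Fin N) (Fin N) B)
    (hT : ∀ i, (T i).IsLowerTriangular)
    (M M' : Matrix (Fin g × Fin N) n B)
    (h : ∀ i k l, M' (i, k) l = ∑ j, T i k j * M (i, j) l) :
    (M'.submatrix e id).det = (∏ i, ∏ k, T i k k) * (M.submatrix e id).det := by
  have hM : M' = s27jpBlock T * M := by
    ext ⟨i, k⟩ l
    rw [h, Matrix.mul_apply, Fintype.sum_prod_type]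
    simp only [s27jpBlock, Matrix.of_apply]
    rw [Finset.sum_eq_single i]
    · simp
    · intro i' _ hi'
      simp [Ne.symm hi']
    · simp
  have hsub : M'.submatrix e id = (s27jpBlock T).submatrix e e * M.submatrix e id := by
    rw [Matrix.submatrix_mul_equiv, hM]
  rw [hsub, Matrix.det_mul, Matrix.det_submatrix_equiv_self, s27jp_block_det T hT]

end block

section derivation

variable {R A : Type*} [CommRing R] [CommRing A] [Algebra R A]

/-- The coefficients of `(w • D)^k ∘ (u · )` in terms of the powers of `D`. -/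
noncomputable def s27jpCoeff (D : Derivation R A A) (w u : A) : ℕ → ℕ → A
  | 0, j => if j = 0 then u else 0
  | k + 1, j => w * (D (s27jpCoeff D w u k j) + if j = 0 then 0 else s27jpCoeff D w u k (j - 1))

theorem s27jp_coeff_zero (D : Derivation R A A) (w u : A) (j : ℕ) :
    s27jpCoeff D w u 0 j = if j = 0 then u else 0 := rfl

theorem s27jp_coeff_succ (D : Derivation R A A) (w u : A) (k j : ℕ) :
    s27jpCoeff D w u (k + 1) j =
      w * (D (s27jpCoeff D w u k j) + if j = 0 then 0 else s27jpCoeff D w u k (j - 1)) := rfl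

theorem s27jp_coeff_eq_zero (D : Derivation R A A) (w u : A) :
    ∀ k j : ℕ, k < j → s27jpCoeff D w u k j = 0 := by
  intro k
  induction k with
  | zero =>
    intro j hj
    rw [s27jp_coeff_zero, if_neg (by omega)]
  | succ k ih =>
    intro j hj
    rw [s27jp_coeff_succ, ih j (by omega), if_neg (by omega), ih (j - 1) (by omega)]
    simp

theorem s27jp_coeff_diag (D : Derivation R A A) (w u : A) :
    ∀ k : ℕ, s27jpCoeff D w u k k = w ^ k * u := by
  intro k
  induction k with
  | zero => simp [s27jp_coeff_zero]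
  | succ k ih =>
    rw [s27jp_coeff_succ, s27jp_coeff_eq_zero D w u k (k + 1) (by omega), if_neg (by omega),
      Nat.add_sub_cancel, ih]
    simp [pow_succ]
    ring

/-- `(w • D)^[k] (u * f) = ∑_{j ≤ k} c_{k,j} · D^[j] f`. -/
theorem s27jp_iterate (D : Derivation R A A) (w u : A) :
    ∀ (k : ℕ) (f : A), (⇑(w • D))^[k] (u * f) =
      ∑ j ∈ Finset.range (k + 1), s27jpCoeff D w u k j * (⇑D)^[j] f := by
  intro k
  induction k with
  | zero =>
    intro f
    simp [s27jp_coeff_zero]
  | succ k ih =>
    intro f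
    rw [Function.iterate_succ_apply', ih f]
    have hD : (w • D) (∑ j ∈ Finset.range (k + 1), s27jpCoeff D w u k j * (⇑D)^[j] f) =
        w * ∑ j ∈ Finset.range (k + 1), (s27jpCoeff D w u k j * (⇑D)^[j + 1] f +
          D (s27jpCoeff D w u k j) * (⇑D)^[j] f) := by
      rw [Derivation.smul_apply, smul_eq_mul, map_sum]
      congr 1
      refine Finset.sum_congr rfl fun j _ => ?_
      rw [Derivation.leibniz, smul_eq_mul, smul_eq_mul, Function.iterate_succ_apply']
      ring
    rw [hD, Finset.sum_add_distrib]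
    -- right-hand side
    have hR : ∑ j ∈ Finset.range (k + 1 + 1), s27jpCoeff D w u (k + 1) j * (⇑D)^[j] f =
        w * (∑ j ∈ Finset.range (k + 1 + 1), D (s27jpCoeff D w u k j) * (⇑D)^[j] f +
          ∑ j ∈ Finset.range (k + 1 + 1),
            (if j = 0 then 0 else s27jpCoeff D w u k (j - 1)) * (⇑D)^[j] f) := by
      rw [← Finset.sum_add_distrib, Finset.mul_sum]
      refine Finset.sum_congr rfl fun j _ => ?_
      rw [s27jp_coeff_succ]
      ring
    rw [hR]
    congr 1
    rw [Finset.sum_range_succ (fun j => D (s27jpCoeff D w u k j) * (⇑D)^[j] f) (k + 1),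
      s27jp_coeff_eq_zero D w u k (k + 1) (by omega), map_zero, zero_mul, add_zero,
      Finset.sum_range_succ' (fun j => (if j = 0 then 0 else s27jpCoeff D w u k (j - 1)) *
        (⇑D)^[j] f) (k + 1)]
    simp only [if_pos, zero_mul, add_zero, Nat.add_sub_cancel, Nat.succ_ne_zero, if_false]
    rw [add_comm]

/-- The same with the sum extended to any range `n > k`. -/
theorem s27jp_iterate_range (D : Derivation R A A) (w u : A) (k n : ℕ) (hk : k < n) (f : A) :
    (⇑(w • D))^[k] (u * f) =
      ∑ j ∈ Finset.range n, s27jpCoeff D w u k j * (⇑D)^[j] f := by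
  rw [s27jp_iterate]
  refine Finset.sum_subset (Finset.range_mono (by omega)) fun j _ hj => ?_
  rw [s27jp_coeff_eq_zero D w u k j (by simpa using hj), zero_mul]

variable {B : Type*} [CommRing B]

/-- The jet matrix `[ ι_i (D^k f_l) ]` of a family of elements with respect to a derivation. -/
def s27jpJet {g N : ℕ} {n : Type*} (D : A → A) (ι : Fin g → A →+* B) (f : n → A) :
    Matrix (Fin g × Fin N) n B :=
  Matrix.of fun p l => ι p.1 (D^[(p.2 : ℕ)] (f l))

/-- **Jet determinants under change of parameter and multiplication by a function.** -/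
theorem s27jp_det_jet {g N : ℕ} {n : Type*} [Fintype n] [DecidableEq n]
    (e : n ≃ Fin g × Fin N) (D : Derivation R A A) (w u : A) (ι : Fin g → A →+* B)
    (f : n → A) :
    ((s27jpJet (N := N) (⇑(w • D)) ι (fun l => u * f l)).submatrix e id).det =
      (∏ i, (ι i u ^ N * ι i w ^ (N * (N - 1) / 2))) *
        ((s27jpJet (N := N) (⇑D) ι f).submatrix e id).det := by
  have key := s27jp_det_block e
    (fun i => Matrix.of fun (k j : Fin N) => ι i (s27jpCoeff D w u k j))
    (fun i k j hkj => by
      have hkj' : (k : ℕ) < (j : ℕ) := hkj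
      simp only [Matrix.of_apply]
      rw [s27jp_coeff_eq_zero D w u k j hkj', map_zero])
    (s27jpJet (N := N) (⇑D) ι f) (s27jpJet (N := N) (⇑(w • D)) ι (fun l => u * f l))
    (fun i k l => by
      simp only [s27jpJet, Matrix.of_apply]
      rw [s27jp_iterate_range D w u k N k.2 (f l), map_sum,
        ← Fin.sum_univ_eq_sum_range (fun j => ι i (s27jpCoeff D w u k j * (⇑D)^[j] (f l))) N]
      exact Finset.sum_congr rfl fun j _ => map_mul _ _ _)
  rw [key]
  congr 1
  refine Finset.prod_congr rfl fun i _ => ?_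
  simp only [Matrix.of_apply, s27jp_coeff_diag, map_mul, map_pow]
  rw [Finset.prod_mul_distrib, Finset.prod_const, Finset.card_univ, Fintype.card_fin,
    Fin.prod_univ_eq_prod_range (fun k => ι i w ^ k) N, Finset.prod_pow_eq_pow_sum,
    Finset.sum_range_id, mul_comm]

/-- Change of parameter alone: `det [ι_i ((w • D)^k f_l)] = ∏ ι_i(w)^(N(N-1)/2) · det [ι_i (D^k f_l)]`. -/
theorem s27jp_det_param {g N : ℕ} {n : Type*} [Fintype n] [DecidableEq n]
    (e : n ≃ Fin g × Fin N) (D : Derivation R A A) (w : A) (ι : Fin g → A →+* B)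
    (f : n → A) :
    ((s27jpJet (N := N) (⇑(w • D)) ι f).submatrix e id).det =
      (∏ i, ι i w ^ (N * (N - 1) / 2)) *
        ((s27jpJet (N := N) (⇑D) ι f).submatrix e id).det := by
  have h := s27jp_det_jet (N := N) e D w 1 ι f
  simpa using h

/-- Multiplication by a function alone: `det [ι_i (D^k (u f_l))] = ∏ ι_i(u)^N · det [ι_i (D^k f_l)]`. -/
theorem s27jp_det_mul {g N : ℕ} {n : Type*} [Fintype n] [DecidableEq n]
    (e : n ≃ Fin g × Fin N) (D : Derivation R A A) (u : A) (ι : Fin g → A →+* B)
    (f : n → A) :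
    ((s27jpJet (N := N) (⇑D) ι (fun l => u * f l)).submatrix e id).det =
      (∏ i, ι i u ^ N) * ((s27jpJet (N := N) (⇑D) ι f).submatrix e id).det := by
  have h := s27jp_det_jet (N := N) e D 1 u ι f
  simpa using h

end derivation

end Fermat.Agent.S27
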