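/-
S27 route B (item 27), piece §1-JP′ (helper13): the jet determinant rule of `S27/JetParam.lean`
with parameter and multiplier DEPENDING ON THE POINT `i` (different local parameters `s_i`
at different centres):

  `det [ ι_i ((w_i • D)^k (u_i · f_l)) ] = ∏_i ( ι_i(u_i)^N · ι_i(w_i)^(N(N-1)/2) ) · det [ ι_i (D^k f_l) ]`.

Also the form with an arbitrary family of jet rows `J i k : A → B` related to `ι_i ∘ D^k` by
lower triangular matrices (`s27jpi_det_rows`).
-/
import Fermat.Agent.S27.JetParam

set_option autoImplicit false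

namespace Fermat.Agent.S27

open Matrix Finset

variable {R A B : Type*} [CommRing R] [CommRing A] [Algebra R A] [CommRing B]

omit [CommRing A] in
/-- General row form: two families of "jet functionals" `J i k`, `J' i k : A → B` such that
`J' i k f = ∑_j T i k j * J i j f` with `T i` lower triangular. -/
theorem s27jpi_det_rows {g N : ℕ} {n : Type*} [Fintype n] [DecidableEq n]
    (e : n ≃ Fin g × Fin N) (T : Fin g → Matrix (Fin N) (Fin N) B)
    (hT : ∀ i, (T i).IsLowerTriangular)
    (J J' : Fin g → Fin N → A → B)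
    (h : ∀ i k f, J' i k f = ∑ j, T i k j * J i j f) (f : n → A) :
    ((Matrix.of fun (p : Fin g × Fin N) l => J' p.1 p.2 (f l)).submatrix e id).det =
      (∏ i, ∏ k, T i k k) *
        ((Matrix.of fun (p : Fin g × Fin N) l => J p.1 p.2 (f l)).submatrix e id).det :=
  s27jp_det_block e T hT _ _ fun i k l => by
    simp only [Matrix.of_apply]
    exact h i k (f l)

/-- **Jet determinants under point-dependent change of parameter and multiplier.** -/
theorem s27jpi_det_jet {g N : ℕ} {n : Type*} [Fintype n] [DecidableEq n]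
    (e : n ≃ Fin g × Fin N) (D : Derivation R A A) (w u : Fin g → A) (ι : Fin g → A →+* B)
    (f : n → A) :
    ((Matrix.of fun (p : Fin g × Fin N) l =>
        ι p.1 ((⇑(w p.1 • D))^[(p.2 : ℕ)] (u p.1 * f l))).submatrix e id).det =
      (∏ i, (ι i (u i) ^ N * ι i (w i) ^ (N * (N - 1) / 2))) *
        ((Matrix.of fun (p : Fin g × Fin N) l =>
          ι p.1 ((⇑D)^[(p.2 : ℕ)] (f l))).submatrix e id).det := by
  have key := s27jp_det_block e
    (fun i => Matrix.of fun (k j : Fin N) => ι i (s27jpCoeff D (w i) (u i) k j))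
    (fun i k j hkj => by
      have hkj' : (k : ℕ) < (j : ℕ) := hkj
      simp only [Matrix.of_apply]
      rw [s27jp_coeff_eq_zero D (w i) (u i) k j hkj', map_zero])
    (Matrix.of fun (p : Fin g × Fin N) l => ι p.1 ((⇑D)^[(p.2 : ℕ)] (f l)))
    (Matrix.of fun (p : Fin g × Fin N) l =>
        ι p.1 ((⇑(w p.1 • D))^[(p.2 : ℕ)] (u p.1 * f l)))
    (fun i k l => by
      simp only [Matrix.of_apply]
      rw [s27jp_iterate_range D (w i) (u i) k N k.2 (f l), map_sum,
        ← Fin.sum_univ_eq_sum_range
          (fun j => ι i (s27jpCoeff D (w i) (u i) k j * (⇑D)^[j] (f l))) N]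
      exact Finset.sum_congr rfl fun j _ => map_mul _ _ _)
  rw [key]
  congr 1
  refine Finset.prod_congr rfl fun i _ => ?_
  simp only [Matrix.of_apply, s27jp_coeff_diag, map_mul, map_pow]
  rw [Finset.prod_mul_distrib, Finset.prod_const, Finset.card_univ, Fintype.card_fin,
    Fin.prod_univ_eq_prod_range (fun k => ι i (w i) ^ k) N, Finset.prod_pow_eq_pow_sum,
    Finset.sum_range_id, mul_comm]

end Fermat.Agent.S27
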