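/-
S27 route B (item 27), piece §1-JS (helper13): SIGN RULE for jet determinants under a
permutation of the points.

If the rows of a square matrix are indexed by `(i, k) ∈ Fin g × Fin N` (point `i`, jet order `k`)
and `σ` permutes the points, then the determinant is multiplied by `sign(σ)^N`
(`s27js_det_perm`).  Consequences: a product of two jet determinants of the same order `N`, and
any quotient `W_N W⁻_N / (W_1 W⁻_1)^(N²)`, is invariant under `S_g` (`s27js_mul_invariant`).
-/
import Mathlib

set_option autoImplicit false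

namespace Fermat.Agent.S27

open Matrix Finset Equiv

variable {B : Type*} [CommRing B]

/-- The permutation of `Fin g × Fin N` induced by a permutation of the points. -/
def s27jsPerm {g : ℕ} (N : ℕ) (σ : Perm (Fin g)) : Perm (Fin g × Fin N) :=
  Equiv.prodCongrLeft fun _ : Fin N => σ

theorem s27js_perm_apply {g : ℕ} (N : ℕ) (σ : Perm (Fin g)) (p : Fin g × Fin N) :
    s27jsPerm N σ p = (σ p.1, p.2) := rfl

theorem s27js_sign {g : ℕ} (N : ℕ) (σ : Perm (Fin g)) :
    Perm.sign (s27jsPerm N σ) = Perm.sign σ ^ N := by
  unfold s27jsPerm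
  rw [Perm.sign_prodCongrLeft]
  simp

/-- **Sign rule**: permuting the points multiplies a jet determinant by `sign(σ)^N`. -/
theorem s27js_det_perm {g N : ℕ} {n : Type*} [Fintype n] [DecidableEq n]
    (e : n ≃ Fin g × Fin N) (σ : Perm (Fin g)) (M : Matrix (Fin g × Fin N) n B) :
    ((Matrix.of fun (p : Fin g × Fin N) l => M (σ p.1, p.2) l).submatrix e id).det =
      ((Perm.sign σ ^ N : ℤˣ) : ℤ) * (M.submatrix e id).det := by
  have h : (Matrix.of fun (p : Fin g × Fin N) l => M (σ p.1, p.2) l).submatrix e id =
      (M.submatrix e id).submatrix (e.permCongr.symm (s27jsPerm N σ)) id := by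
    ext r c
    simp [s27js_perm_apply]
  rw [h, Matrix.det_permute]
  congr 2
  have : Perm.sign (e.permCongr.symm (s27jsPerm N σ)) = Perm.sign (s27jsPerm N σ) := by
    simp
  rw [this, s27js_sign]

/-- The square of the sign is `1`: the product of two jet determinants of the same order is
invariant under permutations of the points. -/
theorem s27js_mul_invariant {g N : ℕ} {n n' : Type*} [Fintype n] [DecidableEq n]
    [Fintype n'] [DecidableEq n']
    (e : n ≃ Fin g × Fin N) (e' : n' ≃ Fin g × Fin N) (σ : Perm (Fin g))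
    (M : Matrix (Fin g × Fin N) n B) (M' : Matrix (Fin g × Fin N) n' B) :
    ((Matrix.of fun (p : Fin g × Fin N) l => M (σ p.1, p.2) l).submatrix e id).det *
      ((Matrix.of fun (p : Fin g × Fin N) l => M' (σ p.1, p.2) l).submatrix e' id).det =
      (M.submatrix e id).det * (M'.submatrix e' id).det := by
  rw [s27js_det_perm, s27js_det_perm]
  have hs : (((Perm.sign σ ^ N : ℤˣ) : ℤ) : B) * (((Perm.sign σ ^ N : ℤˣ) : ℤ) : B) = 1 := by
    rw [← Int.cast_mul, ← Units.val_mul, ← mul_pow, Int.units_mul_self, one_pow]
    simp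
  calc _ = ((((Perm.sign σ ^ N : ℤˣ) : ℤ) : B) * (((Perm.sign σ ^ N : ℤˣ) : ℤ) : B)) *
        ((M.submatrix e id).det * (M'.submatrix e' id).det) := by ring
    _ = _ := by rw [hs, one_mul]

end Fermat.Agent.S27
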