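/-
S27-B, crux LE, leaf LE3-LIN, part 1 (helper87): the POLE DIVISOR of a function.

* `s27le3l_rr_mem`   : `B Q ≤ 0` ⇒ `L_K(B) ⊆ 𝒪_Q`;
* `s27le3l_poleDiv`  : for `τ ∈ F` there is a constant divisor `B ≥ 0` with `B v = 0` at every
  place where `τ` is regular and `τ ^ j ∈ L_K(N • B)` for all `j ≤ N`   (`B = (τ)_∞`).
Prelude + Mathlib only.
-/
import Mathlib
import Fermat.Prelude.Def_AlgebraicCurve_Repartitions
import Fermat.Agent.S24.PlaceBasic

set_option autoImplicit false

noncomputable section

namespace Fermat.Agent.S27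

open AlgebraicCurve WithZero
open Fermat.Agent.S24.PlaceAux

variable {K F : Type*} [Field K] [Field F] [Algebra K F]

/-- a function of `L_K(B)` is regular at every place `Q` with `B Q ≤ 0`. -/
theorem s27le3l_rr_mem (B : Divisor K F) (Q : Place K F) (hB : B Q ≤ 0) {f : F}
    (hf : f ∈ riemannRochSpace B) : f ∈ Q.toValuationSubring := by
  rw [mem_iff_adicValuation_le_one]
  have h1 : Q.adicValuation f ≤ exp (B Q) := hf Q
  refine h1.trans ?_
  rw [← WithZero.exp_zero, WithZero.exp_le_exp]
  exact hB

/-- **the pole divisor**: `B ≥ 0`, `B v = 0` where `τ` is regular, `τ ^ j ∈ L_K(N • B)`, `j ≤ N`. -/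
theorem s27le3l_poleDiv [HasPrincipalDivisors K F] (τ : F) :
    ∃ B : Divisor K F, 0 ≤ B ∧ (∀ v : Place K F, τ ∈ v.toValuationSubring → B v = 0) ∧
      ∀ N j : ℕ, j ≤ N → τ ^ j ∈ riemannRochSpace ((N : ℤ) • B) := by
  classical
  rcases eq_or_ne τ 0 with rfl | hτ
  · refine ⟨0, le_rfl, fun _ _ => rfl, fun N j _ => ?_⟩
    rw [smul_zero, mem_riemannRochSpace_iff]
    intro v
    rcases Nat.eq_zero_or_pos j with rfl | hj
    · right
      rw [pow_zero]
      simp [Place.ord_one]
    · left
      exact zero_pow hj.ne'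
  · obtain ⟨D, hD, -⟩ := HasPrincipalDivisors.exists_divisor (K := K) τ hτ
    refine ⟨D.mapRange (fun n : ℤ => max 0 (-n)) (by simp), ?_, ?_, ?_⟩
    · intro v
      simp only [Finsupp.coe_zero, Pi.zero_apply, Finsupp.mapRange_apply]
      exact le_max_left _ _
    · intro v hv
      simp only [Finsupp.mapRange_apply]
      have h1 : 0 ≤ v.ord τ := (ord_nonneg_iff v hτ).mpr hv
      rw [hD v]
      exact max_eq_left (by omega)
    · intro N j hj
      rw [mem_riemannRochSpace_iff]
      intro v
      right
      have hord : v.ord (τ ^ j) = (j : ℤ) * v.ord τ := by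
        induction j with
        | zero => simp [Place.ord_one]
        | succ n ih =>
          rw [pow_succ, v.ord_mul (pow_ne_zero n hτ) hτ, ih (Nat.le_of_succ_le hj)]
          push_cast
          ring
      rw [hord]
      simp only [Finsupp.coe_smul, Pi.smul_apply, Finsupp.mapRange_apply, smul_eq_mul, hD v]
      have hjN : (j : ℤ) ≤ N := by exact_mod_cast hj
      have hj0 : (0 : ℤ) ≤ j := by positivity
      rcases le_or_gt 0 (v.ord τ) with h0 | h0
      · rw [max_eq_left (by omega)]
        simp only [mul_zero, neg_zero]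
        exact mul_nonneg hj0 h0
      · rw [max_eq_right (by omega)]
        nlinarith

end Fermat.Agent.S27

end
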