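/-
S27-B, crux LE, leaf **LE3-LIN** (helper87): the local form of the linear equivalence at a constant
point `Q`, from the BRIDGE (helper24, S27/Bridge.lean) — the inputs `e`, `e₂` of helper99's
`s27luv_main` (S27/LocUnitVal.lean) and `hLin`, `hLin'` of `s27le3_place` (S27/LE3Tau.lean).

Setting of S27/Bridge.lean: `K ⊆ 𝔠` the function field, `K ⊆ 𝔎`, `Ω = Frac (𝔠 ⊗[K] 𝔎)`,
`div h = Σ pt (R' i) + Con M' − Σ pt (R i)`, `Q` a place of `𝔠 / K`, `τ ∈ 𝒪_Q`.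

* `s27le3l_fwd` : `0 ≤ M' Q`, `p` a kernel vector of `[(R i τ) ^ j]` (e.g. the coefficients of
  `∏ (X − R i τ)`): there is a constant divisor `B` with `B Q ≤ 0` (so `L_K(B) ⊆ 𝒪_Q`) such that for
  every `K`-basis `x₂` of `L_K(B)`:  `h · Σ_j p_j τ^j = Σ_j c'_j x₂_j` with `c'` a kernel vector of
  `[R' i (x₂ j)]`;
* `s27le3l_bwd` : `M' Q ≤ 0`, `p'` a kernel vector of `[(R' i τ) ^ j]`: there is `B₁` with
  `B₁ Q ≤ 0` such that for every `K`-basis `x₁` of `L_K(B₁)`: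
  `h⁻¹ · Σ_j p'_j τ^j = Σ_j c_j x₁_j` with `c` a kernel vector of `[R i (x₁ j)]`.
-/
import Fermat.Agent.S27.Bridge
import Fermat.Agent.S27.LE3Pole

set_option autoImplicit false
set_option linter.style.haveILetI false
set_option linter.unusedSectionVars false
set_option linter.unusedVariables false

noncomputable section

namespace Fermat.Agent.S27

open AlgebraicCurve TensorProduct Fermat.Agent.S26

variable {K 𝔠 𝔎 Ω : Type*} [Field K] [Field 𝔠] [Field 𝔎] [Field Ω]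
  [Algebra K 𝔠] [Algebra K 𝔎] [Algebra K Ω] [Algebra 𝔠 Ω] [Algebra 𝔎 Ω]
  [IsScalarTower K 𝔠 Ω] [IsScalarTower K 𝔎 Ω]

variable (hld : Function.Injective (s26gspMu K 𝔠 𝔎 Ω)) (hgen : S26gspGen K 𝔠 𝔎 Ω)
  (hall : ∀ P : Place K 𝔠, Function.Surjective (algebraMap K P.ResidueField))
  {x : 𝔠} (hx : Transcendental K x)
  [FiniteDimensional ↥(IntermediateField.adjoin K {x}) 𝔠]
  [Algebra.IsSeparable ↥(IntermediateField.adjoin K {x}) 𝔠]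

/-- **LE3-LIN, forward**: `h · Σ_j p_j τ^j ∈ Σ 𝔎 · L_K(B)` with `L_K(B) ⊆ 𝒪_Q`. -/
theorem s27le3l_fwd [HasPrincipalDivisors K 𝔠] (Q : Place K 𝔠) (τ : 𝔠)
    (hτ : τ ∈ Q.toValuationSubring) (M' : Divisor K 𝔠) (hM' : 0 ≤ M' Q)
    {N N' : ℕ} (R : Fin N → 𝔠 →ₐ[K] 𝔎) (R' : Fin N' → 𝔠 →ₐ[K] 𝔎)
    (hR : Function.Injective R) (hR' : Function.Injective R')
    {h : Ω} (hh : h ≠ 0)
    (hdiv : ∀ v : Place 𝔎 Ω, v.ord h =
      (s27brgPts hld hgen hx R' + s27brgCon hld hgen hall M' - s27brgPts hld hgen hx R) v)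
    (n : ℕ) (p : Fin (n + 1) → 𝔎) (hp : ∀ i, ∑ j : Fin (n + 1), R i τ ^ (j : ℕ) * p j = 0) :
    ∃ B : Divisor K 𝔠, B Q ≤ 0 ∧
      ∀ {J' : Type} [Fintype J'] (x₂ : Module.Basis J' K ↥(riemannRochSpace B)),
        (∀ j, ((x₂ j : ↥(riemannRochSpace B)) : 𝔠) ∈ Q.toValuationSubring) ∧
        ∃ c' : J' → 𝔎, (∀ i, ∑ j, R' i ((x₂ j : ↥(riemannRochSpace B)) : 𝔠) * c' j = 0) ∧
          s27brgLin (Ω := Ω) (fun j => ((x₂ j : ↥(riemannRochSpace B)) : 𝔠)) c' =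
            h * s27brgLin (Ω := Ω) (fun j : Fin (n + 1) => τ ^ (j : ℕ)) p := by
  obtain ⟨B₀, hB₀, hB₀Q, hpow⟩ := s27le3l_poleDiv (K := K) τ
  have hBQ : ((n : ℤ) • B₀ - M') Q ≤ 0 := by
    simp only [Finsupp.coe_sub, Finsupp.coe_smul, Pi.sub_apply, Pi.smul_apply, smul_eq_mul,
      hB₀Q Q hτ, mul_zero]
    omega
  refine ⟨(n : ℤ) • B₀ - M', hBQ, fun {J'} _ x₂ => ⟨fun j => ?_, ?_⟩⟩
  · exact s27le3l_rr_mem _ Q hBQ (x₂ j).2
  · have hx₁ : ∀ j : Fin (n + 1), τ ^ (j : ℕ) ∈ riemannRochSpace ((n : ℤ) • B₀ - M' + M') := by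
      intro j
      rw [sub_add_cancel]
      exact hpow n j (Nat.lt_succ_iff.mp j.2)
    have hc : ∀ i, ∑ j : Fin (n + 1), R i (τ ^ (j : ℕ)) * p j = 0 := by
      intro i
      simpa only [map_pow] using hp i
    exact s27brg_linEq hld hgen hall hx ((n : ℤ) • B₀ - M') M' R R' hR hR' hh hdiv
      (fun j : Fin (n + 1) => τ ^ (j : ℕ)) hx₁ x₂ p hc

/-- **LE3-LIN, backward**: `h⁻¹ · Σ_j p'_j τ^j ∈ Σ 𝔎 · L_K(B₁)` with `L_K(B₁) ⊆ 𝒪_Q`. -/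
theorem s27le3l_bwd [HasPrincipalDivisors K 𝔠] (Q : Place K 𝔠) (τ : 𝔠)
    (hτ : τ ∈ Q.toValuationSubring) (M' : Divisor K 𝔠) (hM' : M' Q ≤ 0)
    {N N' : ℕ} (R : Fin N → 𝔠 →ₐ[K] 𝔎) (R' : Fin N' → 𝔠 →ₐ[K] 𝔎)
    (hR : Function.Injective R) (hR' : Function.Injective R')
    {h : Ω} (hh : h ≠ 0)
    (hdiv : ∀ v : Place 𝔎 Ω, v.ord h =
      (s27brgPts hld hgen hx R' + s27brgCon hld hgen hall M' - s27brgPts hld hgen hx R) v)
    (n : ℕ) (p' : Fin (n + 1) → 𝔎)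
    (hp' : ∀ i, ∑ j : Fin (n + 1), R' i τ ^ (j : ℕ) * p' j = 0) :
    ∃ B₁ : Divisor K 𝔠, B₁ Q ≤ 0 ∧
      ∀ {J : Type} [Fintype J] (x₁ : Module.Basis J K ↥(riemannRochSpace B₁)),
        (∀ j, ((x₁ j : ↥(riemannRochSpace B₁)) : 𝔠) ∈ Q.toValuationSubring) ∧
        ∃ c : J → 𝔎, (∀ i, ∑ j, R i ((x₁ j : ↥(riemannRochSpace B₁)) : 𝔠) * c j = 0) ∧
          s27brgLin (Ω := Ω) (fun j => ((x₁ j : ↥(riemannRochSpace B₁)) : 𝔠)) c =
            h⁻¹ * s27brgLin (Ω := Ω) (fun j : Fin (n + 1) => τ ^ (j : ℕ)) p' := by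
  have hdiv' : ∀ v : Place 𝔎 Ω, v.ord h⁻¹ =
      (s27brgPts hld hgen hx R + s27brgCon hld hgen hall (-M') - s27brgPts hld hgen hx R') v := by
    intro v
    rw [v.ord_inv, hdiv v]
    have h1 : s27brgCon hld hgen hall (-M') = -s27brgCon hld hgen hall M' := by
      unfold s27brgCon
      exact map_neg (Finsupp.mapDomain.addMonoidHom (s26gspCon hld hgen hall)) M'
    rw [h1]
    simp only [Finsupp.coe_sub, Finsupp.coe_add, Finsupp.coe_neg, Pi.sub_apply, Pi.add_apply,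
      Pi.neg_apply]
    ring
  have hM'' : 0 ≤ (-M') Q := by
    simp only [Finsupp.coe_neg, Pi.neg_apply]
    omega
  exact s27le3l_fwd hld hgen hall hx Q τ hτ (-M') hM'' R' R hR' hR (inv_ne_zero hh) hdiv' n p' hp'

end Fermat.Agent.S27

end
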