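/-
S27 route B, LE-TOP row 7 (helper82): **`hval` of `s27le5_asm_scale` ON THE STAGE**, any field of
points `L ⊇ K` (no algebraic closedness), from the divisor of `h` in the BRIDGE shape.

Instance of helper99's `s27lut_hval` (S27/LocUnitTop.lean, Bridge frame) at the captain's stage
`F_L = s27stgFL K F L`, `Rd = s27giRd K F W hKW` (helper21, S27/GaussInst.lean),
`𝒪 l = (Con (Q l)).toValuationSubring`, `Con = s26gspCon (s27stg_hld K F L) (s27stg_hgen K F L) hall`:

* `s27l3s_hred`  : the centre dichotomy for a tuple of points (curve case, `s27adex_hred_curve`);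
* **`s27l3s_hval`** : `hdiv : ord_v h = (Σ pt (R' i) + Con M' − Σ pt (R i)) v` (the hypothesis of
  `s27brg_linEq`), `Q l` off `supp M'` and not a centre of any `R i`, `R' i` along `W`
  ⇒ LITERALLY the hypothesis `hval` of `s27le5_asm_scale` (with `𝔉 = s27stgFL K F L`);
* `s27l3s_hval_principal` : the same, with `h` taken from `Divisor.IsPrincipal` together with
  its divisor (so that `hlin12`, `hlin21` (`s27brg_linEq`) and `hval` speak of the SAME `h`).

The twin for `L` algebraically closed is helper12's `s27rpv_hval_stage` (S27/RedPtVal.lean).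
-/
import Fermat.Agent.S27.LocUnitTop
import Fermat.Agent.S27.GaussInst
import Fermat.Agent.S27.AdExPred
import Fermat.Agent.S27.PtDef

set_option autoImplicit false
set_option linter.unusedSectionVars false
set_option linter.unusedVariables false
set_option linter.style.haveILetI false

noncomputable section

namespace Fermat.Agent.S27

open AlgebraicCurve Module IntermediateField
open Fermat.Agent.S24 Fermat.Agent.S26 Fermat.Agent.DEU

universe u v w

variable (K : Type u) (F : Type v) {L : Type w} [Field K] [Field F] [Field L] [Algebra K F]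
  [Algebra K L] [IsAlgClosed K]

/-- the centre dichotomy for every point of a tuple (curve case). -/
theorem s27l3s_hred {x : F} (hx : Transcendental K x) [FiniteDimensional K⟮x⟯ F]
    (W : ValuationSubring L) (hKW : ∀ c : K, algebraMap K L c ∈ W)
    {N : ℕ} (R : Fin N → F →ₐ[K] L) :
    ∀ i, (∀ f : F, R i f ∈ W) ∨
      ∃ Q' : Place K F, W.comap (R i : F →+* L) = Q'.toValuationSubring :=
  fun i => s27adex_hred_curve x hx W hKW (R i)

/-- **`hval` on the stage, LITERAL** (row 7 of the LE-TOP table), any field `L ⊇ K`, from the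
divisor of `h` in the shape of `s27brg_linEq`. -/
theorem s27l3s_hval {x : F} (hx : Transcendental K x) [FiniteDimensional K⟮x⟯ F]
    [Algebra.IsSeparable K⟮x⟯ F]
    (hall : ∀ P : Place K F, Function.Surjective (algebraMap K P.ResidueField))
    (W : ValuationSubring L) (hKW : ∀ c : K, algebraMap K L c ∈ W)
    (M' : Divisor K F) {N N' : ℕ} (R : Fin N → F →ₐ[K] L) (R' : Fin N' → F →ₐ[K] L)
    (hR : Function.Injective R) (hR' : Function.Injective R')
    {h : s27stgFL K F L} (hh0 : h ≠ 0)
    (hdiv : ∀ v : Place L (s27stgFL K F L), v.ord h =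
      (s27brgPts (s27stg_hld K F L) (s27stg_hgen K F L) hx R' +
        s27brgCon (s27stg_hld K F L) (s27stg_hgen K F L) hall M' -
        s27brgPts (s27stg_hld K F L) (s27stg_hgen K F L) hx R) v)
    {κ : Type*} (Q : κ → Place K F) (hQM : ∀ l, M' (Q l) = 0)
    (hQ : ∀ l i, ¬ S27ptIsCentre W (R i) (Q l))
    (hQ' : ∀ l i, ¬ S27ptIsCentre W (R' i) (Q l)) :
    ∀ c : L, c ≠ 0 →
      S27legrNorm (s27giRd K F W hKW) (algebraMap L (s27stgFL K F L) c * h) →
      ∀ l, ∃ a : L,
        S27llVal (s26gspCon (s27stg_hld K F L) (s27stg_hgen K F L) hall (Q l)).toValuationSubring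
          (algebraMap L (s27stgFL K F L) c * h) a ∧ a ∈ W ∧ a⁻¹ ∈ W ∧ a ≠ 0 := by
  intro c hc0 hnorm l
  exact s27lut_hval (s27stg_hld K F L) (s27stg_hgen K F L) hall hx (s27giRd K F W hKW) hKW
    (fun n y hy => s27gi_lat K F W hKW y hy) M' R R' hR hR' hh0 hdiv (Q l) (hQM l)
    (s27l3s_hred K F hx W hKW R) (s27l3s_hred K F hx W hKW R')
    (fun i => hQ l i) (fun i => hQ' l i) c hc0 hnorm

/-- **`h`, `hlin`-ready divisor and `hval` from a linear equivalence**: if
`Σ pt (R' i) + Con M' − Σ pt (R i)` is principal, there is `h ≠ 0` with this divisor (feed it to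
`s27brg_linEq` for `hlin12` / `hlin21`) for which `hval` holds at every family of places `Q l`
off `supp M'` and off the centres. -/
theorem s27l3s_hval_principal {x : F} (hx : Transcendental K x) [FiniteDimensional K⟮x⟯ F]
    [Algebra.IsSeparable K⟮x⟯ F]
    (hall : ∀ P : Place K F, Function.Surjective (algebraMap K P.ResidueField))
    (M' : Divisor K F) {N N' : ℕ} (R : Fin N → F →ₐ[K] L) (R' : Fin N' → F →ₐ[K] L)
    (hR : Function.Injective R) (hR' : Function.Injective R')
    (hprin : Divisor.IsPrincipal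
      (s27brgPts (s27stg_hld K F L) (s27stg_hgen K F L) hx R' +
        s27brgCon (s27stg_hld K F L) (s27stg_hgen K F L) hall M' -
        s27brgPts (s27stg_hld K F L) (s27stg_hgen K F L) hx R)) :
    ∃ h : s27stgFL K F L, h ≠ 0 ∧
      (∀ v : Place L (s27stgFL K F L), v.ord h =
        (s27brgPts (s27stg_hld K F L) (s27stg_hgen K F L) hx R' +
          s27brgCon (s27stg_hld K F L) (s27stg_hgen K F L) hall M' -
          s27brgPts (s27stg_hld K F L) (s27stg_hgen K F L) hx R) v) ∧
      ∀ (W : ValuationSubring L) (hKW : ∀ c : K, algebraMap K L c ∈ W)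
        {κ : Type} (Q : κ → Place K F), (∀ l, M' (Q l) = 0) →
        (∀ l i, ¬ S27ptIsCentre W (R i) (Q l)) → (∀ l i, ¬ S27ptIsCentre W (R' i) (Q l)) →
        ∀ c : L, c ≠ 0 →
          S27legrNorm (s27giRd K F W hKW) (algebraMap L (s27stgFL K F L) c * h) →
          ∀ l, ∃ a : L,
            S27llVal
              (s26gspCon (s27stg_hld K F L) (s27stg_hgen K F L) hall (Q l)).toValuationSubring
              (algebraMap L (s27stgFL K F L) c * h) a ∧ a ∈ W ∧ a⁻¹ ∈ W ∧ a ≠ 0 := by
  obtain ⟨h, hh, hdiv⟩ := hprin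
  refine ⟨h, hh, fun v => (hdiv v).symm, fun W hKW κ Q hQM hQ hQ' => ?_⟩
  exact s27l3s_hval K F hx hall W hKW M' R R' hR hR' hh (fun v => (hdiv v).symm) Q hQM hQ hQ'

end Fermat.Agent.S27

end
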