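import Fermat.Agent.S27.PtDef
import Fermat.Agent.S27.LeDual

/-!
# S27 route B, crux LE(b): **LE5 CONCRETE** (helper27) — class invariance of the local equation

Blueprint NOTES/S27-LE.md, LE5; on the definitions of `S27/PtDef.lean` (hub helper95) and the
dual presentation `S27/LeDual.lean` (helper38), minimal minors `S27/DetMin.lean` (helper60).

## Abstract part (matrices over a field `𝔏` with a valuation subring `W`)
* `s27le5_exists_minor` : `det (E * D) ≠ 0` ⇒ some maximal minor of `E` is nonzero;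
* `s27le5_exists_U` : a `W`-basis `U` of the kernel lattice of `E`, in the shape of `s27ld_dual`;
* `s27le5_core` : two evaluation matrices `E`, `E'` whose `W`-integral kernel vectors correspond
  with `p' ∘ inr = T *ᵥ (p ∘ inr)`, `det T` a unit of `W` (both directions; NO injectivity
  needed): the two point formulas `det E_f / (minimal minor)` agree up to a unit of `W`.

## Concrete part (points `R i : F →ₐ[K] 𝔏`)
* `s27le5E R x` : the evaluation matrix `[R i (x j)]`;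
* `s27le5_latBasis` : a minimal minor of the values of a family `x` that spans the lattice of
  values is a lattice basis (`S27ptIsLatBasis`);
* `s27le5_main` : **LE5**.
-/

set_option autoImplicit false

noncomputable section

namespace Fermat.Agent.S27

open Matrix

section abstract

variable {𝔏 : Type*} [Field 𝔏] (W : ValuationSubring 𝔏)
variable {ι ι' κ : Type*} [Fintype ι] [DecidableEq ι] [Fintype ι'] [DecidableEq ι']
  [Fintype κ] [DecidableEq κ]

/-- If `det (E * D) ≠ 0` then some maximal minor of `E` is nonzero (multilinear expansion). -/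
theorem s27le5_exists_minor {J : Type*} [Fintype J] (E : Matrix ι J 𝔏) (D : Matrix J ι 𝔏)
    (h : (E * D).det ≠ 0) : ∃ σ : ι → J, (E.submatrix id σ).det ≠ 0 := by
  classical
  by_contra hcon
  simp only [not_exists, not_not] at hcon
  apply h
  have e1 : (E * D).det
      = Matrix.detRowAlternating (fun k : ι => ∑ j : J, D j k • (fun i : ι => E i j)) := by
    rw [← Matrix.det_transpose]
    show Matrix.detRowAlternating ((E * D)ᵀ) = _
    congr 1
    funext k i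
    simp only [Matrix.transpose_apply, Matrix.mul_apply, Finset.sum_apply, Pi.smul_apply,
      smul_eq_mul]
    exact Finset.sum_congr rfl fun j _ => mul_comm _ _
  have e2 : Matrix.detRowAlternating (fun k : ι => ∑ j : J, D j k • (fun i : ι => E i j))
      = ∑ r : ι → J, Matrix.detRowAlternating
          (fun k => D (r k) k • (fun i : ι => E i (r k))) :=
    (Matrix.detRowAlternating (R := 𝔏) (n := ι)).toMultilinearMap.map_sum
      (fun (k : ι) (j : J) => D j k • (fun i : ι => E i j))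
  rw [e1, e2]
  refine Finset.sum_eq_zero fun r _ => ?_
  have e3 : Matrix.detRowAlternating (fun k => D (r k) k • (fun i : ι => E i (r k)))
      = (∏ k, D (r k) k) • Matrix.detRowAlternating (fun k => (fun i : ι => E i (r k))) :=
    (Matrix.detRowAlternating (R := 𝔏) (n := ι)).toMultilinearMap.map_smul_univ
      (fun k => D (r k) k) (fun k => (fun i : ι => E i (r k)))
  have e4 : Matrix.detRowAlternating (fun k => (fun i : ι => E i (r k)))
      = (E.submatrix id r).det := by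
    rw [← Matrix.det_transpose]
    rfl
  rw [e3, e4, hcon r, smul_zero]

theorem s27le5_injective_of_det_ne {J : Type*} (E : Matrix ι J 𝔏) (σ₀ : ι → J)
    (h0 : (E.submatrix id σ₀).det ≠ 0) : Function.Injective σ₀ := by
  intro a b hab
  by_contra hne
  apply h0
  refine Matrix.det_zero_of_column_eq hne fun i => ?_
  simp only [Matrix.submatrix_apply, id_eq, hab]

/-- A permutation of `ι ⊕ κ` extending an injective `σ₀ : ι → ι ⊕ κ`. -/
theorem s27le5_exists_perm (σ₀ : ι → ι ⊕ κ) (hσ : Function.Injective σ₀) :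
    ∃ π : Equiv.Perm (ι ⊕ κ), ∀ k, π (Sum.inl k) = σ₀ k := by
  classical
  let e₀ : {x : ι ⊕ κ // x ∈ Set.range (Sum.inl : ι → ι ⊕ κ)} ≃
      {x : ι ⊕ κ // x ∈ Set.range σ₀} :=
    (Equiv.ofInjective (Sum.inl : ι → ι ⊕ κ) Sum.inl_injective).symm.trans
      (Equiv.ofInjective σ₀ hσ)
  refine ⟨e₀.extendSubtype, fun k => ?_⟩
  rw [Equiv.extendSubtype_apply_of_mem e₀ (Sum.inl k) ⟨k, rfl⟩]
  show ((Equiv.ofInjective σ₀ hσ)
    ((Equiv.ofInjective (Sum.inl : ι → ι ⊕ κ) Sum.inl_injective).symm ⟨Sum.inl k, ⟨k, rfl⟩⟩) : ι ⊕ κ)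
      = σ₀ k
  have : (Equiv.ofInjective (Sum.inl : ι → ι ⊕ κ) Sum.inl_injective).symm ⟨Sum.inl k, ⟨k, rfl⟩⟩
      = k := Equiv.ofInjective_symm_apply Sum.inl_injective k
  rw [this]
  rfl

/-- A `W`-basis `U` of the kernel lattice of `E`, in the shape of `s27ld_dual`. -/
theorem s27le5_exists_U (E : Matrix ι (ι ⊕ κ) 𝔏) (σ₀ : ι → ι ⊕ κ)
    (h0 : (E.submatrix id σ₀).det ≠ 0)
    (hmin : ∀ σ : ι → ι ⊕ κ, (E.submatrix id σ).det / (E.submatrix id σ₀).det ∈ W) :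
    ∃ U : Matrix (ι ⊕ κ) κ 𝔏, (∀ j l, U j l ∈ W) ∧ E * U = 0 ∧
      ∀ p : ι ⊕ κ → 𝔏, E *ᵥ p = 0 → (∀ j, p j ∈ W) →
        ∃ a : κ → 𝔏, (∀ l, a l ∈ W) ∧ p = U *ᵥ a := by
  classical
  obtain ⟨π, hπ⟩ := s27le5_exists_perm σ₀ (s27le5_injective_of_det_ne E σ₀ h0)
  -- Cramer
  have hcr : ∀ j : ι ⊕ κ, ∃ c : ι → 𝔏, (∀ k, c k ∈ W) ∧
      (fun i => E i j) = ∑ k, c k • (fun i => E i (σ₀ k)) :=
    fun j => s27dm_span W (fun j i => E i j) σ₀ h0 hmin j
  choose c hcW hc using hcr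
  have hcE : ∀ j i, E i j = ∑ k, c j k * E i (σ₀ k) := by
    intro j i
    have := congrFun (hc j) i
    simpa [Finset.sum_apply, Pi.smul_apply, smul_eq_mul] using this
  let U : Matrix (ι ⊕ κ) κ 𝔏 := Matrix.of fun j l =>
    Sum.elim (fun k => - c (π (Sum.inr l)) k) (fun l' => if l' = l then 1 else 0) (π.symm j)
  have hUl : ∀ k l, U (π (Sum.inl k)) l = - c (π (Sum.inr l)) k := by
    intro k l
    simp [U]
  have hUr : ∀ l' l, U (π (Sum.inr l')) l = if l' = l then 1 else 0 := by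
    intro l' l
    simp [U]
  have hsum : ∀ (g : ι ⊕ κ → 𝔏), ∑ j, g j = ∑ k, g (σ₀ k) + ∑ l, g (π (Sum.inr l)) := by
    intro g
    rw [← Equiv.sum_comp π g, Fintype.sum_sum_type]
    simp only [hπ]
  have hEU : E * U = 0 := by
    ext i l
    rw [Matrix.mul_apply, hsum, Matrix.zero_apply]
    have h1 : ∑ k, E i (σ₀ k) * U (σ₀ k) l = - ∑ k, c (π (Sum.inr l)) k * E i (σ₀ k) := by
      rw [← Finset.sum_neg_distrib]
      refine Finset.sum_congr rfl fun k _ => ?_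
      rw [← hπ k, hUl, hπ k]
      ring
    have h2 : ∑ l', E i (π (Sum.inr l')) * U (π (Sum.inr l')) l = E i (π (Sum.inr l)) := by
      simp only [hUr, mul_ite, mul_one, mul_zero]
      rw [Finset.sum_ite_eq' Finset.univ l (fun l' => E i (π (Sum.inr l')))]
      simp
    rw [h1, h2, ← hcE]
    ring
  refine ⟨U, ?_, hEU, ?_⟩
  · intro j l
    obtain ⟨j', rfl⟩ := π.surjective j
    rcases j' with k | l'
    · rw [hUl]
      exact W.neg_mem _ (hcW _ k)
    · rw [hUr]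
      split_ifs
      · exact W.one_mem
      · exact W.zero_mem
  · intro p hp hpW
    refine ⟨fun l => p (π (Sum.inr l)), fun l => hpW _, ?_⟩
    have hEr : E *ᵥ (p - U *ᵥ (fun l => p (π (Sum.inr l)))) = 0 := by
      rw [Matrix.mulVec_sub, hp, Matrix.mulVec_mulVec, hEU, Matrix.zero_mulVec, sub_zero]
    have hrr : ∀ l, (p - U *ᵥ (fun l => p (π (Sum.inr l)))) (π (Sum.inr l)) = 0 := by
      intro l
      rw [Pi.sub_apply, Matrix.mulVec, dotProduct]
      simp only [hUr, ite_mul, one_mul, zero_mul]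
      rw [Finset.sum_ite_eq Finset.univ l (fun l' => p (π (Sum.inr l')))]
      simp
    have hA₀ : (E.submatrix id σ₀) *ᵥ
        (fun k => (p - U *ᵥ (fun l => p (π (Sum.inr l)))) (σ₀ k)) = 0 := by
      funext i
      have h3 := congrFun hEr i
      rw [Matrix.mulVec, dotProduct, hsum] at h3
      simp only [hrr, mul_zero, Finset.sum_const_zero, add_zero] at h3
      rw [Matrix.mulVec, dotProduct]
      exact h3
    have hr0 := Matrix.eq_zero_of_mulVec_eq_zero h0 hA₀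
    have hrz : p - U *ᵥ (fun l => p (π (Sum.inr l))) = 0 := by
      funext j
      obtain ⟨j', rfl⟩ := π.surjective j
      rcases j' with k | l
      · rw [hπ]
        exact congrFun hr0 k
      · exact hrr l
    exact sub_eq_zero.mp hrz

/-- **Core of LE, `U`-form**: if for every `W`-basis `U` of the kernel lattice of `E` there are a
`W`-basis `U'` of the kernel lattice of `E'` and a matrix `M` with unit determinant with
`U'_q = M * U_q`, the two point formulas agree up to a unit of `W`. -/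
theorem s27le5_core_U (E : Matrix ι (ι ⊕ κ) 𝔏) (E' : Matrix ι' (ι' ⊕ κ) 𝔏)
    (σ₀ : ι → ι ⊕ κ) (σ₀' : ι' → ι' ⊕ κ) (h0 : (E.submatrix id σ₀).det ≠ 0)
    (hmin : ∀ σ : ι → ι ⊕ κ, (E.submatrix id σ).det / (E.submatrix id σ₀).det ∈ W)
    (h0' : (E'.submatrix id σ₀').det ≠ 0)
    (hmin' : ∀ σ : ι' → ι' ⊕ κ, (E'.submatrix id σ).det / (E'.submatrix id σ₀').det ∈ W)
    (hrel : ∀ U : Matrix (ι ⊕ κ) κ 𝔏, (∀ j l, U j l ∈ W) → E * U = 0 →
      (∀ p : ι ⊕ κ → 𝔏, E *ᵥ p = 0 → (∀ j, p j ∈ W) →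
        ∃ a : κ → 𝔏, (∀ l, a l ∈ W) ∧ p = U *ᵥ a) →
      ∃ (U' : Matrix (ι' ⊕ κ) κ 𝔏) (M : Matrix κ κ 𝔏), (∀ j l, U' j l ∈ W) ∧
        (∀ p : ι' ⊕ κ → 𝔏, E' *ᵥ p = 0 → (∀ j, p j ∈ W) →
          ∃ a : κ → 𝔏, (∀ l, a l ∈ W) ∧ p = U' *ᵥ a) ∧
        S27ldUnit W M.det ∧ U'.submatrix Sum.inr id = M * U.submatrix Sum.inr id) :
    ∃ c : 𝔏, S27ldUnit W c ∧
      (E'.submatrix id Sum.inl).det / (E'.submatrix id σ₀').det
        = c * ((E.submatrix id Sum.inl).det / (E.submatrix id σ₀).det) := by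
  obtain ⟨U, hUW, hEU, hsat⟩ := s27le5_exists_U W E σ₀ h0 hmin
  obtain ⟨U', M, hUW', hsat', hM, hMU⟩ := hrel U hUW hEU hsat
  exact s27ld_le_core W E E' U U' hUW hsat hUW' hsat' σ₀ σ₀' h0 hmin h0' hmin' M hM hMU

/-- **Core of LE, relation form**, non-degenerate on the side of `E'`. -/
theorem s27le5_core_aux (E : Matrix ι (ι ⊕ κ) 𝔏) (E' : Matrix ι' (ι' ⊕ κ) 𝔏)
    (σ₀ : ι → ι ⊕ κ) (σ₀' : ι' → ι' ⊕ κ) (h0 : (E.submatrix id σ₀).det ≠ 0)
    (hmin : ∀ σ : ι → ι ⊕ κ, (E.submatrix id σ).det / (E.submatrix id σ₀).det ∈ W)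
    (h0' : (E'.submatrix id σ₀').det ≠ 0)
    (hmin' : ∀ σ : ι' → ι' ⊕ κ, (E'.submatrix id σ).det / (E'.submatrix id σ₀').det ∈ W)
    (T : Matrix κ κ 𝔏) (hT : S27ldUnit W T.det)
    (h12 : ∀ p : ι ⊕ κ → 𝔏, E *ᵥ p = 0 → (∀ j, p j ∈ W) →
      ∃ p' : ι' ⊕ κ → 𝔏, E' *ᵥ p' = 0 ∧ (∀ j, p' j ∈ W) ∧
        (fun l => p' (Sum.inr l)) = T *ᵥ (fun l => p (Sum.inr l)))
    (h21 : ∀ p' : ι' ⊕ κ → 𝔏, E' *ᵥ p' = 0 → (∀ j, p' j ∈ W) →
      ∃ p : ι ⊕ κ → 𝔏, E *ᵥ p = 0 ∧ (∀ j, p j ∈ W) ∧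
        (fun l => p' (Sum.inr l)) = T *ᵥ (fun l => p (Sum.inr l)))
    (hne' : (E'.submatrix id Sum.inl).det ≠ 0) :
    ∃ c : 𝔏, S27ldUnit W c ∧
      (E'.submatrix id Sum.inl).det / (E'.submatrix id σ₀').det
        = c * ((E.submatrix id Sum.inl).det / (E.submatrix id σ₀).det) := by
  classical
  refine s27le5_core_U W E E' σ₀ σ₀' h0 hmin h0' hmin' ?_
  intro U hUW hEU hsat
  -- the columns of `U` are kernel vectors
  have hcol : ∀ l, E *ᵥ (fun j => U j l) = 0 := by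
    intro l
    funext i
    have := congrFun (congrFun hEU i) l
    rw [Matrix.mul_apply, Matrix.zero_apply] at this
    rw [Matrix.mulVec, dotProduct]
    exact this
  choose p' hp'E hp'W hp'T using fun l => h12 (fun j => U j l) (hcol l) (fun j => hUW j l)
  let U' : Matrix (ι' ⊕ κ) κ 𝔏 := Matrix.of fun j l => p' l j
  have hMU : U'.submatrix Sum.inr id = T * U.submatrix Sum.inr id := by
    ext m l
    have := congrFun (hp'T l) m
    rw [Matrix.mul_apply]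
    rw [Matrix.mulVec, dotProduct] at this
    exact this
  have hE'U' : E' * U' = 0 := by
    ext i l
    have := congrFun (hp'E l) i
    rw [Matrix.mulVec, dotProduct] at this
    rw [Matrix.mul_apply, Matrix.zero_apply]
    exact this
  refine ⟨U', T, fun j l => hp'W l j, ?_, hT, hMU⟩
  intro q hqE hqW
  obtain ⟨p, hpE, hpW, hpT⟩ := h21 q hqE hqW
  obtain ⟨a, haW, hpa⟩ := hsat p hpE hpW
  refine ⟨a, haW, ?_⟩
  -- `r := q - U' a` is a kernel vector with vanishing `q`-part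
  have hEr : E' *ᵥ (q - U' *ᵥ a) = 0 := by
    rw [Matrix.mulVec_sub, hqE, Matrix.mulVec_mulVec, hE'U', Matrix.zero_mulVec, sub_zero]
  have hrr : ∀ m, (q - U' *ᵥ a) (Sum.inr m) = 0 := by
    intro m
    have h1 : q (Sum.inr m) = (T *ᵥ (fun l => p (Sum.inr l))) m := congrFun hpT m
    have h2 : (fun l => p (Sum.inr l)) = (U.submatrix Sum.inr id) *ᵥ a := by
      funext l
      have := congrFun hpa (Sum.inr l)
      rw [this]
      rfl
    have h3 : (U' *ᵥ a) (Sum.inr m) = ((U'.submatrix Sum.inr id) *ᵥ a) m := rfl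
    rw [Pi.sub_apply, h1, h2, h3, hMU, Matrix.mulVec_mulVec, sub_self]
  have hA : (E'.submatrix id Sum.inl) *ᵥ (fun k => (q - U' *ᵥ a) (Sum.inl k)) = 0 := by
    funext i
    have h3 := congrFun hEr i
    rw [Matrix.mulVec, dotProduct, Fintype.sum_sum_type] at h3
    simp only [hrr, mul_zero, Finset.sum_const_zero, add_zero] at h3
    rw [Matrix.mulVec, dotProduct]
    exact h3
  have hr0 := Matrix.eq_zero_of_mulVec_eq_zero hne' hA
  have hrz : q - U' *ᵥ a = 0 := by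
    funext j
    rcases j with k | m
    · exact congrFun hr0 k
    · exact hrr m
  exact sub_eq_zero.mp hrz

/-- **Core of LE, relation form**: the `W`-integral kernel vectors of `E` and `E'` correspond
with `p' ∘ inr = T *ᵥ (p ∘ inr)`, `det T` a unit of `W`.  Then the two point formulas agree up to
a unit of `W` (the degenerate case is included). -/
theorem s27le5_core (E : Matrix ι (ι ⊕ κ) 𝔏) (E' : Matrix ι' (ι' ⊕ κ) 𝔏)
    (σ₀ : ι → ι ⊕ κ) (σ₀' : ι' → ι' ⊕ κ) (h0 : (E.submatrix id σ₀).det ≠ 0)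
    (hmin : ∀ σ : ι → ι ⊕ κ, (E.submatrix id σ).det / (E.submatrix id σ₀).det ∈ W)
    (h0' : (E'.submatrix id σ₀').det ≠ 0)
    (hmin' : ∀ σ : ι' → ι' ⊕ κ, (E'.submatrix id σ).det / (E'.submatrix id σ₀').det ∈ W)
    (T : Matrix κ κ 𝔏) (hT : S27ldUnit W T.det)
    (h12 : ∀ p : ι ⊕ κ → 𝔏, E *ᵥ p = 0 → (∀ j, p j ∈ W) →
      ∃ p' : ι' ⊕ κ → 𝔏, E' *ᵥ p' = 0 ∧ (∀ j, p' j ∈ W) ∧
        (fun l => p' (Sum.inr l)) = T *ᵥ (fun l => p (Sum.inr l)))
    (h21 : ∀ p' : ι' ⊕ κ → 𝔏, E' *ᵥ p' = 0 → (∀ j, p' j ∈ W) →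
      ∃ p : ι ⊕ κ → 𝔏, E *ᵥ p = 0 ∧ (∀ j, p j ∈ W) ∧
        (fun l => p' (Sum.inr l)) = T *ᵥ (fun l => p (Sum.inr l))) :
    ∃ c : 𝔏, S27ldUnit W c ∧
      (E'.submatrix id Sum.inl).det / (E'.submatrix id σ₀').det
        = c * ((E.submatrix id Sum.inl).det / (E.submatrix id σ₀).det) := by
  classical
  by_cases hne' : (E'.submatrix id Sum.inl).det = 0
  · by_cases hne : (E.submatrix id Sum.inl).det = 0
    · exact ⟨1, s27ld_unit_one W, by rw [hne', hne, zero_div, zero_div, mul_zero]⟩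
    · exfalso
      have hTu : IsUnit T.det := isUnit_iff_ne_zero.mpr hT.2.2
      have hTi : S27ldUnit W (T⁻¹).det := by
        have : (T⁻¹).det = (T.det)⁻¹ := by
          rw [Matrix.det_nonsing_inv, Ring.inverse_eq_inv']
        rw [this]
        exact s27ld_unit_inv W hT
      have hinv : ∀ (v w : κ → 𝔏), v = T *ᵥ w → w = T⁻¹ *ᵥ v := by
        intro v w hvw
        rw [hvw, Matrix.mulVec_mulVec, Matrix.nonsing_inv_mul _ hTu, Matrix.one_mulVec]
      obtain ⟨c, -, hc⟩ := s27le5_core_aux W E' E σ₀' σ₀ h0' hmin' h0 hmin T⁻¹ hTi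
        (fun p' hp'E hp'W => by
          obtain ⟨p, hpE, hpW, hpT⟩ := h21 p' hp'E hp'W
          exact ⟨p, hpE, hpW, hinv _ _ hpT⟩)
        (fun p hpE hpW => by
          obtain ⟨p', hp'E, hp'W, hpT⟩ := h12 p hpE hpW
          exact ⟨p', hp'E, hp'W, hinv _ _ hpT⟩) hne
      rw [hne', zero_div, mul_zero] at hc
      exact hne ((div_eq_zero_iff.mp hc).resolve_right h0)
  · exact s27le5_core_aux W E E' σ₀ σ₀' h0 hmin h0' hmin' T hT h12 h21 hne'

end abstract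

/-! ## Concrete part -/

section concrete

open AlgebraicCurve

universe u v w

variable {K : Type u} {F : Type v} [Field K] [Field F] [Algebra K F]
variable {𝔏 : Type w} [Field 𝔏] [Algebra K 𝔏]

/-- the evaluation matrix `[R i (x j)]` of a family `x : J → F`. -/
def s27le5E {N : ℕ} {J : Type*} (R : Fin N → F →ₐ[K] 𝔏) (x : J → F) : Matrix (Fin N) J 𝔏 :=
  Matrix.of fun i j => R i (x j)

@[simp] theorem s27le5E_apply {N : ℕ} {J : Type*} (R : Fin N → F →ₐ[K] 𝔏) (x : J → F)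
    (i : Fin N) (j : J) : s27le5E R x i j = R i (x j) := rfl

theorem s27le5E_submatrix {N : ℕ} {J : Type*} (R : Fin N → F →ₐ[K] 𝔏) (x : J → F)
    (σ : Fin N → J) : (s27le5E R x).submatrix id σ = s27ptVal R (x ∘ σ) := rfl

/-- the family `x = (f, q)`: a `K`-basis `f` of `L_K(A')` followed by `q`. -/
def s27le5X {N : ℕ} {κ : Type*} {A' : Divisor K F}
    (f : Module.Basis (Fin N) K ↥(riemannRochSpace A')) (q : κ → F) : Fin N ⊕ κ → F :=
  Sum.elim (fun l => ((f l : ↥(riemannRochSpace A')) : F)) q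

theorem s27le5X_inl {N : ℕ} {κ : Type*} {A' : Divisor K F}
    (f : Module.Basis (Fin N) K ↥(riemannRochSpace A')) (q : κ → F) (l : Fin N) :
    s27le5X f q (Sum.inl l) = ((f l : ↥(riemannRochSpace A')) : F) := rfl

theorem s27le5X_inr {N : ℕ} {κ : Type*} {A' : Divisor K F}
    (f : Module.Basis (Fin N) K ↥(riemannRochSpace A')) (q : κ → F) (l : κ) :
    s27le5X f q (Sum.inr l) = q l := rfl

theorem s27le5E_inl {N : ℕ} {κ : Type*} {A' : Divisor K F} (R : Fin N → F →ₐ[K] 𝔏)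
    (f : Module.Basis (Fin N) K ↥(riemannRochSpace A')) (q : κ → F) :
    (s27le5E R (s27le5X f q)).submatrix id Sum.inl = s27ptValB R f := rfl

theorem s27le5X_mem {N : ℕ} {κ : Type*} {A' : Divisor K F} (W : ValuationSubring 𝔏)
    (R : Fin N → F →ₐ[K] 𝔏) (f : Module.Basis (Fin N) K ↥(riemannRochSpace A')) (q : κ → F)
    (hq : ∀ l, q l ∈ s27ptF W R A') (j : Fin N ⊕ κ) : s27le5X f q j ∈ s27ptF W R A' := by
  rcases j with l | l
  · exact s27pt_rr_le W R A' (f l).2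
  · exact hq l

variable {N : ℕ} {W : ValuationSubring 𝔏} {R : Fin N → F →ₐ[K] 𝔏} {A' : Divisor K F}

/-- a minimal minor of the values of a family that spans the lattice of values is a lattice
basis. -/
theorem s27le5_latBasis {J : Type*} [Fintype J] (x : J → F)
    (hxF : ∀ j, x j ∈ s27ptF W R A')
    (hsurj : ∀ ψ ∈ s27ptF W R A', ∃ c : J → 𝔏, (∀ j, c j ∈ W) ∧
      ∀ i, R i ψ = ∑ j, R i (x j) * c j)
    (σ₀ : Fin N → J) (h0 : ((s27le5E R x).submatrix id σ₀).det ≠ 0)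
    (hmin : ∀ σ : Fin N → J,
      ((s27le5E R x).submatrix id σ).det / ((s27le5E R x).submatrix id σ₀).det ∈ W) :
    S27ptIsLatBasis W R A' (x ∘ σ₀) := by
  classical
  refine ⟨fun j => hxF (σ₀ j), h0, ?_⟩
  intro ψ hψ
  obtain ⟨c, hcW, hc⟩ := hsurj ψ hψ
  have hcr : ∀ j : J, ∃ d : Fin N → 𝔏, (∀ k, d k ∈ W) ∧
      (fun i => s27le5E R x i j) = ∑ k, d k • (fun i => s27le5E R x i (σ₀ k)) :=
    fun j => s27dm_span W (fun j i => s27le5E R x i j) σ₀ h0 hmin j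
  choose d hdW hd using hcr
  have hdE : ∀ j i, R i (x j) = ∑ k, d j k * R i (x (σ₀ k)) := by
    intro j i
    have := congrFun (hd j) i
    simpa [Finset.sum_apply, Pi.smul_apply, smul_eq_mul] using this
  refine ⟨fun k => ∑ j, d j k * c j, fun k => ?_, fun i => ?_⟩
  · exact Subring.sum_mem W.toSubring fun j _ => W.mul_mem _ _ (hdW j k) (hcW j)
  · rw [hc i]
    calc ∑ j, R i (x j) * c j = ∑ j, ∑ k, R i (x (σ₀ k)) * (d j k * c j) := by
          refine Finset.sum_congr rfl fun j _ => ?_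
          rw [hdE j i, Finset.sum_mul]
          refine Finset.sum_congr rfl fun k _ => ?_
          ring
      _ = ∑ k, ∑ j, R i (x (σ₀ k)) * (d j k * c j) := Finset.sum_comm
      _ = ∑ k, R i ((x ∘ σ₀) k) * ∑ j, d j k * c j := by
          refine Finset.sum_congr rfl fun k _ => ?_
          rw [Finset.mul_sum]
          rfl

/-- if the lattice of values has a basis, a spanning family has a minimal minor. -/
theorem s27le5_exists_min {J : Type*} [Fintype J] (x : J → F)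
    (hsurj : ∀ ψ ∈ s27ptF W R A', ∃ c : J → 𝔏, (∀ j, c j ∈ W) ∧
      ∀ i, R i ψ = ∑ j, R i (x j) * c j)
    {φ : Fin N → F} (hφ : S27ptIsLatBasis W R A' φ) :
    ∃ σ₀ : Fin N → J, ((s27le5E R x).submatrix id σ₀).det ≠ 0 ∧
      ∀ σ : Fin N → J,
        ((s27le5E R x).submatrix id σ).det / ((s27le5E R x).submatrix id σ₀).det ∈ W := by
  classical
  choose c _ hc using fun l => hsurj (φ l) (hφ.mem l)
  have hval : s27ptVal R φ = s27le5E R x * Matrix.of fun j l => c l j := by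
    ext i l
    rw [s27ptVal_apply, Matrix.mul_apply, hc l i]
    rfl
  have hne : (s27le5E R x * Matrix.of fun j l => c l j).det ≠ 0 := by
    rw [← hval]
    exact hφ.det_ne
  have hex := s27le5_exists_minor (s27le5E R x) _ hne
  exact s27dm_exists_min W (fun j i => s27le5E R x i j) hex

/-- the local equation attached to a minimal minor. -/
theorem s27le5_idx_of_min {κ : Type*} [Fintype κ]
    (f : Module.Basis (Fin N) K ↥(riemannRochSpace A')) (q : κ → F)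
    (hq : ∀ l, q l ∈ s27ptF W R A')
    (hsurj : ∀ ψ ∈ s27ptF W R A', ∃ c : Fin N ⊕ κ → 𝔏, (∀ j, c j ∈ W) ∧
      ∀ i, R i ψ = ∑ j, R i (s27le5X f q j) * c j)
    (σ₀ : Fin N → Fin N ⊕ κ)
    (h0 : ((s27le5E R (s27le5X f q)).submatrix id σ₀).det ≠ 0)
    (hmin : ∀ σ : Fin N → Fin N ⊕ κ,
      ((s27le5E R (s27le5X f q)).submatrix id σ).det /
        ((s27le5E R (s27le5X f q)).submatrix id σ₀).det ∈ W) :
    S27ptIsIdx W R A'
      (((s27le5E R (s27le5X f q)).submatrix id Sum.inl).det /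
        ((s27le5E R (s27le5X f q)).submatrix id σ₀).det) :=
  ⟨f, s27le5X f q ∘ σ₀,
    s27le5_latBasis (s27le5X f q) (s27le5X_mem W R f q hq) hsurj σ₀ h0 hmin, rfl⟩

section main

variable {N N' : ℕ} {κ : Type*} [Fintype κ] [DecidableEq κ]
variable {W : ValuationSubring 𝔏} {R : Fin N → F →ₐ[K] 𝔏} {R' : Fin N' → F →ₐ[K] 𝔏}
  {A₁ A₂ : Divisor K F}

/-- from the comparison of the two minimal-minor formulas to the comparison of any two local
equations. -/
theorem s27le5_of_core (hW : ∀ a : K, algebraMap K 𝔏 a ∈ W) {y₁ y₂ x₁ x₂ : 𝔏}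
    (hy₁ : S27ptIsIdx W R A₁ y₁) (hy₂ : S27ptIsIdx W R' A₂ y₂)
    (hcore : ∃ c : 𝔏, S27ldUnit W c ∧ y₂ = c * y₁)
    (h₁ : S27ptIsIdx W R A₁ x₁) (h₂ : S27ptIsIdx W R' A₂ x₂) :
    ∃ c : 𝔏, S27ldUnit W c ∧ x₂ = c * x₁ := by
  obtain ⟨c, hc, hyc⟩ := hcore
  obtain ⟨u₁, hu₁0, hu₁W, hu₁i, hu₁⟩ := s27pt_idx_unique hW hy₁ h₁
  obtain ⟨u₂, hu₂0, hu₂W, hu₂i, hu₂⟩ := s27pt_idx_unique hW h₂ hy₂
  refine ⟨u₂ * (c * u₁), s27ld_unit_mul W ⟨hu₂W, hu₂i, hu₂0⟩
    (s27ld_unit_mul W hc ⟨hu₁W, hu₁i, hu₁0⟩), ?_⟩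
  rw [hu₂, hyc, hu₁]
  ring

/-- **LE5, `U`-form** (the shape of the outputs of LE4 / `s27ld_le_core`).
`x = (f, q)`, `x' = (f', q')` families of functions (`K`-bases of `L_K(A₁ + G)`, `L_K(A₂ + G)`
extending `K`-bases of `L_K(A₁)`, `L_K(A₂)`), regular along the centres, whose values span the
lattices of values (INT-SURJ).  If for every `W`-basis `U` of the kernel lattice of the
evaluation at `R` there is a `W`-basis `U'` of the kernel lattice of the evaluation at `R'` whose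
principal parts are `M * (principal parts of U)`, `det M` a unit of `W`, then any two local
equations `x₁ = m_W(R, A₁)`, `x₂ = m_W(R', A₂)` differ by a unit of `W`. -/
theorem s27le5_main_U (hW : ∀ a : K, algebraMap K 𝔏 a ∈ W)
    (f : Module.Basis (Fin N) K ↥(riemannRochSpace A₁)) (q : κ → F)
    (f' : Module.Basis (Fin N') K ↥(riemannRochSpace A₂)) (q' : κ → F)
    (hq : ∀ l, q l ∈ s27ptF W R A₁) (hq' : ∀ l, q' l ∈ s27ptF W R' A₂)
    (hsurj : ∀ ψ ∈ s27ptF W R A₁, ∃ c : Fin N ⊕ κ → 𝔏, (∀ j, c j ∈ W) ∧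
      ∀ i, R i ψ = ∑ j, R i (s27le5X f q j) * c j)
    (hsurj' : ∀ ψ ∈ s27ptF W R' A₂, ∃ c : Fin N' ⊕ κ → 𝔏, (∀ j, c j ∈ W) ∧
      ∀ i, R' i ψ = ∑ j, R' i (s27le5X f' q' j) * c j)
    (hrel : ∀ U : Matrix (Fin N ⊕ κ) κ 𝔏, (∀ j l, U j l ∈ W) →
      s27le5E R (s27le5X f q) * U = 0 →
      (∀ p : Fin N ⊕ κ → 𝔏, s27le5E R (s27le5X f q) *ᵥ p = 0 → (∀ j, p j ∈ W) →
        ∃ a : κ → 𝔏, (∀ l, a l ∈ W) ∧ p = U *ᵥ a) →
      ∃ (U' : Matrix (Fin N' ⊕ κ) κ 𝔏) (M : Matrix κ κ 𝔏), (∀ j l, U' j l ∈ W) ∧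
        (∀ p : Fin N' ⊕ κ → 𝔏, s27le5E R' (s27le5X f' q') *ᵥ p = 0 → (∀ j, p j ∈ W) →
          ∃ a : κ → 𝔏, (∀ l, a l ∈ W) ∧ p = U' *ᵥ a) ∧
        S27ldUnit W M.det ∧ U'.submatrix Sum.inr id = M * U.submatrix Sum.inr id)
    {x₁ x₂ : 𝔏} (h₁ : S27ptIsIdx W R A₁ x₁) (h₂ : S27ptIsIdx W R' A₂ x₂) :
    ∃ c : 𝔏, S27ldUnit W c ∧ x₂ = c * x₁ := by
  classical
  obtain ⟨-, φ, hφ, -⟩ := id h₁
  obtain ⟨-, φ', hφ', -⟩ := id h₂
  obtain ⟨σ₀, h0, hmin⟩ := s27le5_exists_min (s27le5X f q) hsurj hφ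
  obtain ⟨σ₀', h0', hmin'⟩ := s27le5_exists_min (s27le5X f' q') hsurj' hφ'
  exact s27le5_of_core hW (s27le5_idx_of_min f q hq hsurj σ₀ h0 hmin)
    (s27le5_idx_of_min f' q' hq' hsurj' σ₀' h0' hmin')
    (s27le5_core_U W _ _ σ₀ σ₀' h0 hmin h0' hmin' hrel) h₁ h₂

/-- **LE5, relation form.**  As `s27le5_main_U`, with the hypothesis on the kernel lattices in
the form: the `W`-integral kernel vectors `p` (of the evaluation at `R`) and `p'` (at `R'`)
correspond (multiplication by the Gauss-normalised function `h₀`), with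
`p' ∘ inr = T *ᵥ (p ∘ inr)` on the principal parts, `det T` a unit of `W`.  No injectivity of the
correspondence is needed, and the degenerate case `θ = 0` is included. -/
theorem s27le5_main (hW : ∀ a : K, algebraMap K 𝔏 a ∈ W)
    (f : Module.Basis (Fin N) K ↥(riemannRochSpace A₁)) (q : κ → F)
    (f' : Module.Basis (Fin N') K ↥(riemannRochSpace A₂)) (q' : κ → F)
    (hq : ∀ l, q l ∈ s27ptF W R A₁) (hq' : ∀ l, q' l ∈ s27ptF W R' A₂)
    (hsurj : ∀ ψ ∈ s27ptF W R A₁, ∃ c : Fin N ⊕ κ → 𝔏, (∀ j, c j ∈ W) ∧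
      ∀ i, R i ψ = ∑ j, R i (s27le5X f q j) * c j)
    (hsurj' : ∀ ψ ∈ s27ptF W R' A₂, ∃ c : Fin N' ⊕ κ → 𝔏, (∀ j, c j ∈ W) ∧
      ∀ i, R' i ψ = ∑ j, R' i (s27le5X f' q' j) * c j)
    (T : Matrix κ κ 𝔏) (hT : S27ldUnit W T.det)
    (h12 : ∀ p : Fin N ⊕ κ → 𝔏, s27le5E R (s27le5X f q) *ᵥ p = 0 → (∀ j, p j ∈ W) →
      ∃ p' : Fin N' ⊕ κ → 𝔏, s27le5E R' (s27le5X f' q') *ᵥ p' = 0 ∧ (∀ j, p' j ∈ W) ∧
        (fun l => p' (Sum.inr l)) = T *ᵥ (fun l => p (Sum.inr l)))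
    (h21 : ∀ p' : Fin N' ⊕ κ → 𝔏, s27le5E R' (s27le5X f' q') *ᵥ p' = 0 → (∀ j, p' j ∈ W) →
      ∃ p : Fin N ⊕ κ → 𝔏, s27le5E R (s27le5X f q) *ᵥ p = 0 ∧ (∀ j, p j ∈ W) ∧
        (fun l => p' (Sum.inr l)) = T *ᵥ (fun l => p (Sum.inr l)))
    {x₁ x₂ : 𝔏} (h₁ : S27ptIsIdx W R A₁ x₁) (h₂ : S27ptIsIdx W R' A₂ x₂) :
    ∃ c : 𝔏, S27ldUnit W c ∧ x₂ = c * x₁ := by
  classical
  obtain ⟨-, φ, hφ, -⟩ := id h₁
  obtain ⟨-, φ', hφ', -⟩ := id h₂
  obtain ⟨σ₀, h0, hmin⟩ := s27le5_exists_min (s27le5X f q) hsurj hφ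
  obtain ⟨σ₀', h0', hmin'⟩ := s27le5_exists_min (s27le5X f' q') hsurj' hφ'
  exact s27le5_of_core hW (s27le5_idx_of_min f q hq hsurj σ₀ h0 hmin)
    (s27le5_idx_of_min f' q' hq' hsurj' σ₀' h0' hmin')
    (s27le5_core W _ _ σ₀ σ₀' h0 hmin h0' hmin' T hT h12 h21) h₁ h₂

/-- the kernel condition of `s27le5_main` in terms of sums. -/
theorem s27le5_mulVec_eq_zero_iff {J : Type*} [Fintype J] (R : Fin N → F →ₐ[K] 𝔏) (x : J → F)
    (p : J → 𝔏) : s27le5E R x *ᵥ p = 0 ↔ ∀ i, ∑ j, R i (x j) * p j = 0 := by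
  constructor
  · intro h i
    have := congrFun h i
    rw [Matrix.mulVec, dotProduct] at this
    exact this
  · intro h
    funext i
    rw [Matrix.mulVec, dotProduct]
    exact h i

end main

end concrete

end Fermat.Agent.S27
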