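import Fermat.Agent.S27.LE5
import Fermat.Agent.S27.LEGaussR
import Fermat.Agent.S27.LeLead

/-!
# S27 route B, crux LE(b): **LE5, assembly in the E-RED frame** (helper27)

`F / K` the constant curve, `𝔏 ⊇ K` the field of the points, `W ⊇ K` a valuation subring of `𝔏`,
`𝔉 ⊇ 𝔏` the function field over `𝔏` with a Gauss reduction datum `Rd : DEU.RedData 𝔏 𝔉 k Fb`
(`Rd.A = W`), `emb : F → 𝔉`.  From

* (GAUSS, helper21 `S27/LEGaussR.lean`) the Gauss lattice property of the two families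
  `emb ∘ x`, `emb ∘ x'` and a Gauss-normalised function `h`;
* (BRIDGE, helper24 `S27/Bridge.lean`) LinEq in coordinates: multiplication by `h` maps the
  kernel vectors of the evaluation at `R` to those at `R'`, and back;
* (LB2, helper3 `S27/LeLead.lean`) the two families are adapted at the points `(𝒪 l, π l)` of `G`;
* (LE3) the value `hQ l` of `h` at every point of `G` is a unit of `W`;
* (INT-SURJ) the values of the two families span the lattices of values;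

any two local equations (`S27ptIsIdx`, `S27/PtDef.lean`) at `(R, A₁)` and `(R', A₂)` differ by a
unit of `W`: `s27le5_asm`.
-/

set_option autoImplicit false

noncomputable section

namespace Fermat.Agent.S27

open Matrix AlgebraicCurve Fermat.Agent.DEU

universe u v w

variable {K : Type u} {F : Type v} [Field K] [Field F] [Algebra K F]
variable {𝔏 : Type w} [Field 𝔏] [Algebra K 𝔏]
variable {𝔉 k Fb : Type*} [Field 𝔉] [Algebra 𝔏 𝔉] [Field k] [Field Fb] [Algebra k Fb]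
variable {N N' : ℕ} {κ : Type*} [Fintype κ] [DecidableEq κ]
variable {W : ValuationSubring 𝔏} {R : Fin N → F →ₐ[K] 𝔏} {R' : Fin N' → F →ₐ[K] 𝔏}
  {A₁ A₂ : Divisor K F}

/-- the tails relation in matrix form: `p' ∘ inr = diagonal hQ *ᵥ (p ∘ inr)`. -/
theorem s27le5_tails {ι ι' : Type*} [Fintype ι] [Fintype ι']
    {𝒪 : κ → ValuationSubring 𝔉} {π : κ → 𝔉} {X : ι ⊕ κ → 𝔉} {X' : ι' ⊕ κ → 𝔉}
    (hc : ∀ (l : κ) (c : 𝔏), algebraMap 𝔏 𝔉 c ∈ 𝒪 l)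
    (hx : S27llAdapted (𝔏 := 𝔏) 𝒪 π X) (hx' : S27llAdapted (𝔏 := 𝔏) 𝒪 π X')
    (h : 𝔉) (hQ : κ → 𝔏) (hhQ : ∀ l, S27llVal (𝒪 l) h (hQ l))
    (p : ι ⊕ κ → 𝔏) (p' : ι' ⊕ κ → 𝔏)
    (heq : h * s27legrLin X p = s27legrLin X' p') :
    (fun l => p' (Sum.inr l)) = Matrix.diagonal hQ *ᵥ (fun l => p (Sum.inr l)) := by
  funext l
  rw [Matrix.mulVec_diagonal]
  exact s27ll_mul hc hx hx' h l (hQ l) (hhQ l) p p' heq

/-- **LE5, assembly in the E-RED frame.** -/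
theorem s27le5_asm (Rd : RedData 𝔏 𝔉 k Fb) (hA : Rd.A = W) (emb : F → 𝔉)
    (hW : ∀ a : K, algebraMap K 𝔏 a ∈ W)
    (f : Module.Basis (Fin N) K ↥(riemannRochSpace A₁)) (q : κ → F)
    (f' : Module.Basis (Fin N') K ↥(riemannRochSpace A₂)) (q' : κ → F)
    -- `G` is disjoint from the centres
    (hq : ∀ l, q l ∈ s27ptF W R A₁) (hq' : ∀ l, q' l ∈ s27ptF W R' A₂)
    -- INT-SURJ
    (hsurj : ∀ ψ ∈ s27ptF W R A₁, ∃ c : Fin N ⊕ κ → 𝔏, (∀ j, c j ∈ W) ∧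
      ∀ i, R i ψ = ∑ j, R i (s27le5X f q j) * c j)
    (hsurj' : ∀ ψ ∈ s27ptF W R' A₂, ∃ c : Fin N' ⊕ κ → 𝔏, (∀ j, c j ∈ W) ∧
      ∀ i, R' i ψ = ∑ j, R' i (s27le5X f' q' j) * c j)
    -- GAUSS
    (hlat : S27legrLat Rd (fun j => emb (s27le5X f q j)))
    (hlat' : S27legrLat Rd (fun j => emb (s27le5X f' q' j)))
    (h : 𝔉) (hh : S27legrNorm Rd h)
    -- BRIDGE: LinEq in coordinates, both directions
    (hlin12 : ∀ p : Fin N ⊕ κ → 𝔏, s27le5E R (s27le5X f q) *ᵥ p = 0 →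
      ∃ p' : Fin N' ⊕ κ → 𝔏, s27le5E R' (s27le5X f' q') *ᵥ p' = 0 ∧
        h * s27legrLin (fun j => emb (s27le5X f q j)) p
          = s27legrLin (fun j => emb (s27le5X f' q' j)) p')
    (hlin21 : ∀ p' : Fin N' ⊕ κ → 𝔏, s27le5E R' (s27le5X f' q') *ᵥ p' = 0 →
      ∃ p : Fin N ⊕ κ → 𝔏, s27le5E R (s27le5X f q) *ᵥ p = 0 ∧
        h * s27legrLin (fun j => emb (s27le5X f q j)) p
          = s27legrLin (fun j => emb (s27le5X f' q' j)) p')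
    -- LB2 + LE3: the tails
    (𝒪 : κ → ValuationSubring 𝔉) (π : κ → 𝔉)
    (hc : ∀ (l : κ) (c : 𝔏), algebraMap 𝔏 𝔉 c ∈ 𝒪 l)
    (hx : S27llAdapted (𝔏 := 𝔏) 𝒪 π (fun j => emb (s27le5X f q j)))
    (hx' : S27llAdapted (𝔏 := 𝔏) 𝒪 π (fun j => emb (s27le5X f' q' j)))
    (hQ : κ → 𝔏) (hhQ : ∀ l, S27llVal (𝒪 l) h (hQ l))
    (hu : ∀ l, hQ l ∈ W ∧ (hQ l)⁻¹ ∈ W ∧ hQ l ≠ 0)
    {x₁ x₂ : 𝔏} (h₁ : S27ptIsIdx W R A₁ x₁) (h₂ : S27ptIsIdx W R' A₂ x₂) :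
    ∃ c : 𝔏, S27ldUnit W c ∧ x₂ = c * x₁ := by
  subst hA
  refine s27le5_main hW f q f' q' hq hq' hsurj hsurj' (Matrix.diagonal hQ)
    (s27ll_det_unit Rd.A hQ hu) ?_ ?_ h₁ h₂
  · intro p hpE hpW
    obtain ⟨p', hp'E, heq⟩ := hlin12 p hpE
    exact ⟨p', hp'E, (s27legr_coord_transport hlat hlat' hh p p' heq).mp hpW,
      s27le5_tails hc hx hx' h hQ hhQ p p' heq⟩
  · intro p' hp'E hp'W
    obtain ⟨p, hpE, heq⟩ := hlin21 p' hp'E
    exact ⟨p, hpE, (s27legr_coord_transport hlat hlat' hh p p' heq).mpr hp'W,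
      s27le5_tails hc hx hx' h hQ hhQ p p' heq⟩

end Fermat.Agent.S27
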