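import Fermat.Agent.S27.FinalProof
import Fermat.Agent.S27.LE5Top

/-!
# S27 route B: **THE FROZEN S27 IS PROVED** (helper27, on the captain's FINAL-PROOF)

* `s27le5_stmtLEa : s27fp_StmtLEa` — the single open input (LE-a) of S27/FinalProof.lean
  (captain helper77), from `s27le5_top` (S27/LE5Top.lean);
* `s27le5_s27 : s27_Stmt` — the frozen statement S27 as a `Prop` (S27/Plan.lean).
-/

set_option autoImplicit false
set_option linter.style.haveILetI false
set_option linter.unusedSectionVars false
set_option linter.unusedVariables false

noncomputable section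

namespace Fermat.Agent.S27

open AlgebraicCurve Module TensorProduct IntermediateField Fermat.Agent.S26

universe u v

/-- **(LE-a) on the stage, for every admissible choice of constants.** -/
theorem s27le5_stmtLEa : s27fp_StmtLEa.{u, v} := by
  intro K F _ _ _ _ _ _ _ hg x hx _ _ G₀ O hc
  exact s27le5_top (FL := s27mtFL K F) (s27stg_hld K F (s27mtL K F))
    (s27stg_hgen K F (s27mtL K F)) hx (s27cstAo G₀ O) hc.deg_Ao

/-- **The frozen S27.** -/
theorem s27le5_s27 : s27_Stmt.{u, v} :=
  s27fp_result s27le5_stmtLEa

end Fermat.Agent.S27

end
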