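import Fermat.Agent.S27.LeKer

/-!
# S27 route B, LE5 (assembly), coordinate form

`W` a valuation subring of the field `𝔏`.  An EVALUATION DATUM is a matrix
`E : Matrix ι (ι ⊕ κ) 𝔏` (values at the `|ι|` points of a basis `(f, q)` of `L(A + G)`, `f` a
basis of `L(A)`) together with a LATTICE BASIS `Φ : Matrix ι ι 𝔏` of the lattice of values:
`E = Φ * C`, `Φ = E * A` with `C`, `A` over `W`, `det Φ ≠ 0`.  The local equation is
`det E_f / det Φ`.

* `s27lc_det_mul_sum` : weak Cauchy–Binet `det (E * A) = ∑_p (∏ A) · det E_p`.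
* `s27lc_exists_min` : a minimal minor `σ₀` exists and `det Φ ≐_W det E_{σ₀}`.
* **`s27lc_le`** : LE in coordinates.  Two evaluation data and a linear map `μ` (multiplication
  by the Gauss-normalised `h`) mapping the kernel onto the kernel, preserving `W`-integrality in both
  directions, acting on the `q`-coordinates through a matrix of unit determinant
  ⇒ the two local equations differ by a unit of `W`.
-/

namespace Fermat.Agent.S27

open Matrix

section coord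

variable {𝔏 : Type*} [Field 𝔏] (W : ValuationSubring 𝔏)
variable {ι κ : Type*} [Fintype ι] [DecidableEq ι] [Fintype κ] [DecidableEq κ]

omit [Fintype κ] [DecidableEq κ] in
/-- weak Cauchy–Binet. -/
theorem s27lc_det_mul_sum {J : Type*} [Fintype J] [DecidableEq J]
    (E : Matrix ι J 𝔏) (A : Matrix J ι 𝔏) :
    (E * A).det = ∑ p : ι → J, (∏ i, A (p i) i) * (E.submatrix id p).det := by
  calc (E * A).det
      = ∑ p : ι → J, ∑ σ : Equiv.Perm ι,
          ((Equiv.Perm.sign σ : ℤ) : 𝔏) * ∏ i, E (σ i) (p i) * A (p i) i := by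
        simp only [det_apply', mul_apply, Finset.prod_univ_sum, Finset.mul_sum,
          Fintype.piFinset_univ]
        rw [Finset.sum_comm]
    _ = ∑ p : ι → J, (∏ i, A (p i) i) * (E.submatrix id p).det := by
        refine Finset.sum_congr rfl fun p _ => ?_
        rw [det_apply', Finset.mul_sum]
        refine Finset.sum_congr rfl fun σ _ => ?_
        rw [Finset.prod_mul_distrib]
        simp only [submatrix_apply, id]
        ring

theorem s27lc_exists_min (E : Matrix ι (ι ⊕ κ) 𝔏) (Φ : Matrix ι ι 𝔏)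
    (C : Matrix ι (ι ⊕ κ) 𝔏) (A : Matrix (ι ⊕ κ) ι 𝔏)
    (hC : ∀ i j, C i j ∈ W) (hA : ∀ j i, A j i ∈ W)
    (hE : E = Φ * C) (hΦ : Φ = E * A) (hdet : Φ.det ≠ 0) :
    ∃ σ₀ : ι → ι ⊕ κ, (E.submatrix id σ₀).det ≠ 0 ∧
      (∀ σ : ι → ι ⊕ κ, (E.submatrix id σ).det / (E.submatrix id σ₀).det ∈ W) ∧
      S27ldUnit W (Φ.det / (E.submatrix id σ₀).det) := by
  classical
  have hsum := s27lc_det_mul_sum E A
  rw [← hΦ] at hsum
  have hex : ∃ σ : ι → ι ⊕ κ, s27dmDet (fun j i => E i j) σ ≠ 0 := by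
    by_contra hno
    push Not at hno
    apply hdet
    rw [hsum]
    refine Finset.sum_eq_zero fun p _ => ?_
    have : (E.submatrix id p).det = 0 := hno p
    rw [this, mul_zero]
  obtain ⟨σ₀, h0, hmin⟩ := s27dm_exists_min W (fun j i => E i j) hex
  have h0' : (E.submatrix id σ₀).det ≠ 0 := h0
  have hmin' : ∀ σ : ι → ι ⊕ κ, (E.submatrix id σ).det / (E.submatrix id σ₀).det ∈ W := hmin
  refine ⟨σ₀, h0', hmin', ?_, ?_, div_ne_zero hdet h0'⟩
  · -- det Φ / det E_{σ₀} = ∑_p (∏ A) (det E_p / det E_{σ₀})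
    rw [hsum, Finset.sum_div]
    refine Subring.sum_mem W.toSubring fun p _ => ?_
    rw [mul_div_assoc]
    exact W.mul_mem _ _ (Subring.prod_mem W.toSubring fun i _ => hA _ _) (hmin' p)
  · -- det E_{σ₀} / det Φ = det C_{σ₀}
    rw [inv_div]
    have h1 : E.submatrix id σ₀ = Φ * C.submatrix id σ₀ := by
      rw [hE]
      ext i k
      simp [Matrix.mul_apply]
    rw [h1, det_mul, mul_comm, mul_div_assoc, div_self hdet, mul_one]
    exact s27ld_det_mem W _ fun i k => hC _ _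

variable {ι' : Type*} [Fintype ι'] [DecidableEq ι']

/-- **LE in coordinates.** -/
theorem s27lc_le
    (E : Matrix ι (ι ⊕ κ) 𝔏) (Φ : Matrix ι ι 𝔏) (C : Matrix ι (ι ⊕ κ) 𝔏)
    (A : Matrix (ι ⊕ κ) ι 𝔏) (hC : ∀ i j, C i j ∈ W) (hA : ∀ j i, A j i ∈ W)
    (hE : E = Φ * C) (hΦ : Φ = E * A) (hdet : Φ.det ≠ 0)
    (E' : Matrix ι' (ι' ⊕ κ) 𝔏) (Φ' : Matrix ι' ι' 𝔏) (C' : Matrix ι' (ι' ⊕ κ) 𝔏)
    (A' : Matrix (ι' ⊕ κ) ι' 𝔏) (hC' : ∀ i j, C' i j ∈ W) (hA' : ∀ j i, A' j i ∈ W)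
    (hE' : E' = Φ' * C') (hΦ' : Φ' = E' * A') (hdet' : Φ'.det ≠ 0)
    (μ : (ι ⊕ κ → 𝔏) →ₗ[𝔏] (ι' ⊕ κ → 𝔏))
    (hsurj : ∀ p', E' *ᵥ p' = 0 → ∃ p, E *ᵥ p = 0 ∧ μ p = p')
    (hint : ∀ p, E *ᵥ p = 0 → ((∀ j, p j ∈ W) ↔ (∀ j, μ p j ∈ W)))
    (M : Matrix κ κ 𝔏) (hM : S27ldUnit W M.det)
    (hpp : ∀ p, E *ᵥ p = 0 → (fun l => μ p (Sum.inr l)) = M *ᵥ (fun l => p (Sum.inr l))) :
    ∃ u : 𝔏, S27ldUnit W u ∧
      (E'.submatrix id Sum.inl).det / Φ'.det = u * ((E.submatrix id Sum.inl).det / Φ.det) := by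
  classical
  obtain ⟨σ₀, h0, hmin, hu⟩ := s27lc_exists_min W E Φ C A hC hA hE hΦ hdet
  obtain ⟨σ₀', h0', hmin', hu'⟩ := s27lc_exists_min W E' Φ' C' A' hC' hA' hE' hΦ' hdet'
  obtain ⟨U, hEU, hUW, hsat⟩ := s27lk_exists_kerBasis W E σ₀ h0 hmin
  -- the columns of `U` are in the kernel
  have hcol : ∀ l, E *ᵥ (fun j => U j l) = 0 := by
    intro l
    ext i
    have h1 := congrFun (congrFun hEU i) l
    simpa [Matrix.mul_apply, Matrix.mulVec, dotProduct] using h1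
  let U' : Matrix (ι' ⊕ κ) κ 𝔏 := Matrix.of fun j l => μ (fun j => U j l) j
  have hUW' : ∀ j l, U' j l ∈ W := by
    intro j l
    exact (hint _ (hcol l)).1 (fun j => hUW j l) j
  have hmulVec : ∀ a : κ → 𝔏, U' *ᵥ a = μ (U *ᵥ a) := by
    intro a
    have h1 : U *ᵥ a = ∑ l, a l • (fun j => U j l) := by
      funext j
      simp [Matrix.mulVec, dotProduct, mul_comm]
    rw [h1, map_sum]
    funext j
    simp only [Matrix.mulVec, dotProduct, Finset.sum_apply, map_smul, Pi.smul_apply,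
      smul_eq_mul, U', Matrix.of_apply]
    refine Finset.sum_congr rfl fun l _ => ?_
    rw [mul_comm]
  have hsat' : ∀ p' : ι' ⊕ κ → 𝔏, E' *ᵥ p' = 0 → (∀ j, p' j ∈ W) →
      ∃ a : κ → 𝔏, (∀ l, a l ∈ W) ∧ p' = U' *ᵥ a := by
    intro p' hp' hp'W
    obtain ⟨p, hp, rfl⟩ := hsurj p' hp'
    have hpW : ∀ j, p j ∈ W := (hint p hp).2 hp'W
    obtain ⟨a, haW, hpa⟩ := hsat p hp hpW
    refine ⟨a, haW, ?_⟩
    rw [hmulVec, ← hpa]
  have hMU : U'.submatrix Sum.inr id = M * U.submatrix Sum.inr id := by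
    ext l l'
    have h1 := congrFun (hpp _ (hcol l')) l
    simp only [Matrix.submatrix_apply, id, U', Matrix.of_apply, Matrix.mul_apply]
    rw [h1]
    simp [Matrix.mulVec, dotProduct]
  obtain ⟨c, hc, hcore⟩ := s27ld_le_core W E E' U U' hUW hsat hUW' hsat' σ₀ σ₀' h0 hmin h0'
    hmin' M hM hMU
  -- convert the minimal minors into the lattice bases
  refine ⟨(Φ'.det / (E'.submatrix id σ₀').det)⁻¹ * (c * (Φ.det / (E.submatrix id σ₀).det)),
    s27ld_unit_mul W (s27ld_unit_inv W hu') (s27ld_unit_mul W hc hu), ?_⟩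
  have e1 : (E'.submatrix id Sum.inl).det / Φ'.det
      = (Φ'.det / (E'.submatrix id σ₀').det)⁻¹ *
        ((E'.submatrix id Sum.inl).det / (E'.submatrix id σ₀').det) := by
    field_simp
  rw [e1, hcore]
  field_simp

end coord

end Fermat.Agent.S27
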