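import Fermat.Agent.S27.LE5Top
import Fermat.Agent.S27.FitConst

/-!
# S27 route B: **(LE-TOP) `S27ftLE`, UNCONDITIONAL** (helper27)

The input (LE-TOP) of the captain's `s27ft_Stmt` (S27/FinalTop.lean), at the stage
`L = s27mtL K F`, `FL = s27mtFL K F`:

* `s27le5_ftLE hx Ao : deg Ao = g − 1 → L_K(Ao) = ⊥ → S27ftLE hx Ao`;
* `s27le5_ftLE_const hc : S27ftLE hc.trans (s27cstAo G₀ O)` at the constants of S27/Consts.lean
  (the second component of `S27fcstInputs hc`, S27/FitConst.lean).

From `s27le5_ckLE` (S27/LE5Top.lean) = `s27lec_le` (helper95) ∘ `s27le5_top` (LE-a).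
-/

set_option autoImplicit false
set_option linter.style.haveILetI false
set_option linter.unusedSectionVars false
set_option linter.unusedVariables false

noncomputable section

namespace Fermat.Agent.S27

open AlgebraicCurve Module TensorProduct IntermediateField Fermat.Agent.S26

universe u v

variable {K : Type u} {F : Type v} [Field K] [Field F] [Algebra K F] [IsAlgClosed K] [CharZero K]
  [IsCurveOver K F] [Algebra.EssFiniteType K F]

/-- **(LE-TOP)** on the stage. -/
theorem s27le5_ftLE {x : F} (hx : Transcendental K x)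
    [FiniteDimensional ↥(IntermediateField.adjoin K {x}) F]
    [Algebra.IsSeparable ↥(IntermediateField.adjoin K {x}) F]
    (Ao : Divisor K F) (hAo : Divisor.degree Ao = (genusFF K F : ℤ) - 1)
    (hAo0 : riemannRochSpace Ao = ⊥) : S27ftLE hx Ao :=
  s27le5_ckLE (FL := s27mtFL K F) (s27stg_hld K F (s27mtL K F)) (s27stg_hgen K F (s27mtL K F))
    hx Ao hAo hAo0

/-- **(LE-TOP)** at the constants of S27/Consts.lean. -/
theorem s27le5_ftLE_const {x : F} {G₀ : Divisor K F} {O : Place K F}
    (hc : S27cstIsConst x G₀ O) :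
    @S27ftLE K F _ _ _ _ x hc.trans hc.fin hc.sep (s27cstAo G₀ O) :=
  haveI := hc.fin
  haveI := hc.sep
  s27le5_ftLE hc.trans (s27cstAo G₀ O) hc.deg_Ao hc.bot

end Fermat.Agent.S27

end
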