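import Fermat.Agent.S27.LE5Scale
import Fermat.Agent.S27.Bridge
import Fermat.Agent.S27.LEGaussI

/-!
# S27 route B, crux LE(b): **LE5 in THE frame** (helper27)

The frame of `S27/Bridge.lean` (helper24) and `S27/LEGaussI.lean` (helper21): `K ⊆ 𝔠` the constant
curve, `K ⊆ 𝔎` the field of the points, `Ω = Frac (𝔠 ⊗[K] 𝔎)` (`hld`, `hgen`), `W ⊇ K` a valuation
subring of `𝔎` with residue map `res : W →+* k`, `Fb ⊇ 𝔠 ⊗[K] k` (`hldk`).

`s27le5_frame` : for two tuples of distinct points `R`, `R'`, constant divisors `A₁`, `A₂`, `G`,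
a function `h ≠ 0` of `Ω` with `div h = Σ pt R' + Con (A₁ − A₂) − Σ pt R`, `K`-bases `b`, `b'` of
`L_K(A₁ + G)`, `L_K(A₂ + G)` extending `K`-bases `f`, `f'` of `L_K(A₁)`, `L_K(A₂)`, and

* (G off the centres) `b (inr l) ∈ s27ptF W R A₁`, `b' (inr l) ∈ s27ptF W R' A₂`;
* (INT-SURJ) the values of `b`, `b'` span the lattices of values;
* (LB2) `b`, `b'` are adapted at the points `(𝒪 l, π l)` of `G`;
* (LE3) every Gauss-normalised multiple of `h` has a unit value at every point of `G`;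

any two local equations `S27ptIsIdx W R A₁ y₁`, `S27ptIsIdx W R' A₂ y₂` differ by a unit of `W`.
GAUSS (`s27legi_lat`) and BRIDGE (`s27brg_linEq`) are wired inside.
-/

set_option autoImplicit false
set_option linter.style.haveILetI false
set_option linter.unusedSectionVars false
set_option linter.unusedVariables false

noncomputable section

namespace Fermat.Agent.S27

open AlgebraicCurve TensorProduct Fermat.Agent.S26 Fermat.Agent.DEU Matrix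

variable {K 𝔠 𝔎 Ω k Fb : Type*} [Field K] [Field 𝔠] [Field 𝔎] [Field Ω] [Field k] [Field Fb]
  [Algebra K 𝔠] [Algebra K 𝔎] [Algebra K Ω] [Algebra 𝔠 Ω] [Algebra 𝔎 Ω]
  [IsScalarTower K 𝔠 Ω] [IsScalarTower K 𝔎 Ω]
  [Algebra K k] [Algebra K Fb] [Algebra 𝔠 Fb] [Algebra k Fb]
  [IsScalarTower K 𝔠 Fb] [IsScalarTower K k Fb]

section Frame

variable (hld : Function.Injective (s26gspMu K 𝔠 𝔎 Ω)) (hgen : S26gspGen K 𝔠 𝔎 Ω)
  (hall : ∀ P : Place K 𝔠, Function.Surjective (algebraMap K P.ResidueField))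
  {x : 𝔠} (hx : Transcendental K x)
  [FiniteDimensional ↥(IntermediateField.adjoin K {x}) 𝔠]
  [Algebra.IsSeparable ↥(IntermediateField.adjoin K {x}) 𝔠]
  (hldk : Function.Injective (s26gspMu K 𝔠 k Fb))
  (W : ValuationSubring 𝔎) (hKW : ∀ c : K, algebraMap K 𝔎 c ∈ W) (res : ↥W →+* k)
  (hresK : ∀ c : K, res ⟨algebraMap K 𝔎 c, hKW c⟩ = algebraMap K k c)
  (hres : Function.Surjective res)

/-- `s27brgLin` is `s27legrLin` of the images in `Ω`. -/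
theorem s27le5_brgLin_eq {J : Type*} [Fintype J] (X : J → 𝔠) (c : J → 𝔎) :
    s27brgLin (Ω := Ω) X c = s27legrLin (fun j => algebraMap 𝔠 Ω (X j)) c := rfl

/-- **LE5 in THE frame.** -/
theorem s27le5_frame {N N' : ℕ} {κ : Type*} [Fintype κ] [DecidableEq κ]
    (R : Fin N → 𝔠 →ₐ[K] 𝔎) (R' : Fin N' → 𝔠 →ₐ[K] 𝔎)
    (hR : Function.Injective R) (hR' : Function.Injective R')
    (A₁ A₂ G : Divisor K 𝔠) (h : Ω) (hh : h ≠ 0)
    (hdiv : ∀ v : Place 𝔎 Ω, v.ord h =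
      (s27brgPts hld hgen hx R' + s27brgCon hld hgen hall (A₁ - A₂)
        - s27brgPts hld hgen hx R) v)
    (f : Module.Basis (Fin N) K ↥(riemannRochSpace A₁))
    (f' : Module.Basis (Fin N') K ↥(riemannRochSpace A₂))
    (b : Module.Basis (Fin N ⊕ κ) K ↥(riemannRochSpace (A₁ + G)))
    (b' : Module.Basis (Fin N' ⊕ κ) K ↥(riemannRochSpace (A₂ + G)))
    (hb : ∀ i, ((b (Sum.inl i) : ↥(riemannRochSpace (A₁ + G))) : 𝔠)
      = ((f i : ↥(riemannRochSpace A₁)) : 𝔠))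
    (hb' : ∀ i, ((b' (Sum.inl i) : ↥(riemannRochSpace (A₂ + G))) : 𝔠)
      = ((f' i : ↥(riemannRochSpace A₂)) : 𝔠))
    -- `G` is off the centres
    (hq : ∀ l, ((b (Sum.inr l) : ↥(riemannRochSpace (A₁ + G))) : 𝔠) ∈ s27ptF W R A₁)
    (hq' : ∀ l, ((b' (Sum.inr l) : ↥(riemannRochSpace (A₂ + G))) : 𝔠) ∈ s27ptF W R' A₂)
    -- INT-SURJ
    (hsurj : ∀ ψ ∈ s27ptF W R A₁, ∃ c : Fin N ⊕ κ → 𝔎, (∀ j, c j ∈ W) ∧
      ∀ i, R i ψ = ∑ j, R i ((b j : ↥(riemannRochSpace (A₁ + G))) : 𝔠) * c j)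
    (hsurj' : ∀ ψ ∈ s27ptF W R' A₂, ∃ c : Fin N' ⊕ κ → 𝔎, (∀ j, c j ∈ W) ∧
      ∀ i, R' i ψ = ∑ j, R' i ((b' j : ↥(riemannRochSpace (A₂ + G))) : 𝔠) * c j)
    -- LB2: adapted families at the points of `G`
    (𝒪 : κ → ValuationSubring Ω) (π : κ → Ω)
    (hc : ∀ (l : κ) (c : 𝔎), algebraMap 𝔎 Ω c ∈ 𝒪 l)
    (hxa : S27llAdapted (𝔏 := 𝔎) 𝒪 π
      (fun j => algebraMap 𝔠 Ω ((b j : ↥(riemannRochSpace (A₁ + G))) : 𝔠)))
    (hxa' : S27llAdapted (𝔏 := 𝔎) 𝒪 π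
      (fun j => algebraMap 𝔠 Ω ((b' j : ↥(riemannRochSpace (A₂ + G))) : 𝔠)))
    -- LE3
    (hval : ∀ c : 𝔎, c ≠ 0 →
      S27legrNorm (s26eriData hld hgen hldk W hKW res hresK hres) (algebraMap 𝔎 Ω c * h) →
      ∀ l, ∃ a : 𝔎, S27llVal (𝒪 l) (algebraMap 𝔎 Ω c * h) a ∧ a ∈ W ∧ a⁻¹ ∈ W ∧ a ≠ 0)
    {y₁ y₂ : 𝔎} (h₁ : S27ptIsIdx W R A₁ y₁) (h₂ : S27ptIsIdx W R' A₂ y₂) :
    ∃ c : 𝔎, S27ldUnit W c ∧ y₂ = c * y₁ := by
  classical
  -- the two families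
  have hX : (fun j => ((b j : ↥(riemannRochSpace (A₁ + G))) : 𝔠))
      = s27le5X f (fun l => ((b (Sum.inr l) : ↥(riemannRochSpace (A₁ + G))) : 𝔠)) := by
    funext j
    rcases j with i | l
    · exact hb i
    · rfl
  have hX' : (fun j => ((b' j : ↥(riemannRochSpace (A₂ + G))) : 𝔠))
      = s27le5X f' (fun l => ((b' (Sum.inr l) : ↥(riemannRochSpace (A₂ + G))) : 𝔠)) := by
    funext j
    rcases j with i | l
    · exact hb' i
    · rfl
  have hXj : ∀ j, s27le5X f (fun l => ((b (Sum.inr l) : ↥(riemannRochSpace (A₁ + G))) : 𝔠)) j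
      = ((b j : ↥(riemannRochSpace (A₁ + G))) : 𝔠) := fun j => (congrFun hX j).symm
  have hXj' : ∀ j, s27le5X f' (fun l => ((b' (Sum.inr l) : ↥(riemannRochSpace (A₂ + G))) : 𝔠)) j
      = ((b' j : ↥(riemannRochSpace (A₂ + G))) : 𝔠) := fun j => (congrFun hX' j).symm
  -- linear independence over `K`
  have hli : LinearIndependent K (fun j => ((b j : ↥(riemannRochSpace (A₁ + G))) : 𝔠)) := by
    have := b.linearIndependent.map' (riemannRochSpace (A₁ + G)).subtype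
      (Submodule.ker_subtype _)
    exact this
  have hli' : LinearIndependent K (fun j => ((b' j : ↥(riemannRochSpace (A₂ + G))) : 𝔠)) := by
    have := b'.linearIndependent.map' (riemannRochSpace (A₂ + G)).subtype
      (Submodule.ker_subtype _)
    exact this
  -- GAUSS
  have hlat := s27legi_lat hld hgen hldk W hKW res hresK hres _ hli
  have hlat' := s27legi_lat hld hgen hldk W hKW res hresK hres _ hli'
  -- BRIDGE, with `B = A₂ + G`, `M' = A₁ − A₂`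
  have hBM : A₂ + G + (A₁ - A₂) = A₁ + G := by abel
  have hmem₁ : ∀ j, ((b j : ↥(riemannRochSpace (A₁ + G))) : 𝔠)
      ∈ riemannRochSpace (A₂ + G + (A₁ - A₂)) := by
    intro j
    rw [hBM]
    exact (b j).2
  have hfwd : ∀ c : Fin N ⊕ κ → 𝔎,
      (∀ i, ∑ j, R i ((b j : ↥(riemannRochSpace (A₁ + G))) : 𝔠) * c j = 0) →
      ∃ c' : Fin N' ⊕ κ → 𝔎,
        (∀ i, ∑ j, R' i ((b' j : ↥(riemannRochSpace (A₂ + G))) : 𝔠) * c' j = 0) ∧
        s27brgLin (Ω := Ω) (fun j => ((b' j : ↥(riemannRochSpace (A₂ + G))) : 𝔠)) c' =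
          h * s27brgLin (Ω := Ω) (fun j => ((b j : ↥(riemannRochSpace (A₁ + G))) : 𝔠)) c :=
    fun c hcK => s27brg_linEq hld hgen hall hx (A₂ + G) (A₁ - A₂) R R' hR hR' hh hdiv _
      hmem₁ b' c hcK
  have hdiv' : ∀ v : Place 𝔎 Ω, v.ord h⁻¹ =
      (s27brgPts hld hgen hx R + s27brgCon hld hgen hall (A₂ - A₁)
        - s27brgPts hld hgen hx R') v := by
    intro v
    rw [v.ord_inv, hdiv v]
    have h1 : s27brgCon hld hgen hall (A₂ - A₁) = -s27brgCon hld hgen hall (A₁ - A₂) := by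
      have : A₂ - A₁ = -(A₁ - A₂) := by abel
      rw [this]
      unfold s27brgCon
      exact map_neg (Finsupp.mapDomain.addMonoidHom (s26gspCon hld hgen hall)) (A₁ - A₂)
    rw [h1]
    simp only [Finsupp.coe_sub, Finsupp.coe_add, Finsupp.coe_neg, Pi.sub_apply, Pi.add_apply,
      Pi.neg_apply]
    ring
  have hBM' : A₁ + G + (A₂ - A₁) = A₂ + G := by abel
  have hmem₂ : ∀ j, ((b' j : ↥(riemannRochSpace (A₂ + G))) : 𝔠)
      ∈ riemannRochSpace (A₁ + G + (A₂ - A₁)) := by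
    intro j
    rw [hBM']
    exact (b' j).2
  have hbwd : ∀ c' : Fin N' ⊕ κ → 𝔎,
      (∀ i, ∑ j, R' i ((b' j : ↥(riemannRochSpace (A₂ + G))) : 𝔠) * c' j = 0) →
      ∃ c : Fin N ⊕ κ → 𝔎,
        (∀ i, ∑ j, R i ((b j : ↥(riemannRochSpace (A₁ + G))) : 𝔠) * c j = 0) ∧
        s27brgLin (Ω := Ω) (fun j => ((b j : ↥(riemannRochSpace (A₁ + G))) : 𝔠)) c =
          h⁻¹ * s27brgLin (Ω := Ω) (fun j => ((b' j : ↥(riemannRochSpace (A₂ + G))) : 𝔠)) c' :=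
    fun c' hcK => s27brg_linEq hld hgen hall hx (A₁ + G) (A₂ - A₁) R' R hR' hR
      (inv_ne_zero hh) hdiv' _ hmem₂ b c' hcK
  -- assembly
  refine s27le5_asm_scale (s26eriData hld hgen hldk W hKW res hresK hres) rfl
    (fun u => algebraMap 𝔠 Ω u) hKW f
    (fun l => ((b (Sum.inr l) : ↥(riemannRochSpace (A₁ + G))) : 𝔠)) f'
    (fun l => ((b' (Sum.inr l) : ↥(riemannRochSpace (A₂ + G))) : 𝔠)) hq hq'
    ?_ ?_ ?_ ?_ h hh ?_ ?_ 𝒪 π hc ?_ ?_ hval h₁ h₂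
  · intro ψ hψ
    obtain ⟨c, hcW, hce⟩ := hsurj ψ hψ
    exact ⟨c, hcW, fun i => by rw [hce i]; simp only [hXj]⟩
  · intro ψ hψ
    obtain ⟨c, hcW, hce⟩ := hsurj' ψ hψ
    exact ⟨c, hcW, fun i => by rw [hce i]; simp only [hXj']⟩
  · rw [← hX]; exact hlat
  · rw [← hX']; exact hlat'
  · intro p hpE
    rw [← hX] at hpE ⊢
    rw [← hX']
    obtain ⟨p', hp'K, e⟩ := hfwd p ((s27le5_mulVec_eq_zero_iff R _ p).1 hpE)
    exact ⟨p', (s27le5_mulVec_eq_zero_iff R' _ p').2 hp'K, e⟩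
  · intro p' hp'E
    rw [← hX'] at hp'E ⊢
    rw [← hX]
    obtain ⟨p, hpK, e⟩ := hbwd p' ((s27le5_mulVec_eq_zero_iff R' _ p').1 hp'E)
    exact ⟨p, (s27le5_mulVec_eq_zero_iff R _ p).2 hpK, e⟩
  · rw [← hX]; exact hxa
  · rw [← hX']; exact hxa'

end Frame

end Fermat.Agent.S27
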