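import Fermat.Agent.S27.LE5

/-!
# S27 route B, crux LE(b): **LE5 CONCRETE, `μ`-form** (helper27)

The hypotheses on the kernel lattices in the shape of helper60's `s27lc_le` (`S27/LE5Coord.lean`):
a linear map `μ` (multiplication by the Gauss-normalised function `h₀`, in the coordinates of the
two `K`-bases) mapping the kernel of the evaluation at `R` ONTO the kernel of the evaluation at
`R'`, preserving `W`-integrality in both directions, and acting on the principal parts through a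
matrix of unit determinant.  Conclusion on the local equations `S27ptIsIdx` of `S27/PtDef.lean`.

* `s27le5_main_mu` : **LE5**, `μ`-form.
-/

set_option autoImplicit false

noncomputable section

namespace Fermat.Agent.S27

open Matrix AlgebraicCurve

universe u v w

variable {K : Type u} {F : Type v} [Field K] [Field F] [Algebra K F]
variable {𝔏 : Type w} [Field 𝔏] [Algebra K 𝔏]
variable {N N' : ℕ} {κ : Type*} [Fintype κ] [DecidableEq κ]
variable {W : ValuationSubring 𝔏} {R : Fin N → F →ₐ[K] 𝔏} {R' : Fin N' → F →ₐ[K] 𝔏}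
  {A₁ A₂ : Divisor K F}

/-- **LE5, `μ`-form.** -/
theorem s27le5_main_mu (hW : ∀ a : K, algebraMap K 𝔏 a ∈ W)
    (f : Module.Basis (Fin N) K ↥(riemannRochSpace A₁)) (q : κ → F)
    (f' : Module.Basis (Fin N') K ↥(riemannRochSpace A₂)) (q' : κ → F)
    (hq : ∀ l, q l ∈ s27ptF W R A₁) (hq' : ∀ l, q' l ∈ s27ptF W R' A₂)
    (hsurj : ∀ ψ ∈ s27ptF W R A₁, ∃ c : Fin N ⊕ κ → 𝔏, (∀ j, c j ∈ W) ∧
      ∀ i, R i ψ = ∑ j, R i (s27le5X f q j) * c j)
    (hsurj' : ∀ ψ ∈ s27ptF W R' A₂, ∃ c : Fin N' ⊕ κ → 𝔏, (∀ j, c j ∈ W) ∧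
      ∀ i, R' i ψ = ∑ j, R' i (s27le5X f' q' j) * c j)
    (μ : (Fin N ⊕ κ → 𝔏) →ₗ[𝔏] (Fin N' ⊕ κ → 𝔏))
    (hμsurj : ∀ p', s27le5E R' (s27le5X f' q') *ᵥ p' = 0 →
      ∃ p, s27le5E R (s27le5X f q) *ᵥ p = 0 ∧ μ p = p')
    (hint : ∀ p, s27le5E R (s27le5X f q) *ᵥ p = 0 →
      ((∀ j, p j ∈ W) ↔ (∀ j, μ p j ∈ W)))
    (M : Matrix κ κ 𝔏) (hM : S27ldUnit W M.det)
    (hpp : ∀ p, s27le5E R (s27le5X f q) *ᵥ p = 0 →
      (fun l => μ p (Sum.inr l)) = M *ᵥ (fun l => p (Sum.inr l)))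
    {x₁ x₂ : 𝔏} (h₁ : S27ptIsIdx W R A₁ x₁) (h₂ : S27ptIsIdx W R' A₂ x₂) :
    ∃ c : 𝔏, S27ldUnit W c ∧ x₂ = c * x₁ := by
  classical
  refine s27le5_main_U hW f q f' q' hq hq' hsurj hsurj' ?_ h₁ h₂
  intro U hUW hEU hsat
  have hcol : ∀ l, s27le5E R (s27le5X f q) *ᵥ (fun j => U j l) = 0 := by
    intro l
    funext i
    have := congrFun (congrFun hEU i) l
    rw [Matrix.mul_apply, Matrix.zero_apply] at this
    rw [Matrix.mulVec, dotProduct]
    exact this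
  let U' : Matrix (Fin N' ⊕ κ) κ 𝔏 := Matrix.of fun j l => μ (fun j => U j l) j
  have hmulVec : ∀ a : κ → 𝔏, U' *ᵥ a = μ (U *ᵥ a) := by
    intro a
    have h1 : U *ᵥ a = ∑ l, a l • (fun j => U j l) := by
      funext j
      rw [Matrix.mulVec, dotProduct, Finset.sum_apply]
      refine Finset.sum_congr rfl fun l _ => ?_
      rw [Pi.smul_apply, smul_eq_mul, mul_comm]
    rw [h1, map_sum]
    funext j
    rw [Matrix.mulVec, dotProduct, Finset.sum_apply]
    refine Finset.sum_congr rfl fun l _ => ?_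
    rw [map_smul, Pi.smul_apply, smul_eq_mul, mul_comm]
    rfl
  refine ⟨U', M, ?_, ?_, hM, ?_⟩
  · intro j l
    exact (hint _ (hcol l)).1 (fun j => hUW j l) j
  · intro p' hp' hp'W
    obtain ⟨p, hp, rfl⟩ := hμsurj p' hp'
    have hpW : ∀ j, p j ∈ W := (hint p hp).2 hp'W
    obtain ⟨a, haW, hpa⟩ := hsat p hp hpW
    exact ⟨a, haW, by rw [hmulVec, ← hpa]⟩
  · ext m l
    have h1 := congrFun (hpp _ (hcol l)) m
    rw [Matrix.mul_apply]
    rw [Matrix.mulVec, dotProduct] at h1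
    exact h1

end Fermat.Agent.S27
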