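import Fermat.Agent.S27.LE5Frame
import Fermat.Agent.S27.GaussInst
import Fermat.Agent.S27.LeLeadInst
import Fermat.Agent.S27.CauchyPt

/-!
# S27 route B, crux LE(b): **LE-a ON THE STAGE** (helper27) — row 8 of helper60's LE-TOP table

Frame of `S27/IdxCls.lean` (hub helper95): `K` algebraically closed, `F / K` the curve, `L ⊇ K` the
field of the points, `FL = Frac (F ⊗[K] L)` (`hld`, `hgen`), `W ⊇ K` a valuation subring of `L`.
The Gauss reduction datum `s27le5Rd hld hgen W hKW` is `s26eriData` with the residue field of `W`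
and `Fb = s27stgFL K F k` (`= s27giRd K F W hKW` when `FL` is the stage `s27stgFL K F L`).

WIRED INSIDE: GAUSS (helper21 `s27legi_lat`), BRIDGE (helper24 `s27brg_linEq`, both directions),
LB2 (helper24 `s27lli_exists_basis_con`, `s27lli_const_mem`), INT-SURJ (helper61
`s27cpt_intSurj`), the Gauss normalisation of `h`, and the link with the local equations
`S27ptIsIdx` of `S27/PtDef.lean`.

`s27le5_stage` : **LE-a**.  Remaining hypotheses (rows 2–5, 7 of the table):
* `hprin` : `Σ pt R' + Con (A₁ − A₂) − Σ pt R` is principal (BridgeTop, from the class equality);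
* `Q : κ → Place K F` injective with `A₁ (Q l) = A₂ (Q l)`, uniformisers `π l` (LeG);
* `hcen`, `hcen'` : `L_K(A_i + G) ⊆ s27ptF` (`G` off the centres) (LeG);
* `hlat₁`, `hlat₂` : a lattice basis inside `L_K(A_i + G)` (IntSurjK + CauchyPt, LeG);
* `hdim₁`, `hdim₂` : `ℓ(A_i + G) = ℓ(A_i) + #G` (LeDim);
* `hval` : LE3 on the stage (LE3Stage).
-/

set_option autoImplicit false
set_option linter.style.haveILetI false
set_option linter.unusedSectionVars false
set_option linter.unusedVariables false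

noncomputable section

namespace Fermat.Agent.S27

open AlgebraicCurve TensorProduct Fermat.Agent.S26 Fermat.Agent.DEU Matrix Module

universe u v w y

variable {K : Type u} {F : Type v} {L : Type w} {FL : Type y} [Field K] [IsAlgClosed K] [Field F]
  [Field L] [Field FL] [Algebra K F] [Algebra K L] [Algebra K FL] [Algebra F FL] [Algebra L FL]
  [IsScalarTower K F FL] [IsScalarTower K L FL]

/-- the Gauss reduction datum of the frame `(FL, hld, hgen)` for the valuation subring `W ⊇ K`
of `L` (residue field `k` of `W`, `Fb = s27stgFL K F k`). -/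
def s27le5Rd (hld : Function.Injective (s26gspMu K F L FL)) (hgen : S26gspGen K F L FL)
    (W : ValuationSubring L) (hKW : ∀ c : K, algebraMap K L c ∈ W) :
    RedData L FL (s27giRes K W hKW) (s27stgFL K F (s27giRes K W hKW)) :=
  s26eriData hld hgen (s27stg_hld K F (s27giRes K W hKW)) W hKW
    (s27giResMap K W hKW) (s27giRes_algebraMap K W hKW) (s27giResMap_surjective K W hKW)

@[simp] theorem s27le5Rd_A (hld : Function.Injective (s26gspMu K F L FL))
    (hgen : S26gspGen K F L FL) (W : ValuationSubring L)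
    (hKW : ∀ c : K, algebraMap K L c ∈ W) : (s27le5Rd hld hgen W hKW).A = W := rfl

/-- at the stage the datum is helper21's `s27giRd`. -/
theorem s27le5Rd_stage (W : ValuationSubring L) (hKW : ∀ c : K, algebraMap K L c ∈ W) :
    s27le5Rd (s27stg_hld K F L) (s27stg_hgen K F L) W hKW = s27giRd K F W hKW := rfl

section Stage

variable (hld : Function.Injective (s26gspMu K F L FL)) (hgen : S26gspGen K F L FL)
  (hall : ∀ P : Place K F, Function.Surjective (algebraMap K P.ResidueField))
  {x : F} (hx : Transcendental K x)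
  [FiniteDimensional ↥(IntermediateField.adjoin K {x}) F]
  [Algebra.IsSeparable ↥(IntermediateField.adjoin K {x}) F]

/-- a `K`-basis of a subspace spans it. -/
theorem s27le5_mem_span_basis {J : Type*} (V : Submodule K F) (b : Module.Basis J K ↥V)
    (y : F) (hy : y ∈ V) : y ∈ Submodule.span K (Set.range (fun j => ((b j : ↥V) : F))) := by
  have h1 : (⟨y, hy⟩ : ↥V) ∈ Submodule.span K (Set.range b) := by
    rw [b.span_eq]
    exact Submodule.mem_top
  have h2 := Submodule.mem_map_of_mem (f := V.subtype) h1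
  rw [Submodule.map_span, ← Set.range_comp] at h2
  exact h2

/-- **LE-a on the stage.** -/
theorem s27le5_stage (W : ValuationSubring L) (hKW : ∀ c : K, algebraMap K L c ∈ W)
    {N N' : ℕ} (R : Fin N → F →ₐ[K] L) (R' : Fin N' → F →ₐ[K] L)
    (hR : Function.Injective R) (hR' : Function.Injective R') (A₁ A₂ : Divisor K F)
    -- the class equality (BridgeTop)
    (hprin : Divisor.IsPrincipal
      (s27brgPts hld hgen hx R' + s27brgCon hld hgen hall (A₁ - A₂)
        - s27brgPts hld hgen hx R))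
    -- the reduced divisor `G = Σ Q l` (LeG)
    {κ : Type*} [Fintype κ] [DecidableEq κ] (Q : κ → Place K F) (hQ : Function.Injective Q)
    (hQA : ∀ l, A₁ (Q l) = A₂ (Q l)) (π : κ → F) (hπ : ∀ l, (Q l).ord (π l) = 1)
    (hcen : ∀ ψ ∈ riemannRochSpace (A₁ + s27ppG Q), ψ ∈ s27ptF W R A₁)
    (hcen' : ∀ ψ ∈ riemannRochSpace (A₂ + s27ppG Q), ψ ∈ s27ptF W R' A₂)
    (hlat₁ : ∃ φ : Fin N → F, S27ptIsLatBasis W R A₁ φ ∧
      ∀ j, φ j ∈ riemannRochSpace (A₁ + s27ppG Q))
    (hlat₂ : ∃ φ : Fin N' → F, S27ptIsLatBasis W R' A₂ φ ∧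
      ∀ j, φ j ∈ riemannRochSpace (A₂ + s27ppG Q))
    -- non-speciality (LeDim)
    [Module.Finite K ↥(riemannRochSpace (A₁ + s27ppG Q))]
    [Module.Finite K ↥(riemannRochSpace (A₂ + s27ppG Q))]
    (hdim₁ : Module.finrank K ↥(riemannRochSpace (A₁ + s27ppG Q)) =
      Module.finrank K ↥(riemannRochSpace A₁) + Fintype.card κ)
    (hdim₂ : Module.finrank K ↥(riemannRochSpace (A₂ + s27ppG Q)) =
      Module.finrank K ↥(riemannRochSpace A₂) + Fintype.card κ)
    -- LE3 on the stage
    (hval : ∀ h : FL, h ≠ 0 →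
      (∀ v : Place L FL, v.ord h =
        (s27brgPts hld hgen hx R' + s27brgCon hld hgen hall (A₁ - A₂)
          - s27brgPts hld hgen hx R) v) →
      ∀ c : L, c ≠ 0 → S27legrNorm (s27le5Rd hld hgen W hKW) (algebraMap L FL c * h) →
      ∀ l, ∃ a : L,
        S27llVal (s26gspCon hld hgen hall (Q l)).toValuationSubring (algebraMap L FL c * h) a ∧
          a ∈ W ∧ a⁻¹ ∈ W ∧ a ≠ 0)
    {y₁ y₂ : L} (h₁ : S27ptIsIdx W R A₁ y₁) (h₂ : S27ptIsIdx W R' A₂ y₂) :
    ∃ c : L, S27ldUnit W c ∧ y₂ = c * y₁ := by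
  classical
  obtain ⟨f, -, -, -⟩ := id h₁
  obtain ⟨f', -, -, -⟩ := id h₂
  obtain ⟨h, hh, hdiv⟩ := hprin
  obtain ⟨b, hb, hxa⟩ := s27lli_exists_basis_con hld hgen hall A₁ hQ π hπ hdim₁ f
  obtain ⟨b', hb', hxa'⟩ := s27lli_exists_basis_con hld hgen hall A₂ hQ π hπ hdim₂ f'
  obtain ⟨φ, hφ, hφG⟩ := hlat₁
  obtain ⟨φ', hφ', hφG'⟩ := hlat₂
  -- the same local equations on both sides
  have hEq : ∀ l, s27lliEq A₂ Q π l = s27lliEq A₁ Q π l := by
    intro l
    unfold s27lliEq
    rw [Finsupp.add_apply, Finsupp.add_apply, hQA l]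
  have hxa'' : S27llAdapted (𝔏 := L) (fun l => (s26gspCon hld hgen hall (Q l)).toValuationSubring)
      (fun l => algebraMap F FL (s27lliEq A₁ Q π l))
      (fun j => algebraMap F FL ((b' j : ↥(riemannRochSpace (A₂ + s27ppG Q))) : F)) := by
    have e : (fun l => algebraMap F FL (s27lliEq A₁ Q π l))
        = fun l => algebraMap F FL (s27lliEq A₂ Q π l) := by
      funext l
      rw [hEq l]
    rw [e]
    exact hxa'
  exact s27le5_frame hld hgen hall hx (s27stg_hld K F (s27giRes K W hKW)) W hKW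
    (s27giResMap K W hKW) (s27giRes_algebraMap K W hKW) (s27giResMap_surjective K W hKW)
    R R' hR hR' A₁ A₂ (s27ppG Q) h hh (fun v => (hdiv v).symm) f f' b b' hb hb'
    (fun l => hcen _ (b (Sum.inr l)).2) (fun l => hcen' _ (b' (Sum.inr l)).2)
    (s27cpt_intSurj hKW hφ _ (fun j => s27le5_mem_span_basis _ b _ (hφG j)))
    (s27cpt_intSurj hKW hφ' _ (fun j => s27le5_mem_span_basis _ b' _ (hφG' j)))
    (fun l => (s26gspCon hld hgen hall (Q l)).toValuationSubring)
    (fun l => algebraMap F FL (s27lliEq A₁ Q π l))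
    (fun l c => s27lli_const_mem hld hgen hall Q l c) hxa hxa''
    (hval h hh (fun v => (hdiv v).symm)) h₁ h₂

end Stage

end Fermat.Agent.S27
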