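/-
S27-B, leaf **LE2 (GAUSS)** (helper21) — the bridge to helper87's **LE3 LOC-UNIT**
(S27/LE3Unit.lean): in the raw Gauss frame (`F = Frac (L ⊗[K] Γ)`, `O = s26ergO`,
`ι = algebraMap (L ⊗[K] Γ) F`), the `W`-integrality hypotheses `hu₁`, `hu₂` of `s27le3_main_tau`
are CONSEQUENCES of `h` being Gauss-normalised (point (ii) of helper87's list):

* `s27leg_int_mem_O`     : a `V`-integral element of `L ⊗[K] Γ` (`s27le3Int V Γ`) is Gauss-integral;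
* `s27leg_int_of_mem_O`  : `u ∈ L ⊗[K] 𝒪` (`𝒪` a `K`-subalgebra of `Γ`) whose image in `F` is
                           Gauss-integral is `V`-integral: `u ∈ s27le3Int V 𝒪`   (LE2 (a));
* `s27leg_le3_int`, `s27leg_le3_int'` : `h` normalised, `h · w = u` (resp. `h · u = w`),
                           `w` integral ⇒ `u` integral;
* `s27leg_le3_main_tau`  : `s27le3_main_tau` WITHOUT the integrality hypotheses.
-/
import Fermat.Agent.S27.LE3Unit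
import Fermat.Agent.S27.LEGauss

set_option autoImplicit false
set_option linter.unusedSectionVars false

noncomputable section

namespace Fermat.Agent.S27

open TensorProduct Module Fermat.Agent.S26

universe u v w

variable {K : Type u} [Field K] {L : Type w} [Field L] [Algebra K L]
  {Γ : Type v} [Field Γ] [Algebra K Γ]
  {V : ValuationSubring L} [Algebra K ↥V] [IsScalarTower K ↥V L]
  {k : Type*} [Field k] [Algebra K k] {res : ↥V →ₐ[K] k}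
  {F : Type*} [Field F] [Algebra L F] [Algebra (L ⊗[K] Γ) F]
  [IsScalarTower L (L ⊗[K] Γ) F] [IsFractionRing (L ⊗[K] Γ) F]
  {Fb : Type*} [Field Fb] [Algebra k Fb] [Algebra (k ⊗[K] Γ) Fb]
  [IsScalarTower k (k ⊗[K] Γ) Fb]

/-- a `V`-integral element of `L ⊗[K] Γ` is Gauss-integral -/
theorem s27leg_int_mem_O {z : L ⊗[K] Γ} (hz : z ∈ s27le3Int (K := K) V Γ) :
    algebraMap (L ⊗[K] Γ) F z ∈ s26ergO K Γ V res F Fb := by
  have hle : s27le3Int (K := K) V Γ ≤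
      (s26ergO K Γ V res F Fb).comap (algebraMap (L ⊗[K] Γ) F) := by
    refine Subring.closure_le.mpr ?_
    rintro z (⟨c, hc, rfl⟩ | ⟨b, rfl⟩)
    · show algebraMap (L ⊗[K] Γ) F (c ⊗ₜ[K] (1 : Γ)) ∈ s26ergO K Γ V res F Fb
      have := s26ergIota_mem_O (K := K) (Γ := Γ) (V := V) (res := res) (F := F) (Fb := Fb)
        ((⟨c, hc⟩ : ↥V) ⊗ₜ[K] (1 : Γ))
      exact this
    · show algebraMap (L ⊗[K] Γ) F ((1 : L) ⊗ₜ[K] b) ∈ s26ergO K Γ V res F Fb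
      have := s26ergIota_mem_O (K := K) (Γ := Γ) (V := V) (res := res) (F := F) (Fb := Fb)
        ((1 : ↥V) ⊗ₜ[K] b)
      exact this
  exact hle hz

/-- **LE2 (a) for a subalgebra**: an element of `L ⊗[K] 𝒪` whose image in `F` is Gauss-integral
is `V`-integral. -/
theorem s27leg_int_of_mem_O (hres : Function.Surjective res)
    (hFb : Function.Injective (algebraMap (k ⊗[K] Γ) Fb)) (𝒪 : Subalgebra K Γ) (u : L ⊗[K] 𝒪)
    (hu : algebraMap (L ⊗[K] Γ) F (s27le3J L 𝒪 u) ∈ s26ergO K Γ V res F Fb) :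
    u ∈ s27le3Int (K := K) V 𝒪 := by
  classical
  let b : Basis (Basis.ofVectorSpaceIndex K ↥𝒪) K ↥𝒪 := Basis.ofVectorSpace K ↥𝒪
  set bL := Algebra.TensorProduct.basis L b with hbL
  set c := bL.repr u with hc
  have hx : LinearIndependent K (fun i => ((b i : ↥𝒪) : Γ)) := by
    have h1 := b.linearIndependent
    have h2 := h1.map' 𝒪.val.toLinearMap
      (LinearMap.ker_eq_bot.mpr (by
        intro a a' haa'
        exact Subtype.ext haa'))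
    exact h2
  have hu_eq : u = c.sum fun i a => a ⊗ₜ[K] b i := by
    have h1 := bL.linearCombination_repr u
    rw [Finsupp.linearCombination_apply] at h1
    rw [← h1]
    refine Finset.sum_congr rfl fun i _ => ?_
    show bL.repr u i • bL i = _
    rw [hbL, Algebra.TensorProduct.basis_apply, TensorProduct.smul_tmul', smul_eq_mul, mul_one]
  have hJ : s27le3J L 𝒪 u = s27legSum (fun i => ((b i : ↥𝒪) : Γ)) c := by
    rw [hu_eq, s27legSum, Finsupp.sum, map_sum]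
    refine Finset.sum_congr rfl fun i _ => ?_
    rw [s27le3J_tmul]
  rw [hJ, s27leg_sum_mem_O_iff _ hres hFb hx] at hu
  rw [hu_eq]
  exact Subring.sum_mem _ fun i _ => s27le3_tmul_mem V (hu i) (b i)

/-- `V`-integral `=` Gauss-integral, on `L ⊗[K] 𝒪` -/
theorem s27leg_int_iff (hres : Function.Surjective res)
    (hFb : Function.Injective (algebraMap (k ⊗[K] Γ) Fb)) (𝒪 : Subalgebra K Γ) (u : L ⊗[K] 𝒪) :
    u ∈ s27le3Int (K := K) V 𝒪 ↔
      algebraMap (L ⊗[K] Γ) F (s27le3J L 𝒪 u) ∈ s26ergO K Γ V res F Fb :=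
  ⟨fun h => s27leg_int_mem_O (s27le3J_mem V 𝒪 h), s27leg_int_of_mem_O hres hFb 𝒪 u⟩

/-- **LE3 (ii)**: `h` normalised, `h · w = u`, `w` integral ⇒ `u` integral. -/
theorem s27leg_le3_int (hres : Function.Surjective res)
    (hFb : Function.Injective (algebraMap (k ⊗[K] Γ) Fb)) (𝒪 : Subalgebra K Γ) {h : F}
    (hh : s27legNorm K Γ V res Fb h) (w u : L ⊗[K] 𝒪) (hw : w ∈ s27le3Int (K := K) V 𝒪)
    (e : h * algebraMap (L ⊗[K] Γ) F (s27le3J L 𝒪 w) =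
      algebraMap (L ⊗[K] Γ) F (s27le3J L 𝒪 u)) :
    u ∈ s27le3Int (K := K) V 𝒪 := by
  apply s27leg_int_of_mem_O (F := F) hres hFb 𝒪 u
  rw [← e]
  exact Subring.mul_mem _ hh.1 (s27leg_int_mem_O (s27le3J_mem V 𝒪 hw))

/-- **LE3 (ii)**, the other direction: `h` normalised, `h · u = w`, `w` integral ⇒ `u` integral. -/
theorem s27leg_le3_int' (hres : Function.Surjective res)
    (hFb : Function.Injective (algebraMap (k ⊗[K] Γ) Fb)) (𝒪 : Subalgebra K Γ) {h : F}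
    (hh : s27legNorm K Γ V res Fb h) (w u : L ⊗[K] 𝒪) (hw : w ∈ s27le3Int (K := K) V 𝒪)
    (e : h * algebraMap (L ⊗[K] Γ) F (s27le3J L 𝒪 u) =
      algebraMap (L ⊗[K] Γ) F (s27le3J L 𝒪 w)) :
    u ∈ s27le3Int (K := K) V 𝒪 := by
  apply s27leg_int_of_mem_O (F := F) hres hFb 𝒪 u
  rw [← s27leg_norm_mul_mem_iff hh, e]
  exact s27leg_int_mem_O (s27le3J_mem V 𝒪 hw)

/-- **LE3 = LOC-UNIT with the integrality discharged by LE2**: `h` Gauss-normalised, `τ ∈ 𝒪`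
separating `Q` (`ρ`) from the centres of the points (`ρ τ − r i ∈ Vˣ`, `ρ τ − r′ i ∈ Vˣ`),
`h · ∏ (1 ⊗ τ − r i ⊗ 1) = u₁`, `h · u₂ = ∏ (1 ⊗ τ − r′ i ⊗ 1)` with `u₁, u₂ ∈ L ⊗[K] 𝒪`:
there is a unit `c` of `V` such that multiplication by `h` multiplies the values at `Q` by `c`. -/
theorem s27leg_le3_main_tau (hres : Function.Surjective res)
    (hFb : Function.Injective (algebraMap (k ⊗[K] Γ) Fb)) (𝒪 : Subalgebra K Γ)
    (ρ : 𝒪 →ₐ[K] L) (hρ : ∀ b, ρ b ∈ V) {h : F} (hh : s27legNorm K Γ V res Fb h) (τ : 𝒪)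
    {N N' : ℕ} (r : Fin N → L) (r' : Fin N' → L)
    (hr1 : ∀ i, ρ τ - r i ∈ V) (hr2 : ∀ i, (ρ τ - r i)⁻¹ ∈ V) (hr3 : ∀ i, ρ τ - r i ≠ 0)
    (hr1' : ∀ i, ρ τ - r' i ∈ V) (hr2' : ∀ i, (ρ τ - r' i)⁻¹ ∈ V) (hr3' : ∀ i, ρ τ - r' i ≠ 0)
    (u₁ u₂ : L ⊗[K] 𝒪)
    (h1 : h * algebraMap (L ⊗[K] Γ) F (s27le3J L 𝒪 (s27le3W (K := K) τ r)) =
      algebraMap (L ⊗[K] Γ) F (s27le3J L 𝒪 u₁))
    (h2 : h * algebraMap (L ⊗[K] Γ) F (s27le3J L 𝒪 u₂) =
      algebraMap (L ⊗[K] Γ) F (s27le3J L 𝒪 (s27le3W (K := K) τ r'))) :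
    ∃ c : L, c ∈ V ∧ c⁻¹ ∈ V ∧ c ≠ 0 ∧ ∀ s s₂ : L ⊗[K] 𝒪,
      h * algebraMap (L ⊗[K] Γ) F (s27le3J L 𝒪 s) =
        algebraMap (L ⊗[K] Γ) F (s27le3J L 𝒪 s₂) → s27le3Ev ρ s₂ = c * s27le3Ev ρ s := by
  have hr : ∀ i, r i ∈ V := fun i => by
    have := sub_mem (hρ τ) (hr1 i)
    rwa [sub_sub_cancel] at this
  have hr' : ∀ i, r' i ∈ V := fun i => by
    have := sub_mem (hρ τ) (hr1' i)
    rwa [sub_sub_cancel] at this
  have hu₁ : u₁ ∈ s27le3Int (K := K) V 𝒪 :=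
    s27leg_le3_int hres hFb 𝒪 hh _ u₁ (s27le3W_mem V τ r hr) h1
  have hu₂ : u₂ ∈ s27le3Int (K := K) V 𝒪 :=
    s27leg_le3_int' hres hFb 𝒪 hh _ u₂ (s27le3W_mem V τ r' hr') h2
  exact s27le3_main_tau V 𝒪 ρ (algebraMap (L ⊗[K] Γ) F) (IsFractionRing.injective _ _) hρ h τ
    r r' hr1 hr2 hr3 hr1' hr2' hr3' u₁ u₂ h1 h2 hu₁ hu₂

end Fermat.Agent.S27
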