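/-
S27-B, leaf **LE2 (GAUSS)**, normalisation step (helper21): the function `h` of a linear
equivalence is only determined up to a constant of `Lˣ`; the LE5 assembly (`s27le5_asm`) wants it
Gauss-NORMALISED.  Generic frame `R : DEU.RedData L F k Fb` of S27/LEGaussR.lean.

* `s27legr_lin_smul`   : `∑ (c · p j) x j = c · ∑ p j x j`;
* `s27legr_hlin12_scale`, `s27legr_hlin21_scale` : the kernel correspondences (LinEq in
  coordinates, matrix form `E *ᵥ p = 0`) for `h` give those for `c · h`, `c ≠ 0`;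
* `s27legr_exists_norm_hlin` : from LinEq in coordinates for SOME `h ≠ 0`, a Gauss-normalised `h₀`
  with the same two correspondences — the hypotheses `h`, `hh`, `hlin12`, `hlin21` of
  `s27le5_asm`.
-/
import Fermat.Agent.S27.LEGaussR

set_option autoImplicit false
set_option linter.unusedSectionVars false

noncomputable section

namespace Fermat.Agent.S27

open Fermat.Agent.DEU Matrix

variable {L F k Fb : Type*} [Field L] [Field F] [Algebra L F] [Field k] [Field Fb] [Algebra k Fb]
  {R : RedData L F k Fb}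

section Scale

variable {J J' I I' : Type*} [Fintype J] [Fintype J']

theorem s27legr_lin_smul (x : J → F) (c : L) (p : J → L) :
    s27legrLin x (c • p) = algebraMap L F c * s27legrLin x p := by
  unfold s27legrLin
  rw [Finset.mul_sum]
  refine Finset.sum_congr rfl fun j _ => ?_
  rw [Pi.smul_apply, smul_eq_mul, map_mul, mul_assoc]

theorem s27legr_lin_zero (x : J → F) : s27legrLin x (0 : J → L) = 0 := by
  unfold s27legrLin
  refine Finset.sum_eq_zero fun j _ => ?_
  rw [Pi.zero_apply, map_zero, zero_mul]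

/-- the forward kernel correspondence for `h` gives the one for `c · h` -/
theorem s27legr_hlin12_scale (E : Matrix I J L) (E' : Matrix I' J' L) (x : J → F) (x' : J' → F)
    (h : F) (c : L)
    (hlin : ∀ p : J → L, E *ᵥ p = 0 → ∃ p' : J' → L, E' *ᵥ p' = 0 ∧
      h * s27legrLin x p = s27legrLin x' p') :
    ∀ p : J → L, E *ᵥ p = 0 → ∃ p' : J' → L, E' *ᵥ p' = 0 ∧
      (algebraMap L F c * h) * s27legrLin x p = s27legrLin x' p' := by
  intro p hp
  obtain ⟨p', hp', e⟩ := hlin p hp
  refine ⟨c • p', ?_, ?_⟩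
  · rw [Matrix.mulVec_smul, hp', smul_zero]
  · rw [s27legr_lin_smul, ← e, mul_assoc]

/-- the backward kernel correspondence for `h` gives the one for `c · h`, `c ≠ 0` -/
theorem s27legr_hlin21_scale (E : Matrix I J L) (E' : Matrix I' J' L) (x : J → F) (x' : J' → F)
    (h : F) {c : L} (hc : c ≠ 0)
    (hlin : ∀ p' : J' → L, E' *ᵥ p' = 0 → ∃ p : J → L, E *ᵥ p = 0 ∧
      h * s27legrLin x p = s27legrLin x' p') :
    ∀ p' : J' → L, E' *ᵥ p' = 0 → ∃ p : J → L, E *ᵥ p = 0 ∧
      (algebraMap L F c * h) * s27legrLin x p = s27legrLin x' p' := by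
  intro p' hp'
  obtain ⟨p, hp, e⟩ := hlin p' hp'
  refine ⟨c⁻¹ • p, ?_, ?_⟩
  · rw [Matrix.mulVec_smul, hp, smul_zero]
  · rw [s27legr_lin_smul, ← e, map_inv₀]
    have hc' : algebraMap L F c ≠ 0 := (map_ne_zero _).mpr hc
    field_simp

variable (R) in
/-- **normalisation of the function of a linear equivalence**: from the two kernel
correspondences for some `h ≠ 0`, a Gauss-normalised `h₀ = c · h` with the same correspondences. -/
theorem s27legr_exists_norm_hlin (E : Matrix I J L) (E' : Matrix I' J' L) (x : J → F)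
    (x' : J' → F) (h : F) (hh0 : h ≠ 0)
    (hlin12 : ∀ p : J → L, E *ᵥ p = 0 → ∃ p' : J' → L, E' *ᵥ p' = 0 ∧
      h * s27legrLin x p = s27legrLin x' p')
    (hlin21 : ∀ p' : J' → L, E' *ᵥ p' = 0 → ∃ p : J → L, E *ᵥ p = 0 ∧
      h * s27legrLin x p = s27legrLin x' p') :
    ∃ h₀ : F, S27legrNorm R h₀ ∧
      (∀ p : J → L, E *ᵥ p = 0 → ∃ p' : J' → L, E' *ᵥ p' = 0 ∧
        h₀ * s27legrLin x p = s27legrLin x' p') ∧
      (∀ p' : J' → L, E' *ᵥ p' = 0 → ∃ p : J → L, E *ᵥ p = 0 ∧
        h₀ * s27legrLin x p = s27legrLin x' p') := by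
  obtain ⟨c, hc, hn⟩ := s27legr_exists_norm R h hh0
  exact ⟨algebraMap L F c * h, hn, s27legr_hlin12_scale E E' x x' h c hlin12,
    s27legr_hlin21_scale E E' x x' h hc hlin21⟩

end Scale

end Fermat.Agent.S27
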