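/-
S27-B, leaf LE-0 on the stage (helper74): **(LE-CLASS) `S27ckLE K (S27icIdx …)` from (LE-a)**.

Stage and `S27icIdx` as in S27/IdxCls.lean (hub helper95).  `Ao` a constant divisor with `L_K(Ao) = 0`.

* `S27lezcLEa Ao` : (LE-a) two injective tuples `(R, B)`, `(R', B')` (any `N, N' ≥ 0`) of the same
                    class `[Σ pt R − Con B] = [Σ pt R' − Con B']` have local equations
                    (`S27ptIsIdx W R (B + Ao)`, `S27ptIsIdx W R' (B' + Ao)`) that agree up to a unit of `W`;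
* `S27lezcLE0 Ao` : (LE-0) a tuple of class `0` has a UNIT of `W` as local equation;
* `s27lezc_cl_empty`   : the class of the empty tuple w.r.t. the origin `0` is `0`;
* `s27lezc_le0_of_lea` : (LE-a) ⇒ (LE-0)   [LE-a against the empty tuple `N' = 0`, `B' = 0`; `ℓ(Ao) = 0`];
* `s27lezc_ckLE_of`    : (LE-a) + (LE-0) ⇒ `S27ckLE K (S27icIdx hld hgen hx Ao)`;
* `s27lezc_ckLE`       : (LE-a) ⇒ `S27ckLE K (S27icIdx hld hgen hx Ao)`  (the `hLE` of `s27ic_cube`).
-/
import Fermat.Agent.S27.IdxCls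
import Fermat.Agent.S27.LEZero

set_option autoImplicit false
set_option linter.unusedVariables false
set_option linter.unusedSectionVars false
set_option linter.style.haveILetI false

noncomputable section

namespace Fermat.Agent.S27

open AlgebraicCurve Module TensorProduct IntermediateField Fermat.Agent.S26

universe u v y

section Stage

variable {K : Type u} {F : Type v} [Field K] [IsAlgClosed K] [CharZero K] [Field F] [Algebra K F]
  [IsCurveOver K F] [Algebra.EssFiniteType K F]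
  {L : Type (max u v)} [Field L] [Algebra K L]
  [Algebra (s27gfOm K F (genusFF K F)) L] [IsScalarTower K (s27gfOm K F (genusFF K F)) L]
  [IsAlgClosed L] [Algebra.IsAlgebraic (s27gfOm K F (genusFF K F)) L]
  {FL : Type y} [Field FL] [Algebra K FL] [Algebra F FL] [Algebra L FL]
  [IsScalarTower K F FL] [IsScalarTower K L FL]
  (hld : Function.Injective (s26gspMu K F L FL)) (hgen : S26gspGen K F L FL)
  {x : F} (hx : Transcendental K x)
  [FiniteDimensional ↥(IntermediateField.adjoin K {x}) F]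
  [Algebra.IsSeparable ↥(IntermediateField.adjoin K {x}) F]

/-- **(LE-a)**: pairwise class invariance of the local equation, all tuples (also the empty ones). -/
def S27lezcLEa (Ao : Divisor K F) : Prop :=
  ∀ W : ValuationSubring L, S27IsKValU K W →
    ∀ (N N' : ℕ) (R : Fin N → F →ₐ[K] L) (R' : Fin N' → F →ₐ[K] L) (B B' : Divisor K F)
      (hB : Divisor.degree B = (N : ℤ)) (hB' : Divisor.degree B' = (N' : ℤ)),
      Function.Injective R → Function.Injective R' →
      s27icCl hld hgen hx R B hB = s27icCl hld hgen hx R' B' hB' →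
      ∀ y y' : L, S27ptIsIdx W R (B + Ao) y → S27ptIsIdx W R' (B' + Ao) y' → s27cptEq W y y'

/-- **(LE-0)**: a tuple of class `0` has a unit of `W` as local equation. -/
def S27lezcLE0 (Ao : Divisor K F) : Prop :=
  ∀ W : ValuationSubring L, S27IsKValU K W →
    ∀ (N : ℕ) (R : Fin N → F →ₐ[K] L) (B : Divisor K F) (hB : Divisor.degree B = (N : ℤ)),
      Function.Injective R → s27icCl hld hgen hx R B hB = 0 →
      ∀ y : L, S27ptIsIdx W R (B + Ao) y → S27IsUnitIn W y

/-- the class of the empty tuple w.r.t. the origin `0` is `0`. -/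
theorem s27lezc_cl_empty (R : Fin 0 → F →ₐ[K] L)
    (hB : Divisor.degree (0 : Divisor K F) = ((0 : ℕ) : ℤ)) :
    s27icCl hld hgen hx R 0 hB = 0 := by
  unfold s27icCl s27pkgClO
  have h : s27pkgDivZeroO (s27pkg_hdeg hld hgen hx)
      (Finsupp.mapDomain (s26gspCon hld hgen (s26gspf_hall hx)) (0 : Divisor K F))
      (by rw [s26gspc_degree, hB]) (fun i => s27gpPlace hld hgen (R i) hx) = 0 := by
    apply Subtype.ext
    rw [s27pkgDivZeroO_coe]
    show s27pkgSum (fun i => s27gpPlace hld hgen (R i) hx) -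
      Finsupp.mapDomain (s26gspCon hld hgen (s26gspf_hall hx)) (0 : Divisor K F) = 0
    rw [Finsupp.mapDomain_zero, sub_zero]
    unfold s27pkgSum
    exact Finset.sum_empty
  rw [h]
  exact Pic0.mk_zero

/-- **(LE-a) ⇒ (LE-0)**: LE-a against the empty tuple. -/
theorem s27lezc_le0_of_lea (Ao : Divisor K F) (h0 : ∀ f ∈ riemannRochSpace Ao, f = 0)
    (h : S27lezcLEa hld hgen hx Ao) : S27lezcLE0 hld hgen hx Ao := by
  intro W hW N R B hB hR hcl y hy
  have hB0 : Divisor.degree (0 : Divisor K F) = ((0 : ℕ) : ℤ) := by simp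
  have h1 : S27ptIsIdx W (s27lezEmpty K F L) ((0 : Divisor K F) + Ao) 1 := by
    rw [zero_add]
    exact s27lez_idx_empty W _ Ao h0
  have hinj : Function.Injective (s27lezEmpty K F L) := fun i => i.elim0
  have hcl' : s27icCl hld hgen hx R B hB = s27icCl hld hgen hx (s27lezEmpty K F L) 0 hB0 := by
    rw [hcl, s27lezc_cl_empty]
  exact (s27lez_eq_one_iff W y).1 (h W hW N 0 R _ B 0 hB hB0 hR hinj hcl' y 1 hy h1)

/-- **(LE-a) + (LE-0) ⇒ (LE-CLASS)** for the concrete `S27icIdx`. -/
theorem s27lezc_ckLE_of (Ao : Divisor K F) (ha : S27lezcLEa hld hgen hx Ao)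
    (h0 : S27lezcLE0 hld hgen hx Ao) : S27ckLE K (S27icIdx hld hgen hx Ao) := by
  intro W hW
  refine ⟨s27ic_idx_zero hld hgen hx Ao W, ?_⟩
  intro c y y' h h'
  rcases h with ⟨rfl, hu⟩ | ⟨N, R, B, hB, hR, hcl, hy⟩
  · rcases h' with ⟨-, hu'⟩ | ⟨N', R', B', hB', hR', hcl', hy'⟩
    · exact s27lez_eq_of_units hu hu'
    · exact s27lez_eq_of_units hu (h0 W hW N' R' B' hB' hR' hcl' y' hy')
  · rcases h' with ⟨rfl, hu'⟩ | ⟨N', R', B', hB', hR', hcl', hy'⟩
    · exact s27lez_eq_of_units (h0 W hW N R B hB hR hcl y hy) hu'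
    · exact ha W hW N N' R R' B B' hB hB' hR hR' (hcl.trans hcl'.symm) y y' hy hy'

/-- **(LE-a) ⇒ (LE-CLASS)**: the `hLE` of `s27ic_cube` (S27/IdxCls.lean). -/
theorem s27lezc_ckLE (Ao : Divisor K F) (h0 : ∀ f ∈ riemannRochSpace Ao, f = 0)
    (ha : S27lezcLEa hld hgen hx Ao) : S27ckLE K (S27icIdx hld hgen hx Ao) :=
  s27lezc_ckLE_of hld hgen hx Ao ha (s27lezc_le0_of_lea hld hgen hx Ao h0 ha)

end Stage

end Fermat.Agent.S27

end
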