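/-
S27-B, GEOMETRY leaf LE(a) (NOTES/S27-geom.md §2), abstract form (helper93), on the `≐_W` calculus of
S27/CubePtU.lean (helper8):  `m_W(D + O″) ≐_W m_W(D)`.

Setting of CubePtU: points `i ∈ ι` with `x i = R_i(t)`, `α i = R_i(a₀)`, `σ i = R_i(s)` (the adapted
pole function for `A_M = A₀ + M · O″` is `a₀ · s^M`, `s` with a simple pole at `O″`), `θ S` the
determinant of the divisor `S`, and the point formula
`s27cptM x α σ θ S = θ S / (∏_{i<j ∈ S} (x j − x i) · ∏_{i ∈ S} α i · σ i ^ |S|)`.
The CONSTANT point `O″` is one more index `o ∉ S` with `x o = t(O″)` and `α o`, `σ o` units of `W`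
(its row in the matrix of `S ∪ {o}` = the leading coefficients at `O″`).

* `s27lea_det_lastRow`  : a matrix whose last row is `(0, …, 0, c)` has determinant `c · det (minor)`
                          (the BLOCK TRIANGULAR step: basis of `L(A + O″)` adapted to `L(A)`);
* `s27lea_V_insert`     : the Vandermonde product with one more node;
* `s27lea_V_insert_eq`  : `V(S ∪ {o}) ≐_W V(S) · ∏_{i ∈ S} (x o − x i)`;
* `s27lea_Pc_insert`    : the pole factors of `S ∪ {o}`;
* **`s27lea_main`**     : `θ (S ∪ {o}) = c · θ S` (`c` a unit of `W`), `σ i · (x o − x i)` units of `W`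
                          (`s · (t − t(O″))` is a unit at every centre, ALSO at the centre `O″`)
                          ⇒ `m(S ∪ {o}) ≐_W m(S)`;
* `s27lea_main'`        : the same for any `μ ≐_W m(S ∪ {o})`, `μ' ≐_W m(S)`.
-/
import Fermat.Agent.S27.CubePtU

set_option autoImplicit false
set_option linter.unusedSectionVars false
set_option linter.unusedVariables false

namespace Fermat.Agent.S27

open Finset

universe w

/-! ### the block triangular determinant -/

section det

variable {R : Type*} [CommRing R]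

/-- A square matrix whose last row is `(0, …, 0, c)` has determinant `c · det` of the minor. -/
theorem s27lea_det_lastRow {N : ℕ} (A : Matrix (Fin (N + 1)) (Fin (N + 1)) R)
    (h0 : ∀ j : Fin N, A (Fin.last N) (Fin.castSucc j) = 0) :
    A.det = A (Fin.last N) (Fin.last N) * (A.submatrix Fin.castSucc Fin.castSucc).det := by
  rw [Matrix.det_succ_row A (Fin.last N), Fin.sum_univ_castSucc]
  have hz : ∀ j : Fin N, (-1 : R) ^ ((Fin.last N : ℕ) + (Fin.castSucc j : ℕ))
      * A (Fin.last N) (Fin.castSucc j)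
      * (A.submatrix (Fin.last N).succAbove (Fin.castSucc j).succAbove).det = 0 := by
    intro j
    rw [h0 j, mul_zero, zero_mul]
  rw [Finset.sum_eq_zero (fun j _ => hz j), zero_add]
  have hs : (Fin.last N).succAbove = (Fin.castSucc : Fin N → Fin (N + 1)) := by
    funext i
    exact Fin.succAbove_last_apply i
  rw [hs]
  have hsign : (-1 : R) ^ ((Fin.last N : ℕ) + (Fin.last N : ℕ)) = 1 := by
    rw [← two_mul, pow_mul]
    simp
  rw [hsign, one_mul]

end det

section rel

variable {𝔏 : Type w} [Field 𝔏]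

theorem s27lea_unit_one (W : ValuationSubring 𝔏) : S27IsUnitIn W (1 : 𝔏) :=
  ⟨one_ne_zero, W.one_mem, by rw [inv_one]; exact W.one_mem⟩

theorem s27lea_unit_mul {W : ValuationSubring 𝔏} {u v : 𝔏} (hu : S27IsUnitIn W u)
    (hv : S27IsUnitIn W v) : S27IsUnitIn W (u * v) := by
  refine ⟨mul_ne_zero hu.1 hv.1, W.mul_mem _ _ hu.2.1 hv.2.1, ?_⟩
  rw [mul_inv]
  exact W.mul_mem _ _ hu.2.2 hv.2.2

theorem s27lea_unit_pow {W : ValuationSubring 𝔏} {u : 𝔏} (hu : S27IsUnitIn W u) (n : ℕ) :
    S27IsUnitIn W (u ^ n) := by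
  induction n with
  | zero => simpa using s27lea_unit_one W
  | succ n ih => rw [pow_succ]; exact s27lea_unit_mul ih hu

theorem s27lea_eq_of_unit {W : ValuationSubring 𝔏} {u : 𝔏} (hu : S27IsUnitIn W u) (a : 𝔏) :
    s27cptEq W (u * a) a := ⟨u, hu, rfl⟩

theorem s27lea_eq_one_of_unit {W : ValuationSubring 𝔏} {u : 𝔏} (hu : S27IsUnitIn W u) :
    s27cptEq W u 1 := ⟨u, hu, (mul_one u).symm⟩

theorem s27lea_eq_prod {κ : Type*} (W : ValuationSubring 𝔏) (T : Finset κ) (a b : κ → 𝔏)
    (h : ∀ i ∈ T, s27cptEq W (a i) (b i)) : s27cptEq W (∏ i ∈ T, a i) (∏ i ∈ T, b i) := by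
  classical
  induction T using Finset.induction_on with
  | empty => simpa using s27cptEq_refl W (1 : 𝔏)
  | insert i T hi ih =>
    rw [Finset.prod_insert hi, Finset.prod_insert hi]
    exact s27cptEq_mul (h i (Finset.mem_insert_self i T))
      (ih fun j hj => h j (Finset.mem_insert_of_mem hj))

theorem s27lea_eq_div {W : ValuationSubring 𝔏} {a b a' b' : 𝔏} (h : s27cptEq W a b)
    (h' : s27cptEq W a' b') : s27cptEq W (a / a') (b / b') := by
  rw [div_eq_mul_inv, div_eq_mul_inv]
  exact s27cptEq_mul h (s27cptEq_inv h')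

end rel

section insert

variable {𝔏 : Type w} [Field 𝔏] {ι : Type*} [LinearOrder ι]

theorem s27lea_Q_singleton_self {M : Type*} [CommMonoid M] (f : ι × ι → M) (o : ι) :
    s27cptQ f {o} {o} = 1 := by
  unfold s27cptQ
  apply Finset.prod_eq_one
  intro p hp
  rw [Finset.mem_filter, Finset.mem_product, Finset.mem_singleton, Finset.mem_singleton] at hp
  obtain ⟨⟨h1, h2⟩, h3⟩ := hp
  rw [h1, h2] at h3
  exact absurd h3 (lt_irrefl o)

theorem s27lea_Q_right_singleton {M : Type*} [CommMonoid M] (f : ι × ι → M) (S : Finset ι)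
    (o : ι) : s27cptQ f S {o} = ∏ i ∈ S.filter (fun i => i < o), f (i, o) := by
  unfold s27cptQ
  rw [Finset.prod_filter, Finset.prod_product, Finset.prod_filter]
  refine Finset.prod_congr rfl fun i _ => ?_
  rw [Finset.prod_singleton]

theorem s27lea_Q_left_singleton {M : Type*} [CommMonoid M] (f : ι × ι → M) (S : Finset ι)
    (o : ι) : s27cptQ f {o} S = ∏ j ∈ S.filter (fun j => o < j), f (o, j) := by
  unfold s27cptQ
  rw [Finset.prod_filter, Finset.prod_product, Finset.prod_singleton, Finset.prod_filter]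

/-- **the Vandermonde product with one more node** -/
theorem s27lea_V_insert (x : ι → 𝔏) (S : Finset ι) (o : ι) (ho : o ∉ S) :
    s27cptV x (insert o S) = s27cptV x S *
      ((∏ i ∈ S.filter (fun i => i < o), (x o - x i))
        * ∏ j ∈ S.filter (fun j => o < j), (x j - x o)) := by
  classical
  have hd : Disjoint S {o} := Finset.disjoint_singleton_right.mpr ho
  have hins : insert o S = S ∪ {o} := by
    rw [Finset.insert_eq, Finset.union_comm]
  unfold s27cptV
  rw [hins, s27cptQ_diag_union _ hd, s27lea_Q_singleton_self, mul_one,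
    s27lea_Q_right_singleton, s27lea_Q_left_singleton]

/-- `V(S ∪ {o}) ≐_W V(S) · ∏_{i ∈ S} (x o − x i)` -/
theorem s27lea_V_insert_eq (W : ValuationSubring 𝔏) (x : ι → 𝔏) (S : Finset ι) (o : ι)
    (ho : o ∉ S) :
    s27cptEq W (s27cptV x (insert o S)) (s27cptV x S * ∏ i ∈ S, (x o - x i)) := by
  classical
  rw [s27lea_V_insert x S o ho]
  refine s27cptEq_mul (s27cptEq_refl W _) ?_
  have hsplit : ∏ i ∈ S, (x o - x i)
      = (∏ i ∈ S.filter (fun i => i < o), (x o - x i))
        * ∏ i ∈ S.filter (fun i => ¬ i < o), (x o - x i) :=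
    (Finset.prod_filter_mul_prod_filter_not S (fun i => i < o) _).symm
  have hfil : S.filter (fun i => ¬ i < o) = S.filter (fun j => o < j) := by
    ext i
    simp only [Finset.mem_filter]
    constructor
    · rintro ⟨hi, hlt⟩
      refine ⟨hi, lt_of_le_of_ne (not_lt.mp hlt) ?_⟩
      rintro rfl
      exact ho hi
    · rintro ⟨hi, hlt⟩
      exact ⟨hi, not_lt.mpr hlt.le⟩
  rw [hsplit, hfil]
  refine s27cptEq_mul (s27cptEq_refl W _) ?_
  refine s27lea_eq_prod W _ _ _ fun j _ => ?_
  have : x j - x o = -(x o - x j) := by ring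
  rw [this]
  exact s27cptEq_neg W _

/-- the pole factors of `S ∪ {o}` -/
theorem s27lea_Pc_insert (α σ : ι → 𝔏) (S : Finset ι) (o : ι) (ho : o ∉ S) :
    s27cptPc α σ (insert o S)
      = (α o * σ o ^ (S.card + 1)) * (s27cptPc α σ S * ∏ i ∈ S, σ i) := by
  classical
  unfold s27cptPc s27cptP
  rw [Finset.card_insert_of_notMem ho, Finset.prod_insert ho, ← Finset.prod_mul_distrib]
  congr 1
  refine Finset.prod_congr rfl fun i _ => ?_
  rw [pow_succ, mul_assoc]

/-- **LE(a), abstract**: adding the constant point `o = O″` does not change the point formula,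
up to a unit of `W`. -/
theorem s27lea_main (W : ValuationSubring 𝔏) (x α σ : ι → 𝔏) (θ : Finset ι → 𝔏)
    (S : Finset ι) (o : ι) (ho : o ∉ S) (c : 𝔏) (hc : S27IsUnitIn W c)
    (hθ : θ (insert o S) = c * θ S)
    (hαo : S27IsUnitIn W (α o)) (hσo : S27IsUnitIn W (σ o))
    (hσ : ∀ i ∈ S, S27IsUnitIn W (σ i * (x o - x i))) :
    s27cptEq W (s27cptM x α σ θ (insert o S)) (s27cptM x α σ θ S) := by
  classical
  unfold s27cptM
  refine s27lea_eq_div ?_ ?_
  · rw [hθ]
    exact s27lea_eq_of_unit hc _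
  · -- the denominators
    have h1 := s27lea_V_insert_eq W x S o ho
    have h2 : s27cptEq W (s27cptPc α σ (insert o S)) (s27cptPc α σ S * ∏ i ∈ S, σ i) := by
      rw [s27lea_Pc_insert α σ S o ho]
      exact s27lea_eq_of_unit (s27lea_unit_mul hαo (s27lea_unit_pow hσo _)) _
    have h3 := s27cptEq_mul h1 h2
    have h4 : (s27cptV x S * ∏ i ∈ S, (x o - x i)) * (s27cptPc α σ S * ∏ i ∈ S, σ i)
        = (∏ i ∈ S, (σ i * (x o - x i))) * (s27cptV x S * s27cptPc α σ S) := by
      rw [Finset.prod_mul_distrib]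
      ring
    rw [h4] at h3
    refine s27cptEq_trans h3 ?_
    have h5 : s27cptEq W (∏ i ∈ S, (σ i * (x o - x i))) (∏ i ∈ S, (1 : 𝔏)) :=
      s27lea_eq_prod W S _ _ fun i hi => s27lea_eq_one_of_unit (hσ i hi)
    rw [Finset.prod_const_one] at h5
    have h6 := s27cptEq_mul h5 (s27cptEq_refl W (s27cptV x S * s27cptPc α σ S))
    rwa [one_mul] at h6

/-- LE(a) for any representatives of the two point formulas. -/
theorem s27lea_main' (W : ValuationSubring 𝔏) (x α σ : ι → 𝔏) (θ : Finset ι → 𝔏)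
    (S : Finset ι) (o : ι) (ho : o ∉ S) (c : 𝔏) (hc : S27IsUnitIn W c)
    (hθ : θ (insert o S) = c * θ S)
    (hαo : S27IsUnitIn W (α o)) (hσo : S27IsUnitIn W (σ o))
    (hσ : ∀ i ∈ S, S27IsUnitIn W (σ i * (x o - x i)))
    (μ μ' : 𝔏) (hμ : s27cptEq W μ (s27cptM x α σ θ (insert o S)))
    (hμ' : s27cptEq W μ' (s27cptM x α σ θ S)) : s27cptEq W μ μ' :=
  s27cptEq_trans hμ (s27cptEq_trans (s27lea_main W x α σ θ S o ho c hc hθ hαo hσo hσ)
    (s27cptEq_symm hμ'))

end insert

end Fermat.Agent.S27
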