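/-
S27 route B, crux LE(b), the FORMAL CORE "SWAP" (helper61).

`R` a commutative ring (application: a valuation subring `W ⊇ K` of `𝔏`).  Free modules

  `X'` (sections of `E`, rank `N`),  `X` (sections of `E + G`, rank `N + M`),  `T = X / X'` (principal
  parts at `G`, rank `M`),  `S = ker (ev_D on X)` (rank `M`),  `Λ = ev_D X = X / S` (rank `N`),

with the two short exact sequences `0 → X' → X → T → 0` and `0 → S → X → Λ → 0`.

* `s27lbs_swap`  : `det (X' → Λ) ~ det (S → T)`  (two presentations of `X / (X' + S)`), from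
  `s27dv_det_associated_of_coker` of S27/DetV.lean;
* `s27lbs_leb`   : if `μ : S ≃ S'` (multiplication by the Gauss-normalised `h`, `div h = D' − D`) and
  `U : T ≃ T` (multiplication by `h` on the principal parts at `G`) are compatible, then
  `det (X' → Λ) ~ det (X' → Λ')` — the local equation only depends on the class of `D`;
* `s27lbs_leb_diag` : the same with `T = κ → R`, `U = diag (u k)`, `u k` units (`u k = h (Q_k)`);
* `s27lbs_leb_val`  : the valuation form over a valuation subring.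
-/
import Fermat.Agent.S27.DetV

set_option autoImplicit false

namespace Fermat.Agent.S27

open Module

section swap

variable {R : Type*} [CommRing R]
variable {X' X T Λ S : Type*} [AddCommGroup X'] [Module R X'] [AddCommGroup X] [Module R X]
  [AddCommGroup T] [Module R T] [AddCommGroup Λ] [Module R Λ] [AddCommGroup S] [Module R S]
variable {ι κ : Type*} [Fintype ι] [DecidableEq ι] [Fintype κ] [DecidableEq κ]

/-- the common cokernel `X / (X' + S)`. -/
abbrev s27lbsQ (i : X' →ₗ[R] X) (j : S →ₗ[R] X) : Type _ :=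
  X ⧸ (LinearMap.range i ⊔ LinearMap.range j)

/-- the map `X / ker e → X / (X' + S)`. -/
noncomputable def s27lbsDesc (i : X' →ₗ[R] X) (j : S →ₗ[R] X) (e : X →ₗ[R] Λ)
    (hje : Function.Exact j e) (he : Function.Surjective e) : Λ →ₗ[R] s27lbsQ i j :=
  (Submodule.liftQ (LinearMap.ker e) (LinearMap.range i ⊔ LinearMap.range j).mkQ
      (by
        intro x hx
        rw [LinearMap.mem_ker] at hx
        obtain ⟨s, rfl⟩ := (hje x).1 hx
        rw [LinearMap.mem_ker, Submodule.mkQ_apply, Submodule.Quotient.mk_eq_zero]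
        exact Submodule.mem_sup_right (LinearMap.mem_range_self j s))).comp
    (e.quotKerEquivOfSurjective he).symm.toLinearMap

theorem s27lbsDesc_apply (i : X' →ₗ[R] X) (j : S →ₗ[R] X) (e : X →ₗ[R] Λ)
    (hje : Function.Exact j e) (he : Function.Surjective e) (x : X) :
    s27lbsDesc i j e hje he (e x) = (LinearMap.range i ⊔ LinearMap.range j).mkQ x := by
  unfold s27lbsDesc
  have h1 : (e.quotKerEquivOfSurjective he).symm (e x) = Submodule.Quotient.mk x := by
    rw [LinearEquiv.symm_apply_eq]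
    rfl
  rw [LinearMap.comp_apply, LinearEquiv.coe_coe, h1]
  rfl

theorem s27lbsDesc_surjective (i : X' →ₗ[R] X) (j : S →ₗ[R] X) (e : X →ₗ[R] Λ)
    (hje : Function.Exact j e) (he : Function.Surjective e) :
    Function.Surjective (s27lbsDesc i j e hje he) := by
  intro q
  obtain ⟨x, rfl⟩ := Submodule.Quotient.mk_surjective _ q
  exact ⟨e x, s27lbsDesc_apply i j e hje he x⟩

/-- exactness of `X' → Λ → X / (X' + S)`. -/
theorem s27lbsDesc_exact (i : X' →ₗ[R] X) (j : S →ₗ[R] X) (e : X →ₗ[R] Λ)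
    (hje : Function.Exact j e) (he : Function.Surjective e) :
    Function.Exact (e ∘ₗ i) (s27lbsDesc i j e hje he) := by
  intro y
  obtain ⟨x, rfl⟩ := he y
  rw [s27lbsDesc_apply, Submodule.mkQ_apply, Submodule.Quotient.mk_eq_zero]
  constructor
  · intro hx
    obtain ⟨a, ha, b, hb, rfl⟩ := Submodule.mem_sup.1 hx
    obtain ⟨a', rfl⟩ := ha
    obtain ⟨s, rfl⟩ := hb
    refine ⟨a', ?_⟩
    have hz : e (j s) = 0 := (hje (j s)).2 ⟨s, rfl⟩
    rw [LinearMap.comp_apply, map_add, hz, add_zero]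
  · rintro ⟨a', ha'⟩
    rw [LinearMap.comp_apply] at ha'
    have hk : e (x - i a') = 0 := by rw [map_sub, ha', sub_self]
    obtain ⟨s, hs⟩ := (hje _).1 hk
    have hx : x = i a' + j s := by rw [hs]; abel
    rw [hx]
    exact Submodule.add_mem _ (Submodule.mem_sup_left (LinearMap.mem_range_self i a'))
      (Submodule.mem_sup_right (LinearMap.mem_range_self j s))

/-- `X' → Λ` injective ⇒ `S → T` injective. -/
theorem s27lbs_injective_swap (i : X' →ₗ[R] X) (p : X →ₗ[R] T) (j : S →ₗ[R] X) (e : X →ₗ[R] Λ)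
    (hip : Function.Exact i p) (hje : Function.Exact j e) (hj : Function.Injective j)
    (hinj : Function.Injective (e ∘ₗ i)) : Function.Injective (p ∘ₗ j) := by
  rw [injective_iff_map_eq_zero]
  intro s hs
  rw [LinearMap.comp_apply] at hs
  obtain ⟨a, ha⟩ := (hip _).1 hs
  have h0 : (e ∘ₗ i) a = 0 := by
    rw [LinearMap.comp_apply, ha]
    exact (hje (j s)).2 ⟨s, rfl⟩
  have ha0 : a = 0 := hinj (by rw [h0, map_zero])
  rw [ha0, map_zero] at ha
  exact hj (by rw [← ha, map_zero])

/-- **SWAP**: `det (X' → X/S) ~ det (S → X/X')`. -/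
theorem s27lbs_swap (bX' : Basis ι R X') (bΛ : Basis ι R Λ) (bS : Basis κ R S) (bT : Basis κ R T)
    (i : X' →ₗ[R] X) (p : X →ₗ[R] T) (j : S →ₗ[R] X) (e : X →ₗ[R] Λ)
    (hip : Function.Exact i p) (hp : Function.Surjective p)
    (hje : Function.Exact j e) (he : Function.Surjective e) (hj : Function.Injective j)
    (hinj : Function.Injective (e ∘ₗ i)) :
    Associated (s27dvDet bX' bΛ (e ∘ₗ i)) (s27dvDet bS bT (p ∘ₗ j)) := by
  have hsw : LinearMap.range j ⊔ LinearMap.range i = LinearMap.range i ⊔ LinearMap.range j :=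
    sup_comm _ _
  -- the second descent, with the roles exchanged, lands in `X ⧸ (S + X')`
  have hQ : Function.Exact (p ∘ₗ j) (s27lbsDesc j i p hip hp) :=
    s27lbsDesc_exact j i p hip hp
  have hQs : Function.Surjective (s27lbsDesc j i p hip hp) := s27lbsDesc_surjective j i p hip hp
  -- transport along the equality of the two submodules
  let eq : (X ⧸ (LinearMap.range j ⊔ LinearMap.range i)) ≃ₗ[R]
      (X ⧸ (LinearMap.range i ⊔ LinearMap.range j)) := Submodule.quotEquivOfEq _ _ hsw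
  have hQ' : Function.Exact (p ∘ₗ j) (eq.toLinearMap ∘ₗ s27lbsDesc j i p hip hp) := by
    intro y
    rw [LinearMap.comp_apply, LinearEquiv.coe_coe, LinearEquiv.map_eq_zero_iff]
    exact hQ y
  have hQs' : Function.Surjective (eq.toLinearMap ∘ₗ s27lbsDesc j i p hip hp) := by
    rw [LinearMap.coe_comp, LinearEquiv.coe_coe]
    exact eq.surjective.comp hQs
  exact s27dv_det_associated_of_coker bX' bΛ bS bT (e ∘ₗ i) (s27lbsDesc i j e hje he)
    (p ∘ₗ j) (eq.toLinearMap ∘ₗ s27lbsDesc j i p hip hp) hinj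
    (s27lbsDesc_exact i j e hje he) (s27lbsDesc_surjective i j e hje he)
    (s27lbs_injective_swap i p j e hip hje hj hinj) hQ' hQs'

end swap

section leb

variable {R : Type*} [CommRing R]
variable {X' X T Λ Λ' S S' : Type*} [AddCommGroup X'] [Module R X'] [AddCommGroup X] [Module R X]
  [AddCommGroup T] [Module R T] [AddCommGroup Λ] [Module R Λ] [AddCommGroup Λ'] [Module R Λ']
  [AddCommGroup S] [Module R S] [AddCommGroup S'] [Module R S']
variable {ι κ : Type*} [Fintype ι] [DecidableEq ι] [Fintype κ] [DecidableEq κ]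

/-- `S → T` injective ⇒ `X' → Λ` injective (the converse of `s27lbs_injective_swap`). -/
theorem s27lbs_injective_swap' (i : X' →ₗ[R] X) (p : X →ₗ[R] T) (j : S →ₗ[R] X) (e : X →ₗ[R] Λ)
    (hip : Function.Exact i p) (hi : Function.Injective i) (hje : Function.Exact j e)
    (hinj : Function.Injective (p ∘ₗ j)) : Function.Injective (e ∘ₗ i) :=
  s27lbs_injective_swap j e i p hje hip hi hinj

/-- the determinants of `S → T` and `S' → T` when `S' = h · S` and `h` acts on `T` by `U`. -/
theorem s27lbs_mult (bS : Basis κ R S) (bS' : Basis κ R S') (bT : Basis κ R T)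
    (p : X →ₗ[R] T) (j : S →ₗ[R] X) (j' : S' →ₗ[R] X)
    (μ : S ≃ₗ[R] S') (U : T ≃ₗ[R] T) (hμ : ∀ s, p (j' (μ s)) = U (p (j s))) :
    Associated (s27dvDet bS bT (p ∘ₗ j)) (s27dvDet bS' bT (p ∘ₗ j')) := by
  have hcomp : (p ∘ₗ j') ∘ₗ μ.toLinearMap = U.toLinearMap ∘ₗ (p ∘ₗ j) := by
    ext s
    simp only [LinearMap.comp_apply, LinearEquiv.coe_coe]
    exact hμ s
  have h1 : s27dvDet bS bT ((p ∘ₗ j') ∘ₗ μ.toLinearMap) =
      s27dvDet bS' bT (p ∘ₗ j') * s27dvDet bS bS' μ.toLinearMap :=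
    s27dv_det_comp bS bS' bT (p ∘ₗ j') μ.toLinearMap
  have h2 : s27dvDet bS bT (U.toLinearMap ∘ₗ (p ∘ₗ j)) =
      s27dvDet bT bT U.toLinearMap * s27dvDet bS bT (p ∘ₗ j) :=
    s27dv_det_comp bS bT bT U.toLinearMap (p ∘ₗ j)
  rw [hcomp, h2] at h1
  obtain ⟨uμ, huμ⟩ := s27dv_det_equiv_isUnit bS bS' μ
  obtain ⟨uU, huU⟩ := s27dv_det_equiv_isUnit bT bT U
  refine ⟨uμ⁻¹ * uU, ?_⟩
  have h3 : s27dvDet bS bT (p ∘ₗ j) * (uU : R) =
      s27dvDet bS' bT (p ∘ₗ j') * (uμ : R) := by
    rw [huμ, huU, ← h1, mul_comm]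
  calc s27dvDet bS bT (p ∘ₗ j) * ((uμ⁻¹ * uU : Rˣ) : R)
      = (s27dvDet bS bT (p ∘ₗ j) * (uU : R)) * ((uμ⁻¹ : Rˣ) : R) := by
        rw [Units.val_mul]; ring
    _ = s27dvDet bS' bT (p ∘ₗ j') * ((uμ : R) * ((uμ⁻¹ : Rˣ) : R)) := by rw [h3]; ring
    _ = s27dvDet bS' bT (p ∘ₗ j') := by rw [Units.mul_inv, mul_one]

/-- **LE(b), formal core**: the determinant of `X' → X/S_D` only depends on `D` up to
`S_{D'} = h · S_D` with `h` acting invertibly on the principal parts `T = X/X'`. -/
theorem s27lbs_leb (bX' : Basis ι R X') (bΛ : Basis ι R Λ) (bΛ' : Basis ι R Λ')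
    (bS : Basis κ R S) (bS' : Basis κ R S') (bT : Basis κ R T)
    (i : X' →ₗ[R] X) (p : X →ₗ[R] T) (hip : Function.Exact i p) (hp : Function.Surjective p)
    (hi : Function.Injective i)
    (j : S →ₗ[R] X) (e : X →ₗ[R] Λ) (hje : Function.Exact j e) (he : Function.Surjective e)
    (hj : Function.Injective j)
    (j' : S' →ₗ[R] X) (e' : X →ₗ[R] Λ') (hje' : Function.Exact j' e')
    (he' : Function.Surjective e') (hj' : Function.Injective j')
    (μ : S ≃ₗ[R] S') (U : T ≃ₗ[R] T) (hμ : ∀ s, p (j' (μ s)) = U (p (j s)))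
    (hinj : Function.Injective (e ∘ₗ i)) :
    Function.Injective (e' ∘ₗ i) ∧
      Associated (s27dvDet bX' bΛ (e ∘ₗ i)) (s27dvDet bX' bΛ' (e' ∘ₗ i)) := by
  have hpj : Function.Injective (p ∘ₗ j) := s27lbs_injective_swap i p j e hip hje hj hinj
  have hpj' : Function.Injective (p ∘ₗ j') := by
    have hcomp : ((p ∘ₗ j') : S' → T) = (U ∘ (p ∘ₗ j)) ∘ μ.symm := by
      funext s'
      have := hμ (μ.symm s')
      rw [LinearEquiv.apply_symm_apply] at this
      simp only [Function.comp_apply, LinearMap.comp_apply]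
      exact this
    rw [hcomp]
    exact (U.injective.comp hpj).comp μ.symm.injective
  have hinj' : Function.Injective (e' ∘ₗ i) :=
    s27lbs_injective_swap' i p j' e' hip hi hje' hpj'
  refine ⟨hinj', ?_⟩
  have a1 := s27lbs_swap bX' bΛ bS bT i p j e hip hp hje he hj hinj
  have a2 := s27lbs_mult bS bS' bT p j j' μ U hμ
  have a3 := s27lbs_swap bX' bΛ' bS' bT i p j' e' hip hp hje' he' hj' hinj'
  exact (a1.trans a2).trans a3.symm

/-- the diagonal automorphism of `κ → R` attached to a family of units. -/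
noncomputable def s27lbsDiag (u : κ → Rˣ) : (κ → R) ≃ₗ[R] (κ → R) where
  toFun x k := (u k : R) * x k
  map_add' x y := by funext k; simp [mul_add]
  map_smul' c x := by funext k; simp [mul_left_comm]
  invFun x k := ((u k)⁻¹ : Rˣ) * x k
  left_inv x := by funext k; simp
  right_inv x := by funext k; simp

omit [Fintype κ] [DecidableEq κ] in
theorem s27lbsDiag_apply (u : κ → Rˣ) (x : κ → R) (k : κ) :
    s27lbsDiag u x k = (u k : R) * x k := rfl

/-- **LE(b), formal core, diagonal form**: `T = R^κ` (the values at the points `Q_k` of `G`),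
`h` acts by the units `u k = h (Q_k)`. -/
theorem s27lbs_leb_diag (bX' : Basis ι R X') (bΛ : Basis ι R Λ) (bΛ' : Basis ι R Λ')
    (bS : Basis κ R S) (bS' : Basis κ R S')
    (i : X' →ₗ[R] X) (p : X →ₗ[R] (κ → R)) (hip : Function.Exact i p)
    (hp : Function.Surjective p) (hi : Function.Injective i)
    (j : S →ₗ[R] X) (e : X →ₗ[R] Λ) (hje : Function.Exact j e) (he : Function.Surjective e)
    (hj : Function.Injective j)
    (j' : S' →ₗ[R] X) (e' : X →ₗ[R] Λ') (hje' : Function.Exact j' e')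
    (he' : Function.Surjective e') (hj' : Function.Injective j')
    (μ : S ≃ₗ[R] S') (u : κ → Rˣ) (hμ : ∀ s k, p (j' (μ s)) k = (u k : R) * p (j s) k)
    (hinj : Function.Injective (e ∘ₗ i)) :
    Function.Injective (e' ∘ₗ i) ∧
      Associated (s27dvDet bX' bΛ (e ∘ₗ i)) (s27dvDet bX' bΛ' (e' ∘ₗ i)) :=
  s27lbs_leb bX' bΛ bΛ' bS bS' (Pi.basisFun R κ) i p hip hp hi j e hje he hj j' e' hje' he' hj'
    μ (s27lbsDiag u) (fun s => funext fun k => hμ s k) hinj

end leb

section val

variable {𝔏 : Type*} [Field 𝔏] (W : ValuationSubring 𝔏)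

/-- associated elements of a valuation subring have the same valuation. -/
theorem s27lbs_val_eq_of_associated {a b : W} (h : Associated a b) :
    W.valuation (a : 𝔏) = W.valuation (b : 𝔏) := by
  obtain ⟨u, rfl⟩ := h
  rw [Subring.coe_mul, map_mul, W.valuation_unit u, mul_one]

variable {X' X Λ Λ' S S' : Type*} [AddCommGroup X'] [Module W X'] [AddCommGroup X] [Module W X]
  [AddCommGroup Λ] [Module W Λ] [AddCommGroup Λ'] [Module W Λ']
  [AddCommGroup S] [Module W S] [AddCommGroup S'] [Module W S']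
variable {ι κ : Type*} [Fintype ι] [DecidableEq ι] [Fintype κ] [DecidableEq κ]

/-- **LE(b), formal core, valuation form.** -/
theorem s27lbs_leb_val (bX' : Basis ι W X') (bΛ : Basis ι W Λ) (bΛ' : Basis ι W Λ')
    (bS : Basis κ W S) (bS' : Basis κ W S')
    (i : X' →ₗ[W] X) (p : X →ₗ[W] (κ → W)) (hip : Function.Exact i p)
    (hp : Function.Surjective p) (hi : Function.Injective i)
    (j : S →ₗ[W] X) (e : X →ₗ[W] Λ) (hje : Function.Exact j e) (he : Function.Surjective e)
    (hj : Function.Injective j)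
    (j' : S' →ₗ[W] X) (e' : X →ₗ[W] Λ') (hje' : Function.Exact j' e')
    (he' : Function.Surjective e') (hj' : Function.Injective j')
    (μ : S ≃ₗ[W] S') (u : κ → Wˣ) (hμ : ∀ s k, p (j' (μ s)) k = (u k : W) * p (j s) k)
    (hinj : Function.Injective (e ∘ₗ i)) :
    W.valuation ((s27dvDet bX' bΛ (e ∘ₗ i) : W) : 𝔏) =
      W.valuation ((s27dvDet bX' bΛ' (e' ∘ₗ i) : W) : 𝔏) :=
  s27lbs_val_eq_of_associated W
    (s27lbs_leb_diag bX' bΛ bΛ' bS bS' i p hip hp hi j e hje he hj j' e' hje' he' hj' μ u hμ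
      hinj).2

end val

end Fermat.Agent.S27
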