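/-
S27-B — leaf **LAT-7** (helper15): the hypothesis `hlat` of helper48's CP-TOP glue
`s27ca_cp_latex` (S27/CubeAsm.lean), from AD-EX (helper6, `s27adex_exists_curve`) and LAT-EX in the
EXPLICIT form "the monomials `a · t^j` of EVERY adapted pair are a lattice basis" (hypothesis `hLAT`).

`D₁, D₂, D₃` three tuples of points `F →ₐ[K] 𝔏`, `A_S` seven constant divisors with

    `A₁₂₃ + A₁ = A₁₂ + A₁₃`,   `A₁₂₃ + A₂ = A₁₂ + A₂₃`,   `A₁₂₃ + A₃ = A₁₃ + A₂₃`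

(e.g. `A_S = Ao + Σ_{j ∈ S} B_j`).  For every `W ⊇ K` there are ONE coordinate `t` and seven pole
functions `a_S` with `a₁₂₃ a₁ = a₁₂ a₁₃`, `a₁₂₃ a₂ = a₁₂ a₂₃`, `a₁₂₃ a₃ = a₁₃ a₂₃` such that `(t, a_S)`
is adapted for `(W, D_S, A_S)` for the seven tuples `D_S` (`Fin.append` convention of CubeAsm).

* `s27l7_adapted_of_range` : adaptedness passes to every family of points of the same set;
* `s27l7_adapted_a`        : change of the pole function (same orders at the centres);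
* `s27l7_ord_quot`         : `ord_Q (a b / c) = ord_Q a + ord_Q b − ord_Q c`;
* `s27l7_exists_adapted`   : **the seven adapted pairs** with ONE `t` and the three relations;
* `s27l7_hlat`             : **`hlat` of `s27ca_cp_latex`** from `hLAT`.
-/
import Fermat.Agent.S27.AdExPred
import Fermat.Agent.S27.PtDef

set_option autoImplicit false
set_option linter.unusedVariables false
set_option linter.unusedSectionVars false
set_option linter.style.haveILetI false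

noncomputable section

namespace Fermat.Agent.S27

open AlgebraicCurve IntermediateField

universe u v w

variable {K : Type u} {F : Type v} [Field K] [Field F] [Algebra K F]
variable {𝔏 : Type w} [Field 𝔏] [Algebra K 𝔏]

/-- adaptedness passes to every family consisting of points of the given family. -/
theorem s27l7_adapted_of_range {ι ι' : Type*} {W : ValuationSubring 𝔏} {R : ι → F →ₐ[K] 𝔏}
    {n : Place K F → ℤ} {t a : F} (h : S27IsAdapted W R n t a) (R' : ι' → F →ₐ[K] 𝔏)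
    (hR' : ∀ i', ∃ i, R' i' = R i) : S27IsAdapted W R' n t a := by
  choose e he using hR'
  refine ⟨h.1, h.2.1, fun i' => ?_, fun i' Q hQ => ?_, fun i' j' hf => ?_⟩
  · rw [he i']
    exact h.2.2.1 (e i')
  · rw [he i'] at hQ
    exact h.2.2.2.1 (e i') Q hQ
  · rw [he i', he j']
    refine h.2.2.2.2 (e i') (e j') ?_
    obtain ⟨f, h1, h2, h3⟩ := hf
    rw [he i'] at h1 h3
    rw [he j'] at h2 h3
    exact ⟨f, h1, h2, h3⟩

/-- change of the pole function. -/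
theorem s27l7_adapted_a {ι : Type*} {W : ValuationSubring 𝔏} {R : ι → F →ₐ[K] 𝔏}
    {n n' : Place K F → ℤ} {t a a' : F} (h : S27IsAdapted W R n t a) (ha' : a' ≠ 0)
    (hord : ∀ i (Q : Place K F), W.comap (R i : F →+* 𝔏) = Q.toValuationSubring →
      Q.ord a' = n' Q) : S27IsAdapted W R n' t a' :=
  ⟨ha', h.2.1, h.2.2.1, fun i Q hQ => ⟨(h.2.2.2.1 i Q hQ).1, hord i Q hQ⟩, h.2.2.2.2⟩

/-- `ord_Q (a b / c) = ord_Q a + ord_Q b − ord_Q c`. -/
theorem s27l7_ord_quot (Q : Place K F) {a b c : F} (ha : a ≠ 0) (hb : b ≠ 0) (hc : c ≠ 0) :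
    Q.ord (a * b / c) = Q.ord a + Q.ord b - Q.ord c := by
  rw [div_eq_mul_inv, Place.ord_mul Q (mul_ne_zero ha hb) (inv_ne_zero hc), Place.ord_inv,
    Place.ord_mul Q ha hb, sub_eq_add_neg]

section Seven

variable [IsAlgClosed K] (x : F) (hx : Transcendental K x) [FiniteDimensional K⟮x⟯ F]
variable {N₁ N₂ N₃ : ℕ}

include hx in
/-- **the seven adapted pairs**: ONE coordinate `t` and pole functions `a_S` with the three
multiplicative relations, adapted for the seven tuples `D_S`. -/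
theorem s27l7_exists_adapted (W : ValuationSubring 𝔏) (hW : ∀ c : K, algebraMap K 𝔏 c ∈ W)
    (D₁ : Fin N₁ → F →ₐ[K] 𝔏) (D₂ : Fin N₂ → F →ₐ[K] 𝔏) (D₃ : Fin N₃ → F →ₐ[K] 𝔏)
    (A₁ A₂ A₃ A₁₂ A₁₃ A₂₃ A₁₂₃ : Divisor K F)
    (h1 : A₁₂₃ + A₁ = A₁₂ + A₁₃) (h2 : A₁₂₃ + A₂ = A₁₂ + A₂₃) (h3 : A₁₂₃ + A₃ = A₁₃ + A₂₃) :
    ∃ t a₁ a₂ a₃ a₁₂ a₁₃ a₂₃ a₁₂₃ : F,
      a₁₂₃ * a₁ = a₁₂ * a₁₃ ∧ a₁₂₃ * a₂ = a₁₂ * a₂₃ ∧ a₁₂₃ * a₃ = a₁₃ * a₂₃ ∧
      S27IsAdapted W D₁ (fun Q => -A₁ Q) t a₁ ∧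
      S27IsAdapted W D₂ (fun Q => -A₂ Q) t a₂ ∧
      S27IsAdapted W D₃ (fun Q => -A₃ Q) t a₃ ∧
      S27IsAdapted W (Fin.append D₁ D₂) (fun Q => -A₁₂ Q) t a₁₂ ∧
      S27IsAdapted W (Fin.append D₁ D₃) (fun Q => -A₁₃ Q) t a₁₃ ∧
      S27IsAdapted W (Fin.append D₂ D₃) (fun Q => -A₂₃ Q) t a₂₃ ∧
      S27IsAdapted W (Fin.append (Fin.append D₁ D₂) D₃) (fun Q => -A₁₂₃ Q) t a₁₂₃ := by
  -- the union tuple
  set R : Fin (N₁ + N₂ + N₃) → F →ₐ[K] 𝔏 := Fin.append (Fin.append D₁ D₂) D₃ with hR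
  obtain ⟨t, a₁₂₃, had⟩ := s27adex_exists_curve x hx W hW R (fun Q => -A₁₂₃ Q)
  obtain ⟨t', a₁₂, had12⟩ := s27adex_exists_curve x hx W hW R (fun Q => -A₁₂ Q)
  obtain ⟨t'', a₁₃, had13⟩ := s27adex_exists_curve x hx W hW R (fun Q => -A₁₃ Q)
  obtain ⟨t''', a₂₃, had23⟩ := s27adex_exists_curve x hx W hW R (fun Q => -A₂₃ Q)
  have n123 : a₁₂₃ ≠ 0 := had.1
  have n12 : a₁₂ ≠ 0 := had12.1
  have n13 : a₁₃ ≠ 0 := had13.1
  have n23 : a₂₃ ≠ 0 := had23.1
  have o123 : ∀ i (Q : Place K F), W.comap (R i : F →+* 𝔏) = Q.toValuationSubring →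
      Q.ord a₁₂₃ = -A₁₂₃ Q := fun i Q hQ => (had.2.2.2.1 i Q hQ).2
  have o12 : ∀ i (Q : Place K F), W.comap (R i : F →+* 𝔏) = Q.toValuationSubring →
      Q.ord a₁₂ = -A₁₂ Q := fun i Q hQ => (had12.2.2.2.1 i Q hQ).2
  have o13 : ∀ i (Q : Place K F), W.comap (R i : F →+* 𝔏) = Q.toValuationSubring →
      Q.ord a₁₃ = -A₁₃ Q := fun i Q hQ => (had13.2.2.2.1 i Q hQ).2
  have o23 : ∀ i (Q : Place K F), W.comap (R i : F →+* 𝔏) = Q.toValuationSubring →
      Q.ord a₂₃ = -A₂₃ Q := fun i Q hQ => (had23.2.2.2.1 i Q hQ).2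
  -- the relations of the divisors, pointwise
  have e1 : ∀ Q : Place K F, A₁₂₃ Q + A₁ Q = A₁₂ Q + A₁₃ Q := fun Q => by
    have := congrArg (fun D : Divisor K F => D Q) h1
    simpa using this
  have e2 : ∀ Q : Place K F, A₁₂₃ Q + A₂ Q = A₁₂ Q + A₂₃ Q := fun Q => by
    have := congrArg (fun D : Divisor K F => D Q) h2
    simpa using this
  have e3 : ∀ Q : Place K F, A₁₂₃ Q + A₃ Q = A₁₃ Q + A₂₃ Q := fun Q => by
    have := congrArg (fun D : Divisor K F => D Q) h3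
    simpa using this
  -- adapted pairs on the union tuple
  have ad12 : S27IsAdapted W R (fun Q => -A₁₂ Q) t a₁₂ := s27l7_adapted_a had n12 o12
  have ad13 : S27IsAdapted W R (fun Q => -A₁₃ Q) t a₁₃ := s27l7_adapted_a had n13 o13
  have ad23 : S27IsAdapted W R (fun Q => -A₂₃ Q) t a₂₃ := s27l7_adapted_a had n23 o23
  have ad1 : S27IsAdapted W R (fun Q => -A₁ Q) t (a₁₂ * a₁₃ / a₁₂₃) := by
    refine s27l7_adapted_a had (div_ne_zero (mul_ne_zero n12 n13) n123) fun i Q hQ => ?_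
    rw [s27l7_ord_quot Q n12 n13 n123, o12 i Q hQ, o13 i Q hQ, o123 i Q hQ]
    have := e1 Q
    omega
  have ad2 : S27IsAdapted W R (fun Q => -A₂ Q) t (a₁₂ * a₂₃ / a₁₂₃) := by
    refine s27l7_adapted_a had (div_ne_zero (mul_ne_zero n12 n23) n123) fun i Q hQ => ?_
    rw [s27l7_ord_quot Q n12 n23 n123, o12 i Q hQ, o23 i Q hQ, o123 i Q hQ]
    have := e2 Q
    omega
  have ad3 : S27IsAdapted W R (fun Q => -A₃ Q) t (a₁₃ * a₂₃ / a₁₂₃) := by
    refine s27l7_adapted_a had (div_ne_zero (mul_ne_zero n13 n23) n123) fun i Q hQ => ?_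
    rw [s27l7_ord_quot Q n13 n23 n123, o13 i Q hQ, o23 i Q hQ, o123 i Q hQ]
    have := e3 Q
    omega
  -- the points of the seven tuples are points of the union tuple
  have r1 : ∀ k : Fin N₁, ∃ i, D₁ k = R i := fun k =>
    ⟨Fin.castAdd N₃ (Fin.castAdd N₂ k), by rw [hR, Fin.append_left, Fin.append_left]⟩
  have r2 : ∀ k : Fin N₂, ∃ i, D₂ k = R i := fun k =>
    ⟨Fin.castAdd N₃ (Fin.natAdd N₁ k), by rw [hR, Fin.append_left, Fin.append_right]⟩
  have r3 : ∀ k : Fin N₃, ∃ i, D₃ k = R i := fun k =>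
    ⟨Fin.natAdd (N₁ + N₂) k, by rw [hR, Fin.append_right]⟩
  have r12 : ∀ k : Fin (N₁ + N₂), ∃ i, Fin.append D₁ D₂ k = R i := fun k => by
    induction k using Fin.addCases with
    | left k => rw [Fin.append_left]; exact r1 k
    | right k => rw [Fin.append_right]; exact r2 k
  have r13 : ∀ k : Fin (N₁ + N₃), ∃ i, Fin.append D₁ D₃ k = R i := fun k => by
    induction k using Fin.addCases with
    | left k => rw [Fin.append_left]; exact r1 k
    | right k => rw [Fin.append_right]; exact r3 k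
  have r23 : ∀ k : Fin (N₂ + N₃), ∃ i, Fin.append D₂ D₃ k = R i := fun k => by
    induction k using Fin.addCases with
    | left k => rw [Fin.append_left]; exact r2 k
    | right k => rw [Fin.append_right]; exact r3 k
  refine ⟨t, a₁₂ * a₁₃ / a₁₂₃, a₁₂ * a₂₃ / a₁₂₃, a₁₃ * a₂₃ / a₁₂₃, a₁₂, a₁₃, a₂₃, a₁₂₃,
    ?_, ?_, ?_, s27l7_adapted_of_range ad1 D₁ r1, s27l7_adapted_of_range ad2 D₂ r2,
    s27l7_adapted_of_range ad3 D₃ r3, s27l7_adapted_of_range ad12 _ r12,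
    s27l7_adapted_of_range ad13 _ r13, s27l7_adapted_of_range ad23 _ r23, had⟩
  · field_simp
  · field_simp
  · field_simp

include hx in
/-- **LAT-7** = the hypothesis `hlat` of `s27ca_cp_latex` (S27/CubeAsm.lean), from LAT-EX in the
explicit form `hLAT` (the monomials of EVERY adapted pair are a lattice basis at an injective
tuple). -/
theorem s27l7_hlat
    (hLAT : ∀ W : ValuationSubring 𝔏, (∀ c : K, algebraMap K 𝔏 c ∈ W) →
      ∀ (N : ℕ) (R : Fin N → F →ₐ[K] 𝔏), Function.Injective R →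
      ∀ (A' : Divisor K F) (t a : F), S27IsAdapted W R (fun Q => -A' Q) t a →
        S27ptIsLatBasis W R A' (fun j : Fin N => a * t ^ (j : ℕ)))
    (D₁ : Fin N₁ → F →ₐ[K] 𝔏) (D₂ : Fin N₂ → F →ₐ[K] 𝔏) (D₃ : Fin N₃ → F →ₐ[K] 𝔏)
    (hinj : Function.Injective (Fin.append (Fin.append D₁ D₂) D₃))
    (A₁ A₂ A₃ A₁₂ A₁₃ A₂₃ A₁₂₃ : Divisor K F)
    (h1 : A₁₂₃ + A₁ = A₁₂ + A₁₃) (h2 : A₁₂₃ + A₂ = A₁₂ + A₂₃) (h3 : A₁₂₃ + A₃ = A₁₃ + A₂₃)
    (W : ValuationSubring 𝔏) (hW : ∀ c : K, algebraMap K 𝔏 c ∈ W) :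
    ∃ t a₁ a₂ a₃ a₁₂ a₁₃ a₂₃ a₁₂₃ : F,
      a₁₂₃ * a₁ = a₁₂ * a₁₃ ∧ a₁₂₃ * a₂ = a₁₂ * a₂₃ ∧ a₁₂₃ * a₃ = a₁₃ * a₂₃ ∧
      S27ptIsLatBasis W D₁ A₁ (fun j : Fin N₁ => a₁ * t ^ (j : ℕ)) ∧
      S27ptIsLatBasis W D₂ A₂ (fun j : Fin N₂ => a₂ * t ^ (j : ℕ)) ∧
      S27ptIsLatBasis W D₃ A₃ (fun j : Fin N₃ => a₃ * t ^ (j : ℕ)) ∧
      S27ptIsLatBasis W (Fin.append D₁ D₂) A₁₂ (fun j : Fin (N₁ + N₂) => a₁₂ * t ^ (j : ℕ)) ∧
      S27ptIsLatBasis W (Fin.append D₁ D₃) A₁₃ (fun j : Fin (N₁ + N₃) => a₁₃ * t ^ (j : ℕ)) ∧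
      S27ptIsLatBasis W (Fin.append D₂ D₃) A₂₃ (fun j : Fin (N₂ + N₃) => a₂₃ * t ^ (j : ℕ)) ∧
      S27ptIsLatBasis W (Fin.append (Fin.append D₁ D₂) D₃) A₁₂₃
        (fun j : Fin (N₁ + N₂ + N₃) => a₁₂₃ * t ^ (j : ℕ)) := by
  obtain ⟨t, a₁, a₂, a₃, a₁₂, a₁₃, a₂₃, a₁₂₃, q1, q2, q3, d1, d2, d3, d12, d13, d23, d123⟩ :=
    s27l7_exists_adapted x hx W hW D₁ D₂ D₃ A₁ A₂ A₃ A₁₂ A₁₃ A₂₃ A₁₂₃ h1 h2 h3
  -- injectivity of the seven tuples
  have i12 : Function.Injective (Fin.append D₁ D₂) := fun k k' hk => by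
    have := hinj (a₁ := Fin.castAdd N₃ k) (a₂ := Fin.castAdd N₃ k')
      (by rw [Fin.append_left, Fin.append_left]; exact hk)
    exact Fin.castAdd_injective _ _ this
  have i3 : Function.Injective D₃ := fun k k' hk => by
    have := hinj (a₁ := Fin.natAdd (N₁ + N₂) k) (a₂ := Fin.natAdd (N₁ + N₂) k')
      (by rw [Fin.append_right, Fin.append_right]; exact hk)
    exact Fin.natAdd_injective _ _ this
  have i1 : Function.Injective D₁ := fun k k' hk => by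
    have := i12 (a₁ := Fin.castAdd N₂ k) (a₂ := Fin.castAdd N₂ k')
      (by rw [Fin.append_left, Fin.append_left]; exact hk)
    exact Fin.castAdd_injective _ _ this
  have i2 : Function.Injective D₂ := fun k k' hk => by
    have := i12 (a₁ := Fin.natAdd N₁ k) (a₂ := Fin.natAdd N₁ k')
      (by rw [Fin.append_right, Fin.append_right]; exact hk)
    exact Fin.natAdd_injective _ _ this
  -- disjointness from the injectivity of the union
  have d13' : ∀ (k : Fin N₁) (k' : Fin N₃), D₁ k ≠ D₃ k' := fun k k' hk => by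
    have := hinj (a₁ := Fin.castAdd N₃ (Fin.castAdd N₂ k)) (a₂ := Fin.natAdd (N₁ + N₂) k')
      (by rw [Fin.append_left, Fin.append_left, Fin.append_right]; exact hk)
    have h := congrArg Fin.val this
    simp only [Fin.val_castAdd, Fin.val_natAdd] at h
    have := k.2
    omega
  have d23' : ∀ (k : Fin N₂) (k' : Fin N₃), D₂ k ≠ D₃ k' := fun k k' hk => by
    have := hinj (a₁ := Fin.castAdd N₃ (Fin.natAdd N₁ k)) (a₂ := Fin.natAdd (N₁ + N₂) k')
      (by rw [Fin.append_left, Fin.append_right, Fin.append_right]; exact hk)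
    have h := congrArg Fin.val this
    simp only [Fin.val_castAdd, Fin.val_natAdd] at h
    have := k.2
    omega
  have app_inj : ∀ {M M' : ℕ} (E : Fin M → F →ₐ[K] 𝔏) (E' : Fin M' → F →ₐ[K] 𝔏),
      Function.Injective E → Function.Injective E' → (∀ k k', E k ≠ E' k') →
      Function.Injective (Fin.append E E') := by
    intro M M' E E' hE hE' hd k k' hk
    induction k using Fin.addCases with
    | left k =>
      induction k' using Fin.addCases with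
      | left k' =>
        rw [Fin.append_left, Fin.append_left] at hk
        rw [hE hk]
      | right k' =>
        rw [Fin.append_left, Fin.append_right] at hk
        exact absurd hk (hd k k')
    | right k =>
      induction k' using Fin.addCases with
      | left k' =>
        rw [Fin.append_right, Fin.append_left] at hk
        exact absurd hk.symm (hd k' k)
      | right k' =>
        rw [Fin.append_right, Fin.append_right] at hk
        rw [hE' hk]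
  have i13 : Function.Injective (Fin.append D₁ D₃) := app_inj D₁ D₃ i1 i3 d13'
  have i23 : Function.Injective (Fin.append D₂ D₃) := app_inj D₂ D₃ i2 i3 d23'
  exact ⟨t, a₁, a₂, a₃, a₁₂, a₁₃, a₂₃, a₁₂₃, q1, q2, q3,
    hLAT W hW _ D₁ i1 A₁ t a₁ d1, hLAT W hW _ D₂ i2 A₂ t a₂ d2, hLAT W hW _ D₃ i3 A₃ t a₃ d3,
    hLAT W hW _ _ i12 A₁₂ t a₁₂ d12, hLAT W hW _ _ i13 A₁₃ t a₁₃ d13,
    hLAT W hW _ _ i23 A₂₃ t a₂₃ d23, hLAT W hW _ _ hinj A₁₂₃ t a₁₂₃ d123⟩

end Seven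

end Fermat.Agent.S27

end
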