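/-
S27-B, leaf LAT-EX CONCRETE, part 1 (helper6): NEWTON INTERPOLATION IN POINT FORM.

Setting of `S27/EffInstF.lean` (helper50): `W ⊂ 𝔏` a valuation subring containing `K`, points
`P i : F →ₐ[K] 𝔏` (`i < N`) in clusters `c`, centre rings `D x` with `incl x : D x →ₐ[K] F`,
coordinate `t` separating the clusters, per centre the step `S27eiStep`.

* `s27lxc_newton` : for `g ∈ F` regular at all the centres there are `p_0, …, p_{N-1} ∈ W` with
                    `P i g = ∑_m (P i t)^m · p_m` for ALL `i`   (the lattice of values is spanned by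
                    the monomials in `t`);
* `s27lxc_two`    : two points of the same cluster: `P i g − P k g = (P i t − P k t) · w`, `w ∈ W`,
                    for `g` regular at their centre.
-/
import Fermat.Agent.S27.EffInstF
import Fermat.Agent.S27.EffLat

set_option autoImplicit false
set_option linter.unusedSectionVars false
set_option linter.style.haveILetI false

namespace Fermat.Agent.S27

open IsLocalRing Polynomial
open scoped TensorProduct

section Poly

variable {V : Type*} [CommRing V]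

/-- Newton form to monomial form. -/
theorem s27lxc_newton_to_monomial {N : ℕ} (z cf : Fin N → V) :
    ∃ p : Fin N → V, ∀ x : V,
      ∑ k : Fin N, (∏ j ∈ Finset.univ.filter (fun j : Fin N => j < k), (x - z j)) * cf k =
        ∑ m : Fin N, x ^ (m : ℕ) * p m := by
  classical
  set q : V[X] := ∑ k : Fin N,
    (∏ j ∈ Finset.univ.filter (fun j : Fin N => j < k), (X - C (z j))) * C (cf k) with hq
  have hmem : q ∈ degreeLT V N := by
    refine Submodule.sum_mem _ fun k _ => ?_
    rw [mem_degreeLT]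
    refine lt_of_le_of_lt (degree_le_natDegree) ?_
    have hcard : (Finset.univ.filter (fun j : Fin N => j < k)).card = (k : ℕ) := by
      have : Finset.univ.filter (fun j : Fin N => j < k) = Finset.Iio k := by
        ext j; simp
      rw [this, Fin.card_Iio]
    have h0 : ∑ j ∈ Finset.univ.filter (fun j : Fin N => j < k), (X - C (z j)).natDegree
        ≤ (k : ℕ) := by
      have hle : ∑ j ∈ Finset.univ.filter (fun j : Fin N => j < k), (X - C (z j)).natDegree
          ≤ ∑ _j ∈ Finset.univ.filter (fun j : Fin N => j < k), 1 :=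
        Finset.sum_le_sum (fun j _ => natDegree_X_sub_C_le (z j))
      rw [Finset.sum_const, smul_eq_mul, mul_one, hcard] at hle
      exact hle
    have h1 : ((∏ j ∈ Finset.univ.filter (fun j : Fin N => j < k), (X - C (z j))) *
        C (cf k)).natDegree ≤ (k : ℕ) :=
      (natDegree_mul_C_le _ _).trans ((natDegree_prod_le _ _).trans h0)
    exact_mod_cast lt_of_le_of_lt h1 k.2
  refine ⟨fun m => degreeLTEquiv V N ⟨q, hmem⟩ m, fun x => ?_⟩
  have h2 := eval_eq_sum_degreeLTEquiv hmem x
  have h3 : q.eval x = ∑ k : Fin N,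
      (∏ j ∈ Finset.univ.filter (fun j : Fin N => j < k), (x - z j)) * cf k := by
    rw [hq, eval_finsetSum]
    refine Finset.sum_congr rfl fun k _ => ?_
    rw [eval_mul, eval_C, eval_prod]
    congr 1
    refine Finset.prod_congr rfl fun j _ => ?_
    rw [eval_sub, eval_X, eval_C]
  rw [← h3, h2]
  refine Finset.sum_congr rfl fun m _ => ?_
  rw [mul_comm]

end Poly

section Field

variable {K F 𝔏 : Type*} [Field K] [Field F] [Field 𝔏] [Algebra K F] [Algebra K 𝔏]
  (W : ValuationSubring 𝔏) (hKW : ∀ a : K, algebraMap K 𝔏 a ∈ W)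
  {N : ℕ} {C : Type*} (c : Fin N → C)
  (D : C → Type*) [∀ x, CommRing (D x)] [∀ x, Algebra K (D x)]
  (incl : ∀ x, D x →ₐ[K] F) (P : Fin N → F →ₐ[K] 𝔏)

/-- **NEWTON, point form**: the values of a function regular at all the centres are a
`W`-combination of the values of `1, t, …, t^{N-1}`. -/
theorem s27lxc_newton
    (hA : ∀ x (j : Fin N), c j = x → ∀ d : D x, P j (incl x d) ∈ W)
    (hcong : ∀ x (i j : Fin N), c i = x → c j = x → ∀ d : D x,
      W.valuation (P i (incl x d) - P j (incl x d)) < 1)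
    (t : F) (tD : ∀ x, D x) (htD : ∀ x, incl x (tD x) = t)
    (hsep : ∀ i j : Fin N, c i ≠ c j → W.valuation (P i t - P j t) = 1)
    (hstep : ∀ x, @S27eiStep K _ (D x) _ _ (tD x) W _ _ (s27eifAlg W hKW))
    (g : F) (gD : ∀ x, D x) (hgD : ∀ x, incl x (gD x) = g) :
    ∃ p : Fin N → 𝔏, (∀ m, p m ∈ W) ∧ ∀ i, P i g = ∑ m : Fin N, P i t ^ (m : ℕ) * p m := by
  classical
  letI := s27eifAlg W hKW
  set ι := s27eifPt W hKW c D incl P hA with hι
  have hval : ∀ (G : ∀ x, D x) (i : Fin N),
      ((s27eiVal c D ι G i : W) : 𝔏) = P i (incl (c i) (G (c i))) := fun G i => rfl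
  have hvalt : ∀ i : Fin N, ((s27eiVal c D ι tD i : W) : 𝔏) = P i t := fun i => by
    rw [hval, htD]
  have hvalg : ∀ (i : Fin N), ((s27eiVal c D ι gD i : W) : 𝔏) = P i g := fun i => by
    rw [hval, hgD]
  have hc' : ∀ x (j j' : {j : Fin N // c j = x}), S27diagCong (ι x j) (ι x j') := by
    intro x j j' b
    rw [ValuationSubring.valuation_lt_one_iff]
    have : (((ι x j b - ι x j' b : W)) : 𝔏) = P j.1 (incl x b) - P j'.1 (incl x b) := rfl
    rw [this]
    exact hcong x j.1 j'.1 j.2 j'.2 b
  have hs' : ∀ i k : Fin N, c i ≠ c k →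
      IsUnit (s27eiVal c D ι tD i - s27eiVal c D ι tD k) := by
    intro i k hik
    rw [ValuationSubring.valuation_eq_one_iff]
    have : (((s27eiVal c D ι tD i - s27eiVal c D ι tD k : W)) : 𝔏) = P i t - P k t := by
      rw [← hvalt i, ← hvalt k]; rfl
    rw [this]
    exact hsep i k hik
  have hdiv := s27ei_div c D ι tD hc' hs' hstep
  obtain ⟨cf, hcf⟩ := s27efl_coeffs (s27eiEv c D ι) (s27eiPi c D ι tD) hdiv
    ⟨s27eiVal c D ι gD, s27ei_val_mem c D ι gD⟩
  obtain ⟨p, hp⟩ := s27lxc_newton_to_monomial (fun j => s27eiVal c D ι tD j) cf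
  refine ⟨fun m => ((p m : W) : 𝔏), fun m => (p m).2, fun i => ?_⟩
  have h1 : s27eiVal c D ι gD i =
      ∑ k : Fin N, (∏ j ∈ Finset.univ.filter (fun j : Fin N => j < k),
        (s27eiVal c D ι tD i - s27eiVal c D ι tD j)) * cf k := by
    have := hcf i
    rw [Matrix.mulVec, dotProduct] at this
    exact this
  rw [hp (s27eiVal c D ι tD i)] at h1
  have h2 : ((s27eiVal c D ι gD i : W) : 𝔏) =
      ((∑ m : Fin N, s27eiVal c D ι tD i ^ (m : ℕ) * p m : W) : 𝔏) := congrArg _ h1
  rw [hvalg i] at h2
  rw [h2]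
  push_cast
  refine Finset.sum_congr rfl fun m _ => ?_
  rw [hvalt i]

/-- **two points of one cluster**: the divided difference is integral. -/
theorem s27lxc_two
    (hA : ∀ x (j : Fin N), c j = x → ∀ d : D x, P j (incl x d) ∈ W)
    (hcong : ∀ x (i j : Fin N), c i = x → c j = x → ∀ d : D x,
      W.valuation (P i (incl x d) - P j (incl x d)) < 1)
    (x : C) (tx : D x)
    (hstep : @S27eiStep K _ (D x) _ _ tx W _ _ (s27eifAlg W hKW))
    (i k : Fin N) (hi : c i = x) (hk : c k = x) (d : D x) :
    ∃ w ∈ W, P i (incl x d) - P k (incl x d) = (P i (incl x tx) - P k (incl x tx)) * w := by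
  classical
  letI := s27eifAlg W hKW
  set ι := s27eifPt W hKW c D incl P hA with hι
  let ι₂ : Bool → (D x →ₐ[K] W) := fun b => if b then ι x ⟨i, hi⟩ else ι x ⟨k, hk⟩
  have hc₂ : ∀ a b, S27diagCong (ι₂ a) (ι₂ b) := by
    intro a b e
    rw [ValuationSubring.valuation_lt_one_iff]
    cases a <;> cases b <;> simp only [ι₂, if_true, Bool.false_eq_true, if_false]
    · exact hcong x k k hk hk e
    · exact hcong x k i hk hi e
    · exact hcong x i k hi hk e
    · exact hcong x i i hi hi e
  obtain ⟨φ', -, hφ'⟩ := hstep Bool ι₂ hc₂ _ (s27diag_fun_of ι₂ d) false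
  refine ⟨φ' true, (φ' true).2, ?_⟩
  have h1 := congrArg (fun w : W => (w : 𝔏)) (hφ' true)
  exact h1

end Field

end Fermat.Agent.S27
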