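/-
S27-B, leaf LAT-EX CONCRETE, part 2 (helper6): TRANSPORT of the divided-difference step along an
isomorphism of centre rings, and the CLUSTERS of a tuple of points `R i : F →ₐ[K] 𝔏` along a
valuation subring `W ⊇ K` of `𝔏`.

* `s27lxc_step_transport` : `S27eiStep K D t R → S27eiStep K D' (e t) R` for `e : D ≃ₐ[K] D'`;
* `s27lxcO W hKW R₀`      : the centre ring `{f | R₀ f ∈ W}` of a point, a subalgebra of `F`;
* `S27lxcRel W R i k`     : the points `i`, `k` have the same centre ring and are congruent on it;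
* `s27lxcC W R i`         : the representative of the cluster of `i`; `s27lxc_C_eq_iff`;
* `s27lxc_sep_of_not_rel` : points of different clusters are separated by a function regular at
                            both.
-/
import Fermat.Agent.S27.LatExC1

set_option autoImplicit false
set_option linter.unusedSectionVars false
set_option linter.style.haveILetI false

noncomputable section

namespace Fermat.Agent.S27

open IsLocalRing
open scoped TensorProduct

section Transport

variable {K : Type*} [Field K] {D D' R : Type*} [CommRing D] [Algebra K D] [CommRing D']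
  [Algebra K D'] [CommRing R] [IsLocalRing R] [Algebra K R]

theorem s27lxc_ev_map (g : D' →ₐ[K] D) (ι : D →ₐ[K] R) (y : D' ⊗[K] R) :
    s27diagEv ι (Algebra.TensorProduct.map g (AlgHom.id K R) y) = s27diagEv (ι.comp g) y := by
  induction y using TensorProduct.induction_on with
  | zero => simp
  | tmul d r =>
    rw [Algebra.TensorProduct.map_tmul, s27diag_ev_tmul, s27diag_ev_tmul]
    rfl
  | add a b ha hb => rw [map_add, map_add, map_add, ha, hb]

theorem s27lxc_fun_push {I : Type*} (g : D' →ₐ[K] D) (ι : I → D →ₐ[K] R) {φ : I → R}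
    (h : S27diagFun (fun i => (ι i).comp g) φ) : S27diagFun ι φ := by
  obtain ⟨y, s, hu, hy⟩ := h
  refine ⟨Algebra.TensorProduct.map g (AlgHom.id K R) y,
    Algebra.TensorProduct.map g (AlgHom.id K R) s, fun i => ?_, fun i => ?_⟩
  · rw [s27lxc_ev_map]; exact hu i
  · rw [s27lxc_ev_map, s27lxc_ev_map]; exact hy i

/-- the step is invariant under isomorphisms of the centre ring. -/
theorem s27lxc_step_transport (e : D ≃ₐ[K] D') (t : D) (h : S27eiStep K D t R) :
    S27eiStep K D' (e t) R := by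
  intro I ι' hc φ hφ k
  have hφ0 : S27diagFun (fun i => (ι' i).comp (e : D →ₐ[K] D')) φ := by
    apply s27lxc_fun_push (e.symm : D' →ₐ[K] D)
    have : (fun i => ((ι' i).comp (e : D →ₐ[K] D')).comp (e.symm : D' →ₐ[K] D)) = ι' := by
      funext i
      ext d
      simp
    rw [this]
    exact hφ
  obtain ⟨φ', hφ', hst⟩ := h I (fun i => (ι' i).comp (e : D →ₐ[K] D'))
    (fun i j b => hc i j (e b)) φ hφ0 k
  exact ⟨φ', s27lxc_fun_push (e : D →ₐ[K] D') ι' hφ', fun i => hst i⟩

end Transport

section Clusters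

universe u v w

variable {K : Type u} {F : Type v} [Field K] [Field F] [Algebra K F]
  {𝔏 : Type w} [Field 𝔏] [Algebra K 𝔏]
  (W : ValuationSubring 𝔏) (hKW : ∀ a : K, algebraMap K 𝔏 a ∈ W)

/-- the centre ring of a point along `W`, as a subalgebra of `F`. -/
def s27lxcO (R₀ : F →ₐ[K] 𝔏) : Subalgebra K F where
  carrier := {f | R₀ f ∈ W}
  mul_mem' := fun {a b} ha hb => by
    show R₀ (a * b) ∈ W
    rw [map_mul]
    exact W.mul_mem _ _ ha hb
  add_mem' := fun {a b} ha hb => by
    show R₀ (a + b) ∈ W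
    rw [map_add]
    exact W.add_mem _ _ ha hb
  algebraMap_mem' := fun c => by
    show R₀ (algebraMap K F c) ∈ W
    rw [AlgHom.commutes]
    exact hKW c

theorem s27lxc_mem_O (R₀ : F →ₐ[K] 𝔏) (f : F) : f ∈ s27lxcO W hKW R₀ ↔ R₀ f ∈ W := Iff.rfl

variable {N : ℕ} (R : Fin N → F →ₐ[K] 𝔏)

/-- same centre ring, and congruent on it. -/
def S27lxcRel (i k : Fin N) : Prop :=
  (∀ f, R i f ∈ W ↔ R k f ∈ W) ∧ ∀ f, R i f ∈ W → W.valuation (R i f - R k f) < 1

theorem s27lxc_rel_refl (i : Fin N) : S27lxcRel W R i i :=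
  ⟨fun _ => Iff.rfl, fun f _ => by rw [sub_self, map_zero]; exact zero_lt_one⟩

variable {W R}

theorem s27lxc_rel_symm {i k : Fin N} (h : S27lxcRel W R i k) : S27lxcRel W R k i :=
  ⟨fun f => (h.1 f).symm, fun f hf => by
    have := h.2 f ((h.1 f).mpr hf)
    rwa [← Valuation.map_neg, neg_sub] at this⟩

theorem s27lxc_rel_trans {i k l : Fin N} (h : S27lxcRel W R i k) (h' : S27lxcRel W R k l) :
    S27lxcRel W R i l :=
  ⟨fun f => (h.1 f).trans (h'.1 f), fun f hf => by
    have h1 := h.2 f hf
    have h2 := h'.2 f ((h.1 f).mp hf)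
    have e : R i f - R l f = (R i f - R k f) + (R k f - R l f) := by ring
    rw [e]
    exact Valuation.map_add_lt _ h1 h2⟩

variable (W R)

open scoped Classical in
/-- the representative of the cluster of the point `i`. -/
def s27lxcC (i : Fin N) : Fin N :=
  (Finset.univ.filter (fun k => S27lxcRel W R k i)).min'
    ⟨i, Finset.mem_filter.mpr ⟨Finset.mem_univ _, s27lxc_rel_refl W R i⟩⟩

theorem s27lxc_rel_C (i : Fin N) : S27lxcRel W R (s27lxcC W R i) i := by
  classical
  have := Finset.min'_mem (Finset.univ.filter (fun k => S27lxcRel W R k i))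
    ⟨i, Finset.mem_filter.mpr ⟨Finset.mem_univ _, s27lxc_rel_refl W R i⟩⟩
  exact (Finset.mem_filter.mp this).2

theorem s27lxc_C_eq_iff (i k : Fin N) : s27lxcC W R i = s27lxcC W R k ↔ S27lxcRel W R i k := by
  classical
  constructor
  · intro h
    have h1 := s27lxc_rel_C W R i
    have h2 := s27lxc_rel_C W R k
    rw [h] at h1
    exact s27lxc_rel_trans (s27lxc_rel_symm h1) h2
  · intro h
    have hset : Finset.univ.filter (fun m => S27lxcRel W R m i) =
        Finset.univ.filter (fun m => S27lxcRel W R m k) := by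
      ext m
      simp only [Finset.mem_filter, Finset.mem_univ, true_and]
      exact ⟨fun hm => s27lxc_rel_trans hm h, fun hm => s27lxc_rel_trans hm (s27lxc_rel_symm h)⟩
    unfold s27lxcC
    simp only [hset]

/-- a function regular at `P₁` with a pole at `P₂` gives a separating function. -/
theorem s27lxc_sep_aux (P₁ P₂ : F →ₐ[K] 𝔏) (f : F) (h1 : P₁ f ∈ W) (h2 : P₂ f ∉ W) :
    ∃ g : F, P₁ g ∈ W ∧ P₂ g ∈ W ∧ W.valuation (P₁ g - P₂ g) = 1 := by
  -- wlog `P₁ f` is a unit
  obtain ⟨f', hf1, hf2⟩ : ∃ f' : F, W.valuation (P₁ f') = 1 ∧ P₂ f' ∉ W := by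
    by_cases hu : W.valuation (P₁ f) = 1
    · exact ⟨f, hu, h2⟩
    · have hlt : W.valuation (P₁ f) < 1 :=
        lt_of_le_of_ne ((W.valuation_le_one_iff _).mpr h1) hu
      refine ⟨f + 1, ?_, fun h => h2 ?_⟩
      · rw [map_add, map_one]
        have := Valuation.map_add_eq_of_lt_right W.valuation
          (show W.valuation (P₁ f) < W.valuation (1 : 𝔏) by rw [map_one]; exact hlt)
        rw [this, map_one]
      · have e : P₂ f = P₂ (f + 1) - 1 := by rw [map_add, map_one]; ring
        rw [e]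
        exact sub_mem h W.one_mem
  have hv2 : 1 < W.valuation (P₂ f') := by
    rw [← not_le, W.valuation_le_one_iff]
    exact hf2
  have hf0 : f' ≠ 0 := by
    rintro rfl
    rw [map_zero] at hf2
    exact hf2 W.zero_mem
  have hg1 : W.valuation (P₁ f'⁻¹) = 1 := by
    rw [map_inv₀, map_inv₀, hf1, inv_one]
  have hg2 : W.valuation (P₂ f'⁻¹) < 1 := by
    rw [map_inv₀, map_inv₀]
    exact inv_lt_one_of_one_lt₀ hv2
  refine ⟨f'⁻¹, (W.valuation_le_one_iff _).mp hg1.le, (W.valuation_le_one_iff _).mp hg2.le, ?_⟩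
  have := Valuation.map_sub_eq_of_lt_left W.valuation
    (show W.valuation (P₂ f'⁻¹) < W.valuation (P₁ f'⁻¹) by rw [hg1]; exact hg2)
  rw [this, hg1]

/-- points of different clusters are separated by a function regular at both. -/
theorem s27lxc_sep_of_not_rel (i k : Fin N) (h : ¬ S27lxcRel W R i k) :
    ∃ g : F, R i g ∈ W ∧ R k g ∈ W ∧ W.valuation (R i g - R k g) = 1 := by
  by_cases hA : ∀ f, R i f ∈ W ↔ R k f ∈ W
  · have hB : ¬ ∀ f, R i f ∈ W → W.valuation (R i f - R k f) < 1 := fun hB => h ⟨hA, hB⟩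
    push Not at hB
    obtain ⟨f, hf, hv⟩ := hB
    have hkf : R k f ∈ W := (hA f).mp hf
    refine ⟨f, hf, hkf, le_antisymm ?_ hv⟩
    exact (W.valuation_le_one_iff _).mpr (sub_mem hf hkf)
  · push Not at hA
    obtain ⟨f, hf⟩ := hA
    rcases hf with ⟨h1, h2⟩ | ⟨h1, h2⟩
    · exact s27lxc_sep_aux W (R i) (R k) f h1 h2
    · obtain ⟨g, hg1, hg2, hg3⟩ := s27lxc_sep_aux W (R k) (R i) f h2 h1
      refine ⟨g, hg2, hg1, ?_⟩
      rw [← Valuation.map_neg, neg_sub]
      exact hg3

end Clusters

end Fermat.Agent.S27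

end
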