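/-
S27-B, leaf LAT-EX CONCRETE, part 3 (helper6): THE STEP AT THE CENTRE OF A POINT, for a curve.

`F / K` a curve (`IsCurveOver`, essentially of finite type), `K` algebraically closed of
characteristic `0`; `W ⊇ K` a valuation subring of `𝔏`, `R₀ : F →ₐ[K] 𝔏` a point, `t ∈ F` a
non-constant function with `R₀ t ∈ W` which is a local coordinate at the centre of `R₀` if this
centre is a place.  Then the divided-difference step `S27eiStep` holds for the centre ring
`s27lxcO W hKW R₀` with the coordinate `t`:

* `s27lxc_step_generic` : generic centre (helper50's `s27ei_step_generic`, transported);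
* `s27lxc_step_closed`  : closed centre (helper50's `s27ei_step_of_dvr` with helper40's
                          `s27nwp_*`, `s27nwc_*`, transported);
* `s27lxc_step`         : both.
-/
import Fermat.Agent.S27.LatExC2
import Fermat.Agent.S27.EffInstCl
import Fermat.Agent.S27.EffInstGen
import Fermat.Agent.S27.NewtonCrv
import Fermat.Agent.S27.AdExPred

set_option autoImplicit false
set_option linter.unusedSectionVars false
set_option linter.style.haveILetI false

noncomputable section

namespace Fermat.Agent.S27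

open IsLocalRing AlgebraicCurve Polynomial IntermediateField
open scoped TensorProduct

universe u v w

variable {K : Type u} {F : Type v} [Field K] [Field F] [Algebra K F]
  {𝔏 : Type w} [Field 𝔏] [Algebra K 𝔏]
  (W : ValuationSubring 𝔏) (hKW : ∀ a : K, algebraMap K 𝔏 a ∈ W)

/-- a non-constant function is transcendental (`K` algebraically closed). -/
theorem s27lxc_transcendental [IsAlgClosed K] (t : F) (ht : ∀ c : K, t ≠ algebraMap K F c) :
    Transcendental K t := by
  intro halg
  have hint : IsIntegral K t := halg.isIntegral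
  have hdeg : (minpoly K t).degree = 1 :=
    IsAlgClosed.degree_eq_one_of_irreducible K (minpoly.irreducible hint)
  obtain ⟨c, hc⟩ := minpoly.degree_eq_one_iff.mp hdeg
  exact ht c hc.symm

/-- `F` is algebraic over `K[t]` for every non-constant `t`. -/
theorem s27lxc_halg [IsAlgClosed K] [CharZero K] [IsCurveOver K F] [Algebra.EssFiniteType K F]
    (t : F) (ht : ∀ c : K, t ≠ algebraMap K F c) :
    Algebra.IsAlgebraic (Algebra.adjoin K ({t} : Set F)) F := by
  obtain ⟨x, -, hfin⟩ := s27td_exists_of_isCurveOver (K := K) (F := F)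
  haveI := hfin
  have : Algebra.IsAlgebraic K⟮x⟯ F := Algebra.IsAlgebraic.of_finite K⟮x⟯ F
  exact s27nwc_exchange x t (s27nwc_isAlgebraic_adjoin x) (s27lxc_transcendental t ht)

/-- the step at a generic centre. -/
theorem s27lxc_step_generic [IsAlgClosed K] [CharZero K] [IsCurveOver K F]
    [Algebra.EssFiniteType K F] (R₀ : F →ₐ[K] 𝔏) (hgen : ∀ f, R₀ f ∈ W)
    (t : F) (ht : ∀ c : K, t ≠ algebraMap K F c) :
    @S27eiStep K _ (s27lxcO W hKW R₀) _ _ ⟨t, hgen t⟩ W _ _ (s27eifAlg W hKW) := by
  letI := s27eifAlg W hKW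
  let e₀ : F →ₐ[K] s27lxcO W hKW R₀ :=
    AlgHom.codRestrict (AlgHom.id K F) (s27lxcO W hKW R₀) (fun f => hgen f)
  have hbij : Function.Bijective e₀ :=
    ⟨fun a b hab => congrArg Subtype.val hab, fun y => ⟨y.1, Subtype.ext rfl⟩⟩
  have h := s27lxc_step_transport (R := W) (AlgEquiv.ofBijective e₀ hbij) t
    (s27ei_step_generic t (s27lxc_halg t ht))
  exact h

/-- the step at a closed centre. -/
theorem s27lxc_step_closed [IsAlgClosed K] [CharZero K] [IsCurveOver K F]
    [Algebra.EssFiniteType K F] (R₀ : F →ₐ[K] 𝔏) (Q : Place K F)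
    (hQ : W.comap (R₀ : F →+* 𝔏) = Q.toValuationSubring)
    (t : F) (htW : R₀ t ∈ W) (c : K) (hord : Q.ord (t - algebraMap K F c) = 1) :
    @S27eiStep K _ (s27lxcO W hKW R₀) _ _ ⟨t, htW⟩ W _ _ (s27eifAlg W hKW) := by
  letI := s27eifAlg W hKW
  have hmem : ∀ f : F, f ∈ Q.toValuationSubring ↔ R₀ f ∈ W := fun f =>
    (s27adex_centre_mem W R₀ Q hQ f).symm
  -- the residue field
  obtain ⟨x, hx, hfin⟩ := s27td_exists_of_isCurveOver (K := K) (F := F)
  haveI := hfin
  have halgx : Algebra.IsAlgebraic K⟮x⟯ F := Algebra.IsAlgebraic.of_finite K⟮x⟯ F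
  have hres : Function.Surjective (algebraMap K Q.ResidueField) :=
    (Fermat.Agent.S24.algebraMap_residueField_bijective x hx halgx Q).2
  -- the step at `𝒪_Q` for the uniformiser `t − c`
  have htr : Transcendental K (t - algebraMap K F c) :=
    s27nwc_transcendental_of_ord Q _ (by rw [hord]; norm_num)
  have h1 : S27eiStep K Q.toValuationSubring (s27nwpPi Q (t - algebraMap K F c) hord) W :=
    s27ei_step_of_dvr (s27nwp_irreducible Q _ hord) (s27nwp_hres Q hres _ hord)
      (s27nwp_halg_of Q _ hord (s27nwc_halg _ htr))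
  have htQ : t ∈ Q.toValuationSubring := (hmem t).mpr htW
  have h2 : S27eiStep K Q.toValuationSubring (⟨t, htQ⟩ : Q.toValuationSubring) W := by
    refine s27ei_step_congr c ?_ h1
    apply Subtype.ext
    show t = (t - algebraMap K F c) + algebraMap K F c
    ring
  -- transport
  let e₀ : Q.toValuationSubring →ₐ[K] s27lxcO W hKW R₀ :=
    AlgHom.codRestrict (IsScalarTower.toAlgHom K Q.toValuationSubring F) (s27lxcO W hKW R₀)
      (fun a => (hmem a.1).mp a.2)
  have hbij : Function.Bijective e₀ :=
    ⟨fun a b hab => Subtype.ext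
      (show ((e₀ a : s27lxcO W hKW R₀) : F) = ((e₀ b : s27lxcO W hKW R₀) : F) from
        congrArg Subtype.val hab),
      fun y => ⟨⟨y.1, (hmem y.1).mpr y.2⟩, Subtype.ext rfl⟩⟩
  have h := s27lxc_step_transport (R := W) (AlgEquiv.ofBijective e₀ hbij) ⟨t, htQ⟩ h2
  exact h

/-- **the step at the centre of a point**, for an adapted coordinate. -/
theorem s27lxc_step [IsAlgClosed K] [CharZero K] [IsCurveOver K F]
    [Algebra.EssFiniteType K F] {ι : Type*} (R : ι → F →ₐ[K] 𝔏) (n : Place K F → ℤ) (t a : F)
    (had : S27IsAdapted W R n t a) (i : ι) :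
    @S27eiStep K _ (s27lxcO W hKW (R i)) _ _ ⟨t, had.t_mem i⟩ W _ _ (s27eifAlg W hKW) := by
  obtain ⟨x, hx, hfin⟩ := s27td_exists_of_isCurveOver (K := K) (F := F)
  haveI := hfin
  rcases s27adex_hred_curve x hx W hKW (R i) with hgen | ⟨Q, hQ⟩
  · exact s27lxc_step_generic W hKW (R i) hgen t had.t_not_const
  · obtain ⟨c, hc⟩ := had.exists_unif hQ
    exact s27lxc_step_closed W hKW (R i) Q hQ t (had.t_mem i) c hc

end Fermat.Agent.S27

end
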