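/-
S27-B, leaf **LAT-EX CONCRETE** (helper6): a lattice basis EXISTS.

`F / K` a curve (`IsCurveOver`, essentially of finite type), `K` algebraically closed of
characteristic `0`; `W ⊇ K` a valuation subring of a field `𝔏 ⊇ K`; `R i : F →ₐ[K] 𝔏` (`i < N`)
pairwise distinct points; `A'` a divisor of `F / K`.  Then

    `s27lxc_main : ∃ φ : Fin N → F, S27ptIsLatBasis W R A' φ`        (`φ j = a · t^j`, `(t, a)` adapted)
    `s27lxc_latBasis … t a (had : S27IsAdapted W R (fun Q => -A' Q) t a) : S27ptIsLatBasis W R A' (a · t^j)`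

i.e. the hypothesis `hlat` of `S27/Beta.lean` (LAT-EX).  Proof: the adapted pair of `S27/AdExPred.lean`,
the clusters of `S27/LatExC2.lean`, the steps of `S27/LatExC3.lean` and helper50's
`s27eis_latBasis` (`S27/EffInstSpan.lean`).
-/
import Fermat.Agent.S27.LatExC3
import Fermat.Agent.S27.EffInstSpan

set_option autoImplicit false
set_option linter.unusedSectionVars false
set_option linter.style.haveILetI false

noncomputable section

namespace Fermat.Agent.S27

open IsLocalRing AlgebraicCurve Polynomial IntermediateField WithZero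
open Fermat.Agent.S24.PlaceAux

universe u v w

variable {K : Type u} {F : Type v} [Field K] [Field F] [Algebra K F]
  {𝔏 : Type w} [Field 𝔏] [Algebra K 𝔏]

/-- **LAT-EX for an adapted pair**: `φ j = a · t^j` is a lattice basis, for EVERY adapted pair
`(t, a)` (with `n Q = −A'(Q)`) and pairwise distinct points. -/
theorem s27lxc_latBasis [IsAlgClosed K] [CharZero K] [IsCurveOver K F]
    [Algebra.EssFiniteType K F]
    (W : ValuationSubring 𝔏) (hKW : ∀ a : K, algebraMap K 𝔏 a ∈ W) {N : ℕ}
    (R : Fin N → F →ₐ[K] 𝔏) (hR : Function.Injective R) (A' : Divisor K F) (t a : F)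
    (had : S27IsAdapted W R (fun Q => -A' Q) t a) :
    S27ptIsLatBasis W R A' (fun j : Fin N => a * t ^ (j : ℕ)) := by
  classical
  obtain ⟨x₀, hx₀, hfin⟩ := s27td_exists_of_isCurveOver (K := K) (F := F)
  haveI := hfin
  -- relations inside a cluster
  have hrel : ∀ (x j : Fin N), s27lxcC W R j = x → S27lxcRel W R x j := by
    intro x j hj
    have := s27lxc_rel_C W R j
    rwa [hj] at this
  have hva : ∀ Q : Place K F, ∀ i, W.comap (R i : F →+* 𝔏) = Q.toValuationSubring →
      Q.adicValuation a = exp (A' Q) := by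
    intro Q i hQ
    rw [adicValuation_eq_exp_neg_ord Q had.a_ne, had.ord_a hQ, neg_neg]
  refine s27eis_latBasis W hKW (s27lxcC W R) (fun x => s27lxcO W hKW (R x))
    (fun x => (s27lxcO W hKW (R x)).val) R ?_ ?_ t (fun x => ⟨t, had.t_mem x⟩) (fun x => rfl)
    ?_ ?_ ?_ A' a had.a_ne ?_ ?_
  · -- hA
    intro x j hj d
    exact ((hrel x j hj).1 d.1).mp d.2
  · -- hcong
    intro x i j hi hj d
    have hij : S27lxcRel W R i j := s27lxc_rel_trans (s27lxc_rel_symm (hrel x i hi)) (hrel x j hj)
    exact hij.2 d.1 (((hrel x i hi).1 d.1).mp d.2)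
  · -- hsep
    intro i j hij
    have hnrel : ¬ S27lxcRel W R i j := fun h => hij ((s27lxc_C_eq_iff W R i j).mpr h)
    obtain ⟨g, hg1, hg2, hg3⟩ := s27lxc_sep_of_not_rel W R i j hnrel
    have hns : R i t - R j t ∉ W.nonunits :=
      had.sep g hg1 hg2 (fun h => by
        rw [ValuationSubring.mem_nonunits_iff, hg3] at h
        exact lt_irrefl _ h)
    refine le_antisymm ((W.valuation_le_one_iff _).mpr (sub_mem (had.t_mem i) (had.t_mem j)))
      (not_lt.mp fun h => hns ?_)
    rw [ValuationSubring.mem_nonunits_iff]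
    exact h
  · -- hstep
    intro x
    exact s27lxc_step W hKW R _ t a had x
  · -- hdist
    intro i k hik hc
    by_contra hcon
    push Not at hcon
    apply hik
    apply hR
    apply AlgHom.ext
    intro f
    rcases W.mem_or_inv_mem (R (s27lxcC W R k) f) with hf | hf
    · exact hcon ⟨f, hf⟩
    · have hf' : R (s27lxcC W R k) f⁻¹ ∈ W := by rw [map_inv₀]; exact hf
      have := hcon ⟨f⁻¹, hf'⟩
      simp only [Subalgebra.coe_val, map_inv₀] at this
      exact inv_injective this
  · -- hmem
    intro j Q i hQ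
    have htQ : t ∈ Q.toValuationSubring := (s27adex_centre_mem W (R i) Q hQ t).mp (had.t_mem i)
    have ht1 : Q.adicValuation t ≤ 1 := (mem_iff_adicValuation_le_one Q t).mp htQ
    rw [map_mul, map_pow, hva Q i hQ]
    calc exp (A' Q) * Q.adicValuation t ^ (j : ℕ) ≤ exp (A' Q) * 1 :=
          mul_le_mul_right (pow_le_one₀ zero_le ht1) _
      _ = exp (A' Q) := mul_one _
  · -- hquot
    intro ψ hψ x
    refine ⟨⟨ψ / a, ?_⟩, rfl⟩
    show R x (ψ / a) ∈ W
    rcases s27adex_hred_curve x₀ hx₀ W hKW (R x) with hgen | ⟨Q, hQ⟩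
    · exact hgen _
    · rw [s27adex_centre_mem W (R x) Q hQ, mem_iff_adicValuation_le_one, map_div₀, hva Q x hQ]
      have h1 : Q.adicValuation ψ ≤ exp (A' Q) := hψ Q x hQ
      exact (div_le_one₀ (WithZero.exp_pos)).mpr h1

/-- **LAT-EX**: for pairwise distinct points of a curve a lattice basis exists. -/
theorem s27lxc_main [IsAlgClosed K] [CharZero K] [IsCurveOver K F] [Algebra.EssFiniteType K F]
    (W : ValuationSubring 𝔏) (hKW : ∀ a : K, algebraMap K 𝔏 a ∈ W) {N : ℕ}
    (R : Fin N → F →ₐ[K] 𝔏) (hR : Function.Injective R) (A' : Divisor K F) :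
    ∃ φ : Fin N → F, S27ptIsLatBasis W R A' φ := by
  obtain ⟨t, a, had⟩ := s27adex_exists_isCurveOver W hKW R (fun Q => -A' Q)
  exact ⟨_, s27lxc_latBasis W hKW R hR A' t a had⟩

end Fermat.Agent.S27

end
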