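/-
S27-B — leaf **LAT-7, unconditional** (helper15): the hypothesis `hlat` of helper48's CP-TOP glue
`s27ca_cp_latex` (S27/CubeAsm.lean) HOLDS on a curve `F / K` (`K` algebraically closed of
characteristic `0`), for any three tuples `D₁, D₂, D₃` with injective union and any seven constant
divisors with `A₁₂₃ + A₁ = A₁₂ + A₁₃`, `A₁₂₃ + A₂ = A₁₂ + A₂₃`, `A₁₂₃ + A₃ = A₁₃ + A₂₃`.

Inputs: `S27/Lat7.lean` (the seven adapted pairs with ONE coordinate) and helper6's explicit LAT-EX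
`s27lxc_latBasis` (S27/LatExC.lean).

* `s27l7_hlat_main`  : `hlat` of `s27ca_cp_latex`, literally;
* `s27l7_hlat_sum`   : the same for `A_S = Ao + Σ_{j ∈ S} B_j` in the shape
                       `B₁ + Ao`, `B₁ + B₂ + Ao`, `B₁ + B₂ + B₃ + Ao` (origins of `Fin.append`).
-/
import Fermat.Agent.S27.Lat7
import Fermat.Agent.S27.LatExC

set_option autoImplicit false
set_option linter.unusedVariables false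
set_option linter.unusedSectionVars false
set_option linter.style.haveILetI false

noncomputable section

namespace Fermat.Agent.S27

open AlgebraicCurve IntermediateField

universe u v w

variable {K : Type u} {F : Type v} [Field K] [Field F] [Algebra K F]
variable {𝔏 : Type w} [Field 𝔏] [Algebra K 𝔏]
variable [IsAlgClosed K] [CharZero K] [IsCurveOver K F] [Algebra.EssFiniteType K F]
variable {N₁ N₂ N₃ : ℕ}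

/-- **LAT-7, unconditional** = the hypothesis `hlat` of `s27ca_cp_latex`. -/
theorem s27l7_hlat_main
    (D₁ : Fin N₁ → F →ₐ[K] 𝔏) (D₂ : Fin N₂ → F →ₐ[K] 𝔏) (D₃ : Fin N₃ → F →ₐ[K] 𝔏)
    (hinj : Function.Injective (Fin.append (Fin.append D₁ D₂) D₃))
    (A₁ A₂ A₃ A₁₂ A₁₃ A₂₃ A₁₂₃ : Divisor K F)
    (h1 : A₁₂₃ + A₁ = A₁₂ + A₁₃) (h2 : A₁₂₃ + A₂ = A₁₂ + A₂₃) (h3 : A₁₂₃ + A₃ = A₁₃ + A₂₃)
    (W : ValuationSubring 𝔏) (hW : ∀ c : K, algebraMap K 𝔏 c ∈ W) :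
    ∃ t a₁ a₂ a₃ a₁₂ a₁₃ a₂₃ a₁₂₃ : F,
      a₁₂₃ * a₁ = a₁₂ * a₁₃ ∧ a₁₂₃ * a₂ = a₁₂ * a₂₃ ∧ a₁₂₃ * a₃ = a₁₃ * a₂₃ ∧
      S27ptIsLatBasis W D₁ A₁ (fun j : Fin N₁ => a₁ * t ^ (j : ℕ)) ∧
      S27ptIsLatBasis W D₂ A₂ (fun j : Fin N₂ => a₂ * t ^ (j : ℕ)) ∧
      S27ptIsLatBasis W D₃ A₃ (fun j : Fin N₃ => a₃ * t ^ (j : ℕ)) ∧
      S27ptIsLatBasis W (Fin.append D₁ D₂) A₁₂ (fun j : Fin (N₁ + N₂) => a₁₂ * t ^ (j : ℕ)) ∧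
      S27ptIsLatBasis W (Fin.append D₁ D₃) A₁₃ (fun j : Fin (N₁ + N₃) => a₁₃ * t ^ (j : ℕ)) ∧
      S27ptIsLatBasis W (Fin.append D₂ D₃) A₂₃ (fun j : Fin (N₂ + N₃) => a₂₃ * t ^ (j : ℕ)) ∧
      S27ptIsLatBasis W (Fin.append (Fin.append D₁ D₂) D₃) A₁₂₃
        (fun j : Fin (N₁ + N₂ + N₃) => a₁₂₃ * t ^ (j : ℕ)) := by
  obtain ⟨x, hx, hfin⟩ := s27td_exists_of_isCurveOver (K := K) (F := F)
  haveI := hfin
  exact s27l7_hlat x hx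
    (fun W hW N R hR A' t a had => s27lxc_latBasis W hW R hR A' t a had)
    D₁ D₂ D₃ hinj A₁ A₂ A₃ A₁₂ A₁₃ A₂₃ A₁₂₃ h1 h2 h3 W hW

/-- **LAT-7 for the origins of `Fin.append`**: `A_S = (Σ_{j ∈ S} B_j) + Ao`. -/
theorem s27l7_hlat_sum
    (D₁ : Fin N₁ → F →ₐ[K] 𝔏) (D₂ : Fin N₂ → F →ₐ[K] 𝔏) (D₃ : Fin N₃ → F →ₐ[K] 𝔏)
    (hinj : Function.Injective (Fin.append (Fin.append D₁ D₂) D₃))
    (Ao B₁ B₂ B₃ : Divisor K F)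
    (W : ValuationSubring 𝔏) (hW : ∀ c : K, algebraMap K 𝔏 c ∈ W) :
    ∃ t a₁ a₂ a₃ a₁₂ a₁₃ a₂₃ a₁₂₃ : F,
      a₁₂₃ * a₁ = a₁₂ * a₁₃ ∧ a₁₂₃ * a₂ = a₁₂ * a₂₃ ∧ a₁₂₃ * a₃ = a₁₃ * a₂₃ ∧
      S27ptIsLatBasis W D₁ (B₁ + Ao) (fun j : Fin N₁ => a₁ * t ^ (j : ℕ)) ∧
      S27ptIsLatBasis W D₂ (B₂ + Ao) (fun j : Fin N₂ => a₂ * t ^ (j : ℕ)) ∧
      S27ptIsLatBasis W D₃ (B₃ + Ao) (fun j : Fin N₃ => a₃ * t ^ (j : ℕ)) ∧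
      S27ptIsLatBasis W (Fin.append D₁ D₂) (B₁ + B₂ + Ao)
        (fun j : Fin (N₁ + N₂) => a₁₂ * t ^ (j : ℕ)) ∧
      S27ptIsLatBasis W (Fin.append D₁ D₃) (B₁ + B₃ + Ao)
        (fun j : Fin (N₁ + N₃) => a₁₃ * t ^ (j : ℕ)) ∧
      S27ptIsLatBasis W (Fin.append D₂ D₃) (B₂ + B₃ + Ao)
        (fun j : Fin (N₂ + N₃) => a₂₃ * t ^ (j : ℕ)) ∧
      S27ptIsLatBasis W (Fin.append (Fin.append D₁ D₂) D₃) (B₁ + B₂ + B₃ + Ao)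
        (fun j : Fin (N₁ + N₂ + N₃) => a₁₂₃ * t ^ (j : ℕ)) :=
  s27l7_hlat_main D₁ D₂ D₃ hinj _ _ _ _ _ _ _ (by abel) (by abel) (by abel) W hW

end Fermat.Agent.S27

end
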