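/-
S27 route B, crux LE(b), LE-TOP rows 3 + 4 (helper89): **the TWO-SIDED divisor `G` as a family of
places**, with `hq`, `hq'`, `hsurj`, `hsurj'` in the literal shapes of `s27le5_asm_scale`
(`S27/LE5Scale.lean`) and `s27le5_frame` (`S27/LE5Frame.lean`, helper27).

On `S27/IntSurjK2.lean` (helper13: ONE reduced divisor `G` for the two sides, Cauchy functions in
`L_K(A + G)`), `S27/EffInstLat.lean` (helper50: LAT-EX for every adapted pair), `S27/CauchyPt.lean`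
(helper61: the Cauchy family is a lattice basis, INT-SURJ) and `S27/LEPP.lean` (helper48:
`s27ppG Q = Σ_l Q_l`).

`F / K` a curve over an algebraically closed field of characteristic `0`, `W ⊇ K` a valuation
subring of `𝔏`, pairwise distinct points `R i` (`i < N`), `R' i` (`i < N'`), divisors `A₁`, `A₂`,
a finite set `T` of places, `d : ℕ`.

* `s27lg_rr_le`      : `G = 0` at the closed centres of `R` ⇒ `L_K(A + G) ⊆ 𝓕(W, R, A)`;
* `s27lg_family`     : a REDUCED divisor is `s27ppG Q` for an injective family `Q : Fin m → Place`;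
* `s27lg_span_basis` : `L ⊆ K`-span of (the coercions of) a `K`-basis of `L`;
* `s27lg_main_x`, `s27lg_main` : **TWO-SIDED G**: `m ≥ d`, `Q : Fin m → Place K F` injective, off
  `T`, off `supp A₁ ∪ supp A₂`, off the closed centres of `R` and `R'`, with
  `L_K(A_i + s27ppG Q) ⊆ 𝓕_i` and a lattice basis of each side inside `L_K(A_i + s27ppG Q)`;
* `s27lg_hsurj`      : INT-SURJ for every family spanning `L_K(A + G)`;
* `s27lg_frame`      : the same with `hq`, `hsurj` (both sides) for EVERY pair of `K`-bases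
  `b`, `b'` of `L_K(A₁ + G)`, `L_K(A₂ + G)` indexed by `Fin N ⊕ Fin m`, `Fin N' ⊕ Fin m`
  (literal shape of `s27le5_frame`);
* `s27lg_scale`      : the same for families `s27le5X f q` (literal shape of `s27le5_asm_scale`).
-/
import Fermat.Agent.S27.IntSurjK2
import Fermat.Agent.S27.EffInstLat
import Fermat.Agent.S27.LEPP
import Fermat.Agent.S27.LE5

set_option autoImplicit false
set_option linter.style.haveILetI false
set_option linter.unusedSectionVars false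
set_option linter.unusedVariables false

noncomputable section

namespace Fermat.Agent.S27

open AlgebraicCurve IntermediateField Module
open Fermat.Agent.S24.PlaceAux Fermat.Agent.S26

universe u v w

variable {K : Type u} {F : Type v} [Field K] [Field F] [Algebra K F]
variable {𝔏 : Type w} [Field 𝔏] [Algebra K 𝔏]

section Formal

/-- `G = 0` at the closed centres of the points `R i` ⇒ `L_K(A + G) ⊆ 𝓕(W, R, A)`. -/
theorem s27lg_rr_le {N : ℕ} (W : ValuationSubring 𝔏) (R : Fin N → F →ₐ[K] 𝔏)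
    (A G : Divisor K F) (hG : ∀ i Q, S27ptIsCentre W (R i) Q → G Q = 0) :
    riemannRochSpace (A + G) ≤ s27ptF W R A := by
  intro f hf Q i hQ
  have h1 : Q.adicValuation f ≤ WithZero.exp ((A + G) Q) := hf Q
  rwa [Finsupp.add_apply, hG i Q hQ, add_zero] at h1

/-- `L` is inside the `K`-span of the coercions of a `K`-basis of `L`. -/
theorem s27lg_span_basis {J : Type*} (L : Submodule K F) (b : Module.Basis J K ↥L) :
    L ≤ Submodule.span K (Set.range fun j => ((b j : ↥L) : F)) := by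
  intro f hf
  have h1 : (⟨f, hf⟩ : ↥L) ∈ Submodule.span K (Set.range b) := by
    rw [b.span_eq]
    exact Submodule.mem_top
  have h2 := Submodule.apply_mem_span_image_of_mem_span L.subtype h1
  rw [← Set.range_comp] at h2
  exact h2

/-- a REDUCED divisor is the divisor `s27ppG Q` of an injective family of places. -/
theorem s27lg_family (G : Divisor K F) (hred : ∀ P, G P = 0 ∨ G P = 1) :
    ∃ (m : ℕ) (Q : Fin m → Place K F), Function.Injective Q ∧ s27ppG Q = G ∧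
      (∀ l, G (Q l) = 1) ∧ m = G.support.card := by
  classical
  let e : ↥G.support ≃ Fin G.support.card := G.support.equivFin
  let Q : Fin G.support.card → Place K F := fun l => ((e.symm l : ↥G.support) : Place K F)
  have hQinj : Function.Injective Q := fun l l' h => e.symm.injective (Subtype.ext h)
  have hQmem : ∀ l, Q l ∈ G.support := fun l => (e.symm l).2
  have hQ1 : ∀ l, G (Q l) = 1 := by
    intro l
    rcases hred (Q l) with h | h
    · exact absurd h (Finsupp.mem_support_iff.1 (hQmem l))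
    · exact h
  refine ⟨G.support.card, Q, hQinj, ?_, hQ1, rfl⟩
  ext P
  by_cases hP : P ∈ G.support
  · have h1 : Q (e ⟨P, hP⟩) = P := by
      show ((e.symm (e ⟨P, hP⟩) : ↥G.support) : Place K F) = P
      rw [Equiv.symm_apply_apply]
    have h2 := s27ppG_apply_self hQinj (e ⟨P, hP⟩)
    rw [h1] at h2
    have h3 := hQ1 (e ⟨P, hP⟩)
    rw [h1] at h3
    rw [h2, h3]
  · have h1 : ∀ l, Q l ≠ P := fun l h => hP (h ▸ hQmem l)
    rw [s27ppG_apply_of_notMem h1]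
    exact (Finsupp.notMem_support_iff.1 hP).symm

/-- **INT-SURJ** from a lattice basis inside `L_K(A + G)`, for every family spanning
`L_K(A + G)`. -/
theorem s27lg_hsurj {N : ℕ} {W : ValuationSubring 𝔏} (hW : ∀ c : K, algebraMap K 𝔏 c ∈ W)
    {R : Fin N → F →ₐ[K] 𝔏} {A G : Divisor K F} {φ : Fin N → F}
    (hφ : S27ptIsLatBasis W R A φ) (hφG : ∀ j, φ j ∈ riemannRochSpace (A + G))
    {J : Type*} [Fintype J] (y : J → F)
    (hy : riemannRochSpace (A + G) ≤ Submodule.span K (Set.range y)) :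
    ∀ ψ ∈ s27ptF W R A, ∃ c : J → 𝔏, (∀ j, c j ∈ W) ∧
      ∀ i, R i ψ = ∑ j, R i (y j) * c j :=
  s27cpt_intSurj hW hφ y fun j => hy (hφG j)

/-- **INT-SURJ** for a `K`-basis of `L_K(A + G)` (literal shape of `s27le5_frame`). -/
theorem s27lg_hsurj_basis {N : ℕ} {W : ValuationSubring 𝔏}
    (hW : ∀ c : K, algebraMap K 𝔏 c ∈ W)
    {R : Fin N → F →ₐ[K] 𝔏} {A G : Divisor K F} {φ : Fin N → F}
    (hφ : S27ptIsLatBasis W R A φ) (hφG : ∀ j, φ j ∈ riemannRochSpace (A + G))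
    {J : Type*} [Fintype J] (b : Module.Basis J K ↥(riemannRochSpace (A + G))) :
    ∀ ψ ∈ s27ptF W R A, ∃ c : J → 𝔏, (∀ j, c j ∈ W) ∧
      ∀ i, R i ψ = ∑ j, R i ((b j : ↥(riemannRochSpace (A + G))) : F) * c j :=
  s27lg_hsurj hW hφ hφG _ (s27lg_span_basis _ b)

/-- **INT-SURJ** for a family `s27le5X f q` whose tail `q` completes `f` to a spanning family of
`L_K(A + G)` (literal shape of `s27le5_asm_scale`). -/
theorem s27lg_hsurj_X {N : ℕ} {W : ValuationSubring 𝔏}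
    (hW : ∀ c : K, algebraMap K 𝔏 c ∈ W)
    {R : Fin N → F →ₐ[K] 𝔏} {A G : Divisor K F} {φ : Fin N → F}
    (hφ : S27ptIsLatBasis W R A φ) (hφG : ∀ j, φ j ∈ riemannRochSpace (A + G))
    {κ : Type*} [Fintype κ] (f : Module.Basis (Fin N) K ↥(riemannRochSpace A)) (q : κ → F)
    (hy : riemannRochSpace (A + G) ≤ Submodule.span K (Set.range (s27le5X f q))) :
    ∀ ψ ∈ s27ptF W R A, ∃ c : Fin N ⊕ κ → 𝔏, (∀ j, c j ∈ W) ∧
      ∀ i, R i ψ = ∑ j, R i (s27le5X f q j) * c j :=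
  s27lg_hsurj hW hφ hφG _ hy

end Formal

section Main

variable [IsAlgClosed K] [CharZero K] [IsCurveOver K F] [Algebra.EssFiniteType K F]

/-- **TWO-SIDED G**, with an explicit separating element `x`. -/
theorem s27lg_main_x (x : F) (hx : Transcendental K x) [FiniteDimensional K⟮x⟯ F]
    {N N' : ℕ} (W : ValuationSubring 𝔏) (hW : ∀ c : K, algebraMap K 𝔏 c ∈ W)
    (R : Fin N → F →ₐ[K] 𝔏) (R' : Fin N' → F →ₐ[K] 𝔏)
    (hR : Function.Injective R) (hR' : Function.Injective R')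
    (A₁ A₂ : Divisor K F) (T : Finset (Place K F)) (d : ℕ) :
    ∃ (m : ℕ) (Q : Fin m → Place K F), Function.Injective Q ∧ d ≤ m ∧
      Divisor.degree (s27ppG Q) = m ∧
      (∀ l, Q l ∉ T) ∧ (∀ l, A₁ (Q l) = 0) ∧ (∀ l, A₂ (Q l) = 0) ∧
      (∀ l i, ¬ S27ptIsCentre W (R i) (Q l)) ∧ (∀ l i, ¬ S27ptIsCentre W (R' i) (Q l)) ∧
      riemannRochSpace (A₁ + s27ppG Q) ≤ s27ptF W R A₁ ∧
      riemannRochSpace (A₂ + s27ppG Q) ≤ s27ptF W R' A₂ ∧
      (∃ φ : Fin N → F, S27ptIsLatBasis W R A₁ φ ∧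
        ∀ j, φ j ∈ riemannRochSpace (A₁ + s27ppG Q)) ∧
      (∃ φ' : Fin N' → F, S27ptIsLatBasis W R' A₂ φ' ∧
        ∀ j, φ' j ∈ riemannRochSpace (A₂ + s27ppG Q)) := by
  classical
  obtain ⟨G, t, a, q, t', a', q', hred, hdeg, hT, hA₁, hA₂, hC, hC', ⟨had, hq, hu, hmem⟩,
    ⟨had', hq', hu', hmem'⟩⟩ := s27isk_two x hx W hW R R' A₁ A₂ T d
  obtain ⟨m, Q, hQinj, hQG, hQ1, hm⟩ := s27lg_family G hred
  have hne : ∀ l, G (Q l) ≠ 0 := fun l => by rw [hQ1 l]; exact one_ne_zero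
  -- the degree
  have hGsum : G = ∑ P ∈ G.support, Finsupp.single P (1 : ℤ) := by
    ext P
    rw [s27isk_sum_apply G.support P]
    by_cases hP : P ∈ G.support
    · rw [if_pos hP]
      rcases hred P with h | h
      · exact absurd h (Finsupp.mem_support_iff.1 hP)
      · exact h
    · rw [if_neg hP]
      exact Finsupp.notMem_support_iff.1 hP
  have hdegG : Divisor.degree G = m := by
    conv_lhs => rw [hGsum]
    rw [s27isk_degree_sum x hx G.support, hm]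
  refine ⟨m, Q, hQinj, ?_, ?_, ?_, ?_, ?_, ?_, ?_, ?_, ?_, ?_, ?_⟩
  · rw [hdegG] at hdeg
    exact_mod_cast hdeg
  · rw [hQG, hdegG]
  · exact fun l hl => hne l (hT _ hl)
  · intro l
    by_contra h
    exact hne l (hA₁ _ h)
  · intro l
    by_contra h
    exact hne l (hA₂ _ h)
  · exact fun l i h => hne l (hC i _ h)
  · exact fun l i h => hne l (hC' i _ h)
  · rw [hQG]
    exact s27lg_rr_le W R A₁ G hC
  · rw [hQG]
    exact s27lg_rr_le W R' A₂ G hC'
  · refine ⟨_, s27cpt_latBasis' hW a t (s27eil_latBasis W hW R hR A₁ t a had) had.t_not_const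
      had.t_mem q hq hu, fun j => ?_⟩
    rw [hQG]
    exact hmem j
  · refine ⟨_, s27cpt_latBasis' hW a' t' (s27eil_latBasis W hW R' hR' A₂ t' a' had')
      had'.t_not_const had'.t_mem q' hq' hu', fun j => ?_⟩
    rw [hQG]
    exact hmem' j

/-- **TWO-SIDED G** (rows 3 of the LE-TOP table): an injective family `Q : Fin m → Place K F`,
`m ≥ d`, off `T`, off the supports of `A₁`, `A₂`, off the closed centres of `R` and `R'`, with
`L_K(A_i + s27ppG Q) ⊆ 𝓕_i` and a lattice basis of each side inside `L_K(A_i + s27ppG Q)`. -/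
theorem s27lg_main {N N' : ℕ} (W : ValuationSubring 𝔏) (hW : ∀ c : K, algebraMap K 𝔏 c ∈ W)
    (R : Fin N → F →ₐ[K] 𝔏) (R' : Fin N' → F →ₐ[K] 𝔏)
    (hR : Function.Injective R) (hR' : Function.Injective R')
    (A₁ A₂ : Divisor K F) (T : Finset (Place K F)) (d : ℕ) :
    ∃ (m : ℕ) (Q : Fin m → Place K F), Function.Injective Q ∧ d ≤ m ∧
      Divisor.degree (s27ppG Q) = m ∧
      (∀ l, Q l ∉ T) ∧ (∀ l, A₁ (Q l) = 0) ∧ (∀ l, A₂ (Q l) = 0) ∧
      (∀ l i, ¬ S27ptIsCentre W (R i) (Q l)) ∧ (∀ l i, ¬ S27ptIsCentre W (R' i) (Q l)) ∧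
      riemannRochSpace (A₁ + s27ppG Q) ≤ s27ptF W R A₁ ∧
      riemannRochSpace (A₂ + s27ppG Q) ≤ s27ptF W R' A₂ ∧
      (∃ φ : Fin N → F, S27ptIsLatBasis W R A₁ φ ∧
        ∀ j, φ j ∈ riemannRochSpace (A₁ + s27ppG Q)) ∧
      (∃ φ' : Fin N' → F, S27ptIsLatBasis W R' A₂ φ' ∧
        ∀ j, φ' j ∈ riemannRochSpace (A₂ + s27ppG Q)) := by
  obtain ⟨x, hx, hfin⟩ := s27td_exists_of_isCurveOver (K := K) (F := F)
  haveI := hfin
  exact s27lg_main_x x hx W hW R R' hR hR' A₁ A₂ T d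

/-- **rows 3 + 4 in the literal shape of `s27le5_frame`**: the family `Q` with `hq`, `hq'`,
`hsurj`, `hsurj'` for EVERY pair of `K`-bases of `L_K(A₁ + G)`, `L_K(A₂ + G)`, `G = s27ppG Q`. -/
theorem s27lg_frame {N N' : ℕ} (W : ValuationSubring 𝔏) (hW : ∀ c : K, algebraMap K 𝔏 c ∈ W)
    (R : Fin N → F →ₐ[K] 𝔏) (R' : Fin N' → F →ₐ[K] 𝔏)
    (hR : Function.Injective R) (hR' : Function.Injective R')
    (A₁ A₂ : Divisor K F) (T : Finset (Place K F)) (d : ℕ) :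
    ∃ (m : ℕ) (Q : Fin m → Place K F), Function.Injective Q ∧ d ≤ m ∧
      Divisor.degree (s27ppG Q) = m ∧
      (∀ l, Q l ∉ T) ∧ (∀ l, A₁ (Q l) = 0) ∧ (∀ l, A₂ (Q l) = 0) ∧
      (∀ l i, ¬ S27ptIsCentre W (R i) (Q l)) ∧ (∀ l i, ¬ S27ptIsCentre W (R' i) (Q l)) ∧
      (∀ b : Module.Basis (Fin N ⊕ Fin m) K ↥(riemannRochSpace (A₁ + s27ppG Q)),
        (∀ l, ((b (Sum.inr l) : ↥(riemannRochSpace (A₁ + s27ppG Q))) : F) ∈ s27ptF W R A₁) ∧
        ∀ ψ ∈ s27ptF W R A₁, ∃ c : Fin N ⊕ Fin m → 𝔏, (∀ j, c j ∈ W) ∧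
          ∀ i, R i ψ = ∑ j, R i ((b j : ↥(riemannRochSpace (A₁ + s27ppG Q))) : F) * c j) ∧
      (∀ b' : Module.Basis (Fin N' ⊕ Fin m) K ↥(riemannRochSpace (A₂ + s27ppG Q)),
        (∀ l, ((b' (Sum.inr l) : ↥(riemannRochSpace (A₂ + s27ppG Q))) : F) ∈ s27ptF W R' A₂) ∧
        ∀ ψ ∈ s27ptF W R' A₂, ∃ c : Fin N' ⊕ Fin m → 𝔏, (∀ j, c j ∈ W) ∧
          ∀ i, R' i ψ = ∑ j, R' i ((b' j : ↥(riemannRochSpace (A₂ + s27ppG Q))) : F) * c j) := by
  obtain ⟨m, Q, hQinj, hdm, hdeg, hT, hA₁, hA₂, hC, hC', hle, hle', ⟨φ, hφ, hφG⟩,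
    ⟨φ', hφ', hφG'⟩⟩ := s27lg_main W hW R R' hR hR' A₁ A₂ T d
  refine ⟨m, Q, hQinj, hdm, hdeg, hT, hA₁, hA₂, hC, hC', fun b => ⟨fun l => ?_, ?_⟩,
    fun b' => ⟨fun l => ?_, ?_⟩⟩
  · exact hle (b (Sum.inr l)).2
  · exact s27lg_hsurj_basis hW hφ hφG b
  · exact hle' (b' (Sum.inr l)).2
  · exact s27lg_hsurj_basis hW hφ' hφG' b'

/-- **rows 3 + 4 in the literal shape of `s27le5_asm_scale`**: the family `Q` with `hq`, `hq'`,
`hsurj`, `hsurj'` for EVERY pair of families `s27le5X f q`, `s27le5X f' q'` with tails in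
`L_K(A_i + G)` spanning `L_K(A_i + G)`, `G = s27ppG Q`. -/
theorem s27lg_scale {N N' : ℕ} (W : ValuationSubring 𝔏) (hW : ∀ c : K, algebraMap K 𝔏 c ∈ W)
    (R : Fin N → F →ₐ[K] 𝔏) (R' : Fin N' → F →ₐ[K] 𝔏)
    (hR : Function.Injective R) (hR' : Function.Injective R')
    (A₁ A₂ : Divisor K F) (T : Finset (Place K F)) (d : ℕ) :
    ∃ (m : ℕ) (Q : Fin m → Place K F), Function.Injective Q ∧ d ≤ m ∧
      Divisor.degree (s27ppG Q) = m ∧
      (∀ l, Q l ∉ T) ∧ (∀ l, A₁ (Q l) = 0) ∧ (∀ l, A₂ (Q l) = 0) ∧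
      (∀ l i, ¬ S27ptIsCentre W (R i) (Q l)) ∧ (∀ l i, ¬ S27ptIsCentre W (R' i) (Q l)) ∧
      (∀ (f : Module.Basis (Fin N) K ↥(riemannRochSpace A₁)) (q : Fin m → F),
        (∀ l, q l ∈ riemannRochSpace (A₁ + s27ppG Q)) →
        riemannRochSpace (A₁ + s27ppG Q) ≤ Submodule.span K (Set.range (s27le5X f q)) →
        (∀ l, q l ∈ s27ptF W R A₁) ∧
        ∀ ψ ∈ s27ptF W R A₁, ∃ c : Fin N ⊕ Fin m → 𝔏, (∀ j, c j ∈ W) ∧
          ∀ i, R i ψ = ∑ j, R i (s27le5X f q j) * c j) ∧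
      (∀ (f' : Module.Basis (Fin N') K ↥(riemannRochSpace A₂)) (q' : Fin m → F),
        (∀ l, q' l ∈ riemannRochSpace (A₂ + s27ppG Q)) →
        riemannRochSpace (A₂ + s27ppG Q) ≤ Submodule.span K (Set.range (s27le5X f' q')) →
        (∀ l, q' l ∈ s27ptF W R' A₂) ∧
        ∀ ψ ∈ s27ptF W R' A₂, ∃ c : Fin N' ⊕ Fin m → 𝔏, (∀ j, c j ∈ W) ∧
          ∀ i, R' i ψ = ∑ j, R' i (s27le5X f' q' j) * c j) := by
  obtain ⟨m, Q, hQinj, hdm, hdeg, hT, hA₁, hA₂, hC, hC', hle, hle', ⟨φ, hφ, hφG⟩,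
    ⟨φ', hφ', hφG'⟩⟩ := s27lg_main W hW R R' hR hR' A₁ A₂ T d
  refine ⟨m, Q, hQinj, hdm, hdeg, hT, hA₁, hA₂, hC, hC', fun f q hq hy => ⟨fun l => ?_, ?_⟩,
    fun f' q' hq' hy' => ⟨fun l => ?_, ?_⟩⟩
  · exact hle (hq l)
  · exact s27lg_hsurj_X hW hφ hφG f q hy
  · exact hle' (hq' l)
  · exact s27lg_hsurj_X hW hφ' hφG' f' q' hy'

end Main

end Fermat.Agent.S27

end
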