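/-
# S27 route B: **LE-TOP, final wiring** (helper45; double of the LE final assembly)

`S27ftLE hx Ao` (S27/FinalTop.lean) for the constants of S27/Consts.lean (`Ao = G₀ − O″`), from

* LE-a on the stage (helper27, `s27le5_stage`, S27/LE5Stage.lean);
* BRIDGE-TOP (helper24, `s27brt_icCl`): the function `h` of a class equality;
* the two-sided `G` (helper89, `s27lg_main`, S27/LeG.lean);
* `hdim` (helper70, `s27ldm_hdim_basis`, S27/LeDim.lean);
* LE3 on the stage (helper82, `s27l3s_hval`, S27/LE3Stage.lean);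
* LE-CLASS from LE-a (helper74, `s27lezc_ckLE`, S27/LEZeroCls.lean).

Main statements: `s27lfd_lea` (`S27lezcLEa` on the stage `s27stgFL K F L`, any `Ao` of degree
`g − 1`), `s27lfd_ckLE`, `s27lfd_main` (the literal `S27ftLE`).
-/
import Fermat.Agent.S27.LE5Stage
import Fermat.Agent.S27.LE3Stage
import Fermat.Agent.S27.LeG
import Fermat.Agent.S27.LeDim
import Fermat.Agent.S27.BridgeTop
import Fermat.Agent.S27.LEZeroCls
import Fermat.Agent.S27.Consts
import Fermat.Agent.S27.FinalTop

set_option autoImplicit false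
set_option linter.unusedVariables false
set_option linter.unusedSectionVars false
set_option linter.style.haveILetI false

noncomputable section

namespace Fermat.Agent.S27

open AlgebraicCurve Module TensorProduct IntermediateField Fermat.Agent.S26

universe u v

section Stage

variable {K : Type u} {F : Type v} [Field K] [IsAlgClosed K] [CharZero K] [Field F] [Algebra K F]
  [IsCurveOver K F] [Algebra.EssFiniteType K F]
  {L : Type (max u v)} [Field L] [Algebra K L]
  [Algebra (s27gfOm K F (genusFF K F)) L] [IsScalarTower K (s27gfOm K F (genusFF K F)) L]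
  [IsAlgClosed L] [Algebra.IsAlgebraic (s27gfOm K F (genusFF K F)) L]
  {x : F} (hx : Transcendental K x)
  [FiniteDimensional ↥(IntermediateField.adjoin K {x}) F]
  [Algebra.IsSeparable ↥(IntermediateField.adjoin K {x}) F]

/-- **LE-a on the stage**: two tuples of the same class have local equations which differ by a
unit of `W`. -/
theorem s27lfd_lea (Ao : Divisor K F) (hAo : Divisor.degree Ao = (genusFF K F : ℤ) - 1) :
    S27lezcLEa (FL := s27stgFL K F L) (s27stg_hld K F L) (s27stg_hgen K F L) hx Ao := by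
  intro W hW N N' R R' B B' hB hB' hR hR' hcl y y' hy hy'
  classical
  -- the function `h` of the class equality
  obtain ⟨h, hh0, hdiv⟩ := s27brt_icCl (FL := s27stgFL K F L) (s27stg_hld K F L)
    (s27stg_hgen K F L) hx Ao R R' B B' hB hB' hcl
  -- the two-sided `G`
  obtain ⟨m, Q, hQinj, -, -, -, hA₁, hA₂, hC, hC', hle, hle', hlat₁, hlat₂⟩ :=
    s27lg_main W hW R R' hR hR' (B + Ao) (B' + Ao) ∅ 0
  -- uniformisers
  choose π hπ0 hπ using fun l => s27adex_exists_unif (Q l)
  -- the bases of the two sides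
  obtain ⟨f, -, -, -⟩ := id hy
  obtain ⟨f', -, -, -⟩ := id hy'
  haveI := s27ldm_finite x hx (B + Ao + s27ppG Q)
  haveI := s27ldm_finite x hx (B' + Ao + s27ppG Q)
  have hdim₁ := s27ldm_hdim_basis x hx B Ao hB hAo f Q
  have hdim₂ := s27ldm_hdim_basis x hx B' Ao hB' hAo f' Q
  have hQM : ∀ l, ((B + Ao) - (B' + Ao)) (Q l) = 0 := by
    intro l
    rw [Finsupp.sub_apply, hA₁ l, hA₂ l, sub_zero]
  obtain ⟨c, hc, hyc⟩ := s27le5_stage (FL := s27stgFL K F L) (s27stg_hld K F L)
    (s27stg_hgen K F L) (s26gspf_hall hx) hx W hW R R' hR hR' (B + Ao) (B' + Ao)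
    ⟨h, hh0, fun v => (hdiv v).symm⟩ Q hQinj (fun l => by rw [hA₁ l, hA₂ l]) π hπ
    (fun ψ hψ => hle hψ) (fun ψ hψ => hle' hψ) hlat₁ hlat₂ hdim₁ hdim₂
    (fun h' hh' hdiv' c' hc' hnorm l =>
      s27l3s_hval K F hx (s26gspf_hall hx) W hW ((B + Ao) - (B' + Ao)) R R' hR hR' hh' hdiv'
        Q hQM hC hC' c' hc' hnorm l) hy hy'
  refine ⟨c⁻¹, ⟨inv_ne_zero hc.2.2, hc.2.1, by rw [inv_inv]; exact hc.1⟩, ?_⟩
  rw [hyc, ← mul_assoc, inv_mul_cancel₀ hc.2.2, one_mul]

/-- **LE-CLASS on the stage.** -/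
theorem s27lfd_ckLE (Ao : Divisor K F) (hAo : Divisor.degree Ao = (genusFF K F : ℤ) - 1)
    (h0 : riemannRochSpace Ao = ⊥) :
    S27ckLE K (S27icIdx (FL := s27stgFL K F L) (s27stg_hld K F L) (s27stg_hgen K F L) hx Ao) :=
  s27lezc_ckLE (FL := s27stgFL K F L) (s27stg_hld K F L) (s27stg_hgen K F L) hx Ao
    (fun f hf => by rw [h0] at hf; exact (Submodule.mem_bot K).1 hf) (s27lfd_lea hx Ao hAo)

end Stage

section Final

variable {K : Type u} {F : Type v} [Field K] [Field F] [Algebra K F] [IsAlgClosed K] [CharZero K]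
  [IsCurveOver K F] [Algebra.EssFiniteType K F]
  {x : F} (hx : Transcendental K x)
  [FiniteDimensional ↥(IntermediateField.adjoin K {x}) F]
  [Algebra.IsSeparable ↥(IntermediateField.adjoin K {x}) F]

/-- **LE-TOP**: the literal input `S27ftLE` of `s27ft_Stmt` / `s27ft2_Stmt`, for every `Ao` of
degree `g − 1` with `L_K(Ao) = 0`. -/
theorem s27lfd_ftLE (Ao : Divisor K F) (hAo : Divisor.degree Ao = (genusFF K F : ℤ) - 1)
    (h0 : riemannRochSpace Ao = ⊥) : S27ftLE hx Ao :=
  s27lfd_ckLE (L := s27mtL K F) hx Ao hAo h0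

/-- **LE-TOP** for the constants of Consts.lean. -/
theorem s27lfd_main {G₀ : Divisor K F} {O : Place K F} (hc : S27cstIsConst x G₀ O) :
    S27ftLE hx (s27cstAo G₀ O) :=
  s27lfd_ftLE hx _ hc.deg_Ao hc.bot

end Final

end Fermat.Agent.S27
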