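import Fermat.Agent.S27.LeDual

/-!
# S27 route B, LE-ALG: a `W`-basis of the kernel lattice

`E : Matrix ι (ι ⊕ κ) 𝔏` with a minimal minor `σ₀` (`det E_{σ₀} ≠ 0`, every other maximal
minor is a `W`-multiple).  Then the kernel lattice `{p ∈ W^(ι ⊕ κ) | E p = 0}` is free of rank
`|κ|`:

* `s27lk_exists_kerBasis` : `∃ U : Matrix (ι ⊕ κ) κ 𝔏`, `E * U = 0`, entries in `W`, and every
  `p` of the kernel lattice is `U *ᵥ a` with `a` over `W`.
* `s27lk_dual_exists` : hence the DUAL determinant exists and is the point formula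
  (`s27ld_dual` is never vacuous).
-/

namespace Fermat.Agent.S27

open Matrix

section kerBasis

variable {𝔏 : Type*} [Field 𝔏] (W : ValuationSubring 𝔏)
variable {ι κ : Type*} [Fintype ι] [DecidableEq ι] [Fintype κ] [DecidableEq κ]

omit [Fintype κ] [DecidableEq κ] in
theorem s27lk_injective (E : Matrix ι (ι ⊕ κ) 𝔏) (σ₀ : ι → ι ⊕ κ)
    (h0 : (E.submatrix id σ₀).det ≠ 0) : Function.Injective σ₀ := by
  intro k k' hkk
  by_contra hne
  apply h0
  apply Matrix.det_zero_of_column_eq hne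
  intro i
  simp [hkk]

/-- an enumeration of `ι ⊕ κ` whose first block is `σ₀`. -/
theorem s27lk_exists_equiv (σ₀ : ι → ι ⊕ κ) (hσ : Function.Injective σ₀) :
    ∃ e : ι ⊕ κ ≃ ι ⊕ κ, ∀ k, e (Sum.inl k) = σ₀ k := by
  classical
  have hcard : Fintype.card κ = Fintype.card {j : ι ⊕ κ // j ∉ Set.range σ₀} := by
    have h1 : Fintype.card {j : ι ⊕ κ // j ∈ Set.range σ₀} = Fintype.card ι := by
      rw [← Fintype.card_congr (Equiv.ofInjective σ₀ hσ)]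
    have h2 := Fintype.card_subtype_compl (fun j : ι ⊕ κ => j ∈ Set.range σ₀)
    rw [h2, h1, Fintype.card_sum]
    omega
  let τ₀ : κ ≃ {j : ι ⊕ κ // j ∉ Set.range σ₀} := Fintype.equivOfCardEq hcard
  let g : ι ⊕ κ → ι ⊕ κ := Sum.elim σ₀ (fun l => (τ₀ l : ι ⊕ κ))
  have hg : Function.Injective g := by
    rintro (a | a) (b | b) hab
    · exact congrArg Sum.inl (hσ hab)
    · exfalso
      exact (τ₀ b).2 ⟨a, hab⟩
    · exfalso
      exact (τ₀ a).2 ⟨b, hab.symm⟩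
    · have : τ₀ a = τ₀ b := Subtype.ext hab
      exact congrArg Sum.inr (τ₀.injective this)
  exact ⟨Equiv.ofBijective g (Finite.injective_iff_bijective.mp hg), fun k => rfl⟩

theorem s27lk_exists_kerBasis (E : Matrix ι (ι ⊕ κ) 𝔏)
    (σ₀ : ι → ι ⊕ κ) (h0 : (E.submatrix id σ₀).det ≠ 0)
    (hmin : ∀ σ : ι → ι ⊕ κ, (E.submatrix id σ).det / (E.submatrix id σ₀).det ∈ W) :
    ∃ U : Matrix (ι ⊕ κ) κ 𝔏, E * U = 0 ∧ (∀ j l, U j l ∈ W) ∧
      ∀ p : ι ⊕ κ → 𝔏, E *ᵥ p = 0 → (∀ j, p j ∈ W) →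
        ∃ a : κ → 𝔏, (∀ l, a l ∈ W) ∧ p = U *ᵥ a := by
  classical
  set A₀ : Matrix ι ι 𝔏 := E.submatrix id σ₀ with hA₀
  have hu : IsUnit A₀.det := isUnit_iff_ne_zero.mpr h0
  have hcr : ∀ j : ι ⊕ κ, ∃ c : ι → 𝔏, (∀ k, c k ∈ W) ∧
      (fun i => E i j) = ∑ k, c k • (fun i => E i (σ₀ k)) :=
    fun j => s27dm_span W (fun j i => E i j) σ₀ h0 hmin j
  choose c hcW hc using hcr
  let Cm : Matrix ι (ι ⊕ κ) 𝔏 := Matrix.of fun k j => c j k
  have hE : E = A₀ * Cm := by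
    ext i j
    have h1 := congrFun (hc j) i
    simp only [Finset.sum_apply, Pi.smul_apply, smul_eq_mul] at h1
    rw [h1, Matrix.mul_apply]
    refine Finset.sum_congr rfl fun k _ => ?_
    simp [hA₀, Cm, mul_comm]
  have hCm : Cm = A₀⁻¹ * E := by
    rw [hE, ← Matrix.mul_assoc, Matrix.nonsing_inv_mul _ hu, Matrix.one_mul]
  let P₀ : Matrix (ι ⊕ κ) ι 𝔏 := Matrix.of fun j k => if j = σ₀ k then 1 else 0
  have hEP₀ : E * P₀ = A₀ := by
    ext i k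
    simp [P₀, Matrix.mul_apply, hA₀]
  have hCmP₀ : Cm * P₀ = 1 := by
    rw [hCm, Matrix.mul_assoc, hEP₀, Matrix.nonsing_inv_mul _ hu]
  have hP₀W : ∀ j k, P₀ j k ∈ W := by
    intro j k
    simp only [P₀, Matrix.of_apply]
    split_ifs
    · exact W.one_mem
    · exact W.zero_mem
  let Z : Matrix (ι ⊕ κ) (ι ⊕ κ) 𝔏 := 1 - P₀ * Cm
  have hEZ : E * Z = 0 := by
    show E * (1 - P₀ * Cm) = 0
    rw [Matrix.mul_sub, Matrix.mul_one, ← Matrix.mul_assoc, hEP₀, ← hE, sub_self]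
  have hZW : ∀ j j', Z j j' ∈ W := by
    intro j j'
    show (1 - P₀ * Cm : Matrix (ι ⊕ κ) (ι ⊕ κ) 𝔏) j j' ∈ W
    rw [Matrix.sub_apply]
    refine sub_mem ?_ ?_
    · rw [Matrix.one_apply]
      split_ifs
      · exact W.one_mem
      · exact W.zero_mem
    · rw [Matrix.mul_apply]
      exact Subring.sum_mem W.toSubring fun k _ => W.mul_mem _ _ (hP₀W j k) (hcW j' k)
  have hZP₀ : Z * P₀ = 0 := by
    show (1 - P₀ * Cm) * P₀ = 0
    rw [Matrix.sub_mul, Matrix.one_mul, Matrix.mul_assoc, hCmP₀, Matrix.mul_one, sub_self]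
  obtain ⟨e, he⟩ := s27lk_exists_equiv σ₀ (s27lk_injective E σ₀ h0)
  refine ⟨Z.submatrix id (fun l => e (Sum.inr l)), ?_, fun j l => hZW _ _, ?_⟩
  · ext i l
    have h1 := congrFun (congrFun hEZ i) (e (Sum.inr l))
    simpa [Matrix.mul_apply] using h1
  · intro p hp hpW
    refine ⟨fun l => p (e (Sum.inr l)), fun l => hpW _, ?_⟩
    have hCp : Cm *ᵥ p = 0 := by
      rw [hCm, ← Matrix.mulVec_mulVec, hp, Matrix.mulVec_zero]
    have hZp : Z *ᵥ p = p := by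
      show (1 - P₀ * Cm) *ᵥ p = p
      rw [Matrix.sub_mulVec, Matrix.one_mulVec, ← Matrix.mulVec_mulVec, hCp,
        Matrix.mulVec_zero, sub_zero]
    have hcol : ∀ j k, Z j (σ₀ k) = 0 := by
      intro j k
      have h1 := congrFun (congrFun hZP₀ j) k
      simpa [P₀, Matrix.mul_apply] using h1
    funext j
    conv_lhs => rw [← hZp]
    simp only [Matrix.mulVec, dotProduct, Matrix.submatrix_apply, id]
    rw [← Equiv.sum_comp e (fun j' => Z j j' * p j'), Fintype.sum_sum_type]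
    have hz : ∑ k : ι, Z j (e (Sum.inl k)) * p (e (Sum.inl k)) = 0 := by
      refine Finset.sum_eq_zero fun k _ => ?_
      rw [he k, hcol j k, zero_mul]
    rw [hz, zero_add]

/-- the DUAL determinant exists and is the point formula. -/
theorem s27lk_dual_exists (E : Matrix ι (ι ⊕ κ) 𝔏)
    (σ₀ : ι → ι ⊕ κ) (h0 : (E.submatrix id σ₀).det ≠ 0)
    (hmin : ∀ σ : ι → ι ⊕ κ, (E.submatrix id σ).det / (E.submatrix id σ₀).det ∈ W) :
    ∃ U : Matrix (ι ⊕ κ) κ 𝔏, E * U = 0 ∧ (∀ j l, U j l ∈ W) ∧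
      (∀ p : ι ⊕ κ → 𝔏, E *ᵥ p = 0 → (∀ j, p j ∈ W) →
        ∃ a : κ → 𝔏, (∀ l, a l ∈ W) ∧ p = U *ᵥ a) ∧
      ∃ c : 𝔏, S27ldUnit W c ∧ (U.submatrix Sum.inr id).det
        = c * ((E.submatrix id Sum.inl).det / (E.submatrix id σ₀).det) := by
  obtain ⟨U, h1, h2, h3⟩ := s27lk_exists_kerBasis W E σ₀ h0 hmin
  exact ⟨U, h1, h2, h3, s27ld_dual W E U h2 h3 σ₀ h0 hmin⟩

end kerBasis

end Fermat.Agent.S27
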