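/-
S27-B, crux LE(b), LE-TOP rows 5 + 6 **TWO-SIDED** (helper24): the LB2 inputs of `s27le5_frame`
(`S27/LE5Frame.lean`) in their LITERAL shape, for BOTH sides with the SAME local equations.

Frame of `S27/Bridge.lean`; `K` algebraically closed, `A₁`, `A₂` constant divisors with `K`-bases
`f : Fin N`, `f' : Fin N'` of `L_K(A₁)`, `L_K(A₂)` and `deg A₁ = N + g − 1`, `deg A₂ = N' + g − 1`
(non-special), `Q : κ → Place K 𝔠` DISTINCT places OFF `supp (A₁ − A₂)` (`A₁ (Q l) = A₂ (Q l)`),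
`G = s27ppG Q = Σ_l Q_l`.

* `s27lt2_eq`   : the local equations of `A₁ + G` and `A₂ + G` at the `Q l` coincide;
* `s27lt2_main` : `∃ π b b'`, `b`, `b'` `K`-bases of `L_K(A₁ + G)`, `L_K(A₂ + G)` extending `f`, `f'`
                  and BOTH adapted at `(Con (Q l), π l)` — the hypotheses `b b' hb hb' 𝒪 π hc hxa hxa'`
                  of `s27le5_frame`.
-/
import Fermat.Agent.S27.LeLeadInst
import Fermat.Agent.S27.RR0Dim

set_option autoImplicit false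
set_option linter.style.haveILetI false
set_option linter.unusedSectionVars false
set_option linter.unusedVariables false
set_option linter.style.longLine false

noncomputable section

namespace Fermat.Agent.S27

open AlgebraicCurve Module IntermediateField Fermat.Agent.S24 Fermat.Agent.S26

variable {K 𝔠 𝔎 Ω : Type*} [Field K] [Field 𝔠] [Field 𝔎] [Field Ω]
  [Algebra K 𝔠] [Algebra K 𝔎] [Algebra K Ω] [Algebra 𝔠 Ω] [Algebra 𝔎 Ω]
  [IsScalarTower K 𝔠 Ω] [IsScalarTower K 𝔎 Ω]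

variable {κ : Type*} [Fintype κ] [DecidableEq κ]

/-- off `supp (A₁ − A₂)` the local equations of `A₁ + G` and `A₂ + G` coincide. -/
theorem s27lt2_eq (A₁ A₂ : Divisor K 𝔠) (Q : κ → Place K 𝔠) (π : κ → 𝔠)
    (hoff : ∀ l, A₁ (Q l) = A₂ (Q l)) : s27lliEq A₁ Q π = s27lliEq A₂ Q π := by
  funext l
  unfold s27lliEq
  rw [Finsupp.add_apply, Finsupp.add_apply, hoff l]

variable (hld : Function.Injective (s26gspMu K 𝔠 𝔎 Ω)) (hgen : S26gspGen K 𝔠 𝔎 Ω)
  (hall : ∀ P : Place K 𝔠, Function.Surjective (algebraMap K P.ResidueField))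

/-- **rows 5 + 6 of LE-TOP, two-sided**: the LB2 hypotheses of `s27le5_frame`. -/
theorem s27lt2_main [IsAlgClosed K] (x : 𝔠) (hx : Transcendental K x)
    [FiniteDimensional K⟮x⟯ 𝔠] (A₁ A₂ : Divisor K 𝔠) {N N' : ℕ}
    (f : Basis (Fin N) K ↥(riemannRochSpace A₁)) (f' : Basis (Fin N') K ↥(riemannRochSpace A₂))
    (hN : Divisor.degree A₁ = N + genusFF K 𝔠 - 1)
    (hN' : Divisor.degree A₂ = N' + genusFF K 𝔠 - 1)
    (Q : κ → Place K 𝔠) (hQ : Function.Injective Q) (hoff : ∀ l, A₁ (Q l) = A₂ (Q l)) :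
    ∃ (π : κ → Ω) (b : Basis (Fin N ⊕ κ) K ↥(riemannRochSpace (A₁ + s27ppG Q)))
      (b' : Basis (Fin N' ⊕ κ) K ↥(riemannRochSpace (A₂ + s27ppG Q))),
      (∀ i, ((b (Sum.inl i) : ↥(riemannRochSpace (A₁ + s27ppG Q))) : 𝔠)
        = ((f i : ↥(riemannRochSpace A₁)) : 𝔠)) ∧
      (∀ i, ((b' (Sum.inl i) : ↥(riemannRochSpace (A₂ + s27ppG Q))) : 𝔠)
        = ((f' i : ↥(riemannRochSpace A₂)) : 𝔠)) ∧
      (∀ (l : κ) (c : 𝔎),
        algebraMap 𝔎 Ω c ∈ (s26gspCon hld hgen hall (Q l)).toValuationSubring) ∧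
      S27llAdapted (𝔏 := 𝔎) (fun l => (s26gspCon hld hgen hall (Q l)).toValuationSubring) π
        (fun j => algebraMap 𝔠 Ω ((b j : ↥(riemannRochSpace (A₁ + s27ppG Q))) : 𝔠)) ∧
      S27llAdapted (𝔏 := 𝔎) (fun l => (s26gspCon hld hgen hall (Q l)).toValuationSubring) π
        (fun j => algebraMap 𝔠 Ω ((b' j : ↥(riemannRochSpace (A₂ + s27ppG Q))) : 𝔠)) := by
  classical
  have hu : ∀ l, ∃ t : 𝔠, (Q l).ord t = 1 := fun l => place_exists_ord_eq_one (Q l)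
  choose π₀ hπ₀ using hu
  obtain ⟨hfin, hdim⟩ := s27rd_hdim x hx A₁ f hN Q
  obtain ⟨hfin', hdim'⟩ := s27rd_hdim x hx A₂ f' hN' Q
  haveI := hfin
  haveI := hfin'
  obtain ⟨b, hb, hxa⟩ := s27lli_exists_basis_con hld hgen hall A₁ hQ π₀ hπ₀ hdim f
  obtain ⟨b', hb', hxa'⟩ := s27lli_exists_basis_con hld hgen hall A₂ hQ π₀ hπ₀ hdim' f'
  refine ⟨fun l => algebraMap 𝔠 Ω (s27lliEq A₁ Q π₀ l), b, b', hb, hb',
    fun l c => s27lli_const_mem hld hgen hall Q l c, hxa, ?_⟩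
  rw [s27lt2_eq A₁ A₂ Q π₀ hoff]
  exact hxa'

end Fermat.Agent.S27

end
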