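/-
S27 route B, LE(b) leaf LB3 UNIT (helper33; hub helper60): in the S26 E-RED frame
(`R : DEU.RedData K F k Fb`, `R.A ⊂ K` the valuation ring `W` of the constants, `R.O ⊂ F` the
Gauss ring, `r : Place K F → Place k Fb` a reduction of places with `s26eredev_RDiv R r`):

  a Gauss-normalised function `h̃ ∈ O` (`R.red h̃ ≠ 0`) none of whose ZEROS or POLES reduces to
  `r P` (`P` a place of degree one) has a value `h̃(P) ∈ Wˣ`, and `h̃(P)‾ = (red h̃)(r P) ≠ 0`.

* `s27lb3_unit`        : the main statement (`∃ a, …`);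
* `s27lb3_unit_value`  : for a given value `a = h̃(P)` (no degree hypothesis on `P`);
* `s27lb3_isUnit`      : `IsUnit (⟨a, _⟩ : R.A)`;
* `s27lb3_scale`       : for ANY `h ≠ 0` in `F` there is `c ≠ 0` with `h̃ = c·h` normalised; if no
  zero/pole of `h` reduces to `r P` then `c·h(P) ∈ Wˣ`;
* `s27lb3_ratio`       : for two such places `P`, `P′` the ratio `h(P)/h(P′)` is a unit of `W`
  (independent of the normalisation `c`).
-/
import Fermat.Agent.S26.ERedEval

set_option autoImplicit false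
set_option linter.unusedVariables false
set_option linter.unusedSectionVars false

namespace Fermat.Agent.S27

open AlgebraicCurve Fermat.Agent.S26 Fermat.Agent.S24 Fermat.Agent.DEU

variable {K F k Fb : Type*} [Field K] [Field F] [Algebra K F] [Field k] [Field Fb]
  [Algebra k Fb] {R : RedData K F k Fb} {r : Place K F → Place k Fb}

/-- the value of the inverse -/
theorem s27lb3_value_inv (P : Place K F) {f : F} {a b : K}
    (ha : s26eredev_HasValueAt P f a) (hb : s26eredev_HasValueAt P f⁻¹ b) (hf : f ≠ 0) :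
    a * b = 1 := by
  have h1 := s26eredev_hasValueAt_mul P ha hb
  rw [mul_inv_cancel₀ hf] at h1
  have h2 : s26eredev_HasValueAt P (1 : F) (1 : K) := by
    have := s26eredev_hasValueAt_const P (1 : K)
    rwa [map_one] at this
  exact s26eredev_hasValueAt_unique P h1 h2

/-- **LB3, with given values**: `f ∈ O` normalised, no zero and no pole of `f` reduces to `r P`,
`f(P) = a`, `f⁻¹(P) = b`: then `a ∈ Wˣ` (`a, a⁻¹ ∈ A`), and `ā` is the value of `f̄` at `r P`. -/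
theorem s27lb3_unit_value (hR : s26eredev_RDiv R r) (hpd : HasPrincipalDivisors K F)
    (f : R.O) (hf : R.red f ≠ 0) (P : Place K F)
    (hno : ∀ P' : Place K F, P'.ord (f : F) ≠ 0 → r P' ≠ r P)
    {a b : K} (ha : s26eredev_HasValueAt P (f : F) a)
    (hb : s26eredev_HasValueAt P ((f : F))⁻¹ b) :
    a ≠ 0 ∧ b = a⁻¹ ∧ a⁻¹ ∈ R.A ∧ ∃ haA : a ∈ R.A,
      s26eredev_HasValueAt (r P) (R.red f) (R.res ⟨a, haA⟩) ∧ R.res ⟨a, haA⟩ ≠ 0 := by
  have hf0 : (f : F) ≠ 0 := s26eredev_coe_ne_zero hf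
  have hab : a * b = 1 := s27lb3_value_inv P ha hb hf0
  have ha0 : a ≠ 0 := left_ne_zero_of_mul_eq_one hab
  have hba : b = a⁻¹ := eq_inv_of_mul_eq_one_right hab
  obtain ⟨haA, hval⟩ := s26eredev_eval_value hR hpd f P
    (fun P' h => hno P' (ne_of_lt h)) ha
  have hnoi : ∀ P' : Place K F, P'.ord ((R.inv f hf : R.O) : F) < 0 → r P' ≠ r P := by
    intro P' h
    apply hno P'
    rw [RedData.coe_inv, Place.ord_inv] at h
    intro h0
    rw [h0] at h
    exact absurd h (by norm_num)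
  have hb' : s26eredev_HasValueAt P ((R.inv f hf : R.O) : F) b := by
    rw [RedData.coe_inv]
    exact hb
  obtain ⟨hbA, -⟩ := s26eredev_eval_value hR hpd (R.inv f hf) P hnoi hb'
  refine ⟨ha0, hba, hba ▸ hbA, haA, hval, ?_⟩
  intro h0
  have h1 : (⟨a, haA⟩ : R.A) * ⟨b, hbA⟩ = 1 := Subtype.ext hab
  have h2 := congrArg R.res h1
  rw [map_mul, h0, zero_mul, map_one] at h2
  exact zero_ne_one h2

/-- **LB3 (UNIT)**: `f ∈ O` normalised, `P` of degree one, no zero and no pole of `f` reduces to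
`r P`  ⇒  `f(P) ∈ Wˣ`, and `f(P)‾ = f̄(r P) ≠ 0`. -/
theorem s27lb3_unit (hR : s26eredev_RDiv R r) (hpd : HasPrincipalDivisors K F)
    (f : R.O) (hf : R.red f ≠ 0) (P : Place K F)
    (hresP : Function.Surjective (algebraMap K P.ResidueField))
    (hno : ∀ P' : Place K F, P'.ord (f : F) ≠ 0 → r P' ≠ r P) :
    ∃ a : K, s26eredev_HasValueAt P (f : F) a ∧ s26eredev_HasValueAt P ((f : F))⁻¹ a⁻¹ ∧
      a ≠ 0 ∧ a⁻¹ ∈ R.A ∧ ∃ haA : a ∈ R.A,
        s26eredev_HasValueAt (r P) (R.red f) (R.res ⟨a, haA⟩) ∧ R.res ⟨a, haA⟩ ≠ 0 := by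
  have hreg : (f : F) ∈ P.toValuationSubring :=
    s26eredev_mem_of_not_ord_neg P fun h => hno P (ne_of_lt h) rfl
  have hregi : ((f : F))⁻¹ ∈ P.toValuationSubring :=
    s26eredev_mem_of_not_ord_neg P fun h => by
      rw [Place.ord_inv] at h
      exact hno P (fun h0 => by rw [h0] at h; exact absurd h (by norm_num)) rfl
  obtain ⟨a, ha⟩ := s26eredev_exists_value P hresP hreg
  obtain ⟨b, hb⟩ := s26eredev_exists_value P hresP hregi
  obtain ⟨ha0, hba, hinv, haA, hval, hres⟩ := s27lb3_unit_value hR hpd f hf P hno ha hb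
  exact ⟨a, ha, hba ▸ hb, ha0, hinv, haA, hval, hres⟩

/-- the value is a unit of the valuation ring `A = W` -/
theorem s27lb3_isUnit (hR : s26eredev_RDiv R r) (hpd : HasPrincipalDivisors K F)
    (f : R.O) (hf : R.red f ≠ 0) (P : Place K F)
    (hresP : Function.Surjective (algebraMap K P.ResidueField))
    (hno : ∀ P' : Place K F, P'.ord (f : F) ≠ 0 → r P' ≠ r P) :
    ∃ a : R.A, IsUnit a ∧ s26eredev_HasValueAt P (f : F) (a : K) ∧
      s26eredev_HasValueAt (r P) (R.red f) (R.res a) := by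
  obtain ⟨a, ha, -, ha0, hinv, haA, hval, -⟩ := s27lb3_unit hR hpd f hf P hresP hno
  refine ⟨⟨a, haA⟩, ?_, ha, hval⟩
  rw [isUnit_iff_exists_inv]
  exact ⟨⟨a⁻¹, hinv⟩, Subtype.ext (mul_inv_cancel₀ ha0)⟩

/-- **LB3 for an arbitrary function**: `h ≠ 0` in `F`; there is a normalisation `c ≠ 0`
(`c·h ∈ O`, `red (c·h) ≠ 0`) such that for EVERY place `P` of degree one to which no zero and
no pole of `h` reduces, `c · h(P) ∈ Wˣ`. -/
theorem s27lb3_scale (hR : s26eredev_RDiv R r) (hpd : HasPrincipalDivisors K F)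
    (h : F) (hh : h ≠ 0) :
    ∃ c : K, c ≠ 0 ∧ ∃ hc : algebraMap K F c * h ∈ R.O, R.red ⟨algebraMap K F c * h, hc⟩ ≠ 0 ∧
      ∀ P : Place K F, Function.Surjective (algebraMap K P.ResidueField) →
        (∀ P' : Place K F, P'.ord h ≠ 0 → r P' ≠ r P) →
        ∃ a : K, s26eredev_HasValueAt P h a ∧ a ≠ 0 ∧ c * a ∈ R.A ∧ (c * a)⁻¹ ∈ R.A := by
  obtain ⟨c, hc0, hc, hred⟩ := R.exists_scale h hh
  refine ⟨c, hc0, hc, hred, ?_⟩
  intro P hresP hno
  have hcF : algebraMap K F c ≠ 0 := (map_ne_zero _).2 hc0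
  have hord : ∀ P' : Place K F, P'.ord (algebraMap K F c * h) = P'.ord h := by
    intro P'
    rw [Place.ord_mul P' hcF hh, PlaceAux.ord_algebraMap P' c, zero_add]
  have hno' : ∀ P' : Place K F,
      P'.ord ((⟨algebraMap K F c * h, hc⟩ : R.O) : F) ≠ 0 → r P' ≠ r P := by
    intro P' hP'
    apply hno P'
    rwa [← hord P']
  obtain ⟨a', ha', -, ha'0, hinv, haA, -, -⟩ :=
    s27lb3_unit hR hpd ⟨algebraMap K F c * h, hc⟩ hred P hresP hno'
  refine ⟨c⁻¹ * a', ?_, mul_ne_zero (inv_ne_zero hc0) ha'0, ?_, ?_⟩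
  · have h1 := s26eredev_hasValueAt_mul P (s26eredev_hasValueAt_const P c⁻¹) ha'
    have h2 : algebraMap K F c⁻¹ * (algebraMap K F c * h) = h := by
      rw [← mul_assoc, ← map_mul, inv_mul_cancel₀ hc0, map_one, one_mul]
    rw [h2] at h1
    exact h1
  · rw [← mul_assoc, mul_inv_cancel₀ hc0, one_mul]
    exact haA
  · rw [← mul_assoc, mul_inv_cancel₀ hc0, one_mul]
    exact hinv

/-- **the ratio of two values is a unit**: `h ≠ 0`, `P`, `P′` two places of degree one to which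
no zero and no pole of `h` reduces: `h(P) / h(P′) ∈ Wˣ` (no normalisation needed). -/
theorem s27lb3_ratio (hR : s26eredev_RDiv R r) (hpd : HasPrincipalDivisors K F)
    (h : F) (hh : h ≠ 0) (P P₁ : Place K F)
    (hresP : Function.Surjective (algebraMap K P.ResidueField))
    (hresP₁ : Function.Surjective (algebraMap K P₁.ResidueField))
    (hno : ∀ P' : Place K F, P'.ord h ≠ 0 → r P' ≠ r P)
    (hno₁ : ∀ P' : Place K F, P'.ord h ≠ 0 → r P' ≠ r P₁)
    {a a₁ : K} (ha : s26eredev_HasValueAt P h a) (ha₁ : s26eredev_HasValueAt P₁ h a₁) :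
    a ≠ 0 ∧ a₁ ≠ 0 ∧ a / a₁ ∈ R.A ∧ a₁ / a ∈ R.A := by
  obtain ⟨c, hc0, hc, hred, hall⟩ := s27lb3_scale hR hpd h hh
  obtain ⟨b, hb, hb0, hbA, hbi⟩ := hall P hresP hno
  obtain ⟨b₁, hb₁, hb₁0, hb₁A, hb₁i⟩ := hall P₁ hresP₁ hno₁
  have e : a = b := s26eredev_hasValueAt_unique P ha hb
  have e₁ : a₁ = b₁ := s26eredev_hasValueAt_unique P₁ ha₁ hb₁
  subst e
  subst e₁
  refine ⟨hb0, hb₁0, ?_, ?_⟩
  · have h1 := R.A.mul_mem _ _ hbA hb₁i
    have h2 : c * a * (c * a₁)⁻¹ = a / a₁ := by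
      field_simp
    rwa [h2] at h1
  · have h1 := R.A.mul_mem _ _ hb₁A hbi
    have h2 : c * a₁ * (c * a)⁻¹ = a₁ / a := by
      field_simp
    rwa [h2] at h1

end Fermat.Agent.S27
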