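/-
S27-B — leaf LE4 (TAILS), helper89.  Blueprint NOTES/S27-LE.md (LE4) = LB2 of helper60's LE note, in the
ELEMENTARY frame (tensor product `𝔏 ⊗[K] F`, no places of the extended function field).

`G = Σ_j Q_j` REDUCED (distinct `K`-rational points), so the Laurent tails at `G` are the LEADING COEFFICIENTS
`λ_j(x) = (a_j · x)(Q_j)`, `a_j` a local equation (`ord_{Q_j} a_j = B(Q_j) + 1`).

ABSTRACT FORM (this file, Mathlib only + `S27ldUnit` of LeDual.lean):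
* `F` ANY commutative `K`-algebra, `O j ⊆ F` subalgebras ("regular at `Q_j`") with `K`-points `ε j : O j →ₐ[K] K`;
* `s27tlIncl O : 𝔏 ⊗[K] O →ₐ[𝔏] 𝔏 ⊗[K] F` (injective), `s27tlEv O ε : 𝔏 ⊗[K] O →ₐ[𝔏] 𝔏` (`c ⊗ f ↦ c · f(Q)`);
* `s27tl_mul` : `w₁ · s' = u₁ · s` and `a s, a s'` regular  ⇒  `w₁(Q) · (a s')(Q) = u₁(Q) · (a s)(Q)`;
* **`s27tl_hMU`** : the hypothesis `hMU` of `s27ld_le_core` (LeDual.lean):
     `U'.submatrix Sum.inr id = M * U.submatrix Sum.inr id`,  `det M ∈ Wˣ`,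
  with `M = T'⁻¹ · diag(u₁(Q_j) / w₁(Q_j)) · T`, `T = [λ_j (x (inr l))]` (over `K`).
-/
import Fermat.Agent.S27.LeDual
import Mathlib.RingTheory.Flat.Basic
import Mathlib.RingTheory.TensorProduct.Maps

set_option autoImplicit false

noncomputable section

namespace Fermat.Agent.S27

open TensorProduct Matrix

universe u v w

section Abstract

variable {K : Type u} [Field K] {F : Type v} [CommRing F] [Algebra K F]
  {𝔏 : Type w} [Field 𝔏] [Algebra K 𝔏]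

/-- `𝔏 ⊗[K] O → 𝔏 ⊗[K] F`. -/
def s27tlIncl (O : Subalgebra K F) : 𝔏 ⊗[K] O →ₐ[𝔏] 𝔏 ⊗[K] F :=
  Algebra.TensorProduct.map (AlgHom.id 𝔏 𝔏) O.val

@[simp] theorem s27tlIncl_tmul (O : Subalgebra K F) (c : 𝔏) (f : O) :
    s27tlIncl (𝔏 := 𝔏) O (c ⊗ₜ[K] f) = c ⊗ₜ[K] (f : F) := rfl

theorem s27tlIncl_injective (O : Subalgebra K F) :
    Function.Injective (s27tlIncl (𝔏 := 𝔏) O) := by
  have h := TensorProduct.map_injective_of_flat_flat (LinearMap.id : 𝔏 →ₗ[K] 𝔏)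
    (O.val.toLinearMap) (fun _ _ h => h) Subtype.val_injective
  intro a b hab
  apply h
  have e : ∀ z : 𝔏 ⊗[K] O, TensorProduct.map (LinearMap.id : 𝔏 →ₗ[K] 𝔏) (O.val.toLinearMap) z =
      s27tlIncl (𝔏 := 𝔏) O z := by
    intro z
    induction z using TensorProduct.induction_on with
    | zero => simp
    | tmul c f => rfl
    | add y z hy hz => rw [map_add, map_add, hy, hz]
  rw [e, e, hab]

/-- the evaluation `𝔏 ⊗[K] O → 𝔏`, `c ⊗ f ↦ c · ε f`. -/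
def s27tlEv (O : Subalgebra K F) (ε : O →ₐ[K] K) : 𝔏 ⊗[K] O →ₐ[𝔏] 𝔏 :=
  Algebra.TensorProduct.lift (AlgHom.id 𝔏 𝔏) ((Algebra.ofId K 𝔏).comp ε)
    (fun _ _ => Commute.all _ _)

@[simp] theorem s27tlEv_tmul (O : Subalgebra K F) (ε : O →ₐ[K] K) (c : 𝔏) (f : O) :
    s27tlEv (𝔏 := 𝔏) O ε (c ⊗ₜ[K] f) = c * algebraMap K 𝔏 (ε f) := by
  unfold s27tlEv
  rw [Algebra.TensorProduct.lift_tmul]
  rfl

/-- **multiplicativity of the leading coefficient**: if `w₁ · s' = u₁ · s` in `𝔏 ⊗ F`, `u₁, w₁` regular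
at `Q`, and `a · s = σ`, `a · s' = σ'` are regular at `Q`, then `w₁(Q) · σ'(Q) = u₁(Q) · σ(Q)`. -/
theorem s27tl_mul (O : Subalgebra K F) (ε : O →ₐ[K] K) (u₁ w₁ σ σ' : 𝔏 ⊗[K] O)
    (a s s' : 𝔏 ⊗[K] F)
    (hσ : s27tlIncl O σ = a * s) (hσ' : s27tlIncl O σ' = a * s')
    (h : s27tlIncl O w₁ * s' = s27tlIncl O u₁ * s) :
    s27tlEv O ε w₁ * s27tlEv O ε σ' = s27tlEv O ε u₁ * s27tlEv O ε σ := by
  have key : w₁ * σ' = u₁ * σ := by
    apply s27tlIncl_injective O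
    rw [map_mul, map_mul, hσ, hσ']
    linear_combination a * h
  rw [← map_mul, ← map_mul, key]

/-- a section with coefficients `p` in the family `x`, multiplied by `a`, as an element of
`𝔏 ⊗ O` (when all `a · x i` are regular). -/
def s27tlSec {ι : Type*} [Fintype ι] (O : Subalgebra K F) (a : F) (x : ι → F)
    (hx : ∀ i, a * x i ∈ O) (p : ι → 𝔏) : 𝔏 ⊗[K] O :=
  ∑ i, p i ⊗ₜ[K] (⟨a * x i, hx i⟩ : O)

theorem s27tlSec_incl {ι : Type*} [Fintype ι] (O : Subalgebra K F) (a : F) (x : ι → F)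
    (hx : ∀ i, a * x i ∈ O) (p : ι → 𝔏) :
    s27tlIncl O (s27tlSec O a x hx p) = ((1 : 𝔏) ⊗ₜ[K] a) * ∑ i, p i ⊗ₜ[K] x i := by
  unfold s27tlSec
  rw [map_sum, Finset.mul_sum]
  refine Finset.sum_congr rfl fun i _ => ?_
  rw [s27tlIncl_tmul, Algebra.TensorProduct.tmul_mul_tmul, one_mul]

theorem s27tlSec_ev {ι : Type*} [Fintype ι] (O : Subalgebra K F) (ε : O →ₐ[K] K) (a : F)
    (x : ι → F) (hx : ∀ i, a * x i ∈ O) (p : ι → 𝔏) :
    s27tlEv O ε (s27tlSec O a x hx p) = ∑ i, p i * algebraMap K 𝔏 (ε ⟨a * x i, hx i⟩) := by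
  unfold s27tlSec
  rw [map_sum]
  refine Finset.sum_congr rfl fun i _ => ?_
  rw [s27tlEv_tmul]

variable {ι ι' κ : Type*} [Fintype ι] [Fintype ι'] [Fintype κ]
  [DecidableEq ι] [DecidableEq ι'] [DecidableEq κ]

/-- the matrix of leading coefficients `T j l = (a_j · x (inr l))(Q_j)` (over `K`). -/
def s27tlT (O : κ → Subalgebra K F) (ε : ∀ j, O j →ₐ[K] K) (a : κ → F) (x : ι ⊕ κ → F)
    (hx : ∀ j i, a j * x i ∈ O j) : Matrix κ κ K :=
  Matrix.of fun j l => ε j ⟨a j * x (Sum.inr l), hx j _⟩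

theorem s27tl_unit_algebraMap (W : ValuationSubring 𝔏) (hW : ∀ c : K, algebraMap K 𝔏 c ∈ W)
    {c : K} (hc : c ≠ 0) : S27ldUnit W (algebraMap K 𝔏 c) :=
  ⟨hW c, by rw [← map_inv₀]; exact hW _, fun h => hc ((map_eq_zero _).1 h)⟩

theorem s27tl_unit_prod (W : ValuationSubring 𝔏) (d : κ → 𝔏) (hd : ∀ j, S27ldUnit W (d j)) :
    S27ldUnit W (∏ j, d j) := by
  classical
  have : ∀ s : Finset κ, S27ldUnit W (∏ j ∈ s, d j) := by
    intro s
    induction s using Finset.induction_on with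
    | empty => simpa using s27ld_unit_one W
    | insert j s hj ih =>
      rw [Finset.prod_insert hj]
      exact s27ld_unit_mul W (hd j) ih
  exact this Finset.univ

/-- the leading coefficient of a section in terms of its `q`-coordinates. -/
theorem s27tl_ev_eq (O : κ → Subalgebra K F) (ε : ∀ j, O j →ₐ[K] K) (a : κ → F)
    (x : ι ⊕ κ → F) (hx : ∀ j i, a j * x i ∈ O j)
    (hx0 : ∀ j i, ε j ⟨a j * x (Sum.inl i), hx j _⟩ = 0)
    (U : Matrix (ι ⊕ κ) κ 𝔏) (j l : κ) :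
    s27tlEv (O j) (ε j) (s27tlSec (O j) (a j) x (hx j) (fun i => U i l)) =
      (((s27tlT O ε a x hx).map (algebraMap K 𝔏)) * U.submatrix Sum.inr id) j l := by
  rw [s27tlSec_ev, Fintype.sum_sum_type, Matrix.mul_apply]
  have h0 : ∑ i : ι, U (Sum.inl i) l * algebraMap K 𝔏 (ε j ⟨a j * x (Sum.inl i), hx j _⟩) = 0 := by
    refine Finset.sum_eq_zero fun i _ => ?_
    rw [hx0 j i, map_zero, mul_zero]
  rw [h0, zero_add]
  refine Finset.sum_congr rfl fun l' _ => ?_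
  rw [mul_comm]
  rfl

/-- **LE4 (tails), reduced `G`**: the `q`-coordinates (principal parts at `G`) of the two kernel bases
related by `h = u₁ / w₁` differ by a matrix `M` with `det M ∈ Wˣ`: the hypothesis `hMU` of
`s27ld_le_core`. -/
theorem s27tl_hMU (W : ValuationSubring 𝔏) (hW : ∀ c : K, algebraMap K 𝔏 c ∈ W)
    (O : κ → Subalgebra K F) (ε : ∀ j, O j →ₐ[K] K) (a : κ → F)
    (x : ι ⊕ κ → F) (x' : ι' ⊕ κ → F)
    (hx : ∀ j i, a j * x i ∈ O j) (hx' : ∀ j i, a j * x' i ∈ O j)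
    (hx0 : ∀ j i, ε j ⟨a j * x (Sum.inl i), hx j _⟩ = 0)
    (hx0' : ∀ j i, ε j ⟨a j * x' (Sum.inl i), hx' j _⟩ = 0)
    (hT : (s27tlT O ε a x hx).det ≠ 0) (hT' : (s27tlT O ε a x' hx').det ≠ 0)
    (U : Matrix (ι ⊕ κ) κ 𝔏) (U' : Matrix (ι' ⊕ κ) κ 𝔏)
    (hrel : ∀ j, ∃ u₁ w₁ : 𝔏 ⊗[K] O j,
      S27ldUnit W (s27tlEv (O j) (ε j) u₁) ∧ S27ldUnit W (s27tlEv (O j) (ε j) w₁) ∧
      ∀ l, s27tlIncl (O j) w₁ * ∑ i, U' i l ⊗ₜ[K] x' i =
        s27tlIncl (O j) u₁ * ∑ i, U i l ⊗ₜ[K] x i) :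
    ∃ M : Matrix κ κ 𝔏, S27ldUnit W M.det ∧
      U'.submatrix Sum.inr id = M * U.submatrix Sum.inr id := by
  classical
  choose u₁ w₁ hu hw hrel using hrel
  set T : Matrix κ κ 𝔏 := (s27tlT O ε a x hx).map (algebraMap K 𝔏) with hTdef
  set T' : Matrix κ κ 𝔏 := (s27tlT O ε a x' hx').map (algebraMap K 𝔏) with hT'def
  set d : κ → 𝔏 := fun j => s27tlEv (O j) (ε j) (u₁ j) / s27tlEv (O j) (ε j) (w₁ j) with hd
  have hdetT : T.det = algebraMap K 𝔏 (s27tlT O ε a x hx).det := by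
    rw [hTdef]
    exact (RingHom.map_det (algebraMap K 𝔏) _).symm
  have hdetT' : T'.det = algebraMap K 𝔏 (s27tlT O ε a x' hx').det := by
    rw [hT'def]
    exact (RingHom.map_det (algebraMap K 𝔏) _).symm
  have hTu : S27ldUnit W T.det := hdetT ▸ s27tl_unit_algebraMap W hW hT
  have hT'u : S27ldUnit W T'.det := hdetT' ▸ s27tl_unit_algebraMap W hW hT'
  have hdu : ∀ j, S27ldUnit W (d j) := fun j => by
    rw [hd]
    show S27ldUnit W (_ / _)
    rw [div_eq_mul_inv]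
    exact s27ld_unit_mul W (hu j) (s27ld_unit_inv W (hw j))
  -- the key relation, entry by entry
  have key : T' * U'.submatrix Sum.inr id = Matrix.diagonal d * (T * U.submatrix Sum.inr id) := by
    ext j l
    have h1 := s27tl_mul (O j) (ε j) (u₁ j) (w₁ j)
      (s27tlSec (O j) (a j) x (hx j) (fun i => U i l))
      (s27tlSec (O j) (a j) x' (hx' j) (fun i => U' i l))
      ((1 : 𝔏) ⊗ₜ[K] a j) (∑ i, U i l ⊗ₜ[K] x i) (∑ i, U' i l ⊗ₜ[K] x' i)
      (s27tlSec_incl _ _ _ _ _) (s27tlSec_incl _ _ _ _ _) (hrel j l)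
    rw [s27tl_ev_eq O ε a x hx hx0 U j l, s27tl_ev_eq O ε a x' hx' hx0' U' j l] at h1
    rw [Matrix.diagonal_mul]
    have hw0 : s27tlEv (O j) (ε j) (w₁ j) ≠ 0 := (hw j).2.2
    show (T' * U'.submatrix Sum.inr id) j l = d j * (T * U.submatrix Sum.inr id) j l
    rw [hd]
    field_simp
    linear_combination h1
  have hT'inv : T'⁻¹ * T' = 1 := Matrix.nonsing_inv_mul _ (isUnit_iff_ne_zero.2 hT'u.2.2)
  refine ⟨T'⁻¹ * (Matrix.diagonal d * T), ?_, ?_⟩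
  · rw [Matrix.det_mul, Matrix.det_mul, Matrix.det_nonsing_inv, Matrix.det_diagonal,
      Ring.inverse_eq_inv']
    exact s27ld_unit_mul W (s27ld_unit_inv W hT'u)
      (s27ld_unit_mul W (s27tl_unit_prod W d hdu) hTu)
  · calc U'.submatrix Sum.inr id = (T'⁻¹ * T') * U'.submatrix Sum.inr id := by
          rw [hT'inv, Matrix.one_mul]
      _ = T'⁻¹ * (T' * U'.submatrix Sum.inr id) := Matrix.mul_assoc _ _ _
      _ = T'⁻¹ * (Matrix.diagonal d * (T * U.submatrix Sum.inr id)) := by rw [key]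
      _ = T'⁻¹ * (Matrix.diagonal d * T) * U.submatrix Sum.inr id := by
          rw [Matrix.mul_assoc, Matrix.mul_assoc]

end Abstract

end Fermat.Agent.S27

end
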