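/-
S27-B — leaf **LE3 (LOC-UNIT)** of NOTES/S27-LE.md (hub helper95), helper99.  Elementary frame:
helper21's Gauss lattice (S27/LEGauss.lean: `K ⊆ Γ` the function field, `K ⊆ V ⊂ L` a valuation ring
of the field of coefficients, `F = Frac (L ⊗[K] Γ)`, `O_Gauss = s26ergO`) and helper89's tails
(S27/Tails.lean: `O ⊆ Γ` a subalgebra "regular at `Q`", `ε : O →ₐ[K] K` the value at `Q`,
`s27tlIncl`, `s27tlEv`).

* `s27lu_ev_mem`  : `u ∈ L ⊗[K] O` Gauss-integral  ⇒  `u(Q) ∈ V`;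
* `s27lu_core`    : `h` Gauss-normalised, `u₁ = h · w₁`, `u₁' = h⁻¹ · w₁'` in `L ⊗[K] O`, `w₁, w₁'`
  Gauss-integral with `w₁(Q), w₁'(Q) ∈ Vˣ`  ⇒  `u₁(Q) ∈ Vˣ`;
* `s27luW τ c = ∏ i, (1 ⊗ τ − c i ⊗ 1)` : the denominator; `s27luW_ev` (its value at `Q` is
  `∏ (τ(Q) − c i)`), `s27luW_unit`, `s27luW_mem` (Gauss-integral if `c i ∈ V`), `s27luW_pt` (it
  vanishes at every point `R` with `R τ = c i`);
* `s27lu_rel`     : the relation `w₁ · s' = u₁ · s` from `s' = h · s`;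
* **`s27lu_hrel`** : the hypothesis `hrel` of helper89's `s27tl_hMU`, from the local form of the
  linear equivalence (`h · (sections regular at Q vanishing on R) ⊆ sections regular at Q`, the
  same for `h⁻¹` and `R'`) and a separating function `τ`.
-/
import Fermat.Agent.S27.LEGauss
import Fermat.Agent.S27.Tails

set_option autoImplicit false
set_option linter.unusedSectionVars false
set_option linter.unusedVariables false

noncomputable section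

namespace Fermat.Agent.S27

open TensorProduct Module Fermat.Agent.S26

variable {K : Type*} [Field K] {L : Type*} [Field L] [Algebra K L]
  {Γ : Type*} [Field Γ] [Algebra K Γ]
  {V : ValuationSubring L} [Algebra K ↥V] [IsScalarTower K ↥V L]
  {k : Type*} [Field k] [Algebra K k] {res : ↥V →ₐ[K] k}
  {F : Type*} [Field F] [Algebra L F] [Algebra (L ⊗[K] Γ) F]
  [IsScalarTower L (L ⊗[K] Γ) F] [IsFractionRing (L ⊗[K] Γ) F]
  {Fb : Type*} [Field Fb] [Algebra k Fb] [Algebra (k ⊗[K] Γ) Fb]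
  [IsScalarTower k (k ⊗[K] Γ) Fb]

/-- the constants lie in `V` -/
theorem s27lu_algebraMap_mem (c : K) : algebraMap K L c ∈ V := by
  rw [IsScalarTower.algebraMap_apply K ↥V L c]
  exact (algebraMap K ↥V c).2

/-- every element of `L ⊗[K] O` is a finite sum `∑ c i ⊗ b i` over a `K`-basis `b` of `O` -/
theorem s27lu_exists_coord (O : Subalgebra K Γ) {ι : Type*} (b : Basis ι K O) (u : L ⊗[K] O) :
    ∃ c : ι →₀ L, u = c.sum fun i a => a ⊗ₜ[K] b i := by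
  refine ⟨(Algebra.TensorProduct.basis L b).repr u, ?_⟩
  conv_lhs => rw [← (Algebra.TensorProduct.basis L b).linearCombination_repr u]
  rw [Finsupp.linearCombination_apply]
  refine Finsupp.sum_congr fun i _ => ?_
  rw [Algebra.TensorProduct.basis_apply, TensorProduct.smul_tmul', smul_eq_mul, mul_one]

/-- **Gauss-integral ⇒ integral value**: `u ∈ L ⊗[K] O`, Gauss-integral in `F`, has `u(Q) ∈ V`. -/
theorem s27lu_ev_mem (hres : Function.Surjective res)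
    (hFb : Function.Injective (algebraMap (k ⊗[K] Γ) Fb))
    (O : Subalgebra K Γ) (ε : O →ₐ[K] K) (u : L ⊗[K] O)
    (hu : algebraMap (L ⊗[K] Γ) F (s27tlIncl O u) ∈ s26ergO K Γ V res F Fb) :
    s27tlEv O ε u ∈ V := by
  classical
  obtain ⟨c, rfl⟩ := s27lu_exists_coord O (Basis.ofVectorSpace K O) u
  set b := Basis.ofVectorSpace K O with hb
  have hx : LinearIndependent K (fun i => ((b i : O) : Γ)) :=
    b.linearIndependent.map' O.val.toLinearMap (LinearMap.ker_eq_bot.2 Subtype.val_injective)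
  have e2 : s27tlIncl (𝔏 := L) O (c.sum fun i a => a ⊗ₜ[K] b i) =
      s27legSum (fun i => ((b i : O) : Γ)) c := by
    unfold s27legSum Finsupp.sum
    rw [map_sum]
    rfl
  rw [e2] at hu
  have hc : ∀ i, c i ∈ V := (s27leg_sum_mem_O_iff _ hres hFb hx c).1 hu
  unfold Finsupp.sum
  rw [map_sum]
  refine Subring.sum_mem V.toSubring fun i _ => ?_
  rw [s27tlEv_tmul]
  exact V.mul_mem _ _ (hc i) (s27lu_algebraMap_mem _)

/-- the composite `L ⊗[K] O → L ⊗[K] Γ → F` is injective -/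
theorem s27lu_incl_injective (O : Subalgebra K Γ) :
    Function.Injective fun u : L ⊗[K] O => algebraMap (L ⊗[K] Γ) F (s27tlIncl O u) :=
  (IsFractionRing.injective (L ⊗[K] Γ) F).comp (s27tlIncl_injective O)

/-- **LE3, core**: `h` Gauss-normalised, `u₁ = h · w₁` and `u₁' = h⁻¹ · w₁'` with all four in
`L ⊗[K] O`, `w₁`, `w₁'` Gauss-integral with unit values at `Q`: then `u₁(Q) ∈ Vˣ`. -/
theorem s27lu_core (hres : Function.Surjective res)
    (hFb : Function.Injective (algebraMap (k ⊗[K] Γ) Fb))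
    (O : Subalgebra K Γ) (ε : O →ₐ[K] K)
    {h : F} (hh : s27legNorm K Γ V res Fb h) (u₁ w₁ u₁' w₁' : L ⊗[K] O)
    (hw : algebraMap (L ⊗[K] Γ) F (s27tlIncl O w₁) ∈ s26ergO K Γ V res F Fb)
    (hw' : algebraMap (L ⊗[K] Γ) F (s27tlIncl O w₁') ∈ s26ergO K Γ V res F Fb)
    (hwu : S27ldUnit V (s27tlEv O ε w₁)) (hwu' : S27ldUnit V (s27tlEv O ε w₁'))
    (hu : algebraMap (L ⊗[K] Γ) F (s27tlIncl O u₁) =
      h * algebraMap (L ⊗[K] Γ) F (s27tlIncl O w₁))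
    (hu' : algebraMap (L ⊗[K] Γ) F (s27tlIncl O u₁') =
      h⁻¹ * algebraMap (L ⊗[K] Γ) F (s27tlIncl O w₁')) :
    S27ldUnit V (s27tlEv O ε u₁) ∧ S27ldUnit V (s27tlEv O ε u₁') := by
  have h0 : h ≠ 0 := s27leg_norm_ne_zero hh
  have hu1 : s27tlEv O ε u₁ ∈ V :=
    s27lu_ev_mem hres hFb O ε u₁ (hu ▸ Subring.mul_mem _ hh.1 hw)
  have hu1' : s27tlEv O ε u₁' ∈ V :=
    s27lu_ev_mem hres hFb O ε u₁' (hu' ▸ Subring.mul_mem _ (s27leg_norm_inv hh).1 hw')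
  have key : u₁ * u₁' = w₁ * w₁' := by
    apply s27lu_incl_injective (L := L) (F := F) O
    show algebraMap (L ⊗[K] Γ) F (s27tlIncl O (u₁ * u₁')) =
      algebraMap (L ⊗[K] Γ) F (s27tlIncl O (w₁ * w₁'))
    rw [map_mul, map_mul, map_mul, map_mul, hu, hu']
    field_simp
  have hprod : s27tlEv O ε u₁ * s27tlEv O ε u₁' = s27tlEv O ε w₁ * s27tlEv O ε w₁' := by
    rw [← map_mul, ← map_mul, key]
  have hd : S27ldUnit V (s27tlEv O ε u₁ * s27tlEv O ε u₁') := by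
    rw [hprod]
    exact s27ld_unit_mul V hwu hwu'
  have hne : s27tlEv O ε u₁ ≠ 0 := left_ne_zero_of_mul hd.2.2
  have hne' : s27tlEv O ε u₁' ≠ 0 := right_ne_zero_of_mul hd.2.2
  refine ⟨⟨hu1, ?_, hne⟩, ⟨hu1', ?_, hne'⟩⟩
  · have e : (s27tlEv O ε u₁)⁻¹ = s27tlEv O ε u₁' * (s27tlEv O ε u₁ * s27tlEv O ε u₁')⁻¹ := by
      field_simp
    rw [e]
    exact V.mul_mem _ _ hu1' hd.2.1
  · have e : (s27tlEv O ε u₁')⁻¹ = s27tlEv O ε u₁ * (s27tlEv O ε u₁ * s27tlEv O ε u₁')⁻¹ := by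
      field_simp
    rw [e]
    exact V.mul_mem _ _ hu1 hd.2.1

/-! ### the denominator `w₁ = ∏ (1 ⊗ τ − c i ⊗ 1)` -/

/-- the denominator `w₁ = ∏ i, (1 ⊗ τ − c i ⊗ 1) ∈ L ⊗[K] O` (`c i = R_i τ`) -/
def s27luW {ι : Type*} [Fintype ι] (O : Subalgebra K Γ) (τ : O) (c : ι → L) : L ⊗[K] O :=
  ∏ i, ((1 : L) ⊗ₜ[K] τ - c i ⊗ₜ[K] (1 : O))

/-- the value of `w₁` at `Q` -/
theorem s27luW_ev {ι : Type*} [Fintype ι] (O : Subalgebra K Γ) (ε : O →ₐ[K] K) (τ : O)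
    (c : ι → L) :
    s27tlEv O ε (s27luW O τ c) = ∏ i, (algebraMap K L (ε τ) - c i) := by
  unfold s27luW
  rw [map_prod]
  refine Finset.prod_congr rfl fun i _ => ?_
  rw [map_sub, s27tlEv_tmul, s27tlEv_tmul, one_mul, map_one, map_one, mul_one]

/-- the value of `w₁` at `Q` is a unit of `V` if all the differences `τ(Q) − c i` are -/
theorem s27luW_unit {ι : Type*} [Fintype ι] (O : Subalgebra K Γ) (ε : O →ₐ[K] K) (τ : O)
    (c : ι → L) (hc : ∀ i, S27ldUnit V (algebraMap K L (ε τ) - c i)) :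
    S27ldUnit V (s27tlEv O ε (s27luW O τ c)) := by
  classical
  rw [s27luW_ev]
  exact s27tl_unit_prod V _ hc

/-- `w₁` is Gauss-integral if all the `c i` lie in `V` -/
theorem s27luW_mem {ι : Type*} [Fintype ι] (O : Subalgebra K Γ) (τ : O) (c : ι → L)
    (hc : ∀ i, c i ∈ V) :
    algebraMap (L ⊗[K] Γ) F (s27tlIncl O (s27luW O τ c)) ∈ s26ergO K Γ V res F Fb := by
  unfold s27luW
  rw [map_prod, map_prod]
  refine Subring.prod_mem _ fun i _ => ?_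
  have e : algebraMap (L ⊗[K] Γ) F (s27tlIncl O ((1 : L) ⊗ₜ[K] τ - c i ⊗ₜ[K] (1 : O))) =
      s26ergIota K Γ V F ((1 : ↥V) ⊗ₜ[K] (τ : Γ) - (⟨c i, hc i⟩ : ↥V) ⊗ₜ[K] (1 : Γ)) := by
    rw [map_sub, map_sub, s27tlIncl_tmul, s27tlIncl_tmul, map_sub]
    rfl
  rw [e]
  exact s26ergIota_mem_O _

/-- the evaluation of `L ⊗[K] Γ` at a point `R : Γ →ₐ[K] L`, `c ⊗ f ↦ c · R f` -/
def s27luPt (R : Γ →ₐ[K] L) : L ⊗[K] Γ →ₐ[L] L :=
  Algebra.TensorProduct.lift (AlgHom.id L L) R (fun _ _ => Commute.all _ _)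

@[simp] theorem s27luPt_tmul (R : Γ →ₐ[K] L) (c : L) (f : Γ) :
    s27luPt R (c ⊗ₜ[K] f) = c * R f := by
  unfold s27luPt
  rw [Algebra.TensorProduct.lift_tmul]
  rfl

/-- `w₁` vanishes at every point `R` with `R τ = c i` for some `i` -/
theorem s27luW_pt {ι : Type*} [Fintype ι] (O : Subalgebra K Γ) (τ : O) (c : ι → L)
    (R : Γ →ₐ[K] L) (i : ι) (hi : R (τ : Γ) = c i) :
    s27luPt R (s27tlIncl O (s27luW O τ c)) = 0 := by
  unfold s27luW
  rw [map_prod, map_prod]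
  refine Finset.prod_eq_zero (Finset.mem_univ i) ?_
  rw [map_sub, map_sub, s27tlIncl_tmul, s27tlIncl_tmul, s27luPt_tmul, s27luPt_tmul, one_mul,
    hi]
  show c i - c i * R (1 : Γ) = 0
  rw [map_one, mul_one, sub_self]

/-! ### the relation and the hypothesis `hrel` of `s27tl_hMU` -/

/-- the relation `w₁ · s' = u₁ · s` from `u₁ = h · w₁` and `s' = h · s` -/
theorem s27lu_rel (O : Subalgebra K Γ) {h : F} (u₁ w₁ : L ⊗[K] O) (s s' : L ⊗[K] Γ)
    (hu : algebraMap (L ⊗[K] Γ) F (s27tlIncl O u₁) =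
      h * algebraMap (L ⊗[K] Γ) F (s27tlIncl O w₁))
    (hs : algebraMap (L ⊗[K] Γ) F s' = h * algebraMap (L ⊗[K] Γ) F s) :
    s27tlIncl O w₁ * s' = s27tlIncl O u₁ * s := by
  apply IsFractionRing.injective (L ⊗[K] Γ) F
  rw [map_mul, map_mul, hu, hs]
  ring

/-- **LE3 (LOC-UNIT)**, in the shape `hrel` of helper89's `s27tl_hMU`, at ONE point `Q`
(`O`, `ε`).  `h` Gauss-normalised; `R`, `R'` the two families of points; the linear equivalence
in its local form at `Q`: `h` maps the sections regular at `Q` vanishing on `R` to sections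
regular at `Q` (`hfwd`), and `h⁻¹` those vanishing on `R'` (`hbwd`); `τ` (resp. `τ'`) regular
at `Q` and at the centres of the `R i` (resp. `R' i`), separating `Q` from these centres. -/
theorem s27lu_hrel (hres : Function.Surjective res)
    (hFb : Function.Injective (algebraMap (k ⊗[K] Γ) Fb))
    (O : Subalgebra K Γ) (ε : O →ₐ[K] K)
    {h : F} (hh : s27legNorm K Γ V res Fb h)
    {ι ι' : Type*} [Fintype ι] [Fintype ι'] (R : ι → Γ →ₐ[K] L) (R' : ι' → Γ →ₐ[K] L)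
    (hfwd : ∀ w : L ⊗[K] O, (∀ i, s27luPt (R i) (s27tlIncl O w) = 0) →
      ∃ u : L ⊗[K] O, algebraMap (L ⊗[K] Γ) F (s27tlIncl O u) =
        h * algebraMap (L ⊗[K] Γ) F (s27tlIncl O w))
    (hbwd : ∀ w : L ⊗[K] O, (∀ i, s27luPt (R' i) (s27tlIncl O w) = 0) →
      ∃ u : L ⊗[K] O, algebraMap (L ⊗[K] Γ) F (s27tlIncl O u) =
        h⁻¹ * algebraMap (L ⊗[K] Γ) F (s27tlIncl O w))
    (τ τ' : O) (hτ : ∀ i, R i (τ : Γ) ∈ V) (hτ' : ∀ i, R' i (τ' : Γ) ∈ V)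
    (hτu : ∀ i, S27ldUnit V (algebraMap K L (ε τ) - R i (τ : Γ)))
    (hτu' : ∀ i, S27ldUnit V (algebraMap K L (ε τ') - R' i (τ' : Γ)))
    {κ κ' lam : Type*} [Fintype κ] [Fintype κ'] (x : κ → Γ) (x' : κ' → Γ)
    (U : Matrix κ lam L) (U' : Matrix κ' lam L)
    (hs : ∀ l, algebraMap (L ⊗[K] Γ) F (∑ i, U' i l ⊗ₜ[K] x' i) =
      h * algebraMap (L ⊗[K] Γ) F (∑ i, U i l ⊗ₜ[K] x i)) :
    ∃ u₁ w₁ : L ⊗[K] O,
      S27ldUnit V (s27tlEv O ε u₁) ∧ S27ldUnit V (s27tlEv O ε w₁) ∧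
      ∀ l, s27tlIncl O w₁ * ∑ i, U' i l ⊗ₜ[K] x' i = s27tlIncl O u₁ * ∑ i, U i l ⊗ₜ[K] x i := by
  classical
  set w₁ := s27luW O τ fun i => R i (τ : Γ) with hw₁
  set w₁' := s27luW O τ' fun i => R' i (τ' : Γ) with hw₁'
  obtain ⟨u₁, hu₁⟩ := hfwd w₁ fun i => s27luW_pt O τ _ (R i) i rfl
  obtain ⟨u₁', hu₁'⟩ := hbwd w₁' fun i => s27luW_pt O τ' _ (R' i) i rfl
  have hwm : algebraMap (L ⊗[K] Γ) F (s27tlIncl O w₁) ∈ s26ergO K Γ V res F Fb :=
    s27luW_mem O τ _ hτ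
  have hwm' : algebraMap (L ⊗[K] Γ) F (s27tlIncl O w₁') ∈ s26ergO K Γ V res F Fb :=
    s27luW_mem O τ' _ hτ'
  have hwu : S27ldUnit V (s27tlEv O ε w₁) := s27luW_unit O ε τ _ hτu
  have hwu' : S27ldUnit V (s27tlEv O ε w₁') := s27luW_unit O ε τ' _ hτu'
  obtain ⟨hu, -⟩ := s27lu_core hres hFb O ε hh u₁ w₁ u₁' w₁' hwm hwm' hwu hwu' hu₁ hu₁'
  exact ⟨u₁, w₁, hu, hwu, fun l => s27lu_rel O u₁ w₁ _ _ hu₁ (hs l)⟩

end Fermat.Agent.S27

end
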