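/-
S27, route B, piece MODEL-DEG (deputy helper18): the DEGREE certificate for the family
`ψ = s27pfPsi pkg halg hq` (S27/PsiFam.lean, helper15) on the model, in the exact shape of
`s27geo_Stmt` (S27/GeoTop.lean):

  `S27IsDeg K (ψ n) (Nat.card (Pic0.torsion K F n))`   for every `n ≥ 1`.

* `s27mdeg_isDeg_pkg` : for ANY degree package `pkg` on `(Place L FL, Pic0 L FL)` and any family
  `q` (`S27pfFam pkg q`), `FL = Frac (F ⊗[K] L)` in the `(hld, hgen)` form;
* `s27mdeg_isDeg`     : for the package `s27dclPkg` (origin `Con G₀`);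
* `s27mdeg_finite`    : `Pic0(F)[n]` is finite.
-/
import Fermat.Agent.S27.DegClosed
import Fermat.Agent.S27.PsiFam

set_option autoImplicit false
set_option linter.unusedVariables false
set_option linter.unusedSectionVars false
set_option linter.style.haveILetI false

noncomputable section

namespace Fermat.Agent.S27

open AlgebraicCurve Module TensorProduct IntermediateField Fermat.Agent.S26

universe u v x y

section Model

variable {K : Type u} {F : Type v} [Field K] [IsAlgClosed K] [CharZero K] [Field F] [Algebra K F]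
  [IsCurveOver K F] [Algebra.EssFiniteType K F]
  {L : Type (max u v)} [Field L] [Algebra K L]
  [Algebra (s27gfOm K F (genusFF K F)) L] [IsScalarTower K (s27gfOm K F (genusFF K F)) L]
  [IsAlgClosed L] [Algebra.IsAlgebraic (s27gfOm K F (genusFF K F)) L]
  [IsGalois (s27gfSym K F (genusFF K F)) L]
  {FL : Type y} [Field FL] [Algebra K FL] [Algebra F FL] [Algebra L FL]
  [IsScalarTower K F FL] [IsScalarTower K L FL]
  (hld : Function.Injective (s26gspMu K F L FL)) (hgen : S26gspGen K F L FL)
  {x : F} (hx : Transcendental K x)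
  (halg : ∀ u : F, IsAlgebraic (IntermediateField.adjoin K {x}) u)

include hld hgen hx in
/-- **MODEL-DEG, any package.** -/
theorem s27mdeg_isDeg_pkg {Pl : Type x} (pkg : S27DegPkg K F L x (genusFF K F) Pl (Pic0 L FL))
    {q : ℤ → Fin (genusFF K F) → F →ₐ[K] L} (hq : S27pfFam pkg q) (n : ℕ) (hn : 0 < n) :
    S27IsDeg K (s27pfPsi pkg halg hq n) (Nat.card (Pic0.torsion K F n)) ∧
      Finite (Pic0.torsion L FL n) := by
  have hn0 : (n : ℤ) ≠ 0 := by exact_mod_cast hn.ne'
  haveI : Algebra.EssFiniteType K (s27gfSym K F (genusFF K F)) := s27dfg_sym (genusFF K F)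
  rw [s27pfPsi_of_ne pkg halg hq n hn0]
  have hDOM : (n : ℤ) • s27dgcCl pkg
      (s27dgcP (s27dflFld (K := K) (F := F) (g := genusFF K F) L x hx halg))
      = s27dgcCl pkg (q n) := ((hq n hn0).2).symm
  exact s27dfin_isDeg x hx halg pkg n (q n) (hq n hn0).1 (s27pf_fam_pt pkg halg hq n hn0) hDOM
    (fun σ => s27dgx_X1 (s27dflFld (K := K) (F := F) (g := genusFF K F) L x hx halg) halg σ)
    (s27dgf_finite (s27psi (q n) (s27pf_fam_pt pkg halg hq n hn0)))
    (s27dw_hA hld hgen n)

include hld hgen hx halg in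
/-- `Pic0(F)[n]` is finite as soon as a family exists. -/
theorem s27mdeg_finite {Pl : Type x} (pkg : S27DegPkg K F L x (genusFF K F) Pl (Pic0 L FL))
    {q : ℤ → Fin (genusFF K F) → F →ₐ[K] L} (hq : S27pfFam pkg q) (n : ℕ) (hn : 0 < n) :
    Finite (Pic0.torsion K F n) := by
  haveI := (s27mdeg_isDeg_pkg hld hgen hx halg pkg hq n hn).2
  exact s27dw_finite hld hgen n

end Model

end Fermat.Agent.S27

end
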