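/-
S27, route B, piece MODEL-DEG, SPEC form (deputy helper18), for the contract of MODEL-TOP
(helper77, helper15): the degree certificate for EVERY endomorphism `φ` of `𝔉` which is the
`s27psi` of a generic point datum `q` of class `n • cl p`:

  `s27mdeg_of_spec : (∃ q, generic q ∧ ∃ hpt : S27PsiPt q, cl q = n • cl p ∧ φ = s27psi q hpt)
      → S27IsDeg K φ (Nat.card (Pic0.torsion K F n)) ∧ Finite (Pic0.torsion L FL n)`.

Shared data (`x`, `L`, `FL` with `hld`/`hgen`, `pkg`) are arguments.
-/
import Fermat.Agent.S27.ModelDeg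

set_option autoImplicit false
set_option linter.unusedVariables false
set_option linter.unusedSectionVars false
set_option linter.style.haveILetI false

noncomputable section

namespace Fermat.Agent.S27

open AlgebraicCurve Module TensorProduct IntermediateField Fermat.Agent.S26

universe u v x y

section Spec

variable {K : Type u} {F : Type v} [Field K] [IsAlgClosed K] [CharZero K] [Field F] [Algebra K F]
  [IsCurveOver K F] [Algebra.EssFiniteType K F]
  {L : Type (max u v)} [Field L] [Algebra K L]
  [Algebra (s27gfOm K F (genusFF K F)) L] [IsScalarTower K (s27gfOm K F (genusFF K F)) L]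
  [IsAlgClosed L] [Algebra.IsAlgebraic (s27gfOm K F (genusFF K F)) L]
  [IsGalois (s27gfSym K F (genusFF K F)) L]
  {FL : Type y} [Field FL] [Algebra K FL] [Algebra F FL] [Algebra L FL]
  [IsScalarTower K F FL] [IsScalarTower K L FL]
  (hld : Function.Injective (s26gspMu K F L FL)) (hgen : S26gspGen K F L FL)
  {x : F} (hx : Transcendental K x)
  (halg : ∀ u : F, IsAlgebraic (IntermediateField.adjoin K {x}) u)

include hld hgen hx halg in
/-- **MODEL-DEG for one point datum.** -/
theorem s27mdeg_of_point {Pl : Type x} (pkg : S27DegPkg K F L x (genusFF K F) Pl (Pic0 L FL))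
    (n : ℕ) (q : Fin (genusFF K F) → F →ₐ[K] L) (hq : S27dgGeneric K x q) (hpt : S27PsiPt q)
    (hcl : s27pfCl pkg q =
      (n : ℤ) • s27pfCl pkg (s27pfTaut (K := K) (F := F) (g := genusFF K F) (L := L))) :
    S27IsDeg K (s27psi q hpt) (Nat.card (Pic0.torsion K F n)) ∧
      Finite (Pic0.torsion L FL n) := by
  haveI : Algebra.EssFiniteType K (s27gfSym K F (genusFF K F)) := s27dfg_sym (genusFF K F)
  have hDOM : (n : ℤ) • s27dgcCl pkg
      (s27dgcP (s27dflFld (K := K) (F := F) (g := genusFF K F) L x hx halg))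
      = s27dgcCl pkg q := hcl.symm
  exact s27dfin_isDeg x hx halg pkg n q hq hpt hDOM
    (fun σ => s27dgx_X1 (s27dflFld (K := K) (F := F) (g := genusFF K F) L x hx halg) halg σ)
    (s27dgf_finite (s27psi q hpt))
    (s27dw_hA hld hgen n)

include hld hgen hx halg in
/-- **MODEL-DEG, spec form**: for every `φ` which is the `s27psi` of a generic point datum of
class `n • cl p`. -/
theorem s27mdeg_of_spec {Pl : Type x} (pkg : S27DegPkg K F L x (genusFF K F) Pl (Pic0 L FL))
    (n : ℕ) (φ : s27gfSym K F (genusFF K F) →ₐ[K] s27gfSym K F (genusFF K F))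
    (h : ∃ q : Fin (genusFF K F) → F →ₐ[K] L, S27dgGeneric K x q ∧ ∃ hpt : S27PsiPt q,
      s27pfCl pkg q =
        (n : ℤ) • s27pfCl pkg (s27pfTaut (K := K) (F := F) (g := genusFF K F) (L := L)) ∧
      φ = s27psi q hpt) :
    S27IsDeg K φ (Nat.card (Pic0.torsion K F n)) ∧ Finite (Pic0.torsion L FL n) := by
  obtain ⟨q, hq, hpt, hcl, rfl⟩ := h
  exact s27mdeg_of_point hld hgen hx halg pkg n q hq hpt hcl

end Spec

end Fermat.Agent.S27

end
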