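/-
S27 route B (item 27), LE(b) sub-leaf MULT (helper17): `h · S_D = S_{D'}`.

Setting: `F / L` a function field with the prelude's places, `R : RedData L F k Fb` a constant reduction
(`R.A ⊂ L` the valuation ring `W`, `R.O ⊂ F` the Gauss-integral functions, `R.red : R.O → Fb`).
For a divisor `B` of `F / L` the GAUSS LATTICE is
    `s27multLat R B = { x ∈ L_F(B) | x ∈ R.O }`,      an `R.A`-submodule of `F`.
(`S_D = s27multLat R (Con(A' + G) − D)`, `X_W = s27multLat R (Con(A' + G))`.)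

* `s27mult_mem_rr`   : `div h = B₂ − B₁` (i.e. `ord_P h = B₂ P − B₁ P` for all `P`), `h ≠ 0`
                       ⇒ (`x ∈ L(B₁) ↔ h x ∈ L(B₂)`)      [pure divisor calculus];
* `s27mult_gauss`    : `h` a Gauss unit (`h ∈ R.O`, `red h ≠ 0`) ⇒ (`x ∈ R.O ↔ h x ∈ R.O`);
* `s27mult_mem`      : both ⇒ (`x ∈ Lat B₁ ↔ h x ∈ Lat B₂`);
* `s27multEquiv`     : multiplication by `h` as an `R.A`-linear equivalence `Lat B₁ ≃ Lat B₂`;
* `s27mult_red`      : `red (h x) = red h · red x` on the lattices;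
* `s27mult_map`      : `(Lat B₁).map (h ·) = Lat B₂`.
-/
import Fermat.Agent.DEU.Defs

set_option autoImplicit false

noncomputable section

namespace Fermat.Agent.S27

open AlgebraicCurve Fermat.Agent.DEU

variable {L F k Fb : Type*} [Field L] [Field F] [Algebra L F] [Field k] [Field Fb] [Algebra k Fb]

/-- `x ∈ L(B₁) ↔ h x ∈ L(B₂)` when `div h = B₁ − B₂`. -/
theorem s27mult_mem_rr {h : F} (hh : h ≠ 0) (B₁ B₂ : Divisor L F)
    (hdiv : ∀ P : Place L F, P.ord h = B₁ P - B₂ P) (x : F) :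
    x ∈ riemannRochSpace B₁ ↔ h * x ∈ riemannRochSpace B₂ := by
  rw [mem_riemannRochSpace_iff, mem_riemannRochSpace_iff]
  constructor
  · intro hx P
    rcases eq_or_ne x 0 with rfl | hx0
    · left; simp
    · right
      rcases hx P with h0 | h1
      · exact absurd h0 hx0
      · rw [P.ord_mul hh hx0, hdiv P]
        linarith
  · intro hx P
    rcases eq_or_ne x 0 with rfl | hx0
    · left; rfl
    · right
      rcases hx P with h0 | h1
      · exact absurd h0 (mul_ne_zero hh hx0)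
      · rw [P.ord_mul hh hx0, hdiv P] at h1
        linarith

variable (R : RedData L F k Fb)

/-- a Gauss unit: `h ∈ O` with nonzero reduction. -/
def S27multUnit (h : F) : Prop := ∃ hh : h ∈ R.O, R.red ⟨h, hh⟩ ≠ 0

theorem s27mult_unit_ne_zero {h : F} (hu : S27multUnit R h) : h ≠ 0 := by
  obtain ⟨hh, hr⟩ := hu
  rintro rfl
  apply hr
  have : (⟨0, hh⟩ : R.O) = 0 := rfl
  rw [this, map_zero]

theorem s27mult_unit_inv_mem {h : F} (hu : S27multUnit R h) : h⁻¹ ∈ R.O := by
  obtain ⟨hh, hr⟩ := hu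
  exact R.inv_mem ⟨h, hh⟩ hr

theorem s27mult_unit_inv {h : F} (hu : S27multUnit R h) : S27multUnit R h⁻¹ := by
  obtain ⟨hh, hr⟩ := hu
  refine ⟨R.inv_mem ⟨h, hh⟩ hr, ?_⟩
  have := R.red_inv ⟨h, hh⟩ hr
  show R.red (R.inv ⟨h, hh⟩ hr) ≠ 0
  rw [this]
  exact inv_ne_zero hr

/-- multiplication by a Gauss unit preserves Gauss-integrality, both ways. -/
theorem s27mult_gauss {h : F} (hu : S27multUnit R h) (x : F) : x ∈ R.O ↔ h * x ∈ R.O := by
  constructor
  · intro hx
    exact R.O.mul_mem hu.1 hx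
  · intro hx
    have h0 := s27mult_unit_ne_zero R hu
    have := R.O.mul_mem (s27mult_unit_inv_mem R hu) hx
    rwa [← mul_assoc, inv_mul_cancel₀ h0, one_mul] at this

theorem s27mult_smul_def (a : R.A) (x : F) : a • x = algebraMap L F (a : L) * x := by
  rw [← Algebra.smul_def]
  rfl

/-- **the Gauss lattice** of a divisor: `L(B) ∩ O`, an `R.A`-submodule of `F`. -/
def s27multLat (B : Divisor L F) : Submodule R.A F where
  carrier := {x | x ∈ riemannRochSpace B ∧ x ∈ R.O}
  zero_mem' := ⟨(riemannRochSpace B).zero_mem, R.O.zero_mem⟩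
  add_mem' := fun hx hy => ⟨(riemannRochSpace B).add_mem hx.1 hy.1, R.O.add_mem hx.2 hy.2⟩
  smul_mem' := by
    intro a x hx
    refine ⟨?_, ?_⟩
    · rw [s27mult_smul_def, ← Algebra.smul_def]
      exact (riemannRochSpace B).smul_mem _ hx.1
    · rw [s27mult_smul_def]
      exact R.O.mul_mem (R.algebraMap_mem a) hx.2

theorem s27mult_mem_lat {B : Divisor L F} {x : F} :
    x ∈ s27multLat R B ↔ x ∈ riemannRochSpace B ∧ x ∈ R.O := Iff.rfl

/-- **MULT**: `x ∈ Lat B₁ ↔ h x ∈ Lat B₂` for a Gauss unit `h` with `div h = B₁ − B₂`. -/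
theorem s27mult_mem {h : F} (hu : S27multUnit R h) (B₁ B₂ : Divisor L F)
    (hdiv : ∀ P : Place L F, P.ord h = B₁ P - B₂ P) (x : F) :
    x ∈ s27multLat R B₁ ↔ h * x ∈ s27multLat R B₂ := by
  rw [s27mult_mem_lat, s27mult_mem_lat,
    s27mult_mem_rr (s27mult_unit_ne_zero R hu) B₁ B₂ hdiv x, ← s27mult_gauss R hu x]

/-- multiplication by `h` as an `R.A`-linear map of `F`. -/
def s27multMul (h : F) : F →ₗ[R.A] F where
  toFun x := h * x
  map_add' := mul_add h
  map_smul' := by
    intro a x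
    simp only [s27mult_smul_def, RingHom.id_apply]
    ring

@[simp] theorem s27multMul_apply (h x : F) : s27multMul R h x = h * x := rfl

/-- **MULT, module form**: multiplication by `h` is an `R.A`-linear equivalence
`Lat B₁ ≃ Lat B₂`. -/
def s27multEquiv {h : F} (hu : S27multUnit R h) (B₁ B₂ : Divisor L F)
    (hdiv : ∀ P : Place L F, P.ord h = B₁ P - B₂ P) :
    s27multLat R B₁ ≃ₗ[R.A] s27multLat R B₂ where
  toFun x := ⟨h * x.1, (s27mult_mem R hu B₁ B₂ hdiv x.1).1 x.2⟩
  invFun y := ⟨h⁻¹ * y.1, by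
    have h0 := s27mult_unit_ne_zero R hu
    rw [s27mult_mem R hu B₁ B₂ hdiv, ← mul_assoc, mul_inv_cancel₀ h0, one_mul]
    exact y.2⟩
  map_add' x y := by
    apply Subtype.ext
    show h * (x.1 + y.1) = h * x.1 + h * y.1
    ring
  map_smul' a x := by
    apply Subtype.ext
    show h * (a • x.1) = a • (h * x.1)
    simp only [s27mult_smul_def]
    ring
  left_inv x := by
    apply Subtype.ext
    show h⁻¹ * (h * x.1) = x.1
    rw [← mul_assoc, inv_mul_cancel₀ (s27mult_unit_ne_zero R hu), one_mul]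
  right_inv y := by
    apply Subtype.ext
    show h * (h⁻¹ * y.1) = y.1
    rw [← mul_assoc, mul_inv_cancel₀ (s27mult_unit_ne_zero R hu), one_mul]

@[simp] theorem s27multEquiv_apply {h : F} (hu : S27multUnit R h) (B₁ B₂ : Divisor L F)
    (hdiv : ∀ P : Place L F, P.ord h = B₁ P - B₂ P) (x : s27multLat R B₁) :
    ((s27multEquiv R hu B₁ B₂ hdiv x : s27multLat R B₂) : F) = h * (x : F) := rfl

/-- **MULT, image form**: `h · Lat B₁ = Lat B₂`. -/
theorem s27mult_map {h : F} (hu : S27multUnit R h) (B₁ B₂ : Divisor L F)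
    (hdiv : ∀ P : Place L F, P.ord h = B₁ P - B₂ P) :
    (s27multLat R B₁).map (s27multMul R h) = s27multLat R B₂ := by
  ext y
  constructor
  · rintro ⟨x, hx, rfl⟩
    exact (s27mult_mem R hu B₁ B₂ hdiv x).1 hx
  · intro hy
    have h0 := s27mult_unit_ne_zero R hu
    refine ⟨h⁻¹ * y, ?_, ?_⟩
    · show h⁻¹ * y ∈ s27multLat R B₁
      rw [s27mult_mem R hu B₁ B₂ hdiv, ← mul_assoc, mul_inv_cancel₀ h0, one_mul]
      exact hy
    · show h * (h⁻¹ * y) = y
      rw [← mul_assoc, mul_inv_cancel₀ h0, one_mul]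

/-- the reduction is multiplicative on the lattices. -/
theorem s27mult_red {h : F} (hu : S27multUnit R h) {x : F} (hx : x ∈ R.O) :
    R.red ⟨h * x, R.O.mul_mem hu.1 hx⟩ = R.red ⟨h, hu.1⟩ * R.red ⟨x, hx⟩ := by
  rw [← map_mul]
  rfl

/-- constants have order `0` at every place. -/
theorem s27mult_ord_const (P : Place L F) {c : L} (hc : c ≠ 0) :
    P.ord (algebraMap L F c) = 0 := by
  have h1 : P.adicValuation (algebraMap L F c) ≤ 1 := P.adicValuation_algebraMap_le_one c
  have h2 : P.adicValuation (algebraMap L F c⁻¹) ≤ 1 := P.adicValuation_algebraMap_le_one c⁻¹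
  have h0 : algebraMap L F c ≠ 0 := by simpa using hc
  have hv0 : P.adicValuation (algebraMap L F c) ≠ 0 := P.adicValuation_ne_zero h0
  rw [map_inv₀, map_inv₀] at h2
  have h3 : 1 ≤ P.adicValuation (algebraMap L F c) :=
    (inv_le_one₀ (zero_lt_iff.2 hv0)).1 h2
  have h4 : P.adicValuation (algebraMap L F c) = 1 := le_antisymm h1 h3
  simp [Place.ord, h4]

/-- **Gauss normalisation**: every `h ≠ 0` has a constant multiple which is a Gauss unit, with the
same divisor. -/
theorem s27mult_exists_unit {h : F} (hh : h ≠ 0) :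
    ∃ c : L, c ≠ 0 ∧ S27multUnit R (algebraMap L F c * h) ∧
      ∀ P : Place L F, P.ord (algebraMap L F c * h) = P.ord h := by
  obtain ⟨c, hc, hmem, hred⟩ := R.exists_scale h hh
  refine ⟨c, hc, ⟨hmem, hred⟩, fun P => ?_⟩
  have h0 : algebraMap L F c ≠ 0 := by simpa using hc
  rw [P.ord_mul h0 hh, s27mult_ord_const P hc, zero_add]

/-- **MULT for an arbitrary `h`** with `div h = B₁ − B₂`: after Gauss normalisation the lattices
are isomorphic by multiplication. -/
theorem s27mult_exists_equiv {h : F} (hh : h ≠ 0) (B₁ B₂ : Divisor L F)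
    (hdiv : ∀ P : Place L F, P.ord h = B₁ P - B₂ P) :
    ∃ (h' : F) (_ : S27multUnit R h') (e : s27multLat R B₁ ≃ₗ[R.A] s27multLat R B₂),
      (∃ c : L, c ≠ 0 ∧ h' = algebraMap L F c * h) ∧
      ∀ x : s27multLat R B₁, ((e x : s27multLat R B₂) : F) = h' * (x : F) := by
  obtain ⟨c, hc, hu, hord⟩ := s27mult_exists_unit R hh
  have hdiv' : ∀ P : Place L F, P.ord (algebraMap L F c * h) = B₁ P - B₂ P := fun P => by
    rw [hord P, hdiv P]
  exact ⟨_, hu, s27multEquiv R hu B₁ B₂ hdiv', ⟨c, hc, rfl⟩, fun x => rfl⟩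

/-- monotonicity of the Gauss lattices. -/
theorem s27mult_lat_mono {B B' : Divisor L F} (hB : B ≤ B') :
    s27multLat R B ≤ s27multLat R B' := by
  intro x hx
  refine ⟨?_, hx.2⟩
  have h1 := mem_riemannRochSpace_iff.1 hx.1
  rw [mem_riemannRochSpace_iff]
  intro P
  rcases h1 P with h0 | h2
  · exact Or.inl h0
  · right
    have := Finsupp.le_def.mp hB P
    linarith

end Fermat.Agent.S27

end
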