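/-
S27 route B (item 27), LE5 input MULT in the hub's form (helper17), complement of `S27/Mult.lean`:
NO places of the big function field, the two spaces are ARBITRARY `L`-subspaces `U₁, U₂` of `F` with
`h · U₁ = U₂` (the hypothesis (LinEq) of NOTES/S27-LE.md, LE5).

`R : RedData L F k Fb` (`R.A = W`, `R.O` = the Gauss valuation ring).  Gauss lattice of a subspace:
    `s27mulaLat R U = { x ∈ U | x ∈ R.O }`     (an `R.A`-submodule of `F`).

* `s27mula_mem`   : `h` a Gauss unit, (`x ∈ U₁ ↔ h x ∈ U₂`) ⇒ (`x ∈ Lat U₁ ↔ h x ∈ Lat U₂`);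
* `s27mulaEquiv`  : multiplication by `h`, an `R.A`-linear equivalence `Lat U₁ ≃ Lat U₂`;
* `s27mula_map`   : `h · Lat U₁ = Lat U₂`;
* `s27mula_exists`: for ANY `h ≠ 0` with (`x ∈ U₁ ↔ h x ∈ U₂`) there are `c ∈ Lˣ` and an equivalence
                    `Lat U₁ ≃ Lat U₂`, `x ↦ (c h) x`, with `c h` a Gauss unit   (`h₀ := c h` "normalised");
* `s27mula_unit_mul`, `s27mula_unit_inv` : Gauss units form a group (LE2 (b)).
-/
import Fermat.Agent.S27.Mult

set_option autoImplicit false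

noncomputable section

namespace Fermat.Agent.S27

open AlgebraicCurve Fermat.Agent.DEU

variable {L F k Fb : Type*} [Field L] [Field F] [Algebra L F] [Field k] [Field Fb] [Algebra k Fb]
variable (R : RedData L F k Fb)

/-- Gauss units are closed under multiplication. -/
theorem s27mula_unit_mul {h h' : F} (hu : S27multUnit R h) (hu' : S27multUnit R h') :
    S27multUnit R (h * h') := by
  obtain ⟨hh, hr⟩ := hu
  obtain ⟨hh', hr'⟩ := hu'
  refine ⟨R.O.mul_mem hh hh', ?_⟩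
  have : (⟨h * h', R.O.mul_mem hh hh'⟩ : R.O) = ⟨h, hh⟩ * ⟨h', hh'⟩ := rfl
  rw [this, map_mul]
  exact mul_ne_zero hr hr'

/-- Gauss units are closed under inverses. -/
theorem s27mula_unit_inv {h : F} (hu : S27multUnit R h) : S27multUnit R h⁻¹ :=
  s27mult_unit_inv R hu

/-- `1` is a Gauss unit. -/
theorem s27mula_unit_one : S27multUnit R (1 : F) := by
  refine ⟨R.O.one_mem, ?_⟩
  have : (⟨1, R.O.one_mem⟩ : R.O) = 1 := rfl
  rw [this, map_one]
  exact one_ne_zero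

/-- the **Gauss lattice** of an `L`-subspace `U` of `F`. -/
def s27mulaLat (U : Submodule L F) : Submodule R.A F where
  carrier := {x | x ∈ U ∧ x ∈ R.O}
  zero_mem' := ⟨U.zero_mem, R.O.zero_mem⟩
  add_mem' := fun hx hy => ⟨U.add_mem hx.1 hy.1, R.O.add_mem hx.2 hy.2⟩
  smul_mem' := by
    intro a x hx
    refine ⟨?_, ?_⟩
    · rw [s27mult_smul_def, ← Algebra.smul_def]
      exact U.smul_mem _ hx.1
    · rw [s27mult_smul_def]
      exact R.O.mul_mem (R.algebraMap_mem a) hx.2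

theorem s27mula_mem_lat {U : Submodule L F} {x : F} :
    x ∈ s27mulaLat R U ↔ x ∈ U ∧ x ∈ R.O := Iff.rfl

/-- the Gauss lattice of a Riemann–Roch space is the lattice of `S27/Mult.lean`. -/
theorem s27mula_lat_rr (B : Divisor L F) :
    s27mulaLat R (riemannRochSpace B) = s27multLat R B := rfl

theorem s27mula_lat_mono {U U' : Submodule L F} (h : U ≤ U') :
    s27mulaLat R U ≤ s27mulaLat R U' := fun _ hx => ⟨h hx.1, hx.2⟩

/-- **MULT**: `x ∈ Lat U₁ ↔ h x ∈ Lat U₂`. -/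
theorem s27mula_mem {h : F} (hu : S27multUnit R h) (U₁ U₂ : Submodule L F)
    (hU : ∀ x, x ∈ U₁ ↔ h * x ∈ U₂) (x : F) :
    x ∈ s27mulaLat R U₁ ↔ h * x ∈ s27mulaLat R U₂ := by
  rw [s27mula_mem_lat, s27mula_mem_lat, hU x, ← s27mult_gauss R hu x]

/-- **MULT, module form**. -/
def s27mulaEquiv {h : F} (hu : S27multUnit R h) (U₁ U₂ : Submodule L F)
    (hU : ∀ x, x ∈ U₁ ↔ h * x ∈ U₂) : s27mulaLat R U₁ ≃ₗ[R.A] s27mulaLat R U₂ where
  toFun x := ⟨h * x.1, (s27mula_mem R hu U₁ U₂ hU x.1).1 x.2⟩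
  invFun y := ⟨h⁻¹ * y.1, by
    have h0 := s27mult_unit_ne_zero R hu
    rw [s27mula_mem R hu U₁ U₂ hU, ← mul_assoc, mul_inv_cancel₀ h0, one_mul]
    exact y.2⟩
  map_add' x y := by
    apply Subtype.ext
    show h * (x.1 + y.1) = h * x.1 + h * y.1
    ring
  map_smul' a x := by
    apply Subtype.ext
    show h * (a • x.1) = a • (h * x.1)
    simp only [s27mult_smul_def]
    ring
  left_inv x := by
    apply Subtype.ext
    show h⁻¹ * (h * x.1) = x.1
    rw [← mul_assoc, inv_mul_cancel₀ (s27mult_unit_ne_zero R hu), one_mul]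
  right_inv y := by
    apply Subtype.ext
    show h * (h⁻¹ * y.1) = y.1
    rw [← mul_assoc, mul_inv_cancel₀ (s27mult_unit_ne_zero R hu), one_mul]

@[simp] theorem s27mulaEquiv_apply {h : F} (hu : S27multUnit R h) (U₁ U₂ : Submodule L F)
    (hU : ∀ x, x ∈ U₁ ↔ h * x ∈ U₂) (x : s27mulaLat R U₁) :
    ((s27mulaEquiv R hu U₁ U₂ hU x : s27mulaLat R U₂) : F) = h * (x : F) := rfl

/-- **MULT, image form**: `h · Lat U₁ = Lat U₂`. -/
theorem s27mula_map {h : F} (hu : S27multUnit R h) (U₁ U₂ : Submodule L F)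
    (hU : ∀ x, x ∈ U₁ ↔ h * x ∈ U₂) :
    (s27mulaLat R U₁).map (s27multMul R h) = s27mulaLat R U₂ := by
  ext y
  constructor
  · rintro ⟨x, hx, rfl⟩
    exact (s27mula_mem R hu U₁ U₂ hU x).1 hx
  · intro hy
    have h0 := s27mult_unit_ne_zero R hu
    refine ⟨h⁻¹ * y, ?_, ?_⟩
    · show h⁻¹ * y ∈ s27mulaLat R U₁
      rw [s27mula_mem R hu U₁ U₂ hU, ← mul_assoc, mul_inv_cancel₀ h0, one_mul]
      exact hy
    · show h * (h⁻¹ * y) = y
      rw [← mul_assoc, mul_inv_cancel₀ h0, one_mul]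

/-- **MULT for an arbitrary `h ≠ 0`** (normalise by a constant): there are `c ≠ 0` and an
`R.A`-linear equivalence `Lat U₁ ≃ Lat U₂`, `x ↦ (c h) x`, with `c h` a Gauss unit. -/
theorem s27mula_exists {h : F} (hh : h ≠ 0) (U₁ U₂ : Submodule L F)
    (hU : ∀ x, x ∈ U₁ ↔ h * x ∈ U₂) :
    ∃ (c : L) (_ : c ≠ 0) (_ : S27multUnit R (algebraMap L F c * h))
      (e : s27mulaLat R U₁ ≃ₗ[R.A] s27mulaLat R U₂),
      ∀ x : s27mulaLat R U₁, ((e x : s27mulaLat R U₂) : F) = algebraMap L F c * h * (x : F) := by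
  obtain ⟨c, hc, hmem, hred⟩ := R.exists_scale h hh
  have hu : S27multUnit R (algebraMap L F c * h) := ⟨hmem, hred⟩
  have hU' : ∀ x, x ∈ U₁ ↔ algebraMap L F c * h * x ∈ U₂ := by
    intro x
    rw [hU x, mul_assoc, ← Algebra.smul_def]
    constructor
    · intro hx
      exact U₂.smul_mem c hx
    · intro hx
      have := U₂.smul_mem c⁻¹ hx
      rwa [smul_smul, inv_mul_cancel₀ hc, one_smul] at this
  exact ⟨c, hc, hu, s27mulaEquiv R hu U₁ U₂ hU', fun x => rfl⟩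

end Fermat.Agent.S27

end
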