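/-
S27-B, geometry leaf NAT, part 2 (helper90): the ADAPTED pairs of AD-EX (S27/AdEx.lean, helper6) and the
MIN-MINOR lattice data (S27/DetMin.lean, helper60) are natural.

`σ : 𝔏 →+* 𝔏′` a homomorphism of fields, `W′ ⊂ 𝔏′` a valuation subring, `W := W′.comap σ`, points
`R i : F →+* 𝔏`.

* `S27natAdapted W R n t a`  : the conclusion of `s27adex_exists` as a predicate;
  `s27nat_adapted_of_adex`    : AD-EX in this form;
* **`s27nat_adapted_iff`**    : `(t, a)` adapted to `(W, R)` ⇔ adapted to `(W′, σ ∘ R)`;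
* **`s27nat_adapted_form`**   : NAT for the point formula of an adapted pair:
  `σ (s27natForm R f t a) = s27natForm (σ ∘ R) f t a` with `(t, a)` adapted on BOTH sides;
* `s27nat_dmDet`, **`s27nat_min_iff`** : the minimal minor of a family of vectors (the lattice `M_W`) is
  transported: `σ₀` is minimal for `(e, W)` ⇔ for `(σ ∘ e, W′)`;
* `s27nat_lat_form`            : NAT for the lattice form `det[ev f_l] / det(min-minor)`.
-/
import Fermat.Agent.S27.Nat
import Fermat.Agent.S27.AdEx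
import Fermat.Agent.S27.DetMin

set_option autoImplicit false

noncomputable section

namespace Fermat.Agent.S27

open AlgebraicCurve

universe u₁ u₂

section Nonunits

variable {𝔏 : Type u₁} {𝔏' : Type u₂} [Field 𝔏] [Field 𝔏'] (σ : 𝔏 →+* 𝔏')
  (W' : ValuationSubring 𝔏')

theorem s27nat_nonunits_iff (x : 𝔏) : x ∈ (W'.comap σ).nonunits ↔ σ x ∈ W'.nonunits := by
  rw [ValuationSubring.mem_nonunits_iff, ValuationSubring.mem_nonunits_iff]
  exact s27nat_val_lt_iff σ W' x

end Nonunits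

section Adapted

variable {K : Type*} {F : Type*} [Field K] [Field F] [Algebra K F]
  {𝔏 : Type u₁} {𝔏' : Type u₂} [Field 𝔏] [Field 𝔏']

/-- `(t, a)` is ADAPTED to the valuation subring `W` and the points `R i` (with prescribed orders
`n Q` of `a` at the centres): the conclusion of `s27adex_exists`. -/
def S27natAdapted {ι : Type*} (W : ValuationSubring 𝔏) (R : ι → F →+* 𝔏)
    (n : Place K F → ℤ) (t a : F) : Prop :=
  a ≠ 0 ∧ (∀ c : K, t ≠ algebraMap K F c) ∧ (∀ i, R i t ∈ W) ∧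
    (∀ i (Q : Place K F), W.comap (R i) = Q.toValuationSubring →
      (∃ c : K, Q.ord (t - algebraMap K F c) = 1) ∧ Q.ord a = n Q) ∧
    (∀ i j, (∃ f : F, R i f ∈ W ∧ R j f ∈ W ∧ R i f - R j f ∉ W.nonunits) →
      R i t - R j t ∉ W.nonunits)

/-- AD-EX (helper6) in predicate form. -/
theorem s27nat_adapted_of_adex [Algebra K 𝔏] [Infinite K] {ι : Type*} [Finite ι]
    (W : ValuationSubring 𝔏) (hW : ∀ c : K, algebraMap K 𝔏 c ∈ W) (R : ι → F →ₐ[K] 𝔏)
    (hres : ∀ Q : Place K F, ∀ f ∈ Q.toValuationSubring,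
      ∃ c : K, f - algebraMap K F c ∈ Q.toValuationSubring.nonunits)
    (hred : ∀ i, (∀ f : F, R i f ∈ W) ∨
      ∃ Q : Place K F, W.comap (R i : F →+* 𝔏) = Q.toValuationSubring)
    (hF : ∃ f : F, ∀ c : K, f ≠ algebraMap K F c) (n : Place K F → ℤ) :
    ∃ t a : F, S27natAdapted W (fun i => (R i : F →+* 𝔏)) n t a :=
  s27adex_exists W hW R hres hred hF n

/-- **NAT for adapted pairs**: adapted to `(W′.comap σ, R)` ⇔ adapted to `(W′, σ ∘ R)`. -/
theorem s27nat_adapted_iff (σ : 𝔏 →+* 𝔏') (W' : ValuationSubring 𝔏') {ι : Type*}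
    (R : ι → F →+* 𝔏) (n : Place K F → ℤ) (t a : F) :
    S27natAdapted (W'.comap σ) R n t a ↔ S27natAdapted W' (fun i => σ.comp (R i)) n t a := by
  unfold S27natAdapted
  simp only [s27nat_comap_comp, s27nat_mem, s27nat_nonunits_iff, map_sub, RingHom.comp_apply]

/-- **NAT for the point formula of an adapted pair.** -/
theorem s27nat_adapted_form (σ : 𝔏 →+* 𝔏') (W' : ValuationSubring 𝔏') {N : ℕ}
    (R : Fin N → F →+* 𝔏) (n : Place K F → ℤ) (t a : F)
    (h : S27natAdapted (W'.comap σ) R n t a) (f : Fin N → F) :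
    S27natAdapted W' (fun i => σ.comp (R i)) n t a ∧
      σ (s27natForm R f t a) = s27natForm (fun i => σ.comp (R i)) f t a :=
  ⟨(s27nat_adapted_iff σ W' R n t a).1 h, s27nat_map_form σ R f t a⟩

end Adapted

section Lattice

variable {𝔏 : Type u₁} {𝔏' : Type u₂} [Field 𝔏] [Field 𝔏'] (σ : 𝔏 →+* 𝔏')
  (W' : ValuationSubring 𝔏') {ι J : Type*} [Fintype ι] [DecidableEq ι]

/-- the minors are transported. -/
theorem s27nat_dmDet (e : J → ι → 𝔏) (τ : ι → J) :
    s27dmDet (fun l i => σ (e l i)) τ = σ (s27dmDet e τ) := by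
  unfold s27dmDet
  rw [RingHom.map_det]
  rfl

/-- **the minimal minor is transported**: `σ₀` is a minimal minor of the family `e` for
`W = W′.comap σ` iff it is one of the family `σ ∘ e` for `W′`. -/
theorem s27nat_min_iff (e : J → ι → 𝔏) (σ₀ : ι → J) :
    (s27dmDet e σ₀ ≠ 0 ∧ ∀ τ : ι → J, s27dmDet e τ / s27dmDet e σ₀ ∈ W'.comap σ) ↔
      (s27dmDet (fun l i => σ (e l i)) σ₀ ≠ 0 ∧
        ∀ τ : ι → J, s27dmDet (fun l i => σ (e l i)) τ
          / s27dmDet (fun l i => σ (e l i)) σ₀ ∈ W') := by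
  simp only [s27nat_dmDet, s27nat_mem, map_div₀, Ne, map_eq_zero]

/-- the local equation in lattice form: `det [x l i] / (minimal minor of the family e)`. -/
def s27natLat (x : ι → ι → 𝔏) (e : J → ι → 𝔏) (σ₀ : ι → J) : 𝔏 :=
  (Matrix.of fun i l => x l i).det / s27dmDet e σ₀

/-- NAT for the lattice form. -/
theorem s27nat_lat_form (x : ι → ι → 𝔏) (e : J → ι → 𝔏) (σ₀ : ι → J) :
    σ (s27natLat x e σ₀)
      = s27natLat (fun l i => σ (x l i)) (fun l i => σ (e l i)) σ₀ := by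
  unfold s27natLat
  rw [map_div₀, s27nat_dmDet, RingHom.map_det]
  rfl

/-- the lattice form does not depend on the minimal minor, up to a unit of `W` (DetMin), and this
is transported: two minimal minors for `W = W′.comap σ` give `≐_W′` images. -/
theorem s27nat_lat_rel (x : ι → ι → 𝔏) (e : J → ι → 𝔏) (σ₀ σ₁ : ι → J)
    (h0 : s27dmDet e σ₀ ≠ 0) (h1 : s27dmDet e σ₁ ≠ 0)
    (hmin0 : ∀ τ : ι → J, s27dmDet e τ / s27dmDet e σ₀ ∈ W'.comap σ)
    (hmin1 : ∀ τ : ι → J, s27dmDet e τ / s27dmDet e σ₁ ∈ W'.comap σ) :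
    ∃ u', S27IsUnitIn W' u' ∧
      σ (s27natLat x e σ₀) = u' * σ (s27natLat x e σ₁) := by
  apply s27nat_rel σ W'
  obtain ⟨hu1, hu2, hu3⟩ := s27dm_min_unique (W'.comap σ) e σ₀ σ₁ h0 h1 hmin0 hmin1
  refine ⟨s27dmDet e σ₁ / s27dmDet e σ₀, ⟨hu3, hu1, hu2⟩, ?_⟩
  unfold s27natLat
  field_simp

end Lattice

end Fermat.Agent.S27

end
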