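/-
S27 route B, piece NAT-INST (helper15): the hypothesis `hnat` of the hub's CUBE-K
(`s27ck_cubeUp`, `s27ck_crux`, S27/CubeK.lean) ON THE MODEL, for the family `ψ = s27pfPsi`
(S27/PsiFam.lean) and `η = cl p` (`p` the tautological points), from PSI-NAT
(`s27pn_indB_of_lift`, helper84) and the class identity `cl (q j) = j • cl p` of the family.

`Idx W c y` ("`y` is a local equation along `W` of the theta divisor at the class `c`") is ANY
predicate with

  (hIdx)  `S27ptIsIdx W R A y → Idx W (cl (pt ∘ R)) y`   for tuples `R` of `g` points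

(`A = 2 G₀ − O″`; for the concrete `Idx W c y := ∃ N R A', cls R A' = c ∧ S27ptIsIdx W R A' y`
with `cls R A' = [Σ pt (R i) − Con A' + Con (G₀ − O″)]` this is the identity
`cls R A = [Σ pt (R i) − Con G₀] = pkg.cl (pt ∘ R)`).

* `s27ni_nat_of_spec` : abstract form (any `ψ` with the spec of S27/PsiFam.lean and any `cl`);
* `s27ni_nat`         : `∀ j ≠ 0, S27ckNat K (s27pfPsi pkg halg hq) β Idx (s27pfCl pkg p) j`.
-/
import Fermat.Agent.S27.PsiNat
import Fermat.Agent.S27.CubeK
import Fermat.Agent.S27.PsiFam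

set_option autoImplicit false
set_option linter.unusedVariables false
set_option linter.unusedSectionVars false
set_option linter.style.haveILetI false

noncomputable section

namespace Fermat.Agent.S27

open AlgebraicCurve

universe u v x y

section NatInst

variable {K : Type u} {F : Type v} [Field K] [IsAlgClosed K] [Field F] [Algebra K F] {g : ℕ}
variable {L : Type (max u v)} [Field L] [Algebra K L] [Algebra (s27gfOm K F g) L]
  [IsScalarTower K (s27gfOm K F g) L] [IsAlgClosed L] [Algebra.IsAlgebraic (s27gfOm K F g) L]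

/-- **NAT-INST, abstract form**: `ψ j` has the spec at the tuple `q j`, the class of `q j` is
`j • η`, and local equations at a tuple are local equations at its class. -/
theorem s27ni_nat_of_spec {C : Type y} [AddCommGroup C]
    (A : Divisor K F) (β : ValuationSubring (s27gfSym K F g) → s27gfSym K F g)
    (hβ : S27pnBeta (L := L) (s27pnTaut (K := K) (F := F) (g := g) (L := L)) A β)
    (ψ : ℤ → (s27gfSym K F g →ₐ[K] s27gfSym K F g)) (q : ℤ → Fin g → F →ₐ[K] L)
    (cl : (Fin g → F →ₐ[K] L) → C) (η : C)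
    (Idx : ValuationSubring L → C → L → Prop)
    (hIdx : ∀ (W : ValuationSubring L), S27IsKValU K W → ∀ (R : Fin g → F →ₐ[K] L) (y : L),
      S27ptIsIdx W R A y → Idx W (cl R) y)
    (j : ℤ) (hj : j ≠ 0) (hcl : cl (q j) = j • η)
    (hspec : ∃ he : Function.Injective (s27gfLiftR (q j)), ∀ s : s27gfSym K F g,
      algebraMap (s27gfOm K F g) L ((ψ j s : s27gfSym K F g) : s27gfOm K F g) =
        s27psiT (q j) he (s : s27gfOm K F g)) :
    S27ckNat K ψ β Idx η j := by
  intro W hW
  obtain ⟨x, hx, u, hu, hxu⟩ := s27pn_indB_of_lift A β hβ ψ q j hj hspec W hW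
  refine ⟨x, ?_, u, hu, hxu⟩
  rw [← hcl]
  exact hIdx W hW (q j) x hx

variable {t : F} {Pl : Type x} {P : Type y} [AddCommGroup P] (pkg : S27DegPkg K F L t g Pl P)
variable [IsGalois (s27gfSym K F g) L]

/-- **NAT-INST**: `hnat` of `s27ck_crux` for the family `ψ = s27pfPsi pkg halg hq`,
`η = s27pfCl pkg p`. -/
theorem s27ni_nat (halg : ∀ f : F, IsAlgebraic (IntermediateField.adjoin K {t}) f)
    {q : ℤ → Fin g → F →ₐ[K] L} (hq : S27pfFam pkg q)
    (A : Divisor K F) (β : ValuationSubring (s27gfSym K F g) → s27gfSym K F g)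
    (hβ : S27pnBeta (L := L) (s27pnTaut (K := K) (F := F) (g := g) (L := L)) A β)
    (Idx : ValuationSubring L → P → L → Prop)
    (hIdx : ∀ (W : ValuationSubring L), S27IsKValU K W → ∀ (R : Fin g → F →ₐ[K] L) (y : L),
      S27ptIsIdx W R A y → Idx W (s27pfCl pkg R) y)
    (j : ℤ) (hj : j ≠ 0) :
    S27ckNat K (s27pfPsi pkg halg hq) β Idx
      (s27pfCl pkg (s27pfTaut (K := K) (F := F) (g := g) (L := L))) j :=
  s27ni_nat_of_spec A β hβ (s27pfPsi pkg halg hq) q (s27pfCl pkg) _ Idx hIdx j hj (hq j hj).2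
    ⟨(s27pf_fam_pt pkg halg hq j hj).inj, fun s => s27pfPsi_spec pkg halg hq j hj s⟩

end NatInst

end Fermat.Agent.S27
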