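/-
S27 route B (item 27), leaf NEWTON-VAL (helper51, prefix s27nv_), for ALG-bound / POLE-DIV:
**a germ which vanishes at `r` points with the same centre is divisible, at every other point `j`
of this centre, by `∏_i (ι j t − ι i t)`** — in particular its value at the CONSTANT point of a
closed centre (`ι₀ t = 0`) is divisible by `∏_i ι i t`.

Setting of `S27/Diag.lean` (helper50): `D` a `K`-algebra essentially of finite type, formally
unramified over `K[t]`, `R` a local DOMAIN over `K` (the valuation ring `W`), points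
`ι i : D →ₐ[K] R` pairwise congruent modulo `𝔪_R`.

* `s27nv_fun_dvd`      : a germ `φ` with `φ i = 0` for `i ∈ l` (coordinates `ι i t`, `i ∈ l`,
  pairwise different) is `φ j = ∏_{i ∈ l} (ι j t − ι i t) · φ' j` with a germ `φ'`;
* `s27nv_fun_dvd_fin`  : the same for a `Finset`;
* `s27nv_value`        : `u ∈ D ⊗[K] R` with `u(ι i) = 0` for `i : Fin r` (coordinates pairwise
  different) and `ι₀` a point with the same centre: `u(ι₀) = ∏_i (ι₀ t − ι i t) · w`, `w ∈ R`;
* `s27nvConst`, `s27nv_value_local` : closed centre `D = 𝒪_Q`, `𝔪 = (t)`, residue field `K`: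
  the constant point `ι₀ = (D → K → R)` and **`u(Q) ∈ ∏_i ι i t · R`**.
-/
import Fermat.Agent.S27.Diag

set_option autoImplicit false
set_option linter.unusedSectionVars false
set_option linter.style.haveILetI false

namespace Fermat.Agent.S27

open IsLocalRing Polynomial
open scoped TensorProduct

section Core

variable {K D R : Type*} [Field K] [CommRing D] [Algebra K D] [CommRing R] [IsLocalRing R]
  [IsDomain R] [Algebra K R] {I : Type*}

/-- **NEWTON-VAL, germ form**: a germ vanishing at the points of `l` is divisible by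
`∏_{i ∈ l} (t − ι i t)` in the ring of germs. -/
theorem s27nv_fun_dvd [Algebra.EssFiniteType K D] (t : D)
    (hunr : Algebra.FormallyUnramified (Algebra.adjoin K {t}) D)
    (ι : I → D →ₐ[K] R) (hc : ∀ i j, S27diagCong (ι i) (ι j)) :
    ∀ l : List I, l.Pairwise (fun i j => ι i t ≠ ι j t) → ∀ φ : I → R, S27diagFun ι φ →
      (∀ i ∈ l, φ i = 0) →
      ∃ φ' : I → R, S27diagFun ι φ' ∧
        ∀ j, φ j = (l.map fun i => ι j t - ι i t).prod * φ' j := by
  intro l
  induction l with
  | nil =>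
    intro _ φ hφ _
    exact ⟨φ, hφ, fun j => by simp⟩
  | cons k l ih =>
    intro hl φ hφ h0
    obtain ⟨hk, hl'⟩ := List.pairwise_cons.mp hl
    obtain ⟨φ₁, hφ₁, hstep⟩ := s27diag_fun_step t hunr ι hc hφ k
    have hφk : φ k = 0 := h0 k List.mem_cons_self
    have hφ₁0 : ∀ i ∈ l, φ₁ i = 0 := by
      intro i hi
      have h1 := hstep i
      rw [hφk, sub_zero, h0 i (List.mem_cons_of_mem _ hi)] at h1
      rcases mul_eq_zero.mp h1.symm with h2 | h2
      · exact absurd (sub_eq_zero.mp h2).symm (hk i hi)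
      · exact h2
    obtain ⟨φ', hφ', hprod⟩ := ih hl' φ₁ hφ₁ hφ₁0
    refine ⟨φ', hφ', fun j => ?_⟩
    have h1 := hstep j
    rw [hφk, sub_zero] at h1
    rw [h1, hprod j, List.map_cons, List.prod_cons, mul_assoc]

/-- **NEWTON-VAL, germ form**, for a `Finset` of points. -/
theorem s27nv_fun_dvd_fin [Algebra.EssFiniteType K D] (t : D)
    (hunr : Algebra.FormallyUnramified (Algebra.adjoin K {t}) D)
    (ι : I → D →ₐ[K] R) (hc : ∀ i j, S27diagCong (ι i) (ι j))
    (S : Finset I) (hS : ∀ i ∈ S, ∀ j ∈ S, ι i t = ι j t → i = j)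
    (φ : I → R) (hφ : S27diagFun ι φ) (h0 : ∀ i ∈ S, φ i = 0) :
    ∃ φ' : I → R, S27diagFun ι φ' ∧ ∀ j, φ j = (∏ i ∈ S, (ι j t - ι i t)) * φ' j := by
  classical
  have hnd : S.toList.Nodup := S.nodup_toList
  have hpw : S.toList.Pairwise (fun i j => ι i t ≠ ι j t) := by
    refine (List.pairwise_iff_forall_sublist.mpr ?_)
    intro a b hab h
    have ha : a ∈ S := Finset.mem_toList.mp (hab.subset (by simp))
    have hb : b ∈ S := Finset.mem_toList.mp (hab.subset (by simp))
    have hab' : a = b := hS a ha b hb h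
    subst hab'
    have : [a, a].Nodup := hnd.sublist hab
    simp at this
  obtain ⟨φ', hφ', h⟩ := s27nv_fun_dvd t hunr ι hc S.toList hpw φ hφ
    (fun i hi => h0 i (Finset.mem_toList.mp hi))
  refine ⟨φ', hφ', fun j => ?_⟩
  rw [h j, Finset.prod_map_toList]

/-- **NEWTON-VAL**: `u ∈ D ⊗[K] R` vanishing at the points `ι i`, `i : Fin r`; then at every point
`ι₀` with the same centre `u(ι₀) ∈ ∏_i (ι₀ t − ι i t) · R`. -/
theorem s27nv_value [Algebra.EssFiniteType K D] (t : D)
    (hunr : Algebra.FormallyUnramified (Algebra.adjoin K {t}) D) {r : ℕ}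
    (ι₀ : D →ₐ[K] R) (ι : Fin r → D →ₐ[K] R)
    (hc₀ : ∀ i, S27diagCong ι₀ (ι i))
    (hinj : Function.Injective fun i => ι i t)
    (u : D ⊗[K] R) (hu : ∀ i, s27diagEv (ι i) u = 0) :
    ∃ w : R, s27diagEv ι₀ u = (∏ i, (ι₀ t - ι i t)) * w := by
  classical
  -- the family of all the points, indexed by `Option (Fin r)`
  let J : Option (Fin r) → D →ₐ[K] R := fun o => o.elim ι₀ ι
  have hcJ : ∀ a b, S27diagCong (J a) (J b) := by
    intro a b
    rcases a with _ | a <;> rcases b with _ | b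
    · exact s27diag_cong_refl _
    · exact hc₀ b
    · exact s27diag_cong_symm (hc₀ a)
    · exact s27diag_cong_trans (s27diag_cong_symm (hc₀ a)) (hc₀ b)
  have hφ : S27diagFun J (fun o => s27diagEv (J o) u) :=
    ⟨u, 1, fun o => by rw [map_one]; exact isUnit_one, fun o => by rw [map_one, one_mul]⟩
  let S : Finset (Option (Fin r)) := Finset.univ.map ⟨some, Option.some_injective _⟩
  have hS : ∀ a ∈ S, ∀ b ∈ S, J a t = J b t → a = b := by
    intro a ha b hb hab
    obtain ⟨i, -, rfl⟩ := Finset.mem_map.mp ha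
    obtain ⟨j, -, rfl⟩ := Finset.mem_map.mp hb
    have : i = j := hinj hab
    rw [this]
  have h0 : ∀ a ∈ S, s27diagEv (J a) u = 0 := by
    intro a ha
    obtain ⟨i, -, rfl⟩ := Finset.mem_map.mp ha
    exact hu i
  obtain ⟨φ', -, h⟩ := s27nv_fun_dvd_fin t hunr J hcJ S hS _ hφ h0
  refine ⟨φ' none, ?_⟩
  have h1 := h none
  rw [Finset.prod_map] at h1
  exact h1

end Core

/-! ### The closed centre -/

section Closed

open Fermat.Agent.S26

universe u

variable {K D : Type u} [Field K] [CommRing D] [IsDomain D] [IsLocalRing D] [Algebra K D]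
  [Algebra.EssFiniteType K D] {R : Type*} [CommRing R] [IsLocalRing R] [IsDomain R] [Algebra K R]

/-- **NEWTON-VAL at a closed centre**: `D = 𝒪_Q`, `𝔪_Q = (t)`, residue field `K`; `ι₀` the constant
point (`ι₀ t = 0`), `ι i` points through `Q` with pairwise different coordinates, `u ∈ 𝒪_Q ⊗ R`
vanishing at the `ι i`.  Then `u(Q) ∈ ∏_i ι i t · R`. -/
theorem s27nv_value_local
    (hres : ∀ r : D, ∃ c : K, r - algebraMap K D c ∈ maximalIdeal D)
    (t : D) (ht : maximalIdeal D = Ideal.span {t}) {r : ℕ}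
    (ι₀ : D →ₐ[K] R) (h₀ : ι₀ t = 0) (ι : Fin r → D →ₐ[K] R)
    (h : ∀ i, ∀ x ∈ maximalIdeal D, ι i x ∈ maximalIdeal R)
    (hinj : Function.Injective fun i => ι i t)
    (u : D ⊗[K] R) (hu : ∀ i, s27diagEv (ι i) u = 0) :
    ∃ w : R, s27diagEv ι₀ u = (∏ i, ι i t) * w := by
  have h₀' : ∀ x ∈ maximalIdeal D, ι₀ x ∈ maximalIdeal R := by
    intro x hx
    rw [ht, Ideal.mem_span_singleton] at hx
    obtain ⟨y, rfl⟩ := hx
    rw [map_mul, h₀, zero_mul]
    exact zero_mem _
  obtain ⟨w, hw⟩ := s27nv_value t (s26ecrvf_unramified hres t ht) ι₀ ι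
    (fun i => s27diag_cong_of_local hres ι₀ (ι i) h₀' (h i)) hinj u hu
  refine ⟨(-1) ^ r * w, ?_⟩
  rw [hw]
  have h1 : (∏ i, (ι₀ t - ι i t)) = (-1) ^ r * ∏ i, ι i t := by
    have : ∀ i : Fin r, ι₀ t - ι i t = (-1) * ι i t := fun i => by rw [h₀]; ring
    rw [Finset.prod_congr rfl (fun i _ => this i), Finset.prod_mul_distrib,
      Finset.prod_const, Finset.card_univ, Fintype.card_fin]
  rw [h1]
  ring

end Closed

end Fermat.Agent.S27
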