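/-
S27 route B (item 27), leaf NEWTON-VAL, STEP form + PLACE form (helper51, prefix s27nvp_), for
ALG-bound / POLE-DIV (C2): **the value at a closed point `Q` of a `W`-integral function which
vanishes at `r` distinct points with centre `Q` is divisible by `∏_i R_i(π)`**.

* `s27nvp_fun_dvd`, `s27nvp_value` : the statements of `S27/NewtonVal.lean` from the
  divided-difference step `S27eiStep K D t R` (helper50) instead of `EssFiniteType` + unramified;
* `s27nvpRes`, `s27nvpConst`   : the residue map `𝒪_Q → K` and the constant point `𝒪_Q → K → W`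
  of a place `Q` with residue field `K`;
* `s27nvpPt`                   : a point `R : F →ₐ[K] 𝔏` with centre `Q`, as `𝒪_Q →ₐ[K] W`;
* `s27nvp_step`                : `S27eiStep` at the local ring of a place of a curve;
* `s27nvp_pi_injective`        : distinct points with centre `Q` have distinct coordinates `R π`;
* **`s27nvp_value_tensor`**    : `u ∈ 𝒪_Q ⊗[K] W`, `u(R_i) = 0` ⇒ `u(Q) = (∏ R_i π) · w`, `w ∈ W`;
* **`s27nvp_value_sum`**       : coordinate form: `x j ∈ 𝒪_Q` with values `c j ∈ K` at `Q`,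
  `w j ∈ W`, `∑_j R_i (x j) · w j = 0` for all `i` ⇒ `∑_j c j · w j ∈ (∏_i R_i π) · W`.
-/
import Fermat.Agent.S27.EffInstCl
import Fermat.Agent.S27.EffInstF
import Fermat.Agent.S27.NewtonCrv

set_option autoImplicit false
set_option linter.unusedSectionVars false
set_option linter.unusedVariables false
set_option linter.style.haveILetI false

noncomputable section

namespace Fermat.Agent.S27

open IsLocalRing Polynomial AlgebraicCurve Fermat.Agent.S24
open scoped TensorProduct

/-! ### The step form -/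

section Step

variable {K D R : Type*} [Field K] [CommRing D] [Algebra K D] [CommRing R] [IsLocalRing R]
  [IsDomain R] [Algebra K R]

/-- **NEWTON-VAL, germ form**, from the divided-difference step. -/
theorem s27nvp_fun_dvd (t : D) (hstep : S27eiStep K D t R) {I : Type}
    (ι : I → D →ₐ[K] R) (hc : ∀ i j, S27diagCong (ι i) (ι j)) :
    ∀ l : List I, l.Pairwise (fun i j => ι i t ≠ ι j t) → ∀ φ : I → R, S27diagFun ι φ →
      (∀ i ∈ l, φ i = 0) →
      ∃ φ' : I → R, S27diagFun ι φ' ∧
        ∀ j, φ j = (l.map fun i => ι j t - ι i t).prod * φ' j := by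
  intro l
  induction l with
  | nil =>
    intro _ φ hφ _
    exact ⟨φ, hφ, fun j => by simp⟩
  | cons k l ih =>
    intro hl φ hφ h0
    obtain ⟨hk, hl'⟩ := List.pairwise_cons.mp hl
    obtain ⟨φ₁, hφ₁, hst⟩ := hstep I ι hc φ hφ k
    have hφk : φ k = 0 := h0 k List.mem_cons_self
    have hφ₁0 : ∀ i ∈ l, φ₁ i = 0 := by
      intro i hi
      have h1 := hst i
      rw [hφk, sub_zero, h0 i (List.mem_cons_of_mem _ hi)] at h1
      rcases mul_eq_zero.mp h1.symm with h2 | h2
      · exact absurd (sub_eq_zero.mp h2).symm (hk i hi)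
      · exact h2
    obtain ⟨φ', hφ', hprod⟩ := ih hl' φ₁ hφ₁ hφ₁0
    refine ⟨φ', hφ', fun j => ?_⟩
    have h1 := hst j
    rw [hφk, sub_zero] at h1
    rw [h1, hprod j, List.map_cons, List.prod_cons, mul_assoc]

/-- **NEWTON-VAL**, from the divided-difference step: `u ∈ D ⊗[K] R` vanishing at the points
`ι i`, `i : Fin r`; then at every point `ι₀` with the same centre
`u(ι₀) ∈ ∏_i (ι₀ t − ι i t) · R`. -/
theorem s27nvp_value (t : D) (hstep : S27eiStep K D t R) {r : ℕ}
    (ι₀ : D →ₐ[K] R) (ι : Fin r → D →ₐ[K] R)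
    (hc₀ : ∀ i, S27diagCong ι₀ (ι i))
    (hinj : Function.Injective fun i => ι i t)
    (u : D ⊗[K] R) (hu : ∀ i, s27diagEv (ι i) u = 0) :
    ∃ w : R, s27diagEv ι₀ u = (∏ i, (ι₀ t - ι i t)) * w := by
  classical
  let J : Option (Fin r) → D →ₐ[K] R := fun o => o.elim ι₀ ι
  have hcJ : ∀ a b, S27diagCong (J a) (J b) := by
    intro a b
    rcases a with _ | a <;> rcases b with _ | b
    · exact s27diag_cong_refl _
    · exact hc₀ b
    · exact s27diag_cong_symm (hc₀ a)
    · exact s27diag_cong_trans (s27diag_cong_symm (hc₀ a)) (hc₀ b)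
  have hφ : S27diagFun J (fun o => s27diagEv (J o) u) :=
    ⟨u, 1, fun o => by rw [map_one]; exact isUnit_one, fun o => by rw [map_one, one_mul]⟩
  have hpw : ((List.finRange r).map some).Pairwise (fun a b => J a t ≠ J b t) := by
    rw [List.pairwise_map]
    have hnd : (List.finRange r).Pairwise (fun a b => a ≠ b) := List.nodup_finRange r
    exact hnd.imp (fun {a b} hab h => hab (hinj h))
  obtain ⟨φ', -, h⟩ := s27nvp_fun_dvd t hstep J hcJ ((List.finRange r).map some) hpw _ hφ
    (fun a ha => by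
      obtain ⟨i, -, rfl⟩ := List.mem_map.mp ha
      exact hu i)
  refine ⟨φ' none, ?_⟩
  have h1 := h none
  rw [List.map_map] at h1
  have h2 : ((List.finRange r).map ((fun i => J none t - J i t) ∘ some)).prod =
      ∏ i : Fin r, (ι₀ t - ι i t) := by
    rw [← List.ofFn_eq_map, List.prod_ofFn]
    rfl
  rw [h2] at h1
  exact h1

end Step

/-! ### The place form -/

section Place

universe u v w

variable {K : Type u} {F : Type v} [Field K] [Field F] [Algebra K F]
  {𝔏 : Type w} [Field 𝔏] [Algebra K 𝔏]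

/-- `K ≃ κ(Q)` for a place with residue field `K`. -/
def s27nvpE (Q : Place K F) (hres : Function.Surjective (algebraMap K Q.ResidueField)) :
    K ≃+* Q.ResidueField :=
  RingEquiv.ofBijective (algebraMap K Q.ResidueField)
    ⟨(algebraMap K Q.ResidueField).injective, hres⟩

theorem s27nvpE_apply (Q : Place K F)
    (hres : Function.Surjective (algebraMap K Q.ResidueField)) (a : K) :
    s27nvpE Q hres a = algebraMap K Q.ResidueField a := rfl

/-- the residue map `𝒪_Q → K` of a place with residue field `K`. -/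
def s27nvpRes (Q : Place K F) (hres : Function.Surjective (algebraMap K Q.ResidueField)) :
    Q.toValuationSubring →+* K :=
  ((s27nvpE Q hres).symm : Q.ResidueField →+* K).comp
      (IsLocalRing.residue Q.toValuationSubring)

theorem s27nvpRes_apply (Q : Place K F)
    (hres : Function.Surjective (algebraMap K Q.ResidueField)) (a : Q.toValuationSubring) :
    s27nvpRes Q hres a = (s27nvpE Q hres).symm (IsLocalRing.residue Q.toValuationSubring a) :=
  rfl

theorem s27nvpRes_algebraMap (Q : Place K F)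
    (hres : Function.Surjective (algebraMap K Q.ResidueField)) (a : K) :
    s27nvpRes Q hres (algebraMap K Q.toValuationSubring a) = a := by
  rw [s27nvpRes_apply, RingEquiv.symm_apply_eq]
  rfl

/-- `a − res(a) ∈ 𝔪_Q`. -/
theorem s27nvpRes_sub_mem (Q : Place K F)
    (hres : Function.Surjective (algebraMap K Q.ResidueField)) (a : Q.toValuationSubring) :
    a - algebraMap K Q.toValuationSubring (s27nvpRes Q hres a) ∈
      maximalIdeal Q.toValuationSubring := by
  rw [← IsLocalRing.residue_eq_zero_iff, map_sub, sub_eq_zero]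
  have h1 : IsLocalRing.residue Q.toValuationSubring
      (algebraMap K Q.toValuationSubring (s27nvpRes Q hres a)) =
      s27nvpE Q hres (s27nvpRes Q hres a) := rfl
  rw [h1, s27nvpRes_apply, RingEquiv.apply_symm_apply]

/-- the residue map kills the maximal ideal. -/
theorem s27nvpRes_eq_zero (Q : Place K F)
    (hres : Function.Surjective (algebraMap K Q.ResidueField)) {a : Q.toValuationSubring}
    (ha : a ∈ maximalIdeal Q.toValuationSubring) : s27nvpRes Q hres a = 0 := by
  rw [s27nvpRes_apply, (IsLocalRing.residue_eq_zero_iff a).mpr ha, map_zero]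

/-- the value at `Q` is characterised by `a − c ∈ 𝔪_Q`. -/
theorem s27nvpRes_eq (Q : Place K F)
    (hres : Function.Surjective (algebraMap K Q.ResidueField)) {a : Q.toValuationSubring}
    {c : K} (h : a - algebraMap K Q.toValuationSubring c ∈ maximalIdeal Q.toValuationSubring) :
    s27nvpRes Q hres a = c := by
  have h1 := s27nvpRes_eq_zero Q hres h
  rw [map_sub, s27nvpRes_algebraMap, sub_eq_zero] at h1
  exact h1

variable (W : ValuationSubring 𝔏) (hKW : ∀ a : K, algebraMap K 𝔏 a ∈ W)

/-- the constant point `𝒪_Q → K → W`. -/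
def s27nvpConst (Q : Place K F) (hres : Function.Surjective (algebraMap K Q.ResidueField)) :
    @AlgHom K Q.toValuationSubring W _ _ _ _ (s27eifAlg W hKW) :=
  letI := s27eifAlg W hKW
  { toRingHom := (algebraMap K W).comp (s27nvpRes Q hres)
    commutes' := fun a => by
      show algebraMap K W (s27nvpRes Q hres (algebraMap K Q.toValuationSubring a)) = _
      rw [s27nvpRes_algebraMap] }

theorem s27nvpConst_coe (Q : Place K F)
    (hres : Function.Surjective (algebraMap K Q.ResidueField)) (a : Q.toValuationSubring) :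
    ((s27nvpConst W hKW Q hres a : W) : 𝔏) = algebraMap K 𝔏 (s27nvpRes Q hres a) := rfl

/-- a point with centre `Q`, as a `K`-algebra homomorphism `𝒪_Q → W`. -/
def s27nvpPt (Q : Place K F) (R : F →ₐ[K] 𝔏)
    (hR : ∀ f : F, f ∈ Q.toValuationSubring → R f ∈ W) :
    @AlgHom K Q.toValuationSubring W _ _ _ _ (s27eifAlg W hKW) :=
  letI := s27eifAlg W hKW
  { toFun := fun d => ⟨R (d : F), hR _ d.2⟩
    map_one' := by apply Subtype.ext; simp
    map_mul' := fun a b => by apply Subtype.ext; simp
    map_zero' := by apply Subtype.ext; simp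
    map_add' := fun a b => by apply Subtype.ext; simp
    commutes' := fun a => by
      apply Subtype.ext
      show R (algebraMap K F a) = algebraMap K 𝔏 a
      rw [AlgHom.commutes] }

theorem s27nvpPt_coe (Q : Place K F) (R : F →ₐ[K] 𝔏)
    (hR : ∀ f : F, f ∈ Q.toValuationSubring → R f ∈ W) (a : Q.toValuationSubring) :
    ((s27nvpPt W hKW Q R hR a : W) : 𝔏) = R (a : F) := rfl

/-- a point with centre `Q` maps `𝔪_Q` into `𝔪_W`. -/
theorem s27nvpPt_mem_maximalIdeal (Q : Place K F) (R : F →ₐ[K] 𝔏)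
    (hR : ∀ f : F, R f ∈ W ↔ f ∈ Q.toValuationSubring) {a : Q.toValuationSubring}
    (ha : a ∈ maximalIdeal Q.toValuationSubring) :
    s27nvpPt W hKW Q R (fun f hf => (hR f).mpr hf) a ∈ maximalIdeal W := by
  rw [IsLocalRing.mem_maximalIdeal, mem_nonunits_iff]
  rintro ⟨v, hv⟩
  apply (IsLocalRing.mem_maximalIdeal a).mp ha
  have hRa : R (a : F) = ((v : W) : 𝔏) := by rw [hv]; rfl
  have h1 : R (a : F) * (((v⁻¹ : Wˣ) : W) : 𝔏) = 1 := by
    rw [hRa]
    exact_mod_cast congrArg (fun z : W => (z : 𝔏)) (Units.mul_inv v)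
  have h3 : R ((a : F)⁻¹) = (((v⁻¹ : Wˣ) : W) : 𝔏) := by
    rw [map_inv₀]
    exact inv_eq_of_mul_eq_one_right h1
  have h4 : (a : F)⁻¹ ∈ Q.toValuationSubring :=
    (hR _).mp (by rw [h3]; exact ((v⁻¹ : Wˣ) : W).2)
  have ha0 : (a : F) ≠ 0 := by
    intro h0
    rw [h0, map_zero] at h1
    simp at h1
  refine ⟨⟨a, ⟨(a : F)⁻¹, h4⟩, ?_, ?_⟩, rfl⟩
  · apply Subtype.ext
    show (a : F) * (a : F)⁻¹ = 1
    exact mul_inv_cancel₀ ha0
  · apply Subtype.ext
    show (a : F)⁻¹ * (a : F) = 1
    exact inv_mul_cancel₀ ha0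

/-- the constant point and a point with centre `Q` are congruent. -/
theorem s27nvp_cong (Q : Place K F) (hres : Function.Surjective (algebraMap K Q.ResidueField))
    (R : F →ₐ[K] 𝔏) (hR : ∀ f : F, R f ∈ W ↔ f ∈ Q.toValuationSubring) :
    @S27diagCong K Q.toValuationSubring W _ _ _ _ _ (s27eifAlg W hKW)
      (s27nvpConst W hKW Q hres) (s27nvpPt W hKW Q R (fun f hf => (hR f).mpr hf)) := by
  letI := s27eifAlg W hKW
  intro b
  have hm := s27nvpRes_sub_mem Q hres b
  have h1 := s27nvpPt_mem_maximalIdeal W hKW Q R hR hm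
  have h2 : s27nvpConst W hKW Q hres b - s27nvpPt W hKW Q R (fun f hf => (hR f).mpr hf) b =
      -(s27nvpPt W hKW Q R (fun f hf => (hR f).mpr hf)
        (b - algebraMap K Q.toValuationSubring (s27nvpRes Q hres b))) := by
    rw [map_sub, AlgHom.commutes]
    show algebraMap K W (s27nvpRes Q hres b) - _ = _
    ring
  rw [h2]
  exact neg_mem h1

section Curve

variable [IsAlgClosed K] [CharZero K] [IsCurveOver K F] [Algebra.EssFiniteType K F]

/-- **the divided-difference step at the local ring of a place of a curve.** -/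
theorem s27nvp_step (Q : Place K F) (hres : Function.Surjective (algebraMap K Q.ResidueField))
    (π : F) (hπ : Q.ord π = 1) :
    @S27eiStep K _ Q.toValuationSubring _ _ (s27nwpPi Q π hπ) W _ _ (s27eifAlg W hKW) :=
  letI := s27eifAlg W hKW
  s27ei_step_of_dvr (s27nwp_irreducible Q π hπ) (s27nwp_hres Q hres π hπ)
    (s27nwp_halg_of Q π hπ
      (s27nwc_halg π (s27nwc_transcendental_of_ord Q π (by rw [hπ]; norm_num))))

/-- distinct points with the same closed centre have distinct coordinates. -/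
theorem s27nvp_pi_injective (Q : Place K F)
    (hres : Function.Surjective (algebraMap K Q.ResidueField)) (π : F) (hπ : Q.ord π = 1)
    {r : ℕ} (R : Fin r → F →ₐ[K] 𝔏)
    (hR : ∀ i, ∀ f : F, R i f ∈ W ↔ f ∈ Q.toValuationSubring)
    (hRinj : Function.Injective R) : Function.Injective fun i => R i π := by
  intro i j hij
  apply hRinj
  have hO : ∀ f : F, f ∈ Q.toValuationSubring → R i f = R j f := by
    intro f hf
    obtain ⟨w, -, hw⟩ := s27nwc_divided_diff Q hres π hπ W (R i) (R j) (hR i) (hR j) f hf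
    have hij' : R i π = R j π := hij
    rw [hij', sub_self, zero_mul] at hw
    exact sub_eq_zero.mp hw
  apply AlgHom.ext
  intro f
  rcases Q.toValuationSubring.mem_or_inv_mem f with hf | hf
  · exact hO f hf
  · have h1 := hO _ hf
    rw [map_inv₀, map_inv₀] at h1
    exact inv_injective h1

/-- **NEWTON-VAL at a place, tensor form.** -/
theorem s27nvp_value_tensor (Q : Place K F)
    (hres : Function.Surjective (algebraMap K Q.ResidueField)) (π : F) (hπ : Q.ord π = 1)
    {r : ℕ} (R : Fin r → F →ₐ[K] 𝔏)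
    (hR : ∀ i, ∀ f : F, R i f ∈ W ↔ f ∈ Q.toValuationSubring)
    (hinj : Function.Injective fun i => R i π) :
    letI := s27eifAlg W hKW
    ∀ u : Q.toValuationSubring ⊗[K] W,
      (∀ i, s27diagEv (s27nvpPt W hKW Q (R i) (fun f hf => (hR i f).mpr hf)) u = 0) →
      ∃ w : W, ((s27diagEv (s27nvpConst W hKW Q hres) u : W) : 𝔏) = (∏ i, R i π) * (w : 𝔏) := by
  letI := s27eifAlg W hKW
  intro u hu
  obtain ⟨w, hw⟩ := s27nvp_value (s27nwpPi Q π hπ) (s27nvp_step W hKW Q hres π hπ)
    (s27nvpConst W hKW Q hres) (fun i => s27nvpPt W hKW Q (R i) (fun f hf => (hR i f).mpr hf))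
    (fun i => s27nvp_cong W hKW Q hres (R i) (hR i))
    (fun i j hij => hinj (congrArg (fun z : W => (z : 𝔏)) hij)) u hu
  refine ⟨(-1) ^ r * w, ?_⟩
  rw [hw]
  have hπm : s27nwpPi Q π hπ ∈ maximalIdeal Q.toValuationSubring := by
    rw [(s27nwp_irreducible Q π hπ).maximalIdeal_eq]
    exact Ideal.mem_span_singleton_self _
  have h0 : s27nvpConst W hKW Q hres (s27nwpPi Q π hπ) = 0 := by
    apply Subtype.ext
    rw [s27nvpConst_coe, s27nvpRes_eq_zero Q hres hπm, map_zero]
    rfl
  have h1 : (∏ i : Fin r, (s27nvpConst W hKW Q hres (s27nwpPi Q π hπ) -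
      s27nvpPt W hKW Q (R i) (fun f hf => (hR i f).mpr hf) (s27nwpPi Q π hπ))) =
      (-1) ^ r * ∏ i : Fin r, s27nvpPt W hKW Q (R i) (fun f hf => (hR i f).mpr hf)
        (s27nwpPi Q π hπ) := by
    rw [h0]
    simp only [zero_sub]
    rw [Finset.prod_neg]
    simp
  rw [h1]
  push_cast
  have h2 : ∀ i : Fin r, ((s27nvpPt W hKW Q (R i) (fun f hf => (hR i f).mpr hf)
      (s27nwpPi Q π hπ) : W) : 𝔏) = R i π := fun i => rfl
  simp only [h2]
  ring

include hKW in
/-- **NEWTON-VAL at a place, coordinate form**: `x j ∈ 𝒪_Q` with values `c j` at `Q`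
(`x j − c j ∈ π · 𝒪_Q`), `w j ∈ W`, and `∑_j R_i (x j) · w j = 0` for all the points `R_i`
(distinct coordinates, centre `Q`).  Then `∑_j c j · w j ∈ (∏_i R_i π) · W`. -/
theorem s27nvp_value_sum (Q : Place K F)
    (hres : Function.Surjective (algebraMap K Q.ResidueField)) (π : F) (hπ : Q.ord π = 1)
    {r : ℕ} (R : Fin r → F →ₐ[K] 𝔏)
    (hR : ∀ i, ∀ f : F, R i f ∈ W ↔ f ∈ Q.toValuationSubring)
    (hinj : Function.Injective fun i => R i π)
    {J : Type*} [Fintype J] (x : J → F) (hx : ∀ j, x j ∈ Q.toValuationSubring)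
    (c : J → K) (hc : ∀ j, ∃ y ∈ Q.toValuationSubring, x j - algebraMap K F (c j) = π * y)
    (w : J → 𝔏) (hw : ∀ j, w j ∈ W)
    (h0 : ∀ i, ∑ j, R i (x j) * w j = 0) :
    ∃ w' ∈ W, ∑ j, algebraMap K 𝔏 (c j) * w j = (∏ i, R i π) * w' := by
  classical
  letI := s27eifAlg W hKW
  set u : Q.toValuationSubring ⊗[K] W :=
    ∑ j, (⟨x j, hx j⟩ : Q.toValuationSubring) ⊗ₜ[K] (⟨w j, hw j⟩ : W) with hu
  have hev : ∀ i, s27diagEv (s27nvpPt W hKW Q (R i) (fun f hf => (hR i f).mpr hf)) u = 0 := by
    intro i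
    apply Subtype.ext
    rw [hu, map_sum]
    simp only [s27diag_ev_tmul]
    push_cast
    exact h0 i
  obtain ⟨w', hw'⟩ := s27nvp_value_tensor W hKW Q hres π hπ R hR hinj u hev
  refine ⟨w', w'.2, ?_⟩
  rw [← hw', hu, map_sum]
  simp only [s27diag_ev_tmul]
  push_cast
  refine Finset.sum_congr rfl fun j _ => ?_
  congr 1
  rw [s27nvpConst_coe]
  congr 1
  symm
  apply s27nvpRes_eq Q hres
  obtain ⟨y, hy, hxy⟩ := hc j
  rw [(s27nwp_irreducible Q π hπ).maximalIdeal_eq, Ideal.mem_span_singleton]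
  refine ⟨⟨y, hy⟩, ?_⟩
  apply Subtype.ext
  exact hxy

/-- `0 < ord_Q (x − c)` gives the hypothesis `hc` of `s27nvp_value_sum`. -/
theorem s27nvp_exists_of_ord_pos (Q : Place K F) (π : F) (hπ : Q.ord π = 1) {x : F} {c : K}
    (h : x = algebraMap K F c ∨ 0 < Q.ord (x - algebraMap K F c)) :
    ∃ y ∈ Q.toValuationSubring, x - algebraMap K F c = π * y := by
  have hπ0 : π ≠ 0 := by
    rintro rfl
    rw [Place.ord_zero] at hπ
    exact zero_ne_one hπ
  rcases h with h | h
  · exact ⟨0, Q.toValuationSubring.zero_mem, by rw [h, sub_self, mul_zero]⟩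
  · have hne : x - algebraMap K F c ≠ 0 := by
      intro h0
      rw [h0, Place.ord_zero] at h
      exact lt_irrefl _ h
    refine ⟨π⁻¹ * (x - algebraMap K F c), ?_, ?_⟩
    · apply PlaceAux.mem_of_ord_nonneg
      rw [Q.ord_mul (inv_ne_zero hπ0) hne, Q.ord_inv, hπ]
      omega
    · rw [← mul_assoc, mul_inv_cancel₀ hπ0, one_mul]

end Curve

end Place

end Fermat.Agent.S27
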