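/-
S27-B, DEG-B2 NONSPECIAL → the input `hns : S27pkgNS hld hgen hx` of the degree package
(`S27/DegPkgAct.lean` `s27pkg`, `S27/DomPkg.lean` `s27dom_pkg`, `S27/DegWire.lean`), unconditional
(helper99, prefix s27nsp_).
-/
import Fermat.Agent.S27.NonSpecTop
import Fermat.Agent.S27.DegPkgAct

set_option autoImplicit false
set_option linter.style.haveILetI false
set_option linter.unusedSectionVars false
set_option linter.unusedVariables false

noncomputable section

namespace Fermat.Agent.S27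

open AlgebraicCurve Module TensorProduct IntermediateField Fermat.Agent.S26 Fermat.Agent.S24

variable {K 𝔠 𝔎 Ω : Type*} [Field K] [Field 𝔠] [Field 𝔎] [Field Ω]
  [Algebra K 𝔠] [Algebra K 𝔎] [Algebra K Ω] [Algebra 𝔠 Ω] [Algebra 𝔎 Ω]
  [IsScalarTower K 𝔠 Ω] [IsScalarTower K 𝔎 Ω]

/-- **`S27pkgNS` holds**: `K ⊆ 𝔎` algebraically closed of characteristic `0`. -/
theorem s27nsp_pkgNS [IsAlgClosed K] [IsAlgClosed 𝔎] [CharZero K]
    (hld : Function.Injective (s26gspMu K 𝔠 𝔎 Ω)) (hgen : S26gspGen K 𝔠 𝔎 Ω)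
    {x : 𝔠} (hx : Transcendental K x)
    [FiniteDimensional ↥(IntermediateField.adjoin K {x}) 𝔠]
    [Algebra.IsSeparable ↥(IntermediateField.adjoin K {x}) 𝔠] :
    S27pkgNS hld hgen hx :=
  fun e he f hf => s27nst_hS hld hgen hx e he f hf

end Fermat.Agent.S27
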