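import Fermat.Prelude.Def_AlgebraicCurve_Repartitions

/-!
# S27-B, piece DEG-B2 NONSPECIAL, SYMMETRY route (abstract core, double of helper15's NonSpec) — helper61

A DUALITY-FREE proof that a divisor `T + P₀ + … + P_{g-1}` (`deg T = 0`, `P_i` independent generic
points of a curve of genus `g`) is NON-SPECIAL: `dim L(T + P₀ + … + P_{g-1}) = 1`.  No canonical
divisor, no differentials: only

* one point of degree one raises `dim L` by at most `1` (`hstep`),
* Riemann's theorem at ONE large degree (`hRN : dim L(T + P₀ + … + P_{N-1}) + g = N + 1`),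
* `dim L(T) ≤ 1` (`ha0`),
* the SYMMETRY of the generic points (`hsym`): for every `j` a bijection `s` of the function
  field (the automorphism `id ⊗ (j j+1)` of `Frac (F ⊗ 𝔎)`; it is not linear over the constant
  field) with a compatible surjection `σ` of the places, `ord_{σ v} (s f) = ord_v f`, fixing `T`,
  fixing `P_i` for `i < j` and sending `P_j` to `P_{j+1}`.

Proof: put `a j = dim L(D_j)`, `D_j = T + P₀ + … + P_{j-1}`.  The increments `a (j+1) - a j ∈ {0,1}`
are CONVEX (`s27nsy_convex`): a function `f ∈ L(D_{j+1}) ∖ L(D_j)` has a pole at `P_j`; its image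
`s f` lies in `L(D_{j+2})` and has a pole at `P_{j+1}`, so `s f ∉ L(D_{j+1})`.  Hence the steps
with increment `0` come first, and Riemann at `N` counts them: `a g = 1`.

Main results: `s27nsy_convex`, `s27nsy_finrank_eq_one`, `s27nsy_unique` (any two nonzero elements
of `L(D_g)` are proportional: the effective divisor of the class is unique).
-/

set_option autoImplicit false

noncomputable section

namespace Fermat.Agent.S27

open AlgebraicCurve Module

variable {K F : Type*} [Field K] [Field F] [Algebra K F]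

/-- `D_j = T + P₀ + … + P_{j-1}`. -/
def s27nsyDiv (T : Divisor K F) (P : ℕ → Place K F) (j : ℕ) : Divisor K F :=
  T + ∑ i ∈ Finset.range j, Finsupp.single (P i) (1 : ℤ)

theorem s27nsyDiv_zero (T : Divisor K F) (P : ℕ → Place K F) : s27nsyDiv T P 0 = T := by
  simp [s27nsyDiv]

theorem s27nsyDiv_succ (T : Divisor K F) (P : ℕ → Place K F) (j : ℕ) :
    s27nsyDiv T P (j + 1) = s27nsyDiv T P j + Finsupp.single (P j) (1 : ℤ) := by
  simp [s27nsyDiv, Finset.sum_range_succ, add_assoc]

theorem s27nsyDiv_apply (T : Divisor K F) (P : ℕ → Place K F) (j : ℕ) (v : Place K F) :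
    s27nsyDiv T P j v = T v + ∑ i ∈ Finset.range j, (Finsupp.single (P i) (1 : ℤ)) v := by
  simp [s27nsyDiv]

theorem s27nsyDiv_apply_ge (T : Divisor K F) (P : ℕ → Place K F) (j : ℕ) (v : Place K F) :
    T v ≤ s27nsyDiv T P j v := by
  rw [s27nsyDiv_apply]
  have : 0 ≤ ∑ i ∈ Finset.range j, (Finsupp.single (P i) (1 : ℤ)) v :=
    Finset.sum_nonneg fun i _ => by
      classical
      rw [Finsupp.single_apply]
      split_ifs <;> norm_num
  linarith

/-- at a point `P i`, `i < j`, the divisor `D_j` is at least `T + 1`. -/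
theorem s27nsyDiv_apply_ge_one (T : Divisor K F) (P : ℕ → Place K F) {i j : ℕ} (hij : i < j) :
    T (P i) + 1 ≤ s27nsyDiv T P j (P i) := by
  classical
  rw [s27nsyDiv_apply]
  have h1 : (Finsupp.single (P i) (1 : ℤ)) (P i) ≤
      ∑ k ∈ Finset.range j, (Finsupp.single (P k) (1 : ℤ)) (P i) :=
    Finset.single_le_sum (f := fun k => (Finsupp.single (P k) (1 : ℤ)) (P i))
      (fun k _ => by
        rw [Finsupp.single_apply]
        split_ifs <;> norm_num) (Finset.mem_range.mpr hij)
  rw [Finsupp.single_eq_same] at h1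
  linarith

/-- away from the points `P i`, `i < j`, the divisor `D_j` is `T`. -/
theorem s27nsyDiv_apply_of_ne (T : Divisor K F) (P : ℕ → Place K F) (j : ℕ) (v : Place K F)
    (hv : ∀ i, i < j → P i ≠ v) : s27nsyDiv T P j v = T v := by
  classical
  rw [s27nsyDiv_apply]
  have : ∑ i ∈ Finset.range j, (Finsupp.single (P i) (1 : ℤ)) v = 0 :=
    Finset.sum_eq_zero fun i hi => by
      rw [Finsupp.single_apply, if_neg (hv i (Finset.mem_range.mp hi))]
  rw [this, add_zero]

/-- at a point `P i`, `i < j` (points distinct), the divisor `D_j` is `T + 1`. -/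
theorem s27nsyDiv_apply_le (T : Divisor K F) (P : ℕ → Place K F) (j : ℕ) (v : Place K F)
    (hinj : ∀ i k, i < j → k < j → P i = P k → i = k) :
    s27nsyDiv T P j v ≤ T v + 1 := by
  classical
  rw [s27nsyDiv_apply]
  have : ∑ i ∈ Finset.range j, (Finsupp.single (P i) (1 : ℤ)) v ≤ 1 := by
    by_cases h : ∃ i, i < j ∧ P i = v
    · obtain ⟨i, hi, rfl⟩ := h
      rw [Finset.sum_eq_single i]
      · simp
      · intro k hk hki
        rw [Finsupp.single_apply, if_neg]
        intro hP
        exact hki (hinj k i (Finset.mem_range.mp hk) hi hP)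
      · intro hi'
        exact absurd (Finset.mem_range.mpr hi) hi'
    · push Not at h
      rw [Finset.sum_eq_zero]
      · norm_num
      · intro i hi
        rw [Finsupp.single_apply, if_neg (h i (Finset.mem_range.mp hi))]
  linarith

theorem s27nsy_rr_mono {D D' : Divisor K F} (h : ∀ v, D v ≤ D' v) :
    riemannRochSpace D ≤ riemannRochSpace D' := by
  intro f hf
  rw [mem_riemannRochSpace_iff] at hf ⊢
  intro v
  rcases hf v with h0 | h1
  · exact Or.inl h0
  · exact Or.inr (by have := h v; linarith)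

theorem s27nsy_rr_le_succ (T : Divisor K F) (P : ℕ → Place K F) (j : ℕ) :
    riemannRochSpace (s27nsyDiv T P j) ≤ riemannRochSpace (s27nsyDiv T P (j + 1)) := by
  classical
  refine s27nsy_rr_mono fun v => ?_
  rw [s27nsyDiv_succ, Finsupp.add_apply, Finsupp.single_apply]
  split_ifs <;> linarith

/-- **Convexity.**  If `L(D_j) ≠ L(D_{j+1})` then `L(D_{j+1}) ≠ L(D_{j+2})`. -/
theorem s27nsy_convex (T : Divisor K F) (P : ℕ → Place K F) (j : ℕ)
    (hinj : ∀ i k, i < j + 2 → k < j + 2 → P i = P k → i = k)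
    (hPT : ∀ i, i < j + 2 → T (P i) = 0)
    (s : F → F) (σ : Place K F → Place K F) (hs0 : ∀ f, f ≠ 0 → s f ≠ 0)
    (hord : ∀ v f, f ≠ 0 → (σ v).ord (s f) = v.ord f) (hσ : Function.Surjective σ)
    (hσT : ∀ v, T (σ v) = T v) (hσP : ∀ i, i < j → σ (P i) = P i) (hσj : σ (P j) = P (j + 1))
    {f : F} (hf : f ∈ riemannRochSpace (s27nsyDiv T P (j + 1)))
    (hf' : f ∉ riemannRochSpace (s27nsyDiv T P j)) :
    s f ∈ riemannRochSpace (s27nsyDiv T P (j + 2)) ∧
      s f ∉ riemannRochSpace (s27nsyDiv T P (j + 1)) := by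
  have hf0 : f ≠ 0 := fun h => hf' (h ▸ Submodule.zero_mem _)
  have hsf0 : s f ≠ 0 := hs0 f hf0
  rw [mem_riemannRochSpace_iff] at hf hf'
  -- the pole of `f` is at `P j`
  have hpole : (P j).ord f < 0 := by
    push Not at hf'
    obtain ⟨v, -, hv⟩ := hf'
    by_cases hvP : v = P j
    · subst hvP
      have h0 : s27nsyDiv T P j (P j) = 0 := by
        rw [s27nsyDiv_apply_of_ne T P j (P j) fun i hi hP =>
          absurd (hinj i j (by omega) (by omega) hP) (by omega)]
        exact hPT j (by omega)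
      rw [h0] at hv
      linarith
    · exfalso
      have h1 := (hf v).resolve_left hf0
      have h2 : s27nsyDiv T P (j + 1) v = s27nsyDiv T P j v := by
        classical
        rw [s27nsyDiv_succ, Finsupp.add_apply, Finsupp.single_apply,
          if_neg (fun h => hvP h.symm), add_zero]
      rw [h2] at h1
      linarith
  constructor
  · rw [mem_riemannRochSpace_iff]
    intro w
    right
    obtain ⟨v, rfl⟩ := hσ w
    rw [hord v f hf0]
    have h1 := (hf v).resolve_left hf0
    -- `D_{j+1} v ≤ D_{j+2} (σ v)`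
    have hle : s27nsyDiv T P (j + 1) v ≤ s27nsyDiv T P (j + 2) (σ v) := by
      by_cases h : ∃ i, i < j + 1 ∧ P i = v
      · obtain ⟨i, hi, rfl⟩ := h
        have hup := s27nsyDiv_apply_le T P (j + 1) (P i)
          (fun a b ha hb hab => hinj a b (by omega) (by omega) hab)
        rcases Nat.lt_succ_iff_lt_or_eq.mp hi with hij | rfl
        · rw [hσP i hij]
          have := s27nsyDiv_apply_ge_one T P (show i < j + 2 by omega)
          linarith
        · rw [hσj]
          have := s27nsyDiv_apply_ge_one T P (show i + 1 < i + 2 by omega)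
          have hT1 := hPT i (by omega)
          have hT2 := hPT (i + 1) (by omega)
          linarith
      · push Not at h
        rw [s27nsyDiv_apply_of_ne T P (j + 1) v h]
        have := s27nsyDiv_apply_ge T P (j + 2) (σ v)
        rw [hσT] at this
        exact this
    linarith
  · rw [mem_riemannRochSpace_iff]
    push Not
    refine ⟨P (j + 1), hsf0, ?_⟩
    have h0 : s27nsyDiv T P (j + 1) (P (j + 1)) = 0 := by
      rw [s27nsyDiv_apply_of_ne T P (j + 1) (P (j + 1)) fun i hi hP =>
        absurd (hinj i (j + 1) (by omega) (by omega) hP) (by omega)]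
      exact hPT (j + 1) (by omega)
    rw [h0, ← hσj, hord (P j) f hf0]
    linarith

/-- the symmetry hypothesis at the step `j` -/
def S27nsySym (T : Divisor K F) (P : ℕ → Place K F) (j : ℕ) : Prop :=
  ∃ (s : F → F) (σ : Place K F → Place K F), (∀ f, f ≠ 0 → s f ≠ 0) ∧
    (∀ v f, f ≠ 0 → (σ v).ord (s f) = v.ord f) ∧ Function.Surjective σ ∧
    (∀ v, T (σ v) = T v) ∧ (∀ i, i < j → σ (P i) = P i) ∧ σ (P j) = P (j + 1)

section Count

variable (T : Divisor K F) (P : ℕ → Place K F) (N : ℕ)

/-- `a j = dim L(D_j)` -/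
def s27nsyA (j : ℕ) : ℕ := finrank K (riemannRochSpace (s27nsyDiv T P j))

variable {T P N}

theorem s27nsy_a_mono (hfin : ∀ j, j ≤ N → Module.Finite K (riemannRochSpace (s27nsyDiv T P j)))
    {j : ℕ} (hj : j + 1 ≤ N) : s27nsyA T P j ≤ s27nsyA T P (j + 1) := by
  have := hfin (j + 1) hj
  exact Submodule.finrank_mono (s27nsy_rr_le_succ T P j)

/-- convexity of the dimensions -/
theorem s27nsy_a_convex
    (hfin : ∀ j, j ≤ N → Module.Finite K (riemannRochSpace (s27nsyDiv T P j)))
    (hstep : ∀ j, j < N → s27nsyA T P (j + 1) ≤ s27nsyA T P j + 1)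
    (hinj : ∀ i k, i < N → k < N → P i = P k → i = k)
    (hPT : ∀ i, i < N → T (P i) = 0)
    (hsym : ∀ j, j + 1 < N → S27nsySym T P j)
    {j : ℕ} (hj : j + 2 ≤ N) (h : s27nsyA T P (j + 1) = s27nsyA T P j + 1) :
    s27nsyA T P (j + 2) = s27nsyA T P (j + 1) + 1 := by
  have h0 := hfin j (by omega)
  have h1 := hfin (j + 1) (by omega)
  have h2 := hfin (j + 2) (by omega)
  -- `L(D_j) ≠ L(D_{j+1})`
  have hne : ¬ riemannRochSpace (s27nsyDiv T P (j + 1)) ≤ riemannRochSpace (s27nsyDiv T P j) := by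
    intro hle
    have := Submodule.finrank_mono hle
    unfold s27nsyA at h
    omega
  obtain ⟨f, hf, hf'⟩ := Set.not_subset.mp hne
  obtain ⟨s, σ, hs0, hord, hσ, hσT, hσP, hσj⟩ := hsym j (by omega)
  obtain ⟨hm, hnm⟩ := s27nsy_convex T P j
    (fun a b ha hb hab => hinj a b (by omega) (by omega) hab)
    (fun i hi => hPT i (by omega)) s σ hs0 hord hσ hσT hσP hσj hf hf'
  have hlt : riemannRochSpace (s27nsyDiv T P (j + 1)) < riemannRochSpace (s27nsyDiv T P (j + 2)) :=
    lt_of_le_of_ne (s27nsy_rr_le_succ T P (j + 1)) fun heq => hnm (heq ▸ hm)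
  have h3 := Submodule.finrank_lt_finrank_of_lt hlt
  have h4 : s27nsyA T P (j + 2) ≤ s27nsyA T P (j + 1) + 1 := hstep (j + 1) (by omega)
  unfold s27nsyA at h4 ⊢
  omega

/-- once the dimension has jumped, it jumps at every later step -/
theorem s27nsy_a_linear
    (hfin : ∀ j, j ≤ N → Module.Finite K (riemannRochSpace (s27nsyDiv T P j)))
    (hstep : ∀ j, j < N → s27nsyA T P (j + 1) ≤ s27nsyA T P j + 1)
    (hinj : ∀ i k, i < N → k < N → P i = P k → i = k)
    (hPT : ∀ i, i < N → T (P i) = 0)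
    (hsym : ∀ j, j + 1 < N → S27nsySym T P j)
    {j : ℕ} (h : s27nsyA T P (j + 1) = s27nsyA T P j + 1) :
    ∀ k, j + 1 + k ≤ N → s27nsyA T P (j + 1 + k) = s27nsyA T P j + 1 + k ∧
      (0 < k → s27nsyA T P (j + 1 + k) = s27nsyA T P (j + k) + 1) := by
  intro k
  induction k with
  | zero => intro _; exact ⟨by simpa using h, fun h0 => absurd h0 (lt_irrefl 0)⟩
  | succ k ih =>
    intro hk
    obtain ⟨ih1, ih2⟩ := ih (by omega)
    have hprev : s27nsyA T P (j + k + 1) = s27nsyA T P (j + k) + 1 := by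
      rcases Nat.eq_zero_or_pos k with rfl | hk0
      · simpa using h
      · have := ih2 hk0
        rw [show j + 1 + k = j + k + 1 by ring] at this
        exact this
    have hc := s27nsy_a_convex hfin hstep hinj hPT hsym (j := j + k) (by omega) hprev
    have e1 : j + 1 + (k + 1) = j + k + 2 := by ring
    have e2 : j + (k + 1) = j + k + 1 := by ring
    have e3 : j + 1 + k = j + k + 1 := by ring
    rw [e3] at ih1
    rw [e1, e2]
    exact ⟨by omega, fun _ => hc⟩

/-- without a jump the dimension is constant -/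
theorem s27nsy_a_const
    (hfin : ∀ j, j ≤ N → Module.Finite K (riemannRochSpace (s27nsyDiv T P j)))
    (hstep : ∀ j, j < N → s27nsyA T P (j + 1) ≤ s27nsyA T P j + 1)
    {m : ℕ} (hm : m ≤ N) (h : ∀ j, j < m → s27nsyA T P (j + 1) ≠ s27nsyA T P j + 1) :
    ∀ k, k ≤ m → s27nsyA T P k = s27nsyA T P 0 := by
  intro k
  induction k with
  | zero => intro _; rfl
  | succ k ih =>
    intro hk
    have h1 := ih (by omega)
    have h2 := s27nsy_a_mono hfin (j := k) (by omega)
    have h3 := hstep k (by omega)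
    have h4 := h k (by omega)
    omega

/-- **DEG-B2 NONSPECIAL, abstract form.**  `dim L(T + P₀ + … + P_{g-1}) = 1`. -/
theorem s27nsy_finrank_eq_one (g : ℕ) (hgN : g ≤ N)
    (hfin : ∀ j, j ≤ N → Module.Finite K (riemannRochSpace (s27nsyDiv T P j)))
    (hstep : ∀ j, j < N → s27nsyA T P (j + 1) ≤ s27nsyA T P j + 1)
    (hinj : ∀ i k, i < N → k < N → P i = P k → i = k)
    (hPT : ∀ i, i < N → T (P i) = 0)
    (hsym : ∀ j, j + 1 < N → S27nsySym T P j)
    (ha0 : finrank K (riemannRochSpace T) ≤ 1)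
    (hRN : finrank K (riemannRochSpace (s27nsyDiv T P N)) + g = N + 1) :
    finrank K (riemannRochSpace (s27nsyDiv T P g)) = 1 := by
  classical
  have hA0 : s27nsyA T P 0 ≤ 1 := by
    unfold s27nsyA
    rw [s27nsyDiv_zero]
    exact ha0
  have hAN : s27nsyA T P N + g = N + 1 := hRN
  show s27nsyA T P g = 1
  by_cases hjump : ∃ j, j < N ∧ s27nsyA T P (j + 1) = s27nsyA T P j + 1
  · -- the first jump
    let j₁ := Nat.find hjump
    have hj₁ : j₁ < N ∧ s27nsyA T P (j₁ + 1) = s27nsyA T P j₁ + 1 := Nat.find_spec hjump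
    have hmin : ∀ j, j < j₁ → s27nsyA T P (j + 1) ≠ s27nsyA T P j + 1 := fun j hj hjj =>
      Nat.find_min hjump hj ⟨by omega, hjj⟩
    have hconst := s27nsy_a_const hfin hstep (m := j₁) (by omega) hmin
    have hlin := s27nsy_a_linear hfin hstep hinj hPT hsym hj₁.2
    have hN := (hlin (N - (j₁ + 1)) (by omega)).1
    rw [show j₁ + 1 + (N - (j₁ + 1)) = N by omega] at hN
    have hc := hconst j₁ le_rfl
    -- `j₁ = a 0 + g - 1`
    by_cases hg : g ≤ j₁
    · have := hconst g hg
      omega
    · push Not at hg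
      have hG := (hlin (g - (j₁ + 1)) (by omega)).1
      rw [show j₁ + 1 + (g - (j₁ + 1)) = g by omega] at hG
      omega
  · push Not at hjump
    have hconst := s27nsy_a_const hfin hstep (m := N) le_rfl hjump
    have h1 := hconst N le_rfl
    have h2 := hconst g hgN
    omega

/-- **Uniqueness of the effective divisor**: two nonzero elements of `L(T + P₀ + … + P_{g-1})`
are proportional. -/
theorem s27nsy_unique (g : ℕ) (hgN : g ≤ N)
    (hfin : ∀ j, j ≤ N → Module.Finite K (riemannRochSpace (s27nsyDiv T P j)))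
    (hstep : ∀ j, j < N → s27nsyA T P (j + 1) ≤ s27nsyA T P j + 1)
    (hinj : ∀ i k, i < N → k < N → P i = P k → i = k)
    (hPT : ∀ i, i < N → T (P i) = 0)
    (hsym : ∀ j, j + 1 < N → S27nsySym T P j)
    (ha0 : finrank K (riemannRochSpace T) ≤ 1)
    (hRN : finrank K (riemannRochSpace (s27nsyDiv T P N)) + g = N + 1)
    {f f' : F} (hf : f ∈ riemannRochSpace (s27nsyDiv T P g)) (hf0 : f ≠ 0)
    (hf' : f' ∈ riemannRochSpace (s27nsyDiv T P g)) :
    ∃ c : K, f' = c • f := by
  have h1 := s27nsy_finrank_eq_one g hgN hfin hstep hinj hPT hsym ha0 hRN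
  have hne : (⟨f, hf⟩ : riemannRochSpace (s27nsyDiv T P g)) ≠ 0 := fun h =>
    hf0 (congrArg Subtype.val h)
  obtain ⟨c, hc⟩ := (finrank_eq_one_iff_of_nonzero' _ hne).mp h1 ⟨f', hf'⟩
  exact ⟨c, (congrArg Subtype.val hc).symm⟩

end Count

end Fermat.Agent.S27

end
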