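/-
S27-B, DEG-B2 NONSPECIAL, abstract core (helper79) — DUALITY-FREE.

"Independent generic points are non-special":  for a divisor `D` and pairwise distinct places
`P 0, P 1, …` of degree `1` that are *symmetric over `D`*
(`ℓ(E_j + P_k) = ℓ(E_j + P_j)` for `j ≤ k`, `E_j = D + P_0 + … + P_{j-1}`),

    ℓ(D + P_0 + … + P_{m-1}) = max (ℓ(D)) (deg D + m + 1 − g)          (`s27gsym_main`)

as soon as Riemann's inequality `deg E + 1 − g ≤ ℓ(E)` holds for all `E` and Riemann's theorem
`ℓ(E) ≤ deg E + 1 − g` holds for `deg E ≥ N₀`.  No canonical divisor, no differentials.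

Idea: if `P'` is *increasing* for `D` (`ℓ(D + P') = ℓ(D) + 1`) then it is increasing for every
`E ≥ D` with `E P' = D P'` (`L(E) ∩ L(D + P') = L(D)`).  So if the symmetric points were increasing
for a special `D` (`ℓ(D) > deg D + 1 − g`), then `ℓ(D + P_0 + … + P_{m-1}) = ℓ(D) + m` for all `m`,
against Riemann's theorem in large degree.

* `s27gsym_mem_inter`   : `f ∈ L(E)`, `f ∈ L(D + Q)`, `E Q = D Q` ⇒ `f ∈ L(D)`;
* `s27gsym_lt_of_lt`    : `Q` increasing for `D` ⇒ increasing for `E` (`D ≤ E`, `E Q = D Q`);
* `s27gsym_chain`       : all `P k` increasing for `D` ⇒ `ℓ(D) + m ≤ ℓ(D + P_0 + … + P_{m-1})`;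
* `s27gsym_step_special`: `D` special + symmetry ⇒ `ℓ(D + P_0) = ℓ(D)`;
* `s27gsym_main`        : the formula above;
* `s27gsym_generic_eq_one` : `deg D = 0`, `ℓ(D) ≤ 1`, `1 ≤ g` ⇒ `ℓ(D + P_0 + … + P_{g-1}) = 1`.
-/
import Fermat.Agent.S26.ERR1

set_option autoImplicit false

open AlgebraicCurve Module

namespace Fermat.Agent.S27

open Fermat.Agent.S26 Fermat.Agent.ES.R

variable {K F : Type*} [Field K] [Field F] [Algebra K F]

/-- the divisor `D + P 0 + … + P (m-1)` -/
noncomputable def s27gsymE (D : Divisor K F) (P : ℕ → Place K F) (m : ℕ) : Divisor K F :=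
  D + ∑ i ∈ Finset.range m, Finsupp.single (P i) (1 : ℤ)

theorem s27gsymE_zero (D : Divisor K F) (P : ℕ → Place K F) : s27gsymE D P 0 = D := by
  simp [s27gsymE]

theorem s27gsymE_succ (D : Divisor K F) (P : ℕ → Place K F) (m : ℕ) :
    s27gsymE D P (m + 1) = s27gsymE D P m + Finsupp.single (P m) (1 : ℤ) := by
  simp [s27gsymE, Finset.sum_range_succ, add_assoc]

theorem s27gsymE_le (D : Divisor K F) (P : ℕ → Place K F) (m : ℕ) : D ≤ s27gsymE D P m := by
  induction m with
  | zero => rw [s27gsymE_zero]
  | succ m ih =>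
    rw [s27gsymE_succ]
    refine ih.trans ?_
    intro v
    simp only [Finsupp.coe_add, Pi.add_apply]
    have : (0 : ℤ) ≤ (Finsupp.single (P m) (1 : ℤ)) v := by
      classical
      rw [Finsupp.single_apply]
      split_ifs <;> norm_num
    linarith

theorem s27gsymE_apply_of_notMem (D : Divisor K F) (P : ℕ → Place K F) (m : ℕ) (Q : Place K F)
    (hQ : ∀ i, i < m → P i ≠ Q) : s27gsymE D P m Q = D Q := by
  induction m with
  | zero => rw [s27gsymE_zero]
  | succ m ih =>
    rw [s27gsymE_succ]
    simp only [Finsupp.coe_add, Pi.add_apply]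
    rw [ih (fun i hi => hQ i (Nat.lt_succ_of_lt hi))]
    classical
    rw [Finsupp.single_apply, if_neg (hQ m (Nat.lt_succ_self m))]
    simp

theorem s27gsymE_degree (D : Divisor K F) (P : ℕ → Place K F) (hdeg : ∀ k, (P k).deg = 1)
    (m : ℕ) : Divisor.degree (s27gsymE D P m) = Divisor.degree D + m := by
  induction m with
  | zero => rw [s27gsymE_zero]; simp
  | succ m ih =>
    rw [s27gsymE_succ, map_add, ih, Divisor.degree_single, hdeg m]
    push_cast
    ring

theorem s27gsymE_shift (D : Divisor K F) (P : ℕ → Place K F) (j m : ℕ) :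
    s27gsymE (s27gsymE D P j) (fun k => P (j + k)) m = s27gsymE D P (j + m) := by
  induction m with
  | zero => rw [s27gsymE_zero]; rfl
  | succ m ih =>
    rw [s27gsymE_succ, ih, ← add_assoc, s27gsymE_succ]

/-- `L(E) ∩ L(D + Q) ⊆ L(D)` if `E` and `D` agree at `Q`. -/
theorem s27gsym_mem_inter {D E : Divisor K F} {Q : Place K F} (hQ : E Q = D Q) {f : F}
    (h1 : f ∈ riemannRochSpace E)
    (h2 : f ∈ riemannRochSpace (D + Finsupp.single Q (1 : ℤ))) :
    f ∈ riemannRochSpace D := by
  rw [mem_riemannRochSpace_iff] at h1 h2 ⊢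
  intro v
  by_cases hv : v = Q
  · subst hv
    rcases h1 v with h | h
    · exact Or.inl h
    · right
      rw [hQ] at h
      exact h
  · rcases h2 v with h | h
    · exact Or.inl h
    · right
      classical
      simp only [Finsupp.coe_add, Pi.add_apply] at h
      rw [Finsupp.single_apply, if_neg (fun h' => hv h'.symm)] at h
      simpa using h

/-- **increasing points stay increasing**: if `ℓ(D) < ℓ(D + Q)` then `ℓ(E) < ℓ(E + Q)` for every
`E ≥ D` which agrees with `D` at `Q`. -/
theorem s27gsym_lt_of_lt {D E : Divisor K F} {Q : Place K F} (hDE : D ≤ E) (hQ : E Q = D Q)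
    (hfinE : Module.Finite K ↥(riemannRochSpace (E + Finsupp.single Q (1 : ℤ))))
    (h : finrank K ↥(riemannRochSpace D) <
      finrank K ↥(riemannRochSpace (D + Finsupp.single Q (1 : ℤ)))) :
    finrank K ↥(riemannRochSpace E) <
      finrank K ↥(riemannRochSpace (E + Finsupp.single Q (1 : ℤ))) := by
  have hle : riemannRochSpace D ≤ riemannRochSpace (D + Finsupp.single Q (1 : ℤ)) := by
    refine rr_mono ?_
    intro v
    simp only [Finsupp.coe_add, Pi.add_apply]
    have : (0 : ℤ) ≤ (Finsupp.single Q (1 : ℤ)) v := by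
      classical
      rw [Finsupp.single_apply]
      split_ifs <;> norm_num
    linarith
  have hne : riemannRochSpace D ≠ riemannRochSpace (D + Finsupp.single Q (1 : ℤ)) := by
    intro heq
    rw [← heq] at h
    exact lt_irrefl _ h
  obtain ⟨f, hf1, hf2⟩ := SetLike.exists_of_lt (lt_of_le_of_ne hle hne)
  have hleE : riemannRochSpace E ≤ riemannRochSpace (E + Finsupp.single Q (1 : ℤ)) := by
    refine rr_mono ?_
    intro v
    simp only [Finsupp.coe_add, Pi.add_apply]
    have : (0 : ℤ) ≤ (Finsupp.single Q (1 : ℤ)) v := by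
      classical
      rw [Finsupp.single_apply]
      split_ifs <;> norm_num
    linarith
  have hfE : f ∈ riemannRochSpace (E + Finsupp.single Q (1 : ℤ)) := by
    refine rr_mono ?_ hf1
    intro v
    simp only [Finsupp.coe_add, Pi.add_apply]
    have := hDE v
    linarith
  have hfnE : f ∉ riemannRochSpace E := fun hfE' => hf2 (s27gsym_mem_inter hQ hfE' hf1)
  have hlt : riemannRochSpace E < riemannRochSpace (E + Finsupp.single Q (1 : ℤ)) :=
    lt_of_le_of_ne hleE (fun heq => hfnE (heq ▸ hfE))
  have := hfinE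
  exact Submodule.finrank_lt_finrank_of_lt hlt

/-- **the chain**: if every `P k` is increasing for `D` and the `P k` are pairwise distinct, then
`ℓ(D) + m ≤ ℓ(D + P 0 + … + P (m-1))`. -/
theorem s27gsym_chain (D : Divisor K F) (P : ℕ → Place K F) (hinj : Function.Injective P)
    (hfin : ∀ E : Divisor K F, Module.Finite K ↥(riemannRochSpace E))
    (hinc : ∀ k, finrank K ↥(riemannRochSpace D) <
      finrank K ↥(riemannRochSpace (D + Finsupp.single (P k) (1 : ℤ))))
    (m : ℕ) :
    finrank K ↥(riemannRochSpace D) + m ≤ finrank K ↥(riemannRochSpace (s27gsymE D P m)) := by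
  induction m with
  | zero => rw [s27gsymE_zero]; simp
  | succ m ih =>
    have h1 : s27gsymE D P m (P m) = D (P m) :=
      s27gsymE_apply_of_notMem D P m (P m) (fun i hi h => (Nat.ne_of_lt hi) (hinj h))
    have h2 := s27gsym_lt_of_lt (s27gsymE_le D P m) h1 (hfin _) (hinc m)
    rw [s27gsymE_succ]
    omega

/-- **special divisors are not enlarged by symmetric points**: if `ℓ(D) > deg D + 1 − g`, the
`P k` are pairwise distinct of degree `1`, `ℓ(D + P k) = ℓ(D + P 0)` for all `k`, and Riemann's
theorem holds in degree `≥ N₀`, then `ℓ(D + P 0) = ℓ(D)`. -/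
theorem s27gsym_step_special (D : Divisor K F) (P : ℕ → Place K F) (hinj : Function.Injective P)
    (hdeg : ∀ k, (P k).deg = 1)
    (hfin : ∀ E : Divisor K F, Module.Finite K ↥(riemannRochSpace E))
    (g N₀ : ℤ)
    (hRT : ∀ E : Divisor K F, N₀ ≤ Divisor.degree E →
      (finrank K ↥(riemannRochSpace E) : ℤ) ≤ Divisor.degree E + 1 - g)
    (hsym : ∀ k, finrank K ↥(riemannRochSpace (D + Finsupp.single (P k) (1 : ℤ))) =
      finrank K ↥(riemannRochSpace (D + Finsupp.single (P 0) (1 : ℤ))))
    (hsp : Divisor.degree D + 1 - g < (finrank K ↥(riemannRochSpace D) : ℤ)) :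
    finrank K ↥(riemannRochSpace (D + Finsupp.single (P 0) (1 : ℤ))) =
      finrank K ↥(riemannRochSpace D) := by
  have hle : finrank K ↥(riemannRochSpace D) ≤
      finrank K ↥(riemannRochSpace (D + Finsupp.single (P 0) (1 : ℤ))) := by
    have := hfin (D + Finsupp.single (P 0) (1 : ℤ))
    refine Submodule.finrank_mono (rr_mono ?_)
    intro v
    simp only [Finsupp.coe_add, Pi.add_apply]
    have : (0 : ℤ) ≤ (Finsupp.single (P 0) (1 : ℤ)) v := by
      classical
      rw [Finsupp.single_apply]
      split_ifs <;> norm_num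
    linarith
  by_contra hne
  have hlt0 : finrank K ↥(riemannRochSpace D) <
      finrank K ↥(riemannRochSpace (D + Finsupp.single (P 0) (1 : ℤ))) :=
    lt_of_le_of_ne hle (fun h => hne h.symm)
  have hinc : ∀ k, finrank K ↥(riemannRochSpace D) <
      finrank K ↥(riemannRochSpace (D + Finsupp.single (P k) (1 : ℤ))) := by
    intro k
    rw [hsym k]
    exact hlt0
  -- a large `m`
  obtain ⟨m, hm⟩ : ∃ m : ℕ, N₀ ≤ Divisor.degree D + m :=
    ⟨(N₀ - Divisor.degree D).toNat, by
      have := Int.self_le_toNat (N₀ - Divisor.degree D)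
      linarith⟩
  have h1 := s27gsym_chain D P hinj hfin hinc m
  have h2 := hRT (s27gsymE D P m) (by rw [s27gsymE_degree D P hdeg m]; exact hm)
  rw [s27gsymE_degree D P hdeg m] at h2
  have h1' : (finrank K ↥(riemannRochSpace D) : ℤ) + m ≤
      (finrank K ↥(riemannRochSpace (s27gsymE D P m)) : ℤ) := by exact_mod_cast h1
  linarith

/-- **Generic points are non-special (abstract form).**  `P 0, P 1, …` pairwise distinct places of
degree `1`, symmetric over `D`; Riemann's inequality and Riemann's theorem (degree `≥ N₀`) with the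
constant `g`.  Then `ℓ(D + P 0 + … + P (m-1)) = max (ℓ(D)) (deg D + m + 1 − g)`. -/
theorem s27gsym_main (D : Divisor K F) (P : ℕ → Place K F) (hinj : Function.Injective P)
    (hdeg : ∀ k, (P k).deg = 1)
    (hres : ∀ k, Module.Finite K (P k).ResidueField)
    (hfin : ∀ E : Divisor K F, Module.Finite K ↥(riemannRochSpace E))
    (g N₀ : ℤ)
    (hRI : ∀ E : Divisor K F,
      Divisor.degree E + 1 - g ≤ (finrank K ↥(riemannRochSpace E) : ℤ))
    (hRT : ∀ E : Divisor K F, N₀ ≤ Divisor.degree E →
      (finrank K ↥(riemannRochSpace E) : ℤ) ≤ Divisor.degree E + 1 - g)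
    (hsym : ∀ j k, j ≤ k →
      finrank K ↥(riemannRochSpace (s27gsymE D P j + Finsupp.single (P k) (1 : ℤ))) =
      finrank K ↥(riemannRochSpace (s27gsymE D P j + Finsupp.single (P j) (1 : ℤ))))
    (m : ℕ) :
    (finrank K ↥(riemannRochSpace (s27gsymE D P m)) : ℤ) =
      max (finrank K ↥(riemannRochSpace D) : ℤ) (Divisor.degree D + m + 1 - g) := by
  induction m with
  | zero =>
    rw [s27gsymE_zero]
    have := hRI D
    rw [max_eq_left]
    push_cast
    linarith
  | succ m ih =>
    have hdegm := s27gsymE_degree D P hdeg m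
    have hup : (finrank K ↥(riemannRochSpace (s27gsymE D P (m + 1))) : ℤ) ≤
        finrank K ↥(riemannRochSpace (s27gsymE D P m)) + 1 := by
      rw [s27gsymE_succ]
      have := s26err_finrank_add_single_le (s27gsymE D P m) (P m) (hres m) (hfin _)
      rw [hdeg m] at this
      exact_mod_cast this
    have hlow : (finrank K ↥(riemannRochSpace (s27gsymE D P m)) : ℤ) ≤
        finrank K ↥(riemannRochSpace (s27gsymE D P (m + 1))) := by
      rw [s27gsymE_succ]
      have := hfin (s27gsymE D P m + Finsupp.single (P m) (1 : ℤ))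
      have : finrank K ↥(riemannRochSpace (s27gsymE D P m)) ≤
          finrank K ↥(riemannRochSpace (s27gsymE D P m + Finsupp.single (P m) (1 : ℤ))) := by
        refine Submodule.finrank_mono (rr_mono ?_)
        intro v
        simp only [Finsupp.coe_add, Pi.add_apply]
        have : (0 : ℤ) ≤ (Finsupp.single (P m) (1 : ℤ)) v := by
          classical
          rw [Finsupp.single_apply]
          split_ifs <;> norm_num
        linarith
      exact_mod_cast this
    have hRI' := hRI (s27gsymE D P (m + 1))
    rw [s27gsymE_degree D P hdeg (m + 1)] at hRI'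
    push_cast at hRI' ⊢
    by_cases hsp : Divisor.degree (s27gsymE D P m) + 1 - g <
        (finrank K ↥(riemannRochSpace (s27gsymE D P m)) : ℤ)
    · -- special: the next point does not increase
      have hstep := s27gsym_step_special (s27gsymE D P m) (fun k => P (m + k))
        (fun a b hab => by
          have := hinj hab
          omega)
        (fun k => hdeg (m + k)) hfin g N₀ hRT
        (fun k => by
          have := hsym m (m + k) (Nat.le_add_right m k)
          simpa using this)
        hsp
      have hstep' : finrank K ↥(riemannRochSpace (s27gsymE D P m + Finsupp.single (P m) (1 : ℤ))) =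
          finrank K ↥(riemannRochSpace (s27gsymE D P m)) := hstep
      rw [← s27gsymE_succ] at hstep'
      rw [hstep', ih]
      rw [hdegm, ih] at hsp
      -- `max a b > b` means `a > b`
      have ha : Divisor.degree D + (m : ℤ) + 1 - g < (finrank K ↥(riemannRochSpace D) : ℤ) := by
        rcases le_total (finrank K ↥(riemannRochSpace D) : ℤ)
          (Divisor.degree D + (m : ℤ) + 1 - g) with h | h
        · rw [max_eq_right h] at hsp
          exact absurd hsp (lt_irrefl _)
        · rw [max_eq_left h] at hsp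
          exact hsp
      rw [max_eq_left (le_of_lt ha), max_eq_left]
      linarith
    · -- non-special: Riemann's inequality forces the increase
      have heq : (finrank K ↥(riemannRochSpace (s27gsymE D P m)) : ℤ) =
          Divisor.degree D + m + 1 - g := by
        have h1 := hRI (s27gsymE D P m)
        rw [hdegm] at h1 hsp
        have hsp' := not_lt.mp hsp
        linarith
      have hD : (finrank K ↥(riemannRochSpace D) : ℤ) ≤ Divisor.degree D + m + 1 - g := by
        rw [ih] at heq
        have := le_max_left (finrank K ↥(riemannRochSpace D) : ℤ)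
          (Divisor.degree D + (m : ℤ) + 1 - g)
        linarith
      rw [max_eq_right (by linarith)]
      linarith

/-- **The generic divisor of degree `g` over a class of degree `0`** has `ℓ = 1`:
`deg D = 0`, `ℓ(D) ≤ 1`, `1 ≤ g` ⇒ `ℓ(D + P 0 + … + P (g-1)) = 1`. -/
theorem s27gsym_generic_eq_one (D : Divisor K F) (P : ℕ → Place K F)
    (hinj : Function.Injective P) (hdeg : ∀ k, (P k).deg = 1)
    (hres : ∀ k, Module.Finite K (P k).ResidueField)
    (hfin : ∀ E : Divisor K F, Module.Finite K ↥(riemannRochSpace E))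
    (g : ℕ) (N₀ : ℤ)
    (hRI : ∀ E : Divisor K F,
      Divisor.degree E + 1 - g ≤ (finrank K ↥(riemannRochSpace E) : ℤ))
    (hRT : ∀ E : Divisor K F, N₀ ≤ Divisor.degree E →
      (finrank K ↥(riemannRochSpace E) : ℤ) ≤ Divisor.degree E + 1 - g)
    (hsym : ∀ j k, j ≤ k →
      finrank K ↥(riemannRochSpace (s27gsymE D P j + Finsupp.single (P k) (1 : ℤ))) =
      finrank K ↥(riemannRochSpace (s27gsymE D P j + Finsupp.single (P j) (1 : ℤ))))
    (hD0 : Divisor.degree D = 0) (hD1 : finrank K ↥(riemannRochSpace D) ≤ 1) :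
    finrank K ↥(riemannRochSpace (s27gsymE D P g)) = 1 := by
  have h := s27gsym_main D P hinj hdeg hres hfin g N₀ hRI hRT hsym g
  rw [hD0] at h
  have h1 : (finrank K ↥(riemannRochSpace D) : ℤ) ≤ 1 := by exact_mod_cast hD1
  have h2 : (0 : ℤ) + (g : ℤ) + 1 - (g : ℤ) = 1 := by ring
  rw [h2, max_eq_right h1] at h
  exact_mod_cast h

end Fermat.Agent.S27
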