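/-
S27 route B (item 27), crux LE(b), leaf (PF=LAT), abstract core (helper58): **TWO PRESENTATIONS of the
same cokernel**.

`R` a commutative ring (the valuation ring `W`).  Two short exact sequences with the same middle term

    0 → X' --i--> X --π--> P → 0        (`X' = L(A') ⊗ W`, `X = L(A' + G) ⊗ W`, `P = PP_G ⊗ W`)
    0 → S  --j--> X --ev-> Λ → 0        (`S = ker ev_D`, `Λ` = the Newton lattice of values at `D`)

with `range i ⊓ range j = ⊥` (generic position: `θ(D) ≠ 0`).  Then `ev ∘ i : X' → Λ` and `π ∘ j : S → P` are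
injective with the SAME cokernel `X ⧸ (range i ⊔ range j)`, hence (Fitting, `s27dv_det_associated_of_coker`)

    det (ev ∘ i)  ~  det (π ∘ j)          (`s27pfl_assoc`)

for all bases.  Over a domain the hypothesis of generic position can be dropped (`s27pfl_assoc_domain`: both
determinants vanish otherwise).  This is the step "point formula = lattice form" of LE(b):
`m_W(D) ≐ det(ev|X')` (Newton coordinates, S27/Eff.lean, EffLat.lean) and the right side only depends on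
`S = L_W(A' + G − D)` and on the principal parts at `G`.

* `s27pflQ`, `s27pflP`, `s27pflPP` : the common cokernel and the two projections;
* `s27pfl_exact_left`, `s27pfl_exact_right`, `s27pfl_inj_left`, `s27pfl_inj_right`;
* `s27pfl_assoc`, `s27pfl_assoc_domain`;
* `s27pfl_assoc_of_equiv` : transport of the right side along `h : S ≃ S'`, `u : P ≃ P'` (the Gauss-normalised
  function `h` with `h · S_D = S_{D'}`, unimodular on the principal parts): the determinants stay associated.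
-/
import Fermat.Agent.S27.DetV

set_option autoImplicit false

noncomputable section

namespace Fermat.Agent.S27

open Module

section TwoPres

variable {R : Type*} [CommRing R]
variable {X X' Λ P S : Type*} [AddCommGroup X] [Module R X] [AddCommGroup X'] [Module R X']
  [AddCommGroup Λ] [Module R Λ] [AddCommGroup P] [Module R P] [AddCommGroup S] [Module R S]

/-- the common cokernel `X ⧸ (range i ⊔ range j)`. -/
abbrev s27pflQ (i : X' →ₗ[R] X) (j : S →ₗ[R] X) : Type _ :=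
  X ⧸ (LinearMap.range i ⊔ LinearMap.range j)

/-- the projection `Λ → Q`, `ev x ↦ [x]`. -/
def s27pflP (i : X' →ₗ[R] X) (j : S →ₗ[R] X) (ev : X →ₗ[R] Λ)
    (hjev : Function.Exact j ev) (hev : Function.Surjective ev) : Λ →ₗ[R] s27pflQ i j :=
  ((LinearMap.ker ev).liftQ (LinearMap.range i ⊔ LinearMap.range j).mkQ (by
      intro x hx
      rw [LinearMap.mem_ker] at hx
      rw [LinearMap.mem_ker, Submodule.mkQ_apply, Submodule.Quotient.mk_eq_zero]
      exact Submodule.mem_sup_right ((hjev x).1 hx))) ∘ₗ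
    ((LinearMap.quotKerEquivOfSurjective ev hev).symm : Λ →ₗ[R] (X ⧸ LinearMap.ker ev))

theorem s27pflP_apply (i : X' →ₗ[R] X) (j : S →ₗ[R] X) (ev : X →ₗ[R] Λ)
    (hjev : Function.Exact j ev) (hev : Function.Surjective ev) (x : X) :
    s27pflP i j ev hjev hev (ev x) = (LinearMap.range i ⊔ LinearMap.range j).mkQ x := by
  unfold s27pflP
  have h : (LinearMap.quotKerEquivOfSurjective ev hev).symm (ev x)
      = (LinearMap.ker ev).mkQ x := by
    rw [LinearEquiv.symm_apply_eq]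
    rfl
  rw [LinearMap.comp_apply, LinearEquiv.coe_coe, h]
  rfl

theorem s27pflP_surjective (i : X' →ₗ[R] X) (j : S →ₗ[R] X) (ev : X →ₗ[R] Λ)
    (hjev : Function.Exact j ev) (hev : Function.Surjective ev) :
    Function.Surjective (s27pflP i j ev hjev hev) := by
  intro y
  obtain ⟨x, rfl⟩ := Submodule.mkQ_surjective _ y
  exact ⟨ev x, s27pflP_apply i j ev hjev hev x⟩

/-- `X' → Λ → Q` is exact. -/
theorem s27pfl_exact_left (i : X' →ₗ[R] X) (j : S →ₗ[R] X) (ev : X →ₗ[R] Λ)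
    (hjev : Function.Exact j ev) (hev : Function.Surjective ev) :
    Function.Exact (ev ∘ₗ i) (s27pflP i j ev hjev hev) := by
  intro y
  constructor
  · intro hy
    obtain ⟨x, rfl⟩ := hev y
    rw [s27pflP_apply, Submodule.mkQ_apply, Submodule.Quotient.mk_eq_zero,
      Submodule.mem_sup] at hy
    obtain ⟨a, ⟨a', rfl⟩, s, ⟨s', rfl⟩, rfl⟩ := hy
    refine ⟨a', ?_⟩
    have h0 : ev (j s') = 0 := (hjev (j s')).2 ⟨s', rfl⟩
    rw [LinearMap.comp_apply, map_add, h0, add_zero]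
  · rintro ⟨a, rfl⟩
    rw [LinearMap.comp_apply, s27pflP_apply, Submodule.mkQ_apply, Submodule.Quotient.mk_eq_zero]
    exact Submodule.mem_sup_left ⟨a, rfl⟩

/-- `ev ∘ i` is injective in generic position. -/
theorem s27pfl_inj_left (i : X' →ₗ[R] X) (j : S →ₗ[R] X) (ev : X →ₗ[R] Λ)
    (hjev : Function.Exact j ev) (hdisj : ∀ a s, i a = j s → a = 0) :
    Function.Injective (ev ∘ₗ i) := by
  rw [injective_iff_map_eq_zero]
  intro a ha
  rw [LinearMap.comp_apply] at ha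
  obtain ⟨s, hs⟩ := (hjev (i a)).1 ha
  exact hdisj a s hs.symm

/-- `π ∘ j` is injective in generic position. -/
theorem s27pfl_inj_right (i : X' →ₗ[R] X) (π : X →ₗ[R] P) (j : S →ₗ[R] X)
    (hiπ : Function.Exact i π) (hj : Function.Injective j) (hdisj : ∀ a s, i a = j s → a = 0) :
    Function.Injective (π ∘ₗ j) := by
  rw [injective_iff_map_eq_zero]
  intro s hs
  rw [LinearMap.comp_apply] at hs
  obtain ⟨a, ha⟩ := (hiπ (j s)).1 hs
  have h0 : a = 0 := hdisj a s ha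
  rw [h0, map_zero] at ha
  exact hj (by rw [← ha, map_zero])

variable {ι κ : Type*} [Fintype ι] [DecidableEq ι] [Fintype κ] [DecidableEq κ]

/-- **Two presentations of the same cokernel**: `det (ev ∘ i) ~ det (π ∘ j)`. -/
theorem s27pfl_assoc (b : Basis ι R X') (c : Basis ι R Λ) (b' : Basis κ R S) (c' : Basis κ R P)
    (i : X' →ₗ[R] X) (π : X →ₗ[R] P) (j : S →ₗ[R] X) (ev : X →ₗ[R] Λ)
    (hiπ : Function.Exact i π) (hπ : Function.Surjective π)
    (hj : Function.Injective j) (hjev : Function.Exact j ev) (hev : Function.Surjective ev)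
    (hdisj : ∀ a s, i a = j s → a = 0) :
    Associated (s27dvDet b c (ev ∘ₗ i)) (s27dvDet b' c' (π ∘ₗ j)) := by
  -- the second projection `P → Q`, built as the first one with the roles exchanged
  have hsup : LinearMap.range j ⊔ LinearMap.range i = LinearMap.range i ⊔ LinearMap.range j :=
    sup_comm _ _
  let e : s27pflQ j i ≃ₗ[R] s27pflQ i j := Submodule.quotEquivOfEq _ _ hsup
  let q : P →ₗ[R] s27pflQ i j := (e : s27pflQ j i →ₗ[R] s27pflQ i j) ∘ₗ s27pflP j i π hiπ hπ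
  have hq : Function.Surjective q :=
    e.surjective.comp (s27pflP_surjective j i π hiπ hπ)
  have hex : Function.Exact (π ∘ₗ j) q := by
    intro y
    have h1 := s27pfl_exact_left j i π hiπ hπ y
    rw [← h1]
    show e (s27pflP j i π hiπ hπ y) = 0 ↔ _
    exact e.map_eq_zero_iff
  exact s27dv_det_associated_of_coker b c b' c' (ev ∘ₗ i) (s27pflP i j ev hjev hev) (π ∘ₗ j) q
    (s27pfl_inj_left i j ev hjev hdisj) (s27pfl_exact_left i j ev hjev hev)
    (s27pflP_surjective i j ev hjev hev)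
    (s27pfl_inj_right i π j hiπ hj hdisj) hex hq

/-- over a domain generic position is not needed: otherwise both determinants vanish. -/
theorem s27pfl_assoc_domain [IsDomain R]
    (b : Basis ι R X') (c : Basis ι R Λ) (b' : Basis κ R S) (c' : Basis κ R P)
    (i : X' →ₗ[R] X) (π : X →ₗ[R] P) (j : S →ₗ[R] X) (ev : X →ₗ[R] Λ)
    (hi : Function.Injective i) (hiπ : Function.Exact i π) (hπ : Function.Surjective π)
    (hj : Function.Injective j) (hjev : Function.Exact j ev) (hev : Function.Surjective ev) :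
    Associated (s27dvDet b c (ev ∘ₗ i)) (s27dvDet b' c' (π ∘ₗ j)) := by
  by_cases hdisj : ∀ a s, i a = j s → a = 0
  · exact s27pfl_assoc b c b' c' i π j ev hiπ hπ hj hjev hev hdisj
  · simp only [not_forall] at hdisj
    obtain ⟨a, s, has, ha⟩ := hdisj
    have hs : s ≠ 0 := by
      rintro rfl
      rw [map_zero] at has
      exact ha (hi (by rw [has, map_zero]))
    have h1 : ¬ Function.Injective (ev ∘ₗ i) := by
      intro hinj
      apply ha
      apply hinj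
      rw [LinearMap.comp_apply, map_zero, has]
      exact (hjev (j s)).2 ⟨s, rfl⟩
    have h2 : ¬ Function.Injective (π ∘ₗ j) := by
      intro hinj
      apply hs
      apply hinj
      rw [LinearMap.comp_apply, map_zero, ← has]
      exact (hiπ (i a)).2 ⟨a, rfl⟩
    have d1 : s27dvDet b c (ev ∘ₗ i) = 0 := by
      by_contra h
      exact h1 ((s27dv_det_ne_zero_iff b c _).1 h)
    have d2 : s27dvDet b' c' (π ∘ₗ j) = 0 := by
      by_contra h
      exact h2 ((s27dv_det_ne_zero_iff b' c' _).1 h)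
    rw [d1, d2]

end TwoPres

section Transport

variable {R : Type*} [CommRing R]
variable {S₁ S₂ P₁ P₂ : Type*} [AddCommGroup S₁] [Module R S₁] [AddCommGroup S₂] [Module R S₂]
  [AddCommGroup P₁] [Module R P₁] [AddCommGroup P₂] [Module R P₂]
variable {κ : Type*} [Fintype κ] [DecidableEq κ]

/-- transport along `h : S₁ ≃ S₂` (multiplication by the Gauss-normalised function) and `u : P₁ ≃ P₂` (its
action on the principal parts): the determinants are associated. -/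
theorem s27pfl_assoc_of_equiv (b₁ : Basis κ R S₁) (c₁ : Basis κ R P₁) (b₂ : Basis κ R S₂)
    (c₂ : Basis κ R P₂) (f₁ : S₁ →ₗ[R] P₁) (f₂ : S₂ →ₗ[R] P₂) (h : S₁ ≃ₗ[R] S₂) (u : P₁ ≃ₗ[R] P₂)
    (hcomm : ∀ s, u (f₁ s) = f₂ (h s)) :
    Associated (s27dvDet b₁ c₁ f₁) (s27dvDet b₂ c₂ f₂) := by
  have e1 : (u : P₁ →ₗ[R] P₂) ∘ₗ f₁ = f₂ ∘ₗ (h : S₁ →ₗ[R] S₂) := by
    ext s
    exact hcomm s
  have d1 : s27dvDet b₁ c₂ ((u : P₁ →ₗ[R] P₂) ∘ₗ f₁)
      = s27dvDet c₁ c₂ (u : P₁ →ₗ[R] P₂) * s27dvDet b₁ c₁ f₁ :=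
    s27dv_det_comp b₁ c₁ c₂ _ _
  have d2 : s27dvDet b₁ c₂ (f₂ ∘ₗ (h : S₁ →ₗ[R] S₂))
      = s27dvDet b₂ c₂ f₂ * s27dvDet b₁ b₂ (h : S₁ →ₗ[R] S₂) :=
    s27dv_det_comp b₁ b₂ c₂ _ _
  have hu : IsUnit (s27dvDet c₁ c₂ (u : P₁ →ₗ[R] P₂)) := s27dv_det_equiv_isUnit c₁ c₂ u
  have hh : IsUnit (s27dvDet b₁ b₂ (h : S₁ →ₗ[R] S₂)) := s27dv_det_equiv_isUnit b₁ b₂ h
  rw [e1, d2] at d1
  -- `det f₂ · det h = det u · det f₁`
  obtain ⟨vu, hvu⟩ := hu
  obtain ⟨vh, hvh⟩ := hh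
  refine ⟨vu * vh⁻¹, ?_⟩
  rw [← hvu, ← hvh] at d1
  calc s27dvDet b₁ c₁ f₁ * ((vu * vh⁻¹ : Rˣ) : R)
      = ((vu : R) * s27dvDet b₁ c₁ f₁) * ((vh⁻¹ : Rˣ) : R) := by
        rw [Units.val_mul]; ring
    _ = (s27dvDet b₂ c₂ f₂ * (vh : R)) * ((vh⁻¹ : Rˣ) : R) := by rw [d1]
    _ = s27dvDet b₂ c₂ f₂ := by
        rw [mul_assoc, Units.mul_inv, mul_one]

end Transport

section LE

variable {R : Type*} [CommRing R] [IsDomain R]
variable {X₁ X₁' Λ₁ P₁ S₁ : Type*} [AddCommGroup X₁] [Module R X₁] [AddCommGroup X₁'] [Module R X₁']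
  [AddCommGroup Λ₁] [Module R Λ₁] [AddCommGroup P₁] [Module R P₁] [AddCommGroup S₁] [Module R S₁]
variable {X₂ X₂' Λ₂ P₂ S₂ : Type*} [AddCommGroup X₂] [Module R X₂] [AddCommGroup X₂'] [Module R X₂']
  [AddCommGroup Λ₂] [Module R Λ₂] [AddCommGroup P₂] [Module R P₂] [AddCommGroup S₂] [Module R S₂]
variable {ι₁ ι₂ κ : Type*} [Fintype ι₁] [DecidableEq ι₁] [Fintype ι₂] [DecidableEq ι₂]
  [Fintype κ] [DecidableEq κ]

/-- **LE, abstract form**: two evaluation data `(X_a', X_a, P_a, S_a, Λ_a)` (`a = 1, 2`) over a domain, an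
isomorphism `h : S₁ ≃ S₂` of the kernels and an isomorphism `u : P₁ ≃ P₂` of the principal parts with
`u ∘ π₁ ∘ j₁ = π₂ ∘ j₂ ∘ h`.  Then the two evaluation determinants are associated:
`det (ev₁|X₁') ~ det (ev₂|X₂')`. -/
theorem s27pfl_le
    (b₁ : Basis ι₁ R X₁') (c₁ : Basis ι₁ R Λ₁) (b₁' : Basis κ R S₁) (c₁' : Basis κ R P₁)
    (i₁ : X₁' →ₗ[R] X₁) (π₁ : X₁ →ₗ[R] P₁) (j₁ : S₁ →ₗ[R] X₁) (ev₁ : X₁ →ₗ[R] Λ₁)
    (hi₁ : Function.Injective i₁) (hiπ₁ : Function.Exact i₁ π₁) (hπ₁ : Function.Surjective π₁)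
    (hj₁ : Function.Injective j₁) (hjev₁ : Function.Exact j₁ ev₁) (hev₁ : Function.Surjective ev₁)
    (b₂ : Basis ι₂ R X₂') (c₂ : Basis ι₂ R Λ₂) (b₂' : Basis κ R S₂) (c₂' : Basis κ R P₂)
    (i₂ : X₂' →ₗ[R] X₂) (π₂ : X₂ →ₗ[R] P₂) (j₂ : S₂ →ₗ[R] X₂) (ev₂ : X₂ →ₗ[R] Λ₂)
    (hi₂ : Function.Injective i₂) (hiπ₂ : Function.Exact i₂ π₂) (hπ₂ : Function.Surjective π₂)
    (hj₂ : Function.Injective j₂) (hjev₂ : Function.Exact j₂ ev₂) (hev₂ : Function.Surjective ev₂)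
    (h : S₁ ≃ₗ[R] S₂) (u : P₁ ≃ₗ[R] P₂) (hcomm : ∀ s, u (π₁ (j₁ s)) = π₂ (j₂ (h s))) :
    Associated (s27dvDet b₁ c₁ (ev₁ ∘ₗ i₁)) (s27dvDet b₂ c₂ (ev₂ ∘ₗ i₂)) := by
  have a1 := s27pfl_assoc_domain b₁ c₁ b₁' c₁' i₁ π₁ j₁ ev₁ hi₁ hiπ₁ hπ₁ hj₁ hjev₁ hev₁
  have a2 := s27pfl_assoc_domain b₂ c₂ b₂' c₂' i₂ π₂ j₂ ev₂ hi₂ hiπ₂ hπ₂ hj₂ hjev₂ hev₂
  have a3 : Associated (s27dvDet b₁' c₁' (π₁ ∘ₗ j₁)) (s27dvDet b₂' c₂' (π₂ ∘ₗ j₂)) :=
    s27pfl_assoc_of_equiv b₁' c₁' b₂' c₂' (π₁ ∘ₗ j₁) (π₂ ∘ₗ j₂) h u hcomm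
  exact a1.trans (a3.trans a2.symm)

end LE

end Fermat.Agent.S27

end
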