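/-
S27 route B (item 27), crux LE(b), leaf LE1 (PF=LAT), part 2 (helper58): BASES over a local ring and the
VALUATION form.

* `s27pflb_exists_basis_ker` : `R` a local ring (a valuation ring `W`), `X` free with a basis indexed by `ι ⊕ κ`,
  `ev : X → Λ` ONTO a free module with a basis indexed by `ι`  ⇒  `ker ev` has a basis indexed by `κ`
  ("`S = ker(ev_R | L(A' + G) ⊗ W)` is free of rank `deg G`, a direct summand").
* `s27pflb_unit_of_associated` : `W` a valuation subring of a field `𝔏`, `a ~ b` in `W` ⇒ `a = u · b` with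
  `u ≠ 0 ∧ u ∈ W ∧ u⁻¹ ∈ W` (the shape `S27IsUnitIn W u` of S27/Plan.lean, unfolded).
* `s27pflb_le1` : LE1 with the kernel `S := ker ev` itself: for every basis `b'` of `ker ev`,
  `det (ev ∘ i) ~ det (π|ker ev)`; and `s27pflb_le1_exists` (local ring: such a basis exists).
* `s27pflb_le` : the abstract LE5 over a valuation subring `W ⊂ 𝔏`, kernels and bases produced inside:
  `(det (ev₁ ∘ i₁) : 𝔏) = u · det (ev₂ ∘ i₂)`, `u` a unit of `W`.
-/
import Fermat.Agent.S27.PfLat

set_option autoImplicit false
set_option linter.style.haveILetI false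

noncomputable section

namespace Fermat.Agent.S27

open Module

section KerBasis

variable {R : Type*} [CommRing R] [IsLocalRing R]
variable {X Λ : Type*} [AddCommGroup X] [Module R X] [AddCommGroup Λ] [Module R Λ]
variable {ι κ : Type*} [Fintype ι] [DecidableEq ι] [Fintype κ] [DecidableEq κ]

omit [DecidableEq ι] [DecidableEq κ] in
/-- the kernel of a surjection of free modules over a local ring is free of the complementary rank. -/
theorem s27pflb_exists_basis_ker (bX : Basis (ι ⊕ κ) R X) (c : Basis ι R Λ) (ev : X →ₗ[R] Λ)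
    (hev : Function.Surjective ev) : Nonempty (Basis κ R (LinearMap.ker ev)) := by
  classical
  let s : Λ →ₗ[R] X := c.constr R fun k => Classical.choose (hev (c k))
  have hs : ev ∘ₗ s = LinearMap.id := by
    apply c.ext
    intro k
    simp only [LinearMap.comp_apply, LinearMap.id_apply, s, Basis.constr_basis]
    exact Classical.choose_spec (hev (c k))
  have hs' : ∀ y, ev (s y) = y := fun y => LinearMap.congr_fun hs y
  let r : X →ₗ[R] LinearMap.ker ev :=
    LinearMap.codRestrict (LinearMap.ker ev) ((LinearMap.id : X →ₗ[R] X) - s ∘ₗ ev) (by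
      intro x
      rw [LinearMap.mem_ker, LinearMap.sub_apply, LinearMap.id_apply, LinearMap.comp_apply,
        map_sub, hs', sub_self])
  have hr : ∀ z : LinearMap.ker ev, r (z : X) = z := by
    intro z
    apply Subtype.ext
    show ((LinearMap.id : X →ₗ[R] X) - s ∘ₗ ev) (z : X) = (z : X)
    rw [LinearMap.sub_apply, LinearMap.id_apply, LinearMap.comp_apply,
      LinearMap.mem_ker.1 z.2, map_zero, sub_zero]
  haveI : Module.Free R X := Module.Free.of_basis bX
  haveI : Module.Finite R X := Module.Finite.of_basis bX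
  haveI : Module.Free R Λ := Module.Free.of_basis c
  haveI : Module.Finite R Λ := Module.Finite.of_basis c
  haveI : Module.Projective R (LinearMap.ker ev) :=
    Module.Projective.of_split (LinearMap.ker ev).subtype r (by
      ext z
      simp only [LinearMap.comp_apply, Submodule.subtype_apply, LinearMap.id_apply]
      rw [hr z])
  haveI : Module.Finite R (LinearMap.ker ev) :=
    Module.Finite.of_surjective r (fun z => ⟨(z : X), hr z⟩)
  haveI : Module.Free R (LinearMap.ker ev) := Module.free_of_flat_of_isLocalRing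
  -- the splitting `X ≃ ker ev × Λ`
  have hex : Function.Exact (LinearMap.ker ev).subtype ev := by
    intro x
    constructor
    · intro hx
      exact ⟨⟨x, LinearMap.mem_ker.2 hx⟩, rfl⟩
    · rintro ⟨z, rfl⟩
      exact LinearMap.mem_ker.1 z.2
  obtain ⟨e, -, -⟩ := hex.splitSurjectiveEquiv (Submodule.injective_subtype _) ⟨s, hs⟩
  have h1 : Module.finrank R X = Module.finrank R (LinearMap.ker ev) + Module.finrank R Λ := by
    rw [e.finrank_eq, Module.finrank_prod]
  have h2 : Module.finrank R X = Fintype.card ι + Fintype.card κ := by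
    rw [Module.finrank_eq_card_basis bX, Fintype.card_sum]
  have h3 : Module.finrank R Λ = Fintype.card ι := Module.finrank_eq_card_basis c
  have h4 : Module.finrank R (LinearMap.ker ev) = Fintype.card κ := by omega
  exact ⟨(Module.finBasisOfFinrankEq R (LinearMap.ker ev) h4).reindex (Fintype.equivFin κ).symm⟩

end KerBasis

section Unit

variable {𝔏 : Type*} [Field 𝔏]

/-- associated elements of a valuation subring differ by a unit of the valuation subring
(the shape `S27IsUnitIn W u`, unfolded). -/
theorem s27pflb_unit_of_associated (W : ValuationSubring 𝔏) (a b : ↥W) (h : Associated a b) :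
    ∃ u : 𝔏, (u ≠ 0 ∧ u ∈ W ∧ u⁻¹ ∈ W) ∧ (a : 𝔏) = u * (b : 𝔏) := by
  obtain ⟨v, hv⟩ := h.symm
  -- `b * v = a`
  have key : ((v : ↥W) : 𝔏) * (((v⁻¹ : (↥W)ˣ) : ↥W) : 𝔏) = 1 :=
    congrArg Subtype.val (Units.mul_inv v)
  have hne : ((v : ↥W) : 𝔏) ≠ 0 := by
    intro h0
    rw [h0, zero_mul] at key
    exact zero_ne_one key
  have hinv : (((v : ↥W) : 𝔏))⁻¹ = (((v⁻¹ : (↥W)ˣ) : ↥W) : 𝔏) :=
    inv_eq_of_mul_eq_one_right key
  refine ⟨((v : ↥W) : 𝔏), ⟨hne, (v : ↥W).2, ?_⟩, ?_⟩
  · rw [hinv]
    exact ((v⁻¹ : (↥W)ˣ) : ↥W).2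
  · have h2 : (b : 𝔏) * ((v : ↥W) : 𝔏) = (a : 𝔏) := congrArg Subtype.val hv
    rw [← h2, mul_comm]

end Unit

end Fermat.Agent.S27

end
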