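/-
S27 route B (item 27), geometry leaf **(PF=LAT)**, explicit form + bases (helper92): THE POINT FORMULA IS THE
LATTICE FORM.  (Twin of helper58's `S27/PfLat.lean` (`s27pfl_assoc`, abstract bases of `Λ`); here the lattice of values
is given by a MATRIX `L` (Newton matrix `s27eflL` of `S27/EffLat.lean`, or Vandermonde), and the bases exist.)

Abstract linear algebra over a commutative ring `W` (in the application: the valuation ring).
* `X` a `W`-module (in the application `L_K(A' + G) ⊗ W`);
* `e : X →ₗ[W] (ι → W)` the (normalised) evaluation at the points (`e x i = R_i(x) / R_i(a)`);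
* `pp : X →ₗ[W] (κ → W)` the principal parts at `G` (surjective, kernel `X' = L_K(A') ⊗ W`);
* `L : Matrix ι ι W` a matrix spanning the lattice of values: (EFF) `e x ∈ L · W^ι`, (GEN) `L · W^ι ⊆ e X`,
  `L` injective (Newton matrix of `S27/EffLat.lean`, or the Vandermonde matrix);
* `f` a basis of `ker pp`, `s` a basis of `S = ker e`.

Then (`s27pfw_det`, any commutative ring `W`, any bases `f`, `s`)
      `det [e (f l) i] = u · det L · det [pp (s m) k]`   with `u` a unit of `W`,
i.e. point formula `det [R_i f_l] / (∏ R_i a · det L)` ≐ `det (S → PP_G ⊗ W)` (two presentations of the same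
cokernel).  No injectivity (`θ ≠ 0`) is needed.

Bases exist (`W` local):
* `s27pfw_ker_basis`    : `q : X ↠ W^μ`, `X` free with a basis indexed by `μ ⊕ ν` ⇒ `ker q` has a basis indexed by `ν`;
* `s27pfw_exists_basis` : `S = ker e` has a basis indexed by `κ`;
* `s27pfw_main`         : `∃ s u, det [e (f l) i] = u · det L · det [pp (s m) k]`.
* `s27pfw_hL_of_det_ne_zero` : in a domain, `det L ≠ 0` gives the injectivity hypothesis `hL`.
Tools: `s27pfwEquiv : X ≃ W^μ × ker q`, `s27pfwBasis` (lifts + basis of the kernel), `s27pfwCoef` (`e x = L · ē x`).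
Mathlib only.
-/
import Mathlib

set_option autoImplicit false
set_option linter.unusedSectionVars false
set_option linter.unusedSimpArgs false
set_option linter.deprecated false
set_option linter.unusedVariables false
set_option linter.style.haveILetI false

noncomputable section

namespace Fermat.Agent.S27

open Module Matrix

section Split

variable {W : Type*} [CommRing W] {X : Type*} [AddCommGroup X] [Module W X]
variable {μ : Type*} [Fintype μ] [DecidableEq μ]

/-- the section of `q` determined by lifts `z` of the unit vectors. -/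
def s27pfwSec (z : μ → X) : (μ → W) →ₗ[W] X := Fintype.linearCombination W z

theorem s27pfwSec_apply (z : μ → X) (c : μ → W) : s27pfwSec z c = ∑ k, c k • z k :=
  Fintype.linearCombination_apply W z c

theorem s27pfwSec_single (z : μ → X) (k : μ) : s27pfwSec (W := W) z (Pi.single k 1) = z k := by
  rw [s27pfwSec_apply, Finset.sum_eq_single k]
  · simp
  · intro j _ hj
    simp [Pi.single_apply, hj]
  · intro h
    exact absurd (Finset.mem_univ k) h

theorem s27pfw_comp_sec (q : X →ₗ[W] (μ → W)) (z : μ → X)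
    (hz : ∀ k, q (z k) = Pi.single k 1) (c : μ → W) : q (s27pfwSec z c) = c := by
  rw [s27pfwSec_apply, map_sum]
  simp only [map_smul, hz]
  funext j
  simp [Finset.sum_apply, Pi.single_apply]

/-- `X ≃ W^μ × ker q` for a map `q` with lifts of the unit vectors. -/
def s27pfwEquiv (q : X →ₗ[W] (μ → W)) (z : μ → X) (hz : ∀ k, q (z k) = Pi.single k 1) :
    X ≃ₗ[W] (μ → W) × LinearMap.ker q :=
  LinearEquiv.ofLinear
    (LinearMap.prod q
      ((LinearMap.id - (s27pfwSec z).comp q).codRestrict (LinearMap.ker q) (fun x => by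
        rw [LinearMap.mem_ker]
        simp only [LinearMap.sub_apply, LinearMap.id_apply, LinearMap.comp_apply, map_sub]
        rw [s27pfw_comp_sec q z hz, sub_self])))
    (LinearMap.coprod (s27pfwSec z) (LinearMap.ker q).subtype)
    (by
      apply LinearMap.ext
      rintro ⟨c, k⟩
      have hk : q (k : X) = 0 := k.2
      refine Prod.ext ?_ (Subtype.ext ?_)
      · simp [s27pfw_comp_sec q z hz, hk]
      · simp [s27pfw_comp_sec q z hz, hk])
    (by
      apply LinearMap.ext
      intro x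
      simp)

/-- the basis of `X` made of the lifts `z` and a basis of `ker q`. -/
def s27pfwBasis {ν : Type*} (q : X →ₗ[W] (μ → W)) (z : μ → X)
    (hz : ∀ k, q (z k) = Pi.single k 1) (kb : Basis ν W (LinearMap.ker q)) :
    Basis (μ ⊕ ν) W X :=
  ((Pi.basisFun W μ).prod kb).map (s27pfwEquiv q z hz).symm

theorem s27pfwBasis_inl {ν : Type*} (q : X →ₗ[W] (μ → W)) (z : μ → X)
    (hz : ∀ k, q (z k) = Pi.single k 1) (kb : Basis ν W (LinearMap.ker q)) (k : μ) :
    s27pfwBasis q z hz kb (Sum.inl k) = z k := by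
  simp [s27pfwBasis, s27pfwEquiv, s27pfwSec_single]

theorem s27pfwBasis_inr {ν : Type*} (q : X →ₗ[W] (μ → W)) (z : μ → X)
    (hz : ∀ k, q (z k) = Pi.single k 1) (kb : Basis ν W (LinearMap.ker q)) (j : ν) :
    s27pfwBasis q z hz kb (Sum.inr j) = (kb j : X) := by
  simp [s27pfwBasis, s27pfwEquiv]

end Split

section Main

variable {W : Type*} [CommRing W] {X : Type*} [AddCommGroup X] [Module W X]
variable {ι κ : Type*} [Fintype ι] [DecidableEq ι] [Fintype κ] [DecidableEq κ]

/-- the coefficient map `ē : X → W^ι`, `e x = L · ē x`. -/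
def s27pfwCoef (e : X →ₗ[W] (ι → W)) (L : Matrix ι ι W)
    (hL : ∀ c : ι → W, L *ᵥ c = 0 → c = 0) (heff : ∀ x, ∃ c : ι → W, e x = L *ᵥ c) :
    X →ₗ[W] (ι → W) :=
  ((LinearEquiv.ofInjective (Matrix.mulVecLin L)
      ((injective_iff_map_eq_zero (Matrix.mulVecLin L)).2 fun c hc => hL c (by simpa using hc))).symm :
      LinearMap.range (Matrix.mulVecLin L) →ₗ[W] (ι → W)).comp
    (e.codRestrict (LinearMap.range (Matrix.mulVecLin L)) (fun x => by
      obtain ⟨c, hc⟩ := heff x
      exact ⟨c, by rw [hc]; rfl⟩))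

theorem s27pfwCoef_spec (e : X →ₗ[W] (ι → W)) (L : Matrix ι ι W)
    (hL : ∀ c : ι → W, L *ᵥ c = 0 → c = 0) (heff : ∀ x, ∃ c : ι → W, e x = L *ᵥ c) (x : X) :
    L *ᵥ (s27pfwCoef e L hL heff x) = e x := by
  have h := LinearEquiv.apply_symm_apply (LinearEquiv.ofInjective (Matrix.mulVecLin L)
      ((injective_iff_map_eq_zero (Matrix.mulVecLin L)).2 fun c hc => hL c (by simpa using hc)))
    (e.codRestrict (LinearMap.range (Matrix.mulVecLin L)) (fun x => by
      obtain ⟨c, hc⟩ := heff x
      exact ⟨c, by rw [hc]; rfl⟩) x)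
  exact congrArg Subtype.val h

theorem s27pfw_mulVec_inj (L : Matrix ι ι W) (hL : ∀ c : ι → W, L *ᵥ c = 0 → c = 0)
    {c c' : ι → W} (h : L *ᵥ c = L *ᵥ c') : c = c' := by
  have : L *ᵥ (c - c') = 0 := by rw [Matrix.mulVec_sub, h, sub_self]
  exact sub_eq_zero.1 (hL _ this)

theorem s27pfwCoef_ker (e : X →ₗ[W] (ι → W)) (L : Matrix ι ι W)
    (hL : ∀ c : ι → W, L *ᵥ c = 0 → c = 0) (heff : ∀ x, ∃ c : ι → W, e x = L *ᵥ c) :
    LinearMap.ker e = LinearMap.ker (s27pfwCoef e L hL heff) := by
  ext x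
  rw [LinearMap.mem_ker, LinearMap.mem_ker]
  constructor
  · intro h
    apply hL
    rw [s27pfwCoef_spec, h]
  · intro h
    rw [← s27pfwCoef_spec e L hL heff x, h, Matrix.mulVec_zero]

/-- **(PF=LAT)**: the point formula is the lattice form.  `det [e (f l) i] = u · det L · det [pp (s m) k]`. -/
theorem s27pfw_det (e : X →ₗ[W] (ι → W)) (pp : X →ₗ[W] (κ → W)) (L : Matrix ι ι W)
    (hL : ∀ c : ι → W, L *ᵥ c = 0 → c = 0)
    (heff : ∀ x, ∃ c : ι → W, e x = L *ᵥ c) (hgen : ∀ c : ι → W, ∃ x, e x = L *ᵥ c)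
    (hpp : Function.Surjective pp)
    (f : Basis ι W (LinearMap.ker pp)) (s : Basis κ W (LinearMap.ker e)) :
    ∃ u : Wˣ, (Matrix.of fun (i : ι) (l : ι) => e (f l : X) i).det
      = u * L.det * (Matrix.of fun (k : κ) (m : κ) => pp (s m : X) k).det := by
  classical
  set eb := s27pfwCoef e L hL heff with heb
  have hker : LinearMap.ker e = LinearMap.ker eb := s27pfwCoef_ker e L hL heff
  have hspec : ∀ x, L *ᵥ (eb x) = e x := s27pfwCoef_spec e L hL heff
  -- lifts
  choose x hx using fun j : ι => hgen (Pi.single j 1)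
  have hxb : ∀ j, eb (x j) = Pi.single j 1 := fun j =>
    s27pfw_mulVec_inj L hL (by rw [hspec, hx j])
  choose y hy using fun k : κ => hpp (Pi.single k 1)
  -- the two bases
  let s' : Basis κ W (LinearMap.ker eb) := s.map (LinearEquiv.ofEq _ _ hker)
  have hs' : ∀ m, ((s' m : LinearMap.ker eb) : X) = (s m : X) := fun m => by
    simp [s']
  let B₁ : Basis (ι ⊕ κ) W X := s27pfwBasis eb x hxb s'
  let B₂ : Basis (ι ⊕ κ) W X := (s27pfwBasis pp y hy f).reindex (Equiv.sumComm κ ι)
  have hB₁l : ∀ j, B₁ (Sum.inl j) = x j := fun j => s27pfwBasis_inl eb x hxb s' j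
  have hB₁r : ∀ m, B₁ (Sum.inr m) = (s m : X) := fun m => by
    rw [← hs' m]; exact s27pfwBasis_inr eb x hxb s' m
  have hB₂l : ∀ l, B₂ (Sum.inl l) = (f l : X) := fun l => by
    simp only [B₂, Basis.reindex_apply, Equiv.sumComm_symm, Equiv.sumComm_apply, Sum.swap_inl]
    exact s27pfwBasis_inr pp y hy f l
  have hB₂r : ∀ k, B₂ (Sum.inr k) = y k := fun k => by
    simp only [B₂, Basis.reindex_apply, Equiv.sumComm_symm, Equiv.sumComm_apply, Sum.swap_inr]
    exact s27pfwBasis_inl pp y hy f k
  -- the combined map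
  let Φ : X →ₗ[W] (ι ⊕ κ → W) :=
    { toFun := fun z => Sum.elim (e z) (pp z)
      map_add' := fun a b => by
        funext r; cases r <;> simp
      map_smul' := fun c a => by
        funext r; cases r <;> simp }
  have hΦl : ∀ z i, Φ z (Sum.inl i) = e z i := fun z i => rfl
  have hΦr : ∀ z k, Φ z (Sum.inr k) = pp z k := fun z k => rfl
  let M₁ : Matrix (ι ⊕ κ) (ι ⊕ κ) W := Matrix.of fun r c => Φ (B₁ c) r
  let M₂ : Matrix (ι ⊕ κ) (ι ⊕ κ) W := Matrix.of fun r c => Φ (B₂ c) r
  let T : Matrix (ι ⊕ κ) (ι ⊕ κ) W := B₁.toMatrix B₂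
  have hM : M₂ = M₁ * T := by
    ext r c
    simp only [M₁, M₂, T, Matrix.mul_apply, Matrix.of_apply, Basis.toMatrix_apply]
    conv_lhs => rw [← B₁.sum_repr (B₂ c)]
    rw [map_sum, Finset.sum_apply]
    refine Finset.sum_congr rfl fun i _ => ?_
    rw [map_smul, Pi.smul_apply, smul_eq_mul, mul_comm]
  have hT : IsUnit T.det := by
    have h1 : T * B₂.toMatrix B₁ = 1 := Basis.toMatrix_mul_toMatrix_flip B₁ B₂
    have h2 : T.det * (B₂.toMatrix B₁).det = 1 := by
      rw [← Matrix.det_mul, h1, Matrix.det_one]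
    exact IsUnit.of_mul_eq_one _ h2
  have hM₁ : M₁ = Matrix.fromBlocks L 0 (Matrix.of fun (k : κ) (j : ι) => pp (x j) k)
      (Matrix.of fun (k : κ) (m : κ) => pp (s m : X) k) := by
    ext r c
    rcases r with i | k <;> rcases c with j | m
    · simp only [M₁, Matrix.of_apply, Matrix.fromBlocks_apply₁₁, hB₁l, hΦl]
      rw [hx j]
      simp [Matrix.mulVec, dotProduct, Pi.single_apply]
    · simp only [M₁, Matrix.of_apply, Matrix.fromBlocks_apply₁₂, hB₁r, hΦl, Matrix.zero_apply]
      have : e (s m : X) = 0 := (s m).2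
      rw [this]; rfl
    · simp only [M₁, Matrix.of_apply, Matrix.fromBlocks_apply₂₁, hB₁l, hΦr]
    · simp only [M₁, Matrix.of_apply, Matrix.fromBlocks_apply₂₂, hB₁r, hΦr]
  have hM₂ : M₂ = Matrix.fromBlocks (Matrix.of fun (i : ι) (l : ι) => e (f l : X) i)
      (Matrix.of fun (i : ι) (k : κ) => e (y k) i) 0 1 := by
    ext r c
    rcases r with i | k <;> rcases c with l | k'
    · simp only [M₂, Matrix.of_apply, Matrix.fromBlocks_apply₁₁, hB₂l, hΦl]
    · simp only [M₂, Matrix.of_apply, Matrix.fromBlocks_apply₁₂, hB₂r, hΦl]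
    · simp only [M₂, Matrix.of_apply, Matrix.fromBlocks_apply₂₁, hB₂l, hΦr, Matrix.zero_apply]
      have : pp (f l : X) = 0 := (f l).2
      rw [this]; rfl
    · simp only [M₂, Matrix.of_apply, Matrix.fromBlocks_apply₂₂, hB₂r, hΦr]
      rw [hy k', Matrix.one_apply, Pi.single_apply]
  have hd₁ : M₁.det = L.det * (Matrix.of fun (k : κ) (m : κ) => pp (s m : X) k).det := by
    rw [hM₁, Matrix.det_fromBlocks_zero₁₂]
  have hd₂ : M₂.det = (Matrix.of fun (i : ι) (l : ι) => e (f l : X) i).det := by
    rw [hM₂, Matrix.det_fromBlocks_zero₂₁, Matrix.det_one, mul_one]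
  refine ⟨hT.unit, ?_⟩
  rw [← hd₂, hM, Matrix.det_mul, hd₁, IsUnit.unit_spec]
  ring

end Main

section Free

variable {W : Type*} [CommRing W] [IsLocalRing W] {X : Type*} [AddCommGroup X] [Module W X]
variable {μ ν : Type*} [Fintype μ] [DecidableEq μ] [Fintype ν] [DecidableEq ν]

/-- **bases exist** (valuation-ring half): over a local ring the kernel of a surjection
`q : X → W^μ` of a free module `X` of rank `|μ| + |ν|` has a basis indexed by `ν`. -/
theorem s27pfw_ker_basis (q : X →ₗ[W] (μ → W)) (hq : Function.Surjective q)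
    (b : Basis (μ ⊕ ν) W X) : Nonempty (Basis ν W (LinearMap.ker q)) := by
  classical
  choose z hz using fun k : μ => hq (Pi.single k 1)
  let E := s27pfwEquiv q z hz
  haveI : Module.Free W X := Module.Free.of_basis b
  haveI : Module.Finite W X := Module.Finite.of_basis b
  let r : X →ₗ[W] LinearMap.ker q := (LinearMap.snd W (μ → W) (LinearMap.ker q)).comp E.toLinearMap
  have hr : ∀ k : LinearMap.ker q, r (k : X) = k := by
    intro k
    have h1 : E.symm ((0 : μ → W), k) = (k : X) := by
      simp [E, s27pfwEquiv]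
    have h2 : E (k : X) = ((0 : μ → W), k) := by
      rw [← h1, LinearEquiv.apply_symm_apply]
    show (E (k : X)).2 = k
    rw [h2]
  have hrs : Function.Surjective r := fun k => ⟨(k : X), hr k⟩
  haveI : Module.Finite W (LinearMap.ker q) := Module.Finite.of_surjective r hrs
  haveI : Module.Projective W (LinearMap.ker q) :=
    Module.Projective.of_split (LinearMap.ker q).subtype r (by
      apply LinearMap.ext
      intro k
      exact hr k)
  haveI : Module.Free W (LinearMap.ker q) := Module.free_of_flat_of_isLocalRing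
  have hrank : Module.finrank W X = Fintype.card μ + Module.finrank W (LinearMap.ker q) := by
    rw [LinearEquiv.finrank_eq E, Module.finrank_prod, Module.finrank_fintype_fun_eq_card]
  have hrank' : Module.finrank W X = Fintype.card μ + Fintype.card ν := by
    rw [Module.finrank_eq_card_basis b, Fintype.card_sum]
  have hν : Module.finrank W (LinearMap.ker q) = Fintype.card ν := by omega
  have hc : Fintype.card (Module.Free.ChooseBasisIndex W (LinearMap.ker q)) = Fintype.card ν := by
    rw [← Module.finrank_eq_card_chooseBasisIndex, hν]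
  exact ⟨(Module.Free.chooseBasis W (LinearMap.ker q)).reindex (Fintype.equivOfCardEq hc)⟩

variable {ι κ : Type*} [Fintype ι] [DecidableEq ι] [Fintype κ] [DecidableEq κ]

/-- `S = ker e` has a basis indexed by `κ`. -/
theorem s27pfw_exists_basis (e : X →ₗ[W] (ι → W)) (L : Matrix ι ι W)
    (hL : ∀ c : ι → W, L *ᵥ c = 0 → c = 0)
    (heff : ∀ x, ∃ c : ι → W, e x = L *ᵥ c) (hgen : ∀ c : ι → W, ∃ x, e x = L *ᵥ c)
    (b : Basis (ι ⊕ κ) W X) : Nonempty (Basis κ W (LinearMap.ker e)) := by
  classical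
  have hker : LinearMap.ker e = LinearMap.ker (s27pfwCoef e L hL heff) :=
    s27pfwCoef_ker e L hL heff
  have hsurj : Function.Surjective (s27pfwCoef e L hL heff) := by
    intro c
    obtain ⟨x, hx⟩ := hgen c
    exact ⟨x, s27pfw_mulVec_inj L hL (by rw [s27pfwCoef_spec, hx])⟩
  obtain ⟨s⟩ := s27pfw_ker_basis (ν := κ) (s27pfwCoef e L hL heff) hsurj b
  exact ⟨s.map (LinearEquiv.ofEq _ _ hker.symm)⟩

/-- **(PF=LAT) with bases**: over a local ring, `X` free of rank `|ι| + |κ|`: there are a basis `s` of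
`S = ker e` and a unit `u` with `det [e (f l) i] = u · det L · det [pp (s m) k]`. -/
theorem s27pfw_main (e : X →ₗ[W] (ι → W)) (pp : X →ₗ[W] (κ → W)) (L : Matrix ι ι W)
    (hL : ∀ c : ι → W, L *ᵥ c = 0 → c = 0)
    (heff : ∀ x, ∃ c : ι → W, e x = L *ᵥ c) (hgen : ∀ c : ι → W, ∃ x, e x = L *ᵥ c)
    (hpp : Function.Surjective pp) (f : Basis ι W (LinearMap.ker pp)) :
    ∃ (s : Basis κ W (LinearMap.ker e)) (u : Wˣ),
      (Matrix.of fun (i : ι) (l : ι) => e (f l : X) i).det
        = u * L.det * (Matrix.of fun (k : κ) (m : κ) => pp (s m : X) k).det := by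
  classical
  choose y hy using fun k : κ => hpp (Pi.single k 1)
  let b : Basis (ι ⊕ κ) W X := (s27pfwBasis pp y hy f).reindex (Equiv.sumComm κ ι)
  obtain ⟨s⟩ := s27pfw_exists_basis e L hL heff hgen b
  obtain ⟨u, hu⟩ := s27pfw_det e pp L hL heff hgen hpp f s
  exact ⟨s, u, hu⟩

end Free

section Domain

variable {W : Type*} [CommRing W] [IsDomain W] {ι : Type*} [Fintype ι] [DecidableEq ι]

/-- in a domain a matrix with non-zero determinant is injective. -/
theorem s27pfw_hL_of_det_ne_zero (L : Matrix ι ι W) (h : L.det ≠ 0) :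
    ∀ c : ι → W, L *ᵥ c = 0 → c = 0 := fun _ hc =>
  Matrix.eq_zero_of_mulVec_eq_zero h hc

end Domain

end Fermat.Agent.S27
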