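/-
S27-B, POLE-DIV: **SPLIT** (helper46, safety double of helper31's leaf), in the literal shape of the
hypothesis `hsplit` of `s27opp_stage` (S27/PoleDivOpp.lean, helper14):

  `s27pda_split` : `O` a `K`-point, `(G₀ + G₀) O ≤ 0`, `0 ≤ G₀ + G₀`, `A` with `-1 ≤ A O` and
  `(G₀ + G₀) Q ≤ A Q` for `Q ≠ O`, `f` a `K`-basis of `L_K(A)`:
  every `b ∈ L_K(G₀ + G₀)` is `a₀ • 1 + Σ a_l • f_l`.

[`b` is regular at `O`; `a₀ := b(O)`; `b − a₀` vanishes at `O`, so lies in `L_K(A)`.]
-/
import Fermat.Agent.S27.PoleDivVal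
import Fermat.Prelude.Def_AlgebraicCurve_Repartitions

set_option autoImplicit false
set_option linter.unusedVariables false
set_option linter.unusedSectionVars false

noncomputable section

namespace Fermat.Agent.S27

open AlgebraicCurve IsLocalRing

universe u v

variable {K : Type u} {F : Type v} [Field K] [Field F] [Algebra K F]

/-- **SPLIT**: `L_K(G₀ + G₀) = K · 1 + L_K(A)`. -/
theorem s27pda_split (O : Place K F) (hres : Function.Surjective (algebraMap K O.ResidueField))
    (G₀ A : Divisor K F) (hGO : (G₀ + G₀) O ≤ 0) (hG : ∀ Q : Place K F, 0 ≤ (G₀ + G₀) Q)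
    (hAO : -1 ≤ A O) (hA : ∀ Q : Place K F, Q ≠ O → (G₀ + G₀) Q ≤ A Q)
    {g : ℕ} (f : Module.Basis (Fin g) K ↥(riemannRochSpace A)) :
    ∀ b ∈ riemannRochSpace (G₀ + G₀), ∃ (a₀ : K) (a : Fin g → K),
      b = a₀ • (1 : F) + ∑ l, a l • ((f l : ↥(riemannRochSpace A)) : F) := by
  intro b hb
  have hbO : b ∈ O.toValuationSubring := by
    rw [Fermat.Agent.S24.PlaceAux.mem_iff_adicValuation_le_one]
    refine (hb O).trans ?_
    rw [← WithZero.exp_zero, WithZero.exp_le_exp]
    exact hGO
  set a₀ : K := s27pdvEv O hres ⟨b, hbO⟩ with ha₀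
  have hmem := s27pdvEv_sub_mem O hres ⟨b, hbO⟩
  have hb' : b - algebraMap K F a₀ ∈ riemannRochSpace A := by
    intro v
    by_cases hv : v = O
    · rw [hv]
      rw [Place.adicValuation_le_exp_iff]
      by_cases h0 : b - algebraMap K F a₀ = 0
      · exact Or.inl h0
      · right
        have h1 : ((⟨b, hbO⟩ - algebraMap K O.toValuationSubring a₀ : O.toValuationSubring) : F) =
            b - algebraMap K F a₀ := rfl
        have h2 : b - algebraMap K F a₀ ∈ O.toValuationSubring.nonunits := by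
          rw [ValuationSubring.mem_nonunits_iff_exists_mem_maximalIdeal]
          exact ⟨(⟨b, hbO⟩ - algebraMap K O.toValuationSubring a₀ : O.toValuationSubring).2, hmem⟩
        have h3 := (Fermat.Agent.S24.PlaceAux.ord_pos_iff_mem_nonunits O h0).2 h2
        omega
    · refine (Valuation.map_sub _ _ _).trans (max_le ?_ ?_)
      · refine (hb v).trans ?_
        rw [WithZero.exp_le_exp]
        exact hA v hv
      · refine (v.adicValuation_algebraMap_le_one a₀).trans ?_
        rw [← WithZero.exp_zero, WithZero.exp_le_exp]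
        exact (hG v).trans (hA v hv)
  refine ⟨a₀, fun l => f.repr ⟨b - algebraMap K F a₀, hb'⟩ l, ?_⟩
  have h1 := f.sum_repr ⟨b - algebraMap K F a₀, hb'⟩
  have h2 := congrArg (fun z : ↥(riemannRochSpace A) => (z : F)) h1
  simp only [Submodule.coe_sum, Submodule.coe_smul] at h2
  rw [h2, Algebra.smul_def, mul_one]
  ring

end Fermat.Agent.S27

end
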