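/-
S27 route B, POLE-DIV leaf C3 (helper33; owner of the decomposition: helper46): THE SECTION `p₀`.

`(𝔏, W)`: a field `𝔏 ⊇ K` with a valuation subring `W ⊇ K`; points `R i : F →ₐ[K] 𝔏`, `i < N`;
`O` a place of `F / K` (the constant point `O″`), `s` a local parameter at `O`.
For functions `τ i ∈ F` and constants `c i ∈ K` (`c i = τ i (O)`) put

    p₀ := ∏ i, (τ i ⊗ 1 − 1 ⊗ R i (τ i))        (a section of `F ⊗[K] 𝔏`).

* factors: `s27pd3_unit_of_comap`, `s27pd3_unit_of_ord_zero`, `s27pd3_assoc_of_ord_eq`,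
  `s27pd3_factor_centre` (`R ↦ O`, `ord_O (τ − c) = 1` ⇒ `c − R τ ≐_W R s`),
  `s27pd3_factor_other` (`R ↦ Q`, `ord_Q (τ − c) = 0` ⇒ `c − R τ ∈ Wˣ`),
  `s27pd3_factor_generic` (generic reduction ⇒ `c − R τ ∈ Wˣ`);
* `s27pd3_prod` : `∏ i, (c i − R i (τ i)) ≐_W ∏_{i : R i ↦ O} R i s`   (`= γ(D′)`);
* `s27pd3_coords` : THE COORDINATES of `p₀` in a spanning family `x : J → F` of a `K`-subspace
  containing all the products `∏_{i ∈ S} τ i`: `p : J → 𝔏` with `p j ∈ W` and, for EVERY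
  `K`-algebra homomorphism `e : A → 𝔏` of a subalgebra `A ∋ τ i, x j` of `F`
  (`e = R i`, or `e =` the value at `O`),  `∑ j, e (x j) * p j = ∏ i, (e (τ i) − R i (τ i))`;
* **`s27pd3_main`** : `p j ∈ W`, `p` vanishes at all the points `R i`, and the value of `p` at `O`
  is `u · ∏_{i : R i ↦ O} R i s`, `u ∈ Wˣ`.
-/
import Mathlib
import Fermat.Agent.S27.AdEx
import Fermat.Agent.S27.PtDef
import Fermat.Agent.S27.LeDual

set_option autoImplicit false
set_option linter.unusedVariables false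
set_option linter.unusedSectionVars false

noncomputable section

namespace Fermat.Agent.S27

open AlgebraicCurve
open Fermat.Agent.S24.PlaceAux

variable {K F : Type*} [Field K] [Field F] [Algebra K F] {𝔏 : Type*} [Field 𝔏] [Algebra K 𝔏]

/-! ### The factors -/

theorem s27pd3_unit_of_comap (W : ValuationSubring 𝔏) (R : F →ₐ[K] 𝔏) {x : F} (hx0 : x ≠ 0)
    (hx : R x ∈ W) (hxi : R x⁻¹ ∈ W) : S27ldUnit W (R x) :=
  ⟨hx, by rw [← map_inv₀]; exact hxi, (map_ne_zero R).2 hx0⟩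

theorem s27pd3_unit_neg (W : ValuationSubring 𝔏) {a : 𝔏} (ha : S27ldUnit W a) :
    S27ldUnit W (-a) :=
  ⟨W.neg_mem _ ha.1, by rw [inv_neg]; exact W.neg_mem _ ha.2.1, neg_ne_zero.2 ha.2.2⟩

/-- at a centre `Q`: a function of order `0` goes to a unit of `W` -/
theorem s27pd3_unit_of_ord_zero (W : ValuationSubring 𝔏) (R : F →ₐ[K] 𝔏) (Q : Place K F)
    (hQ : S27ptIsCentre W R Q) {x : F} (hx0 : x ≠ 0) (hx : Q.ord x = 0) :
    S27ldUnit W (R x) := by
  apply s27pd3_unit_of_comap W R hx0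
  · rw [s27adex_centre_mem W R Q hQ]
    exact (ord_nonneg_iff Q hx0).1 (by omega)
  · rw [s27adex_centre_mem W R Q hQ]
    exact (ord_nonneg_iff Q (inv_ne_zero hx0)).1 (by rw [Q.ord_inv]; omega)

/-- at a centre `Q`: two functions of the same order go to associated elements -/
theorem s27pd3_assoc_of_ord_eq (W : ValuationSubring 𝔏) (R : F →ₐ[K] 𝔏) (Q : Place K F)
    (hQ : S27ptIsCentre W R Q) {x y : F} (hx0 : x ≠ 0) (hy0 : y ≠ 0)
    (h : Q.ord x = Q.ord y) : ∃ u : 𝔏, S27ldUnit W u ∧ R x = u * R y := by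
  have hxy : x * y⁻¹ ≠ 0 := mul_ne_zero hx0 (inv_ne_zero hy0)
  have hord : Q.ord (x * y⁻¹) = 0 := by
    rw [Q.ord_mul hx0 (inv_ne_zero hy0), Q.ord_inv, h]
    omega
  refine ⟨R (x * y⁻¹), s27pd3_unit_of_ord_zero W R Q hQ hxy hord, ?_⟩
  rw [← map_mul, mul_assoc, inv_mul_cancel₀ hy0, mul_one]

/-- **the factor at a point with centre `O`**: `ord_O (τ − c) = 1 = ord_O s` ⇒
`c − R τ = u · R s`, `u ∈ Wˣ`. -/
theorem s27pd3_factor_centre (W : ValuationSubring 𝔏) (R : F →ₐ[K] 𝔏) (O : Place K F)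
    (hO : S27ptIsCentre W R O) {s τ : F} {c : K} (hs : O.ord s = 1)
    (hτ : O.ord (τ - algebraMap K F c) = 1) :
    ∃ u : 𝔏, S27ldUnit W u ∧ algebraMap K 𝔏 c - R τ = u * R s := by
  have hs0 : s ≠ 0 := by
    rintro rfl
    rw [Place.ord_zero] at hs
    exact zero_ne_one hs
  have hτ0 : τ - algebraMap K F c ≠ 0 := by
    intro h0
    rw [h0, Place.ord_zero] at hτ
    exact zero_ne_one hτ
  obtain ⟨u, hu, e⟩ := s27pd3_assoc_of_ord_eq W R O hO hτ0 hs0 (hτ.trans hs.symm)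
  refine ⟨-u, s27pd3_unit_neg W hu, ?_⟩
  rw [neg_mul, ← e, map_sub, AlgHom.commutes]
  ring

/-- **the factor at a point with another centre `Q`**, `τ(Q) ≠ c`: a unit. -/
theorem s27pd3_factor_other (W : ValuationSubring 𝔏) (R : F →ₐ[K] 𝔏) (Q : Place K F)
    (hQ : S27ptIsCentre W R Q) {τ : F} {c : K} (hne : τ - algebraMap K F c ≠ 0)
    (hτ : Q.ord (τ - algebraMap K F c) = 0) :
    S27ldUnit W (algebraMap K 𝔏 c - R τ) := by
  have h := s27pd3_unit_neg W (s27pd3_unit_of_ord_zero W R Q hQ hne hτ)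
  rw [map_sub, AlgHom.commutes, neg_sub] at h
  exact h

/-- **the factor at a point with generic reduction**: a unit. -/
theorem s27pd3_factor_generic (W : ValuationSubring 𝔏) (R : F →ₐ[K] 𝔏) (hgen : ∀ f, R f ∈ W)
    {τ : F} {c : K} (hne : τ - algebraMap K F c ≠ 0) :
    S27ldUnit W (algebraMap K 𝔏 c - R τ) := by
  have h := s27pd3_unit_neg W (s27pd3_unit_of_comap W R hne (hgen _) (hgen _))
  rw [map_sub, AlgHom.commutes, neg_sub] at h
  exact h

/-! ### The product -/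

theorem s27pd3_unit_prod (W : ValuationSubring 𝔏) {ι : Type*} (S : Finset ι) (u : ι → 𝔏)
    (hu : ∀ i ∈ S, S27ldUnit W (u i)) : S27ldUnit W (∏ i ∈ S, u i) := by
  classical
  induction S using Finset.induction_on with
  | empty =>
    rw [Finset.prod_empty]
    exact s27ld_unit_one W
  | insert a S ha ih =>
    rw [Finset.prod_insert ha]
    exact s27ld_unit_mul W (hu a (Finset.mem_insert_self a S))
      (ih fun i hi => hu i (Finset.mem_insert_of_mem hi))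

/-- **`∏ i, (c i − R i (τ i)) ≐_W ∏_{i ∈ I} R i s`** where `I` is the set of the points whose
factor is associated to `R i s` (the points with centre `O`), the other factors being units. -/
theorem s27pd3_prod {N : ℕ} (W : ValuationSubring 𝔏) (R : Fin N → F →ₐ[K] 𝔏) (s : F)
    (τ : Fin N → F) (c : Fin N → K) (I : Finset (Fin N))
    (hI : ∀ i ∈ I, ∃ u : 𝔏, S27ldUnit W u ∧ algebraMap K 𝔏 (c i) - R i (τ i) = u * R i s)
    (hnI : ∀ i, i ∉ I → S27ldUnit W (algebraMap K 𝔏 (c i) - R i (τ i))) :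
    ∃ u : 𝔏, S27ldUnit W u ∧
      ∏ i, (algebraMap K 𝔏 (c i) - R i (τ i)) = u * ∏ i ∈ I, R i s := by
  classical
  choose! v hv1 hv2 using hI
  refine ⟨(∏ i ∈ I, v i) * ∏ i ∈ Finset.univ \ I, (algebraMap K 𝔏 (c i) - R i (τ i)),
    s27ld_unit_mul W (s27pd3_unit_prod W I v hv1)
      (s27pd3_unit_prod W _ _ fun i hi => hnI i (Finset.mem_sdiff.1 hi).2), ?_⟩
  have h1 : ∏ i, (algebraMap K 𝔏 (c i) - R i (τ i)) =
      (∏ i ∈ I, (algebraMap K 𝔏 (c i) - R i (τ i))) *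
        ∏ i ∈ Finset.univ \ I, (algebraMap K 𝔏 (c i) - R i (τ i)) := by
    rw [← Finset.prod_union (Finset.disjoint_sdiff),
      Finset.union_sdiff_of_subset (Finset.subset_univ I)]
  have h2 : ∏ i ∈ I, (algebraMap K 𝔏 (c i) - R i (τ i)) =
      (∏ i ∈ I, v i) * ∏ i ∈ I, R i s := by
    rw [← Finset.prod_mul_distrib]
    exact Finset.prod_congr rfl fun i hi => hv2 i hi
  rw [h1, h2]
  ring

/-! ### The coordinates of the section -/

/-- **the coordinates of `p₀ = ∏ i, (τ i ⊗ 1 − 1 ⊗ r i)`** in a family `x : J → F` whose span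
contains all the products `∏_{i ∈ S} τ i`: a vector `p : J → 𝔏` with entries in `W` such that for
every `K`-algebra homomorphism `e : A → 𝔏` (`A` a subalgebra of `F` containing the `τ i` and the
`x j`): `∑ j, e (x j) * p j = ∏ i, (e (τ i) − r i)`. -/
theorem s27pd3_coords {N : ℕ} {J : Type*} [Fintype J] (W : ValuationSubring 𝔏)
    (hW : ∀ a : K, algebraMap K 𝔏 a ∈ W) (x : J → F) (τ : Fin N → F)
    (hprod : ∀ S : Finset (Fin N), ∏ i ∈ S, τ i ∈ Submodule.span K (Set.range x))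
    (r : Fin N → 𝔏) (hr : ∀ i, r i ∈ W) :
    ∃ p : J → 𝔏, (∀ j, p j ∈ W) ∧
      ∀ (A : Subalgebra K F) (e : A →ₐ[K] 𝔏) (hτ : ∀ i, τ i ∈ A) (hx : ∀ j, x j ∈ A),
        ∑ j, e ⟨x j, hx j⟩ * p j = ∏ i, (e ⟨τ i, hτ i⟩ - r i) := by
  classical
  have hsp : ∀ S : Finset (Fin N), ∃ a : J → K, ∑ j, a j • x j = ∏ i ∈ S, τ i := fun S =>
    (Submodule.mem_span_range_iff_exists_fun K).1 (hprod S)
  choose a ha using hsp
  -- the coefficient of the subset `S` (= the complement of the subset `t` of `Finset.prod_sub`)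
  let w : Finset (Fin N) → 𝔏 := fun t => (-1) ^ t.card * ∏ i ∈ t, r i
  have hw : ∀ t, w t ∈ W := by
    intro t
    refine W.mul_mem _ _ (W.pow_mem (W.neg_mem _ W.one_mem) _) ?_
    exact W.toSubring.prod_mem fun i _ => hr i
  refine ⟨fun j => ∑ t ∈ (Finset.univ : Finset (Fin N)).powerset,
      algebraMap K 𝔏 (a (Finset.univ \ t) j) * w t, ?_, ?_⟩
  · intro j
    exact W.toSubring.sum_mem fun t _ => W.mul_mem _ _ (hW _) (hw t)
  · intro A e hτ hx
    rw [Finset.prod_sub]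
    have h1 : ∀ t : Finset (Fin N), ∏ i ∈ Finset.univ \ t, e ⟨τ i, hτ i⟩ =
        ∑ j, algebraMap K 𝔏 (a (Finset.univ \ t) j) * e ⟨x j, hx j⟩ := by
      intro t
      have hmem : ∏ i ∈ Finset.univ \ t, τ i ∈ A := A.prod_mem fun i _ => hτ i
      have e1 : (∏ i ∈ Finset.univ \ t, (⟨τ i, hτ i⟩ : A)) =
          ∑ j, a (Finset.univ \ t) j • (⟨x j, hx j⟩ : A) := by
        apply Subtype.ext
        have h3 : A.val (∏ i ∈ Finset.univ \ t, (⟨τ i, hτ i⟩ : A)) =
            ∏ i ∈ Finset.univ \ t, τ i := by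
          rw [map_prod]
          rfl
        have h4 : A.val (∑ j, a (Finset.univ \ t) j • (⟨x j, hx j⟩ : A)) =
            ∑ j, a (Finset.univ \ t) j • x j := by
          rw [map_sum]
          refine Finset.sum_congr rfl fun j _ => ?_
          rw [map_smul]
          rfl
        exact h3.trans ((ha (Finset.univ \ t)).symm.trans h4.symm)
      rw [← map_prod, e1, map_sum]
      refine Finset.sum_congr rfl fun j _ => ?_
      rw [map_smul, Algebra.smul_def]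
    calc ∑ j, e ⟨x j, hx j⟩ * ∑ t ∈ (Finset.univ : Finset (Fin N)).powerset,
          algebraMap K 𝔏 (a (Finset.univ \ t) j) * w t
        = ∑ t ∈ (Finset.univ : Finset (Fin N)).powerset,
            (∑ j, algebraMap K 𝔏 (a (Finset.univ \ t) j) * e ⟨x j, hx j⟩) * w t := by
          simp only [Finset.mul_sum, Finset.sum_mul]
          rw [Finset.sum_comm]
          refine Finset.sum_congr rfl fun t _ => Finset.sum_congr rfl fun j _ => ?_
          ring
      _ = ∑ t ∈ (Finset.univ : Finset (Fin N)).powerset,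
            ((-1) ^ t.card * ∏ i ∈ Finset.univ \ t, e ⟨τ i, hτ i⟩) * ∏ i ∈ t, r i := by
          refine Finset.sum_congr rfl fun t _ => ?_
          rw [← h1 t]
          show _ * ((-1) ^ t.card * ∏ i ∈ t, r i) = _
          ring

/-! ### The main statement -/

/-- **POLE-DIV C3**: the section `p₀`.  `x : J → F` spans a `K`-subspace containing the products
of the `τ i`; `A` a subalgebra of `F` containing the `τ i` and the `x j`, with the value map
`eO : A →ₐ[K] 𝔏` at `O` (`eO (τ i) = c i`) — e.g. `A = 𝒪_O`, `eO` = residue.  Then there is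
`p : J → 𝔏` with
* `p j ∈ W`;
* `∑ j, R i (x j) * p j = 0` for every point `R i` (`p₀` vanishes at the points);
* `∑ j, eO (x j) * p j = u · ∏_{i ∈ I} R i s`, `u ∈ Wˣ` (the value of `p₀` at `O`). -/
theorem s27pd3_main {N : ℕ} {J : Type*} [Fintype J] (W : ValuationSubring 𝔏)
    (hW : ∀ a : K, algebraMap K 𝔏 a ∈ W) (R : Fin N → F →ₐ[K] 𝔏) (s : F)
    (x : J → F) (τ : Fin N → F) (c : Fin N → K)
    (hprod : ∀ S : Finset (Fin N), ∏ i ∈ S, τ i ∈ Submodule.span K (Set.range x))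
    (hτW : ∀ i, R i (τ i) ∈ W)
    (A : Subalgebra K F) (eO : A →ₐ[K] 𝔏) (hτA : ∀ i, τ i ∈ A) (hxA : ∀ j, x j ∈ A)
    (hc : ∀ i, eO ⟨τ i, hτA i⟩ = algebraMap K 𝔏 (c i))
    (I : Finset (Fin N))
    (hI : ∀ i ∈ I, ∃ u : 𝔏, S27ldUnit W u ∧ algebraMap K 𝔏 (c i) - R i (τ i) = u * R i s)
    (hnI : ∀ i, i ∉ I → S27ldUnit W (algebraMap K 𝔏 (c i) - R i (τ i))) :
    ∃ p : J → 𝔏, (∀ j, p j ∈ W) ∧ (∀ i, ∑ j, R i (x j) * p j = 0) ∧
      ∃ u : 𝔏, S27ldUnit W u ∧ ∑ j, eO ⟨x j, hxA j⟩ * p j = u * ∏ i ∈ I, R i s := by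
  classical
  obtain ⟨p, hp, hev⟩ := s27pd3_coords W hW x τ hprod (fun i => R i (τ i)) hτW
  refine ⟨p, hp, ?_, ?_⟩
  · intro i
    have h := hev ⊤ ((R i).comp (Subalgebra.val ⊤)) (fun _ => Algebra.mem_top)
      (fun _ => Algebra.mem_top)
    have h2 : ∑ j, R i (x j) * p j = ∏ k, (R i (τ k) - R k (τ k)) := h
    rw [h2]
    exact Finset.prod_eq_zero (Finset.mem_univ i) (sub_self _)
  · obtain ⟨u, hu, e⟩ := s27pd3_prod W R s τ c I hI hnI
    refine ⟨u, hu, ?_⟩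
    rw [hev A eO hτA hxA, ← e]
    exact Finset.prod_congr rfl fun i _ => by rw [hc i]

/-- **POLE-DIV C3 in helper46's coordinates** (`S27/PoleDivCore.lean`): `x j₀ = 1`-coordinate,
i.e. the value at `O` of `x j` is `1` for `j = j₀` and `0` otherwise; then the value of the
section at `O` is its coordinate `p j₀`:  `p j₀ = u · ∏_{i ∈ I} R i s`. -/
theorem s27pd3_main_coord {N : ℕ} {J : Type*} [Fintype J] [DecidableEq J]
    (W : ValuationSubring 𝔏)
    (hW : ∀ a : K, algebraMap K 𝔏 a ∈ W) (R : Fin N → F →ₐ[K] 𝔏) (s : F)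
    (x : J → F) (j₀ : J) (τ : Fin N → F) (c : Fin N → K)
    (hprod : ∀ S : Finset (Fin N), ∏ i ∈ S, τ i ∈ Submodule.span K (Set.range x))
    (hτW : ∀ i, R i (τ i) ∈ W)
    (A : Subalgebra K F) (eO : A →ₐ[K] 𝔏) (hτA : ∀ i, τ i ∈ A) (hxA : ∀ j, x j ∈ A)
    (hc : ∀ i, eO ⟨τ i, hτA i⟩ = algebraMap K 𝔏 (c i))
    (hδ : ∀ j, eO ⟨x j, hxA j⟩ = if j = j₀ then 1 else 0)
    (I : Finset (Fin N))
    (hI : ∀ i ∈ I, ∃ u : 𝔏, S27ldUnit W u ∧ algebraMap K 𝔏 (c i) - R i (τ i) = u * R i s)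
    (hnI : ∀ i, i ∉ I → S27ldUnit W (algebraMap K 𝔏 (c i) - R i (τ i))) :
    ∃ p : J → 𝔏, (∀ j, p j ∈ W) ∧ (∀ i, ∑ j, p j * R i (x j) = 0) ∧
      ∃ u : 𝔏, S27ldUnit W u ∧ p j₀ = u * ∏ i ∈ I, R i s := by
  obtain ⟨p, hp, hz, u, hu, e⟩ :=
    s27pd3_main W hW R s x τ c hprod hτW A eO hτA hxA hc I hI hnI
  refine ⟨p, hp, ?_, u, hu, ?_⟩
  · intro i
    rw [← hz i]
    exact Finset.sum_congr rfl fun j _ => mul_comm _ _
  · rw [← e]
    have h1 : ∑ j, eO ⟨x j, hxA j⟩ * p j = ∑ j, if j = j₀ then p j else 0 := by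
      refine Finset.sum_congr rfl fun j _ => ?_
      rw [hδ j]
      split_ifs <;> simp
    rw [h1, Finset.sum_ite_eq' Finset.univ j₀ p, if_pos (Finset.mem_univ _)]

end Fermat.Agent.S27
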