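/-
S27 route B, POLE-DIV leaf C3, part 2 (helper33): EXISTENCE of the functions `τ i`.

`K` infinite, Riemann's equality for divisors of degree `≥ c` (`s27rr_large`), `G` a divisor with
`c + 2 ≤ deg G`, `O` a place of degree one with `G O = 0`, `Q k` finitely many places of degree
one, `≠ O`, with `G (Q k) = 0`.  Then there is `τ ∈ L_K(G − O)` with

  `ord_O τ = 1`  and  `ord_{Q k} τ = 0` for all `k`.

(So `τ` is regular at `O` with value `c = 0`, `τ` is a local parameter at `O`, and `τ(Q k) ≠ 0 =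
τ(O)`: the hypotheses of `s27pd3_factor_centre` / `_other` with `c = 0`.)

* `s27pdt_exists` : the statement;
* `s27pdt_exists_family` : the same for a family `G i` (one `τ i` for each `i`).
-/
import Mathlib
import Fermat.Prelude.Def_AlgebraicCurve_DivisorClassGroup
import Fermat.Prelude.Def_AlgebraicCurve_Repartitions
import Fermat.Agent.S24.PlaceBasic

set_option autoImplicit false
set_option linter.unusedVariables false
set_option linter.unusedSectionVars false
set_option linter.style.haveILetI false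

noncomputable section

namespace Fermat.Agent.S27

open AlgebraicCurve Module
open Fermat.Agent.S24.PlaceAux

variable {K F : Type*} [Field K] [Field F] [Algebra K F]

open Classical in
theorem s27pdt_sub_single_apply (D : Divisor K F) (P v : Place K F) :
    (D - Finsupp.single P 1 : Divisor K F) v = D v - if v = P then 1 else 0 := by
  rw [Finsupp.sub_apply, Finsupp.single_apply]
  by_cases h : v = P
  · rw [if_pos h, if_pos h.symm]
  · rw [if_neg h, if_neg (fun h' => h h'.symm)]

theorem s27pdt_sub_le (D : Divisor K F) (P : Place K F) :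
    riemannRochSpace (D - Finsupp.single P 1) ≤ riemannRochSpace D := by
  intro f hf
  rw [mem_riemannRochSpace_iff] at hf ⊢
  intro v
  rcases hf v with h | h
  · exact Or.inl h
  · right
    rw [s27pdt_sub_single_apply] at h
    split_ifs at h <;> omega

theorem s27pdt_degree_sub (D : Divisor K F) (P : Place K F) (hP : P.deg = 1) :
    Divisor.degree (D - Finsupp.single P 1) = Divisor.degree D - 1 := by
  rw [map_sub, Divisor.degree_single, hP]
  norm_num

/-- if `f ∈ L(D)`, `f ∉ L(D − P)` then `ord_P f = −D(P)`. -/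
theorem s27pdt_ord_eq (D : Divisor K F) (P : Place K F) {f : F}
    (hf : f ∈ riemannRochSpace D) (hnf : f ∉ riemannRochSpace (D - Finsupp.single P 1)) :
    f ≠ 0 ∧ P.ord f = -D P := by
  have hf0 : f ≠ 0 := by
    rintro rfl
    exact hnf (Submodule.zero_mem _)
  refine ⟨hf0, ?_⟩
  rw [mem_riemannRochSpace_iff] at hf hnf
  push Not at hnf
  obtain ⟨v, -, hv⟩ := hnf
  rw [s27pdt_sub_single_apply] at hv
  have h1 := (hf v).resolve_left hf0
  by_cases hvP : v = P
  · subst hvP
    rw [if_pos rfl] at hv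
    omega
  · rw [if_neg hvP] at hv
    omega

/-- **existence of `τ`**. -/
theorem s27pdt_exists [Infinite K] (c γ : ℤ)
    (hR : ∀ A : Divisor K F, c ≤ Divisor.degree A →
      (finrank K ↥(riemannRochSpace A) : ℤ) = Divisor.degree A + 1 - γ)
    (hfin : ∀ D : Divisor K F, Module.Finite K ↥(riemannRochSpace D))
    (G : Divisor K F) (O : Place K F) (hOdeg : O.deg = 1) (hOG : G O = 0)
    {κ : Type*} [Finite κ] (Q : κ → Place K F) (hQdeg : ∀ k, (Q k).deg = 1)
    (hQO : ∀ k, Q k ≠ O) (hQG : ∀ k, G (Q k) = 0) (hG : c + 2 ≤ Divisor.degree G) :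
    ∃ τ : F, τ ≠ 0 ∧ τ ∈ riemannRochSpace (G - Finsupp.single O 1) ∧ τ ∈ riemannRochSpace G ∧
      O.ord τ = 1 ∧ ∀ k, (Q k).ord τ = 0 := by
  classical
  set D₀ : Divisor K F := G - Finsupp.single O 1 with hD₀
  have hdeg0 : Divisor.degree D₀ = Divisor.degree G - 1 := s27pdt_degree_sub G O hOdeg
  -- the places to avoid
  let P : Option κ → Place K F := fun o => o.elim O Q
  have hPdeg : ∀ o, (P o).deg = 1 := by
    rintro (_ | k)
    · exact hOdeg
    · exact hQdeg k
  let p : Option κ → Submodule K ↥(riemannRochSpace D₀) := fun o =>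
    (riemannRochSpace (D₀ - Finsupp.single (P o) 1)).comap (riemannRochSpace D₀).subtype
  have hp : ∀ o, p o ≠ ⊤ := by
    intro o htop
    have hle : riemannRochSpace D₀ ≤ riemannRochSpace (D₀ - Finsupp.single (P o) 1) := by
      intro f hf
      have : (⟨f, hf⟩ : ↥(riemannRochSpace D₀)) ∈ p o := by
        rw [htop]
        trivial
      exact this
    have heq : riemannRochSpace (D₀ - Finsupp.single (P o) 1) = riemannRochSpace D₀ :=
      le_antisymm (s27pdt_sub_le D₀ (P o)) hle
    have h1 := hR D₀ (by rw [hdeg0]; omega)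
    have h2 := hR (D₀ - Finsupp.single (P o) 1)
      (by rw [s27pdt_degree_sub D₀ (P o) (hPdeg o), hdeg0]; omega)
    rw [heq, h1, s27pdt_degree_sub D₀ (P o) (hPdeg o)] at h2
    omega
  obtain ⟨x, hx⟩ := Submodule.exists_forall_notMem_of_forall_ne_top p hp
  have hxO : (x : F) ∉ riemannRochSpace (D₀ - Finsupp.single O 1) := hx none
  have hxQ : ∀ k, (x : F) ∉ riemannRochSpace (D₀ - Finsupp.single (Q k) 1) := fun k =>
    hx (some k)
  obtain ⟨hx0, hordO⟩ := s27pdt_ord_eq D₀ O x.2 hxO
  refine ⟨x, hx0, x.2, s27pdt_sub_le G O x.2, ?_, ?_⟩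
  · rw [hordO, hD₀, s27pdt_sub_single_apply, if_pos rfl, hOG]
    norm_num
  · intro k
    rw [(s27pdt_ord_eq D₀ (Q k) x.2 (hxQ k)).2, hD₀, s27pdt_sub_single_apply, if_neg (hQO k),
      hQG k]
    norm_num

/-- **existence of the family `τ i`**: one `τ i ∈ L_K(G i − O)` for each `i`. -/
theorem s27pdt_exists_family [Infinite K] (c γ : ℤ)
    (hR : ∀ A : Divisor K F, c ≤ Divisor.degree A →
      (finrank K ↥(riemannRochSpace A) : ℤ) = Divisor.degree A + 1 - γ)
    (hfin : ∀ D : Divisor K F, Module.Finite K ↥(riemannRochSpace D))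
    {ι : Type*} (G : ι → Divisor K F) (O : Place K F) (hOdeg : O.deg = 1)
    (hOG : ∀ i, G i O = 0)
    {κ : Type*} [Finite κ] (Q : κ → Place K F) (hQdeg : ∀ k, (Q k).deg = 1)
    (hQO : ∀ k, Q k ≠ O) (hQG : ∀ i k, G i (Q k) = 0) (hG : ∀ i, c + 2 ≤ Divisor.degree (G i)) :
    ∃ τ : ι → F, ∀ i, τ i ≠ 0 ∧ τ i ∈ riemannRochSpace (G i) ∧
      O.ord (τ i) = 1 ∧ ∀ k, (Q k).ord (τ i) = 0 := by
  choose τ h0 _ hG' hO hQ using fun i =>
    s27pdt_exists c γ hR hfin (G i) O hOdeg (hOG i) Q hQdeg hQO (hQG i) (hG i)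
  exact ⟨τ, fun i => ⟨h0 i, hG' i, hO i, hQ i⟩⟩

end Fermat.Agent.S27
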