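/-
S27 route B, POLE-DIV leaf C3, part 3 (helper33): THE SECTION `p₀` EXISTS.

Assembly of `S27/PoleDivSec.lean` (the section, abstract) and `S27/PoleDivTau.lean` (the functions
`τ i`, from Riemann's equality + avoidance).  All data of the assembler are ARGUMENTS:
`(𝔏, W)`, the points `R i`, the point `O = O″` with a local parameter `s`, pole divisors `G i`
(away from `O` and from the closed centres of the points, `c + 2 ≤ deg (G i)`), the family
`x : J → F` (a spanning family of `L_K(A⁺ + G)`, `x j₀ = 1`, the others vanishing at `O`),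
`hspan` (products of functions of `L_K(G i)` lie in the span of `x`), the value map `eO` at `O`.

* `s27pd3_exists` : `∃ p : J → 𝔏`, `p j ∈ W`, `∑ j, p j * R i (x j) = 0` for all `i`,
  `p j₀ = u · ∏_{i ∈ I} R i s` with `u ∈ Wˣ`, `I` = the set of the points with centre `O`.
-/
import Mathlib
import Fermat.Agent.S27.PoleDivSec
import Fermat.Agent.S27.PoleDivTau

set_option autoImplicit false
set_option linter.unusedVariables false
set_option linter.unusedSectionVars false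
set_option linter.style.haveILetI false

noncomputable section

namespace Fermat.Agent.S27

open AlgebraicCurve Module
open Fermat.Agent.S24.PlaceAux

variable {K F : Type*} [Field K] [Field F] [Algebra K F] {𝔏 : Type*} [Field 𝔏] [Algebra K 𝔏]

open Classical in
/-- **POLE-DIV C3, existence of the section.** -/
theorem s27pd3_exists [Infinite K] (c γ : ℤ)
    (hR : ∀ A : Divisor K F, c ≤ Divisor.degree A →
      (finrank K ↥(riemannRochSpace A) : ℤ) = Divisor.degree A + 1 - γ)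
    (hfin : ∀ D : Divisor K F, Module.Finite K ↥(riemannRochSpace D))
    (hdeg : ∀ Q : Place K F, Q.deg = 1)
    {N : ℕ} {J : Type*} [Fintype J] (W : ValuationSubring 𝔏)
    (hW : ∀ a : K, algebraMap K 𝔏 a ∈ W) (R : Fin N → F →ₐ[K] 𝔏)
    (hred : ∀ i, (∀ f : F, R i f ∈ W) ∨ ∃ Q : Place K F, S27ptIsCentre W (R i) Q)
    (O : Place K F) (s : F) (hs : O.ord s = 1)
    (G : Fin N → Divisor K F) (hGO : ∀ i, G i O = 0)
    (hGQ : ∀ i j (Q : Place K F), S27ptIsCentre W (R j) Q → G i Q = 0)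
    (hG : ∀ i, c + 2 ≤ Divisor.degree (G i))
    (x : J → F) (j₀ : J)
    (hspan : ∀ τ : Fin N → F, (∀ i, τ i ∈ riemannRochSpace (G i)) →
      ∀ S : Finset (Fin N), ∏ i ∈ S, τ i ∈ Submodule.span K (Set.range x))
    (A : Subalgebra K F) (hA : ∀ f : F, 0 < O.ord f → f ∈ A)
    (eO : A →ₐ[K] 𝔏) (heO : ∀ (f : F) (hf : f ∈ A), 0 < O.ord f → eO ⟨f, hf⟩ = 0)
    (hxA : ∀ j, x j ∈ A) (hδ₀ : eO ⟨x j₀, hxA j₀⟩ = 1)
    (hδ₁ : ∀ j, j ≠ j₀ → eO ⟨x j, hxA j⟩ = 0)
    (I : Finset (Fin N)) (hIO : ∀ i, i ∈ I ↔ S27ptIsCentre W (R i) O) :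
    ∃ p : J → 𝔏, (∀ j, p j ∈ W) ∧ (∀ i, ∑ j, p j * R i (x j) = 0) ∧
      ∃ u : 𝔏, S27ldUnit W u ∧ p j₀ = u * ∏ i ∈ I, R i s := by
  have hδ : ∀ j, eO ⟨x j, hxA j⟩ = if j = j₀ then 1 else 0 := by
    intro j
    by_cases hj : j = j₀
    · subst hj
      rw [if_pos rfl]
      exact hδ₀
    · rw [if_neg hj]
      exact hδ₁ j hj
  -- the closed centres different from `O`
  let C : Set (Place K F) := {Q | Q ≠ O ∧ ∃ i, S27ptIsCentre W (R i) Q}
  have hCfin : C.Finite := by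
    have hC : C ⊆ ⋃ i, {Q : Place K F | S27ptIsCentre W (R i) Q} := by
      rintro Q ⟨-, i, hi⟩
      exact Set.mem_iUnion.2 ⟨i, hi⟩
    refine Set.Finite.subset ?_ hC
    exact Set.finite_iUnion fun i =>
      Set.Subsingleton.finite (fun Q hQ Q' hQ' => Place.ext (hQ.symm.trans hQ'))
  haveI : Finite C := hCfin.to_subtype
  obtain ⟨τ, hτ⟩ := s27pdt_exists_family c γ hR hfin G O (hdeg O) hGO
    (fun q : C => (q : Place K F)) (fun q => hdeg _) (fun q => q.2.1)
    (fun i q => by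
      obtain ⟨j, hj⟩ := q.2.2
      exact hGQ i j _ hj)
    hG
  have hτ0 : ∀ i, τ i ≠ 0 := fun i => (hτ i).1
  have hτG : ∀ i, τ i ∈ riemannRochSpace (G i) := fun i => (hτ i).2.1
  have hτO : ∀ i, O.ord (τ i) = 1 := fun i => (hτ i).2.2.1
  have hτQ : ∀ i (Q : Place K F), Q ≠ O → (∃ j, S27ptIsCentre W (R j) Q) →
      Q.ord (τ i) = 0 := fun i Q hQ hj => (hτ i).2.2.2 ⟨Q, hQ, hj⟩
  -- `R i (τ i) ∈ W`
  have hτW : ∀ i, R i (τ i) ∈ W := by
    intro i
    rcases hred i with hgen | ⟨Q, hQ⟩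
    · exact hgen _
    · rw [s27adex_centre_mem W (R i) Q hQ]
      apply (ord_nonneg_iff Q (hτ0 i)).1
      by_cases hQO : Q = O
      · rw [hQO, hτO i]
        norm_num
      · rw [hτQ i Q hQO ⟨i, hQ⟩]
  have hτA : ∀ i, τ i ∈ A := fun i => hA _ (by rw [hτO i]; norm_num)
  have hc : ∀ i, eO ⟨τ i, hτA i⟩ = algebraMap K 𝔏 ((fun _ => (0 : K)) i) := by
    intro i
    rw [map_zero]
    exact heO _ _ (by rw [hτO i]; norm_num)
  have hsub : ∀ i, τ i - algebraMap K F 0 = τ i := fun i => by rw [map_zero, sub_zero]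
  refine s27pd3_main_coord W hW R s x j₀ τ (fun _ => 0) (hspan τ hτG) hτW A eO hτA hxA hc hδ
    I ?_ ?_
  · intro i hi
    have hiO : S27ptIsCentre W (R i) O := (hIO i).1 hi
    exact s27pd3_factor_centre W (R i) O hiO hs (by rw [hsub i]; exact hτO i)
  · intro i hi
    have hiO : ¬ S27ptIsCentre W (R i) O := fun h => hi ((hIO i).2 h)
    rcases hred i with hgen | ⟨Q, hQ⟩
    · exact s27pd3_factor_generic W (R i) hgen (by rw [hsub i]; exact hτ0 i)
    · have hQO : Q ≠ O := fun h => hiO (h ▸ hQ)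
      exact s27pd3_factor_other W (R i) Q hQ (by rw [hsub i]; exact hτ0 i)
        (by rw [hsub i]; exact hτQ i Q hQO ⟨i, hQ⟩)

end Fermat.Agent.S27
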