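/-
S27-B, piece **POLE-DIV SHELL** (helper36): the outer shell of helper46's POLE-DIV assembly.

On the model `𝔉 = s27gfSym K F g ⊆ Ω = s27gfOm K F g ⊆ L` (`L` algebraically closed, algebraic
over `Ω`), with the family `q` of the ψ's (S27/PsiFam.lean) and `β` a local equation of `Θ` at the
tautological tuple (`S27pnBeta`, S27/PsiNat.lean), the (POLE-DIV) input `hdiv` of
`s27grb_isGrow` (S27/GrowAsm2.lean) is reduced to ONE statement on `(L, W″)`:

  (CORE)  for every valuation subring `W″ ⊇ K` of `L` and every local equation `x` of `Θ` at the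
          residual tuple `q (−1)` along `W″` (`S27ptIsIdx W″ (q (−1)) A' x`):
          `x ∈ W″ · ∏_{i ∈ I} ι_i s`,   `I = {i : the centre of ι_i along W″ is O″}`.

Steps: Chevalley (`s27nm_exists_ext`: `W″` over `V`), PSI-NAT at `k = −1`
(`s27pn_indB_of_lift`: `B (−1) V ≐_{W″}` a local equation at `q (−1)`), descent of the quotient
`B (−1) V / ∏_{i ∈ I} ι_i s ∈ Ω` to `W = W″ ∩ Ω`, POLE-DIV GLUE (`s27pdg_hdiv_neg`) and POINT-T.

* `s27pdsh_H2`     : (CORE) for one `s` ⇒ the hypothesis `H2` of `s27pdg_hdiv_neg`;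
* `s27pdsh_hdiv`   : (CORE) for one `s` + (H_t) ⇒ the literal `hdiv` (`c₀ = N`);
* **`s27pdsh_exists`** : (CORE) for every local parameter `s` at `O″` ⇒
  `∃ t c₀, Transcendental K t ∧ F algebraic over K[t] ∧ hdiv`  (all inputs 4. of `s27grb_isGrow`);
* `s27pdsh_core_of_gamma` : (CORE) from the `s27pdsGamma` form `x = w · γ(p)` (the conclusion of
  helper46's `s27pda_main`, S27/PoleDivAsm.lean);
* **`s27pdsh_exists_gamma`** : the same as `s27pdsh_exists`, with (CORE) in the `s27pdsGamma` form.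
-/
import Fermat.Agent.S27.PoleDivGlue
import Fermat.Agent.S27.PoleDivSecT
import Fermat.Agent.S27.PsiNat
import Fermat.Agent.S27.Norm

set_option autoImplicit false
set_option linter.unusedVariables false
set_option linter.unusedSectionVars false
set_option linter.style.haveILetI false

noncomputable section

namespace Fermat.Agent.S27

open AlgebraicCurve IntermediateField Module Fermat.Agent.S26 Fermat.Agent.S24

universe u v w'

section Shell

variable {K : Type u} {F : Type v} [Field K] [IsAlgClosed K] [Field F] [Algebra K F] {g : ℕ}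
variable {L : Type w'} [Field L] [Algebra K L] [Algebra (s27gfOm K F g) L]
  [IsScalarTower K (s27gfOm K F g) L]

/-- the centre of `ι_i` along `W″ ∩ Ω` is the centre of `ι_i : F → L` along `W″`. -/
theorem s27pdsh_centre_iff (O : Place K F) (W'' : ValuationSubring L) (i : Fin g) :
    i ∈ s27pdgI O (W''.comap (algebraMap (s27gfOm K F g) L)) ↔
      S27ptIsCentre W'' (s27pnTaut (K := K) (F := F) (g := g) (L := L) i) O := by
  rw [s27pdgI_mem]
  unfold S27ptIsCentre
  constructor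
  · intro h
    rw [← h]
    rfl
  · intro h
    rw [← h]
    rfl

/-- **SHELL, one `V`**: from (CORE) along one `W″` over `V`. -/
theorem s27pdsh_one [IsAlgClosed L] [Algebra.IsAlgebraic (s27gfOm K F g) L]
    (x₀ : F) (hx₀ : Transcendental K x₀) [FiniteDimensional K⟮x₀⟯ F] (O : Place K F)
    (A' : Divisor K F)
    (β : ValuationSubring (s27gfSym K F g) → s27gfSym K F g)
    (hβ : S27pnBeta (L := L) (s27pnTaut (K := K) (F := F) (g := g) (L := L)) A' β)
    (ψ : ℤ → (s27gfSym K F g →ₐ[K] s27gfSym K F g)) (q : ℤ → Fin g → F →ₐ[K] L)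
    (hspec : ∃ he : Function.Injective (s27gfLiftR (q (-1))), ∀ s : s27gfSym K F g,
      algebraMap (s27gfOm K F g) L ((ψ (-1) s : s27gfSym K F g) : s27gfOm K F g) =
        s27psiT (q (-1)) he (s : s27gfOm K F g))
    (t s : F) (hs0 : s ≠ 0) (hs : 0 ≤ O.ord s)
    (hoff : ∀ v : Place K F, v ≠ O → 0 ≤ v.ord t)
    (hcore : ∀ W'' : ValuationSubring L, S27IsKValU K W'' → ∀ x : L,
      S27ptIsIdx W'' (q (-1)) A' x →
      ∃ (I : Finset (Fin g)) (w : L),
        (∀ i, i ∈ I ↔ S27ptIsCentre W'' (s27pnTaut (K := K) (F := F) (g := g) (L := L) i) O) ∧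
        w ∈ W'' ∧ x = w * ∏ i ∈ I, s27pnTaut (K := K) (F := F) (g := g) (L := L) i s)
    (V : ValuationSubring (s27gfSym K F g)) (hV : S27IsKValU K V) :
    ∃ (W : ValuationSubring (s27gfOm K F g)) (I : Finset (Fin g)) (w : s27gfOm K F g),
      (∀ x : s27gfSym K F g, x ∈ V → (x : s27gfOm K F g) ∈ W) ∧
      (∀ a : K, algebraMap K (s27gfOm K F g) a ∈ W) ∧
      (∀ x : s27gfSym K F g, (x : s27gfOm K F g) ∈ W → x ∈ V) ∧ w ∈ W ∧
      (∀ i ∈ I, s27gfIota (K := K) (g := g) i s ∈ W) ∧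
      (∀ i, i ∉ I → s27gfIota (K := K) (g := g) i t ∈ W) ∧
      ((s27indB ψ β (-1) V : s27gfSym K F g) : s27gfOm K F g) =
        w * ∏ i ∈ I, s27gfIota (K := K) (g := g) i s := by
  classical
  obtain ⟨W'', hW''⟩ := s27nm_exists_ext (𝔏 := L) V
  have hKV : S27IsKValU K (W''.comap (algebraMap (s27gfSym K F g) L)) := by
    rw [hW'']
    exact hV
  have hKW'' : S27IsKValU K W'' := s27nm_kval_ext hKV
  obtain ⟨x, hx, u, hu, hxu⟩ := s27pn_indB_of_lift A' β hβ ψ q (-1) (by norm_num) hspec W'' hKW''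
  rw [hW''] at hxu
  obtain ⟨I'', w'', hI'', hw'', hxw⟩ := hcore W'' hKW'' x hx
  set W : ValuationSubring (s27gfOm K F g) := W''.comap (algebraMap (s27gfOm K F g) L) with hWdef
  have hKW : ∀ a : K, algebraMap K (s27gfOm K F g) a ∈ W := by
    intro a
    rw [hWdef, ValuationSubring.mem_comap, ← IsScalarTower.algebraMap_apply K (s27gfOm K F g) L]
    exact hKW'' a
  have hmem : ∀ y : s27gfSym K F g, (y : s27gfOm K F g) ∈ W ↔ y ∈ V := by
    intro y
    rw [← hW'']
    exact Iff.rfl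
  have hIeq : I'' = s27pdgI O W := by
    ext i
    rw [hI'' i, hWdef, s27pdsh_centre_iff]
  obtain ⟨h1, h2⟩ := s27pdg_centre (g := g) x₀ hx₀ O t s hs hoff W hKW
  -- the product and the quotient in `Ω`
  set P : s27gfOm K F g := ∏ i ∈ s27pdgI O W, s27gfIota (K := K) (g := g) i s with hP
  have hP0 : P ≠ 0 := by
    rw [hP]
    refine Finset.prod_ne_zero_iff.2 fun i _ => ?_
    exact (map_ne_zero_iff _ (s27gfIota (K := K) (g := g) i).toRingHom.injective).2 hs0
  have hPL : algebraMap (s27gfOm K F g) L P =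
      ∏ i ∈ I'', s27pnTaut (K := K) (F := F) (g := g) (L := L) i s := by
    rw [hP, map_prod, hIeq]
    rfl
  set y : s27gfOm K F g := ((s27indB ψ β (-1) V : s27gfSym K F g) : s27gfOm K F g) with hy
  have hyL : algebraMap (s27gfOm K F g) L y = u * x := hxu
  have hquot : algebraMap (s27gfOm K F g) L (y / P) = u * w'' := by
    rw [map_div₀, hyL, hxw, hPL, ← mul_assoc]
    have hne : (∏ i ∈ I'', s27pnTaut (K := K) (F := F) (g := g) (L := L) i s) ≠ 0 := by
      rw [← hPL]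
      exact (map_ne_zero_iff _ (algebraMap (s27gfOm K F g) L).injective).2 hP0
    exact mul_div_cancel_right₀ _ hne
  refine ⟨W, s27pdgI O W, y / P, fun z hz => (hmem z).2 hz, hKW, fun z hz => (hmem z).1 hz, ?_,
    h1, h2, ?_⟩
  · rw [hWdef, ValuationSubring.mem_comap, hquot]
    exact W''.mul_mem _ _ hu.2.1 hw''
  · rw [div_mul_cancel₀ _ hP0]

/-- **SHELL**: (CORE) for one `s` ⇒ the literal `hdiv` of `s27grb_isGrow` with `c₀ = N`. -/
theorem s27pdsh_hdiv [IsAlgClosed L] [Algebra.IsAlgebraic (s27gfOm K F g) L]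
    (x₀ : F) (hx₀ : Transcendental K x₀) [FiniteDimensional K⟮x₀⟯ F] (O : Place K F)
    (A' : Divisor K F)
    (β : ValuationSubring (s27gfSym K F g) → s27gfSym K F g)
    (β_mem : ∀ V, S27IsKValU K V → β V ∈ V)
    (hβ : S27pnBeta (L := L) (s27pnTaut (K := K) (F := F) (g := g) (L := L)) A' β)
    (ψ : ℤ → (s27gfSym K F g →ₐ[K] s27gfSym K F g)) (q : ℤ → Fin g → F →ₐ[K] L)
    (hspec : ∃ he : Function.Injective (s27gfLiftR (q (-1))), ∀ s : s27gfSym K F g,
      algebraMap (s27gfOm K F g) L ((ψ (-1) s : s27gfSym K F g) : s27gfOm K F g) =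
        s27psiT (q (-1)) he (s : s27gfOm K F g))
    (t s : F) (N : ℕ) (hs0 : s ≠ 0) (hs : 0 ≤ O.ord s)
    (hoff : ∀ v : Place K F, v ≠ O → 0 ≤ v.ord t)
    (hts : ∀ Q : ValuationSubring F, (∀ a : K, algebraMap K F a ∈ Q) →
      t ∈ Q ∨ (s ∈ Q ∧ t * s ^ N ∈ Q))
    (hcore : ∀ W'' : ValuationSubring L, S27IsKValU K W'' → ∀ x : L,
      S27ptIsIdx W'' (q (-1)) A' x →
      ∃ (I : Finset (Fin g)) (w : L),
        (∀ i, i ∈ I ↔ S27ptIsCentre W'' (s27pnTaut (K := K) (F := F) (g := g) (L := L) i) O) ∧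
        w ∈ W'' ∧ x = w * ∏ i ∈ I, s27pnTaut (K := K) (F := F) (g := g) (L := L) i s) :
    ∀ V : ValuationSubring (s27gfSym K F g), S27IsKValU K V →
      ∃ (W : ValuationSubring (s27gfOm K F g)) (p : Fin g → s27gfOm K F g) (w : s27gfOm K F g),
        (∀ x : s27gfSym K F g, (x : s27gfOm K F g) ∈ W → x ∈ V) ∧ (∀ i, p i ∈ W) ∧
        (∀ i, s27gfIota (K := K) i t * p i ∈ W) ∧ w ∈ W ∧
        (((s27indB ψ β 1 V * s27indB ψ β (-1) V) ^ N : s27gfSym K F g) : s27gfOm K F g) =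
          w * ∏ i, p i :=
  s27pdg_hdiv_neg ψ β β_mem t s N hts fun V hV =>
    s27pdsh_one x₀ hx₀ O A' β hβ ψ q hspec t s hs0 hs hoff hcore V hV

/-- **POLE-DIV from (CORE)**: all the inputs `t, ht, halg, c₀, hdiv` of `s27grb_isGrow`. -/
theorem s27pdsh_exists [IsAlgClosed L] [Algebra.IsAlgebraic (s27gfOm K F g) L]
    (x₀ : F) (hx₀ : Transcendental K x₀) [FiniteDimensional K⟮x₀⟯ F] (O : Place K F)
    (A' : Divisor K F)
    (β : ValuationSubring (s27gfSym K F g) → s27gfSym K F g)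
    (β_mem : ∀ V, S27IsKValU K V → β V ∈ V)
    (hβ : S27pnBeta (L := L) (s27pnTaut (K := K) (F := F) (g := g) (L := L)) A' β)
    (ψ : ℤ → (s27gfSym K F g →ₐ[K] s27gfSym K F g)) (q : ℤ → Fin g → F →ₐ[K] L)
    (hspec : ∃ he : Function.Injective (s27gfLiftR (q (-1))), ∀ s : s27gfSym K F g,
      algebraMap (s27gfOm K F g) L ((ψ (-1) s : s27gfSym K F g) : s27gfOm K F g) =
        s27psiT (q (-1)) he (s : s27gfOm K F g))
    (hcore : ∀ s : F, O.ord s = 1 → ∀ W'' : ValuationSubring L, S27IsKValU K W'' → ∀ x : L,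
      S27ptIsIdx W'' (q (-1)) A' x →
      ∃ (I : Finset (Fin g)) (w : L),
        (∀ i, i ∈ I ↔ S27ptIsCentre W'' (s27pnTaut (K := K) (F := F) (g := g) (L := L) i) O) ∧
        w ∈ W'' ∧ x = w * ∏ i ∈ I, s27pnTaut (K := K) (F := F) (g := g) (L := L) i s) :
    ∃ (t : F) (c₀ : ℕ), Transcendental K t ∧
      Algebra.IsAlgebraic (Algebra.adjoin K ({t} : Set F)) F ∧
      ∀ V : ValuationSubring (s27gfSym K F g), S27IsKValU K V →
        ∃ (W : ValuationSubring (s27gfOm K F g)) (p : Fin g → s27gfOm K F g)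
          (w : s27gfOm K F g),
          (∀ x : s27gfSym K F g, (x : s27gfOm K F g) ∈ W → x ∈ V) ∧ (∀ i, p i ∈ W) ∧
          (∀ i, s27gfIota (K := K) i t * p i ∈ W) ∧ w ∈ W ∧
          (((s27indB ψ β 1 V * s27indB ψ β (-1) V) ^ c₀ : s27gfSym K F g) : s27gfOm K F g) =
            w * ∏ i, p i := by
  obtain ⟨N, t, s, htT, halg, hs0, hs1, hoff, -, hts⟩ := s27pt2_exists x₀ hx₀ O
  refine ⟨t, N, htT, halg, ?_⟩
  exact s27pdsh_hdiv x₀ hx₀ O A' β β_mem hβ ψ q hspec t s N hs0 (by rw [hs1]; norm_num) hoff hts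
    (hcore s hs1)

/-- (CORE) from the `s27pdsGamma` form (`γ(p) = ∏ i, if ι_i ↦ O″ then ι_i s else 1`). -/
theorem s27pdsh_core_of_gamma (O : Place K F) (s : F) (W'' : ValuationSubring L)
    (p : Fin g → F →ₐ[K] L) (x : L)
    (h : ∃ w ∈ W'', x = w * s27pdsGamma W'' p O s) :
    ∃ (I : Finset (Fin g)) (w : L), (∀ i, i ∈ I ↔ S27ptIsCentre W'' (p i) O) ∧
      w ∈ W'' ∧ x = w * ∏ i ∈ I, p i s := by
  classical
  obtain ⟨w, hw, hx⟩ := h
  refine ⟨Finset.univ.filter fun i => S27ptIsCentre W'' (p i) O, w, fun i => by simp, hw, ?_⟩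
  rw [hx, Finset.prod_filter]
  unfold s27pdsGamma
  congr 1

/-- **POLE-DIV from (CORE), `s27pdsGamma` form**: all the inputs `t, ht, halg, c₀, hdiv` of
`s27grb_isGrow`, from the conclusion of `s27pda_main` at every `W″ ⊇ K` of `L` and every local
parameter `s` at `O″`. -/
theorem s27pdsh_exists_gamma [IsAlgClosed L] [Algebra.IsAlgebraic (s27gfOm K F g) L]
    (x₀ : F) (hx₀ : Transcendental K x₀) [FiniteDimensional K⟮x₀⟯ F] (O : Place K F)
    (A' : Divisor K F)
    (β : ValuationSubring (s27gfSym K F g) → s27gfSym K F g)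
    (β_mem : ∀ V, S27IsKValU K V → β V ∈ V)
    (hβ : S27pnBeta (L := L) (s27pnTaut (K := K) (F := F) (g := g) (L := L)) A' β)
    (ψ : ℤ → (s27gfSym K F g →ₐ[K] s27gfSym K F g)) (q : ℤ → Fin g → F →ₐ[K] L)
    (hspec : ∃ he : Function.Injective (s27gfLiftR (q (-1))), ∀ s : s27gfSym K F g,
      algebraMap (s27gfOm K F g) L ((ψ (-1) s : s27gfSym K F g) : s27gfOm K F g) =
        s27psiT (q (-1)) he (s : s27gfOm K F g))
    (hcore : ∀ s : F, O.ord s = 1 → ∀ W'' : ValuationSubring L, S27IsKValU K W'' → ∀ x : L,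
      S27ptIsIdx W'' (q (-1)) A' x →
      ∃ w ∈ W'', x = w *
        s27pdsGamma W'' (s27pnTaut (K := K) (F := F) (g := g) (L := L)) O s) :
    ∃ (t : F) (c₀ : ℕ), Transcendental K t ∧
      Algebra.IsAlgebraic (Algebra.adjoin K ({t} : Set F)) F ∧
      ∀ V : ValuationSubring (s27gfSym K F g), S27IsKValU K V →
        ∃ (W : ValuationSubring (s27gfOm K F g)) (p : Fin g → s27gfOm K F g)
          (w : s27gfOm K F g),
          (∀ x : s27gfSym K F g, (x : s27gfOm K F g) ∈ W → x ∈ V) ∧ (∀ i, p i ∈ W) ∧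
          (∀ i, s27gfIota (K := K) i t * p i ∈ W) ∧ w ∈ W ∧
          (((s27indB ψ β 1 V * s27indB ψ β (-1) V) ^ c₀ : s27gfSym K F g) : s27gfOm K F g) =
            w * ∏ i, p i :=
  s27pdsh_exists x₀ hx₀ O A' β β_mem hβ ψ q hspec fun s hs W'' hW'' x hx =>
    s27pdsh_core_of_gamma O s W'' _ x (hcore s hs W'' hW'' x hx)

end Shell

end Fermat.Agent.S27

end
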