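/-
S27-B, POLE-DIV, OPP step (4) **SPLIT** (helper31).

`G₀ ≥ 0` a divisor of `F / K`, `O` a place with residue field `K` outside the support of `G₀`.
Then `L(2 G₀) = K · 1 ⊕ L(2 G₀ − O)`:

* `s27pdsp_split`     : every `b ∈ L(2 G₀)` is `c₀ · 1 + ∑ l, c l • f l` for a `K`-basis `f` of
  `L(2 G₀ − O)` (`c₀` = the value of `b` at `O`).
* `s27pdsp_split_fam` : the same for a family `b j`.
* `s27pdsp_comb`      : (pure algebra) a linear combination `∑ j, c j * e (b j)` of values of the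
  `b j` at a point `e` is `c₀ + ∑ l, c' l * e (f l)` with `c₀`, `c'` independent of `e`.
* `s27pdsp_opp`       : the conclusion of (OPP) from the output of steps (2), (3): sections
  `b j ∈ L(2 G₀)`, coefficients `c j`, `∑ j, c j * b j ≠ 0` (in a big field), vanishing at the points
  `e i`.
-/
import Fermat.Agent.S26.ERRGaussPlace
import Fermat.Agent.S24.PlaceBasic
import Fermat.Prelude.Def_AlgebraicCurve_Repartitions

set_option autoImplicit false
set_option linter.unusedVariables false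
set_option linter.unusedSectionVars false
set_option linter.style.haveILetI false

noncomputable section

namespace Fermat.Agent.S27

open AlgebraicCurve IsLocalRing WithZero Fermat.Agent.S24 Fermat.Agent.S26

variable {K F : Type*} [Field K] [Field F] [Algebra K F]

/-- a section of `L(D)` with `D O = 0` is regular at `O`. -/
theorem s27pdsp_mem_of_rr {D : Divisor K F} (O : Place K F) (hD : D O = 0) {b : F}
    (hb : b ∈ riemannRochSpace D) : b ∈ O.toValuationSubring := by
  rw [PlaceAux.mem_iff_adicValuation_le_one]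
  have h : ∀ v : Place K F, v.adicValuation b ≤ exp (D v) := hb
  have := h O
  rw [hD, WithZero.exp_zero] at this
  exact this

/-- constants are in `L(D)` for `0 ≤ D`. -/
theorem s27pdsp_const_mem {D : Divisor K F} (hD : 0 ≤ D) (a : K) :
    algebraMap K F a ∈ riemannRochSpace D := by
  show ∀ v : Place K F, v.adicValuation (algebraMap K F a) ≤ exp (D v)
  intro v
  refine (v.adicValuation_algebraMap_le_one a).trans ?_
  rw [← WithZero.exp_zero, WithZero.exp_le_exp]
  exact Finsupp.le_def.mp hD v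

/-- `b − b(O) ∈ L(D − O)` for `b ∈ L(D)`, `0 ≤ D`, `D O = 0`, `O` of degree one. -/
theorem s27pdsp_sub_mem {D : Divisor K F} (hD : 0 ≤ D) (O : Place K F) (hO : D O = 0)
    (hres : Function.Surjective (algebraMap K O.ResidueField)) {b : F}
    (hb : b ∈ riemannRochSpace D) :
    b - algebraMap K F (s26gspRes O hres ⟨b, s27pdsp_mem_of_rr O hO hb⟩) ∈
      riemannRochSpace (D - Finsupp.single O 1) := by
  classical
  have hbO : b ∈ O.toValuationSubring := s27pdsp_mem_of_rr O hO hb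
  generalize hc₀ : s26gspRes O hres ⟨b, s27pdsp_mem_of_rr O hO hb⟩ = c₀
  have hsub : b - algebraMap K F c₀ ∈ riemannRochSpace D :=
    Submodule.sub_mem _ hb (s27pdsp_const_mem hD c₀)
  have hsub' : ∀ v : Place K F, v.adicValuation (b - algebraMap K F c₀) ≤ exp (D v) := hsub
  show ∀ v : Place K F,
    v.adicValuation (b - algebraMap K F c₀) ≤ exp ((D - Finsupp.single O (1 : ℤ) : Divisor K F) v)
  intro v
  by_cases hv : v = O
  · subst hv
    have hval : (D - Finsupp.single v (1 : ℤ) : Divisor K F) v = -1 := by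
      rw [Finsupp.sub_apply, hO, Finsupp.single_eq_same]
      norm_num
    rw [hval, Place.adicValuation_le_exp_iff]
    by_cases h0 : b - algebraMap K F c₀ = 0
    · exact Or.inl h0
    · right
      have hmem : ((⟨b, hbO⟩ : ↥v.toValuationSubring) - algebraMap K ↥v.toValuationSubring c₀) ∈
          maximalIdeal ↥v.toValuationSubring := by
        rw [← s26gspRes_eq_zero_iff v hres, map_sub, AlgHom.commutes, hc₀]
        simp
      have hnu : b - algebraMap K F c₀ ∈ v.toValuationSubring.nonunits := by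
        rw [ValuationSubring.mem_nonunits_iff_exists_mem_maximalIdeal]
        exact ⟨(⟨b, hbO⟩ - algebraMap K ↥v.toValuationSubring c₀ :
          ↥v.toValuationSubring).2, hmem⟩
      have hpos : 0 < v.ord (b - algebraMap K F c₀) :=
        (PlaceAux.ord_pos_iff_mem_nonunits v h0).2 hnu
      omega
  · have hval : (D - Finsupp.single O (1 : ℤ) : Divisor K F) v = D v := by
      rw [Finsupp.sub_apply, Finsupp.single_apply, if_neg (Ne.symm hv), sub_zero]
    rw [hval]
    exact hsub' v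

/-- **SPLIT**: `L(2 G₀) = K · 1 + L(2 G₀ − O)`, in coordinates of a basis of `L(2 G₀ − O)`. -/
theorem s27pdsp_split (G₀ : Divisor K F) (hG₀ : 0 ≤ G₀) (O : Place K F) (hO : G₀ O = 0)
    (hres : Function.Surjective (algebraMap K O.ResidueField)) {γ : ℕ}
    (f : Module.Basis (Fin γ) K ↥(riemannRochSpace (2 • G₀ - Finsupp.single O 1)))
    (b : F) (hb : b ∈ riemannRochSpace (2 • G₀)) :
    ∃ (c₀ : K) (c : Fin γ → K), b = algebraMap K F c₀ + ∑ l, c l • (f l : F) := by
  have h2 : (0 : Divisor K F) ≤ 2 • G₀ := nsmul_nonneg hG₀ 2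
  have h2O : (2 • G₀) O = 0 := by
    rw [Finsupp.smul_apply, hO, smul_zero]
  have hmem := s27pdsp_sub_mem h2 O h2O hres hb
  refine ⟨s26gspRes O hres ⟨b, s27pdsp_mem_of_rr O h2O hb⟩,
    fun l => f.repr ⟨_, hmem⟩ l, ?_⟩
  have h1 := f.sum_repr ⟨_, hmem⟩
  have h3 := congrArg (Subtype.val) h1
  rw [Submodule.coe_sum] at h3
  simp only [Submodule.coe_smul] at h3
  rw [h3]
  ring

/-- **SPLIT** for a family. -/
theorem s27pdsp_split_fam (G₀ : Divisor K F) (hG₀ : 0 ≤ G₀) (O : Place K F) (hO : G₀ O = 0)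
    (hres : Function.Surjective (algebraMap K O.ResidueField)) {γ : ℕ}
    (f : Module.Basis (Fin γ) K ↥(riemannRochSpace (2 • G₀ - Finsupp.single O 1)))
    {J : Type*} (b : J → F) (hb : ∀ j, b j ∈ riemannRochSpace (2 • G₀)) :
    ∃ (a : J → K) (m : J → Fin γ → K),
      ∀ j, b j = algebraMap K F (a j) + ∑ l, m j l • (f l : F) := by
  choose a m h using fun j => s27pdsp_split G₀ hG₀ O hO hres f (b j) (hb j)
  exact ⟨a, m, h⟩

section Comb

variable {J : Type*} [Fintype J] {Λ : Type*} [Fintype Λ]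
  {𝔏 Ω : Type*} [CommRing 𝔏] [CommRing Ω] [Algebra K 𝔏] [Algebra K Ω] [Algebra 𝔏 Ω]
  [IsScalarTower K 𝔏 Ω]

/-- (pure algebra) values of a combination of the `b j` in terms of the values of the `f l`. -/
theorem s27pdsp_comb (b : J → F) (f : Λ → F) (a : J → K) (m : J → Λ → K)
    (hsplit : ∀ j, b j = algebraMap K F (a j) + ∑ l, m j l • f l)
    (c : J → 𝔏) (e : F →ₐ[K] Ω) :
    ∑ j, algebraMap 𝔏 Ω (c j) * e (b j) =
      algebraMap 𝔏 Ω (∑ j, c j * algebraMap K 𝔏 (a j)) +
        ∑ l, algebraMap 𝔏 Ω (∑ j, c j * algebraMap K 𝔏 (m j l)) * e (f l) := by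
  have h1 : ∀ j, e (b j) = algebraMap 𝔏 Ω (algebraMap K 𝔏 (a j)) +
      ∑ l, algebraMap 𝔏 Ω (algebraMap K 𝔏 (m j l)) * e (f l) := by
    intro j
    rw [hsplit j, map_add, AlgHom.commutes, map_sum,
      ← IsScalarTower.algebraMap_apply K 𝔏 Ω]
    congr 1
    refine Finset.sum_congr rfl fun l _ => ?_
    rw [map_smul, Algebra.smul_def, ← IsScalarTower.algebraMap_apply K 𝔏 Ω]
  simp only [h1, mul_add, Finset.sum_add_distrib, map_sum, map_mul, Finset.mul_sum,
    Finset.sum_mul]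
  congr 1
  rw [Finset.sum_comm]
  refine Finset.sum_congr rfl fun l _ => Finset.sum_congr rfl fun j _ => ?_
  ring

end Comb

/-- **(OPP) from steps (2), (3)**: sections `b j ∈ L(2 G₀)` and coefficients `c j ∈ 𝔏` with
`∑ j, c j * b j ≠ 0` in `Ω ⊇ F, 𝔏` and `∑ j, c j * e i (b j) = 0` at the points `e i` give
`(c₀, c') ≠ 0` with `c₀ + ∑ l, c' l * e i (f l) = 0` at all points. -/
theorem s27pdsp_opp (G₀ : Divisor K F) (hG₀ : 0 ≤ G₀) (O : Place K F) (hO : G₀ O = 0)
    (hres : Function.Surjective (algebraMap K O.ResidueField)) {γ : ℕ}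
    (f : Module.Basis (Fin γ) K ↥(riemannRochSpace (2 • G₀ - Finsupp.single O 1)))
    {J : Type*} [Fintype J] (b : J → F) (hb : ∀ j, b j ∈ riemannRochSpace (2 • G₀))
    {𝔏 Ω : Type*} [CommRing 𝔏] [CommRing Ω] [Algebra K 𝔏] [Algebra K Ω] [Algebra 𝔏 Ω]
    [IsScalarTower K 𝔏 Ω] (c : J → 𝔏) (ι : F →ₐ[K] Ω)
    (hne : ∑ j, algebraMap 𝔏 Ω (c j) * ι (b j) ≠ 0)
    {I : Type*} (e : I → F →ₐ[K] 𝔏) (hvan : ∀ i, ∑ j, c j * e i (b j) = 0) :
    ∃ (c₀ : 𝔏) (c' : Fin γ → 𝔏), (c₀ ≠ 0 ∨ ∃ l, c' l ≠ 0) ∧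
      ∀ i, c₀ + ∑ l, c' l * e i (f l : F) = 0 := by
  obtain ⟨a, m, hsplit⟩ := s27pdsp_split_fam G₀ hG₀ O hO hres f b hb
  refine ⟨∑ j, c j * algebraMap K 𝔏 (a j), fun l => ∑ j, c j * algebraMap K 𝔏 (m j l), ?_, ?_⟩
  · by_contra hcon
    rw [not_or, not_not, not_exists] at hcon
    apply hne
    rw [s27pdsp_comb b (fun l => (f l : F)) a m hsplit c ι, hcon.1, map_zero, zero_add]
    refine Finset.sum_eq_zero fun l _ => ?_
    have h0 : ∑ j, c j * algebraMap K 𝔏 (m j l) = 0 := not_not.1 (hcon.2 l)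
    rw [h0, map_zero, zero_mul]
  · intro i
    have h := s27pdsp_comb (𝔏 := 𝔏) (Ω := 𝔏) b (fun l => (f l : F)) a m hsplit c (e i)
    simp only [Algebra.algebraMap_self, RingHom.id_apply] at h
    rw [← h]
    exact hvan i

end Fermat.Agent.S27

end
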