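/-
S27-B, POLE-DIV, OPP step (4) **SPLIT**, wiring forms (helper31): the hypotheses `hA`, `h1`,
`hsplit` of `s27opp_stage` / `s27oppt_stage` (helper14) in their literal shape, for
`A = G₀ + G₀ − O` (or `2 • G₀ − O`), `G₀ ≥ 0`, `O ∉ supp G₀`, `O` of degree one.
-/
import Fermat.Agent.S27.PoleDivSplit

set_option autoImplicit false
set_option linter.unusedVariables false
set_option linter.unusedSectionVars false
set_option linter.style.haveILetI false

noncomputable section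

namespace Fermat.Agent.S27

open AlgebraicCurve IsLocalRing WithZero Fermat.Agent.S24 Fermat.Agent.S26

variable {K F : Type*} [Field K] [Field F] [Algebra K F]

/-- `1 ∈ L(G₀ + G₀)` for `G₀ ≥ 0`. -/
theorem s27pdsw_one_mem (G₀ : Divisor K F) (hG₀ : 0 ≤ G₀) :
    (1 : F) ∈ riemannRochSpace (G₀ + G₀) := by
  have h := s27pdsp_const_mem (K := K) (F := F) (D := G₀ + G₀) (add_nonneg hG₀ hG₀) 1
  rwa [map_one] at h

/-- `1 ∈ L(2 • G₀)` for `G₀ ≥ 0`. -/
theorem s27pdsw_one_mem' (G₀ : Divisor K F) (hG₀ : 0 ≤ G₀) :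
    (1 : F) ∈ riemannRochSpace (2 • G₀) := by
  rw [two_nsmul]
  exact s27pdsw_one_mem G₀ hG₀

/-- `G₀ + G₀ − O ≤ G₀ + G₀`. -/
theorem s27pdsw_le (G₀ : Divisor K F) (O : Place K F) :
    G₀ + G₀ - Finsupp.single O (1 : ℤ) ≤ G₀ + G₀ := by
  rw [sub_le_self_iff]
  intro v
  classical
  rw [Finsupp.single_apply]
  split_ifs <;> simp

/-- `2 • G₀ − O ≤ G₀ + G₀`. -/
theorem s27pdsw_le' (G₀ : Divisor K F) (O : Place K F) :
    2 • G₀ - Finsupp.single O (1 : ℤ) ≤ G₀ + G₀ := by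
  rw [two_nsmul]
  exact s27pdsw_le G₀ O

/-- **SPLIT**, literal `hsplit` of `s27oppt_stage`, `A = G₀ + G₀ − O`. -/
theorem s27pdsw_hsplit (G₀ : Divisor K F) (hG₀ : 0 ≤ G₀) (O : Place K F) (hO : G₀ O = 0)
    (hres : Function.Surjective (algebraMap K O.ResidueField)) {g : ℕ}
    (A : Divisor K F) (hA : A = G₀ + G₀ - Finsupp.single O (1 : ℤ)) :
    ∀ f : Module.Basis (Fin g) K ↥(riemannRochSpace A),
      ∀ b ∈ riemannRochSpace (G₀ + G₀), ∃ (a₀ : K) (a : Fin g → K),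
        b = a₀ • (1 : F) + ∑ l, a l • ((f l : ↥(riemannRochSpace A)) : F) := by
  subst hA
  intro f b hb
  have h2 : (2 • G₀ : Divisor K F) = G₀ + G₀ := two_nsmul G₀
  revert f
  rw [← h2] at hb ⊢
  intro f
  obtain ⟨c₀, c, h⟩ := s27pdsp_split G₀ hG₀ O hO hres f b hb
  refine ⟨c₀, c, ?_⟩
  rw [h, Algebra.algebraMap_eq_smul_one]

/-- **SPLIT**, literal `hsplit` of `s27oppt_stage`, `A = 2 • G₀ − O`. -/
theorem s27pdsw_hsplit' (G₀ : Divisor K F) (hG₀ : 0 ≤ G₀) (O : Place K F) (hO : G₀ O = 0)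
    (hres : Function.Surjective (algebraMap K O.ResidueField)) {g : ℕ}
    (A : Divisor K F) (hA : A = 2 • G₀ - Finsupp.single O (1 : ℤ)) :
    ∀ f : Module.Basis (Fin g) K ↥(riemannRochSpace A),
      ∀ b ∈ riemannRochSpace (G₀ + G₀), ∃ (a₀ : K) (a : Fin g → K),
        b = a₀ • (1 : F) + ∑ l, a l • ((f l : ↥(riemannRochSpace A)) : F) :=
  s27pdsw_hsplit G₀ hG₀ O hO hres A (by rw [hA, two_nsmul])

end Fermat.Agent.S27

end
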