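/-
S27-B, POLE-DIV (helper46's decomposition), leaf **C2, INSTANCE** (helper39): THE VALUE AT A CONSTANT
POINT OF A SECTION VANISHING AT THE POINTS OF ITS CLUSTER.

`Q` a `K`-point of the curve `F / K` (residue field `K`), `π` a local parameter at `Q`, `W ⊇ K` a
valuation subring of `𝔏`, `P i : F →ₐ[K] 𝔏` (`i < n`) distinct points with centre `Q` along `W`.
A section `h̃ = ∑_j h_j · b_j` (`b_j ∈ 𝒪_Q`, `h_j ∈ W`) which vanishes at all the `P i` has

      `h̃(Q) = ∑_j h_j · b_j(Q)  ∈  W · ∏_i P_i(π)`            (`s27pdv_value`).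

Proof: Newton's divided differences in the ring of germs (`S27eiStep`, helper50: S27/EffInst,
EffInstCl) for the cluster `{P i} ∪ {Q}` — the constant point `Q` is one more node, with
coordinate `π(Q) = 0`.

* `s27pdv_core`     : the abstract statement, from `S27eiStep` (any centre ring);
* `s27pdv_value`    : the instance at a `K`-point of a field `F / K` (`halg`: `F` algebraic over
                      `K[π]`);
* `s27pdv_value_curve` : the same on a curve (`IsCurveOver`), `K` algebraically closed;
* `s27pdv_dist`     : distinct points of the cluster have distinct coordinates `P i π`.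
-/
import Fermat.Agent.S27.EffInstCl
import Fermat.Agent.S27.EffInstF
import Fermat.Agent.S27.NewtonPl
import Fermat.Agent.S27.NewtonCrv

set_option autoImplicit false
set_option linter.unusedSectionVars false
set_option linter.unusedVariables false
set_option linter.style.haveILetI false

noncomputable section

namespace Fermat.Agent.S27

open IsLocalRing Polynomial AlgebraicCurve Fermat.Agent.S24
open scoped TensorProduct

section Core

variable {K D R : Type*} [Field K] [CommRing D] [Algebra K D] [CommRing R] [IsLocalRing R]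
  [IsDomain R] [Algebra K R]

/-- **the abstract statement**: a germ which vanishes at the nodes of `S` (with pairwise distinct
coordinates) has at any node `o` a value divisible by `∏_{i ∈ S} (t(o) − t(i))`. -/
theorem s27pdv_core (t : D) (hstep : S27eiStep K D t R) {I : Type} [DecidableEq I]
    (ι : I → D →ₐ[K] R) (hc : ∀ i j, S27diagCong (ι i) (ι j)) (o : I) (S : Finset I) :
    (∀ i ∈ S, ∀ j ∈ S, ι i t = ι j t → i = j) →
    ∀ φ : I → R, S27diagFun ι φ → (∀ i ∈ S, φ i = 0) →
      ∃ r : R, φ o = r * ∏ i ∈ S, (ι o t - ι i t) := by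
  induction S using Finset.induction_on with
  | empty =>
    intro _ φ _ _
    exact ⟨φ o, by rw [Finset.prod_empty, mul_one]⟩
  | insert k S hk ih =>
    intro hinj φ hφ hzero
    obtain ⟨φ', hφ', hst⟩ := hstep I ι hc φ hφ k
    have hφk : φ k = 0 := hzero k (Finset.mem_insert_self k S)
    have hst' : ∀ i, φ i = (ι i t - ι k t) * φ' i := fun i => by
      have := hst i
      rw [hφk, sub_zero] at this
      exact this
    have hzero' : ∀ i ∈ S, φ' i = 0 := by
      intro i hi
      have h1 := hst' i
      rw [hzero i (Finset.mem_insert_of_mem hi)] at h1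
      have hne : ι i t - ι k t ≠ 0 := by
        intro h0
        have h2 := hinj i (Finset.mem_insert_of_mem hi) k (Finset.mem_insert_self k S)
          (sub_eq_zero.1 h0)
        exact hk (h2 ▸ hi)
      rcases mul_eq_zero.1 h1.symm with h3 | h3
      · exact absurd h3 hne
      · exact h3
    obtain ⟨r, hr⟩ := ih (fun i hi j hj => hinj i (Finset.mem_insert_of_mem hi) j
      (Finset.mem_insert_of_mem hj)) φ' hφ' hzero'
    refine ⟨r, ?_⟩
    rw [Finset.prod_insert hk, hst' o, hr]
    ring

/-- a finite `R`-linear combination of values of functions of `D` is a germ. -/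
theorem s27pdv_fun_sum {I : Type*} (ι : I → D →ₐ[K] R) {J : Type*} (T : Finset J) (h : J → R)
    (b : J → D) : S27diagFun ι (fun i => ∑ j ∈ T, h j * ι i (b j)) := by
  classical
  induction T using Finset.induction_on with
  | empty =>
    simp only [Finset.sum_empty]
    exact s27diag_fun_const ι 0
  | insert a T ha ih =>
    have h1 : (fun i => ∑ j ∈ insert a T, h j * ι i (b j)) =
        fun i => h a * ι i (b a) + ∑ j ∈ T, h j * ι i (b j) := by
      funext i
      rw [Finset.sum_insert ha]
    rw [h1]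
    exact s27diag_fun_add ι (s27diag_fun_mul ι (s27diag_fun_const ι (h a))
      (s27diag_fun_of ι (b a))) ih

end Core

section Place

variable {K F : Type*} [Field K] [Field F] [Algebra K F]
variable {𝔏 : Type*} [Field 𝔏] [Algebra K 𝔏]

/-- the evaluation at a `K`-point, `𝒪_Q → K`. -/
def s27pdvEv (Q : Place K F) (hres : Function.Surjective (algebraMap K Q.ResidueField)) :
    Q.toValuationSubring →ₐ[K] K :=
  ((AlgEquiv.ofBijective (Algebra.ofId K Q.ResidueField)
      ⟨(algebraMap K Q.ResidueField).injective, hres⟩).symm : Q.ResidueField →ₐ[K] K).comp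
    (IsScalarTower.toAlgHom K Q.toValuationSubring Q.ResidueField)

theorem s27pdvEv_spec (Q : Place K F) (hres : Function.Surjective (algebraMap K Q.ResidueField))
    (a : Q.toValuationSubring) :
    algebraMap K Q.ResidueField (s27pdvEv Q hres a) = IsLocalRing.residue Q.toValuationSubring a := by
  unfold s27pdvEv
  rw [AlgHom.comp_apply]
  exact (AlgEquiv.ofBijective (Algebra.ofId K Q.ResidueField)
      ⟨(algebraMap K Q.ResidueField).injective, hres⟩).apply_symm_apply _

/-- `a − a(Q)` lies in the maximal ideal. -/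
theorem s27pdvEv_sub_mem (Q : Place K F)
    (hres : Function.Surjective (algebraMap K Q.ResidueField)) (a : Q.toValuationSubring) :
    a - algebraMap K Q.toValuationSubring (s27pdvEv Q hres a) ∈
      maximalIdeal Q.toValuationSubring := by
  rw [← Ideal.Quotient.eq_zero_iff_mem]
  have h1 : algebraMap K Q.ResidueField (s27pdvEv Q hres a) =
      IsLocalRing.residue Q.toValuationSubring
        (algebraMap K Q.toValuationSubring (s27pdvEv Q hres a)) := rfl
  have h2 := s27pdvEv_spec Q hres a
  rw [h1] at h2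
  rw [map_sub]
  exact sub_eq_zero.mpr h2.symm

/-- the value at `Q` of an element of the maximal ideal is `0`. -/
theorem s27pdvEv_of_mem (Q : Place K F)
    (hres : Function.Surjective (algebraMap K Q.ResidueField)) (a : Q.toValuationSubring)
    (ha : a ∈ maximalIdeal Q.toValuationSubring) : s27pdvEv Q hres a = 0 := by
  have h2 := s27pdvEv_spec Q hres a
  have h3 : IsLocalRing.residue Q.toValuationSubring a = 0 :=
    Ideal.Quotient.eq_zero_iff_mem.2 ha
  rw [h3] at h2
  exact (map_eq_zero (algebraMap K Q.ResidueField)).1 h2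

/-- the value at `Q` is characterised by `a − c ∈ 𝔪_Q`. -/
theorem s27pdvEv_eq (Q : Place K F)
    (hres : Function.Surjective (algebraMap K Q.ResidueField)) (a : Q.toValuationSubring)
    (c : K) (hc : a - algebraMap K Q.toValuationSubring c ∈ maximalIdeal Q.toValuationSubring) :
    s27pdvEv Q hres a = c := by
  have h1 := s27pdvEv_of_mem Q hres _ hc
  rw [map_sub, AlgHom.commutes, sub_eq_zero] at h1
  exact h1

/-- a point with centre `Q` maps the maximal ideal of `𝒪_Q` into the maximal ideal of `W`. -/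
theorem s27pdv_pt_mem (Q : Place K F) (W : ValuationSubring 𝔏) (R : F →ₐ[K] 𝔏)
    (hR : ∀ f : F, R f ∈ W ↔ f ∈ Q.toValuationSubring) (a : Q.toValuationSubring)
    (ha : a ∈ maximalIdeal Q.toValuationSubring) :
    W.valuation (R (a : F)) < 1 := by
  by_contra hcon
  have hmem : R (a : F) ∈ W := (hR _).2 a.2
  have h1 : W.valuation (R (a : F)) = 1 :=
    le_antisymm ((W.valuation_le_one_iff _).2 hmem) (not_lt.1 hcon)
  have ha0 : (a : F) ≠ 0 := by
    intro h0
    rw [h0, map_zero, map_zero] at h1
    exact zero_ne_one h1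
  have h2 : W.valuation (R ((a : F)⁻¹)) = 1 := by
    rw [map_inv₀, map_inv₀, h1, inv_one]
  have h3 : (a : F)⁻¹ ∈ Q.toValuationSubring :=
    (hR _).1 ((W.valuation_le_one_iff _).1 h2.le)
  have hu : IsUnit a := by
    refine IsUnit.of_mul_eq_one (⟨(a : F)⁻¹, h3⟩ : Q.toValuationSubring) ?_
    apply Subtype.ext
    show (a : F) * (a : F)⁻¹ = 1
    exact mul_inv_cancel₀ ha0
  exact (IsLocalRing.mem_maximalIdeal a).1 ha hu

variable [CharZero K]

/-- **POLE-DIV C2, instance at a `K`-point**: the value at `Q` of a `W`-integral section which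
vanishes at the distinct points `P i` of centre `Q` lies in `W · ∏_i P_i(π)`. -/
theorem s27pdv_value (Q : Place K F)
    (hres : Function.Surjective (algebraMap K Q.ResidueField)) (π : F) (hπ : Q.ord π = 1)
    (halg : ∀ f : F, ∃ G : K[X][X], G ≠ 0 ∧ G.eval₂ (s27nwRho (K := K) π) f = 0)
    (W : ValuationSubring 𝔏) (hKW : ∀ a : K, algebraMap K 𝔏 a ∈ W)
    {n : ℕ} (P : Fin n → F →ₐ[K] 𝔏)
    (hP : ∀ (i : Fin n) (f : F), P i f ∈ W ↔ f ∈ Q.toValuationSubring)
    (hdist : ∀ i i' : Fin n, P i π = P i' π → i = i')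
    {J : Type*} [Fintype J] (b : J → F) (hb : ∀ j, b j ∈ Q.toValuationSubring) (c : J → K)
    (hc : ∀ j, Q.toValuationSubring.valuation (b j - algebraMap K F (c j)) < 1)
    (h : J → 𝔏) (hh : ∀ j, h j ∈ W) (hvan : ∀ i, ∑ j, h j * P i (b j) = 0) :
    ∃ r ∈ W, ∑ j, h j * algebraMap K 𝔏 (c j) = r * ∏ i, P i π := by
  classical
  letI : Algebra K W := s27eifAlg W hKW
  -- the nodes: `none` = the constant point `Q`, `some i` = the point `P i`
  let ιP : Fin n → (Q.toValuationSubring →ₐ[K] W) := fun i =>
    { toFun := fun d => ⟨P i (d : F), (hP i _).2 d.2⟩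
      map_one' := by apply Subtype.ext; simp
      map_mul' := fun a b => by apply Subtype.ext; simp
      map_zero' := by apply Subtype.ext; simp
      map_add' := fun a b => by apply Subtype.ext; simp
      commutes' := fun a => by
        apply Subtype.ext
        show P i (algebraMap K F a) = algebraMap K 𝔏 a
        rw [AlgHom.commutes] }
  let ιo : Q.toValuationSubring →ₐ[K] W := (Algebra.ofId K W).comp (s27pdvEv Q hres)
  let ι : Option (Fin n) → (Q.toValuationSubring →ₐ[K] W) := fun k =>
    match k with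
    | none => ιo
    | some i => ιP i
  have hιP : ∀ (i : Fin n) (d : Q.toValuationSubring), ((ι (some i) d : W) : 𝔏) = P i (d : F) :=
    fun i d => rfl
  have hιo : ∀ d : Q.toValuationSubring,
      ((ι none d : W) : 𝔏) = algebraMap K 𝔏 (s27pdvEv Q hres d) := fun d => rfl
  -- congruence with the constant node
  have hco : ∀ k, S27diagCong (ι k) (ι none) := by
    intro k
    cases k with
    | none => exact s27diag_cong_refl _
    | some i =>
      intro d
      rw [ValuationSubring.valuation_lt_one_iff]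
      have h1 : (((ι (some i) d - ι none d : W)) : 𝔏) =
          P i ((d - algebraMap K Q.toValuationSubring (s27pdvEv Q hres d) :
            Q.toValuationSubring) : F) := by
        push_cast
        rw [hιP, hιo, map_sub]
        congr 1
        exact (AlgHom.commutes (P i) _).symm
      rw [h1]
      exact s27pdv_pt_mem Q W (P i) (hP i) _ (s27pdvEv_sub_mem Q hres d)
  have hcong : ∀ k k', S27diagCong (ι k) (ι k') := fun k k' =>
    s27diag_cong_trans (hco k) (s27diag_cong_symm (hco k'))
  -- the step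
  have hstep : S27eiStep K Q.toValuationSubring (s27nwpPi Q π hπ) W :=
    s27ei_step_of_dvr (s27nwp_irreducible Q π hπ) (s27nwp_hres Q hres π hπ)
      (s27nwp_halg_of Q π hπ halg)
  -- the germ
  let hW : J → W := fun j => ⟨h j, hh j⟩
  let bD : J → Q.toValuationSubring := fun j => ⟨b j, hb j⟩
  have hφ : S27diagFun ι (fun k => ∑ j ∈ Finset.univ, hW j * ι k (bD j)) :=
    s27pdv_fun_sum ι Finset.univ hW bD
  -- the coordinates
  have hπo : ι none (s27nwpPi Q π hπ) = 0 := by
    apply Subtype.ext
    rw [hιo]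
    have h0 : s27pdvEv Q hres (s27nwpPi Q π hπ) = 0 :=
      s27pdvEv_of_mem Q hres _ (by
        rw [(s27nwp_irreducible Q π hπ).maximalIdeal_eq]
        exact Ideal.mem_span_singleton_self _)
    rw [h0, map_zero]
    rfl
  have hinj : ∀ k ∈ (Finset.univ.image (some : Fin n → Option (Fin n))),
      ∀ k' ∈ (Finset.univ.image (some : Fin n → Option (Fin n))),
      ι k (s27nwpPi Q π hπ) = ι k' (s27nwpPi Q π hπ) → k = k' := by
    intro k hk k' hk' hkk
    obtain ⟨i, -, rfl⟩ := Finset.mem_image.1 hk
    obtain ⟨i', -, rfl⟩ := Finset.mem_image.1 hk'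
    have h1 := congrArg (fun w : W => (w : 𝔏)) hkk
    have h2 : P i π = P i' π := h1
    rw [hdist i i' h2]
  have hzero : ∀ k ∈ (Finset.univ.image (some : Fin n → Option (Fin n))),
      (fun k => ∑ j ∈ Finset.univ, hW j * ι k (bD j)) k = 0 := by
    intro k hk
    obtain ⟨i, -, rfl⟩ := Finset.mem_image.1 hk
    apply Subtype.ext
    show ((∑ j ∈ Finset.univ, hW j * ι (some i) (bD j) : W) : 𝔏) = 0
    rw [← hvan i]
    push_cast
    rfl
  obtain ⟨r, hr⟩ := s27pdv_core (s27nwpPi Q π hπ) hstep ι hcong none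
    (Finset.univ.image (some : Fin n → Option (Fin n))) hinj _ hφ hzero
  -- back to `𝔏`
  have hr' := congrArg (fun w : W => (w : 𝔏)) hr
  have hval : ∀ j, s27pdvEv Q hres (bD j) = c j := by
    intro j
    refine s27pdvEv_eq Q hres (bD j) (c j) ?_
    rw [ValuationSubring.valuation_lt_one_iff]
    exact hc j
  have hL : ((∑ j ∈ Finset.univ, hW j * ι none (bD j) : W) : 𝔏) =
      ∑ j, h j * algebraMap K 𝔏 (c j) := by
    push_cast
    refine Finset.sum_congr rfl fun j _ => ?_
    rw [hιo, hval j]
  have hR : ((r * ∏ k ∈ Finset.univ.image (some : Fin n → Option (Fin n)),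
      (ι none (s27nwpPi Q π hπ) - ι k (s27nwpPi Q π hπ)) : W) : 𝔏) =
      ((r : 𝔏) * (-1) ^ n) * ∏ i, P i π := by
    rw [Finset.prod_image (fun i _ j _ hij => Option.some_injective _ hij)]
    push_cast
    rw [mul_assoc]
    congr 1
    have h5 : ∀ i : Fin n, (((ι none (s27nwpPi Q π hπ) : W) : 𝔏) -
        ((ι (some i) (s27nwpPi Q π hπ) : W) : 𝔏)) = (-1) * P i π := by
      intro i
      rw [hπo, hιP]
      simp
    rw [Finset.prod_congr rfl (fun i _ => h5 i), Finset.prod_mul_distrib, Finset.prod_const,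
      Finset.card_univ, Fintype.card_fin]
  refine ⟨(r : 𝔏) * (-1) ^ n, W.mul_mem _ _ r.2 (W.pow_mem (W.neg_mem _ W.one_mem) n), ?_⟩
  rw [← hL, ← hR]
  exact hr'

/-- distinct points of the cluster at `Q` have distinct coordinates. -/
theorem s27pdv_dist (Q : Place K F)
    (hres : Function.Surjective (algebraMap K Q.ResidueField)) (π : F) (hπ : Q.ord π = 1)
    (halg : ∀ f : F, ∃ G : K[X][X], G ≠ 0 ∧ G.eval₂ (s27nwRho (K := K) π) f = 0)
    (W : ValuationSubring 𝔏) (R₁ R₂ : F →ₐ[K] 𝔏)
    (h₁ : ∀ f : F, R₁ f ∈ W ↔ f ∈ Q.toValuationSubring)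
    (h₂ : ∀ f : F, R₂ f ∈ W ↔ f ∈ Q.toValuationSubring) (hπ12 : R₁ π = R₂ π) : R₁ = R₂ := by
  have key : ∀ f : F, f ∈ Q.toValuationSubring → R₁ f = R₂ f := by
    intro f hf
    obtain ⟨w, -, hw⟩ := s27nwp_divided_diff Q hres π hπ halg W R₁ R₂ h₁ h₂ f hf
    rw [hπ12, sub_self, zero_mul, sub_eq_zero] at hw
    exact hw
  apply AlgHom.ext
  intro f
  rcases Q.toValuationSubring.mem_or_inv_mem f with hf | hf
  · exact key f hf
  · have h3 := key f⁻¹ hf
    rw [map_inv₀, map_inv₀] at h3
    exact inv_injective h3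

end Place

section Curve

variable {K F : Type*} [Field K] [Field F] [Algebra K F]
variable {𝔏 : Type*} [Field 𝔏] [Algebra K 𝔏]

/-- **POLE-DIV C2 on a curve**: `K` algebraically closed of characteristic `0`, `F / K` a curve,
the points `P i` pairwise distinct with centre `Q` along `W` (in the shape `W.comap (P i) = 𝒪_Q`
of `S27ptIsCentre`). -/
theorem s27pdv_value_curve [IsAlgClosed K] [CharZero K] [IsCurveOver K F]
    [Algebra.EssFiniteType K F] (Q : Place K F)
    (hres : Function.Surjective (algebraMap K Q.ResidueField)) (π : F) (hπ : Q.ord π = 1)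
    (W : ValuationSubring 𝔏) (hKW : ∀ a : K, algebraMap K 𝔏 a ∈ W)
    {n : ℕ} (P : Fin n → F →ₐ[K] 𝔏)
    (hP : ∀ i : Fin n, W.comap ((P i : F →ₐ[K] 𝔏) : F →+* 𝔏) = Q.toValuationSubring)
    (hdist : Function.Injective P)
    {J : Type*} [Fintype J] (b : J → F) (hb : ∀ j, b j ∈ Q.toValuationSubring) (c : J → K)
    (hc : ∀ j, Q.toValuationSubring.valuation (b j - algebraMap K F (c j)) < 1)
    (h : J → 𝔏) (hh : ∀ j, h j ∈ W) (hvan : ∀ i, ∑ j, h j * P i (b j) = 0) :
    ∃ r ∈ W, ∑ j, h j * algebraMap K 𝔏 (c j) = r * ∏ i, P i π := by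
  have halg : ∀ f : F, ∃ G : K[X][X], G ≠ 0 ∧ G.eval₂ (s27nwRho (K := K) π) f = 0 :=
    s27nwc_halg π (s27nwc_transcendental_of_ord Q π (by rw [hπ]; norm_num))
  have hP' : ∀ (i : Fin n) (f : F), P i f ∈ W ↔ f ∈ Q.toValuationSubring := by
    intro i f
    rw [← hP i]
    exact Iff.rfl
  exact s27pdv_value Q hres π hπ halg W hKW P hP'
    (fun i i' hii => hdist (s27pdv_dist Q hres π hπ halg W (P i) (P i') (hP' i) (hP' i') hii))
    b hb c hc h hh hvan

end Curve

end Fermat.Agent.S27

end
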