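/-
S27-B, POLE-DIV, leaf C2 INSTANCE, part 2 (helper39): the value `h̃(O″)` in the shape of the
assembly — with helper4's `γ = s27pdsGamma W R O s = ∏_{i ↦ O} R_i s` (S27/PoleDivSecT.lean).

`Q` a `K`-point of the curve, `π` a local parameter at `Q`, `W ⊇ K`; a `W`-integral section
`h̃ = ∑_j h_j b_j` (`b_j ∈ 𝒪_Q`, value `c_j` at `Q`) which vanishes at the points of centre `Q`
of a family of pairwise distinct points:

* `s27pdv_value_fintype` : the points indexed by any `Fintype`, all of centre `Q`;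
* `s27pdv_value_ite`     : any family `R` of distinct points; the product over the points of
                           centre `Q`, written `∏_x (if R x ↦ Q then R x π else 1)`;
* `s27pdv_value_gamma`   : `∑_j h_j c_j ∈ W · s27pdsGamma W R Q π`;
* `s27pdv_value_gamma2`  : two families `R` (`= D_gen`), `R'` (`= D′`), pairwise distinct and
                           disjoint: `∑_j h_j c_j ∈ W · γ(R) · γ(R')`   (= C2 of the plan).
-/
import Fermat.Agent.S27.PoleDivVal
import Fermat.Agent.S27.PoleDivSecT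

set_option autoImplicit false
set_option linter.unusedSectionVars false
set_option linter.unusedVariables false
set_option linter.style.haveILetI false

noncomputable section

namespace Fermat.Agent.S27

open AlgebraicCurve

section

variable {K F : Type*} [Field K] [Field F] [Algebra K F]
variable {𝔏 : Type*} [Field 𝔏] [Algebra K 𝔏]
variable [IsAlgClosed K] [CharZero K] [IsCurveOver K F] [Algebra.EssFiniteType K F]

/-- C2 for points indexed by a `Fintype`. -/
theorem s27pdv_value_fintype (Q : Place K F)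
    (hres : Function.Surjective (algebraMap K Q.ResidueField)) (π : F) (hπ : Q.ord π = 1)
    (W : ValuationSubring 𝔏) (hKW : ∀ a : K, algebraMap K 𝔏 a ∈ W)
    {ι : Type*} [Fintype ι] (P : ι → F →ₐ[K] 𝔏)
    (hP : ∀ x : ι, W.comap ((P x : F →ₐ[K] 𝔏) : F →+* 𝔏) = Q.toValuationSubring)
    (hdist : Function.Injective P)
    {J : Type*} [Fintype J] (b : J → F) (hb : ∀ j, b j ∈ Q.toValuationSubring) (c : J → K)
    (hc : ∀ j, Q.toValuationSubring.valuation (b j - algebraMap K F (c j)) < 1)
    (h : J → 𝔏) (hh : ∀ j, h j ∈ W) (hvan : ∀ x, ∑ j, h j * P x (b j) = 0) :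
    ∃ r ∈ W, ∑ j, h j * algebraMap K 𝔏 (c j) = r * ∏ x, P x π := by
  classical
  obtain ⟨r, hr, e⟩ := s27pdv_value_curve Q hres π hπ W hKW
    (fun k => P ((Fintype.equivFin ι).symm k)) (fun k => hP _)
    (fun k k' hkk => (Fintype.equivFin ι).symm.injective (hdist hkk)) b hb c hc h hh
    (fun k => hvan _)
  refine ⟨r, hr, ?_⟩
  rw [e]
  congr 1
  exact Equiv.prod_comp (Fintype.equivFin ι).symm (fun x => P x π)

open Classical in
/-- C2 for any family of distinct points: the product runs over the points of centre `Q`. -/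
theorem s27pdv_value_ite (Q : Place K F)
    (hres : Function.Surjective (algebraMap K Q.ResidueField)) (π : F) (hπ : Q.ord π = 1)
    (W : ValuationSubring 𝔏) (hKW : ∀ a : K, algebraMap K 𝔏 a ∈ W)
    {ι : Type*} [Fintype ι] (R : ι → F →ₐ[K] 𝔏) (hinj : Function.Injective R)
    {J : Type*} [Fintype J] (b : J → F) (hb : ∀ j, b j ∈ Q.toValuationSubring) (c : J → K)
    (hc : ∀ j, Q.toValuationSubring.valuation (b j - algebraMap K F (c j)) < 1)
    (h : J → 𝔏) (hh : ∀ j, h j ∈ W)
    (hvan : ∀ x, S27ptIsCentre W (R x) Q → ∑ j, h j * R x (b j) = 0) :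
    ∃ r ∈ W, ∑ j, h j * algebraMap K 𝔏 (c j) =
      r * ∏ x, if S27ptIsCentre W (R x) Q then R x π else 1 := by
  obtain ⟨r, hr, e⟩ := s27pdv_value_fintype Q hres π hπ W hKW
    (ι := {x : ι // S27ptIsCentre W (R x) Q}) (fun x => R x.1) (fun x => x.2)
    (fun x y hxy => Subtype.ext (hinj hxy)) b hb c hc h hh (fun x => hvan x.1 x.2)
  refine ⟨r, hr, ?_⟩
  rw [e]
  congr 1
  rw [← Finset.prod_filter]
  exact (Finset.prod_subtype (Finset.univ.filter fun x => S27ptIsCentre W (R x) Q)
    (by simp) (fun x => R x π)).symm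

/-- C2 with helper4's `γ`. -/
theorem s27pdv_value_gamma (Q : Place K F)
    (hres : Function.Surjective (algebraMap K Q.ResidueField)) (π : F) (hπ : Q.ord π = 1)
    (W : ValuationSubring 𝔏) (hKW : ∀ a : K, algebraMap K 𝔏 a ∈ W)
    {n : ℕ} (R : Fin n → F →ₐ[K] 𝔏) (hinj : Function.Injective R)
    {J : Type*} [Fintype J] (b : J → F) (hb : ∀ j, b j ∈ Q.toValuationSubring) (c : J → K)
    (hc : ∀ j, Q.toValuationSubring.valuation (b j - algebraMap K F (c j)) < 1)
    (h : J → 𝔏) (hh : ∀ j, h j ∈ W)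
    (hvan : ∀ i, S27ptIsCentre W (R i) Q → ∑ j, h j * R i (b j) = 0) :
    ∃ r ∈ W, ∑ j, h j * algebraMap K 𝔏 (c j) = r * s27pdsGamma W R Q π :=
  s27pdv_value_ite Q hres π hπ W hKW R hinj b hb c hc h hh hvan

/-- **C2 of the POLE-DIV plan**: two families `R` (`D_gen`) and `R'` (`D′`) of points, pairwise
distinct and disjoint; a `W`-integral section vanishing at the points of centre `Q` of both has
value at `Q` in `W · γ(R) · γ(R')`. -/
theorem s27pdv_value_gamma2 (Q : Place K F)
    (hres : Function.Surjective (algebraMap K Q.ResidueField)) (π : F) (hπ : Q.ord π = 1)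
    (W : ValuationSubring 𝔏) (hKW : ∀ a : K, algebraMap K 𝔏 a ∈ W)
    {n n' : ℕ} (R : Fin n → F →ₐ[K] 𝔏) (R' : Fin n' → F →ₐ[K] 𝔏)
    (hinj : Function.Injective R) (hinj' : Function.Injective R') (hdisj : ∀ i j, R i ≠ R' j)
    {J : Type*} [Fintype J] (b : J → F) (hb : ∀ j, b j ∈ Q.toValuationSubring) (c : J → K)
    (hc : ∀ j, Q.toValuationSubring.valuation (b j - algebraMap K F (c j)) < 1)
    (h : J → 𝔏) (hh : ∀ j, h j ∈ W)
    (hvan : ∀ i, S27ptIsCentre W (R i) Q → ∑ j, h j * R i (b j) = 0)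
    (hvan' : ∀ i, S27ptIsCentre W (R' i) Q → ∑ j, h j * R' i (b j) = 0) :
    ∃ r ∈ W, ∑ j, h j * algebraMap K 𝔏 (c j) =
      r * (s27pdsGamma W R Q π * s27pdsGamma W R' Q π) := by
  classical
  have hinjS : Function.Injective (Sum.elim R R') := by
    rintro (i | i) (j | j) hij
    · exact congrArg Sum.inl (hinj hij)
    · exact absurd hij (hdisj i j)
    · exact absurd hij.symm (hdisj j i)
    · exact congrArg Sum.inr (hinj' hij)
  obtain ⟨r, hr, e⟩ := s27pdv_value_ite Q hres π hπ W hKW (Sum.elim R R') hinjS b hb c hc h hh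
    (by
      rintro (i | i) hx
      · exact hvan i hx
      · exact hvan' i hx)
  refine ⟨r, hr, ?_⟩
  rw [e, Fintype.prod_sum_type]
  rfl

end

end Fermat.Agent.S27

end
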