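/-
S27-B, piece **PRE-FINAL** (helper41, integration guard): the frozen S27 in positive genus from
(LE-TOP) ALONE.  (CONST) = `s27cst_exists` (Consts.lean), (CP-TOP) = `s27cptd_main` (helper45),
(GROW) = `s27grc_grow` (GrowClosed.lean) are wired in at the constants of S27/Consts.lean.

* `s27pre_grow`   : `S27ftGrow` at the constants `hc : S27cstIsConst x G₀ O` (third input of
                    helper11's `S27fcst2Inputs`, literally);
* `s27pre_inputs` : `S27fcst2Inputs hc` from (LE-TOP) at `hc`;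
* **`s27pre_stmt`**   : (LE-TOP at every admissible `(x, G₀, O″)`) ⇒ `s27ft2_Stmt`;
* **`s27pre_result`** : (LE-TOP) ⇒ `s27_Stmt` (the frozen S27).
-/
import Fermat.Agent.S27.FitConst2
import Fermat.Agent.S27.GrowClosed
import Fermat.Agent.S27.CpTopD

set_option autoImplicit false
set_option linter.unusedVariables false
set_option linter.unusedSectionVars false
set_option linter.style.haveILetI false

noncomputable section

namespace Fermat.Agent.S27

open AlgebraicCurve Module TensorProduct IntermediateField Fermat.Agent.S26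

universe u v

section PreFinal

variable {K : Type u} {F : Type v} [Field K] [Field F] [Algebra K F] [IsAlgClosed K] [CharZero K]
  [IsCurveOver K F] [Algebra.EssFiniteType K F]

/-- `G₀ + Ao = 2 G₀ − O″`. -/
theorem s27pre_A_eq (G₀ : Divisor K F) (O : Place K F) :
    G₀ + s27cstAo G₀ O = 2 • G₀ - Finsupp.single O 1 := by
  unfold s27cstAo
  rw [two_nsmul, add_sub_assoc]

/-- **(GROW) at the constants.** -/
theorem s27pre_grow {x : F} {G₀ : Divisor K F} {O : Place K F} (hc : S27cstIsConst x G₀ O)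
    (hg : 0 < genusFF K F)
    (q : ℤ → Fin (genusFF K F) → F →ₐ[K] s27mtL K F)
    (hq : S27pfFam (@s27ftPkg K F _ _ _ _ _ _ _ x hc.trans hc.fin hc.sep G₀ hc.deg) q) :
    @S27ftGrow K F _ _ _ _ _ _ _ x hc.trans hc.fin hc.sep G₀ hc.deg
      (G₀ + s27cstAo G₀ O) q hq := by
  haveI := hc.fin
  haveI := hc.sep
  have hpos : 0 < Module.finrank K ↥(riemannRochSpace (G₀ + s27cstAo G₀ O)) := by
    rw [hc.l_A]; exact hg
  haveI : Module.Finite K ↥(riemannRochSpace (G₀ + s27cstAo G₀ O)) :=
    Module.finite_of_finrank_pos hpos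
  exact s27grc_grow hc.trans G₀ hc.deg hg O hc.nonneg hc.off (G₀ + s27cstAo G₀ O)
    (s27pre_A_eq G₀ O) (Module.finBasisOfFinrankEq K _ hc.l_A) q hq

/-- the three inputs at the constants, from (LE-TOP). -/
theorem s27pre_inputs {x : F} {G₀ : Divisor K F} {O : Place K F} (hc : S27cstIsConst x G₀ O)
    (hg : 0 < genusFF K F)
    (hLE : @S27ftLE K F _ _ _ _ x hc.trans hc.fin hc.sep (s27cstAo G₀ O)) :
    S27fcst2Inputs hc := by
  haveI := hc.fin
  haveI := hc.sep
  exact ⟨hLE, s27cptd_main hc.trans G₀ hc.deg hg hc, fun q hq => s27pre_grow hc hg q hq⟩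

end PreFinal

/-- **PRE-FINAL**: (LE-TOP) at every admissible `(x, G₀, O″)` ⇒ `s27ft2_Stmt`. -/
theorem s27pre_stmt
    (hLE : ∀ (K : Type u) (F : Type v) [Field K] [Field F] [Algebra K F] [IsAlgClosed K]
      [CharZero K] [IsCurveOver K F] [Algebra.EssFiniteType K F], 0 < genusFF K F →
      ∀ (x : F) (G₀ : Divisor K F) (O : Place K F) (hc : S27cstIsConst x G₀ O),
        @S27ftLE K F _ _ _ _ x hc.trans hc.fin hc.sep (s27cstAo G₀ O)) :
    s27ft2_Stmt.{u, v} :=
  s27fcst2_of_forall fun K F _ _ _ _ _ _ _ hg x G₀ O hc =>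
    s27pre_inputs hc hg (hLE K F hg x G₀ O hc)

/-- **PRE-FINAL**: (LE-TOP) ⇒ the frozen S27. -/
theorem s27pre_result
    (hLE : ∀ (K : Type u) (F : Type v) [Field K] [Field F] [Algebra K F] [IsAlgClosed K]
      [CharZero K] [IsCurveOver K F] [Algebra.EssFiniteType K F], 0 < genusFF K F →
      ∀ (x : F) (G₀ : Divisor K F) (O : Place K F) (hc : S27cstIsConst x G₀ O),
        @S27ftLE K F _ _ _ _ x hc.trans hc.fin hc.sep (s27cstAo G₀ O)) :
    s27_Stmt.{u, v} :=
  s27ft2_result (s27pre_stmt hLE)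

end Fermat.Agent.S27

end
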