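/-
S27 route B, piece PSI-CLOSED (helper15): THE FAMILY `ψ : ℤ → (𝔉 →ₐ[K] 𝔉)` (`ψ k = [k]^*`) ON THE
MODEL, unconditional, and its CONTRACT `S27IsPsiFam` for the assemblers (captain's MODEL-TOP rule).

Setting = the variables of S27/DegClosed.lean (helper18): `K` algebraically closed of characteristic
`0`, `F / K` a curve, `g = genusFF K F`, `𝔉 = s27gfSym K F g ⊆ Ω = s27gfOm K F g ⊆ L`
(`L` an algebraic closure of `Ω`), `FL = Frac (F ⊗[K] L)` (`hld`, `hgen`), `x ∈ F` transcendental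
with `F / K(x)` finite separable, `G₀` a divisor of degree `g` of `F / K` (the origin);
`pkg = s27dclPkg hld hgen hx G₀ hG₀`, `p = s27pfTaut`, `cl = s27pfCl pkg`.

* `S27IsPsiFam hld hgen hx G₀ hG₀ ψ` : for every `k ≠ 0` there is a generic point datum `q` of
  class `k • cl p` with `ψ k = s27psi q`;
* `s27pcl_exists`  : `∃ ψ, S27IsPsiFam … ψ`   (DOM: helper86's `s27dom_pkgOZ`);
* `s27pcl_spec`    : `algebraMap Ω L (ψ k s) = s27psiT q he s`  ("`ψ k s = s(q)`");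
* `s27pcl_one`     : `ψ 1 = id`;
* `s27pcl_comp`    : `ψ k ∘ ψ m = ψ (k m)`;  `s27pcl_comp1`, `s27pcl_compm` (= `comp₁`, `comp₋` of
  `s27geo_Stmt`);
* `s27pcl_isDeg`   : `S27IsDeg K (ψ n) #Pic0(F)[n]`  (= `s27dcl_isDeg`, helper18).
-/
import Fermat.Agent.S27.PsiFam
import Fermat.Agent.S27.DegClosed
import Fermat.Agent.S27.DomZ

set_option autoImplicit false
set_option linter.unusedVariables false
set_option linter.unusedSectionVars false
set_option linter.style.haveILetI false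

noncomputable section

namespace Fermat.Agent.S27

open AlgebraicCurve Module TensorProduct IntermediateField Fermat.Agent.S26

universe u v y

section Closed

variable {K : Type u} {F : Type v} [Field K] [IsAlgClosed K] [CharZero K] [Field F] [Algebra K F]
  [IsCurveOver K F] [Algebra.EssFiniteType K F]
  {L : Type (max u v)} [Field L] [Algebra K L]
  [Algebra (s27gfOm K F (genusFF K F)) L] [IsScalarTower K (s27gfOm K F (genusFF K F)) L]
  [IsAlgClosed L] [Algebra.IsAlgebraic (s27gfOm K F (genusFF K F)) L]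
  {FL : Type y} [Field FL] [Algebra K FL] [Algebra F FL] [Algebra L FL]
  [IsScalarTower K F FL] [IsScalarTower K L FL]
  (hld : Function.Injective (s26gspMu K F L FL)) (hgen : S26gspGen K F L FL)
  {x : F} (hx : Transcendental K x)
  [FiniteDimensional ↥(IntermediateField.adjoin K {x}) F]
  [Algebra.IsSeparable ↥(IntermediateField.adjoin K {x}) F]

/-- `L / 𝔉` is Galois (instance for this file) -/
theorem s27pcl_isGalois : IsGalois (s27gfSym K F (genusFF K F)) L :=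
  s27psi_isGalois

include hx in
/-- the tautological points are generic -/
theorem s27pcl_taut_generic :
    S27dgGeneric K x (s27pfTaut (K := K) (F := F) (g := genusFF K F) (L := L)) := by
  have h := s27dgc_generic (s27dclFld (K := K) (F := F) (L := L) hx) (AlgEquiv.refl : L ≃ₐ[K] L)
  exact h

/-- **THE CONTRACT**: `ψ k` is the endomorphism of a generic point datum of class `k • cl p`. -/
def S27IsPsiFam (G₀ : Divisor K F) (hG₀ : Divisor.degree G₀ = (genusFF K F : ℤ))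
    (ψ : ℤ → (s27gfSym K F (genusFF K F) →ₐ[K] s27gfSym K F (genusFF K F))) : Prop :=
  ∀ k : ℤ, k ≠ 0 → ∃ (q : Fin (genusFF K F) → F →ₐ[K] L) (hqpt : S27PsiPt q),
    S27dgGeneric K x q ∧
    s27pfCl (s27dclPkg hld hgen hx G₀ hG₀) q =
      k • s27pfCl (s27dclPkg hld hgen hx G₀ hG₀)
        (s27pfTaut (K := K) (F := F) (g := genusFF K F) (L := L)) ∧
    ψ k = @s27psi K F _ _ _ _ (genusFF K F) L _ _ _ _ s27pcl_isGalois q hqpt

variable (G₀ : Divisor K F) (hG₀ : Divisor.degree G₀ = (genusFF K F : ℤ))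

/-- DOM on the model: the family of generic tuples exists -/
theorem s27pcl_fam_exists :
    ∃ q : ℤ → Fin (genusFF K F) → F →ₐ[K] L, S27pfFam (s27dclPkg hld hgen hx G₀ hG₀) q := by
  have h : ∀ k : ℤ, ∃ q : Fin (genusFF K F) → F →ₐ[K] L, k ≠ 0 → S27dgGeneric K x q ∧
      s27pfCl (s27dclPkg hld hgen hx G₀ hG₀) q =
        k • s27pfCl (s27dclPkg hld hgen hx G₀ hG₀)
          (s27pfTaut (K := K) (F := F) (g := genusFF K F) (L := L)) := by
    intro k
    by_cases hk : k = 0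
    · exact ⟨s27pfTaut, fun h => absurd hk h⟩
    obtain ⟨q, hq, hcl⟩ := s27dom_pkgOZ (A := s27dwAct hld hgen) hld hgen hx G₀ hG₀
      (s27dcl_hns hld hgen hx) (s27pfTaut (K := K) (F := F) (g := genusFF K F) (L := L))
      (s27pcl_taut_generic hx) k hk
    exact ⟨q, fun _ => ⟨hq, hcl.symm⟩⟩
  choose q hq using h
  exact ⟨q, fun k hk => hq k hk⟩

/-- **existence of the family `ψ`** -/
theorem s27pcl_exists :
    ∃ ψ : ℤ → (s27gfSym K F (genusFF K F) →ₐ[K] s27gfSym K F (genusFF K F)),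
      S27IsPsiFam hld hgen hx G₀ hG₀ ψ := by
  haveI : IsGalois (s27gfSym K F (genusFF K F)) L := s27pcl_isGalois
  obtain ⟨q, hq⟩ := s27pcl_fam_exists (L := L) hld hgen hx G₀ hG₀
  refine ⟨s27pfPsi (s27dclPkg hld hgen hx G₀ hG₀) (s27dcl_halg (x := x)) hq, ?_⟩
  intro k hk
  exact ⟨q k, s27pf_fam_pt _ (s27dcl_halg (x := x)) hq k hk, (hq k hk).1, (hq k hk).2,
    s27pfPsi_of_ne _ (s27dcl_halg (x := x)) hq k hk⟩

variable {hld hgen hx G₀ hG₀}
variable {ψ : ℤ → (s27gfSym K F (genusFF K F) →ₐ[K] s27gfSym K F (genusFF K F))}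

/-- a family with the contract is the `s27pfPsi` of a family of generic tuples -/
theorem s27pcl_fam (h : S27IsPsiFam hld hgen hx G₀ hG₀ ψ) :
    ∃ (q : ℤ → Fin (genusFF K F) → F →ₐ[K] L)
      (hq : S27pfFam (s27dclPkg hld hgen hx G₀ hG₀) q), ∀ k : ℤ, k ≠ 0 →
        ψ k = @s27pfPsi K F _ _ _ _ (genusFF K F) L _ _ _ _ x _ _ _
          (s27dclPkg hld hgen hx G₀ hG₀) s27pcl_isGalois (s27dcl_halg (x := x)) q hq k := by
  haveI : IsGalois (s27gfSym K F (genusFF K F)) L := s27pcl_isGalois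
  have h' : ∀ k : ℤ, ∃ q : Fin (genusFF K F) → F →ₐ[K] L, k ≠ 0 → ∃ hqpt : S27PsiPt q,
      S27dgGeneric K x q ∧
      s27pfCl (s27dclPkg hld hgen hx G₀ hG₀) q =
        k • s27pfCl (s27dclPkg hld hgen hx G₀ hG₀)
          (s27pfTaut (K := K) (F := F) (g := genusFF K F) (L := L)) ∧
      ψ k = s27psi q hqpt := by
    intro k
    by_cases hk : k = 0
    · exact ⟨s27pfTaut, fun h => absurd hk h⟩
    obtain ⟨q, hqpt, h1, h2, h3⟩ := h k hk
    exact ⟨q, fun _ => ⟨hqpt, h1, h2, h3⟩⟩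
  choose q hq using h'
  have hfam : S27pfFam (s27dclPkg hld hgen hx G₀ hG₀) q := fun k hk => by
    obtain ⟨_, h1, h2, _⟩ := hq k hk
    exact ⟨h1, h2⟩
  refine ⟨q, hfam, fun k hk => ?_⟩
  obtain ⟨hqpt, _, _, h3⟩ := hq k hk
  rw [h3, s27pfPsi_of_ne _ (s27dcl_halg (x := x)) hfam k hk]

/-- **the spec**: `ψ k s = s(q)` -/
theorem s27pcl_spec (h : S27IsPsiFam hld hgen hx G₀ hG₀ ψ) (k : ℤ) (hk : k ≠ 0) :
    ∃ q : Fin (genusFF K F) → F →ₐ[K] L, S27dgGeneric K x q ∧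
      s27pfCl (s27dclPkg hld hgen hx G₀ hG₀) q =
        k • s27pfCl (s27dclPkg hld hgen hx G₀ hG₀)
          (s27pfTaut (K := K) (F := F) (g := genusFF K F) (L := L)) ∧
      ∃ he : Function.Injective (s27gfLiftR q), ∀ s : s27gfSym K F (genusFF K F),
        algebraMap (s27gfOm K F (genusFF K F)) L
            ((ψ k s : s27gfSym K F (genusFF K F)) : s27gfOm K F (genusFF K F)) =
          s27psiT q he (s : s27gfOm K F (genusFF K F)) := by
  haveI : IsGalois (s27gfSym K F (genusFF K F)) L := s27pcl_isGalois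
  obtain ⟨q, hqpt, h1, h2, h3⟩ := h k hk
  refine ⟨q, h1, h2, hqpt.inj, fun s => ?_⟩
  rw [h3]
  exact s27psi_spec_om q hqpt s

/-- `ψ 1 = id` -/
theorem s27pcl_one (h : S27IsPsiFam hld hgen hx G₀ hG₀ ψ) (s : s27gfSym K F (genusFF K F)) :
    ψ 1 s = s := by
  haveI : IsGalois (s27gfSym K F (genusFF K F)) L := s27pcl_isGalois
  obtain ⟨q, hq, hψ⟩ := s27pcl_fam h
  rw [hψ 1 one_ne_zero, s27pfPsi_one]
  rfl

/-- **`ψ k ∘ ψ m = ψ (k m)`** -/
theorem s27pcl_comp (h : S27IsPsiFam hld hgen hx G₀ hG₀ ψ) (k m : ℤ) (hk : k ≠ 0) (hm : m ≠ 0)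
    (s : s27gfSym K F (genusFF K F)) : ψ k (ψ m s) = ψ (k * m) s := by
  haveI : IsGalois (s27gfSym K F (genusFF K F)) L := s27pcl_isGalois
  obtain ⟨q, hq, hψ⟩ := s27pcl_fam h
  rw [hψ k hk, hψ m hm, hψ (k * m) (mul_ne_zero hk hm)]
  exact congrArg (fun c => c s) (s27pfPsi_comp (s27dclPkg hld hgen hx G₀ hG₀)
    (s27dcl_halg (x := x))
    (fun σ => s27dgx_X1 (s27dclFld (K := K) (F := F) (L := L) hx) (s27dcl_halg (x := x)) σ)
    hq k m hk hm)

/-- `comp₁` of `s27geo_Stmt` -/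
theorem s27pcl_comp1 (h : S27IsPsiFam hld hgen hx G₀ hG₀ ψ) (n : ℕ)
    (s : s27gfSym K F (genusFF K F)) : ψ n (ψ 1 s) = ψ n s := by
  rw [s27pcl_one h]

/-- `comp₋` of `s27geo_Stmt` -/
theorem s27pcl_compm (h : S27IsPsiFam hld hgen hx G₀ hG₀ ψ) (n : ℕ) (hn : 0 < n)
    (s : s27gfSym K F (genusFF K F)) : ψ n (ψ (-1) s) = ψ (-(n : ℤ)) s := by
  have hn0 : (n : ℤ) ≠ 0 := by exact_mod_cast hn.ne'
  rw [s27pcl_comp h n (-1) hn0 (by norm_num)]
  congr 2
  ring

/-- **DEG** for the family (= `s27dcl_isDeg`, helper18) -/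
theorem s27pcl_isDeg (h : S27IsPsiFam hld hgen hx G₀ hG₀ ψ) (n : ℕ) (hn : 0 < n) :
    S27IsDeg K (ψ n) (Nat.card (Pic0.torsion K F n)) := by
  haveI : IsGalois (s27gfSym K F (genusFF K F)) L := s27pcl_isGalois
  have hn0 : (n : ℤ) ≠ 0 := by exact_mod_cast hn.ne'
  obtain ⟨q, hqpt, h1, h2, h3⟩ := h n hn0
  rw [h3]
  exact (s27dcl_isDeg hld hgen hx G₀ hG₀ n q h1 hqpt h2.symm).1

end Closed

end Fermat.Agent.S27
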