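/-
S27 route B, leaf ψ-COMP (helper39), CONCRETE part: on helper15's `S27/Psi.lean`
(`Ω = s27gfOm K F g`, `𝔉 = s27gfSym K F g`, `ψ = s27psi e he`) and helper18's abstract package
`S27DegPkg` (`S27/DegAbs.lean`: `pt`, `cl`, `actP`, `actC`, `ns`).

* `s27pcTaut`            : the tautological point `x = (ι_0, …, ι_{g-1})` with values in `L ⊇ Ω`;
  `s27pc_tautPt : S27PsiPt x`,  `s27pc_psi_taut : s27psi x _ = id`;
* `s27pc_psiPt_of_range` : a generic point whose evaluation maps `𝔉` into `𝔉` is a point datum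
                           (converse of GEN-EMB);
* `s27pc_compPt`, `s27pc_comp` : for point data `e, e'` and `τ : L → L` extending `ψ̃_e`:
  the transported point `τ ∘ e'` is a point datum and `ψ_e ∘ ψ_{e'} = ψ_{τ ∘ e'}`;
* `s27pc_exists_tau`     : such a `τ` exists (`L` algebraically closed, algebraic over `Ω`);
* `s27pc_psiPt_of_class` : a generic point `e` (with `inj`) whose class is a multiple of
                           `η = cl x` is a point datum (`stable` from `ns`);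
* `s27pc_comp_of_classes`: `cl e = a·η`, `cl e' = b·η`, `cl e'' = (a b)·η`, `e''` generic,
                           `τ ∈ Aut(L / K)` extending `ψ̃_e`  ⇒  `ψ_e ∘ ψ_{e'} = ψ_{e''}`;
* `s27pc_theta_comp`     : `comp_one` and `comp_neg` of `S27IsTheta` for `ψ k := s27psi (e k) _`.
-/
import Fermat.Agent.S27.Psi
import Fermat.Agent.S27.PsiComp
import Fermat.Agent.S27.DegAbs

set_option autoImplicit false
set_option linter.unusedSectionVars false
set_option linter.unusedVariables false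
set_option linter.style.haveILetI false

noncomputable section

namespace Fermat.Agent.S27

universe u v w x y

section Taut

variable {K : Type u} {F : Type v} [Field K] [IsAlgClosed K] [Field F] [Algebra K F] {g : ℕ}
variable {L : Type w} [Field L] [Algebra K L] [Algebra (s27gfOm K F g) L]
  [IsScalarTower K (s27gfOm K F g) L]

variable (K F g L) in
/-- the tautological point `x = (ι_0, …, ι_{g-1})` with values in `L ⊇ Ω`. -/
def s27pcTaut : Fin g → F →ₐ[K] L := fun i =>
  (IsScalarTower.toAlgHom K (s27gfOm K F g) L).comp (s27gfIota i)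

theorem s27pcTaut_apply (i : Fin g) (f : F) :
    s27pcTaut K F g L i f = algebraMap (s27gfOm K F g) L (s27gfIota i f) := rfl

theorem s27pc_taut_inj : Function.Injective (s27gfLiftR (s27pcTaut K F g L)) :=
  s27psi_inj_of_hom (IsScalarTower.toAlgHom K (s27gfOm K F g) L)

theorem s27pc_psiT_taut (x : s27gfOm K F g) :
    s27psiT (s27pcTaut K F g L) s27pc_taut_inj x = algebraMap (s27gfOm K F g) L x := by
  have h := s27psiT_of_hom (IsScalarTower.toAlgHom K (s27gfOm K F g) L)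
  exact congrArg (fun c => c x) h

theorem s27pc_hfixed (y : s27gfOm K F g) (hy : ∀ π : Equiv.Perm (Fin g), π • y = y) :
    y ∈ Set.range (algebraMap (s27gfSym K F g) (s27gfOm K F g)) :=
  ⟨⟨y, s27gf_mem_sym_iff_smul.2 hy⟩, rfl⟩

/-- **converse of GEN-EMB on the model**: a generic point whose evaluation maps `𝔉` into `𝔉`
is a point datum. -/
theorem s27pc_psiPt_of_range (e : Fin g → F →ₐ[K] L) (he : Function.Injective (s27gfLiftR e))
    (hrange : ∀ s : s27gfSym K F g,
      s27psiEv e he s ∈ Set.range (algebraMap (s27gfSym K F g) L)) : S27PsiPt e where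
  inj := he
  stable := fun σ => by
    obtain ⟨π, hπ⟩ := s27pc_stable_of_range (K := K) (𝔉 := s27gfSym K F g)
      (Ω := s27gfOm K F g) (L := L) (G := Equiv.Perm (Fin g)) s27pc_hfixed (s27psiT e he)
      hrange σ
    refine ⟨π, fun i f => ?_⟩
    have h := hπ (s27gfIota i f)
    rw [s27gf_hact, s27psiT_iota, s27psiT_iota] at h
    exact h

/-- the tautological point is a point datum. -/
theorem s27pc_tautPt : S27PsiPt (s27pcTaut K F g L) :=
  s27pc_psiPt_of_range _ s27pc_taut_inj fun s => ⟨s, by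
    rw [s27psiEv_apply, s27pc_psiT_taut]
    rfl⟩

variable [IsGalois (s27gfSym K F g) L]

/-- `ψ = id` for the tautological point. -/
theorem s27pc_psi_taut :
    s27psi (s27pcTaut K F g L) s27pc_tautPt = AlgHom.id K (s27gfSym K F g) := by
  symm
  apply s27psi_unique
  intro s
  rw [s27psiEv_apply, s27pc_psiT_taut]
  rfl

/-- the key computation: `τ (ψ̃_{e'} s) = ψ_e (ψ_{e'} s)` for `s ∈ 𝔉`. -/
theorem s27pc_tau_ev {e e' : Fin g → F →ₐ[K] L} (he : S27PsiPt e) (he' : S27PsiPt e')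
    (τ : L →ₐ[K] L)
    (hτ : ∀ x : s27gfOm K F g, τ (algebraMap (s27gfOm K F g) L x) = s27psiT e he.inj x)
    (s : s27gfSym K F g) :
    s27psiEv (fun i => τ.comp (e' i)) (s27psi_inj_comp τ e' he'.inj) s =
      algebraMap (s27gfSym K F g) L (s27psi e he (s27psi e' he' s)) := by
  rw [s27psiEv_comp τ e' he'.inj, AlgHom.comp_apply, ← s27psi_spec' e' he' s,
    IsScalarTower.algebraMap_apply (s27gfSym K F g) (s27gfOm K F g) L, hτ, ← s27psi_spec e he]

/-- the transported point `τ ∘ e'` is a point datum. -/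
theorem s27pc_compPt {e e' : Fin g → F →ₐ[K] L} (he : S27PsiPt e) (he' : S27PsiPt e')
    (τ : L →ₐ[K] L)
    (hτ : ∀ x : s27gfOm K F g, τ (algebraMap (s27gfOm K F g) L x) = s27psiT e he.inj x) :
    S27PsiPt (fun i => τ.comp (e' i)) :=
  s27pc_psiPt_of_range _ (s27psi_inj_comp τ e' he'.inj) fun s =>
    ⟨s27psi e he (s27psi e' he' s), (s27pc_tau_ev he he' τ hτ s).symm⟩

/-- **composition**: `ψ_e ∘ ψ_{e'} = ψ_{τ ∘ e'}`, `τ` an extension of `ψ̃_e` to `L`. -/
theorem s27pc_comp {e e' : Fin g → F →ₐ[K] L} (he : S27PsiPt e) (he' : S27PsiPt e')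
    (τ : L →ₐ[K] L)
    (hτ : ∀ x : s27gfOm K F g, τ (algebraMap (s27gfOm K F g) L x) = s27psiT e he.inj x) :
    (s27psi e he).comp (s27psi e' he') =
      s27psi (fun i => τ.comp (e' i)) (s27pc_compPt he he' τ hτ) := by
  apply s27psi_unique
  intro s
  rw [s27pc_tau_ev he he' τ hτ s]
  rfl

/-- an extension `τ` of `ψ̃_e` exists. -/
theorem s27pc_exists_tau [IsAlgClosed L] [Algebra.IsAlgebraic (s27gfOm K F g) L]
    {e : Fin g → F →ₐ[K] L} (he : S27PsiPt e) :
    ∃ τ : L →ₐ[K] L, ∀ x : s27gfOm K F g,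
      τ (algebraMap (s27gfOm K F g) L x) = s27psiT e he.inj x :=
  s27pc_exists_lift (s27psiT e he.inj)

/-- `comp_one` of the theta frame when `ψ 1` is the `ψ` of the tautological point. -/
theorem s27pc_comp_taut {e : Fin g → F →ₐ[K] L} (he : S27PsiPt e) :
    (s27psi e he).comp (s27psi (s27pcTaut K F g L) s27pc_tautPt) = s27psi e he := by
  rw [s27pc_psi_taut, AlgHom.comp_id]

end Taut

section Pkg

variable {K : Type u} {F : Type v} [Field K] [IsAlgClosed K] [Field F] [Algebra K F] {g : ℕ}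
variable {L : Type w} [Field L] [Algebra K L] [Algebra (s27gfOm K F g) L]
  [IsScalarTower K (s27gfOm K F g) L]
variable {t : F} {Pl : Type x} {P : Type y} [AddCommGroup P] (pkg : S27DegPkg K F L t g Pl P)

/-- the class of the point `e`. -/
def s27pcCl (e : Fin g → F →ₐ[K] L) : P := pkg.cl (fun i => pkg.pt (e i))

theorem s27pc_actC_cl (h : L ≃ₐ[K] L) (e : Fin g → F →ₐ[K] L) :
    pkg.actC h (s27pcCl pkg e) = s27pcCl pkg (fun i => (h : L →ₐ[K] L).comp (e i)) := by
  unfold s27pcCl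
  rw [pkg.actC_cl]
  congr 1
  funext i
  exact pkg.actP_pt h (e i)

theorem s27pcCl_perm (e : Fin g → F →ₐ[K] L) (π : Equiv.Perm (Fin g)) :
    s27pcCl pkg (fun i => e (π i)) = s27pcCl pkg e :=
  pkg.cl_perm (fun i => pkg.pt (e i)) π

/-- `Gal(L / 𝔉)` fixes the class `η` of the tautological point. -/
theorem s27pc_actC_eta (σ : L ≃ₐ[s27gfSym K F g] L) :
    pkg.actC (σ.restrictScalars K) (s27pcCl pkg (s27pcTaut K F g L)) =
      s27pcCl pkg (s27pcTaut K F g L) := by
  obtain ⟨π₀, hπ₀⟩ := (s27pc_tautPt (K := K) (F := F) (g := g) (L := L)).stable σ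
  have h1 : (fun i => ((σ.restrictScalars K : L ≃ₐ[K] L) : L →ₐ[K] L).comp
      (s27pcTaut K F g L i)) = fun i => s27pcTaut K F g L (π₀ i) := by
    funext i
    apply AlgHom.ext
    intro f
    exact hπ₀ i f
  rw [s27pc_actC_cl, h1, s27pcCl_perm]

/-- a generic point (with `inj`) whose class is a multiple of `η` is a point datum. -/
theorem s27pc_psiPt_of_class (e : Fin g → F →ₐ[K] L) (hinj : Function.Injective (s27gfLiftR e))
    (hgen : S27dgGeneric K t e) (k : ℤ)
    (hcl : s27pcCl pkg e = k • s27pcCl pkg (s27pcTaut K F g L)) : S27PsiPt e where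
  inj := hinj
  stable := fun σ => by
    have h3 : s27pcCl pkg (fun i => ((σ.restrictScalars K : L ≃ₐ[K] L) : L →ₐ[K] L).comp (e i)) =
        s27pcCl pkg e := by
      rw [← s27pc_actC_cl, hcl, map_zsmul, s27pc_actC_eta]
    obtain ⟨π, hπ⟩ := pkg.ns e hgen _ h3
    refine ⟨π, fun i f => ?_⟩
    have h4 := pkg.pt_inj (congrFun hπ i)
    exact congrArg (fun c : F →ₐ[K] L => c f) h4

variable [IsGalois (s27gfSym K F g) L]

/-- **ψ-COMP from the classes**: if `cl e = a·η`, `cl e' = b·η`, `cl e'' = (a b)·η` with `e''`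
generic, and `τ ∈ Aut(L / K)` extends `ψ̃_e`, then `ψ_e ∘ ψ_{e'} = ψ_{e''}`. -/
theorem s27pc_comp_of_classes {e e' e'' : Fin g → F →ₐ[K] L} (he : S27PsiPt e)
    (he' : S27PsiPt e') (he'' : S27PsiPt e'') (a b : ℤ)
    (hcl : s27pcCl pkg e = a • s27pcCl pkg (s27pcTaut K F g L))
    (hcl' : s27pcCl pkg e' = b • s27pcCl pkg (s27pcTaut K F g L))
    (hcl'' : s27pcCl pkg e'' = (a * b) • s27pcCl pkg (s27pcTaut K F g L))
    (hgen : S27dgGeneric K t e'') (τ : L ≃ₐ[K] L)
    (hτ : ∀ x : s27gfOm K F g, τ (algebraMap (s27gfOm K F g) L x) = s27psiT e he.inj x) :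
    (s27psi e he).comp (s27psi e' he') = s27psi e'' he'' := by
  have h1 : (fun i => (τ : L →ₐ[K] L).comp (s27pcTaut K F g L i)) = e := by
    funext i
    apply AlgHom.ext
    intro f
    show τ (algebraMap (s27gfOm K F g) L (s27gfIota i f)) = e i f
    rw [hτ, s27psiT_iota]
  have h2 : pkg.actC τ (s27pcCl pkg (s27pcTaut K F g L)) =
      a • s27pcCl pkg (s27pcTaut K F g L) := by
    rw [s27pc_actC_cl, h1, hcl]
  have h3 : s27pcCl pkg (fun i => (τ : L →ₐ[K] L).comp (e' i)) = s27pcCl pkg e'' := by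
    rw [← s27pc_actC_cl, hcl', map_zsmul, h2, hcl'', smul_smul, mul_comm]
  obtain ⟨π, hπ⟩ := pkg.ns e'' hgen (fun i => pkg.pt ((τ : L →ₐ[K] L).comp (e' i))) h3
  have h4 : ∀ i, (τ : L →ₐ[K] L).comp (e' i) = e'' (π i) := fun i =>
    pkg.pt_inj (congrFun hπ i)
  have hτ' : ∀ x : s27gfOm K F g,
      (τ : L →ₐ[K] L) (algebraMap (s27gfOm K F g) L x) = s27psiT e he.inj x := hτ
  rw [s27pc_comp he he' (τ : L →ₐ[K] L) hτ']
  exact s27psi_perm e'' _ he'' _ π h4

/-- **`comp_one` and `comp_neg` of `S27IsTheta`** for `ψ k := s27psi (e k) _`, `e k` a generic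
point datum of class `k·η` (`k ≠ 0`). -/
theorem s27pc_theta_comp (e : ℤ → Fin g → F →ₐ[K] L) (he : ∀ k : ℤ, S27PsiPt (e k))
    (hgen : ∀ k : ℤ, k ≠ 0 → S27dgGeneric K t (e k))
    (hcl : ∀ k : ℤ, k ≠ 0 → s27pcCl pkg (e k) = k • s27pcCl pkg (s27pcTaut K F g L))
    (n : ℕ) (hn : 0 < n) (τ : L ≃ₐ[K] L)
    (hτ : ∀ x : s27gfOm K F g,
      τ (algebraMap (s27gfOm K F g) L x) = s27psiT (e (n : ℤ)) (he (n : ℤ)).inj x) :
    (s27psi (e (n : ℤ)) (he (n : ℤ))).comp (s27psi (e 1) (he 1)) =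
        s27psi (e (n : ℤ)) (he (n : ℤ)) ∧
      (s27psi (e (n : ℤ)) (he (n : ℤ))).comp (s27psi (e (-1)) (he (-1))) =
        s27psi (e (-(n : ℤ))) (he (-(n : ℤ))) := by
  have hn0 : (n : ℤ) ≠ 0 := by exact_mod_cast hn.ne'
  have hnn : -(n : ℤ) ≠ 0 := neg_ne_zero.2 hn0
  refine ⟨?_, ?_⟩
  · exact s27pc_comp_of_classes pkg (he n) (he 1) (he n) (n : ℤ) 1 (hcl n hn0)
      (hcl 1 one_ne_zero) (by rw [mul_one]; exact hcl n hn0) (hgen n hn0) τ hτ
  · exact s27pc_comp_of_classes pkg (he n) (he (-1)) (he (-(n : ℤ))) (n : ℤ) (-1) (hcl n hn0)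
      (hcl (-1) (by norm_num)) (by rw [mul_neg_one]; exact hcl _ hnn) (hgen _ hnn) τ hτ

end Pkg

end Fermat.Agent.S27

end
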