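/-
S27-B, piece RR0-GLOB (helper51): **Weil's Riemann–Roch, first half, for the prelude's `genusFF`**.

`A = repartitions K F`, `A(D) = repartitionsOf D`, `H1 D = A ⧸ (A(D) ⊔ F)`,
`genusFF K F = dim_K H1 0`.  Inputs (explicit hypotheses, in the owners' shapes):

* `S27rrLoc K F`      (RR0-LOC, helper24): `dim A(D')/A(D) = deg D' − deg D` for `D ≤ D'`,
                      with `A(D')/A(D)` realised as the image of `A(D')` in `A ⧸ A(D)`;
* `S27rrExistsLe K F` (RR0-LOC, helper24): every repartition lies in some `A(D)`;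
* `S26errfGenus K F γ` (S26/ERRF.lean, helper42): Riemann's inequality with least constant `γ`.

Results:

* `s27rr_la`       : the linear algebra behind the exact sequence
                     `0 → L(D) → L(D') → A(D')/A(D) → H1 D → H1 D' → 0`;
* `s27rr_step`     : `dim (A(D') + F)/(A(D) + F) = (deg D' − deg D) − (l(D') − l(D))`;
* `s27rr_top`      : `A(A₀) + F = A` if Riemann's inequality is an equality at `A₀`;
* `s27rr_h1`       : `H1 D` is finite-dimensional and `l(D) − dim H1 D = deg D + 1 − γ`;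
* `s27rr_genusFF`  : `(genusFF K F : ℤ) = γ`;
* `s27rr_main`     : the package with `genusFF`;
* `s27rr_exists_of_genus_zero` : `genusFF = 0`, `deg D = 0` ⇒ `L(D) ≠ 0` (input `hR` of G0).
-/
import Fermat.Agent.S26.ERRF
import Fermat.Prelude.Def_AlgebraicCurve_Repartitions

set_option autoImplicit false
set_option linter.style.haveILetI false

open AlgebraicCurve Module

namespace Fermat.Agent.S27

/-! ### Abstract linear algebra -/

section LA

variable {K V W : Type*} [Field K] [AddCommGroup V] [Module K V] [AddCommGroup W] [Module K W]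

/-- The linear algebra behind `0 → L(D) → L(D') → A(D')/A(D) → H1 D → H1 D' → 0`:
for `U ≤ U'` in `V` and `ι : W → V`, the image `N` of `U'` in `V ⧸ (U ⊔ range ι)` satisfies
`dim N + dim ι⁻¹ U' = dim U'/U + dim ι⁻¹ U` (`U'/U` = the image of `U'` in `V ⧸ U`). -/
theorem s27rr_la (ι : W →ₗ[K] V) (U U' : Submodule K V) (hU : U ≤ U')
    (hQ : Module.Finite K ↥(Submodule.map U.mkQ U')) (hL : Module.Finite K ↥(U'.comap ι)) :
    Module.Finite K ↥(Submodule.map (U ⊔ LinearMap.range ι).mkQ U') ∧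
    finrank K ↥(Submodule.map (U ⊔ LinearMap.range ι).mkQ U') + finrank K ↥(U'.comap ι)
      = finrank K ↥(Submodule.map U.mkQ U') + finrank K ↥(U.comap ι) := by
  set T : Submodule K V := U ⊔ LinearMap.range ι with hT
  set Q : Submodule K (V ⧸ U) := Submodule.map U.mkQ U' with hQdef
  have hUT : U ≤ LinearMap.ker T.mkQ := by
    rw [Submodule.ker_mkQ]; exact le_sup_left
  set fac : (V ⧸ U) →ₗ[K] V ⧸ T := U.liftQ T.mkQ hUT with hfac
  have hfac_mk : ∀ a : V, fac (U.mkQ a) = T.mkQ a := fun a => rfl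
  set qb : ↥Q →ₗ[K] V ⧸ T := fac ∘ₗ Q.subtype with hqb
  have hrange : LinearMap.range qb = Submodule.map T.mkQ U' := by
    rw [hqb, LinearMap.range_comp, Submodule.range_subtype, hQdef, ← Submodule.map_comp]
    congr 1
  -- the map `ι⁻¹ U' → U'/U`
  set j : ↥(U'.comap ι) →ₗ[K] ↥Q :=
    ((U.mkQ ∘ₗ ι).domRestrict (U'.comap ι)).codRestrict Q
      (fun f => Submodule.mem_map_of_mem (f := U.mkQ) f.2) with hj
  have hj_apply : ∀ f : ↥(U'.comap ι), ((j f : ↥Q) : V ⧸ U) = U.mkQ (ι (f : W)) := fun f => rfl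
  have hkerj : LinearMap.ker j = (U.comap ι).comap (U'.comap ι).subtype := by
    ext f
    rw [LinearMap.mem_ker, Submodule.mem_comap, Submodule.mem_comap, Submodule.subtype_apply,
      ← Submodule.coe_eq_zero, hj_apply, Submodule.mkQ_apply, Submodule.Quotient.mk_eq_zero]
  have hrangej : LinearMap.range j = LinearMap.ker qb := by
    ext x
    constructor
    · rintro ⟨f, rfl⟩
      rw [LinearMap.mem_ker, hqb, LinearMap.comp_apply, Submodule.subtype_apply, hj_apply,
        hfac_mk, Submodule.mkQ_apply, Submodule.Quotient.mk_eq_zero]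
      exact le_sup_right (a := U) (b := LinearMap.range ι) (LinearMap.mem_range_self ι _)
    · intro hx
      obtain ⟨x, hxQ⟩ := x
      obtain ⟨a, ha, rfl⟩ := hxQ
      rw [LinearMap.mem_ker, hqb, LinearMap.comp_apply, Submodule.subtype_apply, hfac_mk,
        Submodule.mkQ_apply, Submodule.Quotient.mk_eq_zero, hT, Submodule.mem_sup] at hx
      obtain ⟨u, hu, y, ⟨f, rfl⟩, huy⟩ := hx
      have hf : f ∈ U'.comap ι := by
        rw [Submodule.mem_comap]
        have : ι f = a - u := by rw [← huy]; abel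
        rw [this]
        exact U'.sub_mem ha (hU hu)
      refine ⟨⟨f, hf⟩, ?_⟩
      apply Subtype.ext
      rw [hj_apply]
      show U.mkQ (ι f) = U.mkQ a
      rw [Submodule.mkQ_apply, Submodule.mkQ_apply, Submodule.Quotient.eq]
      have : ι f - a = -u := by rw [← huy]; abel
      rw [this]
      exact U.neg_mem hu
  have e1 := LinearMap.finrank_range_add_finrank_ker qb
  have e2 := LinearMap.finrank_range_add_finrank_ker j
  have e3 : finrank K ↥(LinearMap.ker j) = finrank K ↥(U.comap ι) := by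
    rw [hkerj]
    exact (Submodule.comapSubtypeEquivOfLe
      (Submodule.comap_mono (f := ι) hU)).finrank_eq
  refine ⟨?_, ?_⟩
  · rw [← hrange]
    exact LinearMap.finiteDimensional_range qb
  · rw [← hrange]
    rw [hrangej] at e2
    omega

end LA

/-! ### The repartition side -/

section Rep

variable {K : Type*} {F : Type*} [Field K] [Field F] [Algebra K F]

/-- the constant embedding `F → A`, `K`-linear -/
noncomputable def s27rrConst (K F : Type*) [Field K] [Field F] [Algebra K F] :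
    F →ₗ[K] ↥(repartitions K F) :=
  (Algebra.linearMap F ↥(repartitions K F)).restrictScalars K

theorem s27rrConst_apply (f : F) (v : Place K F) :
    ((s27rrConst K F f : ↥(repartitions K F)) : Place K F → F) v = f := rfl

theorem s27rr_range_const :
    LinearMap.range (s27rrConst K F) = principalRepartitions K F := by
  ext α
  rw [mem_principalRepartitions_iff, LinearMap.mem_range]
  constructor
  · rintro ⟨f, rfl⟩
    exact ⟨f, rfl⟩
  · rintro ⟨f, hf⟩
    exact ⟨f, Subtype.ext hf.symm⟩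

theorem s27rr_comap_const (D : Divisor K F) :
    (repartitionsOf D).comap (s27rrConst K F) = riemannRochSpace D := by
  ext f
  rfl

/-- `A(D')/A(D)`: the image of `A(D')` in `A ⧸ A(D)`. -/
noncomputable def s27rrQ (D D' : Divisor K F) :
    Submodule K (↥(repartitions K F) ⧸ repartitionsOf D) :=
  Submodule.map (repartitionsOf D).mkQ (repartitionsOf D')

/-- **RR0-LOC** (helper24): the local count `dim A(D')/A(D) = deg D' − deg D`. -/
def S27rrLoc (K F : Type*) [Field K] [Field F] [Algebra K F] : Prop :=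
  ∀ D D' : Divisor K F, D ≤ D' →
    Module.Finite K ↥(s27rrQ D D') ∧
    (Module.finrank K ↥(s27rrQ D D') : ℤ) = Divisor.degree D' - Divisor.degree D

/-- **RR0-LOC** (helper24): every repartition lies in some `A(D)`. -/
def S27rrExistsLe (K F : Type*) [Field K] [Field F] [Algebra K F] : Prop :=
  ∀ α : ↥(repartitions K F), ∃ D : Divisor K F, α ∈ repartitionsOf D

/-- the image of `A(D')` in `H1 D`: the kernel of `H1 D → H1 D'` -/
noncomputable def s27rrN (D D' : Divisor K F) : Submodule K (H1 D) :=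
  Submodule.map (repartitionsOf D ⊔ principalRepartitions K F).mkQ (repartitionsOf D')

/-- **(i)** `dim (A(D') + F)/(A(D) + F) = (deg D' − deg D) − (l(D') − l(D))`. -/
theorem s27rr_step (hloc : S27rrLoc K F)
    (hfin : ∀ D : Divisor K F, Module.Finite K ↥(riemannRochSpace D))
    {D D' : Divisor K F} (h : D ≤ D') :
    Module.Finite K ↥(s27rrN D D') ∧
    (finrank K ↥(s27rrN D D') : ℤ) =
      (Divisor.degree D' - Divisor.degree D) -
        ((finrank K ↥(riemannRochSpace D') : ℤ) - finrank K ↥(riemannRochSpace D)) := by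
  obtain ⟨hQ, hQr⟩ := hloc D D' h
  have hL : Module.Finite K ↥((repartitionsOf D').comap (s27rrConst K F)) := by
    rw [s27rr_comap_const]; exact hfin D'
  obtain ⟨h1, h2⟩ := s27rr_la (s27rrConst K F) (repartitionsOf D) (repartitionsOf D')
    (repartitionsOf_mono h) hQ hL
  rw [s27rr_range_const, s27rr_comap_const, s27rr_comap_const] at h2
  rw [s27rr_range_const] at h1
  refine ⟨h1, ?_⟩
  have h3 : (finrank K ↥(s27rrN D D') : ℤ) + finrank K ↥(riemannRochSpace D') =
      (finrank K ↥(s27rrQ D D') : ℤ) + finrank K ↥(riemannRochSpace D) := by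
    exact_mod_cast h2
  rw [hQr] at h3
  linarith

/-- **(ii)** if Riemann's inequality (constant `γ`) is an equality at `A₀`, then
`A(A₀) + F = A`, i.e. `H1 A₀ = 0`. -/
theorem s27rr_top (hloc : S27rrLoc K F) (hle : S27rrExistsLe K F)
    (hfin : ∀ D : Divisor K F, Module.Finite K ↥(riemannRochSpace D)) {γ : ℤ}
    (hR : ∀ A : Divisor K F, Divisor.degree A + 1 - γ ≤ (finrank K ↥(riemannRochSpace A) : ℤ))
    {A₀ : Divisor K F}
    (hA₀ : (finrank K ↥(riemannRochSpace A₀) : ℤ) = Divisor.degree A₀ + 1 - γ) :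
    repartitionsOf A₀ ⊔ principalRepartitions K F = ⊤ := by
  rw [eq_top_iff]
  intro α _
  obtain ⟨D'', hD''⟩ := hle α
  have h1 : A₀ ≤ A₀ ⊔ D'' := le_sup_left
  have h2 : D'' ≤ A₀ ⊔ D'' := le_sup_right
  obtain ⟨hf, hr⟩ := s27rr_step hloc hfin h1
  have hzero : finrank K ↥(s27rrN A₀ (A₀ ⊔ D'')) = 0 := by
    have h3 := hR (A₀ ⊔ D'')
    have h4 : (0 : ℤ) ≤ (finrank K ↥(s27rrN A₀ (A₀ ⊔ D'')) : ℤ) := Nat.cast_nonneg _
    have h5 : (finrank K ↥(s27rrN A₀ (A₀ ⊔ D'')) : ℤ) ≤ 0 := by
      rw [hr, hA₀]; linarith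
    exact_mod_cast le_antisymm h5 h4
  have hbot : s27rrN A₀ (A₀ ⊔ D'') = ⊥ := by
    haveI := hf
    exact Submodule.finrank_eq_zero.mp hzero
  have hmem : (repartitionsOf A₀ ⊔ principalRepartitions K F).mkQ α ∈ s27rrN A₀ (A₀ ⊔ D'') :=
    Submodule.mem_map_of_mem (repartitionsOf_mono h2 hD'')
  rw [hbot, Submodule.mem_bot, Submodule.mkQ_apply, Submodule.Quotient.mk_eq_zero] at hmem
  exact hmem

/-- **(iii)** `H1 D` is finite-dimensional and `l(D) − dim H1 D = deg D + 1 − γ`. -/
theorem s27rr_h1 (hloc : S27rrLoc K F) (hle : S27rrExistsLe K F)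
    (hfin : ∀ D : Divisor K F, Module.Finite K ↥(riemannRochSpace D)) {γ : ℤ}
    (hγ : Fermat.Agent.S26.S26errfGenus K F γ) (D : Divisor K F) :
    Module.Finite K (H1 D) ∧
    (finrank K ↥(riemannRochSpace D) : ℤ) - finrank K (H1 D) = Divisor.degree D + 1 - γ := by
  obtain ⟨-, hR, A₀, hA₀⟩ := hγ
  have htop := s27rr_top hloc hle hfin hR hA₀
  have hN : s27rrN D (D ⊔ A₀) = ⊤ := by
    rw [eq_top_iff]
    intro x _
    obtain ⟨α, rfl⟩ := Submodule.mkQ_surjective _ x
    have hα : α ∈ repartitionsOf A₀ ⊔ principalRepartitions K F := by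
      rw [htop]; exact Submodule.mem_top
    obtain ⟨u, hu, p, hp, rfl⟩ := Submodule.mem_sup.mp hα
    refine ⟨u, repartitionsOf_mono (le_sup_right : A₀ ≤ D ⊔ A₀) hu, ?_⟩
    rw [Submodule.mkQ_apply, Submodule.mkQ_apply, Submodule.Quotient.eq]
    have : u - (u + p) = -p := by abel
    rw [this]
    exact Submodule.neg_mem _ (le_sup_right (a := repartitionsOf D) hp)
  obtain ⟨hf, hr⟩ := s27rr_step hloc hfin (le_sup_left : D ≤ D ⊔ A₀)
  obtain ⟨-, hr'⟩ := s27rr_step hloc hfin (le_sup_right : A₀ ≤ D ⊔ A₀)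
  have hD' : (finrank K ↥(riemannRochSpace (D ⊔ A₀)) : ℤ) = Divisor.degree (D ⊔ A₀) + 1 - γ := by
    have h3 := hR (D ⊔ A₀)
    have h4 : (0 : ℤ) ≤ (finrank K ↥(s27rrN A₀ (D ⊔ A₀)) : ℤ) := Nat.cast_nonneg _
    rw [hr', hA₀] at h4
    linarith
  have hfinH : Module.Finite K (H1 D) := by
    haveI := hf
    have e : ↥(s27rrN D (D ⊔ A₀)) ≃ₗ[K] H1 D := by
      rw [hN]; exact Submodule.topEquiv
    exact Module.Finite.equiv e
  have hrank : finrank K (H1 D) = finrank K ↥(s27rrN D (D ⊔ A₀)) := by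
    rw [hN, finrank_top]
  refine ⟨hfinH, ?_⟩
  rw [hrank, hr, hD']
  ring

/-- `(genusFF K F : ℤ) = γ`. -/
theorem s27rr_genusFF (hloc : S27rrLoc K F) (hle : S27rrExistsLe K F)
    (hfin : ∀ D : Divisor K F, Module.Finite K ↥(riemannRochSpace D))
    (h0 : finrank K ↥(riemannRochSpace (0 : Divisor K F)) = 1) {γ : ℤ}
    (hγ : Fermat.Agent.S26.S26errfGenus K F γ) :
    (genusFF K F : ℤ) = γ := by
  obtain ⟨-, h⟩ := s27rr_h1 hloc hle hfin hγ 0
  rw [h0, map_zero] at h
  have : (genusFF K F : ℤ) = (finrank K (H1 (0 : Divisor K F)) : ℤ) := rfl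
  rw [this]
  push_cast at h
  linarith

/-- **RR0, the package with `genusFF`**: `genusFF` is the genus of (RR-F), `H1 D` is
finite-dimensional, and `l(D) − dim H1 D = deg D + 1 − genusFF`. -/
theorem s27rr_main (hloc : S27rrLoc K F) (hle : S27rrExistsLe K F)
    (hfin : ∀ D : Divisor K F, Module.Finite K ↥(riemannRochSpace D))
    (h0 : finrank K ↥(riemannRochSpace (0 : Divisor K F)) = 1) {γ : ℤ}
    (hγ : Fermat.Agent.S26.S26errfGenus K F γ) :
    (genusFF K F : ℤ) = γ ∧ Fermat.Agent.S26.S26errfGenus K F (genusFF K F) ∧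
    ∀ D : Divisor K F, Module.Finite K (H1 D) ∧
      (finrank K ↥(riemannRochSpace D) : ℤ) - finrank K (H1 D)
        = Divisor.degree D + 1 - genusFF K F := by
  have hg := s27rr_genusFF hloc hle hfin h0 hγ
  refine ⟨hg, by rw [hg]; exact hγ, fun D => ?_⟩
  rw [hg]
  exact s27rr_h1 hloc hle hfin hγ D

/-- Riemann's inequality with `genusFF`. -/
theorem s27rr_riemann (hloc : S27rrLoc K F) (hle : S27rrExistsLe K F)
    (hfin : ∀ D : Divisor K F, Module.Finite K ↥(riemannRochSpace D))
    (h0 : finrank K ↥(riemannRochSpace (0 : Divisor K F)) = 1) {γ : ℤ}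
    (hγ : Fermat.Agent.S26.S26errfGenus K F γ) (D : Divisor K F) :
    Divisor.degree D + 1 - genusFF K F ≤ (finrank K ↥(riemannRochSpace D) : ℤ) :=
  (s27rr_main hloc hle hfin h0 hγ).2.1.2.1 D

/-- the input `hR` of G0 (helper45): if `genusFF K F = 0`, every divisor of degree `0` is
principal up to sign: `L(D) ≠ 0`. -/
theorem s27rr_exists_of_genus_zero (hloc : S27rrLoc K F) (hle : S27rrExistsLe K F)
    (hfin : ∀ D : Divisor K F, Module.Finite K ↥(riemannRochSpace D))
    (h0 : finrank K ↥(riemannRochSpace (0 : Divisor K F)) = 1) {γ : ℤ}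
    (hγ : Fermat.Agent.S26.S26errfGenus K F γ) (hg : genusFF K F = 0) :
    ∀ D : Divisor K F, Divisor.degree D = 0 → ∃ f : F, f ≠ 0 ∧ f ∈ riemannRochSpace D := by
  intro D hD
  have h := s27rr_riemann hloc hle hfin h0 hγ D
  rw [hD, hg] at h
  have hpos : 0 < finrank K ↥(riemannRochSpace D) := by
    have : (1 : ℤ) ≤ (finrank K ↥(riemannRochSpace D) : ℤ) := by simpa using h
    exact_mod_cast this
  haveI := hfin D
  have hne : riemannRochSpace D ≠ ⊥ := by
    intro hb
    rw [hb, finrank_bot] at hpos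
    exact lt_irrefl _ hpos
  obtain ⟨f, hf, hf0⟩ := Submodule.exists_mem_ne_zero_of_ne_bot hne
  exact ⟨f, hf0, hf⟩

end Rep

end Fermat.Agent.S27
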