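/-
S27 route B, LE-TOP row 7 (helper12): **`hval`** of helper27's `s27le5_asm_scale`
(S27/LE5Scale.lean) by the SHORT route  RED-PT (S27/RedPt.lean) + LB3 (helper33, S27/LeUnit.lean):

  `h ≠ 0` a function of `F_L` whose zeros and poles are point places `pt (E i)`, `pt (E' i)` or
  constant places `Con Q₀`, `Q₀ ∈ T`;  `Q l` places of `F / K` which are NOT the centre of any
  `E i`, `E' i` along `W` and NOT in `T`.  Then for every Gauss normalisation `c · h`:
  the value of `c · h` at `Con (Q l)` exists and is a UNIT of `W`.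

* `s27rpv_hno`        : the hypothesis `hno` of LB3 at `Con Q` (abstract frame `S26erigRed`);
* `s27rpv_hval`       : `hval`, abstract frame (any `R`, `r` with `S26erigRed R r con conk ιk`);
* `s27rpv_exists_r`   : THE reduction of places of helper21's `s27giRd K F W hKW` on the captain's
                        stage `F_L = s27stgFL K F L`, `L` ALGEBRAICALLY CLOSED (`s27rpt_main`);
* **`s27rpv_hval_stage`** : `hval` LITERAL at `Rd = s27giRd K F W hKW`,
                        `𝒪 l = (Con (Q l)).toValuationSubring`, `Con = s26gspCon (s27stg_hld K F L)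
                        (s27stg_hgen K F L) hall`.
-/
import Fermat.Agent.S27.RedPt
import Fermat.Agent.S27.LeUnit
import Fermat.Agent.S27.LeLead
import Fermat.Agent.S27.LEGaussR
import Fermat.Agent.S27.GaussInst
import Fermat.Agent.RED.ResField

set_option autoImplicit false
set_option linter.unusedSectionVars false
set_option linter.unusedVariables false
set_option linter.style.haveILetI false

noncomputable section

namespace Fermat.Agent.S27

open AlgebraicCurve Module IntermediateField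
open Fermat.Agent.S24 Fermat.Agent.S26 Fermat.Agent.DEU

/-! ### The abstract frame -/

section Abs

variable {K Γ L F k Fb : Type*} [Field K] [Field Γ] [Field L] [Field F] [Field k] [Field Fb]
  [Algebra K Γ] [Algebra K L] [Algebra K F] [Algebra Γ F] [Algebra L F]
  [IsScalarTower K Γ F] [IsScalarTower K L F]
  [Algebra K k] [Algebra K Fb] [Algebra Γ Fb] [Algebra k Fb]
  [IsScalarTower K Γ Fb] [IsScalarTower K k Fb]
  {R : RedData L F k Fb} {r : Place L F → Place k Fb}
  {con : Place K Γ → Place L F} {conk : Place K Γ → Place k Fb} {ιk : Γ →+* Fb}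

/-- **`hno` at a constant place**: no zero and no pole of `h` reduces to `r (con Q)`. -/
theorem s27rpv_hno (hred : S26erigRed R r con conk ιk)
    (hpole : ∀ Q : Place K Γ, ∃ u : Γ, Q.ord u < 0 ∧ ∀ v : Place K Γ, v ≠ Q → 0 ≤ v.ord u)
    (x : Γ) (hx : Transcendental K x) [FiniteDimensional K⟮x⟯ Γ]
    (hKW : ∀ c : K, algebraMap K L c ∈ R.A)
    {ι ι' : Type*} (E : ι → Γ →ₐ[K] L) (E' : ι' → Γ →ₐ[K] L) (T : Set (Place K Γ)) (h : F)
    (hsupp : ∀ P : Place L F, P.ord h ≠ 0 →
      (∃ i, S27ptIsPt P (E i)) ∨ (∃ i, S27ptIsPt P (E' i)) ∨ ∃ Q₀ ∈ T, P = con Q₀)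
    (Q : Place K Γ) (hQE : ∀ i, ¬ S27ptIsCentre R.A (E i) Q)
    (hQE' : ∀ i, ¬ S27ptIsCentre R.A (E' i) Q) (hQT : Q ∉ T) :
    ∀ P' : Place L F, P'.ord h ≠ 0 → r P' ≠ r (con Q) := by
  intro P' hP'
  rw [hred.r_con]
  rcases hsupp P' hP' with ⟨i, hi⟩ | ⟨i, hi⟩ | ⟨Q₀, hQ₀, rfl⟩
  · exact s27rpt_ne_con hred hpole x hx hKW hi (hQE i)
  · exact s27rpt_ne_con hred hpole x hx hKW hi (hQE' i)
  · rw [hred.r_con]
    intro heq
    exact hQT (hred.conk_inj heq ▸ hQ₀)

/-- **`hval`, abstract frame**: the value of every Gauss normalisation of `h` at the constant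
places `con (Q l)` is a unit of `W = R.A`. -/
theorem s27rpv_hval (hred : S26erigRed R r con conk ιk)
    (hpole : ∀ Q : Place K Γ, ∃ u : Γ, Q.ord u < 0 ∧ ∀ v : Place K Γ, v ≠ Q → 0 ≤ v.ord u)
    (x : Γ) (hx : Transcendental K x) [FiniteDimensional K⟮x⟯ Γ]
    (hKW : ∀ c : K, algebraMap K L c ∈ R.A)
    (hresCon : ∀ Q : Place K Γ, Function.Surjective (algebraMap L (con Q).ResidueField))
    {ι ι' : Type*} (E : ι → Γ →ₐ[K] L) (E' : ι' → Γ →ₐ[K] L) (T : Set (Place K Γ)) (h : F)
    (hh0 : h ≠ 0)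
    (hsupp : ∀ P : Place L F, P.ord h ≠ 0 →
      (∃ i, S27ptIsPt P (E i)) ∨ (∃ i, S27ptIsPt P (E' i)) ∨ ∃ Q₀ ∈ T, P = con Q₀)
    {κ : Type*} (Q : κ → Place K Γ) (hQE : ∀ l i, ¬ S27ptIsCentre R.A (E i) (Q l))
    (hQE' : ∀ l i, ¬ S27ptIsCentre R.A (E' i) (Q l)) (hQT : ∀ l, Q l ∉ T) :
    ∀ c : L, c ≠ 0 → S27legrNorm R (algebraMap L F c * h) →
      ∀ l, ∃ a : L, S27llVal (con (Q l)).toValuationSubring (algebraMap L F c * h) a ∧
        a ∈ R.A ∧ a⁻¹ ∈ R.A ∧ a ≠ 0 := by
  intro c hc0 hnorm l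
  obtain ⟨hmem, hrednz⟩ := hnorm
  have hcF : algebraMap L F c ≠ 0 := (map_ne_zero _).2 hc0
  have hord : ∀ P' : Place L F, P'.ord (algebraMap L F c * h) = P'.ord h := by
    intro P'
    rw [Place.ord_mul P' hcF hh0, PlaceAux.ord_algebraMap P' c, zero_add]
  have hno : ∀ P' : Place L F,
      P'.ord ((⟨algebraMap L F c * h, hmem⟩ : R.O) : F) ≠ 0 → r P' ≠ r (con (Q l)) := by
    intro P' hP'
    refine s27rpv_hno hred hpole x hx hKW E E' T h hsupp (Q l) (hQE l) (hQE' l) (hQT l) P' ?_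
    rwa [← hord P']
  obtain ⟨a, ha, -, ha0, hinv, haA, -, -⟩ :=
    s27lb3_unit hred.r_principal hred.hpdF ⟨algebraMap L F c * h, hmem⟩ hrednz (con (Q l))
      (hresCon (Q l)) hno
  exact ⟨a, ha, haA, hinv, ha0⟩

end Abs

/-! ### The captain's stage, `L` algebraically closed -/

section Stage

universe u v w

variable (K : Type u) (F : Type v) {L : Type w} [Field K] [Field F] [Field L] [Algebra K F]
  [Algebra K L] [IsAlgClosed K] [IsAlgClosed L]

/-- the residue field of a valuation subring of `L` is algebraically closed -/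
theorem s27rpv_isAlgClosed (W : ValuationSubring L) (hKW : ∀ c : K, algebraMap K L c ∈ W) :
    IsAlgClosed (s27giRes K W hKW) :=
  Fermat.Agent.RED.isAlgClosed_residueField W

/-- **THE reduction of places of `s27giRd K F W hKW`** (stage, `L` algebraically closed), with
its values on the constant places and on the point places. -/
theorem s27rpv_exists_r {x : F} (hx : Transcendental K x) [FiniteDimensional K⟮x⟯ F]
    (hall : ∀ P : Place K F, Function.Surjective (algebraMap K P.ResidueField))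
    (W : ValuationSubring L) (hKW : ∀ c : K, algebraMap K L c ∈ W) :
    ∃ r : Place L (s27stgFL K F L) →
        Place (s27giRes K W hKW) (s27stgFL K F (s27giRes K W hKW)),
      S26erigRed (s27giRd K F W hKW) r (s26gspCon (s27stg_hld K F L) (s27stg_hgen K F L) hall)
        (s26gspCon (s27stg_hld K F (s27giRes K W hKW)) (s27stg_hgen K F (s27giRes K W hKW))
          hall) (algebraMap F (s27stgFL K F (s27giRes K W hKW))) ∧
      s26eredev_RDiv (s27giRd K F W hKW) r ∧
      HasPrincipalDivisors L (s27stgFL K F L) ∧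
      (∀ P, (r P).deg = P.deg) ∧
      (∀ Q : Place K F, r (s26gspCon (s27stg_hld K F L) (s27stg_hgen K F L) hall Q) =
        s26gspCon (s27stg_hld K F (s27giRes K W hKW)) (s27stg_hgen K F (s27giRes K W hKW))
          hall Q) ∧
      (∀ (w : Place L (s27stgFL K F L)) (e : F →ₐ[K] L) (Q : Place K F), S27ptIsPt w e →
        S27ptIsCentre W e Q →
        r w = s26gspCon (s27stg_hld K F (s27giRes K W hKW))
          (s27stg_hgen K F (s27giRes K W hKW)) hall Q) ∧
      (∀ (w : Place L (s27stgFL K F L)) (e : F →ₐ[K] L) (Q : Place K F), S27ptIsPt w e →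
        ¬ S27ptIsCentre W e Q →
        r w ≠ s26gspCon (s27stg_hld K F (s27giRes K W hKW))
          (s27stg_hgen K F (s27giRes K W hKW)) hall Q) := by
  haveI : IsAlgClosed (s27giRes K W hKW) := s27rpv_isAlgClosed K W hKW
  obtain ⟨r, h1, h2, h3, h4, h5, h6, -, h8⟩ :=
    s27rpt_main (s27stg_hld K F L) (s27stg_hgen K F L) (s27stg_hld K F (s27giRes K W hKW))
      (s27stg_hgen K F (s27giRes K W hKW)) hx hall W hKW (s27giResMap K W hKW)
      (s27giRes_algebraMap K W hKW) (s27giResMap_surjective K W hKW)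
  exact ⟨r, h1, h2, h3, h4, h5, h6, h8⟩

/-- **`hval` on the stage, LITERAL** (row 7 of the LE-TOP table), `L` algebraically closed. -/
theorem s27rpv_hval_stage {x : F} (hx : Transcendental K x) [FiniteDimensional K⟮x⟯ F]
    (hall : ∀ P : Place K F, Function.Surjective (algebraMap K P.ResidueField))
    (W : ValuationSubring L) (hKW : ∀ c : K, algebraMap K L c ∈ W)
    {ι ι' : Type*} (E : ι → F →ₐ[K] L) (E' : ι' → F →ₐ[K] L) (T : Set (Place K F))
    (h : s27stgFL K F L) (hh0 : h ≠ 0)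
    (hsupp : ∀ P : Place L (s27stgFL K F L), P.ord h ≠ 0 →
      (∃ i, S27ptIsPt P (E i)) ∨ (∃ i, S27ptIsPt P (E' i)) ∨
        ∃ Q₀ ∈ T, P = s26gspCon (s27stg_hld K F L) (s27stg_hgen K F L) hall Q₀)
    {κ : Type*} (Q : κ → Place K F) (hQE : ∀ l i, ¬ S27ptIsCentre W (E i) (Q l))
    (hQE' : ∀ l i, ¬ S27ptIsCentre W (E' i) (Q l)) (hQT : ∀ l, Q l ∉ T) :
    ∀ c : L, c ≠ 0 →
      S27legrNorm (s27giRd K F W hKW) (algebraMap L (s27stgFL K F L) c * h) →
      ∀ l, ∃ a : L,
        S27llVal (s26gspCon (s27stg_hld K F L) (s27stg_hgen K F L) hall (Q l)).toValuationSubring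
          (algebraMap L (s27stgFL K F L) c * h) a ∧ a ∈ W ∧ a⁻¹ ∈ W ∧ a ≠ 0 := by
  obtain ⟨r, hred, -⟩ := s27rpv_exists_r K F hx hall W hKW
  obtain ⟨γ, -, -, -, hpole⟩ := s26errg_main (K := K) x hx
  have halg : Algebra.IsAlgebraic K⟮x⟯ F := Algebra.IsAlgebraic.of_finite _ _
  exact s27rpv_hval hred hpole x hx hKW
    (fun Q₀ => (s26erh_hres (s27stg_hld K F L) (s27stg_hgen K F L) hx halg _).2)
    E E' T h hh0 hsupp Q hQE hQE' hQT

end Stage

end Fermat.Agent.S27

end
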