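/-
S27 route B, LE-TOP row 7, the BRIDGE shape (helper12): **`hval` of `s27le5_asm_scale` from the
SAME hypothesis `hdiv` as `s27brt_hlin12` / `s27brt_hlin21`** (helper24, S27/BridgeTop.lean):

  `hdiv : ∀ v, v.ord h = (Pts R' + Con (A₁ − A₂) − Pts R) v`.

* `s27rpb_pts_ne_zero` : `(Σ_i pt (R i)) v ≠ 0 ⇒ v` is the point place of some `R i`;
* `s27rpb_hsupp`       : the zeros and poles of `h` are point places of `R`, `R'` or constant places
                         `Con Q₀` with `M Q₀ ≠ 0`  (`hsupp` of `s27rpv_hval`);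
* **`s27rpb_hval`**    : `hval` LITERAL on the captain's stage (`Rd = s27giRd K F W hKW`,
                         `L` algebraically closed), for places `Q l` of `F / K` which are not a
                         centre of a point of `R`, `R'` along `W` and with `(A₁ − A₂) (Q l) = 0`.
-/
import Fermat.Agent.S27.RedPtVal
import Fermat.Agent.S27.Bridge

set_option autoImplicit false
set_option linter.unusedSectionVars false
set_option linter.unusedVariables false
set_option linter.style.haveILetI false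

noncomputable section

namespace Fermat.Agent.S27

open AlgebraicCurve Module IntermediateField
open Fermat.Agent.S24 Fermat.Agent.S26 Fermat.Agent.DEU

section Supp

variable {K 𝔠 𝔎 Ω : Type*} [Field K] [Field 𝔠] [Field 𝔎] [Field Ω]
  [Algebra K 𝔠] [Algebra K 𝔎] [Algebra K Ω] [Algebra 𝔠 Ω] [Algebra 𝔎 Ω]
  [IsScalarTower K 𝔠 Ω] [IsScalarTower K 𝔎 Ω]
  (hld : Function.Injective (s26gspMu K 𝔠 𝔎 Ω)) (hgen : S26gspGen K 𝔠 𝔎 Ω)
  (hall : ∀ P : Place K 𝔠, Function.Surjective (algebraMap K P.ResidueField))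
  {x : 𝔠} (hx : Transcendental K x)
  [FiniteDimensional ↥(IntermediateField.adjoin K {x}) 𝔠]
  [Algebra.IsSeparable ↥(IntermediateField.adjoin K {x}) 𝔠]

/-- a place in the support of `Σ_i pt (R i)` is the point place of some `R i`. -/
theorem s27rpb_pts_ne_zero {N : ℕ} (R : Fin N → 𝔠 →ₐ[K] 𝔎) (v : Place 𝔎 Ω)
    (hv : s27brgPts hld hgen hx R v ≠ 0) : ∃ i, S27ptIsPt v (R i) := by
  by_contra hne
  push Not at hne
  apply hv
  apply s27brg_pts_of_ne hld hgen hx R v
  intro i hi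
  apply hne i
  rw [← hi]
  exact s27pt_isPt_gpPlace hld hgen hx (R i)

/-- **the support of `div h`** in the Bridge frame. -/
theorem s27rpb_hsupp (M : Divisor K 𝔠) {N N' : ℕ} (R : Fin N → 𝔠 →ₐ[K] 𝔎)
    (R' : Fin N' → 𝔠 →ₐ[K] 𝔎) {h : Ω}
    (hdiv : ∀ v : Place 𝔎 Ω, v.ord h =
      (s27brgPts hld hgen hx R' + s27brgCon hld hgen hall M - s27brgPts hld hgen hx R) v) :
    ∀ P : Place 𝔎 Ω, P.ord h ≠ 0 →
      (∃ i, S27ptIsPt P (R i)) ∨ (∃ i, S27ptIsPt P (R' i)) ∨
        ∃ Q₀ ∈ {Q : Place K 𝔠 | M Q ≠ 0}, P = s26gspCon hld hgen hall Q₀ := by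
  intro P hP
  rw [hdiv P] at hP
  simp only [Finsupp.coe_sub, Finsupp.coe_add, Pi.sub_apply, Pi.add_apply] at hP
  by_cases h1 : s27brgPts hld hgen hx R P = 0
  · by_cases h2 : s27brgPts hld hgen hx R' P = 0
    · right
      right
      have h3 : s27brgCon hld hgen hall M P ≠ 0 := by
        intro h3
        apply hP
        rw [h1, h2, h3]
        ring
      obtain ⟨Q₀, hQ₀, rfl⟩ := s26erig_exists_of_mapDomain_ne_zero _ M P h3
      exact ⟨Q₀, Finsupp.mem_support_iff.1 hQ₀, rfl⟩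
    · right
      left
      exact s27rpb_pts_ne_zero hld hgen hx R' P h2
  · left
    exact s27rpb_pts_ne_zero hld hgen hx R P h1

end Supp

section Stage

universe u v w

variable (K : Type u) (F : Type v) {L : Type w} [Field K] [Field F] [Field L] [Algebra K F]
  [Algebra K L] [IsAlgClosed K] [IsAlgClosed L]

/-- **`hval` of `s27le5_asm_scale` on the stage, from `hdiv`** (the hypothesis of
`s27brt_hlin12` / `s27brt_hlin21`). -/
theorem s27rpb_hval {x : F} (hx : Transcendental K x)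
    [FiniteDimensional ↥(IntermediateField.adjoin K {x}) F]
    [Algebra.IsSeparable ↥(IntermediateField.adjoin K {x}) F]
    (hall : ∀ P : Place K F, Function.Surjective (algebraMap K P.ResidueField))
    (W : ValuationSubring L) (hKW : ∀ c : K, algebraMap K L c ∈ W)
    (A₁ A₂ : Divisor K F) {N N' : ℕ} (R : Fin N → F →ₐ[K] L) (R' : Fin N' → F →ₐ[K] L)
    {h : s27stgFL K F L} (hh0 : h ≠ 0)
    (hdiv : ∀ v : Place L (s27stgFL K F L), v.ord h =
      (s27brgPts (s27stg_hld K F L) (s27stg_hgen K F L) hx R' +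
        s27brgCon (s27stg_hld K F L) (s27stg_hgen K F L) hall (A₁ - A₂) -
        s27brgPts (s27stg_hld K F L) (s27stg_hgen K F L) hx R) v)
    {κ : Type*} (Q : κ → Place K F) (hQR : ∀ l i, ¬ S27ptIsCentre W (R i) (Q l))
    (hQR' : ∀ l i, ¬ S27ptIsCentre W (R' i) (Q l)) (hQA : ∀ l, (A₁ - A₂) (Q l) = 0) :
    ∀ c : L, c ≠ 0 →
      S27legrNorm (s27giRd K F W hKW) (algebraMap L (s27stgFL K F L) c * h) →
      ∀ l, ∃ a : L,
        S27llVal (s26gspCon (s27stg_hld K F L) (s27stg_hgen K F L) hall (Q l)).toValuationSubring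
          (algebraMap L (s27stgFL K F L) c * h) a ∧ a ∈ W ∧ a⁻¹ ∈ W ∧ a ≠ 0 :=
  s27rpv_hval_stage K F hx hall W hKW R R' {Q : Place K F | (A₁ - A₂) Q ≠ 0} h hh0
    (s27rpb_hsupp (s27stg_hld K F L) (s27stg_hgen K F L) hall hx (A₁ - A₂) R R' hdiv)
    Q hQR hQR' (fun l hl => hl (hQA l))

end Stage

end Fermat.Agent.S27

end
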