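/-
S27 route B, LE-TOP row 7 in THE generic frame of helper27's `s27le5_frame` (S27/LE5Frame.lean)
(helper12): **`hval` from `hdiv`**, for `Rd = s26eriData hld hgen hldk W hKW res hresK hres` and
`𝒪 l = (Con (Q l)).toValuationSubring`, `Con = s26gspCon hld hgen hall`.

`K`, `𝔎`, `k` algebraically closed (the residue field `k` of a valuation ring of an algebraically
closed field is algebraically closed: `Fermat.Agent.RED.isAlgClosed_residueField`).

* `s27rpf_exists_r` : the reduction of places of the frame (`s27rpt_main`, restated);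
* **`s27rpf_hval`** : `hval` of `s27le5_frame` / `s27le5_asm_scale`.
-/
import Fermat.Agent.S27.RedPtBrg

set_option autoImplicit false
set_option linter.unusedSectionVars false
set_option linter.unusedVariables false
set_option linter.style.haveILetI false

noncomputable section

namespace Fermat.Agent.S27

open AlgebraicCurve Module IntermediateField
open Fermat.Agent.S24 Fermat.Agent.S26 Fermat.Agent.DEU

variable {K 𝔠 𝔎 Ω k Fb : Type*} [Field K] [Field 𝔠] [Field 𝔎] [Field Ω] [Field k] [Field Fb]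
  [Algebra K 𝔠] [Algebra K 𝔎] [Algebra K Ω] [Algebra 𝔠 Ω] [Algebra 𝔎 Ω]
  [IsScalarTower K 𝔠 Ω] [IsScalarTower K 𝔎 Ω]
  [Algebra K k] [Algebra K Fb] [Algebra 𝔠 Fb] [Algebra k Fb]
  [IsScalarTower K 𝔠 Fb] [IsScalarTower K k Fb]

/-- **`hval` of `s27le5_frame`, from `hdiv`** (generic frame; `K`, `𝔎`, `k` algebraically
closed). -/
theorem s27rpf_hval [IsAlgClosed K] [IsAlgClosed 𝔎] [IsAlgClosed k]
    (hld : Function.Injective (s26gspMu K 𝔠 𝔎 Ω)) (hgen : S26gspGen K 𝔠 𝔎 Ω)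
    (hall : ∀ P : Place K 𝔠, Function.Surjective (algebraMap K P.ResidueField))
    {x : 𝔠} (hx : Transcendental K x)
    [FiniteDimensional ↥(IntermediateField.adjoin K {x}) 𝔠]
    [Algebra.IsSeparable ↥(IntermediateField.adjoin K {x}) 𝔠]
    (hldk : Function.Injective (s26gspMu K 𝔠 k Fb)) (hgenk : S26gspGen K 𝔠 k Fb)
    (W : ValuationSubring 𝔎) (hKW : ∀ c : K, algebraMap K 𝔎 c ∈ W) (res : ↥W →+* k)
    (hresK : ∀ c : K, res ⟨algebraMap K 𝔎 c, hKW c⟩ = algebraMap K k c)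
    (hres : Function.Surjective res)
    (A₁ A₂ : Divisor K 𝔠) {N N' : ℕ} (R : Fin N → 𝔠 →ₐ[K] 𝔎) (R' : Fin N' → 𝔠 →ₐ[K] 𝔎)
    {h : Ω} (hh0 : h ≠ 0)
    (hdiv : ∀ v : Place 𝔎 Ω, v.ord h =
      (s27brgPts hld hgen hx R' + s27brgCon hld hgen hall (A₁ - A₂)
        - s27brgPts hld hgen hx R) v)
    {κ : Type*} (Q : κ → Place K 𝔠) (hQR : ∀ l i, ¬ S27ptIsCentre W (R i) (Q l))
    (hQR' : ∀ l i, ¬ S27ptIsCentre W (R' i) (Q l)) (hQA : ∀ l, (A₁ - A₂) (Q l) = 0) :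
    ∀ c : 𝔎, c ≠ 0 →
      S27legrNorm (s26eriData hld hgen hldk W hKW res hresK hres) (algebraMap 𝔎 Ω c * h) →
      ∀ l, ∃ a : 𝔎,
        S27llVal (s26gspCon hld hgen hall (Q l)).toValuationSubring (algebraMap 𝔎 Ω c * h) a ∧
          a ∈ W ∧ a⁻¹ ∈ W ∧ a ≠ 0 := by
  obtain ⟨r, hred, -⟩ :=
    s27rpt_main hld hgen hldk hgenk hx hall W hKW res hresK hres
  obtain ⟨γ, -, -, -, hpole⟩ := s26errg_main (K := K) x hx
  have halg : Algebra.IsAlgebraic K⟮x⟯ 𝔠 := Algebra.IsAlgebraic.of_finite _ _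
  exact s27rpv_hval hred hpole x hx hKW
    (fun Q₀ => (s26erh_hres hld hgen hx halg _).2)
    R R' {Q : Place K 𝔠 | (A₁ - A₂) Q ≠ 0} h hh0
    (s27rpb_hsupp hld hgen hall hx (A₁ - A₂) R R' hdiv)
    Q hQR hQR' (fun l hl => hl (hQA l))

/-- the points of `G` in the shape `𝒪`, `hc` of `s27le5_frame`. -/
theorem s27rpf_hc (hld : Function.Injective (s26gspMu K 𝔠 𝔎 Ω)) (hgen : S26gspGen K 𝔠 𝔎 Ω)
    (hall : ∀ P : Place K 𝔠, Function.Surjective (algebraMap K P.ResidueField))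
    {κ : Type*} (Q : κ → Place K 𝔠) (l : κ) (c : 𝔎) :
    algebraMap 𝔎 Ω c ∈ (s26gspCon hld hgen hall (Q l)).toValuationSubring :=
  (s26gspCon hld hgen hall (Q l)).algebraMap_mem' c

end Fermat.Agent.S27

end
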