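/-
S27-B, leaf REP-NC, the FINITENESS core (helper92): in a pencil `x₀ − a·x₁`, `a ∈ K` (constants!),
of functions of `Ω = Frac (𝔠 ⊗[K] 𝔎)` with `x₀ / x₁ ∉ 𝔠`, only finitely many CONSTANT places
`Con Q` (`Q` a place of `𝔠 / K`) can be a zero or a pole of a member of the pencil — uniformly in `a`.

Setting of `S26/ERRGaussCon.lean` (helper96): fields `K 𝔠 𝔎 Ω`, `hld`, `hgen`, `hall`,
`Con = s26gspCon hld hgen hall`.

* `s27ncf_ord_eq_zero` : `N_a = ∑_{i ∈ s} f_a(i)·c_i` (`c` linearly independent over `K`), `Q` a place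
  at which all `f_a(i)` are regular and a minor `w = f₀(i₀) f₁(j₀) − f₀(j₀) f₁(i₀)` is a unit:
  `ord_{Con Q} (N₀ − a N₁) = 0` for EVERY `a ∈ K`.
* `s27ncf_finite`      : hence outside a finite set `T` of places `Q`, for all `a`.
* `s27ncf_pencil`      : the same for arbitrary `x₀, x₁ ∈ Ω`, `x₁ ≠ 0`, `x₀ ≠ ρ·x₁` for all `ρ ∈ 𝔠`.
* `s27ncf_hnp`         : `x₀ ≠ ρ·x₁` for all `ρ ∈ 𝔠` as soon as `ord_w x₀ ≠ ord_w x₁` at ONE non-constant place `w`.
* `s27ncf_pencil_divisor` : divisor form: `B (Con Q) + ord_{Con Q} (x₀ − a x₁) = 0` for `Q ∉ T`, all `a ∈ K`.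

Use (REP-NC): `D_a = B + div (s₀ − a s₁)`; for `Q ∉ T ∪ {Q | B (Con Q) ≠ 0}` NO member of the pencil contains
the constant place `Con Q`; each of the finitely many other `Con Q` lies in at most one member.
-/
import Fermat.Agent.S26.ERRGaussCon
import Fermat.Agent.S24.PlaceBasic

set_option autoImplicit false
set_option linter.style.haveILetI false
set_option linter.unusedSectionVars false
set_option linter.unusedVariables false

noncomputable section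

namespace Fermat.Agent.S27

open AlgebraicCurve TensorProduct Fermat.Agent.S26 Fermat.Agent.S24

variable {K 𝔠 𝔎 Ω : Type*} [Field K] [Field 𝔠] [Field 𝔎] [Field Ω]
  [Algebra K 𝔠] [Algebra K 𝔎] [Algebra K Ω] [Algebra 𝔠 Ω] [Algebra 𝔎 Ω]
  [IsScalarTower K 𝔠 Ω] [IsScalarTower K 𝔎 Ω]

variable (hld : Function.Injective (s26gspMu K 𝔠 𝔎 Ω)) (hgen : S26gspGen K 𝔠 𝔎 Ω)
  (hall : ∀ P : Place K 𝔠, Function.Surjective (algebraMap K P.ResidueField))

/-- the member `∑ (f₀ i − a f₁ i)·c_i` of the pencil. -/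
def s27ncfMem {ι : Type*} (s : Finset ι) (f₀ f₁ : ι → 𝔠) (c : ι → 𝔎) (a : K) : Ω :=
  ∑ i ∈ s, algebraMap 𝔠 Ω (f₀ i - algebraMap K 𝔠 a * f₁ i) * algebraMap 𝔎 Ω (c i)

/-- **the key step**: at a place `Q` where the coefficients are regular and the minor `w` is a
unit, every member of the pencil has order `0` at the constant place `Con Q`. -/
theorem s27ncf_ord_eq_zero {ι : Type*} (s : Finset ι) (f₀ f₁ : ι → 𝔠) (c : ι → 𝔎)
    (hc : LinearIndependent K c) {i₀ j₀ : ι} (hi₀ : i₀ ∈ s) (hj₀ : j₀ ∈ s)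
    (Q : Place K 𝔠)
    (hw : f₀ i₀ * f₁ j₀ - f₀ j₀ * f₁ i₀ ∉ Q.toValuationSubring.nonunits)
    (h₀ : ∀ i ∈ s, f₀ i ∈ Q.toValuationSubring) (h₁ : ∀ i ∈ s, f₁ i ∈ Q.toValuationSubring)
    (a : K) :
    (s26gspCon hld hgen hall Q).ord (s27ncfMem s f₀ f₁ c a) = 0 ∧
      (s27ncfMem s f₀ f₁ c a : Ω) ≠ 0 := by
  classical
  set g : ι → 𝔠 := fun i => f₀ i - algebraMap K 𝔠 a * f₁ i with hg
  have hgmem : ∀ i ∈ s, g i ∈ Q.toValuationSubring := fun i hi =>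
    Q.toValuationSubring.sub_mem (h₀ i hi)
      (Q.toValuationSubring.mul_mem _ _ (Q.algebraMap_mem' a) (h₁ i hi))
  have hm : ∀ i ∈ s, g i = 0 ∨ (0 : ℤ) ≤ Q.ord (g i) := by
    intro i hi
    rcases eq_or_ne (g i) 0 with h | h
    · exact Or.inl h
    · exact Or.inr ((PlaceAux.ord_nonneg_iff Q h).2 (hgmem i hi))
  -- one of `g i₀`, `g j₀` is a unit at `Q`
  have hex : ∃ i ∈ s, g i ≠ 0 ∧ Q.ord (g i) = 0 := by
    by_contra hcon
    push Not at hcon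
    have hnon : ∀ i ∈ s, Q.toValuationSubring.valuation (g i) < 1 := by
      intro i hi
      rcases eq_or_ne (g i) 0 with h | h
      · rw [h, map_zero]
        exact zero_lt_one
      · have h1 : (0 : ℤ) ≤ Q.ord (g i) := (PlaceAux.ord_nonneg_iff Q h).2 (hgmem i hi)
        have h2 : Q.ord (g i) ≠ 0 := hcon i hi h
        have h3 : 0 < Q.ord (g i) := lt_of_le_of_ne h1 (Ne.symm h2)
        exact (ValuationSubring.mem_nonunits_iff _).1
          ((PlaceAux.ord_pos_iff_mem_nonunits Q h).1 h3)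
    apply hw
    have hweq : f₀ i₀ * f₁ j₀ - f₀ j₀ * f₁ i₀ = g i₀ * f₁ j₀ - g j₀ * f₁ i₀ := by
      simp only [hg]
      ring
    rw [hweq, ValuationSubring.mem_nonunits_iff]
    have hle : ∀ i ∈ s, Q.toValuationSubring.valuation (f₁ i) ≤ 1 := fun i hi =>
      (ValuationSubring.valuation_le_one_iff _ _).2 (h₁ i hi)
    have e1 : Q.toValuationSubring.valuation (g i₀ * f₁ j₀) < 1 := by
      rw [map_mul]
      calc Q.toValuationSubring.valuation (g i₀) * Q.toValuationSubring.valuation (f₁ j₀)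
          ≤ Q.toValuationSubring.valuation (g i₀) * 1 := mul_le_mul' le_rfl (hle j₀ hj₀)
        _ = Q.toValuationSubring.valuation (g i₀) := mul_one _
        _ < 1 := hnon i₀ hi₀
    have e2 : Q.toValuationSubring.valuation (g j₀ * f₁ i₀) < 1 := by
      rw [map_mul]
      calc Q.toValuationSubring.valuation (g j₀) * Q.toValuationSubring.valuation (f₁ i₀)
          ≤ Q.toValuationSubring.valuation (g j₀) * 1 := mul_le_mul' le_rfl (hle i₀ hi₀)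
        _ = Q.toValuationSubring.valuation (g j₀) := mul_one _
        _ < 1 := hnon j₀ hj₀
    exact lt_of_le_of_lt (Valuation.map_sub _ _ _) (max_lt e1 e2)
  have := s26gspPlace_ord_sum_of_linearIndependent Q (hall Q) hld hgen s g c hc 0 hm hex
  exact this

/-- the zeros and poles of a nonzero function form a finite set. -/
theorem s27ncf_exists_finset [HasPrincipalDivisors K 𝔠] (h : 𝔠) (hh : h ≠ 0) :
    ∃ T : Finset (Place K 𝔠), ∀ Q, Q ∉ T → Q.ord h = 0 := by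
  classical
  obtain ⟨D, hD, -⟩ := HasPrincipalDivisors.exists_divisor (K := K) h hh
  refine ⟨D.support, fun Q hQ => ?_⟩
  rw [← hD Q]
  exact Finsupp.notMem_support_iff.1 hQ

/-- a finite family of functions is regular with unit (or zero) values outside a finite set. -/
theorem s27ncf_exists_finset_family [HasPrincipalDivisors K 𝔠] {ι : Type*} (s : Finset ι)
    (f : ι → 𝔠) :
    ∃ T : Finset (Place K 𝔠), ∀ Q, Q ∉ T → ∀ i ∈ s, f i = 0 ∨ Q.ord (f i) = 0 := by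
  classical
  choose! T hT using fun h : 𝔠 => fun hh : h ≠ 0 => s27ncf_exists_finset (K := K) h hh
  refine ⟨s.biUnion fun i => T (f i), fun Q hQ i hi => ?_⟩
  rcases eq_or_ne (f i) 0 with h | h
  · exact Or.inl h
  · refine Or.inr (hT (f i) h Q fun hmem => hQ ?_)
    exact Finset.mem_biUnion.2 ⟨i, hi, hmem⟩

/-- **FINITENESS**: outside a finite set of places `Q` every member of the pencil has order `0`
at the constant place `Con Q`. -/
theorem s27ncf_finite [HasPrincipalDivisors K 𝔠] {ι : Type*} (s : Finset ι) (f₀ f₁ : ι → 𝔠)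
    (c : ι → 𝔎) (hc : LinearIndependent K c) {i₀ j₀ : ι} (hi₀ : i₀ ∈ s) (hj₀ : j₀ ∈ s)
    (hw : f₀ i₀ * f₁ j₀ - f₀ j₀ * f₁ i₀ ≠ 0) :
    ∃ T : Finset (Place K 𝔠), ∀ Q, Q ∉ T → ∀ a : K,
      (s26gspCon hld hgen hall Q).ord (s27ncfMem s f₀ f₁ c a) = 0 ∧
        (s27ncfMem s f₀ f₁ c a : Ω) ≠ 0 := by
  classical
  obtain ⟨Tw, hTw⟩ := s27ncf_exists_finset (K := K) _ hw
  obtain ⟨T₀, hT₀⟩ := s27ncf_exists_finset_family (K := K) s f₀
  obtain ⟨T₁, hT₁⟩ := s27ncf_exists_finset_family (K := K) s f₁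
  refine ⟨Tw ∪ T₀ ∪ T₁, fun Q hQ a => ?_⟩
  have hQw : Q ∉ Tw := fun h => hQ (Finset.mem_union_left _ (Finset.mem_union_left _ h))
  have hQ₀ : Q ∉ T₀ := fun h => hQ (Finset.mem_union_left _ (Finset.mem_union_right _ h))
  have hQ₁ : Q ∉ T₁ := fun h => hQ (Finset.mem_union_right _ h)
  have hmem : ∀ (f : ι → 𝔠), (∀ i ∈ s, f i = 0 ∨ Q.ord (f i) = 0) →
      ∀ i ∈ s, f i ∈ Q.toValuationSubring := by
    intro f hf i hi
    rcases hf i hi with h | h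
    · rw [h]; exact zero_mem _
    · exact PlaceAux.mem_of_ord_nonneg Q (le_of_eq h.symm)
  refine s27ncf_ord_eq_zero hld hgen hall s f₀ f₁ c hc hi₀ hj₀ Q ?_
    (hmem f₀ (hT₀ Q hQ₀)) (hmem f₁ (hT₁ Q hQ₁)) a
  intro hnon
  have h1 := (PlaceAux.ord_pos_iff_mem_nonunits Q hw).2 hnon
  rw [hTw Q hQw] at h1
  exact lt_irrefl _ h1

/-- `μ` of a tensor in coordinates with respect to a basis `b` of `𝔎 / K`, over any finite set
containing the support. -/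
theorem s27ncf_mu_eq_sum {κ : Type*} [DecidableEq κ] (b : Module.Basis κ K 𝔎) (A : 𝔠 ⊗[K] 𝔎) (s : Finset κ)
    (hs : (TensorProduct.equivFinsuppOfBasisRight (M := 𝔠) b A).support ⊆ s) :
    s26gspMu K 𝔠 𝔎 Ω A = ∑ i ∈ s,
      algebraMap 𝔠 Ω (TensorProduct.equivFinsuppOfBasisRight (M := 𝔠) b A i) *
        algebraMap 𝔎 Ω (b i) := by
  classical
  set e := TensorProduct.equivFinsuppOfBasisRight (M := 𝔠) b with he
  set crd := e A with hcrd
  have hAsum : A = ∑ i ∈ crd.support, crd i ⊗ₜ[K] b i := by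
    have h1 : e.symm crd = A := e.symm_apply_apply A
    rw [← h1, he, TensorProduct.equivFinsuppOfBasisRight_symm_apply]
    rfl
  have h2 : s26gspMu K 𝔠 𝔎 Ω A = ∑ i ∈ crd.support,
      algebraMap 𝔠 Ω (crd i) * algebraMap 𝔎 Ω (b i) := by
    conv_lhs => rw [hAsum]
    rw [map_sum]
    exact Finset.sum_congr rfl fun i _ => s26gspMu_tmul _ _
  rw [h2]
  refine Finset.sum_subset hs fun i _ hi => ?_
  rw [Finsupp.notMem_support_iff.1 hi, map_zero, zero_mul]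

/-- **REP-NC, finiteness for a pencil of `Ω`**: `x₀, x₁ ∈ Ω`, `x₁ ≠ 0`, `x₀ / x₁ ∉ 𝔠`.  Outside a
finite set of places `Q` of `𝔠 / K`, EVERY member `x₀ − a x₁` (`a ∈ K`) of the pencil has order `0`
at the constant place `Con Q`. -/
theorem s27ncf_pencil [HasPrincipalDivisors K 𝔠] (x₀ x₁ : Ω) (hx₁ : x₁ ≠ 0)
    (hnp : ∀ ρ : 𝔠, x₀ ≠ algebraMap 𝔠 Ω ρ * x₁) :
    ∃ T : Finset (Place K 𝔠), ∀ Q, Q ∉ T → ∀ a : K,
      (s26gspCon hld hgen hall Q).ord (x₀ - algebraMap K Ω a * x₁) = 0 ∧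
        x₀ - algebraMap K Ω a * x₁ ≠ 0 := by
  classical
  obtain ⟨A₀, B₀, hB₀, h₀⟩ := hgen x₀
  obtain ⟨A₁, B₁, hB₁, h₁⟩ := hgen x₁
  set b := Module.Basis.ofVectorSpace K 𝔎 with hb
  set e := TensorProduct.equivFinsuppOfBasisRight (M := 𝔠) b with he
  set Δ : 𝔠 ⊗[K] 𝔎 := B₀ * B₁ with hΔ
  have hμΔ : s26gspMu K 𝔠 𝔎 Ω Δ ≠ 0 := by
    rw [hΔ, map_mul]
    exact mul_ne_zero hB₀ hB₁
  have hN₀ : s26gspMu K 𝔠 𝔎 Ω (A₀ * B₁) = x₀ * s26gspMu K 𝔠 𝔎 Ω Δ := by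
    rw [hΔ, map_mul, map_mul, ← h₀]
    ring
  have hN₁ : s26gspMu K 𝔠 𝔎 Ω (A₁ * B₀) = x₁ * s26gspMu K 𝔠 𝔎 Ω Δ := by
    rw [hΔ, map_mul, map_mul, ← h₁]
    ring
  set c₀ := e (A₀ * B₁) with hc₀
  set c₁ := e (A₁ * B₀) with hc₁
  set cΔ := e Δ with hcΔ
  set s : Finset _ := c₀.support ∪ c₁.support with hs
  have hsum₀ : s26gspMu K 𝔠 𝔎 Ω (A₀ * B₁) =
      ∑ i ∈ s, algebraMap 𝔠 Ω (c₀ i) * algebraMap 𝔎 Ω (b i) :=
    s27ncf_mu_eq_sum b _ s Finset.subset_union_left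
  have hsum₁ : s26gspMu K 𝔠 𝔎 Ω (A₁ * B₀) =
      ∑ i ∈ s, algebraMap 𝔠 Ω (c₁ i) * algebraMap 𝔎 Ω (b i) :=
    s27ncf_mu_eq_sum b _ s Finset.subset_union_right
  have hsumΔ : s26gspMu K 𝔠 𝔎 Ω Δ =
      ∑ i ∈ cΔ.support, algebraMap 𝔠 Ω (cΔ i) * algebraMap 𝔎 Ω (b i) :=
    s27ncf_mu_eq_sum b _ _ (Finset.Subset.refl _)
  -- the members of the pencil
  have hmem : ∀ a : K, (x₀ - algebraMap K Ω a * x₁) * s26gspMu K 𝔠 𝔎 Ω Δ =
      s27ncfMem s (fun i => c₀ i) (fun i => c₁ i) b a := by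
    intro a
    unfold s27ncfMem
    have h1 : ∀ i ∈ s, algebraMap 𝔠 Ω (c₀ i - algebraMap K 𝔠 a * c₁ i) * algebraMap 𝔎 Ω (b i) =
        algebraMap 𝔠 Ω (c₀ i) * algebraMap 𝔎 Ω (b i) -
          algebraMap K Ω a * (algebraMap 𝔠 Ω (c₁ i) * algebraMap 𝔎 Ω (b i)) := by
      intro i _
      rw [map_sub, map_mul, ← IsScalarTower.algebraMap_apply K 𝔠 Ω]
      ring
    rw [Finset.sum_congr rfl h1, Finset.sum_sub_distrib, ← Finset.mul_sum, ← hsum₀, ← hsum₁,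
      hN₀, hN₁]
    ring
  -- a non-vanishing minor
  have hminor : ∃ i₀ ∈ s, ∃ j₀ ∈ s, c₀ i₀ * c₁ j₀ - c₀ j₀ * c₁ i₀ ≠ 0 := by
    by_contra hcon
    push Not at hcon
    have hN₁ne : s26gspMu K 𝔠 𝔎 Ω (A₁ * B₀) ≠ 0 := by
      rw [hN₁]
      exact mul_ne_zero hx₁ hμΔ
    have hex : ∃ j ∈ s, c₁ j ≠ 0 := by
      by_contra hno
      push Not at hno
      apply hN₁ne
      rw [hsum₁]
      refine Finset.sum_eq_zero fun i hi => ?_
      rw [hno i hi, map_zero, zero_mul]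
    obtain ⟨j, hj, hcj⟩ := hex
    have hprop : ∀ i ∈ s, c₀ i = (c₀ j / c₁ j) * c₁ i := by
      intro i hi
      have h := hcon i hi j hj
      field_simp
      linear_combination h
    apply hnp (c₀ j / c₁ j)
    have h3 : x₀ * s26gspMu K 𝔠 𝔎 Ω Δ =
        algebraMap 𝔠 Ω (c₀ j / c₁ j) * x₁ * s26gspMu K 𝔠 𝔎 Ω Δ := by
      rw [← hN₀, hsum₀, mul_assoc, ← hN₁, hsum₁, Finset.mul_sum]
      refine Finset.sum_congr rfl fun i hi => ?_
      rw [hprop i hi, map_mul]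
      ring
    exact mul_right_cancel₀ hμΔ h3
  obtain ⟨i₀, hi₀, j₀, hj₀, hw⟩ := hminor
  obtain ⟨T₁, hT₁⟩ := s27ncf_finite hld hgen hall s (fun i => c₀ i) (fun i => c₁ i) b
    b.linearIndependent hi₀ hj₀ hw
  obtain ⟨TΔ, hTΔ⟩ := s27ncf_exists_finset_family (K := K) cΔ.support (fun i => cΔ i)
  have hΔne : cΔ.support.Nonempty := by
    rw [Finsupp.support_nonempty_iff]
    intro h0
    apply hμΔ
    rw [hsumΔ, h0]
    simp
  refine ⟨T₁ ∪ TΔ, fun Q hQ a => ?_⟩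
  have hQ₁ : Q ∉ T₁ := fun h => hQ (Finset.mem_union_left _ h)
  have hQΔ : Q ∉ TΔ := fun h => hQ (Finset.mem_union_right _ h)
  obtain ⟨hord, hne⟩ := hT₁ Q hQ₁ a
  rw [← hmem a] at hord hne
  have hy : x₀ - algebraMap K Ω a * x₁ ≠ 0 := left_ne_zero_of_mul hne
  have hordΔ : (s26gspCon hld hgen hall Q).ord (s26gspMu K 𝔠 𝔎 Ω Δ) = 0 := by
    rw [hsumΔ]
    obtain ⟨i, hi⟩ := hΔne
    have hfam := hTΔ Q hQΔ
    refine (s26gspPlace_ord_sum_of_linearIndependent Q (hall Q) hld hgen cΔ.support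
      (fun i => cΔ i) b b.linearIndependent 0 ?_ ?_).1
    · intro k hk
      rcases hfam k hk with h | h
      · exact Or.inl h
      · exact Or.inr (le_of_eq h.symm)
    · refine ⟨i, hi, Finsupp.mem_support_iff.1 hi, ?_⟩
      rcases hfam i hi with h | h
      · exact absurd h (Finsupp.mem_support_iff.1 hi)
      · exact h
  refine ⟨?_, hy⟩
  have hmul := (s26gspCon hld hgen hall Q).ord_mul hy hμΔ
  rw [hord, hordΔ] at hmul
  omega

/-- **non-proportionality from ONE non-constant place**: if `x₀`, `x₁` have different orders at a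
place `w` of `Ω / 𝔎` which is not constant, then `x₀ ≠ ρ · x₁` for every `ρ ∈ 𝔠`. -/
theorem s27ncf_hnp (w : Place 𝔎 Ω) (hw : ∀ Q, w ≠ s26gspCon hld hgen hall Q) (x₀ x₁ : Ω)
    (hx₀ : x₀ ≠ 0) (hx₁ : x₁ ≠ 0) (hord : w.ord x₀ ≠ w.ord x₁) :
    ∀ ρ : 𝔠, x₀ ≠ algebraMap 𝔠 Ω ρ * x₁ := by
  intro ρ h
  rcases eq_or_ne ρ 0 with h0 | h0
  · rw [h0, map_zero, zero_mul] at h
    exact hx₀ h
  · have hρ : algebraMap 𝔠 Ω ρ ≠ 0 := by simpa using h0
    apply hord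
    rw [h, w.ord_mul hρ hx₁, s26gspc_ord_eq_zero hld hgen hall w hw ρ, zero_add]

/-- **REP-NC, divisor form**: `B` a divisor of `Ω / 𝔎`, pencil `x₀ − a x₁` (`a ∈ K`), `x₀ / x₁ ∉ 𝔠`:
outside a finite set of places `Q` of `𝔠 / K` NO member `B + div (x₀ − a x₁)` of the pencil contains
the constant place `Con Q`. -/
theorem s27ncf_pencil_divisor [HasPrincipalDivisors K 𝔠] (B : Divisor 𝔎 Ω) (x₀ x₁ : Ω)
    (hx₁ : x₁ ≠ 0) (hnp : ∀ ρ : 𝔠, x₀ ≠ algebraMap 𝔠 Ω ρ * x₁) :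
    ∃ T : Finset (Place K 𝔠), ∀ Q, Q ∉ T → ∀ a : K,
      x₀ - algebraMap K Ω a * x₁ ≠ 0 ∧
      B (s26gspCon hld hgen hall Q) +
        (s26gspCon hld hgen hall Q).ord (x₀ - algebraMap K Ω a * x₁) = 0 := by
  classical
  obtain ⟨T, hT⟩ := s27ncf_pencil hld hgen hall x₀ x₁ hx₁ hnp
  have hinj := s26gspCon_injective hld hgen hall
  refine ⟨T ∪ B.support.preimage (s26gspCon hld hgen hall) hinj.injOn, fun Q hQ a => ?_⟩
  have hQ₁ : Q ∉ T := fun h => hQ (Finset.mem_union_left _ h)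
  have hQ₂ : B (s26gspCon hld hgen hall Q) = 0 := by
    by_contra hne
    apply hQ
    refine Finset.mem_union_right _ ?_
    rw [Finset.mem_preimage, Finsupp.mem_support_iff]
    exact hne
  obtain ⟨h1, h2⟩ := hT Q hQ₁ a
  exact ⟨h2, by rw [hQ₂, h1, add_zero]⟩

end Fermat.Agent.S27
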