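/-
S27-B, CP-TOP / REP-INST helper (helper79): **`θ(D) ≠ 0` DEPENDS ONLY ON THE CLASS.**

Setting of `S27/Bridge.lean` (`K 𝔠 𝔎 Ω`, `hld`, `hgen`, `hall`, `x`).  For an injective tuple
`R : Fin N → (𝔠 →ₐ[K] 𝔎)` and a `K`-basis `f` of `L_K(A')` (`ℓ(A') = N`):

* `s27rth_det_ne_zero_iff` : `det [R i (f l)] ≠ 0 ↔ L_𝔎(Con A' − Σ pt (R i)) = 0`;
* `s27rth_transfer`        : `D − D'` principal ⇒ (`L(A − D) = 0 ↔ L(A − D') = 0`);
* `s27rth_det_iff_of_principal` : `(Σ pt R − Con A') − (Σ pt R' − Con A'')` principal ⇒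
        (`det [R i (f l)] ≠ 0 ↔ det [R' i (f' l)] ≠ 0`);
* `s27rth_det_ne_zero_of_rep` : the form for REP (`s27repnct_tuple`): `Σ pt R − E` principal and
        `L(Con A' − E) = 0` ⇒ `det [R i (f l)] ≠ 0`.
-/
import Fermat.Agent.S27.Bridge
import Fermat.Agent.S27.PtDef
import Fermat.Agent.S26.ERRGaussAlg

set_option autoImplicit false
set_option linter.style.haveILetI false
set_option linter.unusedSectionVars false

open AlgebraicCurve Module

namespace Fermat.Agent.S27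

open Fermat.Agent.S26

section Transfer

variable {L Ω : Type*} [Field L] [Field Ω] [Algebra L Ω]

/-- linearly equivalent divisors: `L(A − D) = 0 ↔ L(A − D') = 0`. -/
theorem s27rth_transfer (A D D' : Divisor L Ω) (h : Divisor.IsPrincipal (D - D')) :
    (∀ s ∈ riemannRochSpace (A - D), s = 0) ↔ (∀ s ∈ riemannRochSpace (A - D'), s = 0) := by
  obtain ⟨φ, hφ, hdiv⟩ := h
  have hE : ∀ v : Place L Ω, v.ord φ = (D - D') v := fun v => (hdiv v).symm
  have hA : A - D' - (D - D') = A - D := by abel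
  constructor
  · intro h1 s hs
    have h2 := (s27brg_mul (A - D') (D - D') hφ hE s).mp hs
    rw [hA] at h2
    exact (mul_eq_zero.mp (h1 _ h2)).resolve_left hφ
  · intro h1 s hs
    rw [← hA] at hs
    have h2 := (s27brg_mul_inv (A - D') (D - D') hφ hE s).mp hs
    exact (mul_eq_zero.mp (h1 _ h2)).resolve_left (inv_ne_zero hφ)

end Transfer

variable {K 𝔠 𝔎 Ω : Type*} [Field K] [Field 𝔠] [Field 𝔎] [Field Ω]
  [Algebra K 𝔠] [Algebra K 𝔎] [Algebra K Ω] [Algebra 𝔠 Ω] [Algebra 𝔎 Ω]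
  [IsScalarTower K 𝔠 Ω] [IsScalarTower K 𝔎 Ω]

variable (hld : Function.Injective (s26gspMu K 𝔠 𝔎 Ω)) (hgen : S26gspGen K 𝔠 𝔎 Ω)
  (hall : ∀ P : Place K 𝔠, Function.Surjective (algebraMap K P.ResidueField))
  {x : 𝔠} (hx : Transcendental K x)
  [FiniteDimensional ↥(IntermediateField.adjoin K {x}) 𝔠]
  [Algebra.IsSeparable ↥(IntermediateField.adjoin K {x}) 𝔠]

/-- **`θ ≠ 0` ⇔ no section**: `det [R i (f l)] ≠ 0 ↔ L_𝔎(Con A' − Σ pt (R i)) = 0`. -/
theorem s27rth_det_ne_zero_iff (A' : Divisor K 𝔠) {N : ℕ} (R : Fin N → 𝔠 →ₐ[K] 𝔎)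
    (hR : Function.Injective R) (f : Module.Basis (Fin N) K ↥(riemannRochSpace A')) :
    (s27ptValB R f).det ≠ 0 ↔
      ∀ s ∈ riemannRochSpace (s27brgCon hld hgen hall A' - s27brgPts hld hgen hx R), s = 0 := by
  classical
  have hmem : ∀ j, ((f j : ↥(riemannRochSpace A')) : 𝔠) ∈ riemannRochSpace A' := fun j => (f j).2
  have hmul : ∀ c : Fin N → 𝔎, (s27ptValB R f).mulVec c =
      fun i => ∑ j, R i ((f j : ↥(riemannRochSpace A')) : 𝔠) * c j := by
    intro c
    funext i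
    rfl
  constructor
  · intro hdet s hs
    have hs' := s27brg_sub_pts_le hld hgen hx _ R hs
    obtain ⟨c, rfl⟩ := s27brg_exists_lin hld hgen hall hx A' f hs'
    have h1 := (s27brg_lin_mem_iff hld hgen hall hx A' R hR _ hmem c).mp hs
    have h2 : (s27ptValB R f).mulVec c = 0 := by
      rw [hmul]
      funext i
      exact h1 i
    have h3 : c = 0 := Matrix.eq_zero_of_mulVec_eq_zero hdet h2
    rw [h3]
    unfold s27brgLin
    simp
  · intro h0 hdet
    obtain ⟨c, hc0, hc⟩ := Matrix.exists_mulVec_eq_zero_iff.mpr hdet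
    have h1 : ∀ i, ∑ j, R i ((f j : ↥(riemannRochSpace A')) : 𝔠) * c j = 0 := by
      intro i
      have := congrFun hc i
      rw [hmul] at this
      exact this
    have h2 := h0 _ ((s27brg_lin_mem_iff hld hgen hall hx A' R hR _ hmem c).mpr h1)
    have hli : LinearIndependent K (fun j => ((f j : ↥(riemannRochSpace A')) : 𝔠)) :=
      f.linearIndependent.map' (riemannRochSpace A').subtype (Submodule.ker_subtype _)
    have hli' := s26gspc_linearIndependent (𝔎 := 𝔎) (Ω := Ω) hld hli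
    unfold s27brgLin at h2
    have h3 : ∑ j, c j • algebraMap 𝔠 Ω ((f j : ↥(riemannRochSpace A')) : 𝔠) = 0 := by
      rw [← h2]
      refine Finset.sum_congr rfl fun j _ => ?_
      rw [Algebra.smul_def]
    have h4 := Fintype.linearIndependent_iff.mp hli' c h3
    exact hc0 (funext h4)

/-- the form for REP: `Σ pt R − E` principal and `L(Con A' − E) = 0` ⇒ `det [R i (f l)] ≠ 0`. -/
theorem s27rth_det_ne_zero_of_rep (A' : Divisor K 𝔠) {N : ℕ} (R : Fin N → 𝔠 →ₐ[K] 𝔎)
    (hR : Function.Injective R) (f : Module.Basis (Fin N) K ↥(riemannRochSpace A'))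
    (E : Divisor 𝔎 Ω) (hprin : Divisor.IsPrincipal (s27brgPts hld hgen hx R - E))
    (hE : ∀ s ∈ riemannRochSpace (s27brgCon hld hgen hall A' - E), s = 0) :
    (s27ptValB R f).det ≠ 0 :=
  (s27rth_det_ne_zero_iff hld hgen hall hx A' R hR f).mpr
    ((s27rth_transfer _ _ _ hprin).mpr hE)

/-- **`θ ≠ 0` depends only on the class**: if `(Σ pt R − Con A') − (Σ pt R' − Con A'')` is
principal, then `det [R i (f l)] ≠ 0 ↔ det [R' i (f' l)] ≠ 0`. -/
theorem s27rth_det_iff_of_principal (A' A'' : Divisor K 𝔠) {N N' : ℕ}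
    (R : Fin N → 𝔠 →ₐ[K] 𝔎) (R' : Fin N' → 𝔠 →ₐ[K] 𝔎)
    (hR : Function.Injective R) (hR' : Function.Injective R')
    (f : Module.Basis (Fin N) K ↥(riemannRochSpace A'))
    (f' : Module.Basis (Fin N') K ↥(riemannRochSpace A''))
    (hprin : Divisor.IsPrincipal
      ((s27brgPts hld hgen hx R - s27brgCon hld hgen hall A') -
        (s27brgPts hld hgen hx R' - s27brgCon hld hgen hall A''))) :
    (s27ptValB R f).det ≠ 0 ↔ (s27ptValB R' f').det ≠ 0 := by
  rw [s27rth_det_ne_zero_iff hld hgen hall hx A' R hR f,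
    s27rth_det_ne_zero_iff hld hgen hall hx A'' R' hR' f']
  have h1 : s27brgCon hld hgen hall A' - s27brgPts hld hgen hx R =
      0 - (s27brgPts hld hgen hx R - s27brgCon hld hgen hall A') := by abel
  have h2 : s27brgCon hld hgen hall A'' - s27brgPts hld hgen hx R' =
      0 - (s27brgPts hld hgen hx R' - s27brgCon hld hgen hall A'') := by abel
  rw [h1, h2]
  exact s27rth_transfer _ _ _ hprin

end Fermat.Agent.S27
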