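/-
S27 — ROOT GLUE of the captain (helper77), interface-free:
`s27_of_growth` : a growth datum `S26Growth K' (genusFF K F) n #Pic0(F)[n]` for every curve and every
`n ≥ 1` (over ANY field `K'`, in any universe `w`) gives the frozen statement S27, by the growth trick
`s26c_stmtCore` (S26, proved).
-/
import Fermat.Agent.S26.CFinal
import Fermat.Prelude.Def_AlgebraicCurve_DivisorClassGroup
import Fermat.Prelude.Def_AlgebraicCurve_IsCurveOver
import Fermat.Prelude.Def_AlgebraicCurve_Repartitions

set_option autoImplicit false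

noncomputable section

namespace Fermat.Agent.S27

open AlgebraicCurve Fermat.Agent.S26

universe u v w

/-- The frozen statement S27 as a `Prop` (second copy, interface-free root). -/
def s27r_Stmt : Prop :=
  ∀ (K : Type u) (F : Type v) [Field K] [Field F] [Algebra K F] [IsAlgClosed K] [CharZero K]
    [IsCurveOver K F] [Algebra.EssFiniteType K F] (ℓ : ℕ) [Fact ℓ.Prime] (k : ℕ),
    Nat.card (Pic0.torsion K F (ℓ ^ k)) = ℓ ^ (2 * genusFF K F * k)

/-- **GROWTH**: the growth datum of the Jacobian of `F`, for every `n ≥ 1`. -/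
def s27r_StmtGrowth : Prop :=
  ∀ (K : Type u) (F : Type v) [Field K] [Field F] [Algebra K F] [IsAlgClosed K] [CharZero K]
    [IsCurveOver K F] [Algebra.EssFiniteType K F] (n : ℕ), 0 < n →
    ∃ (K' : Type w) (_ : Field K'),
      S26Growth K' (genusFF K F) n (Nat.card (Pic0.torsion K F n))

/-- **Root glue**: GROWTH ⇒ S27. -/
theorem s27r_of_growth (hG : s27r_StmtGrowth.{u, v, w}) : s27r_Stmt.{u, v} := by
  intro K F _ _ _ _ _ _ _ ℓ hℓ k
  have hn : 0 < ℓ ^ k := pow_pos hℓ.out.pos k
  obtain ⟨K', iK', hgr⟩ := hG K F (ℓ ^ k) hn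
  have h := s26c_stmtCore K' (genusFF K F) (ℓ ^ k) _ hn hgr
  rw [h, ← pow_mul]
  congr 1
  ring

end Fermat.Agent.S27

end
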