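/-
S27-B — leaf LE4 (TAILS), the PLACE INSTANCE (helper89).  Abstract core: S27/Tails.lean.

`F / K` a function field (prelude `Place K F`), `Q j` (`j : κ`) DISTINCT places with residue field `K`,
`G = Σ_j Q_j`, `B` a divisor, `a j ∈ F` with `ord_{Q_j} (a j) = B (Q_j) + 1`.

* `s27tlpO Q`       : the valuation ring of `Q` as a `K`-subalgebra of `F`;
* `s27tlpEps Q hres` : the value map `f ↦ f(Q)`, a `K`-algebra map `𝒪_Q → K` (`s27tlpEps_eq_zero_iff`);
* `s27tlp_mem`, `s27tlp_eps_zero` : `a_j · x ∈ 𝒪_{Q_j}` for `x ∈ L(B + G)`, of value `0` for `x ∈ L(B)`;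
* `s27tlp_det_ne_zero` : for a linearly independent family `x : ι ⊕ κ → L(B + G)` whose first block
  spans `L(B)`, the matrix of leading coefficients `T j l = (a_j · x (inr l))(Q_j)` is invertible;
* **`s27tlp_hMU`** : `hMU` of `s27ld_le_core` on places.
-/
import Fermat.Agent.S27.Tails
import Fermat.Agent.S24.PlaceBasic
import Fermat.Prelude.Def_AlgebraicCurve_Repartitions

set_option autoImplicit false

noncomputable section

namespace Fermat.Agent.S27

open TensorProduct Matrix AlgebraicCurve Fermat.Agent.S24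

universe u v w

variable {K : Type u} [Field K] {F : Type v} [Field F] [Algebra K F]

/-- the valuation ring of a place as a `K`-subalgebra of `F`. -/
def s27tlpO (Q : Place K F) : Subalgebra K F :=
  { Q.toValuationSubring.toSubring.toSubsemiring with
    algebraMap_mem' := Q.algebraMap_mem' }

theorem s27tlp_mem_O {Q : Place K F} {f : F} : f ∈ s27tlpO Q ↔ f ∈ Q.toValuationSubring :=
  Iff.rfl

/-- the value map `f ↦ f(Q)` of a place with residue field `K`, as a `K`-algebra map. -/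
def s27tlpEps (Q : Place K F) (hres : Function.Surjective (algebraMap K Q.ResidueField)) :
    s27tlpO Q →ₐ[K] K where
  toFun f := (RingEquiv.ofBijective (algebraMap K Q.ResidueField)
    ⟨(algebraMap K Q.ResidueField).injective, hres⟩).symm
      (IsLocalRing.residue ↥Q.toValuationSubring ⟨(f : F), f.2⟩)
  map_one' := by
    have : (⟨((1 : s27tlpO Q) : F), (1 : s27tlpO Q).2⟩ : ↥Q.toValuationSubring) = 1 := rfl
    rw [this, map_one, map_one]
  map_mul' f g := by
    have : (⟨((f * g : s27tlpO Q) : F), (f * g).2⟩ : ↥Q.toValuationSubring) =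
        ⟨(f : F), f.2⟩ * ⟨(g : F), g.2⟩ := rfl
    rw [this, map_mul, map_mul]
  map_zero' := by
    have : (⟨((0 : s27tlpO Q) : F), (0 : s27tlpO Q).2⟩ : ↥Q.toValuationSubring) = 0 := rfl
    rw [this, map_zero, map_zero]
  map_add' f g := by
    have : (⟨((f + g : s27tlpO Q) : F), (f + g).2⟩ : ↥Q.toValuationSubring) =
        ⟨(f : F), f.2⟩ + ⟨(g : F), g.2⟩ := rfl
    rw [this, map_add, map_add]
  commutes' c := by
    have h1 : (⟨((algebraMap K (s27tlpO Q) c : s27tlpO Q) : F),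
        (algebraMap K (s27tlpO Q) c).2⟩ : ↥Q.toValuationSubring) =
        algebraMap K ↥Q.toValuationSubring c := rfl
    rw [h1]
    have h2 : IsLocalRing.residue ↥Q.toValuationSubring (algebraMap K ↥Q.toValuationSubring c) =
        algebraMap K Q.ResidueField c := rfl
    rw [h2]
    exact (RingEquiv.ofBijective (algebraMap K Q.ResidueField)
      ⟨(algebraMap K Q.ResidueField).injective, hres⟩).symm_apply_apply c

theorem s27tlpEps_eq_zero_iff (Q : Place K F)
    (hres : Function.Surjective (algebraMap K Q.ResidueField)) (f : s27tlpO Q) :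
    s27tlpEps Q hres f = 0 ↔ (f : F) ∈ Q.toValuationSubring.nonunits := by
  show (RingEquiv.ofBijective (algebraMap K Q.ResidueField)
    ⟨(algebraMap K Q.ResidueField).injective, hres⟩).symm
      (IsLocalRing.residue ↥Q.toValuationSubring ⟨(f : F), f.2⟩) = 0 ↔ _
  rw [map_eq_zero_iff _ (RingEquiv.injective _), IsLocalRing.residue_eq_zero_iff,
    ValuationSubring.mem_nonunits_iff_exists_mem_maximalIdeal]
  constructor
  · intro h
    exact ⟨f.2, h⟩
  · rintro ⟨_, h⟩
    exact h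

section RR

variable {κ : Type*} [Fintype κ] [DecidableEq κ]

/-- the reduced divisor `G = Σ_j Q_j`. -/
def s27tlpG (Q : κ → Place K F) : Divisor K F := ∑ j, Finsupp.single (Q j) 1

theorem s27tlpG_apply_self (Q : κ → Place K F) (hQ : Function.Injective Q) (j : κ) :
    s27tlpG Q (Q j) = 1 := by
  classical
  unfold s27tlpG
  rw [Finsupp.finsetSum_apply, Finset.sum_eq_single j]
  · exact Finsupp.single_eq_same
  · intro l _ hl
    rw [Finsupp.single_apply, if_neg (fun h => hl (hQ h))]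
  · intro h
    exact absurd (Finset.mem_univ j) h

theorem s27tlpG_apply_of_notMem (Q : κ → Place K F) (P : Place K F) (hP : ∀ j, Q j ≠ P) :
    s27tlpG Q P = 0 := by
  classical
  unfold s27tlpG
  rw [Finsupp.finsetSum_apply]
  refine Finset.sum_eq_zero fun l _ => ?_
  rw [Finsupp.single_apply, if_neg (hP l)]

variable (B : Divisor K F) (Q : κ → Place K F) (a : κ → F)

/-- `a_j · x` is regular at `Q_j` for `x ∈ L(B + G)`. -/
theorem s27tlp_mem (hQ : Function.Injective Q) (ha0 : ∀ j, a j ≠ 0)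
    (ha : ∀ j, (Q j).ord (a j) = B (Q j) + 1) {x : F}
    (hx : x ∈ riemannRochSpace (B + s27tlpG Q)) (j : κ) : a j * x ∈ s27tlpO (Q j) := by
  rw [s27tlp_mem_O]
  rcases eq_or_ne x 0 with rfl | hx0
  · rw [mul_zero]; exact zero_mem _
  · apply PlaceAux.mem_of_ord_nonneg
    rw [(Q j).ord_mul (ha0 j) hx0, ha j]
    have h := (mem_riemannRochSpace_iff.1 hx (Q j)).resolve_left hx0
    rw [Finsupp.add_apply, s27tlpG_apply_self Q hQ j] at h
    omega

/-- `a_j · x` vanishes at `Q_j` for `x ∈ L(B)`. -/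
theorem s27tlp_nonunit (ha0 : ∀ j, a j ≠ 0)
    (ha : ∀ j, (Q j).ord (a j) = B (Q j) + 1) {x : F}
    (hx : x ∈ riemannRochSpace B) (j : κ) : a j * x ∈ (Q j).toValuationSubring.nonunits := by
  rcases eq_or_ne x 0 with rfl | hx0
  · rw [mul_zero]
    rw [ValuationSubring.mem_nonunits_iff_exists_mem_maximalIdeal]
    exact ⟨zero_mem _, zero_mem _⟩
  · rw [← PlaceAux.ord_pos_iff_mem_nonunits _ (mul_ne_zero (ha0 j) hx0),
      (Q j).ord_mul (ha0 j) hx0, ha j]
    have h := (mem_riemannRochSpace_iff.1 hx (Q j)).resolve_left hx0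
    omega

/-- conversely: `x ∈ L(B + G)` with `a_j · x` vanishing at every `Q_j` lies in `L(B)`. -/
theorem s27tlp_mem_rr_of_nonunit (ha0 : ∀ j, a j ≠ 0)
    (ha : ∀ j, (Q j).ord (a j) = B (Q j) + 1) {x : F}
    (hx : x ∈ riemannRochSpace (B + s27tlpG Q))
    (h : ∀ j, a j * x ∈ (Q j).toValuationSubring.nonunits) : x ∈ riemannRochSpace B := by
  rw [mem_riemannRochSpace_iff]
  intro P
  rcases eq_or_ne x 0 with rfl | hx0
  · exact Or.inl rfl
  · right
    by_cases hP : ∃ j, Q j = P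
    · obtain ⟨j, rfl⟩ := hP
      have h1 := (PlaceAux.ord_pos_iff_mem_nonunits _ (mul_ne_zero (ha0 j) hx0)).2 (h j)
      rw [(Q j).ord_mul (ha0 j) hx0, ha j] at h1
      omega
    · have h1 := (mem_riemannRochSpace_iff.1 hx P).resolve_left hx0
      rw [Finsupp.add_apply, s27tlpG_apply_of_notMem Q P (fun j hj => hP ⟨j, hj⟩)] at h1
      omega

end RR

section Det

variable {ι κ : Type*} [Fintype ι] [Fintype κ] [DecidableEq ι] [DecidableEq κ]
variable (B : Divisor K F) (Q : κ → Place K F)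
  (hres : ∀ j, Function.Surjective (algebraMap K (Q j).ResidueField)) (a : κ → F)

theorem s27tlp_hx (hQ : Function.Injective Q) (ha0 : ∀ j, a j ≠ 0)
    (ha : ∀ j, (Q j).ord (a j) = B (Q j) + 1) (x : ι ⊕ κ → F)
    (hxmem : ∀ i, x i ∈ riemannRochSpace (B + s27tlpG Q)) :
    ∀ j i, a j * x i ∈ s27tlpO (Q j) :=
  fun j i => s27tlp_mem B Q a hQ ha0 ha (hxmem i) j

theorem s27tlp_hx0 (hQ : Function.Injective Q) (ha0 : ∀ j, a j ≠ 0)
    (ha : ∀ j, (Q j).ord (a j) = B (Q j) + 1) (x : ι ⊕ κ → F)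
    (hxmem : ∀ i, x i ∈ riemannRochSpace (B + s27tlpG Q))
    (hxl : ∀ i, x (Sum.inl i) ∈ riemannRochSpace B) :
    ∀ j i, s27tlpEps (Q j) (hres j)
      ⟨a j * x (Sum.inl i), s27tlp_hx B Q a hQ ha0 ha x hxmem j _⟩ = 0 :=
  fun j i => (s27tlpEps_eq_zero_iff _ _ _).2 (s27tlp_nonunit B Q a ha0 ha (hxl i) j)

/-- **the matrix of leading coefficients is invertible**: `x` a linearly independent family of
`L(B + G)` whose first block spans `L(B)`. -/
theorem s27tlp_det_ne_zero (hQ : Function.Injective Q) (ha0 : ∀ j, a j ≠ 0)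
    (ha : ∀ j, (Q j).ord (a j) = B (Q j) + 1) (x : ι ⊕ κ → F)
    (hxmem : ∀ i, x i ∈ riemannRochSpace (B + s27tlpG Q))
    (hli : LinearIndependent K x)
    (hspan : ∀ y ∈ riemannRochSpace B, y ∈ Submodule.span K (Set.range (x ∘ Sum.inl))) :
    (s27tlT (fun j => s27tlpO (Q j)) (fun j => s27tlpEps (Q j) (hres j)) a x
      (s27tlp_hx B Q a hQ ha0 ha x hxmem)).det ≠ 0 := by
  classical
  intro hdet
  obtain ⟨c, hc0, hc⟩ := Matrix.exists_mulVec_eq_zero_iff.2 hdet
  set y : F := ∑ l, c l • x (Sum.inr l) with hydef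
  have hy : y ∈ riemannRochSpace (B + s27tlpG Q) :=
    Submodule.sum_mem _ (fun l _ => Submodule.smul_mem _ _ (hxmem _))
  have hval : ∀ j, a j * y ∈ (Q j).toValuationSubring.nonunits := by
    intro j
    have hmem := s27tlp_mem B Q a hQ ha0 ha hy j
    rw [← s27tlpEps_eq_zero_iff (Q j) (hres j) ⟨a j * y, hmem⟩]
    have e : (⟨a j * y, hmem⟩ : s27tlpO (Q j)) =
        ∑ l, c l • (⟨a j * x (Sum.inr l), s27tlp_hx B Q a hQ ha0 ha x hxmem j _⟩ :
          s27tlpO (Q j)) := by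
      apply Subtype.ext
      show a j * y = ((∑ l, c l • (⟨a j * x (Sum.inr l),
        s27tlp_hx B Q a hQ ha0 ha x hxmem j _⟩ : s27tlpO (Q j)) : s27tlpO (Q j)) : F)
      rw [AddSubmonoidClass.coe_finset_sum, hydef, Finset.mul_sum]
      refine Finset.sum_congr rfl fun l _ => ?_
      rw [mul_smul_comm]
      rfl
    rw [e, map_sum]
    have h1 := congrFun hc j
    simp only [Matrix.mulVec, dotProduct, Pi.zero_apply] at h1
    rw [← h1]
    refine Finset.sum_congr rfl fun l _ => ?_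
    rw [map_smul, smul_eq_mul, mul_comm]
    rfl
  have hyB := s27tlp_mem_rr_of_nonunit B Q a ha0 ha hy hval
  have hyspan := hspan y hyB
  have hy2 : y ∈ Submodule.span K (Set.range (x ∘ Sum.inr)) :=
    Submodule.sum_mem _ (fun l _ => Submodule.smul_mem _ _ (Submodule.subset_span ⟨l, rfl⟩))
  have hdisj : Disjoint (Submodule.span K (Set.range (x ∘ Sum.inl)))
      (Submodule.span K (Set.range (x ∘ Sum.inr))) := by
    rw [Set.range_comp, Set.range_comp]
    exact hli.disjoint_span_image Set.isCompl_range_inl_range_inr.disjoint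
  have hy0 : y = 0 := Submodule.disjoint_def.1 hdisj y hyspan hy2
  have hli' : LinearIndependent K (x ∘ Sum.inr) := hli.comp _ Sum.inr_injective
  have h0 := Fintype.linearIndependent_iff.1 hli' c hy0
  exact hc0 (funext h0)

end Det

section Final

variable {𝔏 : Type w} [Field 𝔏] [Algebra K 𝔏]
variable {ι ι' κ : Type*} [Fintype ι] [Fintype ι'] [Fintype κ]
  [DecidableEq ι] [DecidableEq ι'] [DecidableEq κ]

/-- **LE4 on places** (reduced `G = Σ Q_j`, `Q_j` distinct with residue field `K`, `B (Q_j) = B' (Q_j)`):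
`x` (resp. `x'`) a linearly independent family of `L(B + G)` (resp. `L(B' + G)`) whose first block spans
`L(B)` (resp. `L(B')`); `U`, `U'` coordinates of sections `s_l`, `s'_l` with `w₁ · s'_l = u₁ · s_l`
(`u₁, w₁ ∈ 𝔏 ⊗ 𝒪_{Q_j}` of unit value at `Q_j`: LE3).  Then `U'_q = M · U_q` with `det M ∈ Wˣ`. -/
theorem s27tlp_hMU (W : ValuationSubring 𝔏) (hW : ∀ c : K, algebraMap K 𝔏 c ∈ W)
    (B B' : Divisor K F) (Q : κ → Place K F) (hQ : Function.Injective Q)
    (hres : ∀ j, Function.Surjective (algebraMap K (Q j).ResidueField))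
    (a : κ → F) (ha0 : ∀ j, a j ≠ 0)
    (ha : ∀ j, (Q j).ord (a j) = B (Q j) + 1) (ha' : ∀ j, (Q j).ord (a j) = B' (Q j) + 1)
    (x : ι ⊕ κ → F) (hxmem : ∀ i, x i ∈ riemannRochSpace (B + s27tlpG Q))
    (hxl : ∀ i, x (Sum.inl i) ∈ riemannRochSpace B) (hli : LinearIndependent K x)
    (hspan : ∀ y ∈ riemannRochSpace B, y ∈ Submodule.span K (Set.range (x ∘ Sum.inl)))
    (x' : ι' ⊕ κ → F) (hxmem' : ∀ i, x' i ∈ riemannRochSpace (B' + s27tlpG Q))
    (hxl' : ∀ i, x' (Sum.inl i) ∈ riemannRochSpace B') (hli' : LinearIndependent K x')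
    (hspan' : ∀ y ∈ riemannRochSpace B', y ∈ Submodule.span K (Set.range (x' ∘ Sum.inl)))
    (U : Matrix (ι ⊕ κ) κ 𝔏) (U' : Matrix (ι' ⊕ κ) κ 𝔏)
    (hrel : ∀ j, ∃ u₁ w₁ : 𝔏 ⊗[K] s27tlpO (Q j),
      S27ldUnit W (s27tlEv (s27tlpO (Q j)) (s27tlpEps (Q j) (hres j)) u₁) ∧
      S27ldUnit W (s27tlEv (s27tlpO (Q j)) (s27tlpEps (Q j) (hres j)) w₁) ∧
      ∀ l, s27tlIncl (s27tlpO (Q j)) w₁ * ∑ i, U' i l ⊗ₜ[K] x' i =
        s27tlIncl (s27tlpO (Q j)) u₁ * ∑ i, U i l ⊗ₜ[K] x i) :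
    ∃ M : Matrix κ κ 𝔏, S27ldUnit W M.det ∧
      U'.submatrix Sum.inr id = M * U.submatrix Sum.inr id :=
  s27tl_hMU W hW (fun j => s27tlpO (Q j)) (fun j => s27tlpEps (Q j) (hres j)) a x x'
    (s27tlp_hx B Q a hQ ha0 ha x hxmem) (s27tlp_hx B' Q a hQ ha0 ha' x' hxmem')
    (s27tlp_hx0 B Q hres a hQ ha0 ha x hxmem hxl)
    (s27tlp_hx0 B' Q hres a hQ ha0 ha' x' hxmem' hxl')
    (s27tlp_det_ne_zero B Q hres a hQ ha0 ha x hxmem hli hspan)
    (s27tlp_det_ne_zero B' Q hres a hQ ha0 ha' x' hxmem' hli' hspan') U U' hrel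

end Final

end Fermat.Agent.S27

end
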