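/-
S27-B — GEOMETRY INTERFACE of the hub (helper95): the THETA FRAME `S27IsTheta` and the formal leaf IND
`s27th_base : S27IsTheta … → S27IsBase …` (Plan2.lean).

Data: `ψ k = [k]^*` (`k ∈ ℤ`, only `k ≠ 0` is used), `β V` = a local equation of the (non-symmetric) theta
divisor `Θ` at the generic point `η` along the valuation subring `V ⊇ K`, so that
`B k V := ψ k (β (V ∘ ψ k))` is a local equation of `Θ` at `k·η` along `V` (`B 0 V := 1`: `0 ∉ Θ`).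
Hypothesis `cube`: the POINTWISE theorem of the cube at `(k·η, η, −η)`:
`(B (k+1) V · B (k−1) V)^c ≐ Φ k · (B k V ² · B 1 V · B (−1) V)^c` for every `V` (`≐` = up to a unit of `V`).
Conclusion: `b₀ V := (B 1 V · B (−1) V)^c` (local equation of `c (Θ + [−1]^*Θ)`) is a base frame for `φ = ψ n`,
with `H = Ψ⁺ n · Ψ⁻ n`, `Ψ (k+2) = Φ (±(k+1)) · Ψ (k+1)² / Ψ k`  (the exponents are `(k² ± k)/2`, of sum `n²`).
Blueprint: NOTES/S27-geom.md.
-/
import Fermat.Agent.S27.FTele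

set_option autoImplicit false

noncomputable section

namespace Fermat.Agent.S27

open AlgebraicCurve Fermat.Agent.S26

universe w

section Theta

variable (K : Type w) [Field K] {𝔉 : Type w} [Field 𝔉] [Algebra K 𝔉]

/-- the local equation of `Θ` at `k·η` along `V`. -/
def s27thB (ψ : ℤ → (𝔉 →ₐ[K] 𝔉)) (β : ValuationSubring 𝔉 → 𝔉) (k : ℤ)
    (V : ValuationSubring 𝔉) : 𝔉 :=
  if k = 0 then 1 else ψ k (β (V.comap ((ψ k : 𝔉 →ₐ[K] 𝔉) : 𝔉 →+* 𝔉)))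

/-- the local equation of `c (Θ + [−1]^* Θ)` at `η` along `V`. -/
def s27thb0 (ψ : ℤ → (𝔉 →ₐ[K] 𝔉)) (β : ValuationSubring 𝔉 → 𝔉) (c : ℕ)
    (V : ValuationSubring 𝔉) : 𝔉 :=
  (s27thB K ψ β 1 V * s27thB K ψ β (-1) V) ^ c

/-- the telescoped functions along the ray `s·ℕ` (`s = ±1`). -/
def s27thPsi (Φ : ℤ → 𝔉) (s : ℤ) : ℕ → 𝔉
  | 0 => 1
  | 1 => 1
  | (k + 2) => Φ (s * ((k : ℤ) + 1)) * s27thPsi Φ s (k + 1) ^ 2 / s27thPsi Φ s k

/-- **The theta frame** (what the geometry of route (P) delivers). -/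
structure S27IsTheta (ψ : ℤ → (𝔉 →ₐ[K] 𝔉)) (β : ValuationSubring 𝔉 → 𝔉) (c : ℕ) (Φ : ℤ → 𝔉)
    (g n d : ℕ) : Prop where
  n_pos : 0 < n
  c_pos : 0 < c
  /-- `[n] ∘ [1] = [n]` -/
  comp_one : (ψ (n : ℤ)).comp (ψ 1) = ψ (n : ℤ)
  /-- `[n] ∘ [−1] = [−n]` -/
  comp_neg : (ψ (n : ℤ)).comp (ψ (-1)) = ψ (-(n : ℤ))
  beta_ne : ∀ V, S27IsKVal K V → β V ≠ 0
  /-- (EFF) -/
  beta_mem : ∀ V, S27IsKVal K V → β V ∈ V
  Phi_ne : ∀ k, Φ k ≠ 0
  /-- (CUBE) the pointwise theorem of the cube at `(k·η, η, −η)` -/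
  cube : ∀ (k : ℤ) (V : ValuationSubring 𝔉), S27IsKVal K V → ∃ u : 𝔉, S27IsUnitIn V u ∧
    (s27thB K ψ β (k + 1) V * s27thB K ψ β (k - 1) V) ^ c =
      u * Φ k * (s27thB K ψ β k V ^ 2 * s27thB K ψ β 1 V * s27thB K ψ β (-1) V) ^ c
  fin : ∀ m, Module.Finite K (s27L K (s27thb0 K ψ β c) m)
  growth : ∃ c₁ c₂ : ℕ, ∀ m, 1 ≤ m →
    m ^ g ≤ c₁ * Module.finrank K (s27L K (s27thb0 K ψ β c) m) ∧
    Module.finrank K (s27L K (s27thb0 K ψ β c) m) ≤ c₂ * m ^ g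
  gen : ∀ x : 𝔉, ∃ c', ∃ a ∈ s27L K (s27thb0 K ψ β c) c', ∃ e ∈ s27L K (s27thb0 K ψ β c) c',
    e ≠ 0 ∧ x * e = a
  deg_fin : Module.Finite (ψ (n : ℤ)).fieldRange 𝔉
  deg : Module.finrank (ψ (n : ℤ)).fieldRange 𝔉 = d

end Theta

section Ind

variable {K : Type w} [Field K] {𝔉 : Type w} [Field 𝔉] [Algebra K 𝔉]

theorem s27th_unit_iff (V : ValuationSubring 𝔉) (u : 𝔉) :
    S27IsUnitIn V u ↔ V.valuation u = 1 := by
  constructor
  · rintro ⟨h0, h1, h2⟩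
    have a1 : V.valuation u ≤ 1 := (V.valuation_le_one_iff u).2 h1
    have a2 : V.valuation u⁻¹ ≤ 1 := (V.valuation_le_one_iff _).2 h2
    rw [map_inv₀] at a2
    have hv0 : V.valuation u ≠ 0 := (Valuation.ne_zero_iff _).2 h0
    have a3 : 1 ≤ V.valuation u := by
      have := (inv_le_one₀ (zero_lt_iff.2 hv0)).1 a2
      exact this
    exact le_antisymm a1 a3
  · intro h
    have h0 : u ≠ 0 := by
      rintro rfl
      simp at h
    refine ⟨h0, (V.valuation_le_one_iff u).1 h.le, (V.valuation_le_one_iff _).1 ?_⟩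
    rw [map_inv₀, h, inv_one]

theorem s27th_rel_iff (V : ValuationSubring 𝔉) (x y : 𝔉) (hy : y ≠ 0) :
    (∃ u : 𝔉, S27IsUnitIn V u ∧ x = u * y) ↔ V.valuation x = V.valuation y := by
  constructor
  · rintro ⟨u, hu, rfl⟩
    rw [map_mul, (s27th_unit_iff V u).1 hu, one_mul]
  · intro h
    refine ⟨x / y, (s27th_unit_iff V _).2 ?_, by field_simp⟩
    rw [map_div₀, h]
    exact div_self ((Valuation.ne_zero_iff _).2 hy)

/-- triangular numbers `j (j+1) / 2`. -/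
def s27thTri : ℕ → ℕ
  | 0 => 0
  | (j + 1) => s27thTri j + (j + 1)

/-- `j (j−1) / 2`. -/
def s27thTri' : ℕ → ℕ
  | 0 => 0
  | (j + 1) => s27thTri j

theorem s27thTri'_add (j : ℕ) : s27thTri' j + j = s27thTri j := by
  cases j with
  | zero => rfl
  | succ i => rfl

theorem s27thTri_add_tri' (n : ℕ) : s27thTri n + s27thTri' n = n ^ 2 := by
  induction n with
  | zero => rfl
  | succ i ih =>
    have h1 : s27thTri (i + 1) = s27thTri i + (i + 1) := rfl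
    have h2 : s27thTri' (i + 1) = s27thTri i := rfl
    have h3 := s27thTri'_add i
    rw [h1, h2]
    nlinarith

theorem s27thPsi_ne (Φ : ℤ → 𝔉) (hΦ : ∀ k, Φ k ≠ 0) (s : ℤ) : ∀ j, s27thPsi Φ s j ≠ 0
  | 0 => one_ne_zero
  | 1 => one_ne_zero
  | (k + 2) => by
    show Φ (s * ((k : ℤ) + 1)) * s27thPsi Φ s (k + 1) ^ 2 / s27thPsi Φ s k ≠ 0
    exact div_ne_zero (mul_ne_zero (hΦ _) (pow_ne_zero _ (s27thPsi_ne Φ hΦ s (k + 1))))
      (s27thPsi_ne Φ hΦ s k)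

variable {ψ : ℤ → (𝔉 →ₐ[K] 𝔉)} {β : ValuationSubring 𝔉 → 𝔉} {c : ℕ} {Φ : ℤ → 𝔉} {g n d : ℕ}

theorem s27thB_zero (V : ValuationSubring 𝔉) : s27thB K ψ β 0 V = 1 := by
  simp [s27thB]

theorem s27thB_of_ne {k : ℤ} (hk : k ≠ 0) (V : ValuationSubring 𝔉) :
    s27thB K ψ β k V = ψ k (β (V.comap ((ψ k : 𝔉 →ₐ[K] 𝔉) : 𝔉 →+* 𝔉))) := by
  simp [s27thB, hk]

theorem s27thB_ne (hT : S27IsTheta K ψ β c Φ g n d) (k : ℤ) (V : ValuationSubring 𝔉)
    (hV : S27IsKVal K V) : s27thB K ψ β k V ≠ 0 := by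
  by_cases hk : k = 0
  · subst hk
    rw [s27thB_zero]
    exact one_ne_zero
  · rw [s27thB_of_ne hk]
    have := hT.beta_ne _ (s27tele_isKVal_comap (ψ k) V hV)
    exact fun h => this ((map_eq_zero_iff (ψ k) (ψ k).toRingHom.injective).1 h)

theorem s27thB_mem (hT : S27IsTheta K ψ β c Φ g n d) (k : ℤ) (V : ValuationSubring 𝔉)
    (hV : S27IsKVal K V) : s27thB K ψ β k V ∈ V := by
  by_cases hk : k = 0
  · subst hk
    rw [s27thB_zero]
    exact V.one_mem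
  · rw [s27thB_of_ne hk]
    exact hT.beta_mem _ (s27tele_isKVal_comap (ψ k) V hV)

/-- the cube in terms of the valuation. -/
theorem s27th_cube_val (hT : S27IsTheta K ψ β c Φ g n d) (k : ℤ) (V : ValuationSubring 𝔉)
    (hV : S27IsKVal K V) :
    V.valuation ((s27thB K ψ β (k + 1) V * s27thB K ψ β (k - 1) V) ^ c) =
      V.valuation (Φ k * (s27thB K ψ β k V ^ 2 * s27thB K ψ β 1 V * s27thB K ψ β (-1) V) ^ c) := by
  obtain ⟨u, hu, h⟩ := hT.cube k V hV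
  rw [h, mul_assoc, map_mul, (s27th_unit_iff V u).1 hu, one_mul]

/-- **the induction**: `B (s j)^c ≐ Ψ_s j · (B s)^(c·tri j) · (B (−s))^(c·tri' j)`. -/
theorem s27th_ind (hT : S27IsTheta K ψ β c Φ g n d) (s : ℤ) (hs : s = 1 ∨ s = -1)
    (V : ValuationSubring 𝔉) (hV : S27IsKVal K V) :
    ∀ j : ℕ,
      (V.valuation (s27thB K ψ β (s * j) V ^ c) =
        V.valuation (s27thPsi Φ s j * s27thB K ψ β s V ^ (c * s27thTri j) *
          s27thB K ψ β (-s) V ^ (c * s27thTri' j))) ∧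
      (V.valuation (s27thB K ψ β (s * ((j : ℤ) + 1)) V ^ c) =
        V.valuation (s27thPsi Φ s (j + 1) * s27thB K ψ β s V ^ (c * s27thTri (j + 1)) *
          s27thB K ψ β (-s) V ^ (c * s27thTri' (j + 1)))) := by
  intro j
  induction j with
  | zero =>
    constructor
    · simp [s27thB_zero, s27thPsi, s27thTri, s27thTri']
    · simp [s27thPsi, s27thTri, s27thTri']
  | succ i ih =>
    obtain ⟨h0, h1⟩ := ih
    refine ⟨by exact_mod_cast h1, ?_⟩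
    -- the cube at `s (i+1)`
    have hc := s27th_cube_val hT (s * ((i : ℤ) + 1)) V hV
    have hprod : s27thB K ψ β (s * ((i : ℤ) + 1) + 1) V *
        s27thB K ψ β (s * ((i : ℤ) + 1) - 1) V =
        s27thB K ψ β (s * (((i + 1 : ℕ) : ℤ) + 1)) V * s27thB K ψ β (s * (i : ℤ)) V := by
      rcases hs with rfl | rfl
      · have a1 : (1 : ℤ) * ((i : ℤ) + 1) + 1 = 1 * (((i + 1 : ℕ) : ℤ) + 1) := by
          push_cast; ring
        have a2 : (1 : ℤ) * ((i : ℤ) + 1) - 1 = 1 * (i : ℤ) := by ring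
        rw [a1, a2]
      · have a1 : (-1 : ℤ) * ((i : ℤ) + 1) - 1 = -1 * (((i + 1 : ℕ) : ℤ) + 1) := by
          push_cast; ring
        have a2 : (-1 : ℤ) * ((i : ℤ) + 1) + 1 = -1 * (i : ℤ) := by ring
        rw [a1, a2, mul_comm]
    have hsym : s27thB K ψ β 1 V * s27thB K ψ β (-1) V =
        s27thB K ψ β s V * s27thB K ψ β (-s) V := by
      rcases hs with rfl | rfl
      · rfl
      · rw [neg_neg, mul_comm]
    rw [hprod] at hc
    -- notation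
    set X := s27thB K ψ β s V with hX
    set Y := s27thB K ψ β (-s) V with hY
    set C2 := s27thB K ψ β (s * (((i + 1 : ℕ) : ℤ) + 1)) V with hC2
    set C1 := s27thB K ψ β (s * ((i : ℤ) + 1)) V with hC1
    set C0 := s27thB K ψ β (s * (i : ℤ)) V with hC0
    set P0 := s27thPsi Φ s i with hP0
    set P1 := s27thPsi Φ s (i + 1) with hP1
    set P2 := s27thPsi Φ s (i + 1 + 1) with hP2
    set Φ' := Φ (s * ((i : ℤ) + 1)) with hΦ'
    have hP00 : P0 ≠ 0 := s27thPsi_ne Φ hT.Phi_ne s i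
    have hPP : P2 * P0 = Φ' * P1 ^ 2 := by
      show Φ' * P1 ^ 2 / P0 * P0 = Φ' * P1 ^ 2
      exact div_mul_cancel₀ _ hP00
    have m1 : ∀ a b : 𝔉, V.valuation (Φ' * a ^ 2 * b) =
        V.valuation Φ' * V.valuation a ^ 2 * V.valuation b := fun a b => by
      rw [map_mul, map_mul, map_pow]
    have hC00 : V.valuation (C0 ^ c) ≠ 0 :=
      (Valuation.ne_zero_iff _).2 (pow_ne_zero _ (s27thB_ne hT _ V hV))
    -- exponents
    have t1 : s27thTri (i + 1 + 1) + s27thTri i = 2 * s27thTri (i + 1) + 1 := by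
      have a : s27thTri (i + 1 + 1) = s27thTri (i + 1) + (i + 1 + 1) := rfl
      have b : s27thTri (i + 1) = s27thTri i + (i + 1) := rfl
      omega
    have t2 : s27thTri' (i + 1 + 1) + s27thTri' i = 2 * s27thTri' (i + 1) + 1 := by
      have a : s27thTri' (i + 1 + 1) = s27thTri (i + 1) := rfl
      have b : s27thTri' (i + 1) = s27thTri i := rfl
      have b' : s27thTri (i + 1) = s27thTri i + (i + 1) := rfl
      have d := s27thTri'_add i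
      omega
    -- multiply the claim by `v (C0 ^ c)` and compare
    apply mul_right_cancel₀ hC00
    have f1 : (C2 * C0) ^ c = C2 ^ c * C0 ^ c := mul_pow _ _ _
    have f2 : Φ' * (C1 ^ 2 * s27thB K ψ β 1 V * s27thB K ψ β (-1) V) ^ c =
        Φ' * (C1 ^ c) ^ 2 * (X * Y) ^ c := by
      rw [mul_assoc (C1 ^ 2), hsym]
      ring
    have f3 : P2 * X ^ (c * s27thTri (i + 1 + 1)) * Y ^ (c * s27thTri' (i + 1 + 1)) *
        (P0 * X ^ (c * s27thTri i) * Y ^ (c * s27thTri' i)) =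
        Φ' * (P1 * X ^ (c * s27thTri (i + 1)) * Y ^ (c * s27thTri' (i + 1))) ^ 2 * (X * Y) ^ c := by
      have g1 : P2 * X ^ (c * s27thTri (i + 1 + 1)) * Y ^ (c * s27thTri' (i + 1 + 1)) *
          (P0 * X ^ (c * s27thTri i) * Y ^ (c * s27thTri' i)) =
          (P2 * P0) * X ^ (c * (s27thTri (i + 1 + 1) + s27thTri i)) *
            Y ^ (c * (s27thTri' (i + 1 + 1) + s27thTri' i)) := by
        rw [mul_add, mul_add, pow_add, pow_add]
        ring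
      rw [g1, hPP, t1, t2]
      ring
    calc V.valuation (C2 ^ c) * V.valuation (C0 ^ c)
        = V.valuation ((C2 * C0) ^ c) := by rw [f1, map_mul]
      _ = V.valuation (Φ' * (C1 ^ c) ^ 2 * (X * Y) ^ c) := by rw [hc, f2]
      _ = V.valuation Φ' * V.valuation (C1 ^ c) ^ 2 * V.valuation ((X * Y) ^ c) := m1 _ _
      _ = V.valuation Φ' *
            V.valuation (P1 * X ^ (c * s27thTri (i + 1)) * Y ^ (c * s27thTri' (i + 1))) ^ 2 *
            V.valuation ((X * Y) ^ c) := by rw [h1]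
      _ = V.valuation (Φ' * (P1 * X ^ (c * s27thTri (i + 1)) * Y ^ (c * s27thTri' (i + 1))) ^ 2 *
            (X * Y) ^ c) := (m1 _ _).symm
      _ = V.valuation (P2 * X ^ (c * s27thTri (i + 1 + 1)) * Y ^ (c * s27thTri' (i + 1 + 1)) *
            (P0 * X ^ (c * s27thTri i) * Y ^ (c * s27thTri' i))) := by rw [f3]
      _ = V.valuation (P2 * X ^ (c * s27thTri (i + 1 + 1)) * Y ^ (c * s27thTri' (i + 1 + 1))) *
            V.valuation (P0 * X ^ (c * s27thTri i) * Y ^ (c * s27thTri' i)) := by rw [map_mul]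
      _ = V.valuation (P2 * X ^ (c * s27thTri (i + 1 + 1)) * Y ^ (c * s27thTri' (i + 1 + 1))) *
            V.valuation (C0 ^ c) := by rw [← h0]

/-- the function `H` of the base frame. -/
def s27thH (Φ : ℤ → 𝔉) (n : ℕ) : 𝔉 := s27thPsi Φ 1 n * s27thPsi Φ (-1) n

theorem s27th_cube1 (hT : S27IsTheta K ψ β c Φ g n d) (V : ValuationSubring 𝔉)
    (hV : S27IsKVal K V) : ∃ u : 𝔉, S27IsUnitIn V u ∧
      (ψ (n : ℤ)) (s27thb0 K ψ β c (V.comap ((ψ (n : ℤ) : 𝔉 →ₐ[K] 𝔉) : 𝔉 →+* 𝔉))) =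
        u * s27thH Φ n * s27thb0 K ψ β c V ^ (n ^ 2) := by
  have hn0 : ((n : ℕ) : ℤ) ≠ 0 := by
    have := hT.n_pos
    exact_mod_cast this.ne'
  have hb0 : s27thb0 K ψ β c V ≠ 0 :=
    pow_ne_zero _ (mul_ne_zero (s27thB_ne hT 1 V hV) (s27thB_ne hT (-1) V hV))
  have hH0 : s27thH Φ n ≠ 0 :=
    mul_ne_zero (s27thPsi_ne Φ hT.Phi_ne 1 n) (s27thPsi_ne Φ hT.Phi_ne (-1) n)
  have hy : s27thH Φ n * s27thb0 K ψ β c V ^ (n ^ 2) ≠ 0 := mul_ne_zero hH0 (pow_ne_zero _ hb0)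
  have key : V.valuation ((ψ (n : ℤ))
      (s27thb0 K ψ β c (V.comap ((ψ (n : ℤ) : 𝔉 →ₐ[K] 𝔉) : 𝔉 →+* 𝔉)))) =
      V.valuation (s27thH Φ n * s27thb0 K ψ β c V ^ (n ^ 2)) := by
    -- the left-hand side is `(B n V · B (−n) V)^c`
    have hL1 : (ψ (n : ℤ)) (s27thB K ψ β 1 (V.comap ((ψ (n : ℤ) : 𝔉 →ₐ[K] 𝔉) : 𝔉 →+* 𝔉))) =
        s27thB K ψ β (n : ℤ) V := by
      rw [s27thB_of_ne one_ne_zero, s27thB_of_ne hn0, ValuationSubring.comap_comap]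
      have h1 : ((ψ (n : ℤ) : 𝔉 →ₐ[K] 𝔉) : 𝔉 →+* 𝔉).comp ((ψ 1 : 𝔉 →ₐ[K] 𝔉) : 𝔉 →+* 𝔉) =
          (((ψ (n : ℤ)).comp (ψ 1) : 𝔉 →ₐ[K] 𝔉) : 𝔉 →+* 𝔉) := rfl
      have h2 : ∀ x, (ψ (n : ℤ)) ((ψ 1) x) = ((ψ (n : ℤ)).comp (ψ 1)) x := fun _ => rfl
      rw [h1, h2, hT.comp_one]
    have hL2 : (ψ (n : ℤ)) (s27thB K ψ β (-1) (V.comap ((ψ (n : ℤ) : 𝔉 →ₐ[K] 𝔉) : 𝔉 →+* 𝔉))) =
        s27thB K ψ β (-(n : ℤ)) V := by
      have hm1 : (-1 : ℤ) ≠ 0 := by norm_num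
      have hmn : (-(n : ℤ)) ≠ 0 := neg_ne_zero.2 hn0
      rw [s27thB_of_ne hm1, s27thB_of_ne hmn, ValuationSubring.comap_comap]
      have h1 : ((ψ (n : ℤ) : 𝔉 →ₐ[K] 𝔉) : 𝔉 →+* 𝔉).comp ((ψ (-1) : 𝔉 →ₐ[K] 𝔉) : 𝔉 →+* 𝔉) =
          (((ψ (n : ℤ)).comp (ψ (-1)) : 𝔉 →ₐ[K] 𝔉) : 𝔉 →+* 𝔉) := rfl
      have h2 : ∀ x, (ψ (n : ℤ)) ((ψ (-1)) x) = ((ψ (n : ℤ)).comp (ψ (-1))) x := fun _ => rfl
      rw [h1, h2, hT.comp_neg]
    have hL : (ψ (n : ℤ))
        (s27thb0 K ψ β c (V.comap ((ψ (n : ℤ) : 𝔉 →ₐ[K] 𝔉) : 𝔉 →+* 𝔉))) =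
        s27thB K ψ β (n : ℤ) V ^ c * s27thB K ψ β (-(n : ℤ)) V ^ c := by
      unfold s27thb0
      rw [map_pow, map_mul, hL1, hL2, mul_pow]
    rw [hL]
    have i1 := (s27th_ind hT 1 (Or.inl rfl) V hV n).1
    have i2 := (s27th_ind hT (-1) (Or.inr rfl) V hV n).1
    rw [one_mul] at i1
    rw [neg_one_mul, neg_neg] at i2
    have hsq := s27thTri_add_tri' n
    set X := s27thB K ψ β 1 V with hX
    set Y := s27thB K ψ β (-1) V with hY
    have e1 : s27thPsi Φ 1 n * X ^ (c * s27thTri n) * Y ^ (c * s27thTri' n) *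
        (s27thPsi Φ (-1) n * Y ^ (c * s27thTri n) * X ^ (c * s27thTri' n)) =
        s27thH Φ n * s27thb0 K ψ β c V ^ (n ^ 2) := by
      have g1 : s27thPsi Φ 1 n * X ^ (c * s27thTri n) * Y ^ (c * s27thTri' n) *
          (s27thPsi Φ (-1) n * Y ^ (c * s27thTri n) * X ^ (c * s27thTri' n)) =
          s27thPsi Φ 1 n * s27thPsi Φ (-1) n * X ^ (c * (s27thTri n + s27thTri' n)) *
            Y ^ (c * (s27thTri n + s27thTri' n)) := by
        rw [mul_add, pow_add, pow_add]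
        ring
      rw [g1, hsq]
      unfold s27thH s27thb0
      rw [← hX, ← hY, pow_mul, pow_mul, mul_pow, mul_pow]
      ring
    rw [map_mul, i1, i2, ← map_mul, e1]
  obtain ⟨u, hu, h⟩ := (s27th_rel_iff V _ _ hy).2 key
  exact ⟨u, hu, by rw [h]; ring⟩

/-- **IND**: a theta frame gives a base frame, for `φ = ψ n`, `b₀ = (B 1 · B (−1))^c`,
`H = Ψ⁺ n · Ψ⁻ n`. -/
theorem s27th_base (hT : S27IsTheta K ψ β c Φ g n d) :
    S27IsBase K (ψ (n : ℤ)) (s27thb0 K ψ β c) (s27thH Φ n) g n d where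
  b_ne := fun V hV =>
    pow_ne_zero _ (mul_ne_zero (s27thB_ne hT 1 V hV) (s27thB_ne hT (-1) V hV))
  b_mem := fun V hV =>
    V.pow_mem (V.mul_mem _ _ (s27thB_mem hT 1 V hV) (s27thB_mem hT (-1) V hV)) c
  H_ne := mul_ne_zero (s27thPsi_ne Φ hT.Phi_ne 1 n) (s27thPsi_ne Φ hT.Phi_ne (-1) n)
  cube1 := fun V hV => s27th_cube1 hT V hV
  fin := hT.fin
  growth := hT.growth
  gen := hT.gen
  deg_fin := hT.deg_fin
  deg := hT.deg

end Ind

end Fermat.Agent.S27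

end
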