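/-
S27 route B, leaf THETA-NZ (ii) (helper47; for CP-TOP / REP-INST, helper18 + helper4 + helper79):
**the determinant of values of a `K`-linearly independent family at a GENERIC tuple is nonzero.**

`e : Fin g → (F →ₐ[K] M)` a tuple of points of `F` in a field `M ⊇ K` whose product map
`F^{⊗ g} → M` is injective (e.g. a generic tuple, `S27dgGeneric K t e`; a member `q k`, `k ≠ 0`, of a
family `S27pfFam pkg q`; the tautological tuple).  Then `det [e i (v l)] ≠ 0` for every
`K`-linearly independent `v : Fin g → F`, in particular `θ(e; A') = det [e i (f l)] ≠ 0` for every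
`K`-basis `f` of `L_K(A')`.

Proof: `e = σ ∘ ι` with `σ = s27gfLift e : Ω_g → M` a field embedding; `det [ι i (v l)] ≠ 0` is
helper19's `s27betat_det_ne_zero`; `s27pt_det_nat` (helper95).

* `s27tnz_of_inj`, `s27tnz_basis_of_inj`   : from the injectivity of `s27gfLiftR e`;
* `s27tnz_generic`, `s27tnz_basis_generic` : from `S27dgGeneric K t e` (`F` algebraic over `K[t]`);
* `s27tnz_generic'`, `s27tnz_basis_generic'` : the same, `F` algebraic over `K(t)`;
* `s27tnz_fam`                             : `θ(q k; A') ≠ 0` for a family `q`, `k ≠ 0`;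
* `s27tnz_taut`                            : `θ(taut; A') ≠ 0` in `L`.
-/
import Fermat.Agent.S27.BetaTheta
import Fermat.Agent.S27.DegFld
import Fermat.Agent.S27.PsiFam

set_option autoImplicit false
set_option linter.unusedSectionVars false
set_option linter.unusedVariables false
set_option linter.style.haveILetI false

noncomputable section

namespace Fermat.Agent.S27

open AlgebraicCurve

universe u v w x y

section Inj

variable {K : Type u} {F : Type v} [Field K] [IsAlgClosed K] [Field F] [Algebra K F] {g : ℕ}
variable {M : Type w} [Field M] [Algebra K M]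

/-- the tuple `e` is the image of the tautological tuple of `Ω_g` under `s27gfLift e`. -/
theorem s27tnz_val_eq (e : Fin g → F →ₐ[K] M) (he : Function.Injective (s27gfLiftR e))
    (v : Fin g → F) :
    s27ptVal e v =
      s27ptVal (fun i => (s27gfLift e he).comp (s27betaPt K F g i)) v := by
  ext i l
  show e i (v l) = s27gfLift e he (s27gfIota i (v l))
  rw [s27gfLift_iota]

/-- **THETA-NZ**: an injective product map ⇒ the determinant of values of a linearly independent
family is nonzero. -/
theorem s27tnz_of_inj (e : Fin g → F →ₐ[K] M) (he : Function.Injective (s27gfLiftR e))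
    (v : Fin g → F) (hv : LinearIndependent K v) : (s27ptVal e v).det ≠ 0 := by
  rw [s27tnz_val_eq e he v, s27pt_det_nat]
  intro h0
  exact s27betat_det_ne_zero v hv
    ((map_eq_zero_iff (s27gfLift e he) (s27gfLift e he).toRingHom.injective).1 h0)

/-- **THETA-NZ** for a `K`-basis of `L_K(A')`. -/
theorem s27tnz_basis_of_inj (e : Fin g → F →ₐ[K] M) (he : Function.Injective (s27gfLiftR e))
    (A' : Divisor K F) (f : Module.Basis (Fin g) K ↥(riemannRochSpace A')) :
    (s27ptValB e f).det ≠ 0 := by
  have hli : LinearIndependent K (fun l => ((f l : ↥(riemannRochSpace A')) : F)) :=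
    f.linearIndependent.map' (riemannRochSpace A').subtype (Submodule.ker_subtype _)
  exact s27tnz_of_inj e he _ hli

/-- **THETA-NZ** for a generic tuple (`F` algebraic over `K[t]`). -/
theorem s27tnz_generic (t : F)
    (halg : Algebra.IsAlgebraic (Algebra.adjoin K ({t} : Set F)) F)
    (e : Fin g → F →ₐ[K] M) (he : S27dgGeneric K t e)
    (v : Fin g → F) (hv : LinearIndependent K v) : (s27ptVal e v).det ≠ 0 :=
  s27tnz_of_inj e (s27dfl_liftR_injective t halg e he) v hv

/-- **THETA-NZ** for a generic tuple and a `K`-basis of `L_K(A')`. -/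
theorem s27tnz_basis_generic (t : F)
    (halg : Algebra.IsAlgebraic (Algebra.adjoin K ({t} : Set F)) F)
    (e : Fin g → F →ₐ[K] M) (he : S27dgGeneric K t e)
    (A' : Divisor K F) (f : Module.Basis (Fin g) K ↥(riemannRochSpace A')) :
    (s27ptValB e f).det ≠ 0 :=
  s27tnz_basis_of_inj e (s27dfl_liftR_injective t halg e he) A' f

/-- **THETA-NZ** for a generic tuple (`F` algebraic over `K(t)`). -/
theorem s27tnz_generic' (t : F)
    (halg : ∀ u : F, IsAlgebraic (IntermediateField.adjoin K {t}) u)
    (e : Fin g → F →ₐ[K] M) (he : S27dgGeneric K t e)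
    (v : Fin g → F) (hv : LinearIndependent K v) : (s27ptVal e v).det ≠ 0 :=
  s27tnz_generic t (s27dfl_halg t halg) e he v hv

/-- **THETA-NZ** for a generic tuple and a `K`-basis of `L_K(A')` (`F` algebraic over `K(t)`). -/
theorem s27tnz_basis_generic' (t : F)
    (halg : ∀ u : F, IsAlgebraic (IntermediateField.adjoin K {t}) u)
    (e : Fin g → F →ₐ[K] M) (he : S27dgGeneric K t e)
    (A' : Divisor K F) (f : Module.Basis (Fin g) K ↥(riemannRochSpace A')) :
    (s27ptValB e f).det ≠ 0 :=
  s27tnz_basis_generic t (s27dfl_halg t halg) e he A' f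

end Inj

section Fam

variable {K : Type u} {F : Type v} [Field K] [IsAlgClosed K] [Field F] [Algebra K F] {g : ℕ}
variable {L : Type (max u v)} [Field L] [Algebra K L] [Algebra (s27gfOm K F g) L]
  [IsScalarTower K (s27gfOm K F g) L]
variable {t : F} {Pl : Type x} {P : Type y} [AddCommGroup P] (pkg : S27DegPkg K F L t g Pl P)

/-- **THETA-NZ on a family**: `θ(q k; A') ≠ 0` for `k ≠ 0`. -/
theorem s27tnz_fam (halg : ∀ u : F, IsAlgebraic (IntermediateField.adjoin K {t}) u)
    {q : ℤ → Fin g → F →ₐ[K] L} (hq : S27pfFam pkg q) (k : ℤ) (hk : k ≠ 0)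
    (A' : Divisor K F) (f : Module.Basis (Fin g) K ↥(riemannRochSpace A')) :
    (s27ptValB (q k) f).det ≠ 0 :=
  s27tnz_basis_generic' t halg (q k) (hq k hk).1 A' f

/-- the same for a linearly independent family. -/
theorem s27tnz_fam_li (halg : ∀ u : F, IsAlgebraic (IntermediateField.adjoin K {t}) u)
    {q : ℤ → Fin g → F →ₐ[K] L} (hq : S27pfFam pkg q) (k : ℤ) (hk : k ≠ 0)
    (v : Fin g → F) (hv : LinearIndependent K v) : (s27ptVal (q k) v).det ≠ 0 :=
  s27tnz_generic' t halg (q k) (hq k hk).1 v hv

/-- **THETA-NZ at the tautological tuple** of `L`. -/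
theorem s27tnz_taut (A' : Divisor K F) (f : Module.Basis (Fin g) K ↥(riemannRochSpace A')) :
    (s27ptValB (s27pfTaut (K := K) (F := F) (g := g) (L := L)) f).det ≠ 0 :=
  s27tnz_basis_of_inj _ s27pf_taut_inj A' f

end Fam

end Fermat.Agent.S27

end
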