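/-
S27, route B (NOTES/S27-wronskian.md, NOTES/S27-on-S26.md), leaf **TOP-ABS** (helper11).

Pure algebra.  An ABSTRACT VALUATION PACKAGE on a field `𝔉 / K` with an endomorphism `φ`
(think `𝔉 = K(Sym^g C) = K(J)`, `φ = [n]^*`):

* a family of additive, `ℤ`-valued orders `ord i : 𝔉 → ℤ` (values at `0` are junk);
* weights `Λ k i ≥ 0` (the multiplicity of `[n^k]^* (Θ + Θ⁻)` along `i`; `Λ 0` = the weight of
  `Θ + Θ⁻` itself);
* functions `H k ≠ 0` with `ord i (H k) = Λ k i - n^(2k) Λ 0 i`  (the CUBE relation);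
* `crux` / `lift` : the weight `Λ k` is the pull-back of `Λ 0` along `φ^k`;
* `𝔉 / φ^k 𝔉` finite Galois, the family of orders stable under the Galois group, with the
  weights `Λ k` invariant.

With `L m = {f | ord i f ≥ - m Λ 0 i}` and `L' k m = {f | ord i f ≥ - m Λ k i}` the hypotheses
(mono), (E) [with `c = 1`, `c' = 0`], (b1), (b2), (sep), (c2) of `S26Growth` are PROVED here;
(fin) and (G1) for `L`, (b3) and (deg) stay hypotheses:

* `s27ta_growth : … → S26Growth K g n d`;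
* `s27ta_card   : … → d = n ^ (2 * g)`  (by `s26c_stmtCore`).
-/
import Fermat.Agent.S26.CFinal

set_option autoImplicit false
set_option linter.style.haveILetI false
set_option linter.unusedVariables false
set_option linter.unusedSectionVars false

noncomputable section

namespace Fermat.Agent.S27

open Module Fermat.Agent.S26

universe u v

/-- **The abstract valuation package** of route B. -/
structure S27taPkg (K : Type u) [Field K] (𝔉 : Type u) [Field 𝔉] [Algebra K 𝔉] (n : ℕ) where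
  /-- the endomorphism, `[n]^*` -/
  φ : 𝔉 →ₐ[K] 𝔉
  /-- the index set of the orders -/
  ι : Type v
  /-- the orders (junk at `0`) -/
  ord : ι → 𝔉 → ℤ
  ord_mul : ∀ i (f g : 𝔉), f ≠ 0 → g ≠ 0 → ord i (f * g) = ord i f + ord i g
  ord_add : ∀ i (f g : 𝔉), f ≠ 0 → g ≠ 0 → f + g ≠ 0 →
    min (ord i f) (ord i g) ≤ ord i (f + g)
  ord_const : ∀ i (c : K), c ≠ 0 → ord i (algebraMap K 𝔉 c) = 0
  /-- the weights: `Λ k` is the weight of `[n^k]^* D` -/
  Λ : ℕ → ι → ℤ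
  Λ_nonneg : ∀ k i, 0 ≤ Λ k i
  /-- the functions of the cube relation -/
  H : ℕ → 𝔉
  H_ne : ∀ k, H k ≠ 0
  cube : ∀ k i, ord i (H k) = Λ k i - (n : ℤ) ^ (2 * k) * Λ 0 i
  /-- the weight `Λ k` is the pull-back of `Λ 0` along `φ ^ k` -/
  crux : ∀ k i, ∃ (j : ι) (e : ℤ), 0 < e ∧
    (∀ f : 𝔉, f ≠ 0 → ord i ((φ ^ k) f) = e * ord j f) ∧ Λ k i = e * Λ 0 j
  /-- every order extends along `φ ^ k` -/
  lift : ∀ k j, ∃ (i : ι) (e : ℤ), 0 < e ∧
    (∀ f : 𝔉, f ≠ 0 → ord i ((φ ^ k) f) = e * ord j f) ∧ Λ k i = e * Λ 0 j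
  fin : ∀ k, FiniteDimensional (φ ^ k).fieldRange 𝔉
  gal : ∀ k, IsGalois (φ ^ k).fieldRange 𝔉
  /-- the orders are permuted by the Galois group, the weight `Λ k` is invariant -/
  stab : ∀ k (σ : 𝔉 ≃ₐ[(φ ^ k).fieldRange] 𝔉) (i : ι), ∃ i' : ι,
    (∀ f : 𝔉, f ≠ 0 → ord i (σ f) = ord i' f) ∧ Λ k i' = Λ k i

namespace S27taPkg

variable {K : Type u} [Field K] {𝔉 : Type u} [Field 𝔉] [Algebra K 𝔉] {n : ℕ}
  (P : S27taPkg.{u, v} K 𝔉 n)

/-- the functions with poles bounded by the weight `w` -/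
def lam (w : P.ι → ℤ) : Submodule K 𝔉 where
  carrier := {f | f = 0 ∨ ∀ i, -w i ≤ P.ord i f}
  zero_mem' := Or.inl rfl
  add_mem' := by
    rintro f g hf hg
    by_cases hf0 : f = 0
    · simpa [hf0] using hg
    by_cases hg0 : g = 0
    · simpa [hg0] using hf
    by_cases hfg : f + g = 0
    · exact Or.inl hfg
    rcases hf with hf | hf
    · exact absurd hf hf0
    rcases hg with hg | hg
    · exact absurd hg hg0
    refine Or.inr fun i => ?_
    exact le_trans (le_min (hf i) (hg i)) (P.ord_add i f g hf0 hg0 hfg)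
  smul_mem' := by
    rintro c f hf
    by_cases hc : c = 0
    · left; simp [hc]
    rcases hf with hf | hf
    · left; simp [hf]
    by_cases hf0 : f = 0
    · left; simp [hf0]
    refine Or.inr fun i => ?_
    have hc' : algebraMap K 𝔉 c ≠ 0 := by
      simpa using (map_ne_zero (algebraMap K 𝔉)).2 hc
    rw [Algebra.smul_def, P.ord_mul i _ _ hc' hf0, P.ord_const i c hc, zero_add]
    exact hf i

theorem mem_lam {w : P.ι → ℤ} {f : 𝔉} : f ∈ P.lam w ↔ f = 0 ∨ ∀ i, -w i ≤ P.ord i f :=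
  Iff.rfl

theorem mem_lam_of_ne {w : P.ι → ℤ} {f : 𝔉} (hf : f ≠ 0) :
    f ∈ P.lam w ↔ ∀ i, -w i ≤ P.ord i f := by
  rw [mem_lam]
  exact ⟨fun h => h.resolve_left hf, Or.inr⟩

/-- `L m = L(m D)` -/
def L (m : ℕ) : Submodule K 𝔉 := P.lam fun i => (m : ℤ) * P.Λ 0 i

/-- `L' k m = L(m [n^k]^* D)` -/
def L' (k m : ℕ) : Submodule K 𝔉 := P.lam fun i => (m : ℤ) * P.Λ k i

theorem lam_mono {w w' : P.ι → ℤ} (h : ∀ i, w i ≤ w' i) : P.lam w ≤ P.lam w' := by
  intro f hf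
  rcases hf with hf | hf
  · exact Or.inl hf
  · exact Or.inr fun i => le_trans (neg_le_neg (h i)) (hf i)

theorem L'_mono (k : ℕ) : Monotone (P.L' k) := by
  intro a b hab
  refine P.lam_mono fun i => ?_
  exact mul_le_mul_of_nonneg_right (by exact_mod_cast hab) (P.Λ_nonneg k i)

theorem L_mono : Monotone P.L := by
  intro a b hab
  refine P.lam_mono fun i => ?_
  exact mul_le_mul_of_nonneg_right (by exact_mod_cast hab) (P.Λ_nonneg 0 i)

/-! ### orders of powers and inverses -/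

theorem ord_one (i : P.ι) : P.ord i 1 = 0 := by
  have h := P.ord_mul i 1 1 one_ne_zero one_ne_zero
  rw [mul_one] at h
  linarith

theorem ord_pow (i : P.ι) {f : 𝔉} (hf : f ≠ 0) (m : ℕ) :
    P.ord i (f ^ m) = (m : ℤ) * P.ord i f := by
  induction m with
  | zero => simp [P.ord_one i]
  | succ m ih =>
    rw [pow_succ, P.ord_mul i _ _ (pow_ne_zero m hf) hf, ih]
    push_cast
    ring

theorem ord_inv (i : P.ι) {f : 𝔉} (hf : f ≠ 0) : P.ord i f⁻¹ = - P.ord i f := by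
  have h := P.ord_mul i f f⁻¹ hf (inv_ne_zero hf)
  rw [mul_inv_cancel₀ hf, P.ord_one i] at h
  linarith

/-! ### (b2) -/

theorem lam_mul {w w' : P.ι → ℤ} {x y : 𝔉} (hx : x ∈ P.lam w) (hy : y ∈ P.lam w') :
    x * y ∈ P.lam fun i => w i + w' i := by
  by_cases hx0 : x = 0
  · left; simp [hx0]
  by_cases hy0 : y = 0
  · left; simp [hy0]
  refine Or.inr fun i => ?_
  have h1 : -w i ≤ P.ord i x := (P.mem_lam_of_ne hx0).1 hx i
  have h2 : -w' i ≤ P.ord i y := (P.mem_lam_of_ne hy0).1 hy i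
  show -(w i + w' i) ≤ P.ord i (x * y)
  rw [P.ord_mul i x y hx0 hy0]
  linarith

theorem b2 (k a b : ℕ) {x y : 𝔉} (hx : x ∈ P.L' k a) (hy : y ∈ P.L' k b) :
    x * y ∈ P.L' k (a + b) := by
  have h := P.lam_mul hx hy
  refine P.lam_mono (fun i => ?_) h
  push_cast
  exact le_of_eq (by ring)

/-! ### (E): multiplication by `H k ^ m` -/

theorem mul_H_mem (k m : ℕ) {f : 𝔉} (hf : f ∈ P.L' k m) :
    f * P.H k ^ m ∈ P.L (n ^ (2 * k) * m) := by
  by_cases hf0 : f = 0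
  · left; simp [hf0]
  have hH := pow_ne_zero m (P.H_ne k)
  refine Or.inr fun i => ?_
  have h1 : -((m : ℤ) * P.Λ k i) ≤ P.ord i f := (P.mem_lam_of_ne hf0).1 hf i
  show -(((n ^ (2 * k) * m : ℕ) : ℤ) * P.Λ 0 i) ≤ P.ord i (f * P.H k ^ m)
  rw [P.ord_mul i _ _ hf0 hH, P.ord_pow i (P.H_ne k), P.cube]
  push_cast
  nlinarith [h1]

theorem div_H_mem (k m : ℕ) {f : 𝔉} (hf : f ∈ P.L (n ^ (2 * k) * m)) :
    f * (P.H k ^ m)⁻¹ ∈ P.L' k m := by
  by_cases hf0 : f = 0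
  · left; simp [hf0]
  have hH := pow_ne_zero m (P.H_ne k)
  refine Or.inr fun i => ?_
  have h1 : -(((n ^ (2 * k) * m : ℕ) : ℤ) * P.Λ 0 i) ≤ P.ord i f :=
    (P.mem_lam_of_ne hf0).1 hf i
  show -((m : ℤ) * P.Λ k i) ≤ P.ord i (f * (P.H k ^ m)⁻¹)
  rw [P.ord_mul i _ _ hf0 (inv_ne_zero hH), P.ord_inv i hH, P.ord_pow i (P.H_ne k), P.cube]
  push_cast at h1 ⊢
  nlinarith [h1]

/-- `L' k m ≃ L (n^(2k) m)`, `f ↦ f H^m` -/
def equivE (k m : ℕ) : P.L' k m ≃ₗ[K] P.L (n ^ (2 * k) * m) where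
  toFun f := ⟨f.1 * P.H k ^ m, P.mul_H_mem k m f.2⟩
  invFun f := ⟨f.1 * (P.H k ^ m)⁻¹, P.div_H_mem k m f.2⟩
  map_add' f g := by
    apply Subtype.ext
    simp [add_mul]
  map_smul' c f := by
    apply Subtype.ext
    simp [Algebra.smul_def, mul_assoc]
  left_inv f := by
    apply Subtype.ext
    have hH := pow_ne_zero m (P.H_ne k)
    simp [mul_assoc, mul_inv_cancel₀ hH]
  right_inv f := by
    apply Subtype.ext
    have hH := pow_ne_zero m (P.H_ne k)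
    simp [mul_assoc, inv_mul_cancel₀ hH]

theorem finrank_L' (k m : ℕ) :
    finrank K (P.L' k m) = finrank K (P.L (n ^ (2 * k) * m)) :=
  (P.equivE k m).finrank_eq

theorem finite_L' (hfin : ∀ m, Module.Finite K (P.L m)) (k m : ℕ) :
    Module.Finite K (P.L' k m) := by
  haveI := hfin (n ^ (2 * k) * m)
  exact Module.Finite.equiv (P.equivE k m).symm

/-! ### (b1) -/

theorem b1 (k m : ℕ) {x : 𝔉} (hx : x ∈ P.L m) : (P.φ ^ k) x ∈ P.L' k m := by
  by_cases hx0 : x = 0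
  · left; simp [hx0]
  refine Or.inr fun i => ?_
  obtain ⟨j, e, he, hord, hΛ⟩ := P.crux k i
  have h1 : -((m : ℤ) * P.Λ 0 j) ≤ P.ord j x := (P.mem_lam_of_ne hx0).1 hx j
  show -((m : ℤ) * P.Λ k i) ≤ P.ord i ((P.φ ^ k) x)
  rw [hord x hx0, hΛ]
  nlinarith [h1]

/-! ### (c2) -/

theorem ord_sum_ge (i : P.ι) {α : Type*} (s : Finset α) (F : α → 𝔉) (b : ℤ)
    (h : ∀ a ∈ s, F a ≠ 0 → b ≤ P.ord i (F a)) (hs : ∑ a ∈ s, F a ≠ 0) :
    b ≤ P.ord i (∑ a ∈ s, F a) := by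
  classical
  induction s using Finset.induction_on with
  | empty => simp at hs
  | insert a s ha ih =>
    rw [Finset.sum_insert ha] at hs ⊢
    by_cases h1 : F a = 0
    · rw [h1, zero_add] at hs ⊢
      exact ih (fun a' ha' => h a' (Finset.mem_insert_of_mem ha')) hs
    by_cases h2 : ∑ a ∈ s, F a = 0
    · rw [h2, add_zero]
      exact h a (Finset.mem_insert_self a s) h1
    refine le_trans (le_min ?_ ?_) (P.ord_add i _ _ h1 h2 hs)
    · exact h a (Finset.mem_insert_self a s) h1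
    · exact ih (fun a' ha' => h a' (Finset.mem_insert_of_mem ha')) h2

theorem c2 (k m : ℕ) {x : 𝔉} (hx : x ∈ P.L' k m) :
    ∃ y ∈ P.L m,
      ((Algebra.trace (P.φ ^ k).fieldRange 𝔉 x : (P.φ ^ k).fieldRange) : 𝔉) = (P.φ ^ k) y := by
  classical
  haveI := P.fin k
  haveI := P.gal k
  obtain ⟨y, hy⟩ : ∃ y, (P.φ ^ k) y =
      ((Algebra.trace (P.φ ^ k).fieldRange 𝔉 x : (P.φ ^ k).fieldRange) : 𝔉) := by
    have h := (Algebra.trace (P.φ ^ k).fieldRange 𝔉 x).2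
    rw [AlgHom.mem_fieldRange] at h
    exact h
  refine ⟨y, ?_, hy.symm⟩
  by_cases hy0 : y = 0
  · left; exact hy0
  refine Or.inr fun j => ?_
  obtain ⟨i, e, he, hord, hΛ⟩ := P.lift k j
  have hφy : (P.φ ^ k) y ≠ 0 := by
    rw [Ne, map_eq_zero]; exact hy0
  have htr : (P.φ ^ k) y = ∑ σ : 𝔉 ≃ₐ[(P.φ ^ k).fieldRange] 𝔉, σ x := by
    rw [hy]
    exact trace_eq_sum_automorphisms (K := (P.φ ^ k).fieldRange) x
  have hsum : (∑ σ : 𝔉 ≃ₐ[(P.φ ^ k).fieldRange] 𝔉, σ x) ≠ 0 := by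
    rw [← htr]; exact hφy
  have hx0 : x ≠ 0 := by
    intro h0
    apply hsum
    simp [h0]
  have hge : -((m : ℤ) * P.Λ k i) ≤
      P.ord i (∑ σ : 𝔉 ≃ₐ[(P.φ ^ k).fieldRange] 𝔉, σ x) := by
    refine P.ord_sum_ge i _ _ _ (fun σ _ _ => ?_) hsum
    obtain ⟨i', hi', hΛ'⟩ := P.stab k σ i
    have h1 : -((m : ℤ) * P.Λ k i') ≤ P.ord i' x := (P.mem_lam_of_ne hx0).1 hx i'
    rw [hi' x hx0, ← hΛ']
    exact h1
  rw [← htr, hord y hy0, hΛ] at hge
  show -((m : ℤ) * P.Λ 0 j) ≤ P.ord j y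
  nlinarith [hge]

/-! ### the growth datum -/

/-- **TOP-ABS.**  The abstract valuation package gives the growth datum of `s26c_stmtCore`. -/
theorem growth (g d : ℕ)
    (hfin : ∀ m, Module.Finite K (P.L m))
    (hG1 : ∃ c₁ c₂ : ℕ, ∀ m, 1 ≤ m →
      m ^ g ≤ c₁ * finrank K (P.L m) ∧ finrank K (P.L m) ≤ c₂ * m ^ g)
    (hb3 : ∀ k, ∀ x : 𝔉, ∃ c,
      x ∈ Submodule.span (P.φ ^ k).fieldRange ((P.L' k c : Submodule K 𝔉) : Set 𝔉))
    (hdeg : finrank P.φ.fieldRange 𝔉 = d) :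
    S26Growth K g n d := by
  refine ⟨𝔉, inferInstance, inferInstance, P.φ, P.L, P.L', hfin, P.finite_L' hfin, hG1,
    P.L_mono, P.L'_mono, ?_, fun k m x hx => P.b1 k m hx,
    fun k a b x hx y hy => P.b2 k a b hx hy, hb3, ?_, fun k m x hx => P.c2 k m hx, hdeg⟩
  · intro k
    refine ⟨1, 0, one_pos, fun m => ?_⟩
    have h := P.finrank_L' k m
    refine ⟨?_, ?_⟩
    · show finrank K (P.L' k (1 * m)) ≤ finrank K (P.L (n ^ (2 * k) * (1 * m) + 0))
      rw [one_mul, add_zero, h]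
    · show finrank K (P.L (n ^ (2 * k) * (1 * m))) ≤ finrank K (P.L' k (1 * m + 0))
      rw [one_mul, add_zero, h]
  · intro k
    haveI := P.fin k
    haveI := P.gal k
    exact ⟨inferInstance, inferInstance⟩

end S27taPkg

/-- **TOP-ABS, the count.** -/
theorem s27ta_card {K : Type u} [Field K] {𝔉 : Type u} [Field 𝔉] [Algebra K 𝔉] {n : ℕ}
    (hn : 0 < n) (P : S27taPkg.{u, v} K 𝔉 n) (g d : ℕ)
    (hfin : ∀ m, Module.Finite K (P.L m))
    (hG1 : ∃ c₁ c₂ : ℕ, ∀ m, 1 ≤ m →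
      m ^ g ≤ c₁ * finrank K (P.L m) ∧ finrank K (P.L m) ≤ c₂ * m ^ g)
    (hb3 : ∀ k, ∀ x : 𝔉, ∃ c,
      x ∈ Submodule.span (P.φ ^ k).fieldRange ((P.L' k c : Submodule K 𝔉) : Set 𝔉))
    (hdeg : finrank P.φ.fieldRange 𝔉 = d) :
    d = n ^ (2 * g) :=
  s26c_stmtCore K g n d hn (P.growth g d hfin hG1 hb3 hdeg)

end Fermat.Agent.S27

end
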