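/-
S27-B, piece **UP-ABS** (helper38): the FORMAL half of (FIN) + (UP) of the growth certificate
`S27IsGrow` (S27/Top.lean), twin of (ALG-ABS).

Model-free setting: `K ⊆ F` (the curve), `K ⊆ Ω` (the field of `g` generic points),
`ι k : F →ₐ[K] Ω` the coordinate embeddings, `N_k = s27kunN ι g k` the field of the other
coordinates (S27/Kunneth.lean), `j : 𝔉 →ₐ[K] Ω` the inclusion of the field `𝔉` of the frame,
`Θ ∈ Ωˣ` ("the theta function": a function with `div Θ ≥ D − (constant poles)`), and finite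
dimensional `K`-subspaces `Vm m ≤ F` (`= L_F(m B)`).

* `s27upT`            : the twisted copy `{j x · Θ^m | x ∈ L(m)}` of `L(m) = s27LU K b m` in `Ω`;
* `s27up_fin_finrank` : if `j x · Θ^m ∈ span_{N_k} ι_k(Vm m)` for all `x ∈ L(m)`, `k < g`, then
                        `L(m)` is finite dimensional of dimension `≤ (dim Vm m)^g`  (Künneth);
* `s27up_fin_up`      : with `dim Vm m ≤ c · m`: (FIN) and (UP) with `c₂ = c ^ g`;
* `s27up_isGrow`      : the certificate `S27IsGrow K b g` from (EFF) + (ALG) + the span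
                        hypothesis (via `s27g1u_isGrow`, helper36).
-/
import Fermat.Agent.S27.G1AbsU
import Fermat.Agent.S27.Kunneth

set_option autoImplicit false
set_option linter.unusedSectionVars false
set_option linter.style.haveILetI false

noncomputable section

namespace Fermat.Agent.S27

universe u v w x

section UpAbs

variable {K : Type u} [Field K] {F : Type v} [Field F] [Algebra K F]
  {Ω : Type w} [Field Ω] [Algebra K Ω] {𝔉 : Type x} [Field 𝔉] [Algebra K 𝔉]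

/-- the `K`-linear map `x ↦ j x · a`. -/
def s27upMul (j : 𝔉 →ₐ[K] Ω) (a : Ω) : 𝔉 →ₗ[K] Ω :=
  (LinearMap.mulRight K a).comp j.toLinearMap

theorem s27upMul_apply (j : 𝔉 →ₐ[K] Ω) (a : Ω) (x : 𝔉) : s27upMul j a x = j x * a := rfl

theorem s27upMul_injective (j : 𝔉 →ₐ[K] Ω) {a : Ω} (ha : a ≠ 0) :
    Function.Injective (s27upMul j a) := by
  intro x y hxy
  rw [s27upMul_apply, s27upMul_apply] at hxy
  exact j.toRingHom.injective (mul_right_cancel₀ ha hxy)

/-- the twisted copy `Θ^m · j (L(m))` of `L(m)` inside `Ω`. -/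
def s27upT (j : 𝔉 →ₐ[K] Ω) (b : ValuationSubring 𝔉 → 𝔉) (Θ : Ω) (m : ℕ) : Submodule K Ω :=
  (s27LU K b m).map (s27upMul j (Θ ^ m))

/-- **UP-ABS, Künneth form.** -/
theorem s27up_fin_finrank {g : ℕ} (hg : 0 < g) (ι : ℕ → F →ₐ[K] Ω)
    (hld : ∀ k, k < g → Function.Injective (s27kunMuK ι k (s27kunN ι g k)))
    (j : 𝔉 →ₐ[K] Ω) (b : ValuationSubring 𝔉 → 𝔉) (Θ : Ω) (hΘ : Θ ≠ 0) (m : ℕ)
    (V : Submodule K F) [FiniteDimensional K V]
    (hspan : ∀ x ∈ s27LU K b m, ∀ k, k < g →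
      j x * Θ ^ m ∈ Submodule.span (s27kunN ι g k) ((ι k) '' (V : Set F))) :
    Module.Finite K (s27LU K b m) ∧
      Module.finrank K (s27LU K b m) ≤ (Module.finrank K V) ^ g := by
  have hT : ∀ y ∈ s27upT j b Θ m, ∀ k, k < g →
      y ∈ Submodule.span (s27kunN ι g k) ((ι k) '' (V : Set F)) := by
    rintro y ⟨x, hx, rfl⟩ k hk
    exact hspan x hx k hk
  obtain ⟨hfin, hle⟩ := s27kun_finrank_le ι g hg V hld (s27upT j b Θ m) hT
  have hinj := s27upMul_injective (K := K) j (pow_ne_zero m hΘ)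
  let e : (s27LU K b m) ≃ₗ[K] (s27upT j b Θ m) :=
    Submodule.equivMapOfInjective (s27upMul j (Θ ^ m)) hinj (s27LU K b m)
  haveI := hfin
  exact ⟨Module.Finite.equiv e.symm, by rw [e.finrank_eq]; exact hle⟩

/-- **UP-ABS**: (FIN) and (UP). -/
theorem s27up_fin_up {g : ℕ} (hg : 0 < g) (ι : ℕ → F →ₐ[K] Ω)
    (hld : ∀ k, k < g → Function.Injective (s27kunMuK ι k (s27kunN ι g k)))
    (j : 𝔉 →ₐ[K] Ω) (b : ValuationSubring 𝔉 → 𝔉) (Θ : Ω) (hΘ : Θ ≠ 0)
    (Vm : ℕ → Submodule K F) (hVfin : ∀ m, FiniteDimensional K (Vm m)) (c : ℕ)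
    (hc : ∀ m, 1 ≤ m → Module.finrank K (Vm m) ≤ c * m)
    (hspan : ∀ m, ∀ x ∈ s27LU K b m, ∀ k, k < g →
      j x * Θ ^ m ∈ Submodule.span (s27kunN ι g k) ((ι k) '' (Vm m : Set F))) :
    (∀ m, Module.Finite K (s27LU K b m)) ∧
      ∃ c₂ : ℕ, ∀ m, 1 ≤ m → Module.finrank K (s27LU K b m) ≤ c₂ * m ^ g := by
  have key := fun m => by
    haveI := hVfin m
    exact s27up_fin_finrank hg ι hld j b Θ hΘ m (Vm m) (hspan m)
  refine ⟨fun m => (key m).1, c ^ g, fun m hm => ?_⟩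
  calc Module.finrank K (s27LU K b m) ≤ (Module.finrank K (Vm m)) ^ g := (key m).2
    _ ≤ (c * m) ^ g := Nat.pow_le_pow_left (hc m hm) g
    _ = c ^ g * m ^ g := mul_pow c m g

/-- **the growth certificate** from (EFF) + (ALG) + the span hypothesis. -/
theorem s27up_isGrow {g : ℕ} (hg : 0 < g) (ι : ℕ → F →ₐ[K] Ω)
    (hld : ∀ k, k < g → Function.Injective (s27kunMuK ι k (s27kunN ι g k)))
    (j : 𝔉 →ₐ[K] Ω) (b : ValuationSubring 𝔉 → 𝔉)
    (hb : ∀ V, S27IsKValU K V → b V ∈ V) (u : Fin g → 𝔉)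
    (hu : IsTranscendenceBasis K u) (c₀ : ℕ) (huL : ∀ i, u i ∈ s27LU K b c₀)
    (Θ : Ω) (hΘ : Θ ≠ 0)
    (Vm : ℕ → Submodule K F) (hVfin : ∀ m, FiniteDimensional K (Vm m)) (c : ℕ)
    (hc : ∀ m, 1 ≤ m → Module.finrank K (Vm m) ≤ c * m)
    (hspan : ∀ m, ∀ x ∈ s27LU K b m, ∀ k, k < g →
      j x * Θ ^ m ∈ Submodule.span (s27kunN ι g k) ((ι k) '' (Vm m : Set F))) :
    S27IsGrow K b g := by
  obtain ⟨hfin, hup⟩ := s27up_fin_up hg ι hld j b Θ hΘ Vm hVfin c hc hspan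
  exact s27g1u_isGrow b hb u hu c₀ huL hfin hup

end UpAbs

end Fermat.Agent.S27

end
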