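/-
S27-B, piece **UP-PLACE** (helper38): the span hypothesis of UP-ABS (S27/UpAbs.lean) from
PLACE-WISE bounds, one coordinate at a time.

Part A (helper96's Gauss setting `K 𝔠 𝔎 Ω`, S26/ERRGaussPlace + (RR-D) `s26errd_rr_eq`):
* `s27upp_mem_rr` : `y ∈ L_𝔎(Con B)` as soon as `0 ≤ ord_w y` at the places `w` of `Ω / 𝔎` that
  are trivial on `𝔠`, and `-B Q ≤ ord_w y` at the places `w` that restrict to `Q` on `𝔠`;
* `s27upp_span`   : then `y ∈ span_𝔎 (L_K(B))`.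

Part B (the coordinates `ι k : F →ₐ[K] Ω` of S27/Kunneth.lean, `𝔎 = N_k = s27kunN ι g k`,
`Algebra F Ω` through `ι k`; statement free of local instances):
* `s27upp_span_coord` : `y ∈ span_{N_k} (ι_k '' L_K(B))` from the place-wise bounds at the places
  of `Ω / N_k`.
-/
import Fermat.Agent.S26.ERRD4
import Fermat.Agent.S26.ERRGaussHPD
import Fermat.Agent.S27.Kunneth
import Fermat.Agent.S27.Lift

set_option autoImplicit false
set_option linter.style.haveILetI false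
set_option linter.unusedSectionVars false
set_option linter.unusedVariables false

noncomputable section

namespace Fermat.Agent.S27

open AlgebraicCurve TensorProduct IntermediateField Fermat.Agent.S26

section Gauss

variable {K 𝔠 𝔎 Ω : Type*} [Field K] [Field 𝔠] [Field 𝔎] [Field Ω]
  [Algebra K 𝔠] [Algebra K 𝔎] [Algebra K Ω] [Algebra 𝔠 Ω] [Algebra 𝔎 Ω]
  [IsScalarTower K 𝔠 Ω] [IsScalarTower K 𝔎 Ω]
variable (hld : Function.Injective (s26gspMu K 𝔠 𝔎 Ω)) (hgen : S26gspGen K 𝔠 𝔎 Ω)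
  (hall : ∀ P : Place K 𝔠, Function.Surjective (algebraMap K P.ResidueField))

/-- place-wise bounds ⇒ membership in `L_𝔎(Con B)`. -/
theorem s27upp_mem_rr (B : Divisor K 𝔠) (y : Ω)
    (htriv : ∀ w : Place 𝔎 Ω, (∀ u : 𝔠, w.ord (algebraMap 𝔠 Ω u) = 0) → y = 0 ∨ 0 ≤ w.ord y)
    (hcon : ∀ (w : Place 𝔎 Ω) (Q : Place K 𝔠),
      (∀ u : 𝔠, w.ord (algebraMap 𝔠 Ω u) = Q.ord u) → y = 0 ∨ -B Q ≤ w.ord y) :
    y ∈ riemannRochSpace (Finsupp.mapDomain (s26gspCon hld hgen hall) B) := by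
  rw [mem_riemannRochSpace_iff]
  intro w
  rcases s26gspc_dichotomy hld hgen hall w with ⟨Q, rfl⟩ | hw
  · rw [s26gspc_mapDomain_apply_con]
    exact hcon _ Q (fun u => s26gspc_ord_algebraMap hld hgen hall Q u)
  · rw [s26gspc_mapDomain_apply_of_trivial hld hgen hall B w hw]
    simpa using htriv w hw

include hld hgen hall in
/-- place-wise bounds ⇒ `y ∈ 𝔎 · L_K(B)`. -/
theorem s27upp_span {x : 𝔠} (hx : Transcendental K x) [FiniteDimensional K⟮x⟯ 𝔠]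
    [Algebra.IsSeparable K⟮x⟯ 𝔠] (B : Divisor K 𝔠) (y : Ω)
    (htriv : ∀ w : Place 𝔎 Ω, (∀ u : 𝔠, w.ord (algebraMap 𝔠 Ω u) = 0) → y = 0 ∨ 0 ≤ w.ord y)
    (hcon : ∀ (w : Place 𝔎 Ω) (Q : Place K 𝔠),
      (∀ u : 𝔠, w.ord (algebraMap 𝔠 Ω u) = Q.ord u) → y = 0 ∨ -B Q ≤ w.ord y) :
    y ∈ Submodule.span 𝔎 (algebraMap 𝔠 Ω '' (riemannRochSpace B : Set 𝔠)) := by
  rw [← s26errd_rr_eq hld hgen hall hx B]
  exact s27upp_mem_rr hld hgen hall B y htriv hcon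

/-! ### Part C: from the POINTWISE BOUND to `L_𝔎(Con (m B))` -/

section PB

universe uF

variable {𝔉 : Type uF} [Field 𝔉] [Algebra K 𝔉]

/-- the restriction of a place of `Ω / 𝔎` to `𝔉` is a valuation subring over `K`. -/
theorem s27upp_isKValU (j : 𝔉 →ₐ[K] Ω) (w : Place 𝔎 Ω) :
    S27IsKValU K (w.toValuationSubring.comap (j : 𝔉 →+* Ω)) := by
  intro a
  show j (algebraMap K 𝔉 a) ∈ w.toValuationSubring
  rw [j.commutes, IsScalarTower.algebraMap_apply K 𝔎 Ω]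
  exact Fermat.Agent.S24.PlaceAux.mem_of_ord_nonneg w
    (by rw [Fermat.Agent.S24.PlaceAux.ord_algebraMap])

/-- **UP-PB**: if `ord_w (b (w ∩ 𝔉)) ≤ ord_w Θ + (Con B)(w)` at every place `w` of `Ω / 𝔎`
(the pointwise bound: "`div Θ + Con B ≥ D`"), then `x ∈ L(m) ⇒ x · Θ^m ∈ L_𝔎(Con (m B))`. -/
theorem s27upp_mem_rr_of_pb (j : 𝔉 →ₐ[K] Ω) (b : ValuationSubring 𝔉 → 𝔉)
    (hbne : ∀ V, S27IsKValU K V → b V ≠ 0) (Θ : Ω) (hΘ : Θ ≠ 0) (B : Divisor K 𝔠)
    (hPB : ∀ w : Place 𝔎 Ω, w.ord (j (b (w.toValuationSubring.comap (j : 𝔉 →+* Ω)))) ≤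
      w.ord Θ + Finsupp.mapDomain (s26gspCon hld hgen hall) B w)
    (m : ℕ) (x : 𝔉) (hx : x ∈ s27LU K b m) :
    j x * Θ ^ m ∈ riemannRochSpace (Finsupp.mapDomain (s26gspCon hld hgen hall) (m • B)) := by
  rw [mem_riemannRochSpace_iff]
  intro w
  by_cases hx0 : x = 0
  · left; rw [hx0, map_zero, zero_mul]
  right
  have hV := s27upp_isKValU (K := K) j w
  have hb0 := hbne _ hV
  have hmem : j (x * b (w.toValuationSubring.comap (j : 𝔉 →+* Ω)) ^ m) ∈ w.toValuationSubring :=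
    hx _ hV
  have hjx : j x ≠ 0 := (map_ne_zero j).2 hx0
  have hjb : j (b (w.toValuationSubring.comap (j : 𝔉 →+* Ω))) ≠ 0 := (map_ne_zero j).2 hb0
  have hne : j (x * b (w.toValuationSubring.comap (j : 𝔉 →+* Ω)) ^ m) ≠ 0 :=
    (map_ne_zero j).2 (mul_ne_zero hx0 (pow_ne_zero _ hb0))
  have h1 := (Fermat.Agent.S24.PlaceAux.ord_nonneg_iff w hne).2 hmem
  rw [map_mul, map_pow, w.ord_mul hjx (pow_ne_zero _ hjb), Fermat.Agent.S24.place_ord_pow] at h1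
  rw [w.ord_mul hjx (pow_ne_zero _ hΘ), Fermat.Agent.S24.place_ord_pow, Finsupp.mapDomain_smul,
    Finsupp.smul_apply, nsmul_eq_mul]
  have h2 := hPB w
  have hm : (0 : ℤ) ≤ (m : ℤ) := by positivity
  nlinarith [mul_le_mul_of_nonneg_left h2 hm]

/-- **UP-PB, span form** (with (RR-D)). -/
theorem s27upp_span_of_pb {t : 𝔠} (ht : Transcendental K t) [FiniteDimensional K⟮t⟯ 𝔠]
    [Algebra.IsSeparable K⟮t⟯ 𝔠] (j : 𝔉 →ₐ[K] Ω) (b : ValuationSubring 𝔉 → 𝔉)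
    (hbne : ∀ V, S27IsKValU K V → b V ≠ 0) (Θ : Ω) (hΘ : Θ ≠ 0) (B : Divisor K 𝔠)
    (hPB : ∀ w : Place 𝔎 Ω, w.ord (j (b (w.toValuationSubring.comap (j : 𝔉 →+* Ω)))) ≤
      w.ord Θ + Finsupp.mapDomain (s26gspCon hld hgen hall) B w)
    (m : ℕ) (x : 𝔉) (hx : x ∈ s27LU K b m) :
    j x * Θ ^ m ∈
      Submodule.span 𝔎 (algebraMap 𝔠 Ω '' (riemannRochSpace (m • B) : Set 𝔠)) := by
  rw [← s26errd_rr_eq hld hgen hall ht (m • B)]
  exact s27upp_mem_rr_of_pb hld hgen hall j b hbne Θ hΘ B hPB m x hx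

end PB

end Gauss

section Coord

variable {K F Ω : Type*} [Field K] [Field F] [Field Ω] [Algebra K F] [Algebra K Ω]
variable (ι : ℕ → F →ₐ[K] Ω) (g : ℕ)

/-- the subalgebra `ι_k(F)[N_k]` contains every coordinate. -/
theorem s27upp_range_le (k : ℕ) (hk : k < g) :
    Algebra.adjoin K {x : Ω | ∃ j, 0 ≤ j ∧ j < g ∧ x ∈ Set.range (ι j)} ≤
      (s27kunMuK ι k (s27kunN ι g k)).range := by
  rw [Algebra.adjoin_le_iff]
  rintro x ⟨j, -, hj, f, rfl⟩
  by_cases hjk : j = k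
  · subst hjk
    exact (AlgHom.mem_range _).2 ⟨f ⊗ₜ[K] 1, by rw [s27kunMuK_tmul]; simp⟩
  · exact (AlgHom.mem_range _).2 ⟨(1 : F) ⊗ₜ[K] ⟨ι j f, s27kun_iota_mem_N ι g hj hjk f⟩, by
      rw [s27kunMuK_tmul]; simp⟩

/-- (GEN) for the `k`-th coordinate: `Ω = Frac (ι_k(F)[N_k])` when the coordinates generate. -/
theorem s27upp_gen (hΩ : s27kunL ι g 0 = ⊤) (k : ℕ) (hk : k < g) (z : Ω) :
    ∃ A B : F ⊗[K] (s27kunN ι g k), s27kunMuK ι k (s27kunN ι g k) B ≠ 0 ∧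
      z * s27kunMuK ι k (s27kunN ι g k) B = s27kunMuK ι k (s27kunN ι g k) A := by
  have hz : z ∈ s27kunL ι g 0 := by rw [hΩ]; exact IntermediateField.mem_top
  unfold s27kunL at hz
  rw [IntermediateField.mem_adjoin_iff_div] at hz
  obtain ⟨r, hr, s, hs, rfl⟩ := hz
  obtain ⟨A, rfl⟩ := (AlgHom.mem_range _).1 (s27upp_range_le ι g k hk hr)
  obtain ⟨B, rfl⟩ := (AlgHom.mem_range _).1 (s27upp_range_le ι g k hk hs)
  have h1 : s27kunMuK ι k (s27kunN ι g k) 1 = 1 := by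
    rw [Algebra.TensorProduct.one_def, s27kunMuK_tmul]; simp
  have h0 : s27kunMuK ι k (s27kunN ι g k) 0 = 0 := by
    rw [← TensorProduct.zero_tmul F (1 : s27kunN ι g k), s27kunMuK_tmul]; simp
  by_cases hB : s27kunMuK ι k (s27kunN ι g k) B = 0
  · refine ⟨0, 1, by rw [h1]; exact one_ne_zero, ?_⟩
    rw [h1, h0, hB, div_zero, zero_mul]
  · exact ⟨A, B, hB, div_mul_cancel₀ _ hB⟩

/-- **UP-PLACE, one coordinate**: place-wise bounds at the places of `Ω / N_k` give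
`y ∈ span_{N_k} (ι_k '' L_K(B))`. -/
theorem s27upp_span_coord [IsAlgClosed K] [CharZero K] (hΩ : s27kunL ι g 0 = ⊤)
    (k : ℕ) (hk : k < g)
    (hld : Function.Injective (s27kunMuK ι k (s27kunN ι g k)))
    {x : F} (hx : Transcendental K x) [FiniteDimensional K⟮x⟯ F]
    (B : Divisor K F) (y : Ω)
    (htriv : ∀ w : Place (s27kunN ι g k) Ω, (∀ u : F, w.ord (ι k u) = 0) → y = 0 ∨ 0 ≤ w.ord y)
    (hcon : ∀ (w : Place (s27kunN ι g k) Ω) (Q : Place K F),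
      (∀ u : F, w.ord (ι k u) = Q.ord u) → y = 0 ∨ -B Q ≤ w.ord y) :
    y ∈ Submodule.span (s27kunN ι g k) ((ι k) '' (riemannRochSpace B : Set F)) := by
  letI algF : Algebra F Ω := (ι k).toRingHom.toAlgebra
  haveI tF : IsScalarTower K F Ω := IsScalarTower.of_algebraMap_eq fun a => ((ι k).commutes a).symm
  have hmu : s26gspMu K F (s27kunN ι g k) Ω = s27kunMuK ι k (s27kunN ι g k) := by
    apply Algebra.TensorProduct.ext'
    intro a b
    rw [s26gspMu_tmul, s27kunMuK_tmul]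
    rfl
  have hld' : Function.Injective (s26gspMu K F (s27kunN ι g k) Ω) := by rw [hmu]; exact hld
  have hgen' : S26gspGen K F (s27kunN ι g k) Ω := by
    intro z
    obtain ⟨A, B, hB, hAB⟩ := s27upp_gen ι g hΩ k hk z
    exact ⟨A, B, by rw [hmu]; exact hB, by rw [hmu]; exact hAB⟩
  haveI : CharZero F := charZero_of_injective_algebraMap (algebraMap K F).injective
  haveI : CharZero K⟮x⟯ := charZero_of_injective_algebraMap (algebraMap K K⟮x⟯).injective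
  haveI : Algebra.IsAlgebraic K⟮x⟯ F := Algebra.IsAlgebraic.of_finite _ _
  haveI : Algebra.IsSeparable K⟮x⟯ F := Algebra.IsAlgebraic.isSeparable_of_perfectField
  exact s27upp_span hld' hgen' (fun P => s26gspf_hall hx P) hx B y htriv hcon

end Coord

end Fermat.Agent.S27

end
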