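/-
S27-B — UP-SYM, adapter to the pointwise cube (formal hub helper11).

`s27upsc_main`: (FIN) + (UP) for `b₁ = s27indb ψ β 1 = B 1 · B (−1)` from
  * (FIN) + (UP) for `β` alone (helper28's `s27u1_main`),
  * `cube_1` in the literal shape of `s27indb_crux` / `s27geo2_Stmt` (`k = 1`, exponent `e`),
  * `gen` for `b₁` (`s27g1u_gen_of_transcendenceBasis`),
  * `Module.Finite (ψ 2).fieldRange 𝔉`, characteristic `0`.
-/
import Fermat.Agent.S27.UpSym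
import Fermat.Agent.S27.Ind

set_option autoImplicit false

noncomputable section

namespace Fermat.Agent.S27

universe u w

variable {K : Type u} [Field K] {𝔉 : Type w} [Field 𝔉] [Algebra K 𝔉]

theorem s27upsc_B_two (ψ : ℤ → (𝔉 →ₐ[K] 𝔉)) (β : ValuationSubring 𝔉 → 𝔉)
    (V : ValuationSubring 𝔉) : s27indB ψ β 2 V = s27upsB (ψ 2) β V := by
  unfold s27indB s27upsB
  rw [if_neg (by norm_num)]

/-- `cube_1` gives the hypothesis (U2) of `s27ups_main`. -/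
theorem s27upsc_cube (ψ : ℤ → (𝔉 →ₐ[K] 𝔉)) (β : ValuationSubring 𝔉 → 𝔉)
    (hβ : ∀ V, S27IsKValU K V → β V ∈ V) (Φ : 𝔉) (e : ℕ)
    (hcube : ∀ V, S27IsKValU K V → ∃ u : 𝔉, S27IsUnitIn V u ∧
      (s27indB ψ β (1 + 1) V * s27indB ψ β (1 - 1) V) ^ e =
        u * Φ * (s27indB ψ β 1 V ^ 2 * s27indB ψ β 1 V * s27indB ψ β (-1) V) ^ e)
    (V : ValuationSubring 𝔉) (hV : S27IsKValU K V) :
    ∃ w ∈ V, s27upsB (ψ 2) β V ^ e = w * Φ * s27indb ψ β 1 V ^ e := by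
  obtain ⟨u, hu, h⟩ := hcube V hV
  have h0 : s27indB ψ β (1 - 1) V = 1 := by
    unfold s27indB
    rw [if_pos (by norm_num)]
  have h2 : s27indB ψ β (1 + 1) V = s27upsB (ψ 2) β V := by
    have : (1 : ℤ) + 1 = 2 := by norm_num
    rw [this]
    exact s27upsc_B_two ψ β V
  rw [h0, h2, mul_one] at h
  have hB1 : s27indB ψ β 1 V ∈ V := s27indB_mem ψ β hβ 1 hV
  refine ⟨u * s27indB ψ β 1 V ^ (2 * e), V.mul_mem _ _ hu.2.1 (V.pow_mem hB1 _), ?_⟩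
  rw [h]
  unfold s27indb
  rw [pow_one, pow_mul]
  ring

/-- **UP-SYM on the family `ψ`**: (FIN) + (UP) for `b₁ = B 1 · B (−1)`. -/
theorem s27upsc_main (ψ : ℤ → (𝔉 →ₐ[K] 𝔉)) [CharZero K] (β : ValuationSubring 𝔉 → 𝔉) (g : ℕ)
    (hβ : ∀ V, S27IsKValU K V → β V ∈ V)
    (hfin : Module.Finite (ψ 2).fieldRange 𝔉)
    (Φ : 𝔉) (hΦ : Φ ≠ 0) (e : ℕ) (he : 0 < e)
    (hcube : ∀ V, S27IsKValU K V → ∃ u : 𝔉, S27IsUnitIn V u ∧
      (s27indB ψ β (1 + 1) V * s27indB ψ β (1 - 1) V) ^ e =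
        u * Φ * (s27indB ψ β 1 V ^ 2 * s27indB ψ β 1 V * s27indB ψ β (-1) V) ^ e)
    (hgen : ∀ x : 𝔉, ∃ c, ∃ a ∈ s27LU K (s27indb ψ β 1) c, ∃ d ∈ s27LU K (s27indb ψ β 1) c,
      d ≠ 0 ∧ x * d = a)
    (hfinβ : ∀ m, Module.Finite K (s27LU K β m))
    (hupβ : ∃ c₂ : ℕ, ∀ m, 1 ≤ m → Module.finrank K (s27LU K β m) ≤ c₂ * m ^ g) :
    (∀ m, Module.Finite K (s27LU K (s27indb ψ β 1) m)) ∧
      ∃ c₃ : ℕ, ∀ m, 1 ≤ m →
        Module.finrank K (s27LU K (s27indb ψ β 1) m) ≤ c₃ * m ^ g := by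
  have hb₁ : ∀ V, S27IsKValU K V → s27indb ψ β 1 V ∈ V := fun V hV => by
    unfold s27indb
    rw [pow_one]
    exact V.mul_mem _ _ (s27indB_mem ψ β hβ 1 hV) (s27indB_mem ψ β hβ (-1) hV)
  exact s27ups_main (ψ 2) β (s27indb ψ β 1) g hβ hb₁ hfin Φ hΦ e he
    (s27upsc_cube ψ β hβ Φ e hcube) hgen hfinβ hupβ

end Fermat.Agent.S27

end
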