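/-
S27 route B — (U1) for helper19's concrete `β = s27beta A'` (helper28): the composition of
`s27u1_main` (S27/UpU1.lean) with the package BETA `s27betat_main` (S27/BetaTheta.lean).

`s27u1b_main hx₀ A' B₁ hAB hB₁ f hlat :
   (∀ m, Module.Finite K (s27LU K (s27beta A') m)) ∧
   ∃ c₂, ∀ m ≥ 1, finrank K (s27LU K (s27beta A') m) ≤ c₂ * m^(g+1)`
on the model of genus `g + 1`; inputs: `A' ≤ B₁`, `0 ≤ B₁`, a `K`-basis `f` of `L_K(A')` indexed by
`Fin (g+1)`, and LAT-EX (`hlat`, existence of a lattice basis along every `W ⊇ K`).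
= (U1) of `s27ups_main` (S27/UpSym.lean).
-/
import Fermat.Agent.S27.UpU1
import Fermat.Agent.S27.BetaTheta

set_option autoImplicit false
set_option linter.unusedSectionVars false
set_option linter.unusedVariables false
set_option linter.style.haveILetI false

noncomputable section

open AlgebraicCurve TensorProduct Module IntermediateField Fermat.Agent.S26 Fermat.Agent.S24

namespace Fermat.Agent.S27

universe u v

section U1B

variable {K : Type u} {F : Type v} [Field K] [IsAlgClosed K] [CharZero K] [Field F] [Algebra K F]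
  {g : ℕ}

/-- **(U1) for helper19's `s27beta`**: (FIN) + (UP) for `β = s27beta A'` on the model of genus
`g + 1`, from LAT-EX (`hlat`) and a `K`-basis of `L_K(A')` indexed by `Fin (g+1)` only. -/
theorem s27u1b_main {x₀ : F} (hx₀ : Transcendental K x₀) [FiniteDimensional K⟮x₀⟯ F]
    (A' B₁ : Divisor K F) (hAB : A' ≤ B₁) (hB₁ : 0 ≤ B₁)
    (f : Module.Basis (Fin (g + 1)) K ↥(riemannRochSpace A'))
    (hlat : ∀ W : ValuationSubring (s27gfOm K F (g + 1)),
      (∀ a : K, algebraMap K (s27gfOm K F (g + 1)) a ∈ W) →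
        ∃ φ : Fin (g + 1) → F, S27ptIsLatBasis W (s27betaPt K F (g + 1)) A' φ) :
    (∀ m, Module.Finite K (s27LU K (s27beta (g := g + 1) A') m)) ∧
      ∃ c₂ : ℕ, ∀ m, 1 ≤ m →
        Module.finrank K (s27LU K (s27beta (g := g + 1) A') m) ≤ c₂ * m ^ (g + 1) := by
  obtain ⟨h1, -, h3⟩ := s27betat_main (g := g + 1) A' f hlat
  exact s27u1_main hx₀ A' B₁ hAB hB₁ f (s27beta (g := g + 1) A') h1 h3

end U1B

end Fermat.Agent.S27

end
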